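/-
W1 = [GRΓ1] (S48), package [RAM1] (helper3), part 1 (generic, function fields):

* `Coord.exists_place_of_valuationSubring` : in a function field `F / k` (characteristic zero, with
  a coordinate), every valuation subring `W ≠ ⊤` of `F` containing `k` is the valuation ring of a
  place;
* `exists_place_ext_of_isConstExt` : **extension of places in a constant field extension, without
  any rationality hypothesis**: if `FL = L · FK` is a constant field extension of `FK / K`
  (`GR.IsConstExt`) and `FL / L` has a coordinate, every place `P` of `FK / K` lies under a place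
  `Q` of `FL / L`: `Q.ord (x) = e * P.ord x` on `FK` for some `e > 0`.
-/
import Mathlib
import Fermat.Agent.FF.PlaceDict
import Fermat.Agent.GR.DESC_helper3_Place

set_option autoImplicit false
set_option linter.unusedSectionVars false
set_option linter.style.haveILetI false

open Polynomial AlgebraicCurve IsDedekindDomain WithZero IntermediateField

namespace Fermat.Agent.W1

open Fermat.Agent.FF Fermat.Agent.FF.RR Fermat.Agent.GR

section Dedekind

variable {k F : Type*} [Field k] [Field F] [Algebra k F]
variable {R : Type*} [CommRing R] [IsDedekindDomain R] [Algebra R F] [IsFractionRing R F]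
  [Algebra k R] [IsScalarTower k R F]

/-- A valuation subring `≠ ⊤` of `F = Frac R` containing the Dedekind domain `R` is the valuation
ring of a nonzero prime of `R`. -/
theorem exists_placeOf_eq_valuationSubring (W : ValuationSubring F) (hW : W ≠ ⊤)
    (hv : ∀ r : R, algebraMap R F r ∈ W) :
    ∃ w : HeightOneSpectrum R, (placeOf (k := k) w).toValuationSubring = W := by
  let φ : R →+* W := (algebraMap R F).codRestrict W.toSubring hv
  let P : Ideal R := (IsLocalRing.maximalIdeal W).comap φ
  have hPprime : P.IsPrime := Ideal.comap_isPrime φ _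
  have hPne : P ≠ ⊥ := by
    intro hbot
    apply hW
    have hunit : ∀ r : R, r ≠ 0 → IsUnit (φ r) := by
      intro r hr
      by_contra hnu
      have : r ∈ P := by
        show φ r ∈ IsLocalRing.maximalIdeal _
        exact (IsLocalRing.mem_maximalIdeal _).mpr hnu
      rw [hbot] at this
      exact hr this
    refine SetLike.ext fun f => ⟨fun _ => ValuationSubring.mem_top f, fun _ => ?_⟩
    obtain ⟨a, s, hs, rfl⟩ := IsFractionRing.div_surjective (A := R) f
    have hs0 : s ≠ 0 := nonZeroDivisors.ne_zero hs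
    have h1 := inv_mem_of_isUnit W (hunit s hs0)
    rw [div_eq_mul_inv]
    exact W.mul_mem _ _ (hv a) h1
  let w : HeightOneSpectrum R := ⟨P, hPprime, hPne⟩
  refine ⟨w, ?_⟩
  show (w.valuation F).valuationSubring = W
  rw [← HeightOneSpectrum.valuationSubringAtPrime_eq_valuationSubring]
  apply ValuationSubring.eq_of_le_of_ne_top _ _ hW
  intro f hf
  have hf' : w.valuation F f ≤ 1 := by
    have := HeightOneSpectrum.valuationSubringAtPrime_le_valuation (K := F) w hf
    exact (Valuation.mem_valuationSubring_iff _ _).mp this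
  obtain ⟨n, d, hnd⟩ := w.exists_primeCompl_mul_eq_of_integer f hf'
  have hd : IsUnit (φ d) := by
    by_contra hnu
    exact d.2 ((IsLocalRing.mem_maximalIdeal _).mpr hnu)
  have hd0 : algebraMap R F d ≠ 0 := by
    intro h0
    have : φ d = 0 := Subtype.ext h0
    rw [this] at hd
    exact not_isUnit_zero hd
  have h1 := inv_mem_of_isUnit W hd
  have : f = algebraMap R F n * (algebraMap R F d)⁻¹ := by
    field_simp; exact hnd
  rw [this]
  exact W.mul_mem _ _ (hv n) h1

end Dedekind

section Setting

variable (k F : Type*) [Field k] [Field F] [Algebra k F] [Algebra k[X] F] [Algebra (RatFunc k) F]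
  [IsScalarTower k[X] (RatFunc k) F] [IsScalarTower k k[X] F] [IsScalarTower k (RatFunc k) F]
  [FiniteDimensional (RatFunc k) F] [Algebra.IsSeparable (RatFunc k) F]

theorem algebraMap_poly_mem_valuationSubring (W : ValuationSubring F)
    (hk : ∀ a : k, algebraMap k F a ∈ W) (hx : xF k F ∈ W) (p : k[X]) :
    algebraMap k[X] F p ∈ W := by
  rw [algebraMap_poly_eq_aeval_xF]
  induction p using Polynomial.induction_on with
  | C a =>
    rw [aeval_C]
    exact hk a
  | add p q hp hq => rw [map_add]; exact W.add_mem _ _ hp hq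
  | monomial n a h =>
    rw [pow_succ, ← mul_assoc, map_mul, aeval_X]
    exact W.mul_mem _ _ h hx

/-- in the typeclass setting: a valuation subring `≠ ⊤` containing `k` and the coordinate is the
valuation ring of a place. -/
theorem exists_place_of_valuationSubring_of_xF_mem (W : ValuationSubring F) (hW : W ≠ ⊤)
    (hk : ∀ a : k, algebraMap k F a ∈ W) (hx : xF k F ∈ W) :
    ∃ Q : Place k F, Q.toValuationSubring = W := by
  have hB : ∀ r : FunctionField.ringOfIntegers k F,
      algebraMap (FunctionField.ringOfIntegers k F) F r ∈ W := fun r =>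
    mem_of_isIntegral_of_forall_mem W (algebraMap_poly_mem_valuationSubring k F W hk hx) r.2
  obtain ⟨w, hw⟩ := exists_placeOf_eq_valuationSubring (k := k) W hW hB
  exact ⟨_, hw⟩

end Setting

section Coord

variable {k F : Type*} [Field k] [Field F] [Algebra k F] [CharZero k]

theorem _root_.Fermat.Agent.FF.Coord.exists_place_of_valuationSubring_of_x_mem (c : Coord k F) (W : ValuationSubring F)
    (hW : W ≠ ⊤) (hk : ∀ a : k, algebraMap k F a ∈ W) (hx : c.x ∈ W) :
    ∃ Q : Place k F, Q.toValuationSubring = W := by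
  obtain ⟨i1, i2, i3, i4, i5, i6, i7, hxF⟩ := c.exists_typeclass_setting
  exact exists_place_of_valuationSubring_of_xF_mem k F W hW hk (by rw [hxF]; exact hx)

/-- **In a function field `F / k` every valuation subring `W ≠ ⊤` of `F` containing `k` is the
valuation ring of a place.** -/
theorem _root_.Fermat.Agent.FF.Coord.exists_place_of_valuationSubring (c : Coord k F) (W : ValuationSubring F)
    (hW : W ≠ ⊤) (hk : ∀ a : k, algebraMap k F a ∈ W) :
    ∃ Q : Place k F, Q.toValuationSubring = W := by
  by_cases hx : c.x ∈ W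
  · exact c.exists_place_of_valuationSubring_of_x_mem W hW hk hx
  · have hx' : c.inv.x ∈ W := (W.mem_or_inv_mem c.x).resolve_left hx
    exact c.inv.exists_place_of_valuationSubring_of_x_mem W hW hk hx'

end Coord

section ConstExt

variable {K L FK FL : Type*} [Field K] [Field L] [Algebra K L] [Field FK] [Field FL]
  [Algebra K FK] [Algebra L FL] [Algebra FK FL] [Algebra K FL] [IsScalarTower K FK FL]
  [IsScalarTower K L FL]

/-- a place of `FL / L` whose valuation ring lies over the place `P` of `FK / K` has order function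
`e · ord_P` on `FK`, `e > 0`. -/
theorem exists_ord_eq_mul_of_liesOverPlace (P : Place K FK) (Q : Place L FL)
    (hQ : LiesOverPlace (L := L) Q.toValuationSubring P) :
    ∃ e : ℤ, 0 < e ∧ ∀ x : FK, Q.ord (algebraMap FK FL x) = e * P.ord x := by
  obtain ⟨τ', hτ'⟩ := IsDiscreteValuationRing.exists_irreducible ↥P.toValuationSubring
  set τ : FK := (τ' : FK) with hτdef
  have hτ : P.ord τ = 1 := P.ord_coe_irreducible hτ'
  have hτ0 : τ ≠ 0 := by
    rintro h0
    rw [h0, P.ord_zero] at hτ
    exact zero_ne_one hτ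
  have hinj : Function.Injective (algebraMap FK FL) := (algebraMap FK FL).injective
  have hmap0 : ∀ {x : FK}, x ≠ 0 → algebraMap FK FL x ≠ 0 := fun hx =>
    (map_ne_zero_iff _ hinj).mpr hx
  -- units of `O_P` have order zero
  have hunit : ∀ x : FK, x ≠ 0 → P.ord x = 0 → Q.ord (algebraMap FK FL x) = 0 := by
    intro x hx0 hx
    have h1 : x ∈ P.toValuationSubring := (PlaceAux.mem_iff_ord_nonneg' P hx0).mpr hx.ge
    have h2 : x⁻¹ ∈ P.toValuationSubring := by
      rw [PlaceAux.mem_iff_ord_nonneg' P (inv_ne_zero hx0), P.ord_inv, hx, neg_zero]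
    have h3 := PlaceAux.ord_nonneg_of_mem Q (hQ.map_mem x h1)
    have h4 := PlaceAux.ord_nonneg_of_mem Q (hQ.map_mem x⁻¹ h2)
    rw [map_inv₀, Q.ord_inv] at h4
    omega
  -- the uniformiser has positive order
  have hpos : 0 < Q.ord (algebraMap FK FL τ) := by
    have h1 := hQ.map_nonunit τ hτ0 (by rw [hτ]; exact one_pos)
    have h3 : (algebraMap FK FL τ)⁻¹ ∉ Q.toValuationSubring := by
      intro h4
      have h5 := (Q.toValuationSubring.valuation_le_one_iff _).mpr h4
      rw [map_inv₀] at h5
      have h6 : Q.toValuationSubring.valuation (algebraMap FK FL τ) ≠ 0 :=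
        (Valuation.ne_zero_iff _).mpr (hmap0 hτ0)
      have h7 : 1 ≤ Q.toValuationSubring.valuation (algebraMap FK FL τ) :=
        (inv_le_one₀ (zero_lt_iff.mpr h6)).mp h5
      exact absurd h1 (not_lt.mpr h7)
    have h8 : ¬ 0 ≤ Q.ord (algebraMap FK FL τ)⁻¹ := fun h =>
      h3 ((PlaceAux.mem_iff_ord_nonneg' Q (inv_ne_zero (hmap0 hτ0))).mpr h)
    rw [Q.ord_inv] at h8
    omega
  refine ⟨Q.ord (algebraMap FK FL τ), hpos, fun x => ?_⟩
  by_cases hx0 : x = 0
  · rw [hx0, map_zero, Q.ord_zero, P.ord_zero, mul_zero]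
  -- `x = τ ^ n · u`
  set n := P.ord x with hn
  have hu0 : x * (τ ^ n)⁻¹ ≠ 0 := mul_ne_zero hx0 (inv_ne_zero (zpow_ne_zero _ hτ0))
  have hu : P.ord (x * (τ ^ n)⁻¹) = 0 := by
    rw [P.ord_mul hx0 (inv_ne_zero (zpow_ne_zero _ hτ0)), P.ord_inv, Place.ord_zpow, hτ]
    omega
  have h1 := hunit _ hu0 hu
  rw [map_mul, map_inv₀, map_zpow₀, Q.ord_mul (hmap0 hx0)
    (inv_ne_zero (zpow_ne_zero _ (hmap0 hτ0))), Q.ord_inv, Place.ord_zpow] at h1
  linarith

/-- **extension of places in a constant field extension** (no rationality hypothesis on `P`). -/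
theorem exists_place_ext_of_isConstExt [CharZero L] (h : IsConstExt K L FK FL) (c : Coord L FL)
    (P : Place K FK) :
    ∃ (Q : Place L FL) (e : ℤ), 0 < e ∧ ∀ x : FK, Q.ord (algebraMap FK FL x) = e * P.ord x := by
  obtain ⟨W, hW⟩ := h.exists_liesOverPlace (L := L) P
  obtain ⟨τ', hτ'⟩ := IsDiscreteValuationRing.exists_irreducible ↥P.toValuationSubring
  have hτ : P.ord (τ' : FK) = 1 := P.ord_coe_irreducible hτ'
  have hτ0 : (τ' : FK) ≠ 0 := by
    intro h0
    rw [h0, P.ord_zero] at hτ
    exact zero_ne_one hτ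
  have hWtop : W ≠ ⊤ := by
    intro htop
    have h1 := hW.map_nonunit (τ' : FK) hτ0 (by rw [hτ]; exact one_pos)
    have h2 : (algebraMap FK FL (τ' : FK))⁻¹ ∈ W := by rw [htop]; exact ValuationSubring.mem_top _
    have h5 := (W.valuation_le_one_iff _).mpr h2
    rw [map_inv₀] at h5
    have h6 : W.valuation (algebraMap FK FL (τ' : FK)) ≠ 0 :=
      (Valuation.ne_zero_iff _).mpr ((map_ne_zero_iff _ (algebraMap FK FL).injective).mpr hτ0)
    have h7 : 1 ≤ W.valuation (algebraMap FK FL (τ' : FK)) :=
      (inv_le_one₀ (zero_lt_iff.mpr h6)).mp h5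
    exact absurd h1 (not_lt.mpr h7)
  obtain ⟨Q, hQ⟩ := c.exists_place_of_valuationSubring W hWtop hW.const_mem
  obtain ⟨e, he, hord⟩ := exists_ord_eq_mul_of_liesOverPlace P Q (by rw [hQ]; exact hW)
  exact ⟨Q, e, he, hord⟩

end ConstExt

end Fermat.Agent.W1
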