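/-
W1 = [GRΓ1] (S48), package [REAL1] (helper9), part 2 (port of `X0N/Mer_helper6_RealN` +
`isModFun_realN` of `X0N/Mer_helper6_Conj`): **the analytic realisation**
`realML ι M L : ↥(laurentBaseChange k (F₁ M L)) →+* MerH` of the function field of level
`Gpm M L` over a field `k ⊆ ℂ`; its values on the generators, the induction principle
`F₁_induction`, invariance under `Gpm M L` and `IsModFun (Gpm M L)`; compatibility with `realN`
on the subfield `k(j(q^d) : d ∣ M L)`.
-/
import Fermat.Agent.W1.REAL1_helper9_Level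
import Fermat.Agent.X0N.Mer_helper6_Conj

set_option autoImplicit false

open UpperHalfPlane hiding I
open Complex Filter Topology ModularCurve IntermediateField CongruenceSubgroup
open scoped MatrixGroups Manifold

namespace Fermat.Agent.W1

open Fermat.Agent.RatStr Fermat.Agent.X0N

noncomputable section

variable {k : Type*} [Field k] [Algebra ℚ k] (ι : k →+* ℂ)

/-- `φ_a(q^e)` with coefficients in `k` is a convergent series. -/
theorem coeffEmb_phiE_mem_convSeries {M : ℕ} {a : ZMod M} (ha : a ≠ 0) (e : ℕ) [NeZero e] :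
    coeffEmb k (qExpand ℚ e (phiGen ℚ M a)) ∈ convSeries ι := by
  rw [mem_convSeries]
  exact ⟨phiFunE M a e, isMeroInfty_phiFunE M a (NeZero.ne e), by
    rw [laurent_phiFunE ha, coeffMap_coeffEmb_eq]⟩

variable (M L : ℕ)

theorem F₁_le_merSeriesI : laurentBaseChange k (F₁ M L) ≤ merSeriesI ι := by
  apply laurentBaseChange_le_merSeriesI
  rintro s (⟨d, hd, _, rfl⟩ | ⟨e, he, a, _, ha, rfl⟩)
  · have := hd
    exact convSeries_le_merSeries ι (coeffEmb_jqd_mem_convSeries ι d)
  · have := he
    exact convSeries_le_merSeries ι (coeffEmb_phiE_mem_convSeries ι ha e)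

/-- The inclusion of the function field into `merSeries ι`. -/
def inclML : ↥(laurentBaseChange k (F₁ M L)) →+* merSeries ι where
  toFun x := ⟨x.1, F₁_le_merSeriesI ι M L x.2⟩
  map_one' := rfl
  map_mul' _ _ := rfl
  map_zero' := rfl
  map_add' _ _ := rfl

/-- **The analytic realisation** of the function field `F₁ M L ⊗ k ⊆ k((q))` of level `Gpm M L`
as meromorphic functions on `ℍ`. -/
def realML : ↥(laurentBaseChange k (F₁ M L)) →+* MerH :=
  (merSeries.real ι).comp (inclML ι M L)

theorem realML_injective : Function.Injective (realML ι M L) := (realML ι M L).injective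

theorem realML_algebraMap (c : k) :
    realML ι M L (algebraMap k _ c) = MerH.const (ι c) :=
  merSeries.real_const ι c

variable {M L}

/-- `j(q^d)`, `d ∣ M L`, as an element of the function field. -/
def jdBarML {d : ℕ} [NeZero d] (hd : d ∣ M * L) : ↥(laurentBaseChange k (F₁ M L)) :=
  ⟨coeffEmb k (qExpand ℚ d jq), coeffEmb_mem_laurentBaseChange k (jqd_mem_F₁ hd)⟩

/-- `φ_a(q^e)`, `e ∣ L`, `a ≠ 0`, as an element of the function field. -/
def phiBarML {e : ℕ} [NeZero e] (he : e ∣ L) {a : ZMod M} (ha : a ≠ 0) :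
    ↥(laurentBaseChange k (F₁ M L)) :=
  ⟨coeffEmb k (qExpand ℚ e (phiGen ℚ M a)), coeffEmb_mem_laurentBaseChange k (phi_mem_F₁ he ha)⟩

theorem realML_jdBarML {d : ℕ} [NeZero d] (hd : d ∣ M * L) :
    realML ι M L (jdBarML (k := k) hd) = MerH.ofHol (jdHol d) := by
  obtain ⟨hx, h⟩ := merSeries.real_of_laurent_eq ι (x := coeffEmb k (qExpand ℚ d jq))
    (isMeroInfty_jFunN (NeZero.ne d)) (by rw [laurent_jFunN, coeffMap_coeffEmb_eq])
  exact h

theorem realML_phiBarML {e : ℕ} [NeZero e] (he : e ∣ L) {a : ZMod M} (ha : a ≠ 0) :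
    realML ι M L (phiBarML (k := k) he ha) = MerH.ofHol (phiHolE M a e) := by
  obtain ⟨hx, h⟩ := merSeries.real_of_laurent_eq ι
    (x := coeffEmb k (qExpand ℚ e (phiGen ℚ M a)))
    (isMeroInfty_phiFunE M a (NeZero.ne e)) (by rw [laurent_phiFunE ha, coeffMap_coeffEmb_eq])
  exact h

/-- Induction principle, rational part. -/
theorem F₁_induction_aux
    {p : ↥(laurentBaseChange k (F₁ M L)) → Prop}
    (hconst : ∀ c : k, p (algebraMap k _ c))
    (hj : ∀ (d : ℕ) [NeZero d] (hd : d ∣ M * L), p (jdBarML hd))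
    (hphi : ∀ (e : ℕ) [NeZero e] (he : e ∣ L) (a : ZMod M) (ha : a ≠ 0), p (phiBarML he ha))
    (hadd : ∀ x y, p x → p y → p (x + y))
    (hmul : ∀ x y, p x → p y → p (x * y))
    (hinv : ∀ x, p x → p x⁻¹)
    (y : LaurentSeries ℚ) (hy : y ∈ F₁ M L) :
    p ⟨coeffEmb k y, coeffEmb_mem_laurentBaseChange k hy⟩ := by
  have hy' : y ∈ IntermediateField.adjoin ℚ (divisorExpansions (M * L) ∪ phiExpansions M L) := hy
  refine IntermediateField.adjoin_induction ℚ
    (p := fun y hy => p ⟨coeffEmb k y, coeffEmb_mem_laurentBaseChange k hy⟩)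
    ?_ ?_ ?_ ?_ ?_ hy'
  · rintro y (⟨d, hd, hdN, rfl⟩ | ⟨e, he, a, heL, ha, rfl⟩)
    · have := hd
      exact hj d hdN
    · have := he
      exact hphi e heL a ha
  · intro c
    have h1 := hconst (algebraMap ℚ k c)
    convert h1 using 1
    exact Subtype.ext (coeffEmb_algebraMap_rat c)
  · intro x y hx hy h1 h2
    have h3 := hadd _ _ h1 h2
    convert h3 using 1
    exact Subtype.ext (map_add (coeffEmb k) x y)
  · intro x hx h1
    have h3 := hinv _ h1
    convert h3 using 1
    exact Subtype.ext (map_inv₀ (coeffEmb k) x)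
  · intro x y hx hy h1 h2
    have h3 := hmul _ _ h1 h2
    convert h3 using 1
    exact Subtype.ext (map_mul (coeffEmb k) x y)

/-- **Induction principle for the function field of level `Gpm M L`**: a property of elements of
`k(j(q^d), φ_a(q^e))` that holds for constants and for the generators, and is stable under
`+`, `*`, `⁻¹`, holds for all elements. -/
theorem F₁_induction
    {p : ↥(laurentBaseChange k (F₁ M L)) → Prop}
    (hconst : ∀ c : k, p (algebraMap k _ c))
    (hj : ∀ (d : ℕ) [NeZero d] (hd : d ∣ M * L), p (jdBarML hd))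
    (hphi : ∀ (e : ℕ) [NeZero e] (he : e ∣ L) (a : ZMod M) (ha : a ≠ 0), p (phiBarML he ha))
    (hadd : ∀ x y, p x → p y → p (x + y))
    (hmul : ∀ x y, p x → p y → p (x * y))
    (hinv : ∀ x, p x → p x⁻¹)
    (x : ↥(laurentBaseChange k (F₁ M L))) : p x := by
  obtain ⟨x, hx⟩ := x
  have hx' : x ∈ IntermediateField.adjoin k
      (⇑(coeffEmb k) '' (F₁ M L : Set (LaurentSeries ℚ))) := hx
  refine IntermediateField.adjoin_induction k
    (p := fun x hx => p ⟨x, hx⟩) ?_ ?_ ?_ ?_ ?_ hx'
  · rintro x ⟨y, hy, rfl⟩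
    exact F₁_induction_aux hconst hj hphi hadd hmul hinv y hy
  · intro c
    exact hconst c
  · intro x y hx hy h1 h2
    exact hadd ⟨x, hx⟩ ⟨y, hy⟩ h1 h2
  · intro x hx h1
    exact hinv ⟨x, hx⟩ h1
  · intro x y hx hy h1 h2
    exact hmul ⟨x, hx⟩ ⟨y, hy⟩ h1 h2

/-- **`Gpm M L`-invariance** of the realisation. -/
theorem comp_realML_of_mem_Gpm {γ : SL(2, ℤ)} (hγ : γ ∈ Gpm M L)
    (x : ↥(laurentBaseChange k (F₁ M L))) :
    MerH.comp γ (realML ι M L x) = realML ι M L x := by
  induction x using F₁_induction with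
  | hconst c =>
    rw [realML_algebraMap]
    exact MerH.comp_const γ _
  | hj d hd =>
    rw [realML_jdBarML, MerH.comp_algebraMap,
      comp_jdHol_of_mem_Gamma0 (Gamma0_le_of_dvd hd (Gpm_le_Gamma0 M L hγ))]
  | hphi e he a ha =>
    rw [realML_phiBarML, MerH.comp_algebraMap, comp_phiHolE_of_mem_Gpm he a hγ]
  | hadd x y h1 h2 => rw [map_add, map_add, h1, h2]
  | hmul x y h1 h2 => rw [map_mul, map_mul, h1, h2]
  | hinv x h1 => rw [map_inv₀, map_inv₀, h1]

/-- **The realisation lands in the modular functions for `Gpm M L`.** -/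
theorem isModFun_realML (x : ↥(laurentBaseChange k (F₁ M L))) :
    IsModFun (Gpm M L) (realML ι M L x) := by
  induction x using F₁_induction with
  | hconst c =>
    rw [realML_algebraMap, ← MerH.algebraMap_eq_const]
    exact isModFun_algebraMap _
  | hj d hd =>
    rw [realML_jdBarML]
    exact (isModFun_jNHol_of_dvd (M * L) hd).mono (Gpm_le_Gamma0 M L)
  | hphi e he a ha =>
    rw [realML_phiBarML]
    exact isModFun_phiHolE e he a
  | hadd x y h1 h2 => rw [map_add]; exact h1.add h2
  | hmul x y h1 h2 => rw [map_mul]; exact h1.mul h2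
  | hinv x h1 => rw [map_inv₀]; exact h1.inv

/-! ### the subfield of level `Γ₀(M L)` -/

variable (M L)

theorem full_le_F₁_baseChange : laurentBaseChange k (modularFunctionFieldFull (M * L)) ≤
    laurentBaseChange k (F₁ M L) := by
  rw [laurentBaseChange, IntermediateField.adjoin_le_iff]
  rintro _ ⟨y, hy, rfl⟩
  exact coeffEmb_mem_laurentBaseChange k (full_le_F₁ M L hy)

/-- the inclusion `k(j(q^d) : d ∣ M L) ⊆ F₁ M L ⊗ k`. -/
def fullIncl : ↥(laurentBaseChange k (modularFunctionFieldFull (M * L))) →ₐ[k]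
    ↥(laurentBaseChange k (F₁ M L)) :=
  IntermediateField.inclusion (full_le_F₁_baseChange M L)

@[simp] theorem coe_fullIncl (x : ↥(laurentBaseChange k (modularFunctionFieldFull (M * L)))) :
    ((fullIncl (k := k) M L x : ↥(laurentBaseChange k (F₁ M L))) : LaurentSeries k) =
      (x : LaurentSeries k) :=
  IntermediateField.coe_inclusion (full_le_F₁_baseChange M L) x

theorem fullIncl_injective : Function.Injective (fullIncl (k := k) M L) :=
  (fullIncl M L).toRingHom.injective

theorem fullIncl_algebraMap (c : k) :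
    fullIncl (k := k) M L (algebraMap k _ c) = algebraMap k _ c := (fullIncl M L).commutes c

theorem coe_jdBarML {d : ℕ} [NeZero d] (hd : d ∣ M * L) :
    ((jdBarML (k := k) hd : ↥(laurentBaseChange k (F₁ M L))) : LaurentSeries k) =
      coeffEmb k (qExpand ℚ d jq) := rfl

theorem coe_jdBar_mul {d : ℕ} [NeZero d] (hd : d ∣ M * L) :
    ((jdBar (k := k) (M * L) hd : ↥(laurentBaseChange k (modularFunctionFieldFull (M * L)))) :
      LaurentSeries k) = coeffEmb k (qExpand ℚ d jq) := rfl

theorem fullIncl_jdBar {d : ℕ} [NeZero d] (hd : d ∣ M * L) :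
    fullIncl (k := k) M L (jdBar (M * L) hd) = jdBarML hd :=
  Subtype.ext (by rw [coe_fullIncl, coe_jdBar_mul, coe_jdBarML])

/-- on the subfield of level `Γ₀(M L)` the realisation is the `realN` of the `X₀`-project. -/
theorem realML_fullIncl (x : ↥(laurentBaseChange k (modularFunctionFieldFull (M * L)))) :
    realML ι M L (fullIncl M L x) = realN ι (M * L) x := by
  induction x using modularFunctionField_induction with
  | hconst c => rw [fullIncl_algebraMap, realML_algebraMap, realN_algebraMap]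
  | hgen d hd => rw [fullIncl_jdBar, realML_jdBarML, realN_jdBar]
  | hadd x y h1 h2 => rw [map_add, map_add, map_add, h1, h2]
  | hmul x y h1 h2 => rw [map_mul, map_mul, map_mul, h1, h2]
  | hinv x h1 => rw [map_inv₀, map_inv₀, map_inv₀, h1]

end

end Fermat.Agent.W1
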