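/-
W1 = [GRΓ1] (S48), package [DEG1] (helper9), part 1: **conjugates and a primitive element.**
For `σ ∈ Γ₀(M L)` precomposition with `σ` sends `φ_a(q^e)` to `φ_{a σ₀₀}(q^e)`; the stabiliser
of `φ_1` in `Γ₀(M L)` is `Gpm M L`; hence for a suitable `c : ℕ` the modular function
`φ_1 + c j_{M L}` has pairwise distinct conjugates under `SL₂(ℤ) ⧸ Gpm M L`, so its degree over
`ℂ(j)` is the index, the field of modular functions for `Gpm M L` is `ℂ(j)(φ_1 + c j_{M L})` and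
the realisation `realML` over `ℂ` is ONTO the modular functions of `Gpm M L`.
-/
import Fermat.Agent.W1.REAL1_helper9_Main
import Fermat.Agent.X0N.Mer_helper6_Degree

set_option autoImplicit false

open UpperHalfPlane hiding I
open Complex Filter Topology ModularCurve IntermediateField CongruenceSubgroup
open scoped MatrixGroups Manifold

namespace Fermat.Agent.W1

open Fermat.Agent.RatStr Fermat.Agent.X0N

noncomputable section

/-! ### an elementary avoidance lemma -/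

/-- finitely many nonzero affine functions `c ↦ u i + c v i` have a common natural non-root. -/
theorem exists_nat_forall_add_mul_ne_zero {F : Type*} [Field F] [CharZero F] {ι : Type*}
    [Finite ι] (u v : ι → F) (h : ∀ i, u i ≠ 0 ∨ v i ≠ 0) :
    ∃ c : ℕ, ∀ i, u i + (c : F) * v i ≠ 0 := by
  by_contra hcon
  simp only [not_exists, not_forall, not_not] at hcon
  choose f hf using hcon
  obtain ⟨c, c', hcc', hfc⟩ := Finite.exists_ne_map_eq_of_infinite f
  have h1 := hf c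
  have h2 := hf c'
  rw [hfc] at h1
  have h3 : ((c : F) - (c' : F)) * v (f c') = 0 := by linear_combination h1 - h2
  have h4 : (c : F) - (c' : F) ≠ 0 := by
    rw [sub_ne_zero]
    exact fun h => hcc' (Nat.cast_injective h)
  have hv : v (f c') = 0 := (mul_eq_zero.mp h3).resolve_left h4
  have hu : u (f c') = 0 := by rw [hv, mul_zero, add_zero] at h2; exact h2
  rcases h (f c') with h5 | h5
  · exact h5 hu
  · exact h5 hv

/-! ### a primitive element from two modular functions -/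

/-- If `y` has stabiliser inside `Γ'` and `x` has stabiliser inside `Γ` among the elements of
`Γ'`, then some `x + c y` has pairwise distinct conjugates under `SL₂(ℤ) ⧸ Γ`. -/
theorem exists_nat_conjM_injective {Γ Γ' : Subgroup SL(2, ℤ)} [Γ.FiniteIndex] (hle : Γ ≤ Γ')
    {x y : MerH} (hx : IsModFun Γ x) (hy : IsModFun Γ' y)
    (hy' : ∀ g : SL(2, ℤ), MerH.comp g y = y → g ∈ Γ')
    (hx' : ∀ g ∈ Γ', MerH.comp g x = x → g ∈ Γ) :
    ∃ c : ℕ, Function.Injective (conjM Γ (x + (c : MerH) * y)) := by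
  have hyΓ : IsModFun Γ y := hy.mono hle
  let I := {p : (SL(2, ℤ) ⧸ Γ) × (SL(2, ℤ) ⧸ Γ) // p.1 ≠ p.2}
  have hkey : ∀ i : I, conjM Γ x i.1.1 - conjM Γ x i.1.2 ≠ 0 ∨
      conjM Γ y i.1.1 - conjM Γ y i.1.2 ≠ 0 := by
    rintro ⟨⟨q₁, q₂⟩, hq⟩
    by_contra hcon
    rw [not_or, not_not, not_not] at hcon
    obtain ⟨h1, h2⟩ := hcon
    apply hq
    simp only at h1 h2 ⊢
    induction q₁ using QuotientGroup.induction_on with
    | H g₁ =>
      induction q₂ using QuotientGroup.induction_on with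
      | H g₂ =>
        rw [conjM_mk hx, conjM_mk hx, sub_eq_zero] at h1
        rw [conjM_mk hyΓ, conjM_mk hyΓ, sub_eq_zero] at h2
        have h3 : MerH.comp (g₁⁻¹ * g₂) y = y := by
          rw [MerH.comp_mul, h2, ← MerH.comp_mul, inv_mul_cancel, MerH.comp_one]
        have h4 : MerH.comp (g₁⁻¹ * g₂) x = x := by
          rw [MerH.comp_mul, h1, ← MerH.comp_mul, inv_mul_cancel, MerH.comp_one]
        exact QuotientGroup.eq.mpr (hx' _ (hy' _ h3) h4)
  obtain ⟨c, hc⟩ := exists_nat_forall_add_mul_ne_zero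
    (fun i : I => conjM Γ x i.1.1 - conjM Γ x i.1.2)
    (fun i : I => conjM Γ y i.1.1 - conjM Γ y i.1.2) hkey
  refine ⟨c, fun q₁ q₂ h => ?_⟩
  by_contra hq
  apply hc ⟨⟨q₁, q₂⟩, hq⟩
  simp only
  unfold conjM at h ⊢
  simp only [map_add, map_mul, map_natCast] at h
  linear_combination h

/-! ### the conjugates of `φ_a(q^e)` under `Γ₀(M L)` -/

/-- the conjugate of `Γ₀(M L)` by `diag(e, 1)`, `e ∣ L`, lies in `Γ₀(M)`, and the upper left
entry does not change. -/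
theorem exists_Gamma0_heckeDiagMatrix_smul {M L e : ℕ} (he0 : e ≠ 0) (he : e ∣ L) {γ : SL(2, ℤ)}
    (hγ : γ ∈ Gamma0 (M * L)) :
    ∃ γ' : SL(2, ℤ), γ' ∈ Gamma0 M ∧ γ' 0 0 = γ 0 0 ∧ ∀ z : ℍ,
      ModularForm.heckeDiagMatrix e • (γ • z) = γ' • (ModularForm.heckeDiagMatrix e • z) := by
  have hγe : γ ∈ Gamma0 e :=
    Gamma0_le_of_dvd (he.trans (Dvd.intro_left M rfl)) hγ
  obtain ⟨γ', h00, h11, h10, hz⟩ := exists_SL_heckeDiagMatrix_smul_entries he0 hγe
  refine ⟨γ', ?_, h00, hz⟩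
  rw [Gamma0_mem, ZMod.intCast_zmod_eq_zero_iff_dvd] at hγ ⊢
  obtain ⟨f, rfl⟩ := he
  rw [h10] at hγ
  have he' : (e : ℤ) ≠ 0 := by exact_mod_cast he0
  have h2 : ((e : ℤ) * (M : ℤ)) ∣ (e : ℤ) * γ' 1 0 := by
    refine dvd_trans ?_ hγ
    push_cast
    exact ⟨f, by ring⟩
  exact (mul_dvd_mul_iff_left he').mp h2

theorem phiFunE_smul_of_mem_Gamma0 {M L e : ℕ} (he0 : e ≠ 0) (he : e ∣ L) (a : ZMod M)
    {σ : SL(2, ℤ)} (hσ : σ ∈ Gamma0 (M * L)) (z : ℍ) :
    phiFunE M a e (σ • z) = phiFunE M (a * ((σ 0 0 : ℤ) : ZMod M)) e z := by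
  obtain ⟨γ', h1, h00, hz⟩ := exists_Gamma0_heckeDiagMatrix_smul (M := M) he0 he hσ
  unfold phiFunE
  rw [dilate_apply, dilate_apply, hz z, phiFun_smul_of_mem_Gamma0 a h1, h00]

theorem comp_phiHolE_of_mem_Gamma0 {M L e : ℕ} [NeZero e] (he : e ∣ L) (a : ZMod M)
    {σ : SL(2, ℤ)} (hσ : σ ∈ Gamma0 (M * L)) :
    HolH.comp σ (phiHolE M a e) = phiHolE M (a * ((σ 0 0 : ℤ) : ZMod M)) e := by
  ext z
  exact phiFunE_smul_of_mem_Gamma0 (NeZero.ne e) he a hσ z

/-- `φ_a(q^e) = φ_b(q^e)` only for `a = ± b`. -/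
theorem eq_or_eq_neg_of_phiHolE_eq {M e : ℕ} [NeZero M] [NeZero e] {a b : ZMod M} (ha : a ≠ 0) (hb : b ≠ 0)
    (h : phiHolE M a e = phiHolE M b e) : a = b ∨ a = -b := by
  by_contra hcon
  rw [not_or] at hcon
  have h1 : phiFunE M a e = phiFunE M b e := congrArg Subtype.val h
  have h2 := congrArg (laurent 1) h1
  rw [laurent_phiFunE ha, laurent_phiFunE hb] at h2
  have h3 := (qExpand ℚ e).injective ((coeffEmb ℂ).injective h2)
  exact phiGen_ne_phiGen ℚ M ha hb hcon.1 hcon.2 h3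

/-- elements of `Γ₀(M L)` with upper left entry `± 1` modulo `M` lie in `Gpm M L`. -/
theorem mem_Gpm_of_mem_Gamma0_of_entry {M L : ℕ} {σ : SL(2, ℤ)} (hσ : σ ∈ Gamma0 (M * L))
    (h : ((σ 0 0 : ℤ) : ZMod M) = 1 ∨ ((σ 0 0 : ℤ) : ZMod M) = -1) : σ ∈ Gpm M L := by
  have hσM : σ ∈ Gamma0 M := Gamma0_le_of_dvd (Dvd.intro L rfl) hσ
  rw [Gamma0_mem] at hσM
  have hdet : σ 0 0 * σ 1 1 - σ 0 1 * σ 1 0 = 1 := by
    have := σ.det_coe
    rwa [Matrix.det_fin_two] at this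
  have hdet' : ((σ 0 0 : ℤ) : ZMod M) * ((σ 1 1 : ℤ) : ZMod M) = 1 := by
    have := congrArg (fun n : ℤ => (n : ZMod M)) hdet
    simp only [Int.cast_sub, Int.cast_mul, Int.cast_one, hσM, mul_zero, sub_zero] at this
    exact this
  rw [mem_Gpm]
  rcases h with h | h
  · left
    rw [mem_GammaML, Gamma1_mem]
    refine ⟨⟨h, ?_, hσM⟩, hσ⟩
    rw [h, one_mul] at hdet'
    exact hdet'
  · right
    rw [mem_GammaML, Gamma1_mem]
    have hn : -σ ∈ Gamma0 (M * L) := gamma0_neg_mem hσ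
    refine ⟨⟨?_, ?_, ?_⟩, hn⟩
    · rw [Matrix.SpecialLinearGroup.coe_neg, Matrix.neg_apply, Int.cast_neg, h, neg_neg]
    · rw [h] at hdet'
      rw [Matrix.SpecialLinearGroup.coe_neg, Matrix.neg_apply, Int.cast_neg]
      linear_combination hdet'
    · rw [Matrix.SpecialLinearGroup.coe_neg, Matrix.neg_apply, Int.cast_neg, hσM, neg_zero]

/-- the upper left entry of an element of `Γ₀(M)` is a unit modulo `M`. -/
theorem entry_ne_zero_of_mem_Gamma0 {M : ℕ} (hM : M ≠ 1) {σ : SL(2, ℤ)} (hσ : σ ∈ Gamma0 M) :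
    ((σ 0 0 : ℤ) : ZMod M) ≠ 0 := by
  rw [Gamma0_mem] at hσ
  have hdet : σ 0 0 * σ 1 1 - σ 0 1 * σ 1 0 = 1 := by
    have := σ.det_coe
    rwa [Matrix.det_fin_two] at this
  have hdet' : ((σ 0 0 : ℤ) : ZMod M) * ((σ 1 1 : ℤ) : ZMod M) = 1 := by
    have := congrArg (fun n : ℤ => (n : ZMod M)) hdet
    simp only [Int.cast_sub, Int.cast_mul, Int.cast_one, hσ, mul_zero, sub_zero] at this
    exact this
  intro h0
  rw [h0, zero_mul] at hdet'
  have : Nontrivial (ZMod M) := ZMod.nontrivial_iff.mpr hM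
  exact zero_ne_one hdet'

/-! ### the primitive element -/

variable (M L : ℕ) [NeZero M] [NeZero L]

/-- `φ_1 + c j_{M L}` as a meromorphic function on `ℍ`. -/
def xPrim (c : ℕ) : MerH :=
  MerH.ofHol (phiHolE M 1 1) + (c : MerH) * MerH.ofHol (jNHol (M * L))

omit [NeZero M] [NeZero L] in
theorem isModFun_phi_one : IsModFun (Gpm M L) (MerH.ofHol (phiHolE M 1 1)) :=
  isModFun_phiHolE 1 (one_dvd L) 1

theorem isModFun_xPrim (c : ℕ) : IsModFun (Gpm M L) (xPrim M L c) := by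
  have h1 : IsModFun (Gpm M L) ((c : MerH)) := by
    have := isModFun_algebraMap (Γ := Gpm M L) (c : ℂ)
    rwa [map_natCast] at this
  exact (isModFun_phi_one M L).add
    (h1.mul ((isModFun_jNHol (M * L)).mono (Gpm_le_Gamma0 M L)))

omit [NeZero L] in
/-- the stabiliser of `φ_1` in `Γ₀(M L)` is `Gpm M L`. -/
theorem mem_Gpm_of_comp_phi_one (hM : M ≠ 1) {σ : SL(2, ℤ)} (hσ : σ ∈ Gamma0 (M * L))
    (h : MerH.comp σ (MerH.ofHol (phiHolE M 1 1)) = MerH.ofHol (phiHolE M 1 1)) :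
    σ ∈ Gpm M L := by
  rw [MerH.comp_algebraMap, comp_phiHolE_of_mem_Gamma0 (one_dvd L) 1 hσ, one_mul] at h
  have h2 := MerH.ofHol_injective h
  have hσM : σ ∈ Gamma0 M := Gamma0_le_of_dvd (Dvd.intro L rfl) hσ
  have : Nontrivial (ZMod M) := ZMod.nontrivial_iff.mpr hM
  exact mem_Gpm_of_mem_Gamma0_of_entry hσ
    (eq_or_eq_neg_of_phiHolE_eq (entry_ne_zero_of_mem_Gamma0 hM hσM) one_ne_zero h2)

/-- **a primitive element with pairwise distinct conjugates.** -/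
theorem exists_conjM_xPrim_injective (hM : M ≠ 1) :
    ∃ c : ℕ, Function.Injective (conjM (Gpm M L) (xPrim M L c)) :=
  exists_nat_conjM_injective (Gpm_le_Gamma0 M L) (isModFun_phi_one M L)
    (isModFun_jNHol (M * L)) (fun g hg => (comp_jNHol_eq_iff (M * L) g).mp hg)
    (fun _ hg h => mem_Gpm_of_comp_phi_one M L hM hg h)

end

end Fermat.Agent.W1
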