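/-
W1 = [GRΓ1] (S48), package [DEG1] (helper9), part 2: **the degree theorem for `Gpm M L`.**
`modFunCj Γ` = the modular functions of `Γ` as an extension of `ℂ(j)`;
`finrank_modFunCj_Gpm : [modFun (Gpm M L) : ℂ(j)] = (Gpm M L).index`; the realisation `realML`
over `ℂ` is onto the modular functions of `Gpm M L`; transfer to `ℂ((q))` and to `K((q))` for
every field `ℚ ⊆ K ⊆ ℂ`: `[K·F₁ M L : K(j)] = (Gpm M L).index`.
-/
import Fermat.Agent.W1.DEG1_helper9_Conj

set_option autoImplicit false

open UpperHalfPlane hiding I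
open Complex Filter Topology ModularCurve IntermediateField CongruenceSubgroup
open scoped MatrixGroups Manifold

namespace Fermat.Agent.W1

open Fermat.Agent.RatStr Fermat.Agent.X0N Polynomial

noncomputable section

/-! ### generalities for a finite index subgroup -/

section General

variable (Γ : Subgroup SL(2, ℤ))

/-- The field of modular functions for `Γ` as an extension of `ℂ(j)`. -/
def modFunCj : IntermediateField CjM MerH :=
  IntermediateField.extendScalars (CjM_le_modFun Γ)

variable {Γ}

theorem mem_modFunCj {y : MerH} : y ∈ modFunCj Γ ↔ IsModFun Γ y := Iff.rfl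

variable [Γ.FiniteIndex] {x : MerH}

theorem modFunCj_eq_adjoin (hx : IsModFun Γ x) (hinj : Function.Injective (conjM Γ x)) :
    modFunCj Γ = CjM⟮x⟯ := by
  apply eq_adjoin_simple_of_forall_natDegree_le (modFunCj Γ) Γ.index
  · intro y hy
    exact ⟨isIntegral_CjM hy, natDegree_minpoly_le hy⟩
  · exact hx
  · exact (natDegree_minpoly_eq_index_of_conjM_injective hx hinj).ge

theorem finiteDimensional_modFunCj (hx : IsModFun Γ x) (hinj : Function.Injective (conjM Γ x)) :
    FiniteDimensional CjM (modFunCj Γ) := by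
  rw [modFunCj_eq_adjoin hx hinj]
  exact IntermediateField.adjoin.finiteDimensional (isIntegral_CjM hx)

theorem finrank_modFunCj (hx : IsModFun Γ x) (hinj : Function.Injective (conjM Γ x)) :
    Module.finrank CjM (modFunCj Γ) = Γ.index := by
  rw [modFunCj_eq_adjoin hx hinj, IntermediateField.adjoin.finrank (isIntegral_CjM hx),
    natDegree_minpoly_eq_index_of_conjM_injective hx hinj]

theorem card_le_index_of_linearIndependent_of_conjM_injective (hx : IsModFun Γ x)
    (hinj : Function.Injective (conjM Γ x)) {ι : Type*} [Fintype ι] {b : ι → MerH}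
    (hb : ∀ i, IsModFun Γ (b i)) (hli : LinearIndependent CjM b) :
    Fintype.card ι ≤ Γ.index := by
  have := finiteDimensional_modFunCj hx hinj
  have h1 : LinearIndependent CjM (fun i => (⟨b i, hb i⟩ : modFunCj Γ)) :=
    LinearIndependent.of_comp (modFunCj Γ).val.toLinearMap hli
  rw [← finrank_modFunCj hx hinj]
  exact h1.fintype_card_le_finrank

theorem linearIndependent_pow_of_conjM_injective (hx : IsModFun Γ x)
    (hinj : Function.Injective (conjM Γ x)) :
    LinearIndependent CjM (fun i : Fin Γ.index => x ^ (i : ℕ)) := by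
  have h := linearIndependent_pow (K := CjM) x
  have e := natDegree_minpoly_eq_index_of_conjM_injective hx hinj
  exact h.comp (Fin.cast e.symm) (Fin.cast_injective e.symm)

end General

/-! ### the level `Gpm M L` -/

section Level

variable (M L : ℕ) [NeZero M] [NeZero L]

theorem finiteDimensional_modFunCj_Gpm (hM : M ≠ 1) :
    FiniteDimensional CjM (modFunCj (Gpm M L)) := by
  obtain ⟨c, hc⟩ := exists_conjM_xPrim_injective M L hM
  exact finiteDimensional_modFunCj (isModFun_xPrim M L c) hc

/-- **`[ℂ(X(Gpm M L)) : ℂ(j)] = [SL₂(ℤ) : Gpm M L]`.** -/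
theorem finrank_modFunCj_Gpm (hM : M ≠ 1) :
    Module.finrank CjM (modFunCj (Gpm M L)) = (Gpm M L).index := by
  obtain ⟨c, hc⟩ := exists_conjM_xPrim_injective M L hM
  exact finrank_modFunCj (isModFun_xPrim M L c) hc

/-- The realisation over `ℂ` as a `ℂ`-algebra homomorphism. -/
def realMLC : ↥(laurentBaseChange ℂ (F₁ M L)) →ₐ[ℂ] MerH :=
  { realML (RingHom.id ℂ) M L with
    commutes' := fun c => by
      show realML (RingHom.id ℂ) M L (algebraMap ℂ _ c) = algebraMap ℂ MerH c
      rw [realML_algebraMap, MerH.algebraMap_eq_const]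
      rfl }

omit [NeZero M] [NeZero L] in
theorem realMLC_apply (x : ↥(laurentBaseChange ℂ (F₁ M L))) :
    realMLC M L x = realML (RingHom.id ℂ) M L x := rfl

omit [NeZero M] [NeZero L] in
theorem realMLC_injective : Function.Injective (realMLC M L) := (realMLC M L).injective

/-- `j` as an element of `ℂ·F₁ M L`. -/
def jCML : ↥(laurentBaseChange ℂ (F₁ M L)) :=
  ⟨coeffEmb ℂ jq, coeffEmb_mem_laurentBaseChange ℂ (jq_mem_F₁ M L)⟩

/-- the primitive element `φ_1 + c j_{M L}` as an element of `k·F₁ M L`. -/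
def primElt {k : Type*} [Field k] [Algebra ℚ k] (hM : M ≠ 1) (c : ℕ) :
    ↥(laurentBaseChange k (F₁ M L)) :=
  have : Nontrivial (ZMod M) := ZMod.nontrivial_iff.mpr hM
  phiBarML (e := 1) (one_dvd L) (one_ne_zero : (1 : ZMod M) ≠ 0) +
    (c : ↥(laurentBaseChange k (F₁ M L))) * jdBarML (d := M * L) dvd_rfl

omit [NeZero M] [NeZero L] in
theorem realMLC_jCML : realMLC M L (jCML M L) = jM := by
  obtain ⟨hx, h⟩ := merSeries.real_of_laurent_eq (RingHom.id ℂ) (x := coeffEmb ℂ jq)
    isMeroInfty_jFun (by rw [laurent_jFun, coeffMap_coeffEmb_eq])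
  exact h

theorem realML_primElt {k : Type*} [Field k] [Algebra ℚ k] (ι : k →+* ℂ) (hM : M ≠ 1) (c : ℕ) :
    realML ι M L (primElt M L hM c) = xPrim M L c := by
  unfold primElt xPrim
  rw [map_add, map_mul, map_natCast, realML_phiBarML, realML_jdBarML]
  rfl

/-- **every modular function for `Gpm M L` is in the image of the realisation over `ℂ`.** -/
theorem exists_realML_eq_of_isModFun (hM : M ≠ 1) {y : MerH} (hy : IsModFun (Gpm M L) y) :
    ∃ x : ↥(laurentBaseChange ℂ (F₁ M L)), realML (RingHom.id ℂ) M L x = y := by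
  obtain ⟨c, hc⟩ := exists_conjM_xPrim_injective M L hM
  have h1 : modFunCj (Gpm M L) = CjM⟮xPrim M L c⟯ :=
    modFunCj_eq_adjoin (isModFun_xPrim M L c) hc
  let R : IntermediateField ℂ MerH := (realMLC M L).fieldRange
  have hj : CjM ≤ R := by
    rw [CjM, IntermediateField.adjoin_simple_le_iff]
    exact ⟨jCML M L, realMLC_jCML M L⟩
  have hx : xPrim M L c ∈ R := ⟨primElt M L hM c, realML_primElt M L (RingHom.id ℂ) hM c⟩
  have h2 : CjM⟮xPrim M L c⟯ ≤ IntermediateField.extendScalars hj := by
    rw [IntermediateField.adjoin_simple_le_iff]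
    exact hx
  have h3 : y ∈ modFunCj (Gpm M L) := hy
  rw [h1] at h3
  obtain ⟨x, hx⟩ := h2 h3
  exact ⟨x, hx⟩

end Level

end

end Fermat.Agent.W1
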