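/-
W1 = [GRΓ1] (S48), package [DEG1] (helper9), part 3: **transfer of the degree to `K((q))`**
(generic port of the `Transfer` section of `X0N/Mer_helper6_Degree`): for an intermediate field
`F` of `ℂ((q))/ℂ` containing `j` with an (injective) `ℂ`-algebra realisation `ρ : F → MerH`,
`ρ j = j`, linear independence over `ℂ(j)` transfers in both directions; consequence:
`[K·F₁ M L : K(j)] = (Gpm M L).index` for every field `ℚ ⊆ K ⊆ ℂ`.
-/
import Fermat.Agent.W1.DEG1_helper9_Degree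

set_option autoImplicit false

open UpperHalfPlane hiding I
open Complex Filter Topology ModularCurve IntermediateField CongruenceSubgroup
open scoped MatrixGroups Manifold

namespace Fermat.Agent.W1

open Fermat.Agent.RatStr Fermat.Agent.X0N Polynomial

noncomputable section

section Generic

variable {F : IntermediateField ℂ (LaurentSeries ℂ)} (ρ : ↥F →ₐ[ℂ] MerH) {jF : ↥F}
  (hjF : (jF : LaurentSeries ℂ) = coeffEmb ℂ jq) (hρ : ρ jF = jM)

include hjF in
theorem coe_aeval_jF (p : ℂ[X]) :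
    ((Polynomial.aeval jF p : ↥F) : LaurentSeries ℂ) = Polynomial.aeval (coeffEmb ℂ jq) p := by
  rw [← hjF]
  exact (Subalgebra.aeval_coe F.toSubalgebra jF p).symm

include hρ in
theorem rho_aeval_div (r s : ℂ[X]) :
    ρ (Polynomial.aeval jF r / Polynomial.aeval jF s) =
      Polynomial.aeval jM r / Polynomial.aeval jM s := by
  rw [map_div₀, ← Polynomial.aeval_algHom_apply, ← Polynomial.aeval_algHom_apply, hρ]

include hjF hρ in
/-- The realisation maps `ℂ(j) ⊆ ℂ((q))` into `ℂ(j) ⊆ MerH`. -/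
theorem rho_mem_CjM {c : LaurentSeries ℂ} (hc : c ∈ ℂ⟮coeffEmb ℂ jq⟯) :
    ∃ hc' : c ∈ F, ρ ⟨c, hc'⟩ ∈ CjM := by
  rw [IntermediateField.mem_adjoin_simple_iff] at hc
  obtain ⟨r, s, rfl⟩ := hc
  have h1 : Polynomial.aeval (coeffEmb ℂ jq) r / Polynomial.aeval (coeffEmb ℂ jq) s =
      ((Polynomial.aeval jF r / Polynomial.aeval jF s : ↥F) : LaurentSeries ℂ) := by
    rw [IntermediateField.coe_div, coe_aeval_jF hjF, coe_aeval_jF hjF]
  refine ⟨h1 ▸ (Polynomial.aeval jF r / Polynomial.aeval jF s).2, ?_⟩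
  have h2 : (⟨Polynomial.aeval (coeffEmb ℂ jq) r / Polynomial.aeval (coeffEmb ℂ jq) s,
      h1 ▸ (Polynomial.aeval jF r / Polynomial.aeval jF s).2⟩ : ↥F) =
      Polynomial.aeval jF r / Polynomial.aeval jF s := Subtype.ext h1
  rw [h2, rho_aeval_div ρ hρ]
  exact CjM.div_mem (aeval_jM_mem_CjM r) (aeval_jM_mem_CjM s)

include hjF hρ in
/-- The realisation maps `ℂ(j) ⊆ ℂ((q))` onto `ℂ(j) ⊆ MerH`. -/
theorem exists_rho_eq {c' : MerH} (hc' : c' ∈ CjM) :
    ∃ (c : LaurentSeries ℂ) (_ : c ∈ ℂ⟮coeffEmb ℂ jq⟯) (hc2 : c ∈ F), ρ ⟨c, hc2⟩ = c' := by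
  rw [CjM, IntermediateField.mem_adjoin_simple_iff] at hc'
  obtain ⟨r, s, rfl⟩ := hc'
  refine ⟨((Polynomial.aeval jF r / Polynomial.aeval jF s : ↥F) : LaurentSeries ℂ), ?_,
    (Polynomial.aeval jF r / Polynomial.aeval jF s).2, rho_aeval_div ρ hρ r s⟩
  rw [IntermediateField.coe_div, coe_aeval_jF hjF, coe_aeval_jF hjF,
    IntermediateField.mem_adjoin_simple_iff]
  exact ⟨r, s, rfl⟩

include hjF hρ in
/-- Linear independence over `ℂ(j)` transfers from `ℂ((q))` to `MerH`. -/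
theorem linearIndependent_rho {ι : Type*} [Fintype ι] {b : ι → LaurentSeries ℂ}
    (hb : ∀ i, b i ∈ F) (hli : LinearIndependent ℂ⟮coeffEmb ℂ jq⟯ b) :
    LinearIndependent CjM (fun i => ρ ⟨b i, hb i⟩) := by
  rw [Fintype.linearIndependent_iff] at hli ⊢
  intro g' hg'
  have hex := fun i => exists_rho_eq ρ hjF hρ (g' i).2
  choose g hg hg2 hρg using hex
  have h1 : ∑ i, ρ ⟨g i, hg2 i⟩ * ρ ⟨b i, hb i⟩ = 0 := by
    rw [← hg']
    refine Finset.sum_congr rfl fun i _ => ?_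
    rw [hρg i]
    rfl
  have hinj : Function.Injective ρ := fun a b h => ρ.toRingHom.injective h
  have h2 : ∑ i, (⟨g i, hg2 i⟩ : ↥F) * ⟨b i, hb i⟩ = 0 := by
    apply hinj
    rw [map_sum, map_zero, ← h1]
    refine Finset.sum_congr rfl fun i _ => ?_
    rw [map_mul]
  have h3 : ∑ i, (⟨g i, hg i⟩ : ℂ⟮coeffEmb ℂ jq⟯) • b i = 0 := by
    have := congrArg (fun x : ↥F => (x : LaurentSeries ℂ)) h2
    simp only [AddSubmonoidClass.coe_finsetSum, MulMemClass.coe_mul, ZeroMemClass.coe_zero] at this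
    rw [← this]
    rfl
  intro i
  have h4 := hli _ h3 i
  have h5 : g i = 0 := congrArg Subtype.val h4
  apply Subtype.ext
  rw [← hρg i]
  have h6 : (⟨g i, hg2 i⟩ : ↥F) = 0 := Subtype.ext h5
  rw [h6, map_zero]
  rfl

include hjF hρ in
/-- Linear independence over `ℂ(j)` transfers back from `MerH` to `ℂ((q))`. -/
theorem linearIndependent_of_rho {ι : Type*} [Fintype ι] {b : ι → LaurentSeries ℂ}
    (hb : ∀ i, b i ∈ F) (hli : LinearIndependent CjM (fun i => ρ ⟨b i, hb i⟩)) :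
    LinearIndependent ℂ⟮coeffEmb ℂ jq⟯ b := by
  rw [Fintype.linearIndependent_iff] at hli ⊢
  intro g hg
  have hex := fun i => rho_mem_CjM ρ hjF hρ (g i).2
  choose hg2 hmem using hex
  have h1 : ∑ i, (⟨(g i : LaurentSeries ℂ), hg2 i⟩ : ↥F) * ⟨b i, hb i⟩ = 0 := by
    apply Subtype.ext
    simp only [AddSubmonoidClass.coe_finsetSum, MulMemClass.coe_mul, ZeroMemClass.coe_zero]
    rw [← hg]
    rfl
  have h2 : ∑ i, (⟨ρ ⟨(g i : LaurentSeries ℂ), hg2 i⟩, hmem i⟩ : CjM) • ρ ⟨b i, hb i⟩ = 0 := by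
    have := congrArg ρ h1
    rw [map_sum, map_zero] at this
    rw [← this]
    refine Finset.sum_congr rfl fun i _ => ?_
    rw [map_mul]
    rfl
  intro i
  have h3 := hli _ h2 i
  have h4 : ρ ⟨(g i : LaurentSeries ℂ), hg2 i⟩ = 0 := congrArg Subtype.val h3
  have hinj : Function.Injective ρ := fun a b h => ρ.toRingHom.injective h
  have h5 := (map_eq_zero_iff ρ hinj).mp h4
  have h6 : (g i : LaurentSeries ℂ) = 0 := congrArg Subtype.val h5
  exact Subtype.ext h6

end Generic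

/-! ### the level `Gpm M L` -/

section Level

variable (M L : ℕ) [NeZero M] [NeZero L]

/-- the rational primitive element `φ_1 + c j_{M L} ∈ ℚ((q))`. -/
def tPrim (c : ℕ) : LaurentSeries ℚ :=
  qExpand ℚ 1 (phiGen ℚ M 1) + (c : LaurentSeries ℚ) * qExpand ℚ (M * L) jq

theorem tPrim_mem_F₁ (hM : M ≠ 1) (c : ℕ) : tPrim M L c ∈ F₁ M L := by
  have : Nontrivial (ZMod M) := ZMod.nontrivial_iff.mpr hM
  exact (F₁ M L).add_mem (phi_mem_F₁ (one_dvd L) one_ne_zero)
    ((F₁ M L).mul_mem (_root_.natCast_mem _ c) (jqd_mem_F₁ dvd_rfl))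

theorem coe_primElt (hM : M ≠ 1) (c : ℕ) :
    ((primElt (k := ℂ) M L hM c : ↥(laurentBaseChange ℂ (F₁ M L))) : LaurentSeries ℂ) =
      coeffEmb ℂ (tPrim M L c) := by
  unfold primElt tPrim
  rw [map_add, map_mul, map_natCast]
  rfl

/-- **Upper bound**: at most `(Gpm M L).index` elements of `ℂ·F₁ M L ⊆ ℂ((q))` are linearly
independent over `ℂ(j)`. -/
theorem card_le_index_of_linearIndependent_laurentML (hM : M ≠ 1) (ι : Type) [Fintype ι]
    (b : ι → LaurentSeries ℂ) (hb : ∀ i, b i ∈ laurentBaseChange ℂ (F₁ M L))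
    (hli : LinearIndependent ℂ⟮coeffEmb ℂ jq⟯ b) :
    Fintype.card ι ≤ (Gpm M L).index := by
  obtain ⟨c, hc⟩ := exists_conjM_xPrim_injective M L hM
  exact card_le_index_of_linearIndependent_of_conjM_injective (isModFun_xPrim M L c) hc
    (fun i => isModFun_realML (RingHom.id ℂ) ⟨b i, hb i⟩)
    (linearIndependent_rho (realMLC M L) (jF := jCML M L) rfl (realMLC_jCML M L) hb hli)

/-- **Lower bound**: for a suitable `c`, `1, t, …, t^(index-1)` are linearly independent over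
`ℂ(j)` in `ℂ((q))`, `t = φ_1 + c j_{M L}`. -/
theorem exists_linearIndependent_pow_tPrim (hM : M ≠ 1) :
    ∃ c : ℕ, LinearIndependent ℂ⟮coeffEmb ℂ jq⟯
      (fun i : Fin (Gpm M L).index => (coeffEmb ℂ (tPrim M L c)) ^ (i : ℕ)) := by
  obtain ⟨c, hc⟩ := exists_conjM_xPrim_injective M L hM
  refine ⟨c, ?_⟩
  have hmem : coeffEmb ℂ (tPrim M L c) ∈ laurentBaseChange ℂ (F₁ M L) :=
    coeffEmb_mem_laurentBaseChange ℂ (tPrim_mem_F₁ M L hM c)
  apply linearIndependent_of_rho (realMLC M L) (jF := jCML M L) rfl (realMLC_jCML M L)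
    (fun i => pow_mem hmem _)
  have h := linearIndependent_pow_of_conjM_injective (isModFun_xPrim M L c) hc
  convert h using 2 with i
  have e : (⟨coeffEmb ℂ (tPrim M L c) ^ (i : ℕ), pow_mem hmem _⟩ :
      ↥(laurentBaseChange ℂ (F₁ M L))) = (primElt M L hM c) ^ (i : ℕ) := by
    apply Subtype.ext
    rw [SubmonoidClass.coe_pow, coe_primElt]
  rw [e, map_pow, realMLC_apply, realML_primElt]

/-- **The degree of the function field of level `Gpm M L` over `K(j)` is the index**, for every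
field `ℚ ⊆ K ⊆ ℂ`. -/
theorem finrank_F₁_baseChange_eq (K : Type*) [Field K] [Algebra ℚ K] [Algebra K ℂ]
    [IsScalarTower ℚ K ℂ] (hM : M ≠ 1) :
    Module.Finite
        K⟮(⟨coeffEmb K jq, coeffEmb_mem_laurentBaseChange K (jq_mem_F₁ M L)⟩ :
          laurentBaseChange K (F₁ M L))⟯ (laurentBaseChange K (F₁ M L)) ∧
      Module.finrank
        K⟮(⟨coeffEmb K jq, coeffEmb_mem_laurentBaseChange K (jq_mem_F₁ M L)⟩ :
          laurentBaseChange K (F₁ M L))⟯ (laurentBaseChange K (F₁ M L)) = (Gpm M L).index := by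
  obtain ⟨c, hc⟩ := exists_linearIndependent_pow_tPrim M L hM
  exact finrank_laurentBaseChange_eq (K := K) (L := ℂ) (F₁ M L) (jq_mem_F₁ M L)
    transcendental_jq (tPrim_mem_F₁ M L hM c) _
    (card_le_index_of_linearIndependent_laurentML M L hM) hc

end Level

end

end Fermat.Agent.W1
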