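/-
W1 = [GRΓ1] (S48), package [HECKEF] (helper4), part 2: **the `j`-coordinate** on the function
field of level `Gpm M Lv` over any field `ℚ ⊆ K ⊆ ℂ` (port of `X0N/S24_helper7_Wiring.jCoordBar`,
`X0N/S20_helper5_Coord.jCoordC`), from helper9's degree theorem `finrank_F₁_baseChange_eq`.
-/
import Mathlib
import Fermat.Agent.W1.DEG1_helper9_Transfer
import Fermat.Agent.FF.Coord

set_option autoImplicit false
set_option linter.unusedSectionVars false

open AlgebraicCurve HahnSeries IntermediateField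

namespace Fermat.Agent.W1

open ModularCurve Fermat.Agent.FF Fermat.Agent.X0N

section

variable (K : Type*) [Field K] [Algebra ℚ K] (M Lv : ℕ)

/-- `j` as an element of the function field of level `Gpm M Lv` over `K`. -/
noncomputable def jK : ↥(laurentBaseChange K (F₁ M Lv)) :=
  ⟨coeffEmb K jq, coeffEmb_mem_laurentBaseChange K (jq_mem_F₁ M Lv)⟩

theorem coe_jK : ((jK K M Lv : ↥(laurentBaseChange K (F₁ M Lv))) : LaurentSeries K) =
    coeffEmb K jq := rfl

theorem transcendental_jK : Transcendental K (jK K M Lv) := by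
  have h := transcendental_coeffEmb_jq K
  rw [← coe_jK K M Lv] at h
  exact (transcendental_algebraMap_iff
    (algebraMap ↥(laurentBaseChange K (F₁ M Lv)) (LaurentSeries K)).injective).mp h

variable [NeZero M] [NeZero Lv] [Algebra K ℂ] [IsScalarTower ℚ K ℂ]

/-- **the `j`-coordinate** on the function field of level `Gpm M Lv` over `ℚ ⊆ K ⊆ ℂ`. -/
noncomputable def jCoordOf (hM : M ≠ 1) : Coord K ↥(laurentBaseChange K (F₁ M Lv)) where
  x := jK K M Lv
  trans := transcendental_jK K M Lv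
  fin := (finrank_F₁_baseChange_eq M Lv K hM).1

@[simp] theorem jCoordOf_x (hM : M ≠ 1) : (jCoordOf K M Lv hM).x = jK K M Lv := rfl

theorem jCoordOf_degree (hM : M ≠ 1) : (jCoordOf K M Lv hM).degree = (Gpm M Lv).index :=
  (finrank_F₁_baseChange_eq M Lv K hM).2

end

section Bar

variable (M Lv : ℕ) [NeZero M] [NeZero Lv]

/-- the `j`-coordinate over `ℚ̄`. -/
noncomputable def jCoordBarOf (hM : M ≠ 1) : Coord (AlgebraicClosure ℚ) ↥(F₁Bar M Lv) :=
  letI : Algebra (AlgebraicClosure ℚ) ℂ := complexEmbedding.toRingHom.toAlgebra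
  haveI : IsScalarTower ℚ (AlgebraicClosure ℚ) ℂ :=
    IsScalarTower.of_algebraMap_eq' (Subsingleton.elim _ _)
  jCoordOf (AlgebraicClosure ℚ) M Lv hM

@[simp] theorem jCoordBarOf_x (hM : M ≠ 1) :
    (jCoordBarOf M Lv hM).x = jK (AlgebraicClosure ℚ) M Lv := rfl

theorem jCoordBarOf_degree (hM : M ≠ 1) : (jCoordBarOf M Lv hM).degree = (Gpm M Lv).index := by
  letI : Algebra (AlgebraicClosure ℚ) ℂ := complexEmbedding.toRingHom.toAlgebra
  haveI : IsScalarTower ℚ (AlgebraicClosure ℚ) ℂ :=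
    IsScalarTower.of_algebraMap_eq' (Subsingleton.elim _ _)
  exact jCoordOf_degree (AlgebraicClosure ℚ) M Lv hM

/-- the `j`-coordinate over `ℂ`. -/
noncomputable def jCoordC (hM : M ≠ 1) : Coord ℂ ↥(laurentBaseChange ℂ (F₁ M Lv)) :=
  jCoordOf ℂ M Lv hM

@[simp] theorem jCoordC_x (hM : M ≠ 1) : (jCoordC M Lv hM).x = jK ℂ M Lv := rfl

theorem jCoordC_degree (hM : M ≠ 1) : (jCoordC M Lv hM).degree = (Gpm M Lv).index :=
  jCoordOf_degree ℂ M Lv hM

end Bar

end Fermat.Agent.W1
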