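/-
W1 = [GRΓ1] (S48), package [CHAR1] (helper9), part 1 (port of `GR/CHAR_helper8_Cusp`, section OrdFn,
and of `X0N/Dict_helper5_Finite.ordFnAt`): the order functions on the function field of level
`Gpm M L` at a cusp `δ∞` (local parameter `q_h`, `δ T^h δ⁻¹ ∈ Gpm M L`) and at a point `τ ∈ ℍ`,
and the divisibility of the analytic orders by `n` when all place-orders are divisible by `n`.
(The generic lemmas `isMF_slash_of_conj_mem`, `isModFun_comp_of_conj_mem`,
`isMerInf_comp_of_isModFun` of `GR/CHAR_helper8_Cusp` are used as they are.)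
-/
import Mathlib
import Fermat.Agent.GR.CHAR_helper8_Cusp
import Fermat.Agent.W1.HECKEF_helper4_Coord
import Fermat.Agent.W1.DEG1_helper9_Degree

set_option autoImplicit false
set_option linter.style.haveILetI false
set_option linter.unusedSectionVars false

open UpperHalfPlane hiding I
open Complex Filter Function Fermat.Agent.RatStr ModularGroup ModularCurve CongruenceSubgroup
open scoped Manifold Topology MatrixGroups ModularForm

namespace Fermat.Agent.W1

open Fermat.Agent.X0N Fermat.Agent.X0N.Cusp Fermat.Agent.X0N.Dict Fermat.Agent.GR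

section OrdFn

variable {k : Type*} [Field k] [Algebra ℚ k] (ι : k →+* ℂ) (M L : ℕ)

theorem realML_jK : realML ι M L (jK k M L) = jM := by
  obtain ⟨hx, h⟩ := merSeries.real_of_laurent_eq ι (x := coeffEmb k jq)
    isMeroInfty_jFun (by rw [laurent_jFun, coeffMap_coeffEmb_eq])
  exact h

include ι in
theorem jK_ne_zero : jK k M L ≠ 0 := by
  intro h0
  have := realML_jK ι M L
  rw [h0, map_zero] at this
  exact jM_ne_zero this.symm

theorem realML_ne_zero {x : ↥(laurentBaseChange k (F₁ M L))} (hx : x ≠ 0) :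
    realML ι M L x ≠ 0 := fun h => hx ((realML_injective ι M L) (h.trans (map_zero _).symm))

theorem isMerInf_comp_realML (δ : SL(2, ℤ)) {h : ℕ} (hδ : δ * T ^ h * δ⁻¹ ∈ Gpm M L)
    (x : ↥(laurentBaseChange k (F₁ M L))) :
    IsMerInf h (MerH.comp δ (realML ι M L x)) :=
  isMerInf_comp_of_isModFun (isModFun_realML ι x) δ hδ

theorem comp_realML_ne_zero (δ : SL(2, ℤ))
    {x : ↥(laurentBaseChange k (F₁ M L))} (hx : x ≠ 0) :
    MerH.comp δ (realML ι M L x) ≠ 0 := by
  rw [Ne, map_eq_zero_iff _ (MerH.comp δ).injective]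
  exact realML_ne_zero ι M L hx

/-- **the order at the cusp `δ∞` in the local parameter `q_h`**, `δ T^h δ⁻¹ ∈ Gpm M L`, as an
order function on the function field. -/
noncomputable def cuspOrdFnAt (δ : SL(2, ℤ)) (h : ℕ) [NeZero h]
    (hδ : δ * T ^ h * δ⁻¹ ∈ Gpm M L) :
    FF.OrdFn k ↥(laurentBaseChange k (F₁ M L)) where
  ord x := MerH.ordInf h (MerH.comp δ (realML ι M L x))
  ord_mul {x y} hx hy := by
    rw [map_mul, map_mul]
    exact MerH.ordInf_mul (isMerInf_comp_realML ι M L δ hδ x) (isMerInf_comp_realML ι M L δ hδ y)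
      (comp_realML_ne_zero ι M L δ hx) (comp_realML_ne_zero ι M L δ hy)
  ord_add {x y} _ _ hxy := by
    rw [map_add, map_add]
    apply MerH.min_ordInf_le_ordInf_add (isMerInf_comp_realML ι M L δ hδ x)
      (isMerInf_comp_realML ι M L δ hδ y)
    rw [← map_add, ← map_add]
    exact comp_realML_ne_zero ι M L δ hxy
  ord_algebraMap a ha := by
    rw [realML_algebraMap, MerH.comp_const]
    exact MerH.ordInf_const (by rwa [Ne, map_eq_zero_iff _ ι.injective])
  nontrivial := ⟨jK k M L, jK_ne_zero ι M L, by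
    rw [realML_jK, comp_jM, ordInf_jM]
    have : (h : ℤ) ≠ 0 := by exact_mod_cast NeZero.ne h
    simpa using this⟩

theorem cuspOrdFnAt_ord (δ : SL(2, ℤ)) (h : ℕ) [NeZero h] (hδ : δ * T ^ h * δ⁻¹ ∈ Gpm M L)
    (x : ↥(laurentBaseChange k (F₁ M L))) :
    (cuspOrdFnAt ι M L δ h hδ).ord x = MerH.ordInf h (MerH.comp δ (realML ι M L x)) := rfl

/-- **divisibility at the cusps**: if all place-orders of `f` are divisible by `n` then so is the
`q_h`-order at every cusp. -/
theorem char_dvd_ordInf_comp_realML (δ : SL(2, ℤ)) (h : ℕ) [NeZero h]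
    (hδ : δ * T ^ h * δ⁻¹ ∈ Gpm M L) (n : ℤ)
    {f : ↥(laurentBaseChange k (F₁ M L))} (hf : f ≠ 0)
    (hdiv : ∀ v : AlgebraicCurve.Place k ↥(laurentBaseChange k (F₁ M L)), n ∣ v.ord f) :
    n ∣ MerH.ordInf h (MerH.comp δ (realML ι M L f)) := by
  obtain ⟨m, -, hm⟩ := (cuspOrdFnAt ι M L δ h hδ).exists_ord_eq_mul
  rw [← cuspOrdFnAt_ord ι M L δ h hδ f, hm f hf]
  exact Dvd.dvd.mul_left (hdiv _) m

/-- `realML (j) = ofHol jHol`. -/
theorem realML_jK_eq_ofHol : realML ι M L (jK k M L) = MerH.ofHol jHol := by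
  rw [realML_jK]
  rfl

/-- The order function on the function field attached to a point `τ₀ ∈ ℍ` whose `j`-invariant
lies in `k`. -/
noncomputable def pointOrdFn (τ₀ : ℍ) (c : k) (hc : ι c = jFun τ₀) :
    FF.OrdFn k ↥(laurentBaseChange k (F₁ M L)) where
  ord x := MerH.ordAt τ₀ (realML ι M L x)
  ord_mul {x y} hx hy := by
    rw [map_mul, MerH.ordAt_mul (realML_ne_zero ι M L hx) (realML_ne_zero ι M L hy)]
  ord_add {x y} hx hy hxy := by
    rw [map_add]
    exact MerH.min_ordAt_le_ordAt_add (realML_ne_zero ι M L hx) (realML_ne_zero ι M L hy)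
      (by rw [← map_add]; exact realML_ne_zero ι M L hxy) τ₀
  ord_algebraMap a ha := by
    rw [realML_algebraMap]
    exact MerH.ordAt_const (by simpa using ha) τ₀
  nontrivial := by
    refine ⟨jK k M L - algebraMap k _ c, ?_, ?_⟩
    · intro h
      have h1 := congrArg (realML ι M L) h
      rw [map_sub, realML_jK_eq_ofHol, realML_algebraMap, map_zero, hc] at h1
      have h2 : MerH.ofHol (jHol - HolH.const (jFun τ₀)) = 0 := by
        rw [map_sub]; exact h1
      exact jHol_sub_const_ne_zero _ (MerH.ofHol_injective (h2.trans (map_zero _).symm))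
    · rw [map_sub, realML_jK_eq_ofHol, realML_algebraMap, hc]
      have h2 : MerH.ofHol jHol - MerH.const (jFun τ₀) =
          MerH.ofHol (jHol - HolH.const (jFun τ₀)) := by
        rw [map_sub]; rfl
      rw [h2, MerH.ordAt_ofHol (jHol_sub_const_ne_zero _), ord_jHol_sub_const]
      split_ifs <;> norm_num

theorem pointOrdFn_ord (τ₀ : ℍ) (c : k) (hc : ι c = jFun τ₀)
    (x : ↥(laurentBaseChange k (F₁ M L))) :
    (pointOrdFn ι M L τ₀ c hc).ord x = MerH.ordAt τ₀ (realML ι M L x) := rfl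

/-- **divisibility at the points of `ℍ`.** -/
theorem char_dvd_ordAt_realML (τ : ℍ) (c : k) (hc : ι c = jFun τ) (n : ℤ)
    {f : ↥(laurentBaseChange k (F₁ M L))} (hf : f ≠ 0)
    (hdiv : ∀ v : AlgebraicCurve.Place k ↥(laurentBaseChange k (F₁ M L)), n ∣ v.ord f) :
    n ∣ MerH.ordAt τ (realML ι M L f) := by
  obtain ⟨m, -, hm⟩ := (pointOrdFn ι M L τ c hc).exists_ord_eq_mul
  rw [← pointOrdFn_ord ι M L τ c hc f, hm f hf]
  exact Dvd.dvd.mul_left (hdiv _) m

end OrdFn

end Fermat.Agent.W1
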