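/-
W1 = [GRΓ1] (S48), package [DICT1] (helper3), part 2: **the realisation `realML` is a linearly
disjoint homomorphism, and descent of the integrality criterion to `k ⊆ ℂ`** — port of the
level-dependent sections of `X0N/Mer_helper6_LinDisj` (section `LinDisj`) and
`X0N/SYM_helper2_Descent` (sections `Real`, `Descent`); the generic sections are used from the
originals.  Original declaration names kept inside `Fermat.Agent.W1` (`realN ↦ realML`).
-/
import Fermat.Agent.W1.DICT1_helper3_FinPt
import Fermat.Agent.X0N.SYM_helper2_Descent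

set_option autoImplicit false

namespace Fermat.Agent.W1

open UpperHalfPlane ModularForm Filter Function Polynomial ModularCurve IntermediateField Complex
open scoped MatrixGroups ModularForm Manifold Topology
open Fermat.Agent.RatStr CongruenceSubgroup Fermat.Agent.X0N

noncomputable section

section LinDisj

variable (M L : ℕ) {k : Type*} [Field k] [Algebra ℚ k] [Algebra k ℂ]

/-- `realN` factors as base change of coefficients to `ℂ` followed by `realI`. -/
theorem realML_eq_realI (x : ↥(laurentBaseChange k (F₁ M L))) :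
    realML (algebraMap k ℂ) M L x =
      realI ⟨coeffMap (algebraMap k ℂ) x.1,
        coeffMap_mem_merSeries (algebraMap k ℂ)
          (F₁_le_merSeriesI (algebraMap k ℂ) M L x.2)⟩ :=
  merSeries.real_eq_real_id (algebraMap k ℂ) (inclML (algebraMap k ℂ) M L x)

attribute [-instance] HahnSeries.instModule in
/-- **The realisation is a linearly disjoint homomorphism** over `k → ℂ`. -/
theorem isLinDisjHom_realML : IsLinDisjHom k ℂ (realML (algebraMap k ℂ) M L) where
  map_algebraMap a := by
    rw [realML_algebraMap, MerH.algebraMap_eq_const]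
  linIndep := by
    intro ι' f hf
    have h1 : LinIndep k (fun i => ((f i : ↥(laurentBaseChange k
        (F₁ M L))) : LaurentSeries k)) :=
      @LinearIndependent.map' ι' k _ (LaurentSeries k) f _ _ _ _ Algebra.toModule hf
        (laurentBaseChange k (F₁ M L)).val.toLinearMap
        (LinearMap.ker_eq_bot.mpr Subtype.val_injective)
    have h2 : LinIndep ℂ (fun i => iota k ℂ (f i).1) :=
      (isLinDisjHom_iota (k := k) (L := ℂ)).linIndep h1
    have hmem : ∀ i, iota k ℂ (f i).1 ∈ merSeriesI (RingHom.id ℂ) := fun i =>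
      coeffMap_mem_merSeries (algebraMap k ℂ)
        (F₁_le_merSeriesI (algebraMap k ℂ) M L (f i).2)
    have h3 : LinearIndependent ℂ (fun i => (⟨iota k ℂ (f i).1, hmem i⟩ :
        ↥(merSeriesI (RingHom.id ℂ)))) :=
      @LinearIndependent.of_comp ι' ℂ _ (LaurentSeries ℂ) _ _ _ _ _ Algebra.toModule
        (merSeriesI (RingHom.id ℂ)).val.toLinearMap h2
    have h4 := h3.map' realI.toLinearMap (LinearMap.ker_eq_bot.mpr realI_injective)
    have h5 : (fun i => realML (algebraMap k ℂ) M L (f i)) =
        (⇑realI.toLinearMap ∘ fun i => (⟨iota k ℂ (f i).1, hmem i⟩ :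
          ↥(merSeriesI (RingHom.id ℂ)))) := by
      ext i
      exact realML_eq_realI M L (f i)
    rw [h5]
    exact h4

end LinDisj

section Real

variable {k : Type*} [Field k] [Algebra ℚ k] (ι : k →+* ℂ) (M L : ℕ) [NeZero M] [NeZero L]

/-- `j(q)` in the Prelude function field. -/
def jB : ↥(laurentBaseChange k (F₁ M L)) := jdBarML (one_dvd (M * L))

omit [NeZero M] [NeZero L] in
theorem realML_jB : realML ι M L (jB (k := k) M L) = jM := by
  rw [jB, realML_jdBarML, jdHol_one_eq]
  rfl

end Real

section Descent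

open AlgebraicCurve Fermat.Agent.FF

/-- the Prelude function field `k(j(q^d) : d ∣ N)` as a type. -/
abbrev FNk (k : Type*) [Field k] [Algebra ℚ k] (M L : ℕ) : Type _ :=
  ↥(laurentBaseChange k (F₁ M L))

variable {k : Type*} [Field k] [Algebra ℚ k] [Algebra k ℂ] (M L : ℕ) [NeZero M] [NeZero L]

local notation "FN" => FNk k M L
local notation "φN" => realML (algebraMap k ℂ) M L

variable (hφ : IsLinDisjHom k ℂ (realML (algebraMap k ℂ) M L))

include hφ

omit [NeZero M] [NeZero L] in
theorem realML_aeval (P : k[X]) (z : FN) :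
    φN (Polynomial.aeval z P) = Polynomial.aeval (φN z) (P.map (algebraMap k ℂ)) := by
  refine Polynomial.map_aeval_eq_aeval_map ?_ P z
  ext c
  exact (hφ.map_algebraMap c).symm

theorem transcendental_jB : Transcendental k (jB (k := k) M L) := by
  intro h
  obtain ⟨P, hP, hP0⟩ := h
  have h1 := realML_aeval M L hφ P (jB M L)
  rw [hP0, map_zero, realML_jB] at h1
  have h2 : P.map (algebraMap k ℂ) = 0 := by
    by_contra h3
    exact aeval_jM_ne_zero h3 h1.symm
  exact hP ((Polynomial.map_eq_zero_iff (algebraMap k ℂ).injective).mp h2)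

omit hφ in
theorem adjoin_realML_jB : ℂ⟮φN (jB (k := k) M L)⟯ = CjM := by
  rw [realML_jB]; rfl

/-- every element of the function field is algebraic over `k(j)`. -/
theorem isIntegral_jB (x : FN) : IsIntegral k⟮jB (k := k) M L⟯ x := by
  by_contra h
  have htr : Transcendental k⟮jB (k := k) M L⟯ x := by
    rwa [Transcendental, isAlgebraic_iff_isIntegral]
  have h1 := linearIndependent_pow_of_transcendental htr
  have h2 := hφ.linearIndependent_adjoin (transcendental_jB M L hφ) h1
  have h3 : Transcendental ℂ⟮φN (jB (k := k) M L)⟯ (φN x) := by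
    apply transcendental_of_linearIndependent_pow
    have e : (fun a : ℕ => (φN x) ^ a) = fun a : ℕ => φN (x ^ a) := by
      ext a : 1
      simp
    rw [e]
    exact h2
  have h4 : IsIntegral ℂ⟮φN (jB (k := k) M L)⟯ (φN x) := by
    rw [adjoin_realML_jB M L]
    exact isIntegral_CjM (isModFun_realML _ x)
  exact h3 h4.isAlgebraic

/-- **Descent**: the coefficients of the minimal polynomial of `x` over `k(j)` are realised
in every subring of `MerH` containing all conjugates of `realN x`. -/
theorem realML_coeff_minpoly_mem (x : FN) (S : Subring MerH)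
    (hS : ∀ q, conjM (Gpm M L) (φN x) q ∈ S) (i : ℕ) :
    φN (((minpoly k⟮jB (k := k) M L⟯ x).coeff i : k⟮jB (k := k) M L⟯) : FN) ∈ S := by
  have h1 := hφ.minpoly_map (transcendental_jB M L hφ) (isIntegral_jB M L hφ x)
  have h2 := coeff_minpoly_mem (isModFun_realML (algebraMap k ℂ) x)
    ℂ⟮φN (jB (k := k) M L)⟯ (adjoin_realML_jB M L) S hS i
  rw [← h1, coeff_map] at h2
  exact h2

/-- an element of `k(j)` whose realisation is regular at `τ₀` is regular at every place of the
function field lying over `j = a`, `a = j(τ₀)`. -/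
theorem mem_place_of_realML_regular (r : k⟮jB (k := k) M L⟯) (a : k) (τ₀ : ℍ)
    (hτ₀ : jH τ₀ = algebraMap k ℂ a) (hreg : φN (r : FN) ∈ regularAt τ₀)
    (v : Place k FN) (hv : 0 < v.ord (jB (k := k) M L - algebraMap k FN a)) :
    (r : FN) ∈ v.toValuationSubring := by
  obtain ⟨P, Q, hcop, hQj, hr'⟩ := exists_coprime_rep (jB (k := k) M L) r
  -- transfer to `ℂ`
  have hQ0 : Q ≠ 0 := by
    intro h0
    rw [h0, map_zero] at hQj
    exact hQj rfl
  have hQc : Q.map (algebraMap k ℂ) ≠ 0 :=
    (Polynomial.map_ne_zero_iff (algebraMap k ℂ).injective).mpr hQ0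
  have hcopc : IsCoprime (P.map (algebraMap k ℂ)) (Q.map (algebraMap k ℂ)) :=
    hcop.map (Polynomial.mapRingHom (algebraMap k ℂ))
  have hrel : φN (r : FN) * Polynomial.aeval jM (Q.map (algebraMap k ℂ)) =
      Polynomial.aeval jM (P.map (algebraMap k ℂ)) := by
    rw [hr', map_div₀, realML_aeval M L hφ, realML_aeval M L hφ, realML_jB,
      div_mul_cancel₀ _ (aeval_jM_ne_zero hQc)]
  have hne := eval_ne_zero_of_regular hcopc hQc hrel hreg
  rw [hτ₀, Polynomial.eval_map, Polynomial.eval₂_at_apply] at hne
  have hQa : Q.eval a ≠ 0 := fun h0 => hne (by rw [h0, map_zero])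
  rw [hr']
  exact div_aeval_mem_place v hv P hQa

/-- **(SYM), final form over `k`**: if the realisation of `x` is regular at every point of the
`SL(2,ℤ)`-orbit of `τ₀` and `j(τ₀) = a ∈ k`, then `x` is regular at every place of the function
field over `j = a`. -/
theorem mem_place_of_forall_regular (x : FN) (a : k) (τ₀ : ℍ)
    (hτ₀ : jH τ₀ = algebraMap k ℂ a)
    (hreg : ∀ γ : SL(2, ℤ), 0 ≤ MerH.ordAt (γ • τ₀) (φN x))
    (v : Place k FN) (hv : 0 < v.ord (jB (k := k) M L - algebraMap k FN a)) :
    x ∈ v.toValuationSubring := by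
  have hint := isIntegral_jB M L hφ x
  have hcoeff : ∀ i, (((minpoly k⟮jB (k := k) M L⟯ x).coeff i : k⟮jB (k := k) M L⟯) : FN) ∈
      v.toValuationSubring := by
    intro i
    apply mem_place_of_realML_regular M L hφ _ a τ₀ hτ₀ _ v hv
    apply realML_coeff_minpoly_mem M L hφ x (regularAt τ₀)
    intro q
    rw [mem_regularAt, ordAt_conjM]
    exact hreg _
  -- `x` is integral over the valuation ring
  have hl : (minpoly k⟮jB (k := k) M L⟯ x).map (algebraMap k⟮jB (k := k) M L⟯ FN) ∈
      Polynomial.lifts v.toValuationSubring.subtype := by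
    rw [Polynomial.lifts_iff_coeff_lifts]
    intro i
    rw [coeff_map]
    exact ⟨⟨_, hcoeff i⟩, rfl⟩
  obtain ⟨p, hp, -, hmon⟩ :=
    Polynomial.lifts_and_natDegree_eq_and_monic hl ((minpoly.monic hint).map _)
  have hx : IsIntegral v.toValuationSubring x := by
    refine ⟨p, hmon, ?_⟩
    have : Polynomial.eval₂ (algebraMap v.toValuationSubring FN) x p =
        (p.map v.toValuationSubring.subtype).eval x := (Polynomial.eval_map _ _).symm
    rw [this, hp, Polynomial.eval_map, ← Polynomial.aeval_def, minpoly.aeval]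
  obtain ⟨z, hz⟩ := IsIntegrallyClosed.isIntegral_iff.mp hx
  rw [← hz]
  exact z.2

end Descent

end

end Fermat.Agent.W1
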