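/-
W1 = [GRΓ1] (S48), package [DICT1] (helper3), part 3: **integrality at finite points and the
fibres of `j` over finite points, unconditionally** — port of `X0N/SYM_helper2_Final`,
`X0N/FinPt_helper8_Count`, `X0N/S24_helper7_Finite` to `Gpm M L`, `F₁ M L`, `realML`.
Original declaration names kept inside `Fermat.Agent.W1` (`realN ↦ realML`).
-/
import Fermat.Agent.W1.DICT1_helper3_Descent

set_option autoImplicit false
set_option linter.unusedSectionVars false

namespace Fermat.Agent.W1

open UpperHalfPlane ModularForm Filter Function Polynomial ModularCurve IntermediateField Complex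
open scoped MatrixGroups ModularForm Manifold Topology
open Fermat.Agent.RatStr CongruenceSubgroup Fermat.Agent.X0N ModularGroup AlgebraicCurve

noncomputable section

section Final

open AlgebraicCurve Fermat.Agent.FF

variable {k : Type*} [Field k] [Algebra ℚ k] [Algebra k ℂ] (M L : ℕ) [NeZero M] [NeZero L]

local notation "FN" => FNk k M L
local notation "φN" => realML (algebraMap k ℂ) M L

/-- `j` is transcendental over `k` in the Prelude function field (unconditional). -/
theorem transcendental_jB' : Transcendental k (jB (k := k) M L) :=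
  transcendental_jB M L (isLinDisjHom_realML M L)

/-- every element of the Prelude function field is algebraic over `k(j)` (unconditional). -/
theorem isIntegral_jB' (x : FN) : IsIntegral k⟮jB (k := k) M L⟯ x :=
  isIntegral_jB M L (isLinDisjHom_realML M L) x

/-- **Descent** (unconditional): the coefficients of the minimal polynomial of `x` over `k(j)`
are realised in every subring of `MerH` containing all conjugates of `realN x`. -/
theorem realML_coeff_minpoly_mem' (x : FN) (S : Subring MerH)
    (hS : ∀ q, conjM (Gpm M L) (φN x) q ∈ S) (i : ℕ) :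
    φN (((minpoly k⟮jB (k := k) M L⟯ x).coeff i : k⟮jB (k := k) M L⟯) : FN) ∈ S :=
  realML_coeff_minpoly_mem M L (isLinDisjHom_realML M L) x S hS i

/-- (unconditional) regular at all analytic points over `j = a` implies regular at every place
over `j = a`. -/
theorem mem_place_of_forall_regular' (x : FN) (a : k) (τ₀ : ℍ)
    (hτ₀ : jH τ₀ = algebraMap k ℂ a)
    (hreg : ∀ γ : SL(2, ℤ), 0 ≤ MerH.ordAt (γ • τ₀) (φN x))
    (v : Place k FN) (hv : 0 < v.ord (jB (k := k) M L - algebraMap k FN a)) :
    x ∈ v.toValuationSubring :=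
  mem_place_of_forall_regular M L (isLinDisjHom_realML M L) x a τ₀ hτ₀ hreg v hv

/-- an element of `k(j)` whose realisation is regular at `τ₀`, `j(τ₀) = a`, is a quotient
`P(j)/Q(j)` with `Q(a) ≠ 0`. -/
theorem exists_rep_of_realML_regular (r : k⟮jB (k := k) M L⟯) (a : k) (τ₀ : ℍ)
    (hτ₀ : jH τ₀ = algebraMap k ℂ a) (hreg : φN (r : FN) ∈ regularAt τ₀) :
    ∃ P Q : k[X], Q.eval a ≠ 0 ∧
      (r : FN) * Polynomial.aeval (jB (k := k) M L) Q = Polynomial.aeval (jB (k := k) M L) P := by
  have hφ := isLinDisjHom_realML (k := k) M L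
  obtain ⟨P, Q, hcop, hQj, hr'⟩ := exists_coprime_rep (jB (k := k) M L) r
  have hQ0 : Q ≠ 0 := by
    intro h0
    rw [h0, map_zero] at hQj
    exact hQj rfl
  have hQc : Q.map (algebraMap k ℂ) ≠ 0 :=
    (Polynomial.map_ne_zero_iff (algebraMap k ℂ).injective).mpr hQ0
  have hcopc : IsCoprime (P.map (algebraMap k ℂ)) (Q.map (algebraMap k ℂ)) :=
    hcop.map (Polynomial.mapRingHom (algebraMap k ℂ))
  have hrel : φN (r : FN) * Polynomial.aeval jM (Q.map (algebraMap k ℂ)) =
      Polynomial.aeval jM (P.map (algebraMap k ℂ)) := by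
    rw [hr', map_div₀, realML_aeval M L hφ, realML_aeval M L hφ, realML_jB,
      div_mul_cancel₀ _ (aeval_jM_ne_zero hQc)]
  have hne := eval_ne_zero_of_regular hcopc hQc hrel hreg
  rw [hτ₀, Polynomial.eval_map, Polynomial.eval₂_at_apply] at hne
  have hQa : Q.eval a ≠ 0 := fun h0 => hne (by rw [h0, map_zero])
  refine ⟨P, Q, hQa, ?_⟩
  rw [hr', div_mul_cancel₀ _ hQj]

/-- **(INT2), finite points**: if all conjugates of the realisation of `f` are regular at `τ₀`
and `j(τ₀) = a ∈ k`, then `f` is integral over the local ring of `k(j)` at `j = a`. This is the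
hypothesis `hint` of `FF.Coord.card_zeros_eq_card_quotient_ordFn`. -/
theorem isIntegral_localSubring_of_regular (c : Coord k FN) (hc : c.x = jB (k := k) M L)
    {a : k} {τ₀ : ℍ} (hτ : jFun τ₀ = algebraMap k ℂ a) {f : FN}
    (hf : ∀ q, 0 ≤ MerH.ordAt τ₀ (conjM (Gpm M L) (φN f) q)) :
    IsIntegral (c.localSubring a) f := by
  have hint := isIntegral_jB' M L f
  have hcoeff : ∀ i, (((minpoly k⟮jB (k := k) M L⟯ f).coeff i : k⟮jB (k := k) M L⟯) : FN) ∈
      c.localSubring a := by
    intro i
    rw [Coord.mem_localSubring, hc]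
    apply exists_rep_of_realML_regular M L _ a τ₀ hτ
    apply realML_coeff_minpoly_mem' M L f (regularAt τ₀)
    intro q
    rw [mem_regularAt]
    exact hf q
  have hl : (minpoly k⟮jB (k := k) M L⟯ f).map (algebraMap k⟮jB (k := k) M L⟯ FN) ∈
      Polynomial.lifts (c.localSubring a).subtype := by
    rw [Polynomial.lifts_iff_coeff_lifts]
    intro i
    rw [coeff_map]
    exact ⟨⟨_, hcoeff i⟩, rfl⟩
  obtain ⟨p, hp, -, hmon⟩ :=
    Polynomial.lifts_and_natDegree_eq_and_monic hl ((minpoly.monic hint).map _)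
  refine ⟨p, hmon, ?_⟩
  have : Polynomial.eval₂ (algebraMap (c.localSubring a) FN) f p =
      (p.map (c.localSubring a).subtype).eval f := (Polynomial.eval_map _ _).symm
  rw [this, hp, Polynomial.eval_map, ← Polynomial.aeval_def, minpoly.aeval]

/-- variant: the coordinate is only known to be realised by `j`. -/
theorem isIntegral_localSubring_of_regular' (c : Coord k FN) (hc : φN c.x = jM)
    {a : k} {τ₀ : ℍ} (hτ : jFun τ₀ = algebraMap k ℂ a) {f : FN}
    (hf : ∀ q, 0 ≤ MerH.ordAt τ₀ (conjM (Gpm M L) (φN f) q)) :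
    IsIntegral (c.localSubring a) f := by
  apply isIntegral_localSubring_of_regular M L c _ hτ hf
  apply (realML (algebraMap k ℂ) M L).injective
  rw [hc, realML_jB]

/-- variant with the hypothesis on the `SL(2,ℤ)`-orbit of `τ₀`. -/
theorem isIntegral_localSubring_of_forall_regular (c : Coord k FN) (hc : c.x = jB (k := k) M L)
    {a : k} {τ₀ : ℍ} (hτ : jFun τ₀ = algebraMap k ℂ a) {f : FN}
    (hf : ∀ γ : SL(2, ℤ), 0 ≤ MerH.ordAt (γ • τ₀) (φN f)) :
    IsIntegral (c.localSubring a) f := by
  apply isIntegral_localSubring_of_regular M L c hc hτ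
  intro q
  rw [ordAt_conjM]
  exact hf _

end Final

section Count

open Fermat.Agent.FF

variable {k : Type*} [Field k] [Algebra ℚ k] [Algebra k ℂ] (M L : ℕ) [NeZero M] [NeZero L]
variable (c : Coord k ↥(laurentBaseChange k (F₁ M L)))

theorem realML_jGen_eq_jM (ι : k →+* ℂ) : realML ι M L (jK k M L) = jM :=
  realML_jK ι M L

/-- the integrality input of the squeeze at a finite point. -/
theorem finPt_isIntegral (hc : c.x = jK k M L) (a : k) (τ₀ : ℍ)
    (hτ : jFun τ₀ = algebraMap k ℂ a)
    (f : ↥(laurentBaseChange k (F₁ M L))) (_hf0 : f ≠ 0)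
    (hf : ∀ q, 0 ≤ (finOrdFn M L (algebraMap k ℂ) τ₀ a hτ q).ord f) :
    IsIntegral (c.localSubring a) f :=
  isIntegral_localSubring_of_regular' M L c (by rw [hc, realML_jGen_eq_jM]) hτ hf

variable [CharZero k] [IsAlgClosed k]

/-- **Generic fibres of `j`**: `ψ(N)` simple points. -/
theorem finPt_card_zeros_of_ne (hc : c.x = jK k M L)
    (hX : Nat.card (SL(2, ℤ) ⧸ Gpm M L) = c.degree) (a : k) (h0 : a ≠ 0) (h1 : a ≠ 1728) :
    (c.zeros a).card = c.degree ∧ ∀ v ∈ c.zeros a, v.ord (c.x - algebraMap k _ a) = 1 :=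
  finPt_card_zeros_generic (algebraMap k ℂ) c hc hX a h0 h1
    (fun τ₀ hτ f hf0 hf => finPt_isIntegral M L c hc a τ₀ hτ f hf0 hf)

/-- **The fibre of `j` over `1728`** is in bijection with the `⟨S⟩`-orbits on the cosets. -/
theorem finPt_card_zeros_1728_eq (hc : c.x = jK k M L)
    (hX : Nat.card (SL(2, ℤ) ⧸ Gpm M L) = c.degree) :
    (c.zeros 1728).card =
      Nat.card (MulAction.orbitRel.Quotient (Subgroup.zpowers S) (SL(2, ℤ) ⧸ Gpm M L)) :=
  finPt_card_zeros_1728 (algebraMap k ℂ) c hc hX
    (fun hτ f hf0 hf => finPt_isIntegral M L c hc 1728 UpperHalfPlane.I hτ f hf0 hf)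

/-- **The fibre of `j` over `0`** is in bijection with the `⟨ST⟩`-orbits on the cosets. -/
theorem finPt_card_zeros_zero_eq (hc : c.x = jK k M L)
    (hX : Nat.card (SL(2, ℤ) ⧸ Gpm M L) = c.degree) :
    (c.zeros 0).card =
      Nat.card (MulAction.orbitRel.Quotient (Subgroup.zpowers (S * T))
        (SL(2, ℤ) ⧸ Gpm M L)) :=
  finPt_card_zeros_zero (algebraMap k ℂ) c hc hX
    (fun hτ f hf0 hf => finPt_isIntegral M L c hc 0 rhoH hτ f hf0 hf)


end Count

section FinitePoints

open Fermat.Agent.FF

variable {k : Type*} [Field k] [Algebra ℚ k] [Algebra k ℂ] {M L : ℕ} [NeZero M] [NeZero L]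

/-- The generator `j` of the function field of `X₀(N)` over `k` is realised by `j`. -/
theorem realML_jGen_algebraMap_eq_jM : realML (algebraMap k ℂ) M L (jK k M L) = jM :=
  realML_jK (algebraMap k ℂ) M L

variable [CharZero k] [IsAlgClosed k]
  (c : Coord k ↥(laurentBaseChange k (F₁ M L)))

/-- **Generic fibres** of `j` on `X₀(N)`: `ψ(N)` points. -/
theorem card_zeros_generic_of_coord (hc : c.x = jK k M L)
    (hX : Nat.card (SL(2, ℤ) ⧸ Gpm M L) = c.degree) (a : k) (h0 : a ≠ 0) (h1 : a ≠ 1728) :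
    (c.zeros a).card = c.degree :=
  (finPt_card_zeros_generic (algebraMap k ℂ) c hc hX a h0 h1
    (fun _τ₀ ha _f _ hf =>
      isIntegral_localSubring_of_regular' M L c (hc ▸ realML_jGen_algebraMap_eq_jM) ha
        (fun q => hf q))).1

/-- **The fibre over `1728`**: the `⟨S⟩`-orbits on the cosets. -/
theorem card_zeros_1728_of_coord (hc : c.x = jK k M L)
    (hX : Nat.card (SL(2, ℤ) ⧸ Gpm M L) = c.degree) :
    (c.zeros 1728).card =
      Nat.card (MulAction.orbitRel.Quotient (Subgroup.zpowers S) (SL(2, ℤ) ⧸ Gpm M L)) :=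
  finPt_card_zeros_1728 (algebraMap k ℂ) c hc hX
    (fun ha _f _ hf =>
      isIntegral_localSubring_of_regular' M L c (hc ▸ realML_jGen_algebraMap_eq_jM) ha
        (fun q => hf q))

/-- **The fibre over `0`**: the `⟨ST⟩`-orbits on the cosets. -/
theorem card_zeros_zero_of_coord (hc : c.x = jK k M L)
    (hX : Nat.card (SL(2, ℤ) ⧸ Gpm M L) = c.degree) :
    (c.zeros 0).card =
      Nat.card (MulAction.orbitRel.Quotient (Subgroup.zpowers (S * T)) (SL(2, ℤ) ⧸ Gpm M L)) :=
  finPt_card_zeros_zero (algebraMap k ℂ) c hc hX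
    (fun ha _f _ hf =>
      isIntegral_localSubring_of_regular' M L c (hc ▸ realML_jGen_algebraMap_eq_jM) ha
        (fun q => hf q))

end FinitePoints

end

end Fermat.Agent.W1
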