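/-
W1 = [GRΓ1] (S48), package [DICT1] (helper3), part 4: **the cusp valuations on the function field
of `Gpm M L`** — port of section `K5` of `X0N/Cusp_helper9_Val` (width `N ↦ M * L`, since
`Γ(M L) ≤ Gpm M L`); the generic sections (K2), (K4) are used from the original.
Original declaration names kept inside `Fermat.Agent.W1` (`realN ↦ realML`).
-/
import Fermat.Agent.W1.DICT1_helper3_FinCount
import Fermat.Agent.X0N.Cusp_helper9_Val

set_option autoImplicit false
set_option linter.unusedSectionVars false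

namespace Fermat.Agent.W1

open UpperHalfPlane hiding I
open Complex Filter Function Fermat.Agent.RatStr ModularGroup ModularCurve
open CongruenceSubgroup Fermat.Agent.X0N Fermat.Agent.X0N.Cusp
open scoped Manifold Topology MatrixGroups ModularForm

theorem T_pow_mem_normalCore (M L : ℕ) : T ^ (M * L) ∈ (Gpm M L).normalCore := by
  intro b
  apply GammaML_le_Gpm M L
  apply Gamma_le_GammaML M L
  exact (Gamma_normal (M * L)).conj_mem _ (Cusp.T_pow_mem_Gamma (M * L)) b

section K5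

variable {k : Type*} [Field k] [Algebra ℚ k] (ι : k →+* ℂ) (M L : ℕ) [NeZero M] [NeZero L]

/-- The conjugate embedding of the function field attached to the coset `q`. -/
noncomputable def cuspConj (q : SL(2, ℤ) ⧸ Gpm M L) :
    ↥(laurentBaseChange k (F₁ M L)) →+* MerH :=
  ((MerH.comp (q.out)⁻¹ : MerH ≃+* MerH) : MerH →+* MerH).comp (realML ι M L)

theorem cuspConj_apply (q : SL(2, ℤ) ⧸ Gpm M L)
    (x : ↥(laurentBaseChange k (F₁ M L))) :
    cuspConj ι M L q x = conjM (Gpm M L) (realML ι M L x) q := rfl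

theorem cuspConj_ne_zero (q : SL(2, ℤ) ⧸ Gpm M L)
    {x : ↥(laurentBaseChange k (F₁ M L))} (hx : x ≠ 0) :
    cuspConj ι M L q x ≠ 0 := by
  rwa [Ne, map_eq_zero_iff _ (cuspConj ι M L q).injective]

theorem isMerInf_cuspConj (q : SL(2, ℤ) ⧸ Gpm M L)
    (x : ↥(laurentBaseChange k (F₁ M L))) :
    IsMerInf (M * L) (cuspConj ι M L q x) :=
  (isModFun_conjM (isModFun_realML ι x) q).isMerInf (T_pow_mem_normalCore M L)

theorem cuspConj_algebraMap (q : SL(2, ℤ) ⧸ Gpm M L) (a : k) :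
    cuspConj ι M L q (algebraMap k _ a) = MerH.const (ι a) := by
  rw [cuspConj_apply, realML_algebraMap]
  exact MerH.comp_const _ _

theorem cuspConj_jK (q : SL(2, ℤ) ⧸ Gpm M L) : cuspConj ι M L q (jK k M L) = jM := by
  rw [cuspConj_apply, realML_jK]
  exact comp_jM _

/-- **The cusp valuation** attached to the coset `q`: the order at `i∞`, in the local parameter
`q_N = exp(2πiτ/N)`, of the `q`-th conjugate of `realN x`. -/
noncomputable def cuspOrdFn (q : SL(2, ℤ) ⧸ Gpm M L) :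
    FF.OrdFn k ↥(laurentBaseChange k (F₁ M L)) where
  ord x := MerH.ordInf (M * L) (cuspConj ι M L q x)
  ord_mul {x y} hx hy := by
    rw [map_mul]
    exact MerH.ordInf_mul (isMerInf_cuspConj ι M L q x) (isMerInf_cuspConj ι M L q y)
      (cuspConj_ne_zero ι M L q hx) (cuspConj_ne_zero ι M L q hy)
  ord_add {x y} _ _ hxy := by
    rw [map_add]
    apply MerH.min_ordInf_le_ordInf_add (isMerInf_cuspConj ι M L q x) (isMerInf_cuspConj ι M L q y)
    rw [← map_add]
    exact cuspConj_ne_zero ι M L q hxy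
  ord_algebraMap a ha := by
    rw [cuspConj_algebraMap]
    exact MerH.ordInf_const (by rwa [Ne, map_eq_zero_iff _ ι.injective])
  nontrivial := ⟨jK k M L, jK_ne_zero ι M L, by
    rw [cuspConj_jK, ordInf_jM]
    have : ((M * L : ℕ) : ℤ) ≠ 0 := by exact_mod_cast NeZero.ne (M * L)
    simpa using this⟩

theorem cuspOrdFn_ord (q : SL(2, ℤ) ⧸ Gpm M L)
    (x : ↥(laurentBaseChange k (F₁ M L))) :
    (cuspOrdFn ι M L q).ord x = MerH.ordInf (M * L) (conjM (Gpm M L) (realML ι M L x) q) := rfl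

/-- `j` has a pole of order `N` (in `q_N`) at every cusp. -/
theorem cuspOrdFn_ord_jK (q : SL(2, ℤ) ⧸ Gpm M L) :
    (cuspOrdFn ι M L q).ord (jK k M L) = -((M * L : ℕ) : ℤ) := by
  show MerH.ordInf (M * L) (cuspConj ι M L q (jK k M L)) = _
  rw [cuspConj_jK, ordInf_jM]

theorem cuspOrdFn_ord_jK_inv (q : SL(2, ℤ) ⧸ Gpm M L) :
    (cuspOrdFn ι M L q).ord (jK k M L)⁻¹ = ((M * L : ℕ) : ℤ) := by
  rw [FF.OrdFn.ord_inv _ (jK_ne_zero ι M L), cuspOrdFn_ord_jK, neg_neg]

/-- The cusp valuation only depends on the `⟨T⟩`-orbit of the coset. -/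
theorem cuspOrdFn_ord_T_zpow_smul (t : ℤ) (q : SL(2, ℤ) ⧸ Gpm M L)
    (x : ↥(laurentBaseChange k (F₁ M L))) :
    (cuspOrdFn ι M L (T ^ t • q)).ord x = (cuspOrdFn ι M L q).ord x := by
  rw [cuspOrdFn_ord, cuspOrdFn_ord]
  have h1 := comp_conjM (isModFun_realML ι x) (T ^ (-t)) q
  rw [zpow_neg, inv_inv] at h1
  rw [← h1, ← zpow_neg]
  exact MerH.ordInf_comp_T_zpow (isMerInf_cuspConj ι M L q x) (-t)

theorem cuspOrdFn_ord_eq_of_orbitRel {q q' : SL(2, ℤ) ⧸ Gpm M L}
    (hr : MulAction.orbitRel (Subgroup.zpowers T) (SL(2, ℤ) ⧸ Gpm M L) q q')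
    (x : ↥(laurentBaseChange k (F₁ M L))) :
    (cuspOrdFn ι M L q).ord x = (cuspOrdFn ι M L q').ord x := by
  rw [MulAction.orbitRel_apply] at hr
  obtain ⟨⟨g, hg⟩, rfl⟩ := hr
  obtain ⟨t, rfl⟩ := Subgroup.mem_zpowers_iff.mp hg
  exact cuspOrdFn_ord_T_zpow_smul ι M L t q' x

/-- **Divisibility**: if `T^w` fixes the coset `q` and `w * d = N` then all values of the cusp
valuation at `q` are divisible by `d`. -/
theorem dvd_cuspOrdFn_ord {q : SL(2, ℤ) ⧸ Gpm M L} {w d : ℕ} (hwd : w * d = M * L)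
    (hw : T ^ w • q = q) (x : ↥(laurentBaseChange k (F₁ M L))) :
    (d : ℤ) ∣ (cuspOrdFn ι M L q).ord x := by
  rw [cuspOrdFn_ord]
  apply MerH.dvd_ordInf_of_comp_eq (isMerInf_cuspConj ι M L q x) hwd
  have h1 := comp_conjM (isModFun_realML ι x) ((T ^ w)⁻¹) q
  rw [inv_inv, hw] at h1
  -- invariance under `T^{-w}` gives invariance under `T^w`
  have h2 := congrArg (MerH.comp (T ^ w)) h1
  rw [← MerH.comp_mul, inv_mul_cancel, MerH.comp_one] at h2
  exact h2.symm

theorem T_pow_N_smul_coset (q : SL(2, ℤ) ⧸ Gpm M L) : T ^ (M * L) • q = q := by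
  induction q using QuotientGroup.induction_on with
  | H g =>
    rw [MulAction.Quotient.smul_mk, QuotientGroup.eq]
    have h1 : g⁻¹ * T ^ (M * L) * g ∈ Gpm M L := by
      have := T_pow_mem_normalCore M L g⁻¹
      rwa [inv_inv] at this
    have h2 : (T ^ (M * L) • g)⁻¹ * g = (g⁻¹ * T ^ (M * L) * g)⁻¹ := by
      rw [smul_eq_mul]
      group
    rw [h2]
    exact (Gpm M L).inv_mem h1

/-- The width of the cusp through `q`: the size of the `⟨T⟩`-orbit of `q`. -/
theorem card_orbit_T_eq_period (q : SL(2, ℤ) ⧸ Gpm M L) :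
    Nat.card {q' // MulAction.orbitRel (Subgroup.zpowers T) (SL(2, ℤ) ⧸ Gpm M L) q' q} =
      MulAction.period T q := by
  have e := MulAction.orbitZPowersEquiv T q
  rw [MulAction.period_eq_minimalPeriod, ← Nat.card_zmod (Function.minimalPeriod (T • ·) q)]
  exact Nat.card_congr e

theorem period_T_dvd (q : SL(2, ℤ) ⧸ Gpm M L) : MulAction.period T q ∣ M * L :=
  MulAction.pow_smul_eq_iff_period_dvd.mp (T_pow_N_smul_coset M L q)

/-- The width divides `N`. -/
theorem card_orbit_T_dvd (q : SL(2, ℤ) ⧸ Gpm M L) :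
    Nat.card {q' // MulAction.orbitRel (Subgroup.zpowers T) (SL(2, ℤ) ⧸ Gpm M L) q' q} ∣ M * L := by
  rw [card_orbit_T_eq_period]
  exact period_T_dvd M L q

/-- **Divisibility in the form needed for the squeeze**: the values of the cusp valuation at `q`
are divisible by `N / w`, `w` the width (= size of the `⟨T⟩`-orbit of `q`). -/
theorem div_card_orbit_dvd_cuspOrdFn_ord (q : SL(2, ℤ) ⧸ Gpm M L)
    (x : ↥(laurentBaseChange k (F₁ M L))) :
    ((M * L / Nat.card {q' // MulAction.orbitRel (Subgroup.zpowers T) (SL(2, ℤ) ⧸ Gpm M L) q' q} : ℕ)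
      : ℤ) ∣ (cuspOrdFn ι M L q).ord x := by
  rw [card_orbit_T_eq_period]
  exact dvd_cuspOrdFn_ord ι M L (Nat.mul_div_cancel' (period_T_dvd M L q))
    (MulAction.pow_period_smul T q) x

end K5

end Fermat.Agent.W1
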