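/-
W1 = [GRΓ1] (S48), package [DICT1] (helper3), part 5: **integrality at `∞` and the places over
`j = ∞`** — port of section `K6` of `X0N/Cusp_helper9_Int` (width `N ↦ M * L`, abstract counts:
no `dedekindPsi`/`cuspCount`); the generic part (`regularInf`, …) is used from the original.
Original declaration names kept inside `Fermat.Agent.W1` (`realN ↦ realML`).
-/
import Fermat.Agent.W1.DICT1_helper3_CuspVal
import Fermat.Agent.X0N.Cusp_helper9_Int

set_option autoImplicit false
set_option linter.unusedSectionVars false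

namespace Fermat.Agent.W1

open UpperHalfPlane hiding I
open Complex Filter Function Fermat.Agent.RatStr ModularGroup ModularCurve Polynomial
open CongruenceSubgroup IntermediateField Fermat.Agent.X0N Fermat.Agent.X0N.Cusp
open scoped Manifold Topology MatrixGroups ModularForm

section K6

open AlgebraicCurve Fermat.Agent.FF

variable {k : Type*} [Field k] [Algebra ℚ k] [Algebra k ℂ] (M L : ℕ) [NeZero M] [NeZero L]

local notation "FN" => FNk k M L
local notation "φN" => realML (algebraMap k ℂ) M L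

theorem jB_eq_jK : jB (k := k) M L = jK k M L := by
  apply (realML (algebraMap k ℂ) M L).injective
  rw [realML_jB, realML_jK]

theorem jB_ne_zero : jB (k := k) M L ≠ 0 := by
  rw [jB_eq_jK]
  exact jK_ne_zero (algebraMap k ℂ) M L

/-- an element of `k(j)` whose realisation is regular at `i∞` is a quotient `P(1/j)/Q(1/j)` with
`Q(0) ≠ 0`. -/
theorem exists_rep_of_realML_regularInf (r : k⟮jB (k := k) M L⟯)
    (hreg : φN (r : FN) ∈ regularInf (M * L)) :
    ∃ P Q : k[X], Q.eval 0 ≠ 0 ∧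
      (r : FN) * Polynomial.aeval (jB (k := k) M L)⁻¹ Q = Polynomial.aeval (jB (k := k) M L)⁻¹ P := by
  have hφ := isLinDisjHom_realML (k := k) M L
  obtain ⟨P, Q, -, hQj, hr'⟩ := exists_coprime_rep (jB (k := k) M L) r
  have hQ0 : Q ≠ 0 := by
    intro h0
    rw [h0, map_zero] at hQj
    exact hQj rfl
  by_cases hP0 : P = 0
  · refine ⟨0, 1, by simp, ?_⟩
    rw [hr', hP0, map_zero, zero_div, zero_mul, map_zero]
  have hinj := (algebraMap k ℂ).injective
  have hQc : Q.map (algebraMap k ℂ) ≠ 0 := (Polynomial.map_ne_zero_iff hinj).mpr hQ0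
  have hPc : P.map (algebraMap k ℂ) ≠ 0 := (Polynomial.map_ne_zero_iff hinj).mpr hP0
  have hrel : φN (r : FN) * Polynomial.aeval jM (Q.map (algebraMap k ℂ)) =
      Polynomial.aeval jM (P.map (algebraMap k ℂ)) := by
    rw [hr', map_div₀, realML_aeval M L hφ, realML_aeval M L hφ, realML_jB,
      div_mul_cancel₀ _ (aeval_jM_ne_zero hQc)]
  have hr0 : φN (r : FN) ≠ 0 := by
    intro h0
    rw [h0, zero_mul] at hrel
    exact aeval_jM_ne_zero hPc hrel.symm
  -- compare orders at `i∞`
  have hord := congrArg (MerH.ordInf (M * L)) hrel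
  rw [MerH.ordInf_mul hreg.1 (isMerInf_aeval_jM (M * L) _) hr0 (aeval_jM_ne_zero hQc),
    ordInf_aeval_jM (M * L) hQc, ordInf_aeval_jM (M * L) hPc, Polynomial.natDegree_map_eq_of_injective hinj,
    Polynomial.natDegree_map_eq_of_injective hinj] at hord
  have hdeg : P.natDegree ≤ Q.natDegree := by
    have h1 := hreg.2
    have hN : (0 : ℤ) < ((M * L : ℕ) : ℤ) := by exact_mod_cast NeZero.pos (M * L)
    have h2 : ((M * L : ℕ) : ℤ) * (P.natDegree : ℤ) ≤ ((M * L : ℕ) : ℤ) * (Q.natDegree : ℤ) := by linarith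
    exact_mod_cast le_of_mul_le_mul_left h2 hN
  -- reflect
  refine ⟨Polynomial.reflect Q.natDegree P, Polynomial.reflect Q.natDegree Q, ?_, ?_⟩
  · rw [eval_zero_reflect]
    exact Polynomial.leadingCoeff_ne_zero.mpr hQ0
  · rw [aeval_inv_reflect (jB_ne_zero M L) _ Q le_rfl, aeval_inv_reflect (jB_ne_zero M L) _ P hdeg,
      hr', mul_left_comm, div_mul_cancel₀ _ hQj]

/-- **(K6) Integrality at `∞`**: if all conjugates of the realisation of `f` are regular at `i∞`
then `f` is integral over the local ring of `k(j)` at `j = ∞`. This is the hypothesis `hint` of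
`FF.Coord.card_poles_eq_card_quotient_ordFn`. -/
theorem isIntegral_inv_localSubring_of_cusp_regular (c : Coord k FN) (hc : c.x = jB (k := k) M L)
    {f : FN} (hf : ∀ q, 0 ≤ (cuspOrdFn (algebraMap k ℂ) M L q).ord f) :
    IsIntegral (c.inv.localSubring 0) f := by
  have hint := isIntegral_jB' M L f
  have hcoeff : ∀ i, (((minpoly k⟮jB (k := k) M L⟯ f).coeff i : k⟮jB (k := k) M L⟯) : FN) ∈
      c.inv.localSubring 0 := by
    intro i
    rw [Coord.mem_localSubring, Coord.inv_x, hc]
    apply exists_rep_of_realML_regularInf M L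
    apply realML_coeff_minpoly_mem' M L f (regularInf (M * L))
    intro q
    exact ⟨isMerInf_cuspConj (algebraMap k ℂ) M L q f, hf q⟩
  have hl : (minpoly k⟮jB (k := k) M L⟯ f).map (algebraMap k⟮jB (k := k) M L⟯ FN) ∈
      Polynomial.lifts (c.inv.localSubring 0).subtype := by
    rw [Polynomial.lifts_iff_coeff_lifts]
    intro i
    rw [coeff_map]
    exact ⟨⟨_, hcoeff i⟩, rfl⟩
  obtain ⟨p, hp, -, hmon⟩ :=
    Polynomial.lifts_and_natDegree_eq_and_monic hl ((minpoly.monic hint).map _)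
  refine ⟨p, hmon, ?_⟩
  have : Polynomial.eval₂ (algebraMap (c.inv.localSubring 0) FN) f p =
      (p.map (c.inv.localSubring 0).subtype).eval f := (Polynomial.eval_map _ _).symm
  rw [this, hp, Polynomial.eval_map, ← Polynomial.aeval_def, minpoly.aeval]

/-- **The places of the function field over `j = ∞` are the `⟨T⟩`-orbits of cosets (the cusps
of `Γ₀(N)`)**: number of poles of `j`, ramification index = width, injectivity and surjectivity
of `orbit ↦ place`. -/
theorem poles_jB_squeeze [CharZero k] [IsAlgClosed k] (c : Coord k FN)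
    (hc : c.x = jB (k := k) M L) (hdeg : c.degree = Nat.card (SL(2, ℤ) ⧸ Gpm M L)) :
    c.poles.card =
        Nat.card (MulAction.orbitRel.Quotient (Subgroup.zpowers T) (SL(2, ℤ) ⧸ Gpm M L)) ∧
      (∀ q, -((cuspOrdFn (algebraMap k ℂ) M L q).toPlace.ord c.x) =
        Nat.card {q' // MulAction.orbitRel (Subgroup.zpowers T) (SL(2, ℤ) ⧸ Gpm M L) q' q}) ∧
      (∀ q q', (cuspOrdFn (algebraMap k ℂ) M L q).toPlace = (cuspOrdFn (algebraMap k ℂ) M L q').toPlace →
        MulAction.orbitRel (Subgroup.zpowers T) (SL(2, ℤ) ⧸ Gpm M L) q q') ∧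
      (∀ v ∈ c.poles, ∃ q, (cuspOrdFn (algebraMap k ℂ) M L q).toPlace = v) := by
  classical
  have : Fintype (SL(2, ℤ) ⧸ Gpm M L) := Fintype.ofFinite _
  have hNpos : 0 < M * L := NeZero.pos (M * L)
  have hwpos : ∀ q : SL(2, ℤ) ⧸ Gpm M L, 0 <
      Nat.card {q' // MulAction.orbitRel (Subgroup.zpowers T) (SL(2, ℤ) ⧸ Gpm M L) q' q} :=
    fun q => Nat.pos_of_dvd_of_pos (card_orbit_T_dvd M L q) hNpos
  refine c.card_poles_eq_card_quotient_ordFn
    (MulAction.orbitRel (Subgroup.zpowers T) (SL(2, ℤ) ⧸ Gpm M L))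
    (by rw [hdeg, Nat.card_eq_fintype_card])
    (fun q => cuspOrdFn (algebraMap k ℂ) M L q) (fun _ => ((M * L : ℕ) : ℤ))
    (fun q => ((M * L / Nat.card {q' // MulAction.orbitRel (Subgroup.zpowers T)
      (SL(2, ℤ) ⧸ Gpm M L) q' q} : ℕ) : ℤ)) ?_ ?_ ?_ ?_ ?_ ?_ ?_
  · intro q
    rw [hc, jB_eq_jK]
    exact cuspOrdFn_ord_jK (algebraMap k ℂ) M L q
  · intro q
    exact_mod_cast hNpos
  · intro q
    have := Nat.div_pos (Nat.le_of_dvd hNpos (card_orbit_T_dvd M L q)) (hwpos q)
    exact_mod_cast this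
  · intro q f _
    exact div_card_orbit_dvd_cuspOrdFn_ord (algebraMap k ℂ) M L q f
  · intro q
    have := Nat.div_mul_cancel (card_orbit_T_dvd M L q)
    have h2 : ((M * L / Nat.card {q' // MulAction.orbitRel (Subgroup.zpowers T)
      (SL(2, ℤ) ⧸ Gpm M L) q' q} : ℕ) : ℤ) * (Nat.card {q' // MulAction.orbitRel
      (Subgroup.zpowers T) (SL(2, ℤ) ⧸ Gpm M L) q' q} : ℤ) = ((M * L : ℕ) : ℤ) := by exact_mod_cast this
    rw [h2]
  · intro q q' hr f _
    exact cuspOrdFn_ord_eq_of_orbitRel (algebraMap k ℂ) M L hr f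
  · intro f _ hf
    exact isIntegral_inv_localSubring_of_cusp_regular M L c hc hf

/-- The number of places over `j = ∞` is the number of cusps of `Γ₀(N)`. -/
theorem card_poles_eq_card_cusps [CharZero k] [IsAlgClosed k] (c : Coord k FN)
    (hc : c.x = jB (k := k) M L) (hdeg : c.degree = Nat.card (SL(2, ℤ) ⧸ Gpm M L)) :
    c.poles.card =
      Nat.card (MulAction.orbitRel.Quotient (Subgroup.zpowers T) (SL(2, ℤ) ⧸ Gpm M L)) :=
  (poles_jB_squeeze M L c hc hdeg).1


/-- variant for a coordinate given as `jK k M L = ⟨coeffEmb k jq, _⟩`. -/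
theorem card_poles_eq_card_cusps_jK [CharZero k] [IsAlgClosed k] (c : Coord k FN)
    (hc : c.x = jK k M L) (hdeg : c.degree = Nat.card (SL(2, ℤ) ⧸ Gpm M L)) :
    c.poles.card =
      Nat.card (MulAction.orbitRel.Quotient (Subgroup.zpowers T) (SL(2, ℤ) ⧸ Gpm M L)) :=
  card_poles_eq_card_cusps M L c (hc.trans (jB_eq_jK M L).symm) hdeg

end K6

end Fermat.Agent.W1
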