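/-
W1 = [GRΓ1] (S48), package [RAM1] (helper3), part 2: **ramification of the function field of level
`Gpm M L` over the `j`-line, over an arbitrary field `K ⊆ ℂ`** (no root of unity needed).

For every place `P` of `K · F₁(M, L) / K` (every closed point, rational or not):
* `ram1_generic` : `p` irreducible, `p(0) ≠ 0`, `p(1728) ≠ 0`, `0 < ord_P p(j)` ⇒ `ord_P p(j) = 1`;
* `ram1_zero_dvd` : `0 < ord_P j` ⇒ `ord_P j ∣ 3`;
* `ram1_1728_dvd` : `0 < ord_P (j - 1728)` ⇒ `ord_P (j - 1728) ∣ 2`;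
* `ram1_infty_dvd` : `ord_P j < 0` ⇒ `- ord_P j ∣ M * L`.

Proof: extend `P` to a place `Q` of `ℂ · F₁(M, L) / ℂ` (constant field extension,
`RAM1_helper3_Place`), where [DICT1] identifies all places with points of `ℍ` / cusps and computes
the order of `j - a` (orbit sizes of `S`, `S T`, `T` on the cosets).
-/
import Mathlib
import Fermat.Agent.W1.RAM1_helper3_Place
import Fermat.Agent.W1.DICT1_helper3_CuspInt
import Fermat.Agent.GR.DESC_helper3_Laurent
import Fermat.Agent.JA.RAM0_helper2_Rational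

set_option autoImplicit false
set_option linter.unusedSectionVars false
set_option linter.style.haveILetI false

open Polynomial AlgebraicCurve IntermediateField ModularCurve UpperHalfPlane
open MatrixGroups ModularGroup

namespace Fermat.Agent.W1

open Fermat.Agent.FF Fermat.Agent.GR Fermat.Agent.X0N Fermat.Agent.JA Fermat.Agent.RatStr

/-! ### extension of places along the coefficientwise base change -/

section BC

variable {K L : Type*} [Field K] [Field L] [Algebra ℚ K] [Algebra ℚ L] [Algebra K L]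
  [IsScalarTower ℚ K L] (F₀ : IntermediateField ℚ (LaurentSeries ℚ))

/-- **extension of places along `K · F₀ ⊆ L · F₀`** for an arbitrary extension `L / K` of
characteristic zero fields (the ramification index `e` is in fact `1`; not needed). -/
theorem exists_place_ord_bcHom_mul (cL : Coord L ↥(laurentBaseChange L F₀))
    (P : Place K ↥(laurentBaseChange K F₀)) :
    ∃ (Q : Place L ↥(laurentBaseChange L F₀)) (e : ℤ), 0 < e ∧
      ∀ x : ↥(laurentBaseChange K F₀), Q.ord (bcHom (L := L) F₀ x) = e * P.ord x := by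
  letI := bcAlgebra (K := K) (L := L) F₀
  letI := bcAlgebraBase (K := K) (L := L) F₀
  haveI := bcCompat_std (K := K) (L := L) F₀
  haveI : CharZero L := algebraRat.charZero L
  exact exists_place_ext_of_isConstExt (isConstExt_laurent F₀) cL P

end BC

/-! ### orbit sizes -/

section Orbits

theorem card_orbit_zpowers_dvd {G X : Type*} [Group G] [MulAction G X] (g : G) (x : X) {n : ℕ}
    (h : g ^ n • x = x) :
    Nat.card {y // MulAction.orbitRel (Subgroup.zpowers g) X y x} ∣ n := by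
  have e := MulAction.orbitZPowersEquiv g x
  have h1 : Nat.card {y // MulAction.orbitRel (Subgroup.zpowers g) X y x} =
      MulAction.period g x := by
    rw [MulAction.period_eq_minimalPeriod, ← Nat.card_zmod (Function.minimalPeriod (g • ·) x)]
    exact Nat.card_congr e
  rw [h1]
  exact MulAction.pow_smul_eq_iff_period_dvd.mp h

variable (M L : ℕ)

theorem card_orbit_S_dvd (q : SL(2, ℤ) ⧸ Gpm M L) :
    Nat.card {q' // MulAction.orbitRel (Subgroup.zpowers S) (SL(2, ℤ) ⧸ Gpm M L) q' q} ∣ 2 := by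
  apply card_orbit_zpowers_dvd
  have h : S ^ 2 = (-1 : SL(2, ℤ)) := by decide
  rw [h, neg_one_smul_coset_Gpm]

theorem card_orbit_ST_dvd (q : SL(2, ℤ) ⧸ Gpm M L) :
    Nat.card {q' // MulAction.orbitRel (Subgroup.zpowers (S * T)) (SL(2, ℤ) ⧸ Gpm M L) q' q}
      ∣ 3 := by
  apply card_orbit_zpowers_dvd
  rw [Fermat.Agent.X0N.ST_cube, neg_one_smul_coset_Gpm]

end Orbits

/-! ### the places of the complex function field -/

section Complex

variable (M L : ℕ) [NeZero M] [NeZero L] (hM : M ≠ 1)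

include hM

/-- over `ℂ`: the order of `j - a` at a zero divides `1`, `2` (`a = 1728`) resp. `3` (`a = 0`). -/
theorem ord_jK_sub_dvd_complex (Q : Place ℂ ↥(laurentBaseChange ℂ (F₁ M L))) (a : ℂ)
    (hQ : 0 < Q.ord (jK ℂ M L - algebraMap ℂ ↥(laurentBaseChange ℂ (F₁ M L)) a)) :
    Q.ord (jK ℂ M L - algebraMap ℂ ↥(laurentBaseChange ℂ (F₁ M L)) a) ∣
      (if a = 0 then 3 else if a = 1728 then 2 else 1 : ℤ) := by
  classical
  set c := jCoordOf ℂ M L hM with hc
  have hcx : c.x = jK ℂ M L := rfl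
  have hX : Nat.card (SL(2, ℤ) ⧸ Gpm M L) = c.degree := by
    rw [hc, jCoordOf_degree]
    rfl
  have hmem : Q ∈ c.zeros a := c.mem_zeros.mpr hQ
  by_cases h0 : a = 0
  · subst h0
    rw [if_pos rfl]
    obtain ⟨-, h2, -, h4⟩ := fin_squeeze_zero (algebraMap ℂ ℂ) c hcx hX
      (fun f hf0 hf => finPt_isIntegral M L c hcx 0 rhoH _ f hf0 hf)
    obtain ⟨q, rfl⟩ := h4 Q hmem
    have := h2 q
    rw [hcx] at this
    rw [this]
    exact_mod_cast card_orbit_ST_dvd M L q
  rw [if_neg h0]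
  by_cases h1 : a = 1728
  · subst h1
    rw [if_pos rfl]
    obtain ⟨-, h2, -, h4⟩ := fin_squeeze_1728 (algebraMap ℂ ℂ) c hcx hX
      (fun f hf0 hf => finPt_isIntegral M L c hcx 1728 UpperHalfPlane.I _ f hf0 hf)
    obtain ⟨q, rfl⟩ := h4 Q hmem
    have := h2 q
    rw [hcx] at this
    rw [this]
    exact_mod_cast card_orbit_S_dvd M L q
  rw [if_neg h1]
  have := (finPt_card_zeros_of_ne M L c hcx hX a h0 h1).2 Q hmem
  rw [hcx] at this
  rw [this]

/-- over `ℂ`: the pole order of `j` divides `M * L`. -/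
theorem neg_ord_jK_dvd_complex (Q : Place ℂ ↥(laurentBaseChange ℂ (F₁ M L))) (hQ : Q.ord (jK ℂ M L) < 0) :
    (-Q.ord (jK ℂ M L)) ∣ ((M * L : ℕ) : ℤ) := by
  classical
  set c := jCoordOf ℂ M L hM with hc
  have hcx : c.x = jB (k := ℂ) M L := (jB_eq_jK M L).symm
  have hX : c.degree = Nat.card (SL(2, ℤ) ⧸ Gpm M L) := by
    rw [hc, jCoordOf_degree]
    rfl
  have hmem : Q ∈ c.poles := c.mem_poles.mpr hQ
  obtain ⟨-, h2, -, h4⟩ := poles_jB_squeeze M L c hcx hX
  obtain ⟨q, rfl⟩ := h4 Q hmem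
  have := h2 q
  rw [show c.x = jK ℂ M L from rfl] at this
  rw [this]
  exact_mod_cast card_orbit_T_dvd M L q

end Complex

/-! ### descent to an arbitrary subfield of `ℂ` -/

section Descent

variable {K : Type*} [Field K] [Algebra ℚ K] [Algebra K ℂ] [IsScalarTower ℚ K ℂ]
  (M L : ℕ) [NeZero M] [NeZero L] (hM : M ≠ 1)

theorem bcHom_jK : bcHom (L := ℂ) (F₁ M L) (jK K M L) = jK ℂ M L :=
  Subtype.ext (iota_coeffEmb jq)

theorem bcHom_aeval_jK (p : K[X]) :
    bcHom (L := ℂ) (F₁ M L) (aeval (jK K M L) p) =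
      aeval (jK ℂ M L) (p.map (algebraMap K ℂ)) := by
  rw [aeval_def, aeval_def, hom_eval₂, eval₂_map, bcHom_jK]
  congr 1
  exact RingHom.ext fun a => bcHom_algebraMap (L := ℂ) (F₁ M L) a

include hM

/-- **Core, finite centre.** -/
theorem ord_aeval_jK_dvd (P : Place K ↥(laurentBaseChange K (F₁ M L))) {p : K[X]}
    (hp : Irreducible p) (hP : 0 < P.ord (aeval (jK K M L) p)) :
    ∃ a : ℂ, (p.map (algebraMap K ℂ)).eval a = 0 ∧
      P.ord (aeval (jK K M L) p) ∣ (if a = 0 then 3 else if a = 1728 then 2 else 1 : ℤ) := by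
  haveI : CharZero K := algebraRat.charZero K
  set c := jCoordOf ℂ M L hM with hc
  obtain ⟨Q, e, he, hQ⟩ := exists_place_ord_bcHom_mul (K := K) (L := ℂ) (F₁ M L) c P
  set pC := p.map (algebraMap K ℂ) with hpC
  have hQpos : 0 < Q.ord (aeval (jK ℂ M L) pC) := by
    rw [← bcHom_aeval_jK, hQ]
    exact mul_pos he hP
  have hjmem : jK ℂ M L ∈ Q.toValuationSubring := mem_of_ord_aeval_pos Q hQpos
  have hnotpole : ¬ Q ∈ c.poles := by
    intro h
    have h1 : Q.ord (jK ℂ M L) < 0 := c.mem_poles.mp h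
    have h2 := PlaceAux.ord_nonneg_of_mem Q hjmem
    omega
  obtain ⟨a, ha⟩ := (c.mem_poles_or_exists_mem_zeros Q).resolve_left hnotpole
  have ha' : 0 < Q.ord (jK ℂ M L - algebraMap ℂ _ a) := c.mem_zeros.mp ha
  have hroot : pC.eval a = 0 := by
    by_contra hne
    have := (ord_aeval_eq_zero_of_eval_ne_zero Q ha' hne).2
    omega
  refine ⟨a, hroot, ?_⟩
  -- `pC = (X - C a) * g`, `g(a) ≠ 0`
  have hsep : pC.Separable := hp.separable.map
  obtain ⟨g, hg⟩ := dvd_iff_isRoot.mpr hroot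
  have hga : g.eval a ≠ 0 := by
    intro h0
    have h1 : (X - C a) ∣ g := dvd_iff_isRoot.mpr h0
    obtain ⟨g', hg'⟩ := h1
    have h2 : (X - C a) * (X - C a) ∣ pC := ⟨g', by rw [hg, hg']; ring⟩
    have h3 := hsep.squarefree (X - C a) h2
    exact not_isUnit_X_sub_C a h3
  obtain ⟨hg0, hgord⟩ := ord_aeval_eq_zero_of_eval_ne_zero Q ha' hga
  have hx0 : jK ℂ M L - algebraMap ℂ _ a ≠ 0 := by
    intro h0
    rw [h0, Q.ord_zero] at ha'
    exact lt_irrefl _ ha'
  have hfact : aeval (jK ℂ M L) pC = (jK ℂ M L - algebraMap ℂ _ a) * aeval (jK ℂ M L) g := by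
    rw [hg, map_mul, map_sub, aeval_X, aeval_C]
  have hord : Q.ord (aeval (jK ℂ M L) pC) = Q.ord (jK ℂ M L - algebraMap ℂ _ a) := by
    rw [hfact, Q.ord_mul hx0 hg0, hgord, add_zero]
  have hdvd := ord_jK_sub_dvd_complex M L hM Q a ha'
  rw [← hord, ← bcHom_aeval_jK, hQ] at hdvd
  exact (Dvd.intro_left e rfl).trans hdvd

/-- **(RAM1.gen)** unramified over every closed point of the `j`-line other than `0`, `1728`,
`∞`. -/
theorem ram1_generic (P : Place K ↥(laurentBaseChange K (F₁ M L))) (p : K[X])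
    (hp : Irreducible p) (h0 : p.eval 0 ≠ 0) (h1 : p.eval 1728 ≠ 0)
    (hP : 0 < P.ord (aeval (jK K M L) p)) : P.ord (aeval (jK K M L) p) = 1 := by
  obtain ⟨a, hroot, hdvd⟩ := ord_aeval_jK_dvd M L hM P hp hP
  have hne0 : a ≠ 0 := by
    intro h
    rw [h, ← map_zero (algebraMap K ℂ), eval_map_apply] at hroot
    exact h0 ((algebraMap K ℂ).injective hroot)
  have hne1 : a ≠ 1728 := by
    intro h
    rw [h, ← map_ofNat (algebraMap K ℂ) 1728, eval_map_apply] at hroot
    exact h1 ((map_eq_zero _).mp hroot)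
  rw [if_neg hne0, if_neg hne1] at hdvd
  exact Int.eq_one_of_dvd_one hP.le hdvd

/-- **(RAM1.0)** over `j = 0` the ramification index divides `3`. -/
theorem ram1_zero_dvd (P : Place K ↥(laurentBaseChange K (F₁ M L)))
    (hP : 0 < P.ord (jK K M L)) : P.ord (jK K M L) ∣ 3 := by
  have hP' : 0 < P.ord (aeval (jK K M L) (X : K[X])) := by rwa [aeval_X]
  obtain ⟨a, hroot, hdvd⟩ := ord_aeval_jK_dvd M L hM P irreducible_X hP'
  rw [Polynomial.map_X, eval_X] at hroot
  rw [aeval_X, if_pos hroot] at hdvd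
  exact hdvd

/-- **(RAM1.1728)** over `j = 1728` the ramification index divides `2`. -/
theorem ram1_1728_dvd (P : Place K ↥(laurentBaseChange K (F₁ M L)))
    (hP : 0 < P.ord (jK K M L - 1728)) : P.ord (jK K M L - 1728) ∣ 2 := by
  have hev : aeval (jK K M L) (X - C 1728 : K[X]) = jK K M L - 1728 := by
    rw [map_sub, aeval_X, aeval_C, map_ofNat]
  have hP' : 0 < P.ord (aeval (jK K M L) (X - C 1728 : K[X])) := by rwa [hev]
  obtain ⟨a, hroot, hdvd⟩ := ord_aeval_jK_dvd M L hM P (irreducible_X_sub_C _) hP'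
  rw [Polynomial.map_sub, Polynomial.map_X, Polynomial.map_C, eval_sub, eval_X, eval_C,
    map_ofNat, sub_eq_zero] at hroot
  rw [hev, hroot, if_neg (by norm_num), if_pos rfl] at hdvd
  exact hdvd

/-- **(RAM1.∞)** over `j = ∞` the ramification index divides `M * L`. -/
theorem ram1_infty_dvd (P : Place K ↥(laurentBaseChange K (F₁ M L)))
    (hP : P.ord (jK K M L) < 0) : (-P.ord (jK K M L)) ∣ ((M * L : ℕ) : ℤ) := by
  haveI : CharZero K := algebraRat.charZero K
  set c := jCoordOf ℂ M L hM with hc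
  obtain ⟨Q, e, he, hQ⟩ := exists_place_ord_bcHom_mul (K := K) (L := ℂ) (F₁ M L) c P
  have hQneg : Q.ord (jK ℂ M L) < 0 := by
    rw [← bcHom_jK (K := K), hQ]
    exact mul_neg_of_pos_of_neg he hP
  have hdvd := neg_ord_jK_dvd_complex M L hM Q hQneg
  rw [← bcHom_jK (K := K), hQ, ← mul_neg] at hdvd
  exact (Dvd.intro_left e rfl).trans hdvd

end Descent

end Fermat.Agent.W1
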