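/-
W1 = [GRΓ1] (S48), package [SER] (helper7), part 3: the weight-4 series (helper9's choice of
generators, msg 1297).

For `a : ZMod M`, `yPart M R a = ∑_{c > 0, c ≡ a (M)} ∑_{m ≥ 1} m³ q^{cm} + (the same for -a)`, i.e.
the coefficient of `q^n` is `∑_{c ∣ n, c ≡ a} (n/c)³ + ∑_{c ∣ n, c ≡ -a} (n/c)³`.  Analytically
`(3 / (8 π⁴)) ∑_{(c,d) ∈ ℤ², c ≡ a (M)} (c τ + d)⁻⁴ = ℘''(aτ; ⟨1, Mτ⟩) / (6 · …)`, weight `4` for
`Γ₁(M)`.

For `a ≠ 0` the series `yPart a` has order `ā = min(a, M - a)` and leading coefficient `1`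
(if `2 a ≠ 0`), over every ring; hence for `a ≠ ± a'` (both `≠ 0`) the difference
`yPart a - yPart a'` is `q^{min(ā, ā')} · unit` — a UNIT of `R((q))`, for every commutative
ring `R` (`isUnit_ofPowerSeries_yPart_sub`).
-/
import Mathlib

set_option autoImplicit false

namespace Fermat.Agent.W1

open PowerSeries

section Defs

variable (M : ℕ)

/-- `∑_{c ∣ n, c ≡ a (M)} (n / c)³`. -/
def yCoefHalf (a : ZMod M) (n : ℕ) : ℕ :=
  (n.divisors.filter fun c : ℕ => (c : ZMod M) = a).sum fun c => (n / c) ^ 3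

/-- the coefficient of `q^n` in `yPart a`. -/
def yCoef (a : ZMod M) (n : ℕ) : ℕ := yCoefHalf M a n + yCoefHalf M (-a) n

theorem yCoef_neg (a : ZMod M) (n : ℕ) : yCoef M (-a) n = yCoef M a n := by
  rw [yCoef, yCoef, neg_neg, add_comm]

theorem yCoefHalf_zero (a : ZMod M) : yCoefHalf M a 0 = 0 := by
  simp [yCoefHalf]

theorem yCoef_zero (a : ZMod M) : yCoef M a 0 = 0 := by
  simp [yCoef, yCoefHalf_zero]

variable (R : Type*) [CommRing R]

/-- the series `∑_{c ≡ ± a} ∑_m m³ q^{cm}` over `R`. -/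
def yPart (a : ZMod M) : PowerSeries R := PowerSeries.mk fun n => (yCoef M a n : R)

@[simp] theorem coeff_yPart (a : ZMod M) (n : ℕ) :
    coeff n (yPart M R a) = (yCoef M a n : R) := coeff_mk _ _

theorem yPart_neg (a : ZMod M) : yPart M R (-a) = yPart M R a := by
  ext n
  rw [coeff_yPart, coeff_yPart, yCoef_neg]

theorem constantCoeff_yPart (a : ZMod M) : constantCoeff (yPart M R a) = 0 := by
  rw [← coeff_zero_eq_constantCoeff_apply, coeff_yPart, yCoef_zero, Nat.cast_zero]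

variable {R} {S : Type*} [CommRing S]

theorem map_yPart (φ : R →+* S) (a : ZMod M) :
    PowerSeries.map φ (yPart M R a) = yPart M S a := by
  ext n
  rw [coeff_map, coeff_yPart, coeff_yPart, map_natCast]

end Defs

section Order

variable {M : ℕ}

/-- a positive integer `c < M` is congruent to `r` (`r < M`) only if it is `r`. -/
theorem eq_of_natCast_eq_natCast_of_lt {c r : ℕ} (hc : c < M) (hr : r < M)
    (h : (c : ZMod M) = (r : ZMod M)) : c = r := by
  have h1 := (ZMod.natCast_eq_natCast_iff' c r M).mp h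
  rwa [Nat.mod_eq_of_lt hc, Nat.mod_eq_of_lt hr] at h1

/-- for `0 < r`, `2 r ≤ M`: no positive `c < r` is `≡ ± r`. -/
theorem yCoefHalf_natCast_of_lt {r n : ℕ} (h2 : 2 * r ≤ M) (hn : n < r) :
    yCoefHalf M (r : ZMod M) n = 0 := by
  rw [yCoefHalf]
  refine Finset.sum_eq_zero_iff.mpr fun c hc => ?_
  exfalso
  rw [Finset.mem_filter, Nat.mem_divisors] at hc
  have hcn : c ≤ n := Nat.le_of_dvd (Nat.pos_of_ne_zero hc.1.2) hc.1.1
  have := eq_of_natCast_eq_natCast_of_lt (M := M) (c := c) (r := r) (by omega) (by omega) hc.2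
  omega

theorem yCoefHalf_neg_natCast_of_lt {r n : ℕ} (hr : 0 < r) (h2 : 2 * r ≤ M) (hn : n ≤ r)
    (hn2 : n < r ∨ 2 * r < M) :
    yCoefHalf M (-(r : ZMod M)) n = 0 := by
  rw [yCoefHalf]
  refine Finset.sum_eq_zero_iff.mpr fun c hc => ?_
  exfalso
  rw [Finset.mem_filter, Nat.mem_divisors] at hc
  have hcn : c ≤ n := Nat.le_of_dvd (Nat.pos_of_ne_zero hc.1.2) hc.1.1
  have hc0 : 0 < c := Nat.pos_of_dvd_of_pos hc.1.1 (Nat.pos_of_ne_zero hc.1.2)
  -- `c + r ≡ 0`, `0 < c + r < M`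
  have h0 : ((c + r : ℕ) : ZMod M) = 0 := by
    rw [Nat.cast_add, hc.2, neg_add_cancel]
  rw [ZMod.natCast_eq_zero_iff] at h0
  have := Nat.le_of_dvd (by omega) h0
  omega

theorem yCoef_natCast_of_lt {r n : ℕ} (hr : 0 < r) (h2 : 2 * r ≤ M) (hn : n < r) :
    yCoef M (r : ZMod M) n = 0 := by
  rw [yCoef, yCoefHalf_natCast_of_lt h2 hn,
    yCoefHalf_neg_natCast_of_lt hr h2 hn.le (Or.inl hn)]

theorem yCoef_natCast_self {r : ℕ} (hr : 0 < r) (h2 : 2 * r < M) :
    yCoef M (r : ZMod M) r = 1 := by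
  rw [yCoef, yCoefHalf_neg_natCast_of_lt hr h2.le le_rfl (Or.inr h2), add_zero, yCoefHalf]
  have hfil : (r.divisors.filter fun c : ℕ => (c : ZMod M) = (r : ZMod M)) = {r} := by
    ext c
    rw [Finset.mem_filter, Nat.mem_divisors, Finset.mem_singleton]
    constructor
    · rintro ⟨⟨hcr, hr0⟩, hc⟩
      have hcn : c ≤ r := Nat.le_of_dvd hr hcr
      exact eq_of_natCast_eq_natCast_of_lt (M := M) (by omega) (by omega) hc
    · rintro rfl
      exact ⟨⟨dvd_rfl, hr.ne'⟩, rfl⟩
  rw [hfil, Finset.sum_singleton, Nat.div_self hr, one_pow]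

variable [NeZero M]

/-- every nonzero class is `± r` with `0 < r`, `2 r ≤ M`. -/
theorem exists_rep_of_ne_zero {a : ZMod M} (ha : a ≠ 0) :
    ∃ r : ℕ, 0 < r ∧ 2 * r ≤ M ∧ (a = (r : ZMod M) ∨ a = -(r : ZMod M)) := by
  refine ⟨a.valMinAbs.natAbs, ?_, ?_, ?_⟩
  · rw [Int.natAbs_pos]
    intro h
    exact ha ((ZMod.valMinAbs_eq_zero a).mp h)
  · have := ZMod.natAbs_valMinAbs_le a
    omega
  · have h1 : ((a.valMinAbs : ℤ) : ZMod M) = a := ZMod.coe_valMinAbs a
    rcases Int.natAbs_eq a.valMinAbs with h | h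
    · left
      have h3 : ((a.valMinAbs : ℤ) : ZMod M) = (((a.valMinAbs.natAbs : ℕ) : ℤ) : ZMod M) :=
        congrArg (Int.cast) h
      exact h1.symm.trans (h3.trans (Int.cast_natCast _))
    · right
      have h3 : ((a.valMinAbs : ℤ) : ZMod M) = ((-((a.valMinAbs.natAbs : ℕ) : ℤ) : ℤ) : ZMod M) :=
        congrArg (Int.cast) h
      refine h1.symm.trans (h3.trans ?_)
      rw [Int.cast_neg, Int.cast_natCast]

variable (R : Type*) [CommRing R]

/-- a power series `q^m (u + …)`, `u` a unit, is a unit of the Laurent series ring. -/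
theorem isUnit_ofPowerSeries_of_leading {P : PowerSeries R} {m : ℕ}
    (h0 : ∀ n < m, coeff n P = 0) (h1 : IsUnit (coeff m P)) :
    IsUnit (HahnSeries.ofPowerSeries ℤ R P) := by
  obtain ⟨U, rfl⟩ := (PowerSeries.X_pow_dvd_iff).mpr h0
  have hU : IsUnit U := by
    rw [PowerSeries.isUnit_iff_constantCoeff, ← coeff_zero_eq_constantCoeff_apply]
    have := PowerSeries.coeff_X_pow_mul U m 0
    rw [zero_add] at this
    rwa [this] at h1
  rw [map_mul, map_pow, HahnSeries.ofPowerSeries_X]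
  refine IsUnit.mul (IsUnit.pow _ ?_) (hU.map _)
  exact IsUnit.of_mul_eq_one (HahnSeries.single (-1 : ℤ) (1 : R))
    (by rw [HahnSeries.single_mul_single]; simp)

/-- **for `a ≠ ± a'` (both nonzero) the difference `yPart a - yPart a'` is a unit of `R((q))`,
over every commutative ring `R`.** -/
theorem isUnit_ofPowerSeries_yPart_sub {a a' : ZMod M} (ha : a ≠ 0) (ha' : a' ≠ 0)
    (h1 : a ≠ a') (h2 : a ≠ -a') :
    IsUnit (HahnSeries.ofPowerSeries ℤ R (yPart M R a - yPart M R a')) := by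
  -- reduce to representatives
  have key : ∀ r r' : ℕ, 0 < r → 2 * r' ≤ M → r < r' →
      IsUnit (HahnSeries.ofPowerSeries ℤ R (yPart M R (r : ZMod M) - yPart M R (r' : ZMod M))) := by
    intro r r' hr h2r' hrr'
    refine isUnit_ofPowerSeries_of_leading R (m := r) ?_ ?_
    · intro n hn
      rw [map_sub, coeff_yPart, coeff_yPart, yCoef_natCast_of_lt hr (by omega) hn,
        yCoef_natCast_of_lt (by omega) h2r' (by omega), sub_self]
    · rw [map_sub, coeff_yPart, coeff_yPart, yCoef_natCast_self hr (by omega),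
        yCoef_natCast_of_lt (by omega) h2r' hrr', Nat.cast_one, Nat.cast_zero, sub_zero]
      exact isUnit_one
  obtain ⟨r, hr, h2r, har⟩ := exists_rep_of_ne_zero ha
  obtain ⟨r', hr', h2r', har'⟩ := exists_rep_of_ne_zero ha'
  have ea : yPart M R a = yPart M R (r : ZMod M) := by
    rcases har with h | h
    · rw [h]
    · rw [h, yPart_neg]
  have ea' : yPart M R a' = yPart M R (r' : ZMod M) := by
    rcases har' with h | h
    · rw [h]
    · rw [h, yPart_neg]
  have hne : r ≠ r' := by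
    rintro rfl
    rcases har with h | h <;> rcases har' with h' | h'
    · exact h1 (h.trans h'.symm)
    · exact h2 (by rw [h, h', neg_neg])
    · exact h2 (by rw [h, h'])
    · exact h1 (h.trans h'.symm)
  rw [ea, ea']
  rcases lt_or_gt_of_ne hne with hlt | hlt
  · exact key r r' hr h2r' hlt
  · have := key r' r hr' h2r hlt
    rw [← neg_sub, map_neg]
    exact this.neg

/-- `yPart a` (`a ≠ 0`, `2 a ≠ 0`) is `q^ā · unit`: a unit of `R((q))`. -/
theorem isUnit_ofPowerSeries_yPart {a : ZMod M} (ha : a ≠ 0) (h2a : (2 : ZMod M) * a ≠ 0) :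
    IsUnit (HahnSeries.ofPowerSeries ℤ R (yPart M R a)) := by
  obtain ⟨r, hr, h2r, har⟩ := exists_rep_of_ne_zero ha
  have ea : yPart M R a = yPart M R (r : ZMod M) := by
    rcases har with h | h
    · rw [h]
    · rw [h, yPart_neg]
  have h2r' : 2 * r < M := by
    rcases Nat.lt_or_ge (2 * r) M with h | h
    · exact h
    · exfalso
      have hM : 2 * r = M := le_antisymm h2r h
      apply h2a
      have : (2 : ZMod M) * (r : ZMod M) = 0 := by
        have h0 : ((2 * r : ℕ) : ZMod M) = 0 := by rw [hM, ZMod.natCast_self]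
        rwa [Nat.cast_mul, Nat.cast_ofNat] at h0
      rcases har with h | h
      · rw [h, this]
      · rw [h, mul_neg, this, neg_zero]
  rw [ea]
  refine isUnit_ofPowerSeries_of_leading R (m := r) ?_ ?_
  · intro n hn
    rw [coeff_yPart, yCoef_natCast_of_lt hr h2r hn, Nat.cast_zero]
  · rw [coeff_yPart, yCoef_natCast_self hr h2r', Nat.cast_one]
    exact isUnit_one

end Order

end Fermat.Agent.W1
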