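/-
W1 = [GRΓ1] (S48), package [SER] (helper7), part 4: the formal generators `φ_a` of the function field
of `X₁(M)` (helper9's weight-4 normalisation, msg 1297), over an arbitrary commutative ring `R`.

* `phiMult R = E₄² / Δ ∈ q⁻¹ (1 + q R⟦q⟧)` (weight `-4`, level one, a unit of `R((q))`);
* `phiGen R M a = (E₄² / Δ)(q) · yPart a`, `a : ZMod M`:
  analytically `(E₄²/Δ)(τ) · (3/(8π⁴)) ∑_{(c,d), c ≡ a (M)} (cτ + d)⁻⁴`, a modular function for
  `Γ₁(M)` with integral `q`-expansion at `∞`;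
* functoriality in `R` (`coeffMap_phiGen`), `phiGen_neg`;
* `isUnit_phiGen_sub`: for `a ≠ ± a'` (both nonzero) `φ_a - φ_{a'}` is a UNIT of `R((q))`, for
  every commutative ring `R` — the conjugates `⟨d⟩ φ_1 = φ_{d^{±1}}`, `d ∈ (ℤ/M)ˣ/±1`, have pairwise
  distinct reductions modulo every prime, and the discriminant of `∏_d (X - φ_d)` is a unit of
  `ℤ((q))`.
-/
import Fermat.Agent.W1.SER_helper7_YPart
import Fermat.Agent.S16.L1_helper1_Int
import Fermat.Agent.Igusa.A_helper2_Twist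

set_option autoImplicit false

noncomputable section

namespace Fermat.Agent.W1

open ModularCurve HahnSeries

section Mult

variable (R : Type*) [CommRing R] {S : Type*} [CommRing S]

/-- `E₄²` over `ℤ`. -/
def e4sqZ : PowerSeries ℤ := Fermat.Agent.S16.E4Z ^ 2

theorem constantCoeff_e4sqZ : PowerSeries.constantCoeff e4sqZ = 1 := by
  rw [e4sqZ, map_pow, Fermat.Agent.S16.constantCoeff_E4Z, one_pow]

/-- `E₄⁻²` over `ℤ`. -/
def e4sqZInv : PowerSeries ℤ := e4sqZ.invOfUnit 1

theorem e4sqZ_mul_inv : e4sqZ * e4sqZInv = 1 :=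
  PowerSeries.mul_invOfUnit _ _ (by rw [constantCoeff_e4sqZ]; rfl)

/-- `E₄²` over `R`. -/
def e4sqSer : LaurentSeries R := HahnSeries.ofPowerSeries ℤ R (e4sqZ.map (Int.castRingHom R))

/-- `E₄⁻²` over `R`. -/
def e4sqInvSer : LaurentSeries R :=
  HahnSeries.ofPowerSeries ℤ R (e4sqZInv.map (Int.castRingHom R))

theorem e4sqSer_mul_e4sqInvSer : e4sqSer R * e4sqInvSer R = 1 := by
  rw [e4sqSer, e4sqInvSer, ← map_mul, ← map_mul, e4sqZ_mul_inv, map_one, map_one]

variable {R} in
theorem coeffMap_e4sqSer (φ : R →+* S) : coeffMap φ (e4sqSer R) = e4sqSer S := by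
  rw [e4sqSer, coeffMap_ofPowerSeries,
    ← RingHom.comp_apply (PowerSeries.map φ) (PowerSeries.map (Int.castRingHom R)),
    ← PowerSeries.map_comp, RingHom.ext_int (φ.comp (Int.castRingHom R)) (Int.castRingHom S)]
  rfl

variable {R} in
theorem coeffMap_e4sqInvSer (φ : R →+* S) : coeffMap φ (e4sqInvSer R) = e4sqInvSer S := by
  rw [e4sqInvSer, coeffMap_ofPowerSeries,
    ← RingHom.comp_apply (PowerSeries.map φ) (PowerSeries.map (Int.castRingHom R)),
    ← PowerSeries.map_comp, RingHom.ext_int (φ.comp (Int.castRingHom R)) (Int.castRingHom S)]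
  rfl

/-- the formal `E₄² / Δ = q⁻¹ + …` over `R` (weight `-4`). -/
def phiMult : LaurentSeries R := e4sqSer R * Igusa.deltaInvSer R

/-- the formal `Δ / E₄²` over `R`. -/
def phiMultInv : LaurentSeries R := e4sqInvSer R * Igusa.deltaSer R

theorem phiMult_mul_phiMultInv : phiMult R * phiMultInv R = 1 := by
  rw [phiMult, phiMultInv, mul_mul_mul_comm, e4sqSer_mul_e4sqInvSer, one_mul,
    mul_comm, Igusa.deltaSer_mul_deltaInvSer]

theorem isUnit_phiMult : IsUnit (phiMult R) :=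
  IsUnit.of_mul_eq_one _ (phiMult_mul_phiMultInv R)

variable {R} in
theorem coeffMap_phiMult (φ : R →+* S) : coeffMap φ (phiMult R) = phiMult S := by
  rw [phiMult, map_mul, coeffMap_e4sqSer, Igusa.coeffMap_deltaInvSer, phiMult]

variable {R} in
theorem coeffMap_phiMultInv (φ : R →+* S) : coeffMap φ (phiMultInv R) = phiMultInv S := by
  rw [phiMultInv, map_mul, coeffMap_e4sqInvSer, Igusa.coeffMap_deltaSer, phiMultInv]

/-- `E₄² / Δ = q⁻¹ (1 + …)`. -/
theorem isOneUnit_single_mul_phiMult :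
    Igusa.IsOneUnit (HahnSeries.single (1 : ℤ) (1 : R) * phiMult R) := by
  have h1 : Igusa.IsOneUnit (e4sqSer R) := by
    apply Igusa.isOneUnit_ofPowerSeries
    rw [← PowerSeries.coeff_zero_eq_constantCoeff, PowerSeries.coeff_map,
      PowerSeries.coeff_zero_eq_constantCoeff, constantCoeff_e4sqZ]
    simp
  have h2 : HahnSeries.single (1 : ℤ) (1 : R) * phiMult R =
      e4sqSer R * Igusa.etaUnitInvSer R := by
    rw [phiMult, Igusa.deltaInvSer, mul_left_comm, ← mul_assoc (HahnSeries.single (1 : ℤ) (1 : R)),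
      HahnSeries.single_mul_single]
    simp
  rw [h2]
  exact h1.mul (Igusa.isOneUnit_etaUnitInvSer R)

/-- `E₄² / Δ = q⁻¹ · P`, `P` a power series with constant coefficient `1`. -/
theorem phiMult_eq_single_mul :
    phiMult R = HahnSeries.single (-1 : ℤ) (1 : R) *
      HahnSeries.ofPowerSeries ℤ R ((e4sqZ * dedekindEtaUnitInv).map (Int.castRingHom R)) := by
  rw [phiMult, Igusa.deltaInvSer, Igusa.etaUnitInvSer, e4sqSer, mul_left_comm, ← map_mul,
    ← map_mul]

end Mult

section Gen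

variable (R : Type*) [CommRing R] {S : Type*} [CommRing S] (M : ℕ)

/-- the formal series of `φ_a(τ) = (E₄²/Δ)(τ) · (3/(8π⁴)) ∑_{(c,d), c ≡ a (M)} (cτ + d)⁻⁴`:
coefficients in the prime ring, at most a simple pole at `q = 0`. -/
def phiGen (a : ZMod M) : LaurentSeries R :=
  phiMult R * HahnSeries.ofPowerSeries ℤ R (yPart M R a)

variable {R} in
theorem coeffMap_phiGen (φ : R →+* S) (a : ZMod M) :
    coeffMap φ (phiGen R M a) = phiGen S M a := by
  rw [phiGen, map_mul, coeffMap_phiMult, coeffMap_ofPowerSeries, map_yPart, phiGen]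

theorem phiGen_neg (a : ZMod M) : phiGen R M (-a) = phiGen R M a := by
  rw [phiGen, phiGen, yPart_neg]

/-- `φ_a` has no pole at `q = 0` (`yPart a` has no constant term). -/
theorem phiGen_eq_ofPowerSeries (a : ZMod M) :
    ∃ P : PowerSeries R, phiGen R M a = HahnSeries.ofPowerSeries ℤ R P := by
  obtain ⟨U, hU⟩ : PowerSeries.X ∣ yPart M R a := by
    rw [PowerSeries.X_dvd_iff, constantCoeff_yPart]
  refine ⟨(e4sqZ * dedekindEtaUnitInv).map (Int.castRingHom R) * U, ?_⟩
  rw [phiGen, phiMult_eq_single_mul, hU]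
  generalize (e4sqZ * dedekindEtaUnitInv).map (Int.castRingHom R) = P₀
  have h1 : HahnSeries.single (-1 : ℤ) (1 : R) * HahnSeries.ofPowerSeries ℤ R PowerSeries.X = 1 := by
    rw [HahnSeries.ofPowerSeries_X, HahnSeries.single_mul_single]
    simp
  calc HahnSeries.single (-1 : ℤ) (1 : R) * HahnSeries.ofPowerSeries ℤ R P₀ *
        HahnSeries.ofPowerSeries ℤ R (PowerSeries.X * U)
      = (HahnSeries.single (-1 : ℤ) (1 : R) * HahnSeries.ofPowerSeries ℤ R PowerSeries.X) *
          (HahnSeries.ofPowerSeries ℤ R P₀ * HahnSeries.ofPowerSeries ℤ R U) := by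
        rw [map_mul]; ring
    _ = HahnSeries.ofPowerSeries ℤ R (P₀ * U) := by rw [h1, one_mul, map_mul]

variable [NeZero M]

/-- **for `a ≠ ± a'` (both nonzero) `φ_a - φ_{a'}` is a unit of `R((q))`**, for every commutative
ring `R`. -/
theorem isUnit_phiGen_sub {a a' : ZMod M} (ha : a ≠ 0) (ha' : a' ≠ 0) (h1 : a ≠ a')
    (h2 : a ≠ -a') : IsUnit (phiGen R M a - phiGen R M a') := by
  rw [phiGen, phiGen, ← mul_sub, ← map_sub]
  exact (isUnit_phiMult R).mul (isUnit_ofPowerSeries_yPart_sub R ha ha' h1 h2)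

theorem phiGen_ne_phiGen [Nontrivial R] {a a' : ZMod M} (ha : a ≠ 0) (ha' : a' ≠ 0) (h1 : a ≠ a')
    (h2 : a ≠ -a') : phiGen R M a ≠ phiGen R M a' := by
  intro h
  have := isUnit_phiGen_sub R M ha ha' h1 h2
  rw [h, sub_self] at this
  exact not_isUnit_zero this

/-- `φ_a` is a unit of `R((q))` for `a ≠ 0`, `2 a ≠ 0`. -/
theorem isUnit_phiGen {a : ZMod M} (ha : a ≠ 0) (h2a : (2 : ZMod M) * a ≠ 0) :
    IsUnit (phiGen R M a) :=
  (isUnit_phiMult R).mul (isUnit_ofPowerSeries_yPart R ha h2a)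

end Gen

end Fermat.Agent.W1
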