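/-
W1 = [GRΓ1] (S48), package [DEFS] (helper9): the basic objects of the `Γ₁(M)`-theory.

* `GammaML M L = Γ₁(M) ∩ Γ₀(M L)` and `Gpm M L = ± GammaML M L` (the group used by every
  function-theoretic file: it contains `-1` and `T`, so the ports of the `Γ₀(N)`-files go through
  with `Gamma0 N ↦ Gpm M L`);
* `F₁ M L ⊂ ℚ((q))`: the rational function field of the modular curve of level `Gpm M L`,
  generated by the `j(q^d)`, `d ∣ M L`, and the weight-4 generators `φ_a(q^e)`, `e ∣ L`, `a ≠ 0`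
  (helper7's `phiGen`);  `F₁ M L ⊇ modularFunctionFieldFull (M L)`;
* the two degeneracy inclusions `F₁ M L ≤ F₁ M L'` (`L ∣ L'`) and
  `(F₁ M L).map (q ↦ q^ℓ) ≤ F₁ M (L ℓ)`;
* `J₁ M = Pic⁰` of `F₁ M 1` over `ℚ̄`, with the Prelude's Galois action.
-/
import Fermat.Agent.W1.SER_helper7_Phi
import Fermat.Prelude.Def_ModularCurve_ArithmeticGalois

set_option autoImplicit false

noncomputable section

namespace Fermat.Agent.W1

open ModularCurve CongruenceSubgroup IntermediateField AlgebraicCurve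

open scoped MatrixGroups

/-! ### the groups -/

/-- `Γ₁(M) ∩ Γ₀(M L)`. -/
def GammaML (M L : ℕ) : Subgroup SL(2, ℤ) := Gamma1 M ⊓ Gamma0 (M * L)

theorem mem_GammaML {M L : ℕ} {γ : SL(2, ℤ)} :
    γ ∈ GammaML M L ↔ γ ∈ Gamma1 M ∧ γ ∈ Gamma0 (M * L) := Subgroup.mem_inf

theorem neg_neg_SL (γ : SL(2, ℤ)) : - -γ = γ := neg_neg γ

/-- `± (Γ₁(M) ∩ Γ₀(M L))`. -/
def Gpm (M L : ℕ) : Subgroup SL(2, ℤ) where
  carrier := {γ | γ ∈ GammaML M L ∨ -γ ∈ GammaML M L}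
  one_mem' := Or.inl (one_mem _)
  mul_mem' := by
    rintro a b (ha | ha) (hb | hb)
    · exact Or.inl (mul_mem ha hb)
    · refine Or.inr ?_
      have : -(a * b) = a * -b := by rw [mul_neg]
      rw [this]
      exact mul_mem ha hb
    · refine Or.inr ?_
      have : -(a * b) = -a * b := by rw [neg_mul]
      rw [this]
      exact mul_mem ha hb
    · refine Or.inl ?_
      have : a * b = -a * -b := by rw [neg_mul_neg]
      rw [this]
      exact mul_mem ha hb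
  inv_mem' := by
    rintro a (ha | ha)
    · exact Or.inl (inv_mem ha)
    · refine Or.inr ?_
      have : -a⁻¹ = (-a)⁻¹ := by
        rw [eq_inv_iff_mul_eq_one, neg_mul_neg, inv_mul_cancel]
      rw [this]
      exact inv_mem ha

theorem mem_Gpm {M L : ℕ} {γ : SL(2, ℤ)} :
    γ ∈ Gpm M L ↔ γ ∈ GammaML M L ∨ -γ ∈ GammaML M L := Iff.rfl

theorem GammaML_le_Gpm (M L : ℕ) : GammaML M L ≤ Gpm M L := fun _ h => Or.inl h

theorem neg_one_mem_Gpm (M L : ℕ) : (-1 : SL(2, ℤ)) ∈ Gpm M L :=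
  Or.inr (by rw [neg_neg]; exact one_mem _)

theorem neg_mem_Gpm {M L : ℕ} {γ : SL(2, ℤ)} (h : γ ∈ Gpm M L) : -γ ∈ Gpm M L := by
  have : -γ = -1 * γ := by rw [neg_mul, one_mul]
  rw [this]
  exact mul_mem (neg_one_mem_Gpm M L) h

theorem gamma0_neg_mem {N : ℕ} {γ : SL(2, ℤ)} (h : γ ∈ Gamma0 N) : -γ ∈ Gamma0 N := by
  rw [Gamma0_mem] at h ⊢
  simp [h]

theorem Gpm_le_Gamma0 (M L : ℕ) : Gpm M L ≤ Gamma0 (M * L) := by
  rintro γ (h | h)
  · exact (mem_GammaML.mp h).2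
  · have := gamma0_neg_mem (mem_GammaML.mp h).2
    rwa [neg_neg] at this

theorem Gamma_le_GammaML (M L : ℕ) : Gamma (M * L) ≤ GammaML M L := by
  intro γ hγ
  rw [Gamma_mem] at hγ
  obtain ⟨h00, h01, h10, h11⟩ := hγ
  have hc : ∀ x : ℤ, ((x : ZMod (M * L)) = 1) → ((x : ZMod M) = 1) := by
    intro x hx
    have := congrArg (ZMod.castHom (Dvd.intro L rfl) (ZMod M)) hx
    simpa using this
  have hc0 : ∀ x : ℤ, ((x : ZMod (M * L)) = 0) → ((x : ZMod M) = 0) := by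
    intro x hx
    have := congrArg (ZMod.castHom (Dvd.intro L rfl) (ZMod M)) hx
    simpa using this
  refine mem_GammaML.mpr ⟨?_, ?_⟩
  · rw [Gamma1_mem]
    exact ⟨hc _ h00, hc _ h11, hc0 _ h10⟩
  · rw [Gamma0_mem]
    exact h10

theorem T_mem_GammaML (M L : ℕ) : ModularGroup.T ∈ GammaML M L := by
  refine mem_GammaML.mpr ⟨?_, ?_⟩
  · rw [Gamma1_mem]
    simp [ModularGroup.T]
  · rw [Gamma0_mem]
    simp [ModularGroup.T]

theorem T_mem_Gpm (M L : ℕ) : ModularGroup.T ∈ Gpm M L := GammaML_le_Gpm M L (T_mem_GammaML M L)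

instance finiteIndex_GammaML (M L : ℕ) [NeZero (M * L)] : (GammaML M L).FiniteIndex :=
  Subgroup.finiteIndex_of_le (Gamma_le_GammaML M L)

instance finiteIndex_Gpm (M L : ℕ) [NeZero (M * L)] : (Gpm M L).FiniteIndex :=
  Subgroup.finiteIndex_of_le (GammaML_le_Gpm M L)

theorem GammaML_mono {M L L' : ℕ} (h : L ∣ L') : GammaML M L' ≤ GammaML M L := by
  intro γ hγ
  obtain ⟨h1, h0⟩ := mem_GammaML.mp hγ
  refine mem_GammaML.mpr ⟨h1, ?_⟩
  rw [Gamma0_mem] at h0 ⊢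
  have := congrArg (ZMod.castHom (Nat.mul_dvd_mul_left M h) (ZMod (M * L))) h0
  simpa using this

theorem Gpm_mono {M L L' : ℕ} (h : L ∣ L') : Gpm M L' ≤ Gpm M L := by
  rintro γ (h1 | h1)
  · exact Or.inl (GammaML_mono h h1)
  · exact Or.inr (GammaML_mono h h1)

/-! ### the rational function field -/

/-- the `q`-expansions `φ_a(q^e)`, `e ∣ L`, `a ≠ 0`. -/
def phiExpansions (M L : ℕ) : Set (LaurentSeries ℚ) :=
  {x | ∃ (e : ℕ) (_ : NeZero e) (a : ZMod M), e ∣ L ∧ a ≠ 0 ∧ x = qExpand ℚ e (phiGen ℚ M a)}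

theorem mem_phiExpansions {M L e : ℕ} [NeZero e] (he : e ∣ L) {a : ZMod M} (ha : a ≠ 0) :
    qExpand ℚ e (phiGen ℚ M a) ∈ phiExpansions M L :=
  ⟨e, ‹_›, a, he, ha, rfl⟩

/-- **the function field of the modular curve of level `Γ₁(M) ∩ Γ₀(M L)` over `ℚ`**, inside
`ℚ((q))`. -/
def F₁ (M L : ℕ) : IntermediateField ℚ (LaurentSeries ℚ) :=
  IntermediateField.adjoin ℚ (divisorExpansions (M * L) ∪ phiExpansions M L)

theorem jqd_mem_F₁ {M L d : ℕ} [NeZero d] (hd : d ∣ M * L) : qExpand ℚ d jq ∈ F₁ M L :=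
  subset_adjoin ℚ _ (Or.inl (mem_divisorExpansions (M * L) hd))

theorem jq_mem_F₁ (M L : ℕ) : jq ∈ F₁ M L := by
  have h := jqd_mem_F₁ (M := M) (L := L) (one_dvd (M * L))
  rwa [qExpand_one_apply] at h

theorem phi_mem_F₁ {M L e : ℕ} [NeZero e] (he : e ∣ L) {a : ZMod M} (ha : a ≠ 0) :
    qExpand ℚ e (phiGen ℚ M a) ∈ F₁ M L :=
  subset_adjoin ℚ _ (Or.inr (mem_phiExpansions he ha))

theorem phiGen_mem_F₁ (M L : ℕ) {a : ZMod M} (ha : a ≠ 0) : phiGen ℚ M a ∈ F₁ M L := by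
  have h := phi_mem_F₁ (M := M) (L := L) (one_dvd L) ha
  rwa [qExpand_one_apply] at h

theorem full_le_F₁ (M L : ℕ) : modularFunctionFieldFull (M * L) ≤ F₁ M L := by
  rw [modularFunctionFieldFull, adjoin_le_iff]
  exact fun x hx => subset_adjoin ℚ _ (Or.inl hx)

/-- the degeneracy inclusion `α`. -/
theorem F₁_degeneracy_le {M L L' : ℕ} (h : L ∣ L') : F₁ M L ≤ F₁ M L' := by
  rw [F₁, adjoin_le_iff]
  rintro x (⟨d, hne, hdvd, rfl⟩ | ⟨e, hne, a, he, ha, rfl⟩)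
  · have := hne
    exact jqd_mem_F₁ (hdvd.trans (Nat.mul_dvd_mul_left M h))
  · have := hne
    exact phi_mem_F₁ (he.trans h) ha

/-- the degeneracy inclusion `β` (`q ↦ q^ℓ`). -/
theorem F₁_degeneracy_map_le (M L ℓ : ℕ) [NeZero ℓ] :
    (F₁ M L).map (qExpandₐ ℓ) ≤ F₁ M (L * ℓ) := by
  rw [F₁, adjoin_map, adjoin_le_iff]
  rintro x ⟨y, (⟨d, hne, hdvd, rfl⟩ | ⟨e, hne, a, he, ha, rfl⟩), rfl⟩
  · have := hne
    haveI : NeZero (ℓ * d) := ⟨Nat.mul_ne_zero (NeZero.ne ℓ) (NeZero.ne d)⟩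
    show qExpandₐ ℓ (qExpand ℚ d jq) ∈ _
    rw [qExpandₐ_apply, qExpand_qExpand]
    refine jqd_mem_F₁ ?_
    have : M * (L * ℓ) = ℓ * (M * L) := by ring
    rw [this]
    exact mul_dvd_mul_left ℓ hdvd
  · have := hne
    haveI : NeZero (ℓ * e) := ⟨Nat.mul_ne_zero (NeZero.ne ℓ) (NeZero.ne e)⟩
    show qExpandₐ ℓ (qExpand ℚ e (phiGen ℚ M a)) ∈ _
    rw [qExpandₐ_apply, qExpand_qExpand]
    refine phi_mem_F₁ ?_ ha
    rw [mul_comm L ℓ]
    exact mul_dvd_mul_left ℓ he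

/-! ### the Jacobian -/

/-- the function field of level `Gpm M L` over `ℚ̄`. -/
abbrev F₁Bar (M L : ℕ) : IntermediateField (AlgebraicClosure ℚ)
    (LaurentSeries (AlgebraicClosure ℚ)) :=
  laurentBaseChange (AlgebraicClosure ℚ) (F₁ M L)

/-- **`J₁(M)(ℚ̄)`**: the degree zero divisor classes of the function field of `X₁(M)` over `ℚ̄`;
the Galois group `Gal(ℚ̄/ℚ)` acts through the Prelude's `arithmeticGalois`. -/
abbrev J₁ (M : ℕ) : Type _ := Pic0 (AlgebraicClosure ℚ) ↥(F₁Bar M 1)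

end Fermat.Agent.W1
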