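/-
W1 = [GRΓ1] (S48), package [DEG1] (helper9), part 4b: **the diamond automorphisms of the function
field of level `Gpm M L`.** For `σ ∈ Γ₀(M L)` precomposition with `σ` preserves the image of the
realisation; this defines `diaML ι hσ : ↥(k·F₁ M L) ≃ₐ[k] ↥(k·F₁ M L)` with
`realML (diaML σ x) = (realML x) ∘ σ`; it fixes `j(q^d)` and sends `φ_a(q^e)` to `φ_{a σ₀₀}(q^e)`;
it depends only on `σ₀₀ mod M`, which gives `diaU ι d` for `d : (ZMod M)ˣ`.
-/
import Fermat.Agent.W1.DEG1_helper9_Conj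

set_option autoImplicit false

open UpperHalfPlane hiding I
open Complex Filter Topology ModularCurve IntermediateField CongruenceSubgroup
open scoped MatrixGroups Manifold

namespace Fermat.Agent.W1

open Fermat.Agent.RatStr Fermat.Agent.X0N

noncomputable section

/-! ### arithmetic of the upper left entry -/

theorem entry_mul_entry_eq_one {M : ℕ} {σ : SL(2, ℤ)} (hσ : σ ∈ Gamma0 M) :
    ((σ 0 0 : ℤ) : ZMod M) * ((σ 1 1 : ℤ) : ZMod M) = 1 := by
  rw [Gamma0_mem] at hσ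
  have hdet : σ 0 0 * σ 1 1 - σ 0 1 * σ 1 0 = 1 := by
    have := σ.det_coe
    rwa [Matrix.det_fin_two] at this
  have := congrArg (fun n : ℤ => (n : ZMod M)) hdet
  simp only [Int.cast_sub, Int.cast_mul, Int.cast_one, hσ, mul_zero, sub_zero] at this
  exact this

theorem mul_entry_ne_zero {M : ℕ} {a : ZMod M} (ha : a ≠ 0) {σ : SL(2, ℤ)} (hσ : σ ∈ Gamma0 M) :
    a * ((σ 0 0 : ℤ) : ZMod M) ≠ 0 := by
  intro h0
  apply ha
  have h1 := entry_mul_entry_eq_one hσ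
  calc a = a * (((σ 0 0 : ℤ) : ZMod M) * ((σ 1 1 : ℤ) : ZMod M)) := by rw [h1, mul_one]
    _ = (a * ((σ 0 0 : ℤ) : ZMod M)) * ((σ 1 1 : ℤ) : ZMod M) := by ring
    _ = 0 := by rw [h0, zero_mul]

theorem mem_Gamma0_of_mem_Gamma0_mul {M L : ℕ} {σ : SL(2, ℤ)} (hσ : σ ∈ Gamma0 (M * L)) :
    σ ∈ Gamma0 M := Gamma0_le_of_dvd (Dvd.intro L rfl) hσ

/-- the upper left entry is multiplicative modulo the level on `Γ₀`. -/
theorem entry_mul {M : ℕ} {σ τ : SL(2, ℤ)} (hτ : τ ∈ Gamma0 M) :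
    (((σ * τ) 0 0 : ℤ) : ZMod M) = ((σ 0 0 : ℤ) : ZMod M) * ((τ 0 0 : ℤ) : ZMod M) := by
  rw [Gamma0_mem] at hτ
  rw [Matrix.SpecialLinearGroup.coe_mul, Matrix.mul_apply, Fin.sum_univ_two]
  push_cast
  rw [hτ, mul_zero, add_zero]

/-- every unit modulo `M` is the upper left entry of an element of `Γ₀(M L)`. -/
theorem exists_Gamma0_upperLeft (M L : ℕ) [NeZero M] [NeZero L] (d : (ZMod M)ˣ) :
    ∃ σ : SL(2, ℤ), σ ∈ Gamma0 (M * L) ∧ ((σ 0 0 : ℤ) : ZMod M) = (d : ZMod M) := by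
  have hdvd : M ∣ M * L := Dvd.intro L rfl
  obtain ⟨d', hd'⟩ := ZMod.unitsMap_surjective hdvd d
  set D : ℕ := (d' : ZMod (M * L)).val with hD
  have hcop : Nat.Coprime D (M * L) := ZMod.val_coe_unit_coprime d'
  have hbez := Int.gcd_eq_gcd_ab (D : ℤ) ((M * L : ℕ) : ℤ)
  have hg : Int.gcd (D : ℤ) ((M * L : ℕ) : ℤ) = 1 := by
    rw [Int.gcd_natCast_natCast]; exact hcop
  rw [hg] at hbez
  set a := Int.gcdA (D : ℤ) ((M * L : ℕ) : ℤ)
  set b := Int.gcdB (D : ℤ) ((M * L : ℕ) : ℤ)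
  refine ⟨⟨!![(D : ℤ), -b; ((M * L : ℕ) : ℤ), a], ?_⟩, ?_, ?_⟩
  · rw [Matrix.det_fin_two_of]
    push_cast at hbez ⊢
    linarith
  · refine Gamma0_mem.mpr ?_
    show (((!![(D : ℤ), -b; ((M * L : ℕ) : ℤ), a] : Matrix (Fin 2) (Fin 2) ℤ) 1 0 : ℤ) :
      ZMod (M * L)) = 0
    have h10 : (!![(D : ℤ), -b; ((M * L : ℕ) : ℤ), a] : Matrix (Fin 2) (Fin 2) ℤ) 1 0 =
        ((M * L : ℕ) : ℤ) := rfl
    rw [h10, Int.cast_natCast, ZMod.natCast_self]
  · show (((!![(D : ℤ), -b; ((M * L : ℕ) : ℤ), a] : Matrix (Fin 2) (Fin 2) ℤ) 0 0 : ℤ) :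
      ZMod M) = _
    have h1 : ((D : ℕ) : ZMod (M * L)) = (d' : ZMod (M * L)) := by
      rw [hD, ZMod.natCast_val, ZMod.cast_id', id]
    have h2 : (d : ZMod M) = ZMod.castHom hdvd (ZMod M) (d' : ZMod (M * L)) := by
      rw [← hd']; rfl
    rw [h2, ← h1, map_natCast]
    simp

/-! ### the automorphisms -/

variable {k : Type*} [Field k] [Algebra ℚ k] (ι : k →+* ℂ) {M L : ℕ}

/-- precomposition with `σ ∈ Γ₀(M L)` preserves the image of the realisation. -/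
theorem exists_realML_eq_comp {σ : SL(2, ℤ)} (hσ : σ ∈ Gamma0 (M * L))
    (x : ↥(laurentBaseChange k (F₁ M L))) :
    ∃ y : ↥(laurentBaseChange k (F₁ M L)),
      realML ι M L y = MerH.comp σ (realML ι M L x) := by
  induction x using F₁_induction with
  | hconst c =>
    refine ⟨algebraMap k _ c, ?_⟩
    rw [realML_algebraMap, MerH.comp_const]
  | hj d hd =>
    refine ⟨jdBarML hd, ?_⟩
    rw [realML_jdBarML, MerH.comp_algebraMap, comp_jdHol_of_mem_Gamma0 (Gamma0_le_of_dvd hd hσ)]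
  | hphi e he a ha =>
    refine ⟨phiBarML he (mul_entry_ne_zero ha (mem_Gamma0_of_mem_Gamma0_mul hσ)), ?_⟩
    rw [realML_phiBarML, realML_phiBarML, MerH.comp_algebraMap,
      comp_phiHolE_of_mem_Gamma0 he a hσ]
  | hadd x y h1 h2 =>
    obtain ⟨x', hx'⟩ := h1
    obtain ⟨y', hy'⟩ := h2
    exact ⟨x' + y', by rw [map_add, map_add, map_add, hx', hy']⟩
  | hmul x y h1 h2 =>
    obtain ⟨x', hx'⟩ := h1
    obtain ⟨y', hy'⟩ := h2
    exact ⟨x' * y', by rw [map_mul, map_mul, map_mul, hx', hy']⟩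
  | hinv x h1 =>
    obtain ⟨x', hx'⟩ := h1
    exact ⟨x'⁻¹, by rw [map_inv₀, map_inv₀, map_inv₀, hx']⟩

/-- the underlying function of the diamond automorphism. -/
def diaFun {σ : SL(2, ℤ)} (hσ : σ ∈ Gamma0 (M * L)) (x : ↥(laurentBaseChange k (F₁ M L))) :
    ↥(laurentBaseChange k (F₁ M L)) :=
  Classical.choose (exists_realML_eq_comp ι hσ x)

theorem realML_diaFun {σ : SL(2, ℤ)} (hσ : σ ∈ Gamma0 (M * L))
    (x : ↥(laurentBaseChange k (F₁ M L))) :
    realML ι M L (diaFun ι hσ x) = MerH.comp σ (realML ι M L x) :=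
  Classical.choose_spec (exists_realML_eq_comp ι hσ x)

theorem diaFun_eq_iff {σ : SL(2, ℤ)} (hσ : σ ∈ Gamma0 (M * L))
    (x y : ↥(laurentBaseChange k (F₁ M L))) :
    diaFun ι hσ x = y ↔ MerH.comp σ (realML ι M L x) = realML ι M L y := by
  constructor
  · rintro rfl
    exact (realML_diaFun ι hσ x).symm
  · intro h
    apply realML_injective ι M L
    rw [realML_diaFun, h]

/-- **the diamond automorphism** attached to `σ ∈ Γ₀(M L)`, as a ring homomorphism. -/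
def diaHom {σ : SL(2, ℤ)} (hσ : σ ∈ Gamma0 (M * L)) :
    ↥(laurentBaseChange k (F₁ M L)) →+* ↥(laurentBaseChange k (F₁ M L)) where
  toFun := diaFun ι hσ
  map_one' := by rw [diaFun_eq_iff, map_one, map_one]
  map_mul' x y := by
    rw [diaFun_eq_iff, map_mul, map_mul, map_mul, realML_diaFun, realML_diaFun]
  map_zero' := by rw [diaFun_eq_iff, map_zero, map_zero]
  map_add' x y := by
    rw [diaFun_eq_iff, map_add, map_add, map_add, realML_diaFun, realML_diaFun]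

theorem realML_diaHom {σ : SL(2, ℤ)} (hσ : σ ∈ Gamma0 (M * L))
    (x : ↥(laurentBaseChange k (F₁ M L))) :
    realML ι M L (diaHom ι hσ x) = MerH.comp σ (realML ι M L x) :=
  realML_diaFun ι hσ x

theorem diaHom_eq_iff {σ : SL(2, ℤ)} (hσ : σ ∈ Gamma0 (M * L))
    (x y : ↥(laurentBaseChange k (F₁ M L))) :
    diaHom ι hσ x = y ↔ MerH.comp σ (realML ι M L x) = realML ι M L y :=
  diaFun_eq_iff ι hσ x y

theorem diaHom_algebraMap {σ : SL(2, ℤ)} (hσ : σ ∈ Gamma0 (M * L)) (c : k) :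
    diaHom ι hσ (algebraMap k _ c) = algebraMap k _ c := by
  rw [diaHom_eq_iff, realML_algebraMap, MerH.comp_const]

theorem diaHom_jdBarML {σ : SL(2, ℤ)} (hσ : σ ∈ Gamma0 (M * L)) {d : ℕ} [NeZero d]
    (hd : d ∣ M * L) : diaHom ι hσ (jdBarML hd) = jdBarML hd := by
  rw [diaHom_eq_iff, realML_jdBarML, MerH.comp_algebraMap,
    comp_jdHol_of_mem_Gamma0 (Gamma0_le_of_dvd hd hσ)]

theorem diaHom_phiBarML {σ : SL(2, ℤ)} (hσ : σ ∈ Gamma0 (M * L)) {e : ℕ} [NeZero e]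
    (he : e ∣ L) {a : ZMod M} (ha : a ≠ 0) :
    diaHom ι hσ (phiBarML he ha) =
      phiBarML he (mul_entry_ne_zero ha (mem_Gamma0_of_mem_Gamma0_mul hσ)) := by
  rw [diaHom_eq_iff, realML_phiBarML, realML_phiBarML, MerH.comp_algebraMap,
    comp_phiHolE_of_mem_Gamma0 he a hσ]

/-- the diamond automorphisms fix the subfield of level `Γ₀(M L)`. -/
theorem diaHom_fullIncl {σ : SL(2, ℤ)} (hσ : σ ∈ Gamma0 (M * L))
    (x : ↥(laurentBaseChange k (modularFunctionFieldFull (M * L)))) :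
    diaHom ι hσ (fullIncl M L x) = fullIncl M L x := by
  rw [diaHom_eq_iff, realML_fullIncl]
  exact (isModFun_realN ι (M * L) x).comp_of_mem hσ

theorem diaHom_of_mem_Gpm {σ : SL(2, ℤ)} (hσ : σ ∈ Gpm M L)
    (x : ↥(laurentBaseChange k (F₁ M L))) :
    diaHom ι (Gpm_le_Gamma0 M L hσ) x = x := by
  rw [diaHom_eq_iff, comp_realML_of_mem_Gpm ι hσ]

theorem diaHom_one (x : ↥(laurentBaseChange k (F₁ M L))) :
    diaHom ι (one_mem (Gamma0 (M * L))) x = x := by
  rw [diaHom_eq_iff, MerH.comp_one]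

theorem diaHom_mul {σ τ : SL(2, ℤ)} (hσ : σ ∈ Gamma0 (M * L)) (hτ : τ ∈ Gamma0 (M * L))
    (x : ↥(laurentBaseChange k (F₁ M L))) :
    diaHom ι ((Gamma0 (M * L)).mul_mem hσ hτ) x = diaHom ι hτ (diaHom ι hσ x) := by
  rw [diaHom_eq_iff, MerH.comp_mul, realML_diaHom, realML_diaHom]

/-- two ring endomorphisms of the function field which agree on the constants and on the
generators are equal. -/
theorem ringHom_ext_F₁ {R : Type*} [DivisionRing R]
    {f g : ↥(laurentBaseChange k (F₁ M L)) →+* R}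
    (hconst : ∀ c : k, f (algebraMap k _ c) = g (algebraMap k _ c))
    (hj : ∀ (d : ℕ) [NeZero d] (hd : d ∣ M * L), f (jdBarML hd) = g (jdBarML hd))
    (hphi : ∀ (e : ℕ) [NeZero e] (he : e ∣ L) (a : ZMod M) (ha : a ≠ 0),
      f (phiBarML he ha) = g (phiBarML he ha))
    (x : ↥(laurentBaseChange k (F₁ M L))) : f x = g x := by
  induction x using F₁_induction with
  | hconst c => exact hconst c
  | hj d hd => exact hj d hd
  | hphi e he a ha => exact hphi e he a ha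
  | hadd x y h1 h2 => rw [map_add, map_add, h1, h2]
  | hmul x y h1 h2 => rw [map_mul, map_mul, h1, h2]
  | hinv x h1 => rw [map_inv₀, map_inv₀, h1]

/-- the diamond automorphism only depends on the upper left entry modulo `M`. -/
theorem diaHom_congr {σ τ : SL(2, ℤ)} (hσ : σ ∈ Gamma0 (M * L)) (hτ : τ ∈ Gamma0 (M * L))
    (h : ((σ 0 0 : ℤ) : ZMod M) = ((τ 0 0 : ℤ) : ZMod M))
    (x : ↥(laurentBaseChange k (F₁ M L))) : diaHom ι hσ x = diaHom ι hτ x := by
  refine ringHom_ext_F₁ ?_ ?_ ?_ x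
  · intro c
    rw [diaHom_algebraMap, diaHom_algebraMap]
  · intro d _ hd
    rw [diaHom_jdBarML, diaHom_jdBarML]
  · intro e _ he a ha
    rw [diaHom_phiBarML, diaHom_phiBarML]
    congr 1
    rw [h]

/-- **the diamond automorphism** attached to `σ ∈ Γ₀(M L)` as a `k`-algebra automorphism. -/
def diaML {σ : SL(2, ℤ)} (hσ : σ ∈ Gamma0 (M * L)) :
    ↥(laurentBaseChange k (F₁ M L)) ≃ₐ[k] ↥(laurentBaseChange k (F₁ M L)) :=
  AlgEquiv.ofAlgHom
    { diaHom ι hσ with commutes' := diaHom_algebraMap ι hσ }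
    { diaHom ι ((Gamma0 (M * L)).inv_mem hσ) with
      commutes' := diaHom_algebraMap ι ((Gamma0 (M * L)).inv_mem hσ) }
    (by
      refine AlgHom.ext fun x => ?_
      show diaHom ι hσ (diaHom ι ((Gamma0 (M * L)).inv_mem hσ) x) = x
      rw [← diaHom_mul]
      have := diaHom_congr ι ((Gamma0 (M * L)).mul_mem ((Gamma0 (M * L)).inv_mem hσ) hσ)
        (one_mem _) (by rw [inv_mul_cancel]) x
      rw [this, diaHom_one])
    (by
      refine AlgHom.ext fun x => ?_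
      show diaHom ι ((Gamma0 (M * L)).inv_mem hσ) (diaHom ι hσ x) = x
      rw [← diaHom_mul]
      have := diaHom_congr ι ((Gamma0 (M * L)).mul_mem hσ ((Gamma0 (M * L)).inv_mem hσ))
        (one_mem _) (by rw [mul_inv_cancel]) x
      rw [this, diaHom_one])

@[simp] theorem diaML_apply {σ : SL(2, ℤ)} (hσ : σ ∈ Gamma0 (M * L))
    (x : ↥(laurentBaseChange k (F₁ M L))) : diaML ι hσ x = diaHom ι hσ x := rfl

theorem realML_diaML {σ : SL(2, ℤ)} (hσ : σ ∈ Gamma0 (M * L))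
    (x : ↥(laurentBaseChange k (F₁ M L))) :
    realML ι M L (diaML ι hσ x) = MerH.comp σ (realML ι M L x) :=
  realML_diaHom ι hσ x

end

end Fermat.Agent.W1
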