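/-
W1 = [GRΓ1] (S48), package [DEG1] (helper9), part 4a: **a modular function for `Γ` which is
invariant under a bigger group `Γ'` is a modular function for `Γ'`** (norm trick: `g/h =
(g·∏_{q≠1} h_q)/N(h)` with the `SL₂(ℤ)`-norm `N(h)`; generalises the first half of
`X0N/SYM_helper2_Invariant.ratio_invariant`).
-/
import Fermat.Agent.X0N.SYM_helper2_CharPoly

set_option autoImplicit false

namespace Fermat.Agent.W1

open UpperHalfPlane ModularForm Filter Function Polynomial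
open scoped MatrixGroups ModularForm Manifold Topology
open Fermat.Agent.RatStr Fermat.Agent.X0N

noncomputable section

open scoped Classical

variable {H : Subgroup SL(2, ℤ)} [H.FiniteIndex] {k : ℤ} {g h : ℍ → ℂ}

theorem idx_eq_card_erase_add_one :
    (idx H : ℤ) = ((Finset.univ : Finset (SL(2, ℤ) ⧸ H)).erase
      ((1 : SL(2, ℤ)) : SL(2, ℤ) ⧸ H)).card + 1 := by
  rw [Finset.card_erase_of_mem (Finset.mem_univ _), Finset.card_univ]
  have : 0 < Fintype.card (SL(2, ℤ) ⧸ H) := Fintype.card_pos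
  unfold idx
  omega

/-- every `SL₂(ℤ)`-translate of the cofactor `∏_{q ≠ 1} h_q` is bounded at `i∞`. -/
theorem conormFn_slash_bdd (hh : IsMF H k h) (γ : SL(2, ℤ)) :
    IsBoundedAtImInfty ((conormFn H k h) ∣[k * (((Finset.univ : Finset (SL(2, ℤ) ⧸ H)).erase
      ((1 : SL(2, ℤ)) : SL(2, ℤ) ⧸ H)).card : ℤ)] γ) := by
  unfold conormFn
  rw [prod_slash_SL2]
  refine BoundedAtFilter.prod _ fun q _ => ?_
  rw [cj_slash hh.inv]
  exact cj_bdd hh _

/-- the numerator `g·∏_{q ≠ 1} h_q` is a modular form for `Γ'` as soon as `g/h` is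
`Γ'`-invariant. -/
theorem isMF_mul_conormFn {Γ' : Subgroup SL(2, ℤ)} (hg : IsMF H k g) (hh : IsMF H k h)
    (h0 : h ≠ 0)
    (hinv : ∀ γ ∈ Γ', (g ∣[k] γ) * h = g * (h ∣[k] γ)) :
    IsMF Γ' (k * idx H) (g * conormFn H k h) := by
  set Nh := normFn H k h with hNh
  set G' := g * conormFn H k h with hG'
  have hGh : G' * h = g * Nh := by
    rw [hG', hNh, ← mul_conormFn hh.inv]; ring
  have hG'holo : MDiff G' := hg.holo.mul (conormFn_holo hh.holo)
  have hG'inv : ∀ γ ∈ Γ', G' ∣[k * idx H] γ = G' := by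
    intro γ hγ
    have e1 : (G' * h) ∣[k * idx H + k] γ = (G' ∣[k * idx H] γ) * (h ∣[k] γ) :=
      mul_slash_SL2 _ _ _ _ _
    have e2 : (g * Nh) ∣[k + k * idx H] γ = (g ∣[k] γ) * Nh := by
      rw [mul_slash_SL2, normFn_slash hh.inv]
    have e3 : (G' ∣[k * idx H] γ) * (h ∣[k] γ) = (g ∣[k] γ) * Nh := by
      rw [← e1, ← e2, hGh, add_comm]
    have e4 : (G' ∣[k * idx H] γ - G') * ((h ∣[k] γ) * h) = 0 := by
      have : (G' ∣[k * idx H] γ) * (h ∣[k] γ) * h = G' * h * (h ∣[k] γ) := by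
        rw [e3, hGh, mul_assoc, mul_comm Nh h, ← mul_assoc, hinv γ hγ]; ring
      rw [sub_mul, ← mul_assoc, this]; ring
    have hhγ : MDiff (h ∣[k] γ) := hh.holo.slash k γ
    rcases (UpperHalfPlane.mul_eq_zero_iff ((hG'holo.slash _ γ).sub hG'holo)
      (hhγ.mul hh.holo)).mp e4 with h1 | h1
    · exact sub_eq_zero.mp h1
    · rcases (UpperHalfPlane.mul_eq_zero_iff hhγ hh.holo).mp h1 with h2 | h2
      · exact absurd h2 (slash_ne_zero h0 γ)
      · exact absurd h2 h0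
  refine ⟨hG'holo, hG'inv, fun γ => ?_⟩
  have hK : k * (idx H : ℤ) = k + k * (((Finset.univ : Finset (SL(2, ℤ) ⧸ H)).erase
      ((1 : SL(2, ℤ)) : SL(2, ℤ) ⧸ H)).card : ℤ) := by
    rw [idx_eq_card_erase_add_one]; ring
  rw [hK, hG', mul_slash_SL2]
  exact (boundedAtImInftySubalgebra ℂ).mul_mem (hg.bdd γ) (conormFn_slash_bdd hh γ)

/-- **A modular function for `Γ` which is invariant under `Γ'` is a modular function for
`Γ'`.** -/
theorem isModFun_of_invariant {Γ Γ' : Subgroup SL(2, ℤ)} [Γ.FiniteIndex] {x : MerH}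
    (hx : IsModFun Γ x) (hinv : ∀ γ ∈ Γ', MerH.comp γ x = x) : IsModFun Γ' x := by
  obtain ⟨k, g, h, hg, hh, h0, rfl⟩ := hx
  have h0' : (h : ℍ → ℂ) ≠ 0 := fun h2 => h0 (Subtype.ext h2)
  have hinv' : ∀ γ ∈ Γ', ((g : ℍ → ℂ) ∣[k] γ) * (h : ℍ → ℂ) =
      (g : ℍ → ℂ) * ((h : ℍ → ℂ) ∣[k] γ) := by
    intro γ hγ
    have h1 := hinv γ hγ
    rw [MerH.comp_div_eq_slash k γ g h0,
      div_eq_div_iff (MerH.ofHol_ne_zero (HolH.slashSL_ne_zero γ h0)) (MerH.ofHol_ne_zero h0),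
      ← map_mul, ← map_mul] at h1
    exact congrArg Subtype.val (MerH.ofHol_injective h1)
  have hG' := isMF_mul_conormFn hg hh h0' hinv'
  have hNh : IsMF Γ' (k * idx Γ) (normFn Γ k (h : ℍ → ℂ)) := (normFn_isMF hh).mono le_top
  have hNh0 : normFn Γ k (h : ℍ → ℂ) ≠ 0 := normFn_ne_zero hh.holo h0'
  refine ⟨k * idx Γ, ⟨_, hG'.holo⟩, ⟨_, hNh.holo⟩, hG', hNh,
    fun h2 => hNh0 (congrArg Subtype.val h2), ?_⟩
  rw [div_eq_div_iff (MerH.ofHol_ne_zero h0)
    (MerH.ofHol_ne_zero (fun h2 => hNh0 (congrArg Subtype.val h2))), ← map_mul, ← map_mul]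
  congr 1
  apply Subtype.ext
  show (g : ℍ → ℂ) * normFn Γ k (h : ℍ → ℂ) =
    ((g : ℍ → ℂ) * conormFn Γ k (h : ℍ → ℂ)) * (h : ℍ → ℂ)
  rw [← mul_conormFn hh.inv]
  ring

end

end Fermat.Agent.W1
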