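/-
W1 = [GRΓ1] (S48), package [DEG1] (helper9), part 4c: **the fixed field of the diamond
automorphisms is the function field of level `Γ₀(M L)`** — over `ℂ` by the norm trick
(`isModFun_of_invariant`) and the `Γ₀`-degree theorem, over every field `ℚ ⊆ k ⊆ ℂ` by a
descent lemma for linearly disjoint base change (`mem_laurentBaseChange_of_iota_mem_of_bounds`).
-/
import Fermat.Agent.W1.DEG1_helper9_Dia
import Fermat.Agent.W1.DEG1_helper9_Invariant
import Fermat.Agent.W1.DEG1_helper9_Transfer
import Fermat.Agent.X0N.Mer_helper6_LinDisj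

set_option autoImplicit false

open UpperHalfPlane hiding I
open Complex Filter Topology ModularCurve IntermediateField CongruenceSubgroup
open scoped MatrixGroups Manifold

namespace Fermat.Agent.W1

open Fermat.Agent.RatStr Fermat.Agent.X0N

noncomputable section

/-! ### descent along a linearly disjoint base change -/

section Descent

variable {K L : Type*} [Field K] [Field L] [Algebra ℚ K] [Algebra ℚ L] [Algebra K L]
  [IsScalarTower ℚ K L]

/-- **Descent.** In the situation of `finrank_laurentBaseChange_eq` (`F₀ ⊆ ℚ((q))` with a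
transcendental `x`, an element `t` whose first `n` powers are `L(x)`-independent, and at most
`n` independent elements in `L·F₀`): a series `z ∈ K((q))` whose base change lies in `L·F₀`
already lies in `K·F₀`. -/
theorem mem_laurentBaseChange_of_iota_mem_of_bounds (F₀ : IntermediateField ℚ (LaurentSeries ℚ))
    {x t : LaurentSeries ℚ} (hx : x ∈ F₀) (hxt : Transcendental ℚ x) (ht : t ∈ F₀) (n : ℕ)
    (hub : ∀ (ι : Type) [Fintype ι] (b : ι → LaurentSeries L),
      (∀ i, b i ∈ laurentBaseChange L F₀) →
      LinearIndependent L⟮coeffEmb L x⟯ b → Fintype.card ι ≤ n)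
    (hlb : LinearIndependent L⟮coeffEmb L x⟯ (fun i : Fin n => (coeffEmb L t) ^ (i : ℕ)))
    {z : LaurentSeries K} (hz : iota K L z ∈ laurentBaseChange L F₀) :
    z ∈ laurentBaseChange K F₀ := by
  by_contra hz'
  have hφ := isLinDisjHom_iota (k := K) (L := L)
  have hxK : Transcendental K (coeffEmb K x) := (isLinDisjHom_coeffEmb K).transcendental hxt
  have ex : iota K L (coeffEmb K x) = coeffEmb L x := iota_coeffEmb x
  have et : iota K L (coeffEmb K t) = coeffEmb L t := iota_coeffEmb t
  -- the powers of `t` are independent over `K(x)`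
  have hv : LinearIndependent K⟮coeffEmb K x⟯ (fun i : Fin n => (coeffEmb K t) ^ (i : ℕ)) := by
    apply hφ.linearIndependent_of_map
    have e1 : (fun i : Fin n => iota K L ((coeffEmb K t) ^ (i : ℕ))) =
        fun i : Fin n => (coeffEmb L t) ^ (i : ℕ) := by
      funext i
      rw [map_pow, et]
    rw [e1, ex]
    exact hlb
  -- `z` is not in their span
  have hXle : K⟮coeffEmb K x⟯ ≤ laurentBaseChange K F₀ := by
    rw [IntermediateField.adjoin_simple_le_iff]
    exact coeffEmb_mem_laurentBaseChange K hx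
  have hspan : z ∉ Submodule.span K⟮coeffEmb K x⟯
      (Set.range (fun i : Fin n => (coeffEmb K t) ^ (i : ℕ))) := by
    intro hmem
    apply hz'
    refine Submodule.span_induction (p := fun w _ => w ∈ laurentBaseChange K F₀) ?_ ?_ ?_ ?_ hmem
    · rintro w ⟨i, rfl⟩
      exact pow_mem (coeffEmb_mem_laurentBaseChange K ht) _
    · exact zero_mem _
    · intro a b _ _ ha hb
      exact add_mem ha hb
    · intro a w _ hw
      rw [IntermediateField.smul_def, smul_eq_mul]
      exact mul_mem (hXle a.2) hw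
  have hsnoc : LinearIndependent K⟮coeffEmb K x⟯
      (Fin.snoc (fun i : Fin n => (coeffEmb K t) ^ (i : ℕ)) z : Fin (n + 1) → LaurentSeries K) :=
    linearIndependent_finSnoc.mpr ⟨hv, hspan⟩
  have h2 := hφ.linearIndependent_adjoin hxK hsnoc
  rw [ex] at h2
  have h3 := hub (Fin (n + 1)) _ ?_ h2
  · simp at h3
  · intro i
    refine Fin.lastCases ?_ (fun j => ?_) i
    · rw [Fin.snoc_last]
      exact hz
    · rw [Fin.snoc_castSucc]
      exact iota_mem_laurentBaseChange F₀ (pow_mem (coeffEmb_mem_laurentBaseChange K ht) _)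

end Descent

/-! ### the fixed field over `ℂ` -/

section Complex

variable (N : ℕ) [NeZero N]

/-- every modular function for `Γ₀(N)` is in the image of the realisation over `ℂ`. -/
theorem exists_realN_eq_of_isModFun {y : MerH} (hy : IsModFun (Gamma0 N) y) :
    ∃ x : ↥(laurentBaseChange ℂ (modularFunctionFieldFull N)),
      realN (RingHom.id ℂ) N x = y := by
  have h1 : y ∈ modFunOverCjM N := hy
  rw [modFunOverCjM_eq] at h1
  have hj : CjM ≤ (realNC N).fieldRange := by
    rw [CjM, IntermediateField.adjoin_simple_le_iff]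
    exact ⟨jC N, realNC_jC N⟩
  have h2 : IntermediateField.adjoin CjM {MerH.ofHol (jNHol N)} ≤
      IntermediateField.extendScalars hj := by
    rw [IntermediateField.adjoin_simple_le_iff]
    exact ⟨jNC N, realNC_jNC N⟩
  obtain ⟨x, hx⟩ := h2 h1
  exact ⟨x, hx⟩

variable (M L : ℕ) [NeZero M] [NeZero L]

/-- **over `ℂ` the fixed field of the diamond automorphisms is the field of level `Γ₀(M L)`.** -/
theorem exists_fullIncl_eq_of_fixed_complex (x : ↥(laurentBaseChange ℂ (F₁ M L)))
    (hfix : ∀ (σ : SL(2, ℤ)) (hσ : σ ∈ Gamma0 (M * L)), diaHom (RingHom.id ℂ) hσ x = x) :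
    ∃ y : ↥(laurentBaseChange ℂ (modularFunctionFieldFull (M * L))), fullIncl M L y = x := by
  have h1 : IsModFun (Gamma0 (M * L)) (realML (RingHom.id ℂ) M L x) := by
    apply isModFun_of_invariant (isModFun_realML (RingHom.id ℂ) x)
    intro σ hσ
    rw [← realML_diaHom (RingHom.id ℂ) hσ, hfix σ hσ]
  obtain ⟨y, hy⟩ := exists_realN_eq_of_isModFun (M * L) h1
  refine ⟨y, realML_injective (RingHom.id ℂ) M L ?_⟩
  rw [realML_fullIncl, hy]

end Complex

/-! ### the fixed field over `k ⊆ ℂ` -/

section Rational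

variable {k : Type*} [Field k] [Algebra ℚ k] [Algebra k ℂ] [IsScalarTower ℚ k ℂ]
  (M L : ℕ)

/-- base change of coefficients `k·F₁ M L → ℂ·F₁ M L`. -/
def baseChangeML : ↥(laurentBaseChange k (F₁ M L)) →+* ↥(laurentBaseChange ℂ (F₁ M L)) where
  toFun x := ⟨iota k ℂ x.1, iota_mem_laurentBaseChange (F₁ M L) x.2⟩
  map_one' := Subtype.ext (map_one (iota k ℂ))
  map_mul' x y := Subtype.ext (map_mul (iota k ℂ) x.1 y.1)
  map_zero' := Subtype.ext (map_zero (iota k ℂ))
  map_add' x y := Subtype.ext (map_add (iota k ℂ) x.1 y.1)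

theorem coe_baseChangeML (x : ↥(laurentBaseChange k (F₁ M L))) :
    ((baseChangeML M L x : ↥(laurentBaseChange ℂ (F₁ M L))) : LaurentSeries ℂ) =
      iota k ℂ (x : LaurentSeries k) := rfl

/-- the realisation factors through base change to `ℂ`. -/
theorem realML_eq_realML_baseChange (x : ↥(laurentBaseChange k (F₁ M L))) :
    realML (algebraMap k ℂ) M L x = realML (RingHom.id ℂ) M L (baseChangeML M L x) :=
  merSeries.real_eq_real_id (algebraMap k ℂ) (inclML (algebraMap k ℂ) M L x)

theorem baseChangeML_diaHom {σ : SL(2, ℤ)} (hσ : σ ∈ Gamma0 (M * L))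
    (x : ↥(laurentBaseChange k (F₁ M L))) :
    baseChangeML M L (diaHom (algebraMap k ℂ) hσ x) =
      diaHom (RingHom.id ℂ) hσ (baseChangeML M L x) := by
  symm
  rw [diaHom_eq_iff, ← realML_eq_realML_baseChange, ← realML_eq_realML_baseChange,
    realML_diaHom]

variable [NeZero M] [NeZero L]

/-- **the fixed field of the diamond automorphisms is the function field of level `Γ₀(M L)`**,
over every field `ℚ ⊆ k ⊆ ℂ`. -/
theorem mem_full_of_fixed (x : ↥(laurentBaseChange k (F₁ M L)))
    (hfix : ∀ (σ : SL(2, ℤ)) (hσ : σ ∈ Gamma0 (M * L)), diaHom (algebraMap k ℂ) hσ x = x) :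
    (x : LaurentSeries k) ∈ laurentBaseChange k (modularFunctionFieldFull (M * L)) := by
  have h1 : ∀ (σ : SL(2, ℤ)) (hσ : σ ∈ Gamma0 (M * L)),
      diaHom (RingHom.id ℂ) hσ (baseChangeML M L x) = baseChangeML M L x := by
    intro σ hσ
    rw [← baseChangeML_diaHom, hfix σ hσ]
  obtain ⟨y, hy⟩ := exists_fullIncl_eq_of_fixed_complex M L _ h1
  have h2 : iota k ℂ (x : LaurentSeries k) ∈
      laurentBaseChange ℂ (modularFunctionFieldFull (M * L)) := by
    rw [← coe_baseChangeML, ← hy, coe_fullIncl]
    exact y.2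
  exact mem_laurentBaseChange_of_iota_mem_of_bounds (K := k) (L := ℂ) (modularFunctionFieldFull (M * L))
    (jq_mem_full (M * L)) transcendental_jq (jqN_mem_full (M * L)) _
    (card_le_index_of_linearIndependent_laurent (M * L)) (linearIndependent_pow_jqN (M * L)) h2

theorem exists_fullIncl_eq_of_fixed (x : ↥(laurentBaseChange k (F₁ M L)))
    (hfix : ∀ (σ : SL(2, ℤ)) (hσ : σ ∈ Gamma0 (M * L)), diaHom (algebraMap k ℂ) hσ x = x) :
    ∃ y : ↥(laurentBaseChange k (modularFunctionFieldFull (M * L))), fullIncl M L y = x :=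
  ⟨⟨x.1, mem_full_of_fixed M L x hfix⟩, Subtype.ext (coe_fullIncl M L _)⟩

end Rational

end

end Fermat.Agent.W1
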