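/-
W1 = [GRΓ1] (S48), package [DEG1] (helper9), part 4d: **the Galois structure of
`k·F₁ M L` over `k·F₀(M L)`** in the shape needed by `W1/ETALE_helper7_Step`:
`DiaGrp M = (ZMod M)ˣ/±1`, the conjugates `phiQ i` of `φ_1` (pairwise distinct), automorphisms
`diaQ i` over `k·F₀(M L)` with `diaQ i (phiQ 1) = phiQ i`, the polynomial `∏ (X - phiQ i)` has
coefficients in `k·F₀(M L)`, and `k·F₁ M L = (k·F₀(M L))[φ_1]`.
-/
import Fermat.Agent.W1.DEG1_helper9_Fixed

set_option autoImplicit false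

open UpperHalfPlane hiding I
open Complex Filter Topology ModularCurve IntermediateField CongruenceSubgroup
open scoped MatrixGroups Manifold

namespace Fermat.Agent.W1

open Fermat.Agent.RatStr Fermat.Agent.X0N Polynomial

noncomputable section

/-! ### the unit attached to an element of `Γ₀(M)` -/

/-- the upper left entry of `σ ∈ Γ₀(M)` as a unit modulo `M`. -/
def unitOf {M : ℕ} {σ : SL(2, ℤ)} (hσ : σ ∈ Gamma0 M) : (ZMod M)ˣ :=
  ⟨((σ 0 0 : ℤ) : ZMod M), ((σ 1 1 : ℤ) : ZMod M), entry_mul_entry_eq_one hσ, by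
    rw [mul_comm]; exact entry_mul_entry_eq_one hσ⟩

@[simp] theorem coe_unitOf {M : ℕ} {σ : SL(2, ℤ)} (hσ : σ ∈ Gamma0 M) :
    ((unitOf hσ : (ZMod M)ˣ) : ZMod M) = ((σ 0 0 : ℤ) : ZMod M) := rfl

/-- the group `(ZMod M)ˣ / ±1` of diamond operators. -/
abbrev DiaGrp (M : ℕ) : Type := (ZMod M)ˣ ⧸ Subgroup.zpowers (-1 : (ZMod M)ˣ)

instance (M : ℕ) [NeZero M] : Finite (DiaGrp M) := inferInstance

instance instFintypeDiaGrp (M : ℕ) [NeZero M] : Fintype (DiaGrp M) := Fintype.ofFinite _

theorem diaGrp_mk_eq_iff {M : ℕ} (u v : (ZMod M)ˣ) :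
    (QuotientGroup.mk u : DiaGrp M) = QuotientGroup.mk v ↔ u = v ∨ u = -v := by
  rw [QuotientGroup.eq, Subgroup.mem_zpowers_iff]
  constructor
  · rintro ⟨n, hn⟩
    rcases Int.even_or_odd n with he | ho
    · left
      rw [Even.neg_one_zpow he] at hn
      have : v = u := by rw [← mul_one u, hn, mul_inv_cancel_left]
      exact this.symm
    · right
      rw [Odd.neg_one_zpow ho] at hn
      have : v = u * (-1) := by rw [hn, mul_inv_cancel_left]
      rw [this]; simp
  · rintro (rfl | rfl)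
    · exact ⟨0, by simp⟩
    · exact ⟨1, by simp⟩

/-! ### the conjugates of `φ_1` -/

variable {k : Type*} [Field k] [Algebra ℚ k] (ι : k →+* ℂ) (M L : ℕ)

/-- `φ_a` as an element of the function field, for every `a` (zero for `a = 0`). -/
def phiBarA (a : ZMod M) : ↥(laurentBaseChange k (F₁ M L)) :=
  if ha : a = 0 then 0 else phiBarML (e := 1) (one_dvd L) ha

theorem phiBarA_of_ne {a : ZMod M} (ha : a ≠ 0) :
    phiBarA (k := k) M L a = phiBarML (e := 1) (one_dvd L) ha := dif_neg ha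

theorem coe_phiBarA_of_ne {a : ZMod M} (ha : a ≠ 0) :
    ((phiBarA (k := k) M L a : ↥(laurentBaseChange k (F₁ M L))) : LaurentSeries k) =
      coeffEmb k (qExpand ℚ 1 (phiGen ℚ M a)) := by
  rw [phiBarA_of_ne M L ha]; rfl

theorem phiBarA_neg (a : ZMod M) : phiBarA (k := k) M L (-a) = phiBarA M L a := by
  by_cases ha : a = 0
  · rw [ha, neg_zero]
  · have hna : -a ≠ 0 := neg_ne_zero.mpr ha
    apply Subtype.ext
    rw [coe_phiBarA_of_ne M L ha, coe_phiBarA_of_ne M L hna, phiGen_neg]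

variable {M L}

theorem diaHom_phiBarA {σ : SL(2, ℤ)} (hσ : σ ∈ Gamma0 (M * L)) (a : ZMod M) :
    diaHom ι hσ (phiBarA M L a) = phiBarA M L (a * ((σ 0 0 : ℤ) : ZMod M)) := by
  by_cases ha : a = 0
  · rw [ha, zero_mul]
    unfold phiBarA
    rw [dif_pos rfl, map_zero]
  · rw [phiBarA_of_ne M L ha,
      phiBarA_of_ne M L (mul_entry_ne_zero ha (mem_Gamma0_of_mem_Gamma0_mul hσ)),
      diaHom_phiBarML]

theorem phiBarA_eq_iff [NeZero M] {a b : ZMod M} (ha : a ≠ 0) (hb : b ≠ 0) :
    phiBarA (k := k) M L a = phiBarA M L b ↔ a = b ∨ a = -b := by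
  constructor
  · intro h
    by_contra hcon
    rw [not_or] at hcon
    have h2 := congrArg Subtype.val h
    rw [coe_phiBarA_of_ne M L ha, coe_phiBarA_of_ne M L hb] at h2
    have h3 := (qExpand ℚ 1).injective ((coeffEmb k).injective h2)
    exact phiGen_ne_phiGen ℚ M ha hb hcon.1 hcon.2 h3
  · rintro (rfl | rfl)
    · rfl
    · rw [phiBarA_neg]

variable (M L)

/-- the conjugates of `φ_1`, indexed by `(ZMod M)ˣ/±1`. -/
def phiQ (i : DiaGrp M) : ↥(laurentBaseChange k (F₁ M L)) :=
  Quotient.liftOn' i (fun u : (ZMod M)ˣ => phiBarA (k := k) M L (u : ZMod M)) (by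
    intro u v huv
    have h1 : (QuotientGroup.mk u : DiaGrp M) = QuotientGroup.mk v := Quotient.sound' huv
    rcases (diaGrp_mk_eq_iff u v).mp h1 with rfl | rfl
    · rfl
    · show phiBarA M L ((-v : (ZMod M)ˣ) : ZMod M) = phiBarA M L (v : ZMod M)
      rw [Units.val_neg, phiBarA_neg])

@[simp] theorem phiQ_mk (u : (ZMod M)ˣ) :
    phiQ (k := k) M L (QuotientGroup.mk u : DiaGrp M) = phiBarA M L (u : ZMod M) := rfl

theorem phiQ_injective [NeZero M] (hM : M ≠ 1) : Function.Injective (phiQ (k := k) M L) := by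
  have : Nontrivial (ZMod M) := ZMod.nontrivial_iff.mpr hM
  intro i j
  induction i using QuotientGroup.induction_on with
  | H u =>
    induction j using QuotientGroup.induction_on with
    | H v =>
      intro h
      rw [phiQ_mk, phiQ_mk, phiBarA_eq_iff (Units.ne_zero u) (Units.ne_zero v)] at h
      rw [diaGrp_mk_eq_iff]
      rcases h with h | h
      · exact Or.inl (Units.ext h)
      · exact Or.inr (Units.ext (by rw [h, Units.val_neg]))

variable {M L}

theorem diaHom_phiQ {σ : SL(2, ℤ)} (hσ : σ ∈ Gamma0 (M * L)) (i : DiaGrp M) :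
    diaHom ι hσ (phiQ M L i) =
      phiQ M L (i * QuotientGroup.mk (unitOf (mem_Gamma0_of_mem_Gamma0_mul hσ))) := by
  induction i using QuotientGroup.induction_on with
  | H u =>
    rw [phiQ_mk, diaHom_phiBarA, ← QuotientGroup.mk_mul, phiQ_mk, Units.val_mul, coe_unitOf]

/-! ### the polynomial `∏ (X - φ_d)` -/

variable (M L)

/-- `∏_{d ∈ (ZMod M)ˣ/±1} (X - φ_d)`. -/
def phiPoly [NeZero M] : (↥(laurentBaseChange k (F₁ M L)))[X] :=
  ∏ i : DiaGrp M, (X - C (phiQ (k := k) M L i))

variable {M L}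

theorem phiPoly_map_diaHom [NeZero M] {σ : SL(2, ℤ)} (hσ : σ ∈ Gamma0 (M * L)) :
    (phiPoly (k := k) M L).map (diaHom ι hσ) = phiPoly M L := by
  unfold phiPoly
  rw [Polynomial.map_prod]
  simp only [Polynomial.map_sub, Polynomial.map_X, Polynomial.map_C, diaHom_phiQ]
  exact Equiv.prod_comp
    (Equiv.mulRight (QuotientGroup.mk (unitOf (mem_Gamma0_of_mem_Gamma0_mul hσ)) : DiaGrp M))
    (fun i => X - C (phiQ (k := k) M L i))

/-! ### descent of the polynomial, generation, automorphisms over the subfield -/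

section Rational

variable {k : Type*} [Field k] [Algebra ℚ k] [Algebra k ℂ] [IsScalarTower ℚ k ℂ]
  (M L : ℕ) [NeZero M] [NeZero L]

/-- **`∏ (X - φ_d)` has coefficients in the function field of level `Γ₀(M L)`.** -/
theorem exists_phiPoly_eq_map :
    ∃ P : (↥(laurentBaseChange k (modularFunctionFieldFull (M * L))))[X],
      P.map (fullIncl M L).toRingHom = phiPoly (k := k) M L := by
  have hl : phiPoly (k := k) M L ∈ Polynomial.lifts (fullIncl (k := k) M L).toRingHom := by
    rw [Polynomial.lifts_iff_coeff_lifts]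
    intro n
    obtain ⟨y, hy⟩ := exists_fullIncl_eq_of_fixed M L ((phiPoly (k := k) M L).coeff n) (by
      intro σ hσ
      conv_rhs => rw [← phiPoly_map_diaHom (algebraMap k ℂ) hσ]
      rw [coeff_map])
    exact ⟨y, hy⟩
  exact hl

/-- the `k`-algebra structure of `k·F₁ M L` over `k·F₀(M L)`. -/
@[reducible] def fullAlgebra : Algebra ↥(laurentBaseChange k (modularFunctionFieldFull (M * L)))
    ↥(laurentBaseChange k (F₁ M L)) := (fullIncl M L).toRingHom.toAlgebra

attribute [local instance] fullAlgebra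

omit [Algebra k ℂ] [IsScalarTower ℚ k ℂ] [NeZero M] [NeZero L] in
theorem algebraMap_full_eq (y : ↥(laurentBaseChange k (modularFunctionFieldFull (M * L)))) :
    algebraMap ↥(laurentBaseChange k (modularFunctionFieldFull (M * L)))
      ↥(laurentBaseChange k (F₁ M L)) y = fullIncl M L y := rfl

omit [Algebra k ℂ] [IsScalarTower ℚ k ℂ] [NeZero M] [NeZero L] in
instance isScalarTower_full : IsScalarTower k
    ↥(laurentBaseChange k (modularFunctionFieldFull (M * L))) ↥(laurentBaseChange k (F₁ M L)) :=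
  IsScalarTower.of_algebraMap_eq fun c => ((fullIncl M L).commutes c).symm

theorem exists_phiPoly_eq_map_algebraMap :
    ∃ P : (↥(laurentBaseChange k (modularFunctionFieldFull (M * L))))[X],
      P.map (algebraMap ↥(laurentBaseChange k (modularFunctionFieldFull (M * L)))
        ↥(laurentBaseChange k (F₁ M L))) = ∏ i : DiaGrp M, (X - C (phiQ (k := k) M L i)) :=
  exists_phiPoly_eq_map M L

/-- a representative in `Γ₀(M L)` of a unit modulo `M`. -/
def sigmaU (d : (ZMod M)ˣ) : SL(2, ℤ) := Classical.choose (exists_Gamma0_upperLeft M L d)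

theorem sigmaU_mem (d : (ZMod M)ˣ) : sigmaU M L d ∈ Gamma0 (M * L) :=
  (Classical.choose_spec (exists_Gamma0_upperLeft M L d)).1

theorem sigmaU_entry (d : (ZMod M)ˣ) : ((sigmaU M L d 0 0 : ℤ) : ZMod M) = (d : ZMod M) :=
  (Classical.choose_spec (exists_Gamma0_upperLeft M L d)).2

/-- **the diamond automorphism `⟨d⟩`** of `k·F₁ M L` over `k·F₀(M L)`, `d : (ZMod M)ˣ`:
analytically it is precomposition with `σ ∈ Γ₀(M L)` whose UPPER LEFT entry is `d` modulo `M`
(so the lower right entry is `d⁻¹`); it sends `φ_a(q^e)` to `φ_{a d}(q^e)`. -/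
def diaU (d : (ZMod M)ˣ) : ↥(laurentBaseChange k (F₁ M L)) ≃ₐ[
    ↥(laurentBaseChange k (modularFunctionFieldFull (M * L)))] ↥(laurentBaseChange k (F₁ M L)) :=
  AlgEquiv.ofRingEquiv (f := (diaML (algebraMap k ℂ) (sigmaU_mem M L d)).toRingEquiv)
    (fun y => diaHom_fullIncl (algebraMap k ℂ) (sigmaU_mem M L d) y)

omit [IsScalarTower ℚ k ℂ] in
theorem diaU_apply (d : (ZMod M)ˣ) (x : ↥(laurentBaseChange k (F₁ M L))) :
    diaU M L d x = diaHom (algebraMap k ℂ) (sigmaU_mem M L d) x := rfl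

theorem diaU_phiBarA (d : (ZMod M)ˣ) (a : ZMod M) :
    diaU (k := k) M L d (phiBarA M L a) = phiBarA M L (a * (d : ZMod M)) := by
  rw [diaU_apply, diaHom_phiBarA, sigmaU_entry]

theorem diaU_phiBarML (d : (ZMod M)ˣ) {e : ℕ} [NeZero e] (he : e ∣ L) {a : ZMod M} (ha : a ≠ 0) :
    diaU (k := k) M L d (phiBarML he ha) =
      phiBarML he (fun h => ha ((Units.mul_left_eq_zero d).mp h) : a * (d : ZMod M) ≠ 0) := by
  rw [diaU_apply, diaHom_phiBarML]
  congr 1
  rw [sigmaU_entry]

theorem diaU_jdBarML (d : (ZMod M)ˣ) {d' : ℕ} [NeZero d'] (hd : d' ∣ M * L) :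
    diaU (k := k) M L d (jdBarML hd) = jdBarML hd := by
  rw [diaU_apply, diaHom_jdBarML]

theorem diaU_phiQ (d : (ZMod M)ˣ) (i : DiaGrp M) :
    diaU (k := k) M L d (phiQ M L i) = phiQ M L (i * QuotientGroup.mk d) := by
  rw [diaU_apply, diaHom_phiQ]
  have h : unitOf (mem_Gamma0_of_mem_Gamma0_mul (sigmaU_mem M L d)) = d :=
    Units.ext (by rw [coe_unitOf, sigmaU_entry])
  rw [h]

omit [IsScalarTower ℚ k ℂ] in
theorem realML_diaU (d : (ZMod M)ˣ) (x : ↥(laurentBaseChange k (F₁ M L))) :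
    realML (algebraMap k ℂ) M L (diaU M L d x) =
      MerH.comp (sigmaU M L d) (realML (algebraMap k ℂ) M L x) :=
  realML_diaHom (algebraMap k ℂ) (sigmaU_mem M L d) x

/-- the automorphism over `k·F₀(M L)` carrying `φ_1` to the conjugate `phiQ i`. -/
def diaQ (i : DiaGrp M) : ↥(laurentBaseChange k (F₁ M L)) ≃ₐ[
    ↥(laurentBaseChange k (modularFunctionFieldFull (M * L)))] ↥(laurentBaseChange k (F₁ M L)) :=
  diaU M L (Quotient.out i)

theorem diaQ_phiQ_one (i : DiaGrp M) : diaQ (k := k) M L i (phiQ M L 1) = phiQ M L i := by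
  unfold diaQ
  rw [diaU_phiQ]
  have h1 : (QuotientGroup.mk (Quotient.out i) : DiaGrp M) = i := Quotient.out_eq' i
  rw [h1]
  exact congrArg (phiQ M L) (one_mul i)

/-- `j` as an element of `k·F₁ M L`. -/
def jBarML : ↥(laurentBaseChange k (F₁ M L)) :=
  ⟨coeffEmb k jq, coeffEmb_mem_laurentBaseChange k (jq_mem_F₁ M L)⟩

/-- **`k·F₁ M L` is generated by `φ_1` as an algebra over `k·F₀(M L)`.** -/
theorem adjoin_phiQ_one_eq_top (hM : M ≠ 1) :
    Algebra.adjoin ↥(laurentBaseChange k (modularFunctionFieldFull (M * L)))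
      {phiQ (k := k) M L 1} = ⊤ := by
  have : Nontrivial (ZMod M) := ZMod.nontrivial_iff.mpr hM
  obtain ⟨hfin, hrank⟩ := finrank_F₁_baseChange_eq M L k hM
  obtain ⟨c, hc⟩ := exists_linearIndependent_pow_tPrim M L hM
  set jE : ↥(laurentBaseChange k (F₁ M L)) := jBarML M L with hjE
  set t : ↥(laurentBaseChange k (F₁ M L)) := primElt M L hM c with ht
  -- the powers of `t` are a basis over `k(j)`
  have hφ := isLinDisjHom_iota (k := k) (L := ℂ)
  have ht1 : ((t : ↥(laurentBaseChange k (F₁ M L))) : LaurentSeries k) =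
      coeffEmb k (tPrim M L c) := by
    rw [ht]
    unfold primElt tPrim
    rw [map_add, map_mul, map_natCast]
    rfl
  have h1 : LinearIndependent k⟮((jE : ↥(laurentBaseChange k (F₁ M L))) : LaurentSeries k)⟯
      (fun i : Fin (Gpm M L).index => ((t : ↥(laurentBaseChange k (F₁ M L))) :
        LaurentSeries k) ^ (i : ℕ)) := by
    apply hφ.linearIndependent_of_map
    have e1 : (fun i : Fin (Gpm M L).index => iota k ℂ
        (((t : ↥(laurentBaseChange k (F₁ M L))) : LaurentSeries k) ^ (i : ℕ))) =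
        fun i : Fin (Gpm M L).index => (coeffEmb ℂ (tPrim M L c)) ^ (i : ℕ) := by
      funext i
      rw [map_pow, ht1, iota_coeffEmb]
    have e2 : iota k ℂ ((jE : ↥(laurentBaseChange k (F₁ M L))) : LaurentSeries k) =
        coeffEmb ℂ jq := iota_coeffEmb jq
    rw [e1, e2]
    exact hc
  have h2 : LinearIndependent k⟮jE⟯ (fun i : Fin (Gpm M L).index => t ^ (i : ℕ)) := by
    rw [linearIndependent_typed_iff]
    simpa using h1
  have hfin' : Module.Finite k⟮jE⟯ ↥(laurentBaseChange k (F₁ M L)) := hfin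
  have hrank' : Module.finrank k⟮jE⟯ ↥(laurentBaseChange k (F₁ M L)) = (Gpm M L).index := hrank
  have hspan := h2.span_eq_top_of_card_eq_finrank' (by rw [Fintype.card_fin, hrank'])
  -- the subring of polynomial expressions in `φ_1`
  rw [eq_top_iff]
  intro z _
  have hB : ∀ b : k⟮jE⟯, (b : ↥(laurentBaseChange k (F₁ M L))) ∈
      Set.range (fullIncl (k := k) M L) := by
    have hle : k⟮jE⟯ ≤ (fullIncl (k := k) M L).fieldRange := by
      rw [IntermediateField.adjoin_simple_le_iff]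
      exact ⟨⟨coeffEmb k jq, coeffEmb_mem_laurentBaseChange k (jq_mem_full (M * L))⟩,
        Subtype.ext (coe_fullIncl M L _)⟩
    intro b
    exact hle b.2
  have htA : t ∈ Algebra.adjoin ↥(laurentBaseChange k (modularFunctionFieldFull (M * L)))
      {phiQ (k := k) M L 1} := by
    have h3 : t = phiQ M L 1 + algebraMap ↥(laurentBaseChange k (modularFunctionFieldFull (M * L)))
        ↥(laurentBaseChange k (F₁ M L)) ((c : ↥(laurentBaseChange k
          (modularFunctionFieldFull (M * L)))) * jdBar (M * L) dvd_rfl) := by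
      rw [algebraMap_full_eq, map_mul, map_natCast, fullIncl_jdBar, ht]
      show phiBarML (e := 1) (one_dvd L) (one_ne_zero : (1 : ZMod M) ≠ 0) +
        (c : ↥(laurentBaseChange k (F₁ M L))) * jdBarML (d := M * L) dvd_rfl = _
      congr 1
      show _ = phiBarA M L ((1 : (ZMod M)ˣ) : ZMod M)
      rw [Units.val_one, phiBarA_of_ne M L one_ne_zero]
    rw [h3]
    exact add_mem (Algebra.subset_adjoin rfl) (Subalgebra.algebraMap_mem _ _)
  have hz : z ∈ Submodule.span k⟮jE⟯
      (Set.range (fun i : Fin (Gpm M L).index => t ^ (i : ℕ))) := by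
    rw [hspan]; exact Submodule.mem_top
  refine Submodule.span_induction
    (p := fun w _ => w ∈ Algebra.adjoin ↥(laurentBaseChange k (modularFunctionFieldFull (M * L)))
      {phiQ (k := k) M L 1}) ?_ ?_ ?_ ?_ hz
  · rintro w ⟨i, rfl⟩
    exact pow_mem htA _
  · exact zero_mem _
  · intro a b _ _ ha hb
    exact add_mem ha hb
  · intro b w _ hw
    obtain ⟨y, hy⟩ := hB b
    rw [IntermediateField.smul_def, smul_eq_mul, ← hy, ← algebraMap_full_eq]
    exact mul_mem (Subalgebra.algebraMap_mem _ _) hw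

omit [Algebra k ℂ] [IsScalarTower ℚ k ℂ] [NeZero L] in
/-- the product of the differences of the conjugates does not vanish. -/
theorem phiQ_sub_ne_zero (hM : M ≠ 1) {i j : DiaGrp M} (hij : i ≠ j) :
    phiQ (k := k) M L i - phiQ M L j ≠ 0 :=
  sub_ne_zero.mpr fun h => hij (phiQ_injective M L hM h)

end Rational

end

end Fermat.Agent.W1
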