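/-
W1 = [GRΓ1] (S48), arithmetic half, BASE (helper7): the function field of level `Gpm M L` over an
arbitrary field `K` (`F₁C K M L ⊂ K((q))`, the analogue of the Prelude's
`modularFunctionFieldFullC K N`), its functoriality in `K`, the identification
`laurentBaseChange K (F₁ M L) = F₁C K M L`, the Gauss-integrality of the generators, and the key
fields `keyFq K₁ M = laurentBaseChange K₁ (F₁ M 1) ⊇ keyFq₀ K₁ M` of the arithmetic half.
-/
import Fermat.Agent.W1.Defs_helper9
import Fermat.Agent.Igusa.V_helper5_GaussLemma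

set_option autoImplicit false
set_option linter.unusedSectionVars false

noncomputable section

namespace Fermat.Agent.W1

open ModularCurve IntermediateField HahnSeries Fermat.Agent.Igusa

/-! ### the function field over an arbitrary field -/

section FieldC

variable (K : Type*) [Field K] (M L : ℕ)

/-- the series `φ_a(q^e)`, `e ∣ L`, `a ≠ 0`, over `K`. -/
def phiExpansionsC : Set (LaurentSeries K) :=
  {x | ∃ (e : ℕ) (_ : NeZero e) (a : ZMod M), e ∣ L ∧ a ≠ 0 ∧ x = qExpand K e (phiGen K M a)}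

variable {K M L} in
theorem mem_phiExpansionsC {e : ℕ} [NeZero e] (he : e ∣ L) {a : ZMod M} (ha : a ≠ 0) :
    qExpand K e (phiGen K M a) ∈ phiExpansionsC K M L :=
  ⟨e, ‹_›, a, he, ha, rfl⟩

/-- **the function field of level `Γ₁(M) ∩ Γ₀(M L)` over `K`**, inside `K((q))`. -/
def F₁C : IntermediateField K (LaurentSeries K) :=
  IntermediateField.adjoin K (divisorExpansionsC K (M * L) ∪ phiExpansionsC K M L)

theorem F₁C_rat : F₁C ℚ M L = F₁ M L := rfl

variable {K M L}

theorem jqModCd_mem_F₁C {d : ℕ} [NeZero d] (hd : d ∣ M * L) :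
    qExpand K d (jqModC K) ∈ F₁C K M L :=
  subset_adjoin K _ (Or.inl (mem_divisorExpansionsC K (M * L) hd))

variable (K M L) in
theorem jqModC_mem_F₁C : jqModC K ∈ F₁C K M L := by
  have h := jqModCd_mem_F₁C (K := K) (M := M) (L := L) (one_dvd (M * L))
  rwa [qExpand_one_apply] at h

theorem phi_mem_F₁C {e : ℕ} [NeZero e] (he : e ∣ L) {a : ZMod M} (ha : a ≠ 0) :
    qExpand K e (phiGen K M a) ∈ F₁C K M L :=
  subset_adjoin K _ (Or.inr (mem_phiExpansionsC he ha))

variable (K L) in
theorem phiGen_mem_F₁C {a : ZMod M} (ha : a ≠ 0) : phiGen K M a ∈ F₁C K M L := by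
  have h := phi_mem_F₁C (K := K) (M := M) (L := L) (one_dvd L) ha
  rwa [qExpand_one_apply] at h

variable (K M L) in
theorem fullC_le_F₁C : modularFunctionFieldFullC K (M * L) ≤ F₁C K M L := by
  rw [modularFunctionFieldFullC, adjoin_le_iff]
  exact fun x hx => subset_adjoin K _ (Or.inl hx)

theorem coeffMap_algebraMap_hom {K' : Type*} [Field K'] (σ : K →+* K') (c : K) :
    coeffMap σ (algebraMap K (LaurentSeries K) c) = algebraMap K' (LaurentSeries K') (σ c) := by
  rw [algebraMap_laurentSeries_eq_single, algebraMap_laurentSeries_eq_single, coeffMap_single]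

/-- functoriality: coefficientwise maps send `F₁C K M L` into `F₁C K' M L`. -/
theorem coeffMap_mem_F₁C {K' : Type*} [Field K'] (σ : K →+* K') {x : LaurentSeries K}
    (hx : x ∈ F₁C K M L) : coeffMap σ x ∈ F₁C K' M L := by
  rw [F₁C] at hx
  induction hx using IntermediateField.adjoin_induction with
  | mem x hx =>
    rcases hx with ⟨d, hd0, hd, rfl⟩ | ⟨e, he0, a, he, ha, rfl⟩
    · have := hd0
      rw [coeffMap_qExpand, coeffMap_jqModC]
      exact jqModCd_mem_F₁C hd
    · have := he0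
      rw [coeffMap_qExpand, coeffMap_phiGen]
      exact phi_mem_F₁C he ha
  | algebraMap c =>
    rw [coeffMap_algebraMap_hom]
    exact (F₁C K' M L).algebraMap_mem _
  | add x y _ _ hx hy => rw [map_add]; exact add_mem hx hy
  | mul x y _ _ hx hy => rw [map_mul]; exact mul_mem hx hy
  | inv x _ hx => rw [map_inv₀]; exact inv_mem hx

end FieldC

/-! ### base change from `ℚ` -/

section BaseChange

variable (K : Type*) [Field K] [Algebra ℚ K] (M L : ℕ)

theorem coeffEmb_qExpand_jq' (d : ℕ) [NeZero d] :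
    coeffEmb K (qExpand ℚ d jq) = qExpand K d (jqModC K) := by
  rw [coeffEmb, coeffMap_qExpand, ← jqModC_rat, coeffMap_jqModC]

theorem coeffEmb_qExpand_phiGen (e : ℕ) [NeZero e] (a : ZMod M) :
    coeffEmb K (qExpand ℚ e (phiGen ℚ M a)) = qExpand K e (phiGen K M a) := by
  rw [coeffEmb, coeffMap_qExpand, coeffMap_phiGen]

variable {M L} in
theorem coeffEmb_mem_F₁C {x : LaurentSeries ℚ} (hx : x ∈ F₁ M L) :
    coeffEmb K x ∈ F₁C K M L := by
  have h := coeffMap_mem_F₁C (K := ℚ) (K' := K) (M := M) (L := L) (algebraMap ℚ K) (x := x) hx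
  exact h

/-- the two models of the function field over `K` coincide. -/
theorem laurentBaseChange_F₁_eq_F₁C : laurentBaseChange K (F₁ M L) = F₁C K M L := by
  apply le_antisymm
  · rw [laurentBaseChange, adjoin_le_iff]
    rintro _ ⟨x, hx, rfl⟩
    exact coeffEmb_mem_F₁C K hx
  · rw [F₁C, adjoin_le_iff]
    rintro _ (⟨d, hd0, hd, rfl⟩ | ⟨e, he0, a, he, ha, rfl⟩)
    · have := hd0
      rw [← coeffEmb_qExpand_jq']
      exact coeffEmb_mem_laurentBaseChange K (jqd_mem_F₁ hd)
    · have := he0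
      rw [← coeffEmb_qExpand_phiGen]
      exact coeffEmb_mem_laurentBaseChange K (phi_mem_F₁ he ha)

/-- the function field of `X₁(M)` over `K₁`, inside `K₁((q))`. -/
abbrev keyFq (K₁ : Type*) [Field K₁] [Algebra ℚ K₁] (M : ℕ) :
    IntermediateField K₁ (LaurentSeries K₁) :=
  laurentBaseChange K₁ (F₁ M 1)

/-- the function field of `X₀(M)` over `K₁`, inside `K₁((q))`. -/
abbrev keyFq₀ (K₁ : Type*) [Field K₁] [Algebra ℚ K₁] (M : ℕ) :
    IntermediateField K₁ (LaurentSeries K₁) :=
  laurentBaseChange K₁ (modularFunctionFieldFull M)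

theorem full_le_F₁_one : modularFunctionFieldFull M ≤ F₁ M 1 := by
  have h := full_le_F₁ M 1
  rwa [Nat.mul_one] at h

theorem laurentBaseChange_mono {F₀ F₀' : IntermediateField ℚ (LaurentSeries ℚ)} (h : F₀ ≤ F₀') :
    laurentBaseChange K F₀ ≤ laurentBaseChange K F₀' := by
  rw [laurentBaseChange, adjoin_le_iff]
  rintro _ ⟨x, hx, rfl⟩
  exact coeffEmb_mem_laurentBaseChange K (h hx)

theorem keyFq₀_le_keyFq : keyFq₀ K M ≤ keyFq K M :=
  laurentBaseChange_mono K (full_le_F₁_one M)

theorem jqModC_mem_keyFq : jqModC K ∈ keyFq K M := by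
  rw [keyFq, laurentBaseChange_F₁_eq_F₁C]
  exact jqModC_mem_F₁C K M 1

theorem phiGen_mem_keyFq {a : ZMod M} (ha : a ≠ 0) : phiGen K M a ∈ keyFq K M := by
  rw [keyFq, laurentBaseChange_F₁_eq_F₁C]
  exact phiGen_mem_F₁C K 1 ha

end BaseChange

/-! ### Gauss integrality -/

section Gauss

variable (R : Type*) [CommRing R] [IsDomain R] [IsDiscreteValuationRing R]
variable (L : Type*) [Field L] [Algebra R L] [IsFractionRing R L] (M Lv : ℕ)

theorem emb_phiGen (a : ZMod M) : emb R L (phiGen R M a) = phiGen L M a := coeffMap_phiGen M _ a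

theorem red_phiGen (a : ZMod M) :
    red R (phiGen R M a) = phiGen (IsLocalRing.ResidueField R) M a := coeffMap_phiGen M _ a

theorem qExpand_phiGen_mem_gaussInt (e : ℕ) [NeZero e] (a : ZMod M) :
    qExpand L e (phiGen L M a) ∈ gaussInt R L := by
  rw [← emb_phiGen R L, ← emb_qExpand]
  exact emb_mem_gaussInt R L _

theorem phiGen_mem_gaussInt (a : ZMod M) : phiGen L M a ∈ gaussInt R L := by
  rw [← emb_phiGen R L]
  exact emb_mem_gaussInt R L _

theorem gaussRed_qExpand_phiGen (e : ℕ) [NeZero e] (a : ZMod M) :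
    gaussRed R L ⟨qExpand L e (phiGen L M a), qExpand_phiGen_mem_gaussInt R L M e a⟩ =
      qExpand _ e (phiGen (IsLocalRing.ResidueField R) M a) := by
  have h : (⟨qExpand L e (phiGen L M a), qExpand_phiGen_mem_gaussInt R L M e a⟩ : gaussInt R L) =
      ⟨emb R L (qExpand R e (phiGen R M a)), emb_mem_gaussInt R L _⟩ := by
    apply Subtype.ext
    show qExpand L e (phiGen L M a) = emb R L (qExpand R e (phiGen R M a))
    rw [emb_qExpand, emb_phiGen]
  rw [h, gaussRed_emb, red_qExpand, red_phiGen]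

/-- the function field over `L` lies in `Frac (R((q)))`. -/
theorem F₁C_le_gaussField : F₁C L M Lv ≤ gaussField R L := by
  rw [F₁C, IntermediateField.adjoin_le_iff]
  rintro x (⟨d, hd, -, rfl⟩ | ⟨e, he, a, -, -, rfl⟩)
  · exact gaussInt_le_gaussField (qExpand_jqModC_mem_gaussInt R L d)
  · exact gaussInt_le_gaussField (qExpand_phiGen_mem_gaussInt R L M e a)

theorem laurentBaseChange_F₁_le_gaussField [Algebra ℚ L] :
    laurentBaseChange L (F₁ M Lv) ≤ gaussField R L := by
  rw [laurentBaseChange_F₁_eq_F₁C]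
  exact F₁C_le_gaussField R L M Lv

/-- the difference of two conjugates `φ_a - φ_{a'}` (`a ≠ ± a'`) and its inverse are
Gauss-integral. -/
theorem inv_phiGen_sub_mem_gaussInt [NeZero M] {a a' : ZMod M} (ha : a ≠ 0) (ha' : a' ≠ 0)
    (h1 : a ≠ a') (h2 : a ≠ -a') : (phiGen L M a - phiGen L M a')⁻¹ ∈ gaussInt R L := by
  obtain ⟨u, hu⟩ := isUnit_phiGen_sub R M ha ha' h1 h2
  have h3 : emb R L ((u⁻¹ : (LaurentSeries R)ˣ) : LaurentSeries R) =
      (phiGen L M a - phiGen L M a')⁻¹ := by
    have h4 : emb R L ((u⁻¹ : (LaurentSeries R)ˣ) : LaurentSeries R) *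
        (phiGen L M a - phiGen L M a') = 1 := by
      rw [← emb_phiGen R L, ← emb_phiGen R L, ← map_sub, ← hu, ← map_mul, Units.inv_mul, map_one]
    exact eq_inv_of_mul_eq_one_left h4
  rw [← h3]
  exact emb_mem_gaussInt R L _

end Gauss

end Fermat.Agent.W1
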