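/-
W1 — helper7 — [API] THE INTERFACE between the arithmetic ports and the level structure of
`Γ₁(M)`.

The import closure of `JA/O1_helper6_Final` + `JA/S37Asm_helper7_Final2` (the arithmetic half of
S37: reduction of places, Eichler–Shimura) uses the modular function field only through
≈ 35 field-specific lemmas (measured with `getUsedConstants`: `JA/RAM0_helper2_Shapes`,
`X0N/S24_helper7_Generic` (finiteness over `K(j)`), `JA/G1_helper5_{Bases,Modular,Unram,UnrHost}`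
in the consumer shapes `hFq/hmemW/hRES/hLIFT_baseRing` of `JA/O1_helper6_BaseInst`,
`JA/G1OMEGA_helper5_{PGI,Sat}`, `JA/CONST_helper6`, `JA/DEGK_helper8`).  This file states their
`Γ₁(M)`-analogues for the field `F₁ M 1` (`keyFq K M = K · F₁ M 1`, `F₁C k M 1` in
characteristic `ℓ`) as the fields of ONE `Prop`-valued class `W1Api M`, so that the ports can be
written (by anybody, in parallel) against `[W1Api M]`; the instance is produced later from the
analytic half (`[DEG1]`, ramification over the `j`-line) by the tower argument `F₀(M) ⊂ F₁(M)`.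

Everything that needs no hypothesis (`jGen`, `jBar`, `jTildeElt`, …) is defined outright, with the
ORIGINAL names inside `Fermat.Agent.W1`.
-/
import Mathlib
import Fermat.Agent.W1.BASE_helper7_Field
import Fermat.Agent.W1.A0_helper7_RedDefs
import Fermat.Agent.JA.GM_helper1_Main
import Fermat.Agent.JA.HOST_helper3_Main
import Fermat.Agent.JA.BASE_helper1_Res
import Fermat.Agent.JA.DEGK_helper8
import Fermat.Agent.FF.Coord

set_option autoImplicit false
set_option linter.unusedSectionVars false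
set_option linter.style.haveILetI false

open HahnSeries IntermediateField AlgebraicCurve ModularCurve Polynomial Fermat.Agent.Igusa
  Fermat.Agent.JA

namespace Fermat.Agent.W1

open scoped Fermat.Agent.JA.Host

/-- `Ω = AlgebraicClosure ℚ`. -/
local notation "Ω" => AlgebraicClosure ℚ

noncomputable section

/-! ### the coordinate `j` -/

section J

variable (k : Type*) [Field k] [Algebra ℚ k] (M : ℕ)

/-- `j` as an element of the function field of `X₁(M)` over `k`. -/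
def jGen : ↥(keyFq k M) :=
  ⟨coeffEmb k jq, coeffEmb_mem_laurentBaseChange k (jq_mem_F₁ M 1)⟩

@[simp] theorem coe_jGen : ((jGen k M : ↥(keyFq k M)) : LaurentSeries k) = coeffEmb k jq := rfl

theorem coe_jGen' : ((jGen k M : ↥(keyFq k M)) : LaurentSeries k) = jqModC k := by
  rw [coe_jGen, coeffEmb, ← jqModC_rat, coeffMap_jqModC]

theorem transcendental_jGen : Transcendental k (jGen k M) := by
  have h := Fermat.Agent.X0N.transcendental_coeffEmb_jq k
  exact (transcendental_algebraMap_iff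
    (algebraMap ↥(keyFq k M) (LaurentSeries k)).injective).mp h

/-- The function `j` as an element of the function field of `X₁(M)` over `ℚ̄`. -/
def jBar : ↥(F₁Bar M 1) :=
  ⟨coeffEmb Ω jq, coeffEmb_mem_laurentBaseChange _ (jq_mem_F₁ M 1)⟩

@[simp] theorem coe_jBar : ((jBar M : ↥(F₁Bar M 1)) : LaurentSeries Ω) = coeffEmb Ω jq := rfl

theorem transcendental_jBar : Transcendental Ω (jBar M) := by
  have h := Fermat.Agent.X0N.transcendental_coeffEmb_jq Ω
  rw [← coe_jBar M] at h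
  exact (transcendental_algebraMap_iff
    (algebraMap ↥(F₁Bar M 1) (LaurentSeries Ω)).injective).mp h

end J

section JTilde

variable (k : Type*) [Field k] (M : ℕ)

/-- `j̃ = j(q)` as an element of the function field `F̃₁ = F₁C k M 1` -/
def jTildeElt : ↥(F₁C k M 1) := ⟨jqModC k, jqModC_mem_F₁C k M 1⟩

@[simp] theorem coe_jTildeElt :
    ((jTildeElt k M : ↥(F₁C k M 1)) : LaurentSeries k) = jqModC k := rfl

theorem transcendental_jTildeElt : Transcendental k (jTildeElt k M) := by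
  intro h
  apply Fermat.Agent.Igusa.transcendental_jqModC k
  have := (isAlgebraic_algHom_iff (IntermediateField.val (F₁C k M 1))
    Subtype.val_injective (a := jTildeElt k M)).2 h
  exact this

/-- **(CONST̃) for the function field of `X₁(M)` mod `ℓ`** (any subfield of `k((q))` has this
property; the two hypotheses are kept for the shape of the original). -/
theorem const_of_ord_eq_zero [IsAlgClosed k]
    (hsep : Algebra.IsSeparable k⟮jTildeElt k M⟯ ↥(F₁C k M 1))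
    (hfin : FiniteDimensional k⟮jTildeElt k M⟯ ↥(F₁C k M 1))
    (x : ↥(F₁C k M 1)) (hx : x ≠ 0)
    (h : ∀ Q : AlgebraicCurve.Place k ↥(F₁C k M 1), Q.ord x = 0) :
    ∃ c : k, x = algebraMap k ↥(F₁C k M 1) c :=
  const_of_forall_ord_eq_zero (jTildeElt k M) (transcendental_jTildeElt k M) x hx h

end JTilde

/-! ### the interface class -/

/-- **the interface**: the facts on the function field of `X₁(M)` used by the arithmetic half. -/
class W1Api (M : ℕ) : Prop where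
  /-- `K · F₁(M)` is finite over `K(j)`. -/
  finite_keyFq : ∀ (K : Type) [Field K] [Algebra ℚ K], Module.Finite ↥K⟮jGen K M⟯ ↥(keyFq K M)
  /-- (RAM0.i) unramified over `j ≠ 0, 1728, ∞`. -/
  ram0_generic' : ∀ {L : Type} [Field L] [Algebra ℚ L] [Algebra L ℂ], (∃ z : L, IsPrimitiveRoot z M) →
    ∀ (P : Place L ↥(keyFq L M)) (p : L[X]), Irreducible p → p.Monic → p ≠ X → p ≠ X - Polynomial.C 1728 →
      0 < P.ord (aeval (jGen L M) p) → P.ord (aeval (jGen L M) p) = 1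
  /-- (RAM0.ii) `e ∣ 3` over `j = 0`. -/
  ram0_zero_dvd : ∀ {L : Type} [Field L] [Algebra ℚ L] [Algebra L ℂ], (∃ z : L, IsPrimitiveRoot z M) →
    ∀ (P : Place L ↥(keyFq L M)), 0 < P.ord (jGen L M) → P.ord (jGen L M) ∣ 3
  /-- (RAM0.iii) `e ∣ 2` over `j = 1728`. -/
  ram0_1728_dvd : ∀ {L : Type} [Field L] [Algebra ℚ L] [Algebra L ℂ], (∃ z : L, IsPrimitiveRoot z M) →
    ∀ (P : Place L ↥(keyFq L M)), 0 < P.ord (jGen L M - 1728) → P.ord (jGen L M - 1728) ∣ 2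
  /-- (RAM0.iv) `e ∣ M` over `j = ∞`. -/
  ram0_infty_neg : ∀ {L : Type} [Field L] [Algebra ℚ L] [Algebra L ℂ], (∃ z : L, IsPrimitiveRoot z M) →
    ∀ (P : Place L ↥(keyFq L M)), P.ord (jGen L M) < 0 → (-P.ord (jGen L M)) ∣ (M : ℤ)
  /-- `(hmemW)` at a base: the Gauss valuation ring is contained in every valuation ring of
  `F₁ ⊗ K₁` which induces the Gauss valuation on `K₁(j)`. -/
  hmemW_baseRing : ∀ {ℓ : ℕ} [Fact ℓ.Prime] {A : ValuationSubring Ω}, A.LiesOverPrime ℓ →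
    ¬ ℓ ∣ M → ∀ {K₁ : IntermediateField ℚ Ω}, IsBase ℓ K₁ →
    ∀ [IsDiscreteValuationRing ↥(baseRing A K₁)] (W : ValuationSubring ↥(keyFq ↥K₁ M)),
      (∀ c : ↥(keyFq ↥K₁ M), (c : LaurentSeries ↥K₁) ∈
          (↥K₁)⟮emb ↥(baseRing A K₁) ↥K₁ (jqModC ↥(baseRing A K₁))⟯ →
        (c ∈ W ↔ (c : LaurentSeries ↥K₁) ∈ gaussInt ↥(baseRing A K₁) ↥K₁)) →
      ∀ z : ↥(keyFq ↥K₁ M), (z : LaurentSeries ↥K₁) ∈ gaussInt ↥(baseRing A K₁) ↥K₁ → z ∈ W
  /-- `(hRES)` at a base: reductions of Gauss-integral elements lie in `F̃₁`. -/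
  hRES_baseRing : ∀ {ℓ : ℕ} [Fact ℓ.Prime] {A : ValuationSubring Ω}, A.LiesOverPrime ℓ →
    ¬ ℓ ∣ M → ∀ {K₁ : IntermediateField ℚ Ω}, IsBase ℓ K₁ →
    ∀ [IsDiscreteValuationRing ↥(baseRing A K₁)] (z : LaurentSeries ↥K₁) (_ : z ∈ keyFq ↥K₁ M)
      (hzi : z ∈ gaussInt ↥(baseRing A K₁) ↥K₁),
      coeffMap (baseResidueMap A K₁) (gaussRed ↥(baseRing A K₁) ↥K₁ ⟨z, hzi⟩) ∈
        F₁C (IsLocalRing.ResidueField ↥A) M 1
  /-- `(hLIFT)` at a base: every element of `F̃₁` is the reduction of a Gauss-integral element. -/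
  hLIFT_baseRing : ∀ {ℓ : ℕ} [Fact ℓ.Prime] {A : ValuationSubring Ω}, A.LiesOverPrime ℓ →
    ¬ ℓ ∣ M → ∀ {K₁ : IntermediateField ℚ Ω}, IsBase ℓ K₁ →
    ∀ [IsDiscreteValuationRing ↥(baseRing A K₁)],
      ∀ a ∈ F₁C (IsLocalRing.ResidueField ↥A) M 1,
      ∃ (z : LaurentSeries ↥K₁) (hzi : z ∈ gaussInt ↥(baseRing A K₁) ↥K₁), z ∈ keyFq ↥K₁ M ∧
        coeffMap (baseResidueMap A K₁) (gaussRed ↥(baseRing A K₁) ↥K₁ ⟨z, hzi⟩) = a
  /-- (PGI) at a base: every nonzero function is `ϖ^m y₁ / y₂` with `y₁, y₂` integral with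
  nonzero reduction. -/
  exists_pgi_baseRing : ∀ {ℓ : ℕ} [Fact ℓ.Prime] {A : ValuationSubring Ω}, A.LiesOverPrime ℓ →
    ¬ ℓ ∣ M → ∀ {K₁ : IntermediateField ℚ Ω}, IsBase ℓ K₁ →
    ∀ [IsDiscreteValuationRing ↥(baseRing A K₁)] {ϖ : ↥(baseRing A K₁)}, Irreducible ϖ →
    ∀ {f : LaurentSeries ↥K₁}, f ∈ keyFq ↥K₁ M → f ≠ 0 →
    ∃ (m : ℤ) (y₁ y₂ : LaurentSeries ↥(baseRing A K₁)),
      emb ↥(baseRing A K₁) ↥K₁ y₁ ∈ keyFq ↥K₁ M ∧ emb ↥(baseRing A K₁) ↥K₁ y₂ ∈ keyFq ↥K₁ M ∧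
      red ↥(baseRing A K₁) y₁ ≠ 0 ∧ red ↥(baseRing A K₁) y₂ ≠ 0 ∧
      f = HahnSeries.C (algebraMap ↥(baseRing A K₁) ↥K₁ ϖ) ^ m *
        emb ↥(baseRing A K₁) ↥K₁ y₁ / emb ↥(baseRing A K₁) ↥K₁ y₂
  /-- (R-b) in the host at a base: the Gauss place of `K₁(j(x^w))` is unramified in the image of
  `F₁ ⊗ K₁` in `K₁((x))`, `q = x^w`. -/
  unr_hostImage_baseRing_of_isGaussAt : ∀ {ℓ : ℕ} [Fact ℓ.Prime] {A : ValuationSubring Ω},
    A.LiesOverPrime ℓ → ¬ ℓ ∣ M → ∀ (w : ℕ) [NeZero w] {K₁ : IntermediateField ℚ Ω}, IsBase ℓ K₁ →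
    ∀ [IsDiscreteValuationRing ↥(baseRing A K₁)]
      [Fact ((↥K₁)⟮jqNModC ↥K₁ w⟯ ≤ hostImage ↥K₁ w (keyFq ↥K₁ M))]
      {π : ↥(baseRing A K₁)}, Irreducible π →
      ∀ 𝒢 : ValuationSubring ↥((↥K₁)⟮jqNModC ↥K₁ w⟯),
        IsGaussAt ↥(baseRing A K₁) π (AdjoinSimple.gen ↥K₁ (jqNModC ↥K₁ w)) 𝒢 →
        Unr 𝒢 ↥(hostImage ↥K₁ w (keyFq ↥K₁ M))
  /-- `F̃₁ / k(j̃)` is finite, `k` the residue field of `A ∣ ℓ`. -/
  finiteDimensional_F₁C_residueField : ∀ {ℓ : ℕ} [Fact ℓ.Prime] {A : ValuationSubring Ω},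
    A.LiesOverPrime ℓ → ¬ ℓ ∣ M →
    FiniteDimensional
      ↥(IsLocalRing.ResidueField ↥A)⟮jTildeElt (IsLocalRing.ResidueField ↥A) M⟯
      ↥(F₁C (IsLocalRing.ResidueField ↥A) M 1)
  /-- `F̃₁ / k(j̃)` is separable. -/
  isSeparable_F₁C_residueField : ∀ {ℓ : ℕ} [Fact ℓ.Prime] {A : ValuationSubring Ω},
    A.LiesOverPrime ℓ → ¬ ℓ ∣ M →
    Algebra.IsSeparable
      ↥(IsLocalRing.ResidueField ↥A)⟮jTildeElt (IsLocalRing.ResidueField ↥A) M⟯
      ↥(F₁C (IsLocalRing.ResidueField ↥A) M 1)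

end

end Fermat.Agent.W1
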