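/-
W1 — helper7 — [API] the consumer lemmas, with the ORIGINAL names of the `Γ₀(N)`-versions
(`X0N/S24_helper7_{Generic,Wiring}`, `JA/RAM0_helper2_Shapes`, `JA/O1_helper6_BaseInst`,
`JA/G1_helper5_{Bases,Unram}`, `JA/DEGK_helper8`), for the field `F₁ M 1`, from `[W1Api M]`.
-/
import Mathlib
import Fermat.Agent.W1.API_helper7_Class
import Fermat.Agent.FF.Principal

set_option autoImplicit false
set_option linter.unusedSectionVars false
set_option linter.style.haveILetI false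

open HahnSeries IntermediateField AlgebraicCurve ModularCurve Polynomial Fermat.Agent.Igusa
  Fermat.Agent.JA Fermat.Agent.FF

namespace Fermat.Agent.W1

open scoped Fermat.Agent.JA.Host

/-- `Ω = AlgebraicClosure ℚ`. -/
local notation "Ω" => AlgebraicClosure ℚ

noncomputable section

/-! ### characteristic zero: the `j`-coordinate and the ramification over the `j`-line -/

section Coord

variable (k : Type) [Field k] [Algebra ℚ k] (M : ℕ) [W1Api M]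

/-- `K · F₁(M)` is finite over `K(j)`. -/
theorem finite_keyFq : Module.Finite ↥k⟮jGen k M⟯ ↥(keyFq k M) := W1Api.finite_keyFq k

/-- The `j`-coordinate on the function field of `X₁(M)` over `k`. -/
def jCoordK : Coord k ↥(keyFq k M) where
  x := jGen k M
  trans := transcendental_jGen k M
  fin := finite_keyFq k M

@[simp] theorem jCoordK_x : (jCoordK k M).x = jGen k M := rfl

/-- the function field of `X₁(M)` over `k` has principal divisors. -/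
theorem hasPrincipalDivisors_keyFq : HasPrincipalDivisors k ↥(keyFq k M) :=
  haveI : CharZero k := algebraRat.charZero k
  (jCoordK k M).hasPrincipalDivisors

end Coord

section CoordBar

variable (M : ℕ) [W1Api M]

theorem finite_F₁Bar : Module.Finite ↥Ω⟮jBar M⟯ ↥(F₁Bar M 1) := W1Api.finite_keyFq Ω

/-- The `j`-coordinate on the function field of `X₁(M)` over `ℚ̄`. -/
def jCoordBar : Coord Ω ↥(F₁Bar M 1) where
  x := jBar M
  trans := transcendental_jBar M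
  fin := finite_F₁Bar M

@[simp] theorem jCoordBar_x : (jCoordBar M).x = jBar M := rfl

theorem hasPrincipalDivisors_F₁Bar : HasPrincipalDivisors Ω ↥(F₁Bar M 1) :=
  (jCoordBar M).hasPrincipalDivisors

end CoordBar

section Shapes

variable {L : Type} [Field L] [Algebra ℚ L] [Algebra L ℂ] {M : ℕ} [W1Api M]
variable (hM : ∃ z : L, IsPrimitiveRoot z M)

include hM

/-- (i): monic irreducible `p ≠ X, X - 1728`. -/
theorem ram0_generic' (P : Place L ↥(keyFq L M))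
    (p : L[X]) (hp : Irreducible p) (hm : p.Monic) (h0 : p ≠ X) (h1 : p ≠ X - Polynomial.C 1728)
    (hP : 0 < P.ord (aeval (jGen L M) p)) : P.ord (aeval (jGen L M) p) = 1 :=
  W1Api.ram0_generic' hM P p hp hm h0 h1 hP

/-- (ii). -/
theorem ram0_zero_dvd (P : Place L ↥(keyFq L M))
    (hP : 0 < P.ord (jGen L M)) : P.ord (jGen L M) ∣ 3 :=
  W1Api.ram0_zero_dvd hM P hP

/-- (iii). -/
theorem ram0_1728_dvd (P : Place L ↥(keyFq L M))
    (hP : 0 < P.ord (jGen L M - 1728)) : P.ord (jGen L M - 1728) ∣ 2 :=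
  W1Api.ram0_1728_dvd hM P hP

/-- (iv). -/
theorem ram0_infty_neg (P : Place L ↥(keyFq L M))
    (hP : P.ord (jGen L M) < 0) : (-P.ord (jGen L M)) ∣ (M : ℤ) :=
  W1Api.ram0_infty_neg hM P hP

end Shapes

/-! ### the Gauss valuation at a base -/

section Base

variable {ℓ : ℕ} [Fact ℓ.Prime] {A : ValuationSubring Ω} (hA : A.LiesOverPrime ℓ)
  (M : ℕ) [W1Api M] {K₁ : IntermediateField ℚ Ω}

/-- `(hFq)` at a base. -/
theorem hFq_baseRing [IsDiscreteValuationRing ↥(baseRing A K₁)] :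
    keyFq ↥K₁ M ≤ gaussField ↥(baseRing A K₁) ↥K₁ :=
  laurentBaseChange_F₁_le_gaussField ↥(baseRing A K₁) ↥K₁ M 1

include hA in
/-- `(hmemW)` at a base. -/
theorem hmemW_baseRing (hℓM : ¬ ℓ ∣ M) (hK₁ : IsBase ℓ K₁)
    [IsDiscreteValuationRing ↥(baseRing A K₁)] :
    ∀ W : ValuationSubring ↥(keyFq ↥K₁ M),
      (∀ c : ↥(keyFq ↥K₁ M), (c : LaurentSeries ↥K₁) ∈
          (↥K₁)⟮emb ↥(baseRing A K₁) ↥K₁ (jqModC ↥(baseRing A K₁))⟯ →
        (c ∈ W ↔ (c : LaurentSeries ↥K₁) ∈ gaussInt ↥(baseRing A K₁) ↥K₁)) →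
      ∀ z : ↥(keyFq ↥K₁ M), (z : LaurentSeries ↥K₁) ∈ gaussInt ↥(baseRing A K₁) ↥K₁ → z ∈ W :=
  fun W hW z hz => W1Api.hmemW_baseRing hA hℓM hK₁ W hW z hz

include hA in
/-- `(hRES)` at a base. -/
theorem hRES_baseRing (hℓM : ¬ ℓ ∣ M) (hK₁ : IsBase ℓ K₁)
    [IsDiscreteValuationRing ↥(baseRing A K₁)] :
    ∀ (z : LaurentSeries ↥K₁) (_ : z ∈ keyFq ↥K₁ M)
      (hzi : z ∈ gaussInt ↥(baseRing A K₁) ↥K₁),
      coeffMap (baseResidueMap A K₁) (gaussRed ↥(baseRing A K₁) ↥K₁ ⟨z, hzi⟩) ∈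
        F₁C (IsLocalRing.ResidueField ↥A) M 1 :=
  fun z hz hzi => W1Api.hRES_baseRing hA hℓM hK₁ z hz hzi

include hA in
/-- `(hLIFT)` at a base. -/
theorem hLIFT_baseRing (hℓM : ¬ ℓ ∣ M) (hK₁ : IsBase ℓ K₁)
    [IsDiscreteValuationRing ↥(baseRing A K₁)] :
    ∀ a ∈ F₁C (IsLocalRing.ResidueField ↥A) M 1,
      ∃ (z : LaurentSeries ↥K₁) (hzi : z ∈ gaussInt ↥(baseRing A K₁) ↥K₁), z ∈ keyFq ↥K₁ M ∧
        coeffMap (baseResidueMap A K₁) (gaussRed ↥(baseRing A K₁) ↥K₁ ⟨z, hzi⟩) = a :=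
  fun a ha => W1Api.hLIFT_baseRing hA hℓM hK₁ a ha

include hA in
/-- (PGI) at a base. -/
theorem exists_pgi_baseRing (hℓM : ¬ ℓ ∣ M) (hK₁ : IsBase ℓ K₁)
    [IsDiscreteValuationRing ↥(baseRing A K₁)] {ϖ : ↥(baseRing A K₁)} (hϖ : Irreducible ϖ)
    {f : LaurentSeries ↥K₁} (hf : f ∈ keyFq ↥K₁ M) (hf0 : f ≠ 0) :
    ∃ (m : ℤ) (y₁ y₂ : LaurentSeries ↥(baseRing A K₁)),
      emb ↥(baseRing A K₁) ↥K₁ y₁ ∈ keyFq ↥K₁ M ∧ emb ↥(baseRing A K₁) ↥K₁ y₂ ∈ keyFq ↥K₁ M ∧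
      red ↥(baseRing A K₁) y₁ ≠ 0 ∧ red ↥(baseRing A K₁) y₂ ≠ 0 ∧
      f = HahnSeries.C (algebraMap ↥(baseRing A K₁) ↥K₁ ϖ) ^ m *
        emb ↥(baseRing A K₁) ↥K₁ y₁ / emb ↥(baseRing A K₁) ↥K₁ y₂ :=
  W1Api.exists_pgi_baseRing hA hℓM hK₁ hϖ hf hf0

include hA in
/-- **(R-b) in the host at a base** `R₁ = A ∩ K₁`. -/
theorem unr_hostImage_baseRing_of_isGaussAt (hℓM : ¬ ℓ ∣ M) (w : ℕ) [NeZero w]
    (hK₁ : IsBase ℓ K₁) [IsDiscreteValuationRing ↥(baseRing A K₁)]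
    [Fact ((↥K₁)⟮jqNModC ↥K₁ w⟯ ≤ hostImage ↥K₁ w (keyFq ↥K₁ M))]
    {π : ↥(baseRing A K₁)} (hπ : Irreducible π)
    (𝒢 : ValuationSubring ↥((↥K₁)⟮jqNModC ↥K₁ w⟯))
    (h𝒢 : IsGaussAt ↥(baseRing A K₁) π (AdjoinSimple.gen ↥K₁ (jqNModC ↥K₁ w)) 𝒢) :
    Unr 𝒢 ↥(hostImage ↥K₁ w (keyFq ↥K₁ M)) :=
  W1Api.unr_hostImage_baseRing_of_isGaussAt hA hℓM w hK₁ hπ 𝒢 h𝒢

end Base

/-! ### the residue field level -/

section Residue

variable {ℓ : ℕ} [Fact ℓ.Prime] {A : ValuationSubring Ω} (hA : A.LiesOverPrime ℓ)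
  (M : ℕ) [W1Api M]

include hA in
theorem finiteDimensional_fullC_residueField (hℓM : ¬ ℓ ∣ M) :
    FiniteDimensional
      ↥(IsLocalRing.ResidueField ↥A)⟮jTildeElt (IsLocalRing.ResidueField ↥A) M⟯
      ↥(F₁C (IsLocalRing.ResidueField ↥A) M 1) :=
  W1Api.finiteDimensional_F₁C_residueField hA hℓM

include hA in
theorem isSeparable_fullC_residueField (hℓM : ¬ ℓ ∣ M) :
    Algebra.IsSeparable
      ↥(IsLocalRing.ResidueField ↥A)⟮jTildeElt (IsLocalRing.ResidueField ↥A) M⟯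
      ↥(F₁C (IsLocalRing.ResidueField ↥A) M 1) :=
  W1Api.isSeparable_F₁C_residueField hA hℓM

include hA in
/-- **(e) hdegk**: every place of `F̃₁` over the (algebraically closed) residue field `k` of a
valuation ring `A ∣ ℓ` of `ℚ̄` has degree one. -/
theorem deg_eq_one_fullC_residue (hℓM : ¬ ℓ ∣ M)
    (Q : AlgebraicCurve.Place (IsLocalRing.ResidueField ↥A)
      ↥(F₁C (IsLocalRing.ResidueField ↥A) M 1)) :
    Q.deg = 1 := by
  haveI := isAlgClosed_residueField A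
  haveI := finiteDimensional_fullC_residueField hA M hℓM
  exact degk_deg_eq_one (jTildeElt (IsLocalRing.ResidueField ↥A) M)
    (Algebra.IsAlgebraic.of_finite _ _) Q

end Residue

/-! ### original names of the `G1`-lemmas (same argument shapes as for `X₀(N)`) -/

section OriginalNames

/-- original name of `laurentBaseChange_F₁_le_gaussField`. -/
theorem laurentBaseChange_full_le_gaussField (R : Type*) [CommRing R] [IsDomain R]
    [IsDiscreteValuationRing R] (L : Type*) [Field L] [Algebra R L] [IsFractionRing R L]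
    [Algebra ℚ L] (M : ℕ) : laurentBaseChange L (F₁ M 1) ≤ gaussField R L :=
  laurentBaseChange_F₁_le_gaussField R L M 1

/-- original name of `laurentBaseChange_F₁_eq_F₁C`. -/
theorem laurentBaseChange_full_eq_fullC (K : Type*) [Field K] [Algebra ℚ K] (M : ℕ) :
    laurentBaseChange K (F₁ M 1) = F₁C K M 1 :=
  laurentBaseChange_F₁_eq_F₁C K M 1

variable {ℓ : ℕ} [Fact ℓ.Prime] {A : ValuationSubring Ω} (hA : A.LiesOverPrime ℓ)
  (M : ℕ) [W1Api M] {K₁ : IntermediateField ℚ Ω}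

include hA in
/-- original name of `hmemW_baseRing` (with `IsBase ℓ K₁` instead of `flatBase ℓ ≤ K₁`). -/
theorem mem_of_mem_gaussInt_baseRing (hℓM : ¬ ℓ ∣ M) (hK₁ : IsBase ℓ K₁)
    [IsDiscreteValuationRing ↥(baseRing A K₁)]
    (W : ValuationSubring ↥(laurentBaseChange ↥K₁ (F₁ M 1)))
    (hW : ∀ c : ↥(laurentBaseChange ↥K₁ (F₁ M 1)), (c : LaurentSeries ↥K₁) ∈
        (↥K₁)⟮emb ↥(baseRing A K₁) ↥K₁ (jqModC ↥(baseRing A K₁))⟯ →
      (c ∈ W ↔ (c : LaurentSeries ↥K₁) ∈ gaussInt ↥(baseRing A K₁) ↥K₁))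
    (z : ↥(laurentBaseChange ↥K₁ (F₁ M 1)))
    (hz : (z : LaurentSeries ↥K₁) ∈ gaussInt ↥(baseRing A K₁) ↥K₁) : z ∈ W :=
  hmemW_baseRing hA M hℓM hK₁ W hW z hz

end OriginalNames

end

end Fermat.Agent.W1
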