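/-
W1 — helper7 — PORT of `JA/GEOBASE_helper8_Compat` to the field `F₁ M 1` of `X₁(M)` (against `[W1Api M]`);
only the field-specific declarations are restated, the generic ones are imported from the original.
Original header:
-/
/-
J-A — helper8 — (GEOBASE) part 4: compatibility of the host tower fields with coefficient
extension: for a field homomorphism `φ : K → L` the coefficientwise map `coeffMap φ` sends
`F_w(K)`, `K(t)`, `E(K)` into `F_w(L)`, `L(t)`, `E(L)`.
-/
import Mathlib
import Fermat.Agent.W1.GEOBASE_helper7_Base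
import Fermat.Agent.JA.GEOBASE_helper8_Base
import Fermat.Agent.JA.G1OMEGA_helper5_Desc
import Fermat.Prelude.Thm_ModularCurve_coeffMap_qExpand
import Fermat.Agent.W1.API_helper7_Lemmas
import Fermat.Agent.JA.GEOBASE_helper8_Compat

set_option autoImplicit false
set_option linter.unusedSectionVars false
set_option linter.style.haveILetI false
set_option synthInstance.maxHeartbeats 200000

open HahnSeries IntermediateField AlgebraicCurve ModularCurve Fermat.Agent.Igusa Polynomial

open Fermat.Agent.JA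

namespace Fermat.Agent.W1

section Comap

variable {K L : Type*} [Field K] [Field L]

end Comap

section Tower

open scoped Fermat.Agent.JA.Host

variable {K L : Type*} [Field K] [Field L] [Algebra ℚ K] [Algebra ℚ L] (φ : K →+* L)
  (M : ℕ) [NeZero M] [W1Api M]

/-- `coeffMap φ` maps `F_w(K)` into `F_w(L)`. -/
theorem coeffMap_mem_keyFw (w : ℕ) [NeZero w] {x : LaurentSeries K} (hx : x ∈ keyFw K M w) :
    coeffMap φ x ∈ keyFw L M w := by
  obtain ⟨y, hy, rfl⟩ := mem_hostImage_iff.mp hx
  rw [coeffMap_qExpand]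
  exact mem_hostImage_iff.mpr ⟨_, coeffMap_hom_mem_laurentBaseChange φ _ hy, rfl⟩

theorem keyFw_le_comapCoeff (w : ℕ) [NeZero w] : keyFw K M w ≤ comapCoeff φ (keyFw L M w) :=
  fun _ hx => coeffMap_mem_keyFw φ M w hx

/-- `coeffMap φ` maps the Legendre tower field `E(K)` into `E(L)`. -/
theorem coeffMap_mem_legE {x : LaurentSeries K} (hx : x ∈ legE K M) :
    coeffMap φ x ∈ legE L M := by
  have h : legE K M ≤ comapCoeff φ (legE L M) := by
    refine sup_le ?_ (sup_le ?_ ?_)
    · rw [adjoin_simple_le_iff, mem_comapCoeff, coeffMap_legT]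
      exact Host.mem_Etu_t _ _ _
    · exact (keyFw_le_comapCoeff φ M 2).trans fun y hy =>
        (le_sup_right : Host.Fu (keyFw L M 2) 1 ≤ legE L M)
          ((le_sup_left : keyFw L M 2 ≤ Host.Fu (keyFw L M 2) 1) hy)
    · rw [adjoin_simple_le_iff]
      exact one_mem _
  exact h hx

/-- `coeffMap φ` maps the Hesse tower field `E(K)` into `E(L)`. -/
theorem coeffMap_mem_hesE {x : LaurentSeries K} (hx : x ∈ hesE K M) :
    coeffMap φ x ∈ hesE L M := by
  have h : hesE K M ≤ comapCoeff φ (hesE L M) := by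
    refine sup_le ?_ (sup_le ?_ ?_)
    · rw [adjoin_simple_le_iff, mem_comapCoeff, coeffMap_hesT]
      exact Host.mem_Etu_t _ _ _
    · exact (keyFw_le_comapCoeff φ M 3).trans fun y hy =>
        (le_sup_right : Host.Fu (keyFw L M 3) 1 ≤ hesE L M)
          ((le_sup_left : keyFw L M 3 ≤ Host.Fu (keyFw L M 3) 1) hy)
    · rw [adjoin_simple_le_iff]
      exact one_mem _
  exact h hx

/-- `E = K(t) · F_w`: the auxiliary generator `u = 1` is harmless. -/
theorem legE_eq_sup : legE K M = K⟮legT K⟯ ⊔ keyFw K M 2 := by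
  have h : Host.Fu (keyFw K M 2) 1 = keyFw K M 2 := by
    refine le_antisymm (sup_le le_rfl ?_) le_sup_left
    rw [adjoin_simple_le_iff]
    exact one_mem _
  show K⟮legT K⟯ ⊔ Host.Fu (keyFw K M 2) 1 = _
  rw [h]

theorem hesE_eq_sup : hesE K M = K⟮hesT K⟯ ⊔ keyFw K M 3 := by
  have h : Host.Fu (keyFw K M 3) 1 = keyFw K M 3 := by
    refine le_antisymm (sup_le le_rfl ?_) le_sup_left
    rw [adjoin_simple_le_iff]
    exact one_mem _
  show K⟮hesT K⟯ ⊔ Host.Fu (keyFw K M 3) 1 = _
  rw [h]

end Tower

end Fermat.Agent.W1
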