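/-
W1 = [GRΓ1] (S48), package [HECKEF] (helper4), part 1: **the degeneracy maps `α`, `β`** between
the function fields of level `Gpm M Lv` and `Gpm M (Lv ℓ)` over any field `L ⊇ ℚ`
(port of the Prelude's `heckeAlphaBar`, `heckeBetaBar` and of the Galois part of
`GR/TSWAP_helper4_Main`).
-/
import Mathlib
import Fermat.Agent.W1.BASE_helper7_Field
import Fermat.Agent.GR.TSWAP_helper4_Transport
import Fermat.Prelude.Thm_ModularCurve_coeffMap_qExpand

set_option autoImplicit false
set_option linter.unusedSectionVars false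

open AlgebraicCurve HahnSeries IntermediateField

namespace Fermat.Agent.W1

open ModularCurve Fermat.Agent.GR

section Supply

variable {L : Type*} [Field L] [Algebra ℚ L]

theorem qExpand_mem_laurentBaseChange {F₀ : IntermediateField ℚ (LaurentSeries ℚ)} (n : ℕ)
    [NeZero n] {F₀' : IntermediateField ℚ (LaurentSeries ℚ)}
    (hF : ∀ y ∈ F₀, qExpand ℚ n y ∈ F₀')
    {x : LaurentSeries L} (hx : x ∈ laurentBaseChange L F₀) :
    qExpand L n x ∈ laurentBaseChange L F₀' := by
  rw [mem_laurentBaseChange_iff] at hx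
  induction hx using Subfield.closure_induction with
  | mem y hy =>
      rcases hy with ⟨a, rfl⟩ | ⟨z, hz, rfl⟩
      · rw [algebraMap_laurentSeries_eq_single, qExpand_single, mul_zero,
          ← algebraMap_laurentSeries_eq_single]
        exact (laurentBaseChange L F₀').algebraMap_mem _
      · have e : coeffEmb L (qExpand ℚ n z) = qExpand L n (coeffEmb L z) :=
          coeffMap_qExpand _ n z
        rw [← e]
        exact coeffEmb_mem_laurentBaseChange L (hF z hz)
  | one => simp
  | add x y _ _ hx hy => simpa using add_mem hx hy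
  | neg x _ hx => simpa using neg_mem hx
  | inv x _ hx => simpa using inv_mem hx
  | mul x y _ _ hx hy => simpa using mul_mem hx hy

end Supply

variable (L : Type*) [Field L] [Algebra ℚ L]
variable (M Lv ℓ : ℕ) [NeZero ℓ]

section DegeneracyMapsBar

/-- the degeneracy map `α` (inclusion). -/
noncomputable def heckeAlphaBar :
    ↥(laurentBaseChange L (F₁ M Lv)) →ₐ[L] ↥(laurentBaseChange L (F₁ M (Lv * ℓ))) :=
  IntermediateField.inclusion
    (laurentBaseChange_mono L (F₁_degeneracy_le (dvd_mul_right Lv ℓ)))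

@[simp]
theorem coe_heckeAlphaBar (x : ↥(laurentBaseChange L (F₁ M Lv))) :
    (heckeAlphaBar L M Lv ℓ x : LaurentSeries L) = (x : LaurentSeries L) :=
  IntermediateField.coe_inclusion _ x

/-- the degeneracy map `β` (`q ↦ q^ℓ`), as a ring homomorphism. -/
noncomputable def heckeBetaBarRingHom :
    ↥(laurentBaseChange L (F₁ M Lv)) →+* ↥(laurentBaseChange L (F₁ M (Lv * ℓ))) where
  toFun x := ⟨qExpand L ℓ (x : LaurentSeries L),
    qExpand_mem_laurentBaseChange ℓ
      (fun y hy => F₁_degeneracy_map_le M Lv ℓ ⟨y, hy, rfl⟩) x.2⟩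
  map_one' := Subtype.ext (map_one (qExpand L ℓ))
  map_mul' _ _ := Subtype.ext (map_mul (qExpand L ℓ) _ _)
  map_zero' := Subtype.ext (map_zero (qExpand L ℓ))
  map_add' _ _ := Subtype.ext (map_add (qExpand L ℓ) _ _)

@[simp]
theorem coe_heckeBetaBarRingHom (x : ↥(laurentBaseChange L (F₁ M Lv))) :
    (heckeBetaBarRingHom L M Lv ℓ x : LaurentSeries L) = qExpand L ℓ (x : LaurentSeries L) :=
  rfl

/-- the degeneracy map `β` (`q ↦ q^ℓ`). -/
noncomputable def heckeBetaBar :
    ↥(laurentBaseChange L (F₁ M Lv)) →ₐ[L] ↥(laurentBaseChange L (F₁ M (Lv * ℓ))) :=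
  { heckeBetaBarRingHom L M Lv ℓ with
    commutes' := fun a => Subtype.ext <| by
      show qExpand L ℓ (algebraMap L (LaurentSeries L) a) = algebraMap L (LaurentSeries L) a
      rw [algebraMap_laurentSeries_eq_single, qExpand_single, mul_zero] }

@[simp]
theorem coe_heckeBetaBar (x : ↥(laurentBaseChange L (F₁ M Lv))) :
    (heckeBetaBar L M Lv ℓ x : LaurentSeries L) = qExpand L ℓ (x : LaurentSeries L) :=
  rfl

end DegeneracyMapsBar

section Galois

variable {L}

/-- the arithmetic Galois action commutes with `α`. -/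
theorem transports_arithmeticGalois_alpha (σ : L ≃ₐ[ℚ] L) :
    Transports (arithmeticGalois (F₁ M Lv) σ) (arithmeticGalois (F₁ M (Lv * ℓ)) σ)
      (heckeAlphaBar L M Lv ℓ) (heckeAlphaBar L M Lv ℓ) := by
  intro x
  apply Subtype.ext
  rw [coe_arithmeticGalois_smul, coe_heckeAlphaBar, coe_heckeAlphaBar, coe_arithmeticGalois_smul]

/-- the arithmetic Galois action commutes with `β`. -/
theorem transports_arithmeticGalois_beta (σ : L ≃ₐ[ℚ] L) :
    Transports (arithmeticGalois (F₁ M Lv) σ) (arithmeticGalois (F₁ M (Lv * ℓ)) σ)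
      (heckeBetaBar L M Lv ℓ) (heckeBetaBar L M Lv ℓ) := by
  intro x
  apply Subtype.ext
  rw [coe_arithmeticGalois_smul, coe_heckeBetaBar, coe_heckeBetaBar, coe_arithmeticGalois_smul,
    coeffMap_qExpand]

end Galois

end Fermat.Agent.W1
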