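/-
W1 = [GRΓ1] (S48), package [HECKEF] (helper4), part 3: **the Hecke correspondence
`T'_ℓ = β_* α^*`** on `Pic⁰` of the function field of level `Gpm M Lv`, for every `ℓ ≥ 1`, over any
algebraically closed field of characteristic zero with `j`-coordinates (port of
`GR/TSWAP_helper4_Main`, without the Atkin–Lehner part: on `X₁(M)` the swapped correspondence IS
the Hecke operator).

* `heckeSwapOf L M Lv ℓ c c'`, `heckeSwapDivOf`, `heckeSwapBar M Lv ℓ hM` (over `ℚ̄`; `Lv = 1`: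
  an endomorphism of `J₁ M`), `heckeSwapC M Lv ℓ hM` (over `ℂ`);
* `heckeSwapDivOf_apply_of_ord` : `T'_ℓ (div f) = div (N_β (α f))`, and the `n`-divisible form
  `heckeSwapDivOf_nsmul_apply_of_ord`;
* Galois equivariance `heckeSwapBar_galois_smul`.
-/
import Mathlib
import Fermat.Agent.W1.HECKEF_helper4_Maps
import Fermat.Agent.W1.HECKEF_helper4_Coord
import Fermat.Agent.JA.H0_helper7_Main
import Fermat.Prelude.Def_GaloisRep_ComplexConjugation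

set_option autoImplicit false
set_option linter.unusedSectionVars false
set_option linter.style.haveILetI false

open AlgebraicCurve HahnSeries IntermediateField

namespace Fermat.Agent.W1

open ModularCurve Fermat.Agent.JA Fermat.Agent.FF Fermat.Agent.GR

section Generic

variable (L : Type*) [Field L] [Algebra ℚ L] [CharZero L] [IsAlgClosed L]
variable (M Lv ℓ : ℕ) [NeZero ℓ]

theorem heckeAlphaBarIntegral_of_coord
    (c : Coord L ↥(laurentBaseChange L (F₁ M Lv)))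
    (c' : Coord L ↥(laurentBaseChange L (F₁ M (Lv * ℓ)))) :
    (heckeAlphaBar L M Lv ℓ).toRingHom.IsIntegral :=
  isIntegral_of_finiteAlong _ (finiteAlong_of_coord c c' (heckeAlphaBar L M Lv ℓ))

theorem heckeBetaBarIntegral_of_coord
    (c : Coord L ↥(laurentBaseChange L (F₁ M Lv)))
    (c' : Coord L ↥(laurentBaseChange L (F₁ M (Lv * ℓ)))) :
    (heckeBetaBar L M Lv ℓ).toRingHom.IsIntegral :=
  isIntegral_of_finiteAlong _ (finiteAlong_of_coord c c' (heckeBetaBar L M Lv ℓ))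

/-- **`T'_ℓ = β_* α^*` on divisors.** -/
noncomputable def heckeSwapDivOf
    (c : Coord L ↥(laurentBaseChange L (F₁ M Lv)))
    (c' : Coord L ↥(laurentBaseChange L (F₁ M (Lv * ℓ)))) :
    Divisor L ↥(laurentBaseChange L (F₁ M Lv)) →+
      Divisor L ↥(laurentBaseChange L (F₁ M Lv)) :=
  haveI := c'.hasPrincipalDivisors
  Divisor.correspondence (heckeAlphaBar L M Lv ℓ) (heckeBetaBar L M Lv ℓ)
    (heckeAlphaBarIntegral_of_coord L M Lv ℓ c c') (heckeBetaBarIntegral_of_coord L M Lv ℓ c c')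

/-- **`T'_ℓ = β_* α^*` on `Pic⁰`.** -/
noncomputable def heckeSwapOf
    (c : Coord L ↥(laurentBaseChange L (F₁ M Lv)))
    (c' : Coord L ↥(laurentBaseChange L (F₁ M (Lv * ℓ)))) :
    Pic0 L ↥(laurentBaseChange L (F₁ M Lv)) →+
      Pic0 L ↥(laurentBaseChange L (F₁ M Lv)) :=
  haveI := c'.hasPrincipalDivisors
  Pic0.correspondence (heckeAlphaBar L M Lv ℓ) (heckeBetaBar L M Lv ℓ)
    (heckeAlphaBarIntegral_of_coord L M Lv ℓ c c') (heckeBetaBarIntegral_of_coord L M Lv ℓ c c')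
    (fundamentalIdentityAlong_of_coord c c' (heckeAlphaBar L M Lv ℓ)
      (heckeAlphaBarIntegral_of_coord L M Lv ℓ c c'))
    (finiteAlong_of_coord c c' (heckeBetaBar L M Lv ℓ))
    (normFormulaAlong_of_coord c c' (heckeBetaBar L M Lv ℓ)
      (finiteAlong_of_coord c c' (heckeBetaBar L M Lv ℓ)))

theorem heckeSwapDivOf_mem_degZero
    (c : Coord L ↥(laurentBaseChange L (F₁ M Lv)))
    (c' : Coord L ↥(laurentBaseChange L (F₁ M (Lv * ℓ))))
    {D : Divisor L ↥(laurentBaseChange L (F₁ M Lv))}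
    (hD : D ∈ Divisor.degZero (K := L)
      (F := ↥(laurentBaseChange L (F₁ M Lv)))) :
    heckeSwapDivOf L M Lv ℓ c c' D ∈ Divisor.degZero (K := L)
      (F := ↥(laurentBaseChange L (F₁ M Lv))) :=
  haveI := c'.hasPrincipalDivisors
  Divisor.correspondence_mem_degZero _ _ _ _
    (fundamentalIdentityAlong_of_coord c c' (heckeAlphaBar L M Lv ℓ)
      (heckeAlphaBarIntegral_of_coord L M Lv ℓ c c')) hD

theorem heckeSwapOf_mk
    (c : Coord L ↥(laurentBaseChange L (F₁ M Lv)))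
    (c' : Coord L ↥(laurentBaseChange L (F₁ M (Lv * ℓ))))
    (D : Divisor.degZero (K := L)
      (F := ↥(laurentBaseChange L (F₁ M Lv)))) :
    heckeSwapOf L M Lv ℓ c c' (Pic0.mk D)
      = Pic0.mk ⟨heckeSwapDivOf L M Lv ℓ c c' (D : Divisor L _),
          heckeSwapDivOf_mem_degZero L M Lv ℓ c c' D.2⟩ :=
  rfl

/-- **`T'_ℓ (div f) = div (N_β (α f))`.** -/
theorem heckeSwapDivOf_apply_of_ord
    (c : Coord L ↥(laurentBaseChange L (F₁ M Lv)))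
    (c' : Coord L ↥(laurentBaseChange L (F₁ M (Lv * ℓ))))
    {f : ↥(laurentBaseChange L (F₁ M Lv))} (hf : f ≠ 0)
    {D : Divisor L ↥(laurentBaseChange L (F₁ M Lv))}
    (hD : ∀ P, D P = P.ord f)
    (P : Place L ↥(laurentBaseChange L (F₁ M Lv))) :
    heckeSwapDivOf L M Lv ℓ c c' D P
      = P.ord (normAlong (heckeBetaBar L M Lv ℓ) (heckeAlphaBar L M Lv ℓ f)) := by
  haveI := c'.hasPrincipalDivisors
  have hα : (heckeAlphaBar L M Lv ℓ).toRingHom.IsIntegral :=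
    heckeAlphaBarIntegral_of_coord L M Lv ℓ c c'
  have hβ : (heckeBetaBar L M Lv ℓ).toRingHom.IsIntegral :=
    heckeBetaBarIntegral_of_coord L M Lv ℓ c c'
  have hfin := finiteAlong_of_coord c c' (heckeBetaBar L M Lv ℓ)
  have hN := normFormulaAlong_of_coord c c' (heckeBetaBar L M Lv ℓ) hfin
  -- the pullback is the divisor of `α f`
  have h1 : ∀ W, Divisor.pullbackAlong (heckeAlphaBar L M Lv ℓ) hα D W
      = W.ord (heckeAlphaBar L M Lv ℓ f) := by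
    intro W
    rw [Divisor.pullbackAlong_apply, hD, ← Place.ord_restrictAlong]
  have hαf : heckeAlphaBar L M Lv ℓ f ≠ 0 := (map_ne_zero _).mpr hf
  show Divisor.pushforwardAlong (heckeBetaBar L M Lv ℓ) hβ
    (Divisor.pullbackAlong (heckeAlphaBar L M Lv ℓ) hα D) P = _
  letI := algebraAlong (heckeBetaBar L M Lv ℓ)
  haveI := isScalarTower_along (heckeBetaBar L M Lv ℓ)
  haveI := isIntegral_along (heckeBetaBar L M Lv ℓ) hβ
  haveI : Module.Finite ↥(laurentBaseChange L (F₁ M Lv))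
    ↥(laurentBaseChange L (F₁ M (Lv * ℓ))) := hfin
  exact hN _ hαf _ h1 P

/-- the coordinates only enter through proofs: `T'_ℓ` does not depend on them. -/
theorem heckeSwapOf_congr
    (c d : Coord L ↥(laurentBaseChange L (F₁ M Lv)))
    (c' d' : Coord L ↥(laurentBaseChange L (F₁ M (Lv * ℓ)))) :
    heckeSwapOf L M Lv ℓ c c' = heckeSwapOf L M Lv ℓ d d' :=
  rfl

theorem heckeSwapDivOf_congr
    (c d : Coord L ↥(laurentBaseChange L (F₁ M Lv)))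
    (c' d' : Coord L ↥(laurentBaseChange L (F₁ M (Lv * ℓ)))) :
    heckeSwapDivOf L M Lv ℓ c c' = heckeSwapDivOf L M Lv ℓ d d' :=
  rfl

/-- **`n • D = div f → n • T'_ℓ D = div (N_β (α f))`.** -/
theorem heckeSwapDivOf_nsmul_apply_of_ord
    (c : Coord L ↥(laurentBaseChange L (F₁ M Lv)))
    (c' : Coord L ↥(laurentBaseChange L (F₁ M (Lv * ℓ))))
    {n : ℕ} {f : ↥(laurentBaseChange L (F₁ M Lv))} (hf : f ≠ 0)
    {D : Divisor L ↥(laurentBaseChange L (F₁ M Lv))}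
    (hD : ∀ P, (n : ℤ) * D P = P.ord f)
    (P : Place L ↥(laurentBaseChange L (F₁ M Lv))) :
    (n : ℤ) * heckeSwapDivOf L M Lv ℓ c c' D P
      = P.ord (normAlong (heckeBetaBar L M Lv ℓ) (heckeAlphaBar L M Lv ℓ f)) := by
  have h1 : ∀ P, (n • D) P = P.ord f := by
    intro P
    rw [Finsupp.smul_apply, nsmul_eq_mul, hD]
  rw [← heckeSwapDivOf_apply_of_ord L M Lv ℓ c c' hf h1 P, map_nsmul, Finsupp.smul_apply,
    nsmul_eq_mul]

end Generic

section Bar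

variable (M Lv ℓ : ℕ) [NeZero M] [NeZero Lv] [NeZero ℓ] (hM : M ≠ 1)

/-- **`T'_ℓ = β_* α^*` on `Pic⁰` of level `Gpm M Lv` over `ℚ̄` (`Lv = 1`: on `J₁ M`)**, for every `ℓ ≥ 1`. -/
noncomputable def heckeSwapBar :
    Pic0 (AlgebraicClosure ℚ) ↥(F₁Bar M Lv) →+ Pic0 (AlgebraicClosure ℚ) ↥(F₁Bar M Lv) :=
  heckeSwapOf (AlgebraicClosure ℚ) M Lv ℓ (jCoordBarOf M Lv hM) (jCoordBarOf M (Lv * ℓ) hM)

/-- **`T'_ℓ = β_* α^*` on divisors over `ℚ̄`.** -/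
noncomputable def heckeSwapDivBar :
    Divisor (AlgebraicClosure ℚ) ↥(F₁Bar M Lv) →+
      Divisor (AlgebraicClosure ℚ) ↥(F₁Bar M Lv) :=
  heckeSwapDivOf (AlgebraicClosure ℚ) M Lv ℓ (jCoordBarOf M Lv hM) (jCoordBarOf M (Lv * ℓ) hM)

/-- **`T'_ℓ = β_* α^*` on `Pic⁰` over `ℂ`.** -/
noncomputable def heckeSwapC :
    Pic0 ℂ ↥(laurentBaseChange ℂ (F₁ M Lv)) →+
      Pic0 ℂ ↥(laurentBaseChange ℂ (F₁ M Lv)) :=
  heckeSwapOf ℂ M Lv ℓ (jCoordC M Lv hM) (jCoordC M (Lv * ℓ) hM)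

/-- **`T'_ℓ = β_* α^*` on divisors over `ℂ`.** -/
noncomputable def heckeSwapDivC :
    Divisor ℂ ↥(laurentBaseChange ℂ (F₁ M Lv)) →+
      Divisor ℂ ↥(laurentBaseChange ℂ (F₁ M Lv)) :=
  heckeSwapDivOf ℂ M Lv ℓ (jCoordC M Lv hM) (jCoordC M (Lv * ℓ) hM)

end Bar

section Galois

variable {L : Type*} [Field L] [Algebra ℚ L]
variable (M Lv ℓ : ℕ) [NeZero ℓ]

variable [CharZero L] [IsAlgClosed L]

/-- **Galois equivariance of `T'_ℓ`** (generic form). -/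
theorem heckeSwapOf_galois_smul
    (c : Coord L ↥(laurentBaseChange L (F₁ M Lv)))
    (c' : Coord L ↥(laurentBaseChange L (F₁ M (Lv * ℓ))))
    (σ : L ≃ₐ[ℚ] L)
    (x : Pic0 L ↥(laurentBaseChange L (F₁ M Lv))) :
    heckeSwapOf L M Lv ℓ c c' (σ • x) = σ • heckeSwapOf L M Lv ℓ c c' x := by
  haveI := c'.hasPrincipalDivisors
  have hα : (heckeAlphaBar L M Lv ℓ).toRingHom.IsIntegral :=
    heckeAlphaBarIntegral_of_coord L M Lv ℓ c c'
  have hβ : (heckeBetaBar L M Lv ℓ).toRingHom.IsIntegral :=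
    heckeBetaBarIntegral_of_coord L M Lv ℓ c c'
  have hFI : FundamentalIdentityAlong L (heckeAlphaBar L M Lv ℓ) hα :=
    fundamentalIdentityAlong_of_coord c c' (heckeAlphaBar L M Lv ℓ) hα
  have hfin : FiniteAlong L (heckeBetaBar L M Lv ℓ) := finiteAlong_of_coord c c' (heckeBetaBar L M Lv ℓ)
  have hN : NormFormulaAlong L (heckeBetaBar L M Lv ℓ) hfin :=
    normFormulaAlong_of_coord c c' (heckeBetaBar L M Lv ℓ) hfin
  rw [galois_smul_pic0_def, galois_smul_pic0_def]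
  exact (transports_arithmeticGalois_alpha M Lv ℓ σ).pic0_correspondence_smul
    (transports_arithmeticGalois_beta M Lv ℓ σ) hα hα hβ hβ hFI hFI hfin hfin hN hN
    (fun W => c'.deg_eq_one W) x

end Galois

section BarProps

variable (M Lv ℓ : ℕ) [NeZero M] [NeZero Lv] [NeZero ℓ] (hM : M ≠ 1)

/-- **Galois equivariance of `T'_ℓ` on `Pic⁰` of level `Gpm M Lv` over `ℚ̄`.** -/
theorem heckeSwapBar_galois_smul (σ : AlgebraicClosure ℚ ≃ₐ[ℚ] AlgebraicClosure ℚ)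
    (x : Pic0 (AlgebraicClosure ℚ) ↥(F₁Bar M Lv)) : heckeSwapBar M Lv ℓ hM (σ • x) = σ • heckeSwapBar M Lv ℓ hM x :=
  heckeSwapOf_galois_smul M Lv ℓ _ _ σ x

/-- **`T'_ℓ (div f) = div (N_β (α f))`** over `ℚ̄`. -/
theorem heckeSwapDivBar_apply_of_ord {f : ↥(F₁Bar M Lv)} (hf : f ≠ 0)
    {D : Divisor (AlgebraicClosure ℚ) ↥(F₁Bar M Lv)}
    (hD : ∀ P, D P = P.ord f)
    (P : Place (AlgebraicClosure ℚ) ↥(F₁Bar M Lv)) :
    heckeSwapDivBar M Lv ℓ hM D P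
      = P.ord (normAlong (heckeBetaBar (AlgebraicClosure ℚ) M Lv ℓ)
          (heckeAlphaBar (AlgebraicClosure ℚ) M Lv ℓ f)) :=
  heckeSwapDivOf_apply_of_ord _ M Lv ℓ _ _ hf hD P

/-- **`T'_ℓ (div f) = div (N_β (α f))`** over `ℂ`. -/
theorem heckeSwapDivC_apply_of_ord
    {f : ↥(laurentBaseChange ℂ (F₁ M Lv))} (hf : f ≠ 0)
    {D : Divisor ℂ ↥(laurentBaseChange ℂ (F₁ M Lv))}
    (hD : ∀ P, D P = P.ord f)
    (P : Place ℂ ↥(laurentBaseChange ℂ (F₁ M Lv))) :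
    heckeSwapDivC M Lv ℓ hM D P
      = P.ord (normAlong (heckeBetaBar ℂ M Lv ℓ) (heckeAlphaBar ℂ M Lv ℓ f)) :=
  heckeSwapDivOf_apply_of_ord _ M Lv ℓ _ _ hf hD P

theorem heckeSwapDivBar_mem_degZero
    {D : Divisor (AlgebraicClosure ℚ) ↥(F₁Bar M Lv)}
    (hD : D ∈ Divisor.degZero (K := AlgebraicClosure ℚ) (F := ↥(F₁Bar M Lv))) :
    heckeSwapDivBar M Lv ℓ hM D
      ∈ Divisor.degZero (K := AlgebraicClosure ℚ) (F := ↥(F₁Bar M Lv)) :=
  heckeSwapDivOf_mem_degZero (AlgebraicClosure ℚ) M Lv ℓ (jCoordBarOf M Lv hM)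
    (jCoordBarOf M (Lv * ℓ) hM) hD

theorem heckeSwapDivC_mem_degZero
    {D : Divisor ℂ ↥(laurentBaseChange ℂ (F₁ M Lv))}
    (hD : D ∈ Divisor.degZero (K := ℂ)
      (F := ↥(laurentBaseChange ℂ (F₁ M Lv)))) :
    heckeSwapDivC M Lv ℓ hM D ∈ Divisor.degZero (K := ℂ)
      (F := ↥(laurentBaseChange ℂ (F₁ M Lv))) :=
  heckeSwapDivOf_mem_degZero ℂ M Lv ℓ (jCoordC M Lv hM) (jCoordC M (Lv * ℓ) hM) hD

/-- `T'_ℓ` on the class of a divisor (over `ℚ̄`). -/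
theorem heckeSwapBar_mk (D : Divisor.degZero (K := AlgebraicClosure ℚ)
    (F := ↥(F₁Bar M Lv))) :
    heckeSwapBar M Lv ℓ hM (Pic0.mk D)
      = Pic0.mk ⟨heckeSwapDivBar M Lv ℓ hM (D : Divisor (AlgebraicClosure ℚ) _),
          heckeSwapDivBar_mem_degZero M Lv ℓ hM D.2⟩ :=
  heckeSwapOf_mk (AlgebraicClosure ℚ) M Lv ℓ (jCoordBarOf M Lv hM) (jCoordBarOf M (Lv * ℓ) hM) D

/-- `T'_ℓ` on the class of a divisor (over `ℂ`). -/
theorem heckeSwapC_mk (D : Divisor.degZero (K := ℂ)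
    (F := ↥(laurentBaseChange ℂ (F₁ M Lv)))) :
    heckeSwapC M Lv ℓ hM (Pic0.mk D)
      = Pic0.mk ⟨heckeSwapDivC M Lv ℓ hM (D : Divisor ℂ _), heckeSwapDivC_mem_degZero M Lv ℓ hM D.2⟩ :=
  heckeSwapOf_mk ℂ M Lv ℓ (jCoordC M Lv hM) (jCoordC M (Lv * ℓ) hM) D

/-- **`n • D = div f → n • T'_ℓ D = div (N_β (α f))`** over `ℚ̄`. -/
theorem heckeSwapDivBar_nsmul_apply_of_ord {n : ℕ} {f : ↥(F₁Bar M Lv)}
    (hf : f ≠ 0) {D : Divisor (AlgebraicClosure ℚ) ↥(F₁Bar M Lv)}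
    (hD : ∀ P, (n : ℤ) * D P = P.ord f)
    (P : Place (AlgebraicClosure ℚ) ↥(F₁Bar M Lv)) :
    (n : ℤ) * heckeSwapDivBar M Lv ℓ hM D P
      = P.ord (normAlong (heckeBetaBar (AlgebraicClosure ℚ) M Lv ℓ)
          (heckeAlphaBar (AlgebraicClosure ℚ) M Lv ℓ f)) :=
  heckeSwapDivOf_nsmul_apply_of_ord _ M Lv ℓ _ _ hf hD P

/-- **`n • D = div f → n • T'_ℓ D = div (N_β (α f))`** over `ℂ`. -/
theorem heckeSwapDivC_nsmul_apply_of_ord {n : ℕ}
    {f : ↥(laurentBaseChange ℂ (F₁ M Lv))} (hf : f ≠ 0)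
    {D : Divisor ℂ ↥(laurentBaseChange ℂ (F₁ M Lv))}
    (hD : ∀ P, (n : ℤ) * D P = P.ord f)
    (P : Place ℂ ↥(laurentBaseChange ℂ (F₁ M Lv))) :
    (n : ℤ) * heckeSwapDivC M Lv ℓ hM D P
      = P.ord (normAlong (heckeBetaBar ℂ M Lv ℓ) (heckeAlphaBar ℂ M Lv ℓ f)) :=
  heckeSwapDivOf_nsmul_apply_of_ord _ M Lv ℓ _ _ hf hD P

/-- `T'_ℓ` preserves the `n`-torsion of `Pic⁰`. -/
theorem heckeSwapBar_mem_torsionBy (n : ℤ) {x : Pic0 (AlgebraicClosure ℚ) ↥(F₁Bar M Lv)}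
    (hx : x ∈ Submodule.torsionBy ℤ (Pic0 (AlgebraicClosure ℚ) ↥(F₁Bar M Lv)) n) :
    heckeSwapBar M Lv ℓ hM x ∈ Submodule.torsionBy ℤ (Pic0 (AlgebraicClosure ℚ) ↥(F₁Bar M Lv)) n := by
  rw [Submodule.mem_torsionBy_iff] at hx ⊢
  rw [← map_zsmul, hx, map_zero]

end BarProps

end Fermat.Agent.W1
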