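/-
W1 = [GRΓ1] (S48), package [HECKEF] (helper4), part 4: **the diamond operators on `Pic⁰`** of the
function field of level `Gpm M L`.

From helper9's diamond automorphisms (`diaML`, `sigmaU`, `diaU`: precomposition with
`σ ∈ Γ₀(M L)` whose UPPER LEFT entry is `d` modulo `M`, `φ_a(q^e) ↦ φ_{a d}(q^e)`):
* `diaAlg M L d` : the `k`-algebra automorphism, multiplicative in `d` (`diaAlgHom`);
* `diaSL M L d` : the semilinear automorphism; it commutes with the arithmetic Galois action;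
* `diaPic0 M L d` : the induced endomorphism of `Pic⁰`, Galois equivariant
  (`diaPic0_galois_smul`), multiplicative in `d`;
* the diamonds commute with the degeneracy maps (`transports_dia_alpha/beta`), hence with the
  Hecke correspondences `T'_ℓ` (`heckeSwapOf_diaPic0`).
-/
import Mathlib
import Fermat.Agent.W1.DEG1_helper9_Galois
import Fermat.Agent.W1.HECKEF_helper4_Swap

set_option autoImplicit false

set_option linter.unusedSectionVars false
set_option linter.style.haveILetI false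

open AlgebraicCurve HahnSeries IntermediateField CongruenceSubgroup
open scoped MatrixGroups

namespace Fermat.Agent.W1

open ModularCurve Fermat.Agent.JA Fermat.Agent.FF Fermat.Agent.GR Fermat.Agent.X0N

section Alg

variable {k : Type*} [Field k] [Algebra ℚ k] [Algebra k ℂ] [IsScalarTower ℚ k ℂ]
  (M L : ℕ) [NeZero M] [NeZero L]

/-- **the diamond automorphism** attached to `d : (ZMod M)ˣ`, as a `k`-algebra automorphism of
the function field of level `Gpm M L` over `k` (precomposition with `σ ∈ Γ₀(M L)`,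
`σ₀₀ ≡ d`). -/
noncomputable def diaAlg (d : (ZMod M)ˣ) :
    ↥(laurentBaseChange k (F₁ M L)) ≃ₐ[k] ↥(laurentBaseChange k (F₁ M L)) :=
  diaML (algebraMap k ℂ) (sigmaU_mem M L d)

theorem diaAlg_apply (d : (ZMod M)ˣ) (x : ↥(laurentBaseChange k (F₁ M L))) :
    diaAlg M L d x = diaHom (algebraMap k ℂ) (sigmaU_mem M L d) x := rfl

theorem diaAlg_jdBarML (d : (ZMod M)ˣ) {d' : ℕ} [NeZero d'] (hd : d' ∣ M * L) :
    diaAlg (k := k) M L d (jdBarML hd) = jdBarML hd := by
  rw [diaAlg_apply, diaHom_jdBarML]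

theorem diaAlg_phiBarML (d : (ZMod M)ˣ) {e : ℕ} [NeZero e] (he : e ∣ L) {a : ZMod M}
    (ha : a ≠ 0) :
    diaAlg (k := k) M L d (phiBarML he ha) =
      phiBarML he (fun h => ha ((Units.mul_left_eq_zero d).mp h) : a * (d : ZMod M) ≠ 0) := by
  rw [diaAlg_apply, diaHom_phiBarML]
  congr 1
  rw [sigmaU_entry]

theorem realML_diaAlg (d : (ZMod M)ˣ) (x : ↥(laurentBaseChange k (F₁ M L))) :
    realML (algebraMap k ℂ) M L (diaAlg M L d x) =
      MerH.comp (sigmaU M L d) (realML (algebraMap k ℂ) M L x) :=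
  realML_diaHom (algebraMap k ℂ) (sigmaU_mem M L d) x

/-- the ring endomorphism underlying `diaAlg`. -/
noncomputable def diaRingHom (d : (ZMod M)ˣ) :
    ↥(laurentBaseChange k (F₁ M L)) →+* ↥(laurentBaseChange k (F₁ M L)) :=
  diaHom (algebraMap k ℂ) (sigmaU_mem M L d)

theorem diaRingHom_apply (d : (ZMod M)ˣ) (x : ↥(laurentBaseChange k (F₁ M L))) :
    diaRingHom M L d x = diaAlg M L d x := rfl

theorem diaAlg_one : diaAlg (k := k) M L 1 = 1 := by
  refine AlgEquiv.ext fun x => ?_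
  rw [← diaRingHom_apply]
  refine ringHom_ext_F₁ (f := diaRingHom (k := k) M L 1) (g := RingHom.id _) ?_ ?_ ?_ x
  · intro c
    rw [diaRingHom_apply]
    exact (diaAlg (k := k) M L 1).commutes c
  · intro d' _ hd
    rw [diaRingHom_apply]
    exact diaAlg_jdBarML M L 1 hd
  · intro e _ he a ha
    rw [diaRingHom_apply, RingHom.id_apply, diaAlg_phiBarML]
    congr 1
    rw [Units.val_one, mul_one]

theorem diaAlg_mul (d d' : (ZMod M)ˣ) :
    diaAlg (k := k) M L (d * d') = diaAlg M L d * diaAlg M L d' := by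
  refine AlgEquiv.ext fun x => ?_
  rw [AlgEquiv.mul_apply, ← diaRingHom_apply, ← diaRingHom_apply, ← diaRingHom_apply]
  refine ringHom_ext_F₁ (f := diaRingHom (k := k) M L (d * d'))
    (g := (diaRingHom (k := k) M L d).comp (diaRingHom (k := k) M L d')) ?_ ?_ ?_ x
  · intro c
    rw [RingHom.comp_apply, diaRingHom_apply, diaRingHom_apply, diaRingHom_apply,
      AlgEquiv.commutes, AlgEquiv.commutes, AlgEquiv.commutes]
  · intro e _ he
    rw [RingHom.comp_apply, diaRingHom_apply, diaRingHom_apply, diaRingHom_apply,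
      diaAlg_jdBarML, diaAlg_jdBarML, diaAlg_jdBarML]
  · intro e _ he a ha
    rw [RingHom.comp_apply, diaRingHom_apply, diaRingHom_apply, diaRingHom_apply,
      diaAlg_phiBarML, diaAlg_phiBarML, diaAlg_phiBarML]
    congr 1
    rw [Units.val_mul]
    ring

/-- the diamond automorphisms, as a group homomorphism. -/
noncomputable def diaAlgHom :
    (ZMod M)ˣ →* (↥(laurentBaseChange k (F₁ M L)) ≃ₐ[k] ↥(laurentBaseChange k (F₁ M L))) where
  toFun := diaAlg M L
  map_one' := diaAlg_one M L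
  map_mul' := diaAlg_mul M L

/-- **the diamond automorphism as a semilinear automorphism.** -/
noncomputable def diaSL (d : (ZMod M)ˣ) : SemilinearAut k ↥(laurentBaseChange k (F₁ M L)) :=
  SemilinearAut.ofAlgAut (diaAlg M L d)

theorem diaSL_smul (d : (ZMod M)ˣ) (x : ↥(laurentBaseChange k (F₁ M L))) :
    diaSL (k := k) M L d • x = diaAlg M L d x := rfl

theorem diaSL_one : diaSL (k := k) M L 1 = 1 := by
  rw [diaSL, diaAlg_one (k := k) M L, map_one]

theorem diaSL_mul (d d' : (ZMod M)ˣ) :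
    diaSL (k := k) M L (d * d') = diaSL M L d * diaSL M L d' := by
  rw [diaSL, diaAlg_mul (k := k) M L, map_mul]
  rfl

/-- the arithmetic Galois action fixes the generators. -/
theorem arithmeticGalois_smul_jdBarML (σ : k ≃ₐ[ℚ] k) {d' : ℕ} [NeZero d'] (hd : d' ∣ M * L) :
    arithmeticGalois (F₁ M L) σ • (jdBarML (k := k) hd) = jdBarML hd := by
  apply Subtype.ext
  rw [coe_arithmeticGalois_smul, coe_jdBarML, coeffMap_coeffEmb]

theorem arithmeticGalois_smul_phiBarML (σ : k ≃ₐ[ℚ] k) {e : ℕ} [NeZero e] (he : e ∣ L)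
    {a : ZMod M} (ha : a ≠ 0) :
    arithmeticGalois (F₁ M L) σ • (phiBarML (k := k) he ha) = phiBarML he ha := by
  apply Subtype.ext
  rw [coe_arithmeticGalois_smul]
  show coeffMap (σ : k →+* k) (coeffEmb k (qExpand ℚ e (phiGen ℚ M a))) = _
  rw [coeffMap_coeffEmb]
  rfl

theorem arithmeticGalois_smul_algebraMap (σ : k ≃ₐ[ℚ] k) (c : k) :
    arithmeticGalois (F₁ M L) σ • (algebraMap k ↥(laurentBaseChange k (F₁ M L)) c) =
      algebraMap k _ (σ c) :=
  arithmeticRingAut_algebraMap (F₁ M L) σ c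

/-- **the diamonds commute with the arithmetic Galois action** (on functions). -/
theorem arithmeticGalois_smul_diaSL_smul (σ : k ≃ₐ[ℚ] k) (d : (ZMod M)ˣ)
    (x : ↥(laurentBaseChange k (F₁ M L))) :
    arithmeticGalois (F₁ M L) σ • (diaSL (k := k) M L d • x) =
      diaSL (k := k) M L d • (arithmeticGalois (F₁ M L) σ • x) := by
  refine ringHom_ext_F₁
    (f := (MulSemiringAction.toRingHom (SemilinearAut k ↥(laurentBaseChange k (F₁ M L))) _
        (arithmeticGalois (F₁ M L) σ)).comp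
      (MulSemiringAction.toRingHom (SemilinearAut k ↥(laurentBaseChange k (F₁ M L))) _
        (diaSL (k := k) M L d)))
    (g := (MulSemiringAction.toRingHom (SemilinearAut k ↥(laurentBaseChange k (F₁ M L))) _
        (diaSL (k := k) M L d)).comp
      (MulSemiringAction.toRingHom (SemilinearAut k ↥(laurentBaseChange k (F₁ M L))) _
        (arithmeticGalois (F₁ M L) σ))) ?_ ?_ ?_ x
  · intro c
    simp only [RingHom.comp_apply, MulSemiringAction.toRingHom_apply]
    rw [diaSL_smul, AlgEquiv.commutes, arithmeticGalois_smul_algebraMap, diaSL_smul,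
      AlgEquiv.commutes]
  · intro e _ he
    simp only [RingHom.comp_apply, MulSemiringAction.toRingHom_apply]
    rw [diaSL_smul, diaAlg_jdBarML, arithmeticGalois_smul_jdBarML, diaSL_smul, diaAlg_jdBarML]
  · intro e _ he a ha
    simp only [RingHom.comp_apply, MulSemiringAction.toRingHom_apply]
    rw [diaSL_smul, diaAlg_phiBarML, arithmeticGalois_smul_phiBarML,
      arithmeticGalois_smul_phiBarML, diaSL_smul, diaAlg_phiBarML]

/-- **the diamonds commute with the arithmetic Galois action.** -/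
theorem arithmeticGalois_mul_diaSL (σ : k ≃ₐ[ℚ] k) (d : (ZMod M)ˣ) :
    arithmeticGalois (F₁ M L) σ * diaSL (k := k) M L d =
      diaSL (k := k) M L d * arithmeticGalois (F₁ M L) σ := by
  refine Subtype.ext (Prod.ext (RingEquiv.ext fun x => ?_) ?_)
  · exact arithmeticGalois_smul_diaSL_smul M L σ d x
  · show (σ.toRingEquiv * 1 : k ≃+* k) = 1 * σ.toRingEquiv
    rw [mul_one, one_mul]

/-- **the diamond operator on `Pic⁰`.** -/
noncomputable def diaPic0 (d : (ZMod M)ˣ) :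
    Pic0 k ↥(laurentBaseChange k (F₁ M L)) →+ Pic0 k ↥(laurentBaseChange k (F₁ M L)) :=
  DistribSMul.toAddMonoidHom (Pic0 k ↥(laurentBaseChange k (F₁ M L))) (diaSL (k := k) M L d)

theorem diaPic0_apply (d : (ZMod M)ˣ) (x : Pic0 k ↥(laurentBaseChange k (F₁ M L))) :
    diaPic0 (k := k) M L d x = diaSL (k := k) M L d • x := rfl

theorem diaPic0_one (x : Pic0 k ↥(laurentBaseChange k (F₁ M L))) :
    diaPic0 (k := k) M L 1 x = x := by
  rw [diaPic0_apply, diaSL_one, one_smul]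

theorem diaPic0_mul (d d' : (ZMod M)ˣ) (x : Pic0 k ↥(laurentBaseChange k (F₁ M L))) :
    diaPic0 (k := k) M L (d * d') x = diaPic0 M L d (diaPic0 M L d' x) := by
  rw [diaPic0_apply, diaPic0_apply, diaPic0_apply, diaSL_mul, mul_smul]

/-- **Galois equivariance of the diamond operators.** -/
theorem diaPic0_galois_smul (d : (ZMod M)ˣ) (σ : k ≃ₐ[ℚ] k)
    (x : Pic0 k ↥(laurentBaseChange k (F₁ M L))) :
    diaPic0 (k := k) M L d (σ • x) = σ • diaPic0 (k := k) M L d x := by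
  rw [diaPic0_apply, diaPic0_apply, galois_smul_pic0_def, galois_smul_pic0_def, ← mul_smul,
    ← mul_smul, arithmeticGalois_mul_diaSL]

theorem diaPic0_mem_torsionBy (d : (ZMod M)ˣ) (n : ℤ)
    {x : Pic0 k ↥(laurentBaseChange k (F₁ M L))}
    (hx : x ∈ Submodule.torsionBy ℤ (Pic0 k ↥(laurentBaseChange k (F₁ M L))) n) :
    diaPic0 (k := k) M L d x ∈ Submodule.torsionBy ℤ (Pic0 k ↥(laurentBaseChange k (F₁ M L))) n := by
  rw [Submodule.mem_torsionBy_iff] at hx ⊢
  rw [← map_zsmul, hx, map_zero]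

end Alg

section Comm

variable {k : Type*} [Field k] [Algebra ℚ k] [Algebra k ℂ] [IsScalarTower ℚ k ℂ]
  (M Lv ℓ : ℕ) [NeZero M] [NeZero Lv] [NeZero ℓ]

/-! ### the degeneracy maps on the generators -/

theorem heckeAlphaBar_jdBarML {d' : ℕ} [NeZero d'] (hd : d' ∣ M * Lv) :
    heckeAlphaBar k M Lv ℓ (jdBarML hd) =
      jdBarML (hd.trans (Nat.mul_dvd_mul_left M (dvd_mul_right Lv ℓ))) := by
  apply Subtype.ext
  rw [coe_heckeAlphaBar, coe_jdBarML, coe_jdBarML]

theorem heckeAlphaBar_phiBarML {e : ℕ} [NeZero e] (he : e ∣ Lv) {a : ZMod M} (ha : a ≠ 0) :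
    heckeAlphaBar k M Lv ℓ (phiBarML he ha) = phiBarML (he.trans (dvd_mul_right Lv ℓ)) ha := by
  apply Subtype.ext
  rw [coe_heckeAlphaBar]
  rfl

theorem dvd_level_mul {d' : ℕ} (hd : d' ∣ M * Lv) : ℓ * d' ∣ M * (Lv * ℓ) := by
  have : M * (Lv * ℓ) = ℓ * (M * Lv) := by ring
  rw [this]
  exact mul_dvd_mul_left ℓ hd

theorem dvd_aux_mul {e : ℕ} (he : e ∣ Lv) : ℓ * e ∣ Lv * ℓ := by
  rw [mul_comm Lv ℓ]
  exact mul_dvd_mul_left ℓ he

theorem heckeBetaBar_jdBarML {d' : ℕ} [NeZero d'] (hd : d' ∣ M * Lv) :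
    heckeBetaBar k M Lv ℓ (jdBarML hd) = jdBarML (d := ℓ * d') (dvd_level_mul M Lv ℓ hd) := by
  apply Subtype.ext
  rw [coe_heckeBetaBar, coe_jdBarML, coe_jdBarML]
  have e : coeffEmb k (qExpand ℚ ℓ (qExpand ℚ d' jq)) =
      qExpand k ℓ (coeffEmb k (qExpand ℚ d' jq)) := coeffMap_qExpand _ ℓ _
  rw [← e, qExpand_qExpand]

theorem heckeBetaBar_phiBarML {e : ℕ} [NeZero e] (he : e ∣ Lv) {a : ZMod M} (ha : a ≠ 0) :
    heckeBetaBar k M Lv ℓ (phiBarML he ha) =
      phiBarML (e := ℓ * e) (dvd_aux_mul Lv ℓ he) ha := by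
  apply Subtype.ext
  rw [coe_heckeBetaBar]
  show qExpand k ℓ (coeffEmb k (qExpand ℚ e (phiGen ℚ M a))) =
    coeffEmb k (qExpand ℚ (ℓ * e) (phiGen ℚ M a))
  have h : coeffEmb k (qExpand ℚ ℓ (qExpand ℚ e (phiGen ℚ M a))) =
      qExpand k ℓ (coeffEmb k (qExpand ℚ e (phiGen ℚ M a))) := coeffMap_qExpand _ ℓ _
  rw [← h, qExpand_qExpand]

/-- **the diamonds commute with `α`.** -/
theorem transports_dia_alpha (d : (ZMod M)ˣ) :
    Transports (diaSL (k := k) M Lv d) (diaSL (k := k) M (Lv * ℓ) d)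
      (heckeAlphaBar k M Lv ℓ) (heckeAlphaBar k M Lv ℓ) := by
  intro x
  rw [diaSL_smul, diaSL_smul, ← diaRingHom_apply, ← diaRingHom_apply]
  refine ringHom_ext_F₁
    (f := (diaRingHom (k := k) M (Lv * ℓ) d).comp (heckeAlphaBar k M Lv ℓ).toRingHom)
    (g := (heckeAlphaBar k M Lv ℓ).toRingHom.comp (diaRingHom (k := k) M Lv d)) ?_ ?_ ?_ x
  · intro c
    simp only [RingHom.comp_apply, AlgHom.toRingHom_eq_coe, RingHom.coe_coe, diaRingHom_apply,
      AlgHom.commutes, AlgEquiv.commutes]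
  · intro e _ he
    simp only [RingHom.comp_apply, AlgHom.toRingHom_eq_coe, RingHom.coe_coe, diaRingHom_apply]
    rw [heckeAlphaBar_jdBarML, diaAlg_jdBarML, diaAlg_jdBarML, heckeAlphaBar_jdBarML]
  · intro e _ he a ha
    simp only [RingHom.comp_apply, AlgHom.toRingHom_eq_coe, RingHom.coe_coe, diaRingHom_apply]
    rw [heckeAlphaBar_phiBarML, diaAlg_phiBarML, diaAlg_phiBarML, heckeAlphaBar_phiBarML]

/-- **the diamonds commute with `β`.** -/
theorem transports_dia_beta (d : (ZMod M)ˣ) :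
    Transports (diaSL (k := k) M Lv d) (diaSL (k := k) M (Lv * ℓ) d)
      (heckeBetaBar k M Lv ℓ) (heckeBetaBar k M Lv ℓ) := by
  intro x
  rw [diaSL_smul, diaSL_smul, ← diaRingHom_apply, ← diaRingHom_apply]
  refine ringHom_ext_F₁
    (f := (diaRingHom (k := k) M (Lv * ℓ) d).comp (heckeBetaBar k M Lv ℓ).toRingHom)
    (g := (heckeBetaBar k M Lv ℓ).toRingHom.comp (diaRingHom (k := k) M Lv d)) ?_ ?_ ?_ x
  · intro c
    simp only [RingHom.comp_apply, AlgHom.toRingHom_eq_coe, RingHom.coe_coe, diaRingHom_apply,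
      AlgHom.commutes, AlgEquiv.commutes]
  · intro e _ he
    simp only [RingHom.comp_apply, AlgHom.toRingHom_eq_coe, RingHom.coe_coe, diaRingHom_apply]
    rw [heckeBetaBar_jdBarML, diaAlg_jdBarML, diaAlg_jdBarML, heckeBetaBar_jdBarML]
  · intro e _ he a ha
    simp only [RingHom.comp_apply, AlgHom.toRingHom_eq_coe, RingHom.coe_coe, diaRingHom_apply]
    rw [heckeBetaBar_phiBarML, diaAlg_phiBarML, diaAlg_phiBarML, heckeBetaBar_phiBarML]

variable [CharZero k] [IsAlgClosed k]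

/-- **the Hecke correspondences `T'_ℓ` commute with the diamond operators.** -/
theorem heckeSwapOf_diaPic0
    (c : Coord k ↥(laurentBaseChange k (F₁ M Lv)))
    (c' : Coord k ↥(laurentBaseChange k (F₁ M (Lv * ℓ))))
    (d : (ZMod M)ˣ) (x : Pic0 k ↥(laurentBaseChange k (F₁ M Lv))) :
    heckeSwapOf k M Lv ℓ c c' (diaPic0 (k := k) M Lv d x) =
      diaPic0 (k := k) M Lv d (heckeSwapOf k M Lv ℓ c c' x) := by
  haveI := c'.hasPrincipalDivisors
  have hα : (heckeAlphaBar k M Lv ℓ).toRingHom.IsIntegral :=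
    heckeAlphaBarIntegral_of_coord k M Lv ℓ c c'
  have hβ : (heckeBetaBar k M Lv ℓ).toRingHom.IsIntegral :=
    heckeBetaBarIntegral_of_coord k M Lv ℓ c c'
  have hFI : FundamentalIdentityAlong k (heckeAlphaBar k M Lv ℓ) hα :=
    fundamentalIdentityAlong_of_coord c c' (heckeAlphaBar k M Lv ℓ) hα
  have hfin : FiniteAlong k (heckeBetaBar k M Lv ℓ) :=
    finiteAlong_of_coord c c' (heckeBetaBar k M Lv ℓ)
  have hN : NormFormulaAlong k (heckeBetaBar k M Lv ℓ) hfin :=
    normFormulaAlong_of_coord c c' (heckeBetaBar k M Lv ℓ) hfin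
  rw [diaPic0_apply, diaPic0_apply]
  exact (transports_dia_alpha M Lv ℓ d).pic0_correspondence_smul
    (transports_dia_beta M Lv ℓ d) hα hα hβ hβ hFI hFI hfin hfin hN hN
    (fun W => c'.deg_eq_one W) x

end Comm

section Bar

variable (M Lv ℓ : ℕ) [NeZero M] [NeZero Lv] [NeZero ℓ]

/-- **the diamond operator on `Pic⁰` over `ℚ̄`** (`Lv = 1`: an endomorphism of `J₁ M`). -/
noncomputable def diaBar (d : (ZMod M)ˣ) :
    Pic0 (AlgebraicClosure ℚ) ↥(F₁Bar M Lv) →+ Pic0 (AlgebraicClosure ℚ) ↥(F₁Bar M Lv) :=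
  letI : Algebra (AlgebraicClosure ℚ) ℂ := complexEmbedding.toRingHom.toAlgebra
  haveI : IsScalarTower ℚ (AlgebraicClosure ℚ) ℂ :=
    IsScalarTower.of_algebraMap_eq' (Subsingleton.elim _ _)
  diaPic0 (k := AlgebraicClosure ℚ) M Lv d

theorem diaBar_one (x : Pic0 (AlgebraicClosure ℚ) ↥(F₁Bar M Lv)) : diaBar M Lv 1 x = x := by
  letI : Algebra (AlgebraicClosure ℚ) ℂ := complexEmbedding.toRingHom.toAlgebra
  haveI : IsScalarTower ℚ (AlgebraicClosure ℚ) ℂ :=
    IsScalarTower.of_algebraMap_eq' (Subsingleton.elim _ _)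
  exact diaPic0_one (k := AlgebraicClosure ℚ) M Lv x

theorem diaBar_mul (d d' : (ZMod M)ˣ) (x : Pic0 (AlgebraicClosure ℚ) ↥(F₁Bar M Lv)) :
    diaBar M Lv (d * d') x = diaBar M Lv d (diaBar M Lv d' x) := by
  letI : Algebra (AlgebraicClosure ℚ) ℂ := complexEmbedding.toRingHom.toAlgebra
  haveI : IsScalarTower ℚ (AlgebraicClosure ℚ) ℂ :=
    IsScalarTower.of_algebraMap_eq' (Subsingleton.elim _ _)
  exact diaPic0_mul (k := AlgebraicClosure ℚ) M Lv d d' x

/-- **Galois equivariance of the diamond operators over `ℚ̄`.** -/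
theorem diaBar_galois_smul (d : (ZMod M)ˣ) (σ : AlgebraicClosure ℚ ≃ₐ[ℚ] AlgebraicClosure ℚ)
    (x : Pic0 (AlgebraicClosure ℚ) ↥(F₁Bar M Lv)) :
    diaBar M Lv d (σ • x) = σ • diaBar M Lv d x := by
  letI : Algebra (AlgebraicClosure ℚ) ℂ := complexEmbedding.toRingHom.toAlgebra
  haveI : IsScalarTower ℚ (AlgebraicClosure ℚ) ℂ :=
    IsScalarTower.of_algebraMap_eq' (Subsingleton.elim _ _)
  exact diaPic0_galois_smul (k := AlgebraicClosure ℚ) M Lv d σ x

/-- **`T'_ℓ` commutes with the diamond operators over `ℚ̄`.** -/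
theorem heckeSwapBar_diaBar (hM : M ≠ 1) (d : (ZMod M)ˣ)
    (x : Pic0 (AlgebraicClosure ℚ) ↥(F₁Bar M Lv)) :
    heckeSwapBar M Lv ℓ hM (diaBar M Lv d x) = diaBar M Lv d (heckeSwapBar M Lv ℓ hM x) := by
  letI : Algebra (AlgebraicClosure ℚ) ℂ := complexEmbedding.toRingHom.toAlgebra
  haveI : IsScalarTower ℚ (AlgebraicClosure ℚ) ℂ :=
    IsScalarTower.of_algebraMap_eq' (Subsingleton.elim _ _)
  exact heckeSwapOf_diaPic0 (k := AlgebraicClosure ℚ) M Lv ℓ _ _ d x

theorem diaBar_mem_torsionBy (d : (ZMod M)ˣ) (n : ℤ)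
    {x : Pic0 (AlgebraicClosure ℚ) ↥(F₁Bar M Lv)}
    (hx : x ∈ Submodule.torsionBy ℤ (Pic0 (AlgebraicClosure ℚ) ↥(F₁Bar M Lv)) n) :
    diaBar M Lv d x ∈ Submodule.torsionBy ℤ (Pic0 (AlgebraicClosure ℚ) ↥(F₁Bar M Lv)) n := by
  rw [Submodule.mem_torsionBy_iff] at hx ⊢
  rw [← map_zsmul, hx, map_zero]

end Bar

end Fermat.Agent.W1
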