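/-
W1 = [GRΓ1] (S48), package [A5-ES1] (helper2), part 3 (port of `JA/ES1_helper2_Integral`):
**integrality of `j(q)` and `j(q^ℓ)` over each other** inside `F' = k·F₁ M (L ℓ)`:
`β j` is integral over `ℤ[α j]` (the modular equation, from the Igusa package (A)) and, for `ℓ`
prime, `ℓ ∤ M L`, `α j` is integral over `ℤ[β j]` (its Atkin–Lehner transform).
Here `k` is any field with `ℚ ⊆ k ⊆ ℂ` containing a primitive `ℓ`-th root of unity.
-/
import Mathlib
import Fermat.Agent.W1.ES1A_helper2_Norm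
import Fermat.Agent.JA.ES1_helper2_Integral

set_option autoImplicit false
set_option linter.unusedSectionVars false
set_option linter.style.haveILetI false

namespace Fermat.Agent.W1

open ModularCurve AlgebraicCurve IntermediateField Fermat.Agent.X0N Fermat.Agent.Igusa Polynomial
open Fermat.Agent.JA Fermat.Agent.GR

variable {k : Type*} [Field k] [Algebra ℚ k] [Algebra k ℂ] [IsScalarTower ℚ k ℂ]
  {M L ℓ : ℕ} [NeZero M] [NeZero L] [NeZero ℓ]

omit [IsScalarTower ℚ k ℂ] [NeZero M] [NeZero L] in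
/-- **the modular equation** (in the form delivered by the Igusa package (A)): `j(q^ℓ)` satisfies
a monic polynomial with coefficients in `(algebraic integers of k)[j(q)]`, inside `F'`. -/
theorem exists_monic_evalInt_jK (hprim : ∃ z : k, IsPrimitiveRoot z ℓ) :
    ∃ p : Polynomial (Polynomial ↥(intSubring k)), p.Monic ∧
      eval₂ (evalInt (algebraMap k ↥(laurentBaseChange k (F₁ M (L * ℓ))))
        (heckeAlphaBar k M L ℓ (jK k M L))) (heckeBetaBar k M L ℓ (jK k M L)) p = 0 := by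
  obtain ⟨ζ, hζ⟩ := exists_zeta (L := k) (N := ℓ) hprim
  have hζA : (ζ : k) ∈ intSubring k := by
    rw [mem_intSubring]
    refine ⟨X ^ ℓ - 1, monic_X_pow_sub_C 1 (NeZero.ne ℓ), ?_⟩
    have h1 := zeta_pow_N hζ
    have h2 : (ζ : k) ^ ℓ = 1 := by rw [← Units.val_pow_eq_pow_val, h1, Units.val_one]
    simp [h2]
  have hpos : 0 < ℓ := Nat.pos_of_ne_zero (NeZero.ne ℓ)
  obtain ⟨p, hp, h0⟩ := exists_monic_xSer hζ (intSubring k) hζA (Idx.diag ℓ ℓ dvd_rfl hpos)
  refine ⟨p, hp, ?_⟩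
  -- transport the relation to `F'`
  set F' := laurentBaseChange k (F₁ M (L * ℓ)) with hF'
  have hinj : Function.Injective ((qExpand k ℓ).comp F'.val.toRingHom) :=
    (qExpand_injective ℓ).comp Subtype.val_injective
  apply hinj
  rw [map_zero, Polynomial.hom_eval₂]
  have hcoe_a : ((heckeAlphaBar k M L ℓ (jK k M L) : ↥F') : LaurentSeries k) = jqModC k := by
    rw [coe_heckeAlphaBar, coe_jK]
    have h := coeffEmb_qExpand_jq k 1
    rwa [qExpand_one_apply, qExpand_one_apply] at h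
  have hcoe_b : ((heckeBetaBar k M L ℓ (jK k M L) : ↥F') : LaurentSeries k) =
      qExpand k ℓ (jqModC k) := by
    rw [coe_heckeBetaBar, coe_jK]
    have h := coeffEmb_qExpand_jq k 1
    rw [qExpand_one_apply, qExpand_one_apply] at h
    rw [h]
  have hhom : ((qExpand k ℓ).comp F'.val.toRingHom).comp
      (evalInt (algebraMap k ↥F') (heckeAlphaBar k M L ℓ (jK k M L))) =
        jtHom (intSubring k) ℓ := by
    rw [comp_evalInt]
    apply Polynomial.ringHom_ext
    · intro a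
      rw [evalInt_C, jtHom_apply, Polynomial.map_C, aeval_C]
      show qExpand k ℓ (algebraMap k (LaurentSeries k) (a : k)) = _
      rw [algebraMap_laurentSeries_eq_single, qExpand_single, mul_zero]
      exact (algebraMap_laurentSeries_eq_single k _).symm
    · rw [evalInt_X, jtHom_apply, Polynomial.map_X, aeval_X]
      show qExpand k ℓ ((heckeAlphaBar k M L ℓ (jK k M L) : ↥F') : LaurentSeries k) = _
      rw [hcoe_a]
      rfl
  rw [hhom]
  have hx : ((qExpand k ℓ).comp F'.val.toRingHom) (heckeBetaBar k M L ℓ (jK k M L)) =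
      xSer k ζ ℓ (Idx.diag ℓ ℓ dvd_rfl hpos) := by
    show qExpand k ℓ ((heckeBetaBar k M L ℓ (jK k M L) : ↥F') : LaurentSeries k) = _
    haveI : NeZero (ℓ * ℓ) := ⟨mul_ne_zero (NeZero.ne ℓ) (NeZero.ne ℓ)⟩
    rw [hcoe_b, xSer_diag, qExpand_qExpand]
  rw [hx]
  exact h0

omit [IsScalarTower ℚ k ℂ] [NeZero M] [NeZero L] in
/-- **`j(q^ℓ)` is integral over `ℤ[j(q)]`** in `F'`. -/
theorem isIntegral_heckeBetaBar_jK (hprim : ∃ z : k, IsPrimitiveRoot z ℓ) :
    IsIntegral ↥(Algebra.adjoin ℤ {heckeAlphaBar k M L ℓ (jK k M L)})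
      (heckeBetaBar k M L ℓ (jK k M L)) := by
  obtain ⟨p, hp, h0⟩ := exists_monic_evalInt_jK (k := k) (M := M) (L := L) (ℓ := ℓ) hprim
  exact isIntegral_adjoin_int_of_evalInt
    (algebraMap k ↥(laurentBaseChange k (F₁ M (L * ℓ)))) _ _ p hp h0

/-- `⟨d⟩ j = j`. -/
theorem diaAlg_jK (d : (ZMod M)ˣ) : diaAlg M L d (jK k M L) = jK k M L := by
  have h1 : jK k M L = jdBarML (k := k) (one_dvd (M * L)) := by
    apply Subtype.ext
    rw [coe_jK, coe_jdBarML, qExpand_one_apply]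
  rw [h1, diaAlg_jdBarML]

/-- `W (α j) = β j`. -/
theorem atkinLehnerBar₁_alpha_jK (hℓ : ℓ.Prime) (hℓN : ¬ ℓ ∣ M * L) :
    atkinLehnerBar₁ k M L ℓ hℓ hℓN (heckeAlphaBar k M L ℓ (jK k M L)) =
      heckeBetaBar k M L ℓ (jK k M L) := by
  have hℓM : ¬ ℓ ∣ M := fun h => hℓN (Dvd.dvd.mul_right h L)
  have hu : IsUnit ((ℓ : ZMod M)) := by
    rw [ZMod.isUnit_iff_coprime]
    exact (Nat.Prime.coprime_iff_not_dvd hℓ).mpr hℓM
  obtain ⟨u, hu⟩ := hu
  have hd : ((u⁻¹ : (ZMod M)ˣ) : ZMod M) * (ℓ : ZMod M) = 1 := by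
    rw [← hu, ← Units.val_mul, inv_mul_cancel, Units.val_one]
  rw [atkinLehnerBar₁_alpha hℓ hℓN u⁻¹ hd, diaAlg_jK]

/-- **`j(q)` is integral over `ℤ[j(q^ℓ)]`** in `F'` (`ℓ` prime, `ℓ ∤ M L`): the Atkin–Lehner
transform of the modular equation. -/
theorem isIntegral_heckeAlphaBar_jK (hprim : ∃ z : k, IsPrimitiveRoot z ℓ) (hℓ : ℓ.Prime)
    (hℓN : ¬ ℓ ∣ M * L) :
    IsIntegral ↥(Algebra.adjoin ℤ {heckeBetaBar k M L ℓ (jK k M L)})
      (heckeAlphaBar k M L ℓ (jK k M L)) := by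
  obtain ⟨p, hp, h0⟩ := exists_monic_evalInt_jK (k := k) (M := M) (L := L) (ℓ := ℓ) hprim
  refine isIntegral_adjoin_int_of_evalInt
    (algebraMap k ↥(laurentBaseChange k (F₁ M (L * ℓ)))) _ _ p hp ?_
  have h1 := congrArg (atkinLehnerBar₁ k M L ℓ hℓ hℓN) h0
  rw [map_zero, Polynomial.hom_eval₂, comp_evalInt, atkinLehnerBar₁_alpha_jK,
    atkinLehnerBar₁_beta] at h1
  have h2 : (atkinLehnerBar₁ k M L ℓ hℓ hℓN).comp
      (algebraMap k ↥(laurentBaseChange k (F₁ M (L * ℓ)))) =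
      algebraMap k ↥(laurentBaseChange k (F₁ M (L * ℓ))) :=
    RingHom.ext fun c => atkinLehnerBar₁_algebraMap hℓ hℓN c
  rw [h2] at h1
  exact h1

end Fermat.Agent.W1
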