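/-
W1 = [GRΓ1] (S48), package [A5-ES1] (helper2), part 4 (port of `JA/ES1_helper2_Cusp`):
**the cusp chart** `V = (j - b)⁻¹` of `F' = k·F₁ M (L ℓ)`: `α V` is integral over
`ℤ[β V, u(β V)⁻¹]` for some `u ∈ ℤ[X]` with `u(0) = 1`, and symmetrically.
-/
import Mathlib
import Fermat.Agent.W1.ES1A_helper2_Integral
import Fermat.Agent.JA.ES1_helper2_Cusp

set_option autoImplicit false
set_option linter.unusedSectionVars false
set_option linter.style.haveILetI false

namespace Fermat.Agent.W1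

open ModularCurve AlgebraicCurve IntermediateField Fermat.Agent.X0N Fermat.Agent.Igusa Polynomial
open Fermat.Agent.JA Fermat.Agent.GR

variable {k : Type*} [Field k] [Algebra ℚ k]
  {M L ℓ : ℕ} [NeZero ℓ]

/-- `(j - b)⁻¹` is transcendental over `k`. -/
theorem transcendental_inv_jK_sub (k : Type*) [Field k] [Algebra ℚ k] (M L : ℕ) (b : ℤ) :
    Transcendental k ((jK k M L - (b : ↥(laurentBaseChange k (F₁ M L))))⁻¹) := by
  intro h
  rw [IsAlgebraic.inv_iff] at h
  apply transcendental_jK k M L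
  have hb : IsAlgebraic k ((b : ℤ) : ↥(laurentBaseChange k (F₁ M L))) := by
    have := isAlgebraic_algebraMap (R := k)
      (A := ↥(laurentBaseChange k (F₁ M L))) ((b : ℤ) : k)
    rwa [map_intCast] at this
  have := h.add hb
  rwa [sub_add_cancel] at this

/-- transcendence over `ℤ` of the image of `(j - b)⁻¹` under an injective `k`-algebra map. -/
theorem transcendental_int_map_inv_jK_sub {F' : Type*} [Field F'] [Algebra k F']
    (φ : ↥(laurentBaseChange k (F₁ M L)) →ₐ[k] F') (b : ℤ) :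
    Transcendental ℤ (φ ((jK k M L - (b : ↥(laurentBaseChange k (F₁ M L))))⁻¹)) := by
  have h1 : Transcendental k
      (φ ((jK k M L - (b : ↥(laurentBaseChange k (F₁ M L))))⁻¹)) := by
    intro h
    exact transcendental_inv_jK_sub k M L b ((isAlgebraic_algHom_iff φ φ.injective).mp h)
  haveI : CharZero k := algebraRat.charZero k
  exact h1.restrictScalars (R := ℤ) (algebraMap ℤ k).injective_int

theorem aeval_map_inv_jK_sub_ne_zero {F' : Type*} [Field F'] [Algebra k F']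
    (φ : ↥(laurentBaseChange k (F₁ M L)) →ₐ[k] F') (b : ℤ) (u : ℤ[X])
    (hu : u ≠ 0) :
    aeval (φ ((jK k M L - (b : ↥(laurentBaseChange k (F₁ M L))))⁻¹)) u ≠ 0 :=
  fun h => transcendental_int_map_inv_jK_sub φ b ⟨u, hu, h⟩

theorem jK_sub_intCast_ne_zero (k : Type*) [Field k] [Algebra ℚ k] (M L : ℕ) (b : ℤ) :
    jK k M L - (b : ↥(laurentBaseChange k (F₁ M L))) ≠ 0 := by
  intro h
  apply transcendental_inv_jK_sub k M L b
  rw [h, inv_zero]
  exact isAlgebraic_zero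

variable [Algebra k ℂ] [IsScalarTower ℚ k ℂ]

/-- **the cusp chart**: `α V` is integral over `ℤ[β V, u(β V)⁻¹]`, `V = (j - b)⁻¹`, for some
`u ∈ ℤ[X]` with `u(0) = 1`. -/
theorem exists_isIntegral_heckeAlphaBar_inv_jK_sub (hprim : ∃ z : k, IsPrimitiveRoot z ℓ)
    (b : ℤ) :
    ∃ u : ℤ[X], u.coeff 0 = 1 ∧
      aeval (heckeBetaBar k M L ℓ
        ((jK k M L - (b : ↥(laurentBaseChange k (F₁ M L))))⁻¹)) u ≠ 0 ∧
      IsIntegral ↥(Algebra.adjoin ℤ
        {heckeBetaBar k M L ℓ ((jK k M L - (b : ↥(laurentBaseChange k (F₁ M L))))⁻¹),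
          (aeval (heckeBetaBar k M L ℓ
            ((jK k M L - (b : ↥(laurentBaseChange k (F₁ M L))))⁻¹)) u)⁻¹})
        (heckeAlphaBar k M L ℓ
          ((jK k M L - (b : ↥(laurentBaseChange k (F₁ M L))))⁻¹)) := by
  have hj := jK_sub_intCast_ne_zero k M L b
  have hx : heckeAlphaBar k M L ℓ (jK k M L) -
      (b : ↥(laurentBaseChange k (F₁ M (L * ℓ)))) ≠ 0 := by
    have := (map_ne_zero (heckeAlphaBar k M L ℓ)).mpr hj
    rwa [map_sub, map_intCast] at this
  have hy : heckeBetaBar k M L ℓ (jK k M L) -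
      (b : ↥(laurentBaseChange k (F₁ M (L * ℓ)))) ≠ 0 := by
    have := (map_ne_zero (heckeBetaBar k M L ℓ)).mpr hj
    rwa [map_sub, map_intCast] at this
  have hint := isIntegral_adjoin_sub_intCast b
    (isIntegral_heckeBetaBar_jK (k := k) (M := M) (L := L) (ℓ := ℓ) hprim)
  obtain ⟨u, hu0, hu⟩ := exists_isIntegral_inv_of_isIntegral hx hy hint
  have hV : heckeBetaBar k M L ℓ
      ((jK k M L - (b : ↥(laurentBaseChange k (F₁ M L))))⁻¹) =
      (heckeBetaBar k M L ℓ (jK k M L) -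
        (b : ↥(laurentBaseChange k (F₁ M (L * ℓ)))))⁻¹ := by
    rw [map_inv₀, map_sub, map_intCast]
  have hU : heckeAlphaBar k M L ℓ
      ((jK k M L - (b : ↥(laurentBaseChange k (F₁ M L))))⁻¹) =
      (heckeAlphaBar k M L ℓ (jK k M L) -
        (b : ↥(laurentBaseChange k (F₁ M (L * ℓ)))))⁻¹ := by
    rw [map_inv₀, map_sub, map_intCast]
  have hne : aeval (heckeBetaBar k M L ℓ
      ((jK k M L - (b : ↥(laurentBaseChange k (F₁ M L))))⁻¹)) u ≠ 0 := by
    apply aeval_map_inv_jK_sub_ne_zero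
    intro h
    rw [h, coeff_zero] at hu0
    exact zero_ne_one hu0
  refine ⟨u, hu0, hne, ?_⟩
  rw [hV] at hne ⊢
  rw [hU]
  exact hu hne

variable [NeZero M] [NeZero L]

/-- the mirror statement: `β V` is integral over `ℤ[α V, u(α V)⁻¹]`. -/
theorem exists_isIntegral_heckeBetaBar_inv_jK_sub (hprim : ∃ z : k, IsPrimitiveRoot z ℓ)
    (hℓ : ℓ.Prime) (hℓN : ¬ ℓ ∣ M * L) (b : ℤ) :
    ∃ u : ℤ[X], u.coeff 0 = 1 ∧
      aeval (heckeAlphaBar k M L ℓ
        ((jK k M L - (b : ↥(laurentBaseChange k (F₁ M L))))⁻¹)) u ≠ 0 ∧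
      IsIntegral ↥(Algebra.adjoin ℤ
        {heckeAlphaBar k M L ℓ ((jK k M L - (b : ↥(laurentBaseChange k (F₁ M L))))⁻¹),
          (aeval (heckeAlphaBar k M L ℓ
            ((jK k M L - (b : ↥(laurentBaseChange k (F₁ M L))))⁻¹)) u)⁻¹})
        (heckeBetaBar k M L ℓ
          ((jK k M L - (b : ↥(laurentBaseChange k (F₁ M L))))⁻¹)) := by
  have hj := jK_sub_intCast_ne_zero k M L b
  have hx : heckeAlphaBar k M L ℓ (jK k M L) -
      (b : ↥(laurentBaseChange k (F₁ M (L * ℓ)))) ≠ 0 := by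
    have := (map_ne_zero (heckeAlphaBar k M L ℓ)).mpr hj
    rwa [map_sub, map_intCast] at this
  have hy : heckeBetaBar k M L ℓ (jK k M L) -
      (b : ↥(laurentBaseChange k (F₁ M (L * ℓ)))) ≠ 0 := by
    have := (map_ne_zero (heckeBetaBar k M L ℓ)).mpr hj
    rwa [map_sub, map_intCast] at this
  have hint := isIntegral_adjoin_sub_intCast b
    (isIntegral_heckeAlphaBar_jK (k := k) (M := M) (L := L) (ℓ := ℓ) hprim hℓ hℓN)
  obtain ⟨u, hu0, hu⟩ := exists_isIntegral_inv_of_isIntegral hy hx hint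
  have hV : heckeAlphaBar k M L ℓ
      ((jK k M L - (b : ↥(laurentBaseChange k (F₁ M L))))⁻¹) =
      (heckeAlphaBar k M L ℓ (jK k M L) -
        (b : ↥(laurentBaseChange k (F₁ M (L * ℓ)))))⁻¹ := by
    rw [map_inv₀, map_sub, map_intCast]
  have hU : heckeBetaBar k M L ℓ
      ((jK k M L - (b : ↥(laurentBaseChange k (F₁ M L))))⁻¹) =
      (heckeBetaBar k M L ℓ (jK k M L) -
        (b : ↥(laurentBaseChange k (F₁ M (L * ℓ)))))⁻¹ := by
    rw [map_inv₀, map_sub, map_intCast]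
  have hne : aeval (heckeAlphaBar k M L ℓ
      ((jK k M L - (b : ↥(laurentBaseChange k (F₁ M L))))⁻¹)) u ≠ 0 := by
    apply aeval_map_inv_jK_sub_ne_zero
    intro h
    rw [h, coeff_zero] at hu0
    exact zero_ne_one hu0
  refine ⟨u, hu0, hne, ?_⟩
  rw [hV] at hne ⊢
  rw [hU]
  exact hu hne

end Fermat.Agent.W1
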