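/-
W1 = [GRΓ1] (S48), package [A5] (helper4), part 1: **Eichler–Shimura at place level, abstract
assembly with a diamond** (generalisation of `JA/ES_helper4_Main2.es_place_abstract₂`).

For `Γ₁(M)` the Kronecker congruence for the norm of `c - ψ (ι y)` along `φ` reads
`ρ₂ n = (c̃^ℓ - w) (c̃ - (Φ⁻¹ • ρ y)^ℓ)` where `w = Φ • ρ (⟨ℓ⟩ y)` is no longer `Φ • ρ y`; all that
is used of `w` is its value at `r P`, namely `(ρ y)(Q₂)^ℓ` for a second good place `Q₂` of `Ft`
(`Q₂ = Φ⁻¹ • r (⟨ℓ⟩⁻¹ P)` in the application).  Conclusion: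
`r_* (T P) = [Φ • r P] + ℓ [Q₂]` for the correspondence `T = ψ_* φ^*`.
-/
import Mathlib
import Fermat.Agent.JA.ES_helper4_Main2

set_option autoImplicit false
set_option linter.unusedSectionVars false
set_option linter.style.haveILetI false

open AlgebraicCurve Polynomial

open Fermat.Agent.JA

namespace Fermat.Agent.W1

section AssemblyDia

variable {K F F' : Type*} [Field K] [Field F] [Field F'] [Algebra K F] [Algebra K F']
  [HasPrincipalDivisors K F']
  {k Ft : Type*} [Field k] [Field Ft] [Algebra k Ft]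

set_option maxHeartbeats 1600000 in
/-- **Eichler–Shimura at place level (abstract form, two chart rings, second place `Q₂`).** -/
theorem es_place_abstract_dia [Infinite k]
    (φ ψ : F →ₐ[K] F') (hφ : φ.toRingHom.IsIntegral) (hψ : ψ.toRingHom.IsIntegral)
    (hdeg' : ∀ W : Place K F', W.deg = 1)
    (A : ValuationSubring K) (res : A →+* k) (hres : Function.Surjective res)
    (r : Place K F → Place k Ft)
    (Φ : SemilinearAut k Ft) (ℓ : ℕ) (hΦ : ∀ a : k, SemilinearAut.baseAut Φ a = a ^ ℓ)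
    {𝔅₁ 𝔅₂ : Type*} (ι : 𝔅₁ → F) (ρ : 𝔅₁ → Ft) (ι₂ : 𝔅₂ → F) (ρ₂ : 𝔅₂ → Ft)
    (good₁ good : Place K F → Prop) (goodk : Place k Ft → Prop)
    (hdegk : ∀ Q, goodk Q → Q.deg = 1)
    (heval : ∀ P, good₁ P → ∀ y : 𝔅₁, ∃ a : A,
      HasValueAt P (ι y) (a : K) ∧ HasValueAt (r P) (ρ y) (res a))
    (heval₂ : ∀ P, good P → ∀ n : 𝔅₂, ∃ a : A,
      HasValueAt P (ι₂ n) (a : K) ∧ HasValueAt (r P) (ρ₂ n) (res a))
    (hgood_r : ∀ P, good P → goodk (r P)) (hgood_r₁ : ∀ P, good₁ P → goodk (r P))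
    (hreg : ∀ (y : 𝔅₁) (Q : Place k Ft), goodk Q → ρ y ∈ Q.toValuationSubring)
    (hG2 : ∀ P, good P → ∀ W ∈ Place.fiberAlong φ hφ P, good₁ (W.restrictAlong ψ hψ))
    (hsep : ∀ T : Finset (Place k Ft), (∀ Q ∈ T, goodk Q) → ∀ Q₀ ∈ T,
      ∃ y : 𝔅₁, HasValueAt Q₀ (ρ y) 0 ∧ ∀ Q ∈ T, Q ≠ Q₀ → ¬ HasValueAt Q (ρ y) 0)
    (hspec : ∀ (P : Place K F) (z : F') (a : Place K F' → K),
      (∀ W ∈ Place.fiberAlong φ hφ P, HasValueAt W z (a W)) →
      HasValueAt P (normAlong φ z)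
        (∏ W ∈ Place.fiberAlong φ hφ P, a W ^ W.ramificationIndexAlong φ))
    (P : Place K F) (hP : good P) (Q₂ : Place k Ft) (hQ₂ : goodk Q₂) (hΦP : goodk (Φ • r P))
    (hkron : ∀ (y : 𝔅₁) (c : A), ∃ (n : 𝔅₂) (w : Ft),
      ι₂ n = normAlong φ (algebraMap K F' (c : K) - ψ (ι y)) ∧
      ρ₂ n = (algebraMap k Ft (res c ^ ℓ) - w) * (algebraMap k Ft (res c) - (Φ⁻¹ • ρ y) ^ ℓ) ∧
      HasValueAt (r P) w (valueAt Q₂ (ρ y) ^ ℓ)) :
    Finsupp.mapDomain r (Divisor.correspondence φ ψ hφ hψ (Finsupp.single P 1))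
      = Finsupp.single (Φ • r P) 1 + Finsupp.single Q₂ (ℓ : ℤ) := by
  classical
  set fib := Place.fiberAlong φ hφ P with hfib
  -- unfold the correspondence
  rw [correspondence_single φ ψ hφ hψ hdeg' P, Finsupp.mapDomain_finsetSum]
  simp only [Finsupp.mapDomain_single]
  -- the right hand side as a sum over `Bool`
  let q₂ : Bool → Place k Ft := fun b => if b then Φ • r P else Q₂
  let e₂ : Bool → ℕ := fun b => if b then 1 else ℓ
  have hrhs : Finsupp.single (Φ • r P) (1 : ℤ) + Finsupp.single Q₂ (ℓ : ℤ)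
      = ∑ b ∈ (Finset.univ : Finset Bool), Finsupp.single (q₂ b) ((e₂ b : ℕ) : ℤ) := by
    rw [Fintype.sum_bool]
    simp [q₂, e₂]
  rw [hrhs]
  -- goodness of all the places involved
  have hgP := hgood_r P hP
  have hgW : ∀ W ∈ fib, goodk (r (W.restrictAlong ψ hψ)) := fun W hW =>
    hgood_r₁ _ (hG2 P hP W hW)
  have hg₂ : ∀ b, goodk (q₂ b) := by
    intro b
    cases b
    · exact hQ₂
    · exact hΦP
  -- every reduction has a value at good places
  have hval : ∀ (y : 𝔅₁) (Q : Place k Ft), goodk Q → HasValueAt Q (ρ y) (valueAt Q (ρ y)) :=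
    fun y Q hQ => hasValueAt_valueAt_of_mem (hdegk Q hQ) (hreg y Q hQ)
  -- the key polynomial identity
  have hpoly : ∀ y : 𝔅₁,
      ∏ W ∈ fib, (X - C (valueAt (r (W.restrictAlong ψ hψ)) (ρ y))) ^ W.ramificationIndexAlong φ
        = ∏ b ∈ (Finset.univ : Finset Bool), (X - C (valueAt (q₂ b) (ρ y))) ^ e₂ b := by
    intro y
    apply Polynomial.funext
    intro x
    obtain ⟨c, rfl⟩ := hres x
    rw [eval_prod, eval_prod, Fintype.prod_bool]
    simp only [eval_pow, eval_sub, eval_X, eval_C, q₂, e₂, if_true, pow_one, Bool.false_eq_true,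
      if_false]
    -- values of `y` upstairs
    have hW : ∀ W ∈ fib, ∃ a : A, HasValueAt W (ψ (ι y)) (a : K) ∧
        valueAt (r (W.restrictAlong ψ hψ)) (ρ y) = res a := by
      intro W hW
      obtain ⟨a, ha1, ha2⟩ := heval _ (hG2 P hP W hW) y
      exact ⟨a, (hasValueAt_restrictAlong_iff ψ hψ W (ι y) a).mp ha1, ha2.valueAt_eq⟩
    choose! aW haW1 haW2 using hW
    obtain ⟨n, w, hn1, hn2, hw⟩ := hkron y c
    -- value of the norm at `P`
    have h1 : HasValueAt P (ι₂ n)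
        (∏ W ∈ fib, ((c : K) - (aW W : K)) ^ W.ramificationIndexAlong φ) := by
      rw [hn1]
      exact hspec P _ (fun W => (c : K) - (aW W : K)) fun W hW =>
        (HasValueAt.algebraMap' W (c : K)).sub (haW1 W hW)
    obtain ⟨b, hb1, hb2⟩ := heval₂ P hP n
    have hb : (b : K) = ∏ W ∈ fib, ((c : K) - (aW W : K)) ^ W.ramificationIndexAlong φ :=
      hb1.unique h1
    have hb' : b = ∏ W ∈ fib, (c - aW W) ^ W.ramificationIndexAlong φ := by
      apply Subtype.ext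
      rw [hb]
      push_cast
      rfl
    -- value of the reduction of the norm at `r P`
    have h2 : HasValueAt (r P) (ρ₂ n)
        ((res c ^ ℓ - valueAt Q₂ (ρ y) ^ ℓ) * (res c - valueAt (Φ • r P) (ρ y))) := by
      rw [hn2]
      refine HasValueAt.mul ((HasValueAt.algebraMap' _ _).sub hw)
        ((HasValueAt.algebraMap' _ _).sub ?_)
      have h3 : HasValueAt (r P) (Φ⁻¹ • ρ y)
          (SemilinearAut.baseAut Φ⁻¹ (valueAt (Φ • r P) (ρ y))) := by
        apply (hasValueAt_smul_left_iff Φ⁻¹).mpr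
        rw [inv_inv]
        exact hval y _ hΦP
      have h4 := h3.pow ℓ
      rwa [← hΦ, SemilinearAut.baseAut_inv, RingEquiv.apply_symm_apply] at h4
    have h5 := hb2.unique h2
    -- conclude
    have hfrob : ∀ u v : k, u ^ ℓ - v ^ ℓ = (u - v) ^ ℓ := by
      intro u v
      rw [← hΦ, ← hΦ, ← hΦ, map_sub]
    rw [Finset.prod_congr rfl fun W hW => by rw [haW2 W hW]]
    rw [hfrob, hb', map_prod] at h5
    simp only [map_pow, map_sub] at h5
    rw [h5]
    ring
  -- apply the multiset lemma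
  refine sum_single_eq_of_prod_eq (k := k) fib Finset.univ
    (fun W => r (W.restrictAlong ψ hψ)) (fun W => W.ramificationIndexAlong φ) q₂ e₂ ?_
  intro Q₀ hQ₀
  set T : Finset (Place k Ft) :=
    fib.image (fun W => r (W.restrictAlong ψ hψ)) ∪ Finset.univ.image q₂ with hT
  have hTgood : ∀ Q ∈ T, goodk Q := by
    intro Q hQ
    rw [hT, Finset.mem_union, Finset.mem_image, Finset.mem_image] at hQ
    rcases hQ with ⟨W, hW, rfl⟩ | ⟨b, _, rfl⟩
    · exact hgW W hW
    · exact hg₂ b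
  have hQ₀T : Q₀ ∈ T := by
    rw [hT, Finset.mem_union, Finset.mem_image, Finset.mem_image]
    rcases hQ₀ with ⟨W, hW, rfl⟩ | ⟨b, hb, rfl⟩
    · exact Or.inl ⟨W, hW, rfl⟩
    · exact Or.inr ⟨b, hb, rfl⟩
  obtain ⟨y, hy0, hyne⟩ := hsep T hTgood Q₀ hQ₀T
  refine ⟨fun Q => valueAt Q (ρ y), hy0.valueAt_eq, ?_, ?_, hpoly y⟩
  · intro W hW hne h0
    have hmem : r (W.restrictAlong ψ hψ) ∈ T := by
      rw [hT, Finset.mem_union, Finset.mem_image]
      exact Or.inl ⟨W, hW, rfl⟩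
    apply hyne _ hmem hne
    have h0' : valueAt (r (W.restrictAlong ψ hψ)) (ρ y) = 0 := h0
    have := hval y _ (hgW W hW)
    rwa [h0'] at this
  · intro b hb hne h0
    have hmem : q₂ b ∈ T := by
      rw [hT, Finset.mem_union, Finset.mem_image, Finset.mem_image]
      exact Or.inr ⟨b, hb, rfl⟩
    apply hyne _ hmem hne
    have h0' : valueAt (q₂ b) (ρ y) = 0 := h0
    have := hval y _ (hg₂ b)
    rwa [h0'] at this

end AssemblyDia

end Fermat.Agent.W1
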