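/-
W1 = [GRΓ1] (S48), package [A5] (helper7), abstract part: the Kronecker congruence with TWO series
(generalisation of `JA/ES_helper4_Kron.exists_kron_of_norm_formula`).

For `Γ₁(M) ∩ Γ₀(ℓ)` the norm formula of `c - α y` over `β F₁` reads
`ν(q^ℓ) = ∏_{b<ℓ} (c - y(ζ^b q)) · (c - y'(q^{ℓ²}))` with `y' = ⟨ℓ⟩^{±1} y` a SECOND series over
`A`.  Then `ν` is defined over `A` and reduces to `(c̃^ℓ - ỹ^φ) (c̃ - ỹ'(q^ℓ))`.
-/
import Mathlib
import Fermat.Agent.JA.ES_helper4_Kron

set_option autoImplicit false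
set_option linter.unusedSectionVars false

open HahnSeries

namespace Fermat.Agent.W1

open ModularCurve Fermat.Agent.Igusa Fermat.Agent.JA

section Kron

variable {A Ω k : Type*} [CommRing A] [CommRing Ω] [Field k]
  (sub : A →+* Ω) (res : A →+* k)
  (ℓ : ℕ) [NeZero ℓ] [ExpChar k ℓ]

/-- **abstract Kronecker congruence with two series.** -/
theorem exists_kron_of_norm_formula₂ (hsub : Function.Injective sub) (ζ : Aˣ) (hζ : ζ ^ ℓ = 1)
    (y y' : LaurentSeries A) (c : A)
    (ν : LaurentSeries Ω)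
    (hν : qExpand Ω ℓ ν
      = (∏ b ∈ Finset.range ℓ, twist (Units.map (sub : A →* Ω) ζ ^ b)
            (HahnSeries.C (sub c) - coeffMap sub y))
        * (HahnSeries.C (sub c) - qExpand Ω (ℓ ^ 2) (coeffMap sub y'))) :
    ∃ n : LaurentSeries A, coeffMap sub n = ν ∧
      coeffMap res n = (HahnSeries.C (res c ^ ℓ) - coeffMap (frobenius k ℓ) (coeffMap res y))
        * (HahnSeries.C (res c) - qExpand k ℓ (coeffMap res y')) := by
  -- the product over `A`
  set PA : LaurentSeries A :=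
    (∏ b ∈ Finset.range ℓ, twist (ζ ^ b) (HahnSeries.C c - y))
      * (HahnSeries.C c - qExpand A (ℓ ^ 2) y') with hPA
  have hsubPA : coeffMap sub PA = qExpand Ω ℓ ν := by
    rw [hν, hPA, map_mul, map_prod]
    congr 1
    · refine Finset.prod_congr rfl fun b _ => ?_
      rw [coeffMap_twist, map_sub, Fermat.Agent.JA.coeffMap_C, map_pow]
    · rw [map_sub, Fermat.Agent.JA.coeffMap_C, coeffMap_qExpand]
  -- coefficients of `PA` off `ℓ ℤ` vanish
  have hvan : ∀ n : ℤ, ¬ (ℓ : ℤ) ∣ n → PA.coeff n = 0 := by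
    intro n hn
    apply hsub
    rw [map_zero, ← coeffMap_coeff, hsubPA, qExpand_coeff_of_not_dvd ℓ _ hn]
  refine ⟨qContract ℓ PA, ?_, ?_⟩
  · rw [coeffMap_qContract, hsubPA, qContract_qExpand]
  · apply qExpand_injective (R := k) ℓ
    rw [← coeffMap_qExpand, qExpand_qContract ℓ PA hvan, hPA, map_mul, map_prod]
    have h1 : ∀ b ∈ Finset.range ℓ,
        coeffMap res (twist (ζ ^ b) (HahnSeries.C c - y))
          = HahnSeries.C (res c) - coeffMap res y := by
      intro b _
      rw [coeffMap_twist, map_pow, res_eq_one_of_pow_eq_one res ℓ ζ hζ, one_pow, twist_one,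
        map_sub, Fermat.Agent.JA.coeffMap_C]
    have hA : coeffMap (frobenius k ℓ) (HahnSeries.C (res c) - coeffMap res y)
        = HahnSeries.C (res c ^ ℓ) - coeffMap (frobenius k ℓ) (coeffMap res y) := by
      rw [map_sub, Fermat.Agent.JA.coeffMap_C, frobenius_def]
    have hB : coeffMap res (HahnSeries.C c - qExpand A (ℓ ^ 2) y')
        = qExpand k ℓ (HahnSeries.C (res c) - qExpand k ℓ (coeffMap res y')) := by
      have : NeZero (ℓ * ℓ) := ⟨Nat.mul_ne_zero (NeZero.ne ℓ) (NeZero.ne ℓ)⟩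
      have e : qExpand k (ℓ ^ 2) (coeffMap res y') = qExpand k (ℓ * ℓ) (coeffMap res y') :=
        qExpand_congr (by ring) _
      rw [map_sub, map_sub, Fermat.Agent.JA.coeffMap_C, coeffMap_qExpand, qExpand_C, e,
        qExpand_qExpand]
    rw [Finset.prod_congr rfl h1, Finset.prod_const, Finset.card_range, laurent_pow_char ℓ,
      hA, hB, map_mul]

end Kron

end Fermat.Agent.W1
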