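/-
W1 — helper7 — PORT of `JA/S37Asm_helper7_CoeffAut` to the field `F₁ M 1` of `X₁(M)` (against `[W1Api M]`);
only the field-specific declarations are restated, the generic ones are imported from the original.
Original header:
-/
/-
J-A, S37 end assembly (helper7), part 2: the coefficientwise semilinear automorphisms of the
function field `F̃ = F₁C k M 1 ⊂ k((q))` (the analogue of the Prelude's
`arithmeticGalois` for an arbitrary field `k` and an arbitrary ring automorphism of `k`).
-/
import Mathlib
import Fermat.Prelude.Def_ModularCurve_X0ModL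
import Fermat.Prelude.Def_AlgebraicCurve_BaseChangeGalois
import Fermat.Agent.W1.API_helper7_Lemmas
import Fermat.Agent.JA.S37Asm_helper7_CoeffAut

set_option autoImplicit false

open HahnSeries IntermediateField AlgebraicCurve

open Fermat.Agent.JA

namespace Fermat.Agent.W1

open ModularCurve

section CoeffAutC

variable (k : Type*) [Field k] (M : ℕ)

variable {k M} in
theorem coeffMap_mem_modularFunctionFieldFullC (τ : k →+* k) {x : LaurentSeries k}
    (hx : x ∈ F₁C k M 1) : coeffMap τ x ∈ F₁C k M 1 :=
  coeffMap_mem_F₁C τ hx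

/-- the coefficientwise action of a ring automorphism of `k` on `F̃`. -/
noncomputable def coeffRingAutC (τ : k ≃+* k) :
    (F₁C k M 1) ≃+* (F₁C k M 1) where
  toFun x := ⟨coeffMap (τ : k →+* k) (x : LaurentSeries k),
    coeffMap_mem_modularFunctionFieldFullC _ x.2⟩
  invFun x := ⟨coeffMap (τ.symm : k →+* k) (x : LaurentSeries k),
    coeffMap_mem_modularFunctionFieldFullC _ x.2⟩
  left_inv x := Subtype.ext <| by
    show coeffMap (τ.symm : k →+* k) (coeffMap (τ : k →+* k) (x : LaurentSeries k))
      = (x : LaurentSeries k)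
    rw [coeffMap_coeffMap,
      coeffMap_congr (g := RingHom.id k) (RingHom.ext fun a => τ.symm_apply_apply a)
        (x : LaurentSeries k),
      coeffMap_id]
  right_inv x := Subtype.ext <| by
    show coeffMap (τ : k →+* k) (coeffMap (τ.symm : k →+* k) (x : LaurentSeries k))
      = (x : LaurentSeries k)
    rw [coeffMap_coeffMap,
      coeffMap_congr (g := RingHom.id k) (RingHom.ext fun a => τ.apply_symm_apply a)
        (x : LaurentSeries k),
      coeffMap_id]
  map_mul' x y :=
    Subtype.ext (map_mul (coeffMap (τ : k →+* k)) (x : LaurentSeries k) (y : LaurentSeries k))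
  map_add' x y :=
    Subtype.ext (map_add (coeffMap (τ : k →+* k)) (x : LaurentSeries k) (y : LaurentSeries k))

@[simp]
theorem coe_coeffRingAutC_apply (τ : k ≃+* k) (x : F₁C k M 1) :
    (coeffRingAutC k M τ x : LaurentSeries k) = coeffMap (τ : k →+* k) (x : LaurentSeries k) :=
  rfl

theorem coeffRingAutC_algebraMap (τ : k ≃+* k) (a : k) :
    coeffRingAutC k M τ (algebraMap k (F₁C k M 1) a)
      = algebraMap k (F₁C k M 1) (τ a) :=
  Subtype.ext (coeffMap_algebraMap (τ : k →+* k) a)

/-- the coefficientwise semilinear automorphisms of `F̃`. -/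
noncomputable def coeffAutC : RingAut k →* SemilinearAut k (F₁C k M 1) where
  toFun τ := ⟨(coeffRingAutC k M τ, τ), fun a => coeffRingAutC_algebraMap k M τ a⟩
  map_one' := by
    refine Subtype.ext (Prod.ext (RingEquiv.ext fun x => Subtype.ext ?_) rfl)
    show coeffMap ((1 : RingAut k) : k →+* k) (x : LaurentSeries k) = (x : LaurentSeries k)
    rw [show ((1 : RingAut k) : k →+* k) = RingHom.id k from RingHom.ext fun _ => rfl,
      coeffMap_id]
  map_mul' σ τ := by
    refine Subtype.ext (Prod.ext (RingEquiv.ext fun x => Subtype.ext ?_) rfl)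
    show coeffMap ((σ * τ : RingAut k) : k →+* k) (x : LaurentSeries k)
      = coeffMap (σ : k →+* k) (coeffMap (τ : k →+* k) (x : LaurentSeries k))
    rw [coeffMap_coeffMap]
    exact coeffMap_congr (RingHom.ext fun _ => rfl) _

@[simp]
theorem toRingAut_coeffAutC (τ : RingAut k) :
    SemilinearAut.toRingAut (coeffAutC k M τ) = coeffRingAutC k M τ :=
  rfl

@[simp]
theorem baseAut_coeffAutC (τ : RingAut k) :
    SemilinearAut.baseAut (coeffAutC k M τ) = τ :=
  rfl

theorem coe_coeffAutC_smul (τ : RingAut k) (x : F₁C k M 1) :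
    ((coeffAutC k M τ • x : F₁C k M 1) : LaurentSeries k)
      = coeffMap (τ : k →+* k) (x : LaurentSeries k) :=
  rfl

end CoeffAutC

end Fermat.Agent.W1
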