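/-
W1 — helper7 — PORT of `JA/S37Asm_helper7_Red` to the field `F₁ M 1` of `X₁(M)`: from a place
reduction map to the `(ℓ, A)`-clause of the Eichler–Shimura congruence for `J₁(M)`.

Inputs (all for a fixed `A | ℓ`, `k := ResidueField A`, `F̃₁ := F₁C k M 1`):
* `r`, `hr : IsPlaceReductionModL A (F₁ M 1) (F₁C k M 1) r`, `hgen : PrincipalGeneratedByIntegral …`;
* (EQUIV) `r (σ • P) = coeffAutC k M (resAut A σ) • r P` for `σ` in the decomposition group of `A`;
* (ES) the Eichler–Shimura congruence on `Pic⁰` for ABSTRACT endomorphisms `T` (the Hecke operator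
  `T_ℓ`) and `D` (the diamond operator `⟨ℓ⟩^{±1}`, Galois equivariant):
  `red (T x) = Φ • red x + ℓ • Φ⁻¹ • red (D x)`;
* (INJ) `red` is injective on `p`-power torsion.
Output: the clause `red (σ₀ • σ₀ • x - T (σ₀ • x) + ℓ • D x) = 0` + inertia invariance + Frobenius
compatibility + injectivity (the shape of `GR/TOP_lead_System.StageIData.clause`, with `D`).
-/
import Mathlib
import Fermat.Agent.W1.S37Asm_helper7_CoeffAut
import Fermat.Agent.W1.API_helper7_Lemmas
import Fermat.Agent.JA.S37Asm_helper7_Red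

set_option autoImplicit false
set_option linter.style.haveILetI false

open HahnSeries IntermediateField AlgebraicCurve

open Fermat.Agent.JA

namespace Fermat.Agent.W1

open ModularCurve

section AbstractES

/-- the Eichler–Shimura congruence with a diamond operator implies the quadratic relation after
reduction. -/
theorem red_quadratic_eq_zero_dia {J N G H : Type*} [AddCommGroup J] [AddCommGroup N] [Group G]
    [Group H] [DistribMulAction G J] [DistribMulAction H N] (red : J →+ N) (T D : J → J)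
    (σ₀ : G) (Φ : H) (ℓ : ℕ) (hfrob : ∀ x, red (σ₀ • x) = Φ • red x)
    (hD : ∀ x, D (σ₀ • x) = σ₀ • D x)
    (hES : ∀ x, red (T x) = Φ • red x + ℓ • (Φ⁻¹ • red (D x))) (x : J) :
    red (σ₀ • σ₀ • x - T (σ₀ • x) + ℓ • D x) = 0 := by
  rw [map_add, map_sub, map_nsmul, hES, hD, hfrob (σ₀ • x), hfrob x, hfrob (D x), inv_smul_smul]
  abel

end AbstractES

section Clause

set_option synthInstance.maxHeartbeats 400000
set_option maxHeartbeats 1600000

variable {A : ValuationSubring (AlgebraicClosure ℚ)} {M : ℕ}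
variable {r : Place (AlgebraicClosure ℚ) (F₁Bar M 1) →
      Place (IsLocalRing.ResidueField A) (F₁C (IsLocalRing.ResidueField A) M 1)}
variable (hr : IsPlaceReductionModL A (F₁ M 1) (F₁C (IsLocalRing.ResidueField A) M 1) r)
  (hgen : PrincipalGeneratedByIntegral A (IsLocalRing.residue A) (F₁ M 1)
    (F₁C (IsLocalRing.ResidueField A) M 1))

/-- (EQUIV) ⇒ the reduction map on `Pic⁰` intertwines the Galois action of the decomposition group
with the coefficientwise action on `J̃₁`. -/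
theorem reductionPic0Along_smul
    (hequiv : ∀ (σ : A.decompositionSubgroup ℚ)
      (P : Place (AlgebraicClosure ℚ) (F₁Bar M 1)),
      r (arithmeticGalois (F₁ M 1) σ.1 • P)
        = coeffAutC (IsLocalRing.ResidueField A) M (resAut A σ) • r P)
    (σ : A.decompositionSubgroup ℚ) (x : J₁ M) :
    reductionPic0Along r hr hgen ((σ : AlgebraicClosure ℚ ≃ₐ[ℚ] AlgebraicClosure ℚ) • x)
      = coeffAutC (IsLocalRing.ResidueField A) M (resAut A σ) • reductionPic0Along r hr hgen x := by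
  obtain ⟨D, rfl⟩ := Pic0.mk_surjective x
  rw [galois_smul_pic0_def, SemilinearAut.pic0_smul_mk, reductionPic0Along_mk,
    reductionPic0Along_mk, SemilinearAut.pic0_smul_mk]
  refine congrArg Pic0.mk (Subtype.ext ?_)
  rw [coe_reductionDegZeroAlong, SemilinearAut.coe_degZeroSMulHom, SemilinearAut.coe_degZeroSMulHom,
    coe_reductionDegZeroAlong]
  exact mapDomain_smul_of_equivariant r _ _ (hequiv σ) _

/-- **the `(ℓ, A)`-clause for `J₁(M)` from a place reduction**, for abstract `T = T_ℓ` and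
`D = ⟨ℓ⟩^{±1}`. -/
theorem exists_red_of_placeReduction (T D : J₁ M → J₁ M) (p : ℕ) {ℓ : ℕ} (hℓ : ℓ.Prime)
    (hA : A.LiesOverPrime ℓ)
    (hequiv : ∀ (σ : A.decompositionSubgroup ℚ)
      (P : Place (AlgebraicClosure ℚ) (F₁Bar M 1)),
      r (arithmeticGalois (F₁ M 1) σ.1 • P)
        = coeffAutC (IsLocalRing.ResidueField A) M (resAut A σ) • r P)
    (hD : ∀ (σ : AlgebraicClosure ℚ ≃ₐ[ℚ] AlgebraicClosure ℚ) (x : J₁ M), D (σ • x) = σ • D x)
    (hES : ∀ (σ₀ : A.decompositionSubgroup ℚ), A.IsFrobeniusAt σ₀.1 ℓ → ∀ x : J₁ M,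
      reductionPic0Along r hr hgen (T x)
        = coeffAutC (IsLocalRing.ResidueField A) M (resAut A σ₀) • reductionPic0Along r hr hgen x
          + ℓ • ((coeffAutC (IsLocalRing.ResidueField A) M (resAut A σ₀))⁻¹ •
              reductionPic0Along r hr hgen (D x)))
    (hinj : ∀ x : J₁ M, (∃ n : ℕ, p ^ n • x = 0) → reductionPic0Along r hr hgen x = 0 → x = 0) :
    ∃ (N : Type) (_ : AddCommGroup N) (red : J₁ M →+ N) (Fr : N →+ N)
      (σ₀ : AlgebraicClosure ℚ ≃ₐ[ℚ] AlgebraicClosure ℚ),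
      A.IsFrobeniusAt σ₀ ℓ ∧
      (∀ σ ∈ A.inertiaSubgroupIn ℚ, ∀ x : J₁ M, red (σ • x) = red x) ∧
      (∀ σ : AlgebraicClosure ℚ ≃ₐ[ℚ] AlgebraicClosure ℚ, A.IsFrobeniusAt σ ℓ →
        ∀ x : J₁ M, red (σ • x) = Fr (red x)) ∧
      (∀ x : J₁ M, red (σ₀ • σ₀ • x - T (σ₀ • x) + ℓ • D x) = 0) ∧
      (∀ x : J₁ M, (∃ n : ℕ, p ^ n • x = 0) → red x = 0 → x = 0) := by
  obtain ⟨σ₀, hσ₀⟩ := Fermat.Agent.CFT.LocForm.exists_isFrobeniusAt A hℓ hA
  have hsm := reductionPic0Along_smul hr hgen hequiv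
  have hfrob : ∀ σ : AlgebraicClosure ℚ ≃ₐ[ℚ] AlgebraicClosure ℚ, A.IsFrobeniusAt σ ℓ →
      ∀ x : J₁ M, reductionPic0Along r hr hgen (σ • x)
        = coeffAutC (IsLocalRing.ResidueField A) M
            (resAut A ⟨σ₀, hσ₀.mem_decompositionSubgroup⟩) • reductionPic0Along r hr hgen x := by
    intro σ hσ x
    have h := hsm ⟨σ, hσ.mem_decompositionSubgroup⟩ x
    rw [resAut_eq_of_isFrobeniusAt A hσ hσ₀] at h
    exact h
  refine ⟨Pic0 (IsLocalRing.ResidueField A) ↥(F₁C (IsLocalRing.ResidueField A) M 1), inferInstance,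
    reductionPic0Along r hr hgen,
    DistribSMul.toAddMonoidHom _ (coeffAutC (IsLocalRing.ResidueField A) M
      (resAut A ⟨σ₀, hσ₀.mem_decompositionSubgroup⟩)), σ₀, hσ₀, ?_, ?_, ?_, hinj⟩
  · rintro σ ⟨τ, hτ, rfl⟩ x
    have h := hsm τ x
    rw [resAut_eq_one_of_mem_inertia A hτ, map_one, one_smul] at h
    exact h
  · intro σ hσ x
    exact hfrob σ hσ x
  · intro x
    exact red_quadratic_eq_zero_dia (reductionPic0Along r hr hgen) T D σ₀
      (coeffAutC (IsLocalRing.ResidueField A) M (resAut A ⟨σ₀, hσ₀.mem_decompositionSubgroup⟩)) ℓ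
      (hfrob σ₀ hσ₀) (hD σ₀) (hES ⟨σ₀, hσ₀.mem_decompositionSubgroup⟩ hσ₀) x

end Clause

end Fermat.Agent.W1
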