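/-
W1 = [GRΓ1] (S48), package [A5] (helper4), part 5: **(KRON-N) with a diamond, on the Gauss ring and
on the chart rings of `X₁(M)`** (port of `JA/ES_helper4_{KronChart,KronGauss}` for the swapped
correspondence `T'_ℓ = β_* α^*`).

For Gauss-integral `y`, `yu` with `yu = ⟨ℓ⟩ y` (as functions) and `c ∈ A`, the norm
`N_{F'/αF}(c - β y)` is Gauss-integral and its reduction is `(c̃^ℓ - Φ•ỹu)(c̃ - (Φ⁻¹•ỹ)^ℓ)`; if
moreover `y` lies in the chart ring of `z` and `β z` is integral over `α(A[z])`, the norm lies in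
the chart ring.
-/
import Mathlib
import Fermat.Agent.W1.ES_helper7_Kron2
import Fermat.Agent.W1.S37Asm_helper7_Red
import Fermat.Agent.W1.RED_helper7_Defs
import Fermat.Agent.W1.HECKEF_helper4_Maps
import Fermat.Agent.JA.ES_helper4_Integral
import Fermat.Agent.JA.BASE_helper1_Cyclo

set_option autoImplicit false
set_option linter.unusedSectionVars false
set_option linter.style.haveILetI false

open HahnSeries IntermediateField AlgebraicCurve

open Fermat.Agent.JA

namespace Fermat.Agent.W1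

open ModularCurve Fermat.Agent.X0N Fermat.Agent.Igusa

set_option synthInstance.maxHeartbeats 400000
set_option maxHeartbeats 1600000

local notation "Ω" => AlgebraicClosure ℚ

section IntegralClosure

variable {L : Type*} [Field L] [Algebra ℚ L] (A : ValuationSubring L) (M : ℕ)
  {F' : Type*} [Field F'] [Algebra L F']

/-- integrality of `ψ` over `φ` on `A[z]` from the generator `z`. -/
theorem isIntegralElem_of_coeffSubring
    (z : ↥(laurentBaseChange L (F₁ M 1)))
    (φ ψ : ↥(laurentBaseChange L (F₁ M 1)) →ₐ[L] F')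
    (hz : (φ.toRingHom.comp (algebraMap ↥(coeffSubring A M z) _)).IsIntegralElem (ψ z))
    (x : ↥(coeffSubring A M z)) :
    (φ.toRingHom.comp (algebraMap ↥(coeffSubring A M z) _)).IsIntegralElem
      (ψ (algebraMap ↥(coeffSubring A M z) _ x)) := by
  letI : Algebra ↥(coeffSubring A M z) F' :=
    (φ.toRingHom.comp (algebraMap ↥(coeffSubring A M z) _)).toAlgebra
  obtain ⟨x, hx⟩ := x
  show IsIntegral ↥(coeffSubring A M z) (ψ x)
  induction hx using Subring.closure_induction with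
  | mem x hx =>
    rcases hx with ⟨a, rfl⟩ | hx
    · have e : ψ (algebraMap L _ (a : L))
          = algebraMap ↥(coeffSubring A M z) F' ⟨_, algebraMap_mem_coeffSubring z a⟩ := by
        show _ = φ (algebraMap L _ (a : L))
        rw [AlgHom.commutes, AlgHom.commutes]
      rw [e]
      exact isIntegral_algebraMap
    · rw [Set.mem_singleton_iff] at hx
      rw [hx]
      exact hz
  | zero => rw [map_zero]; exact isIntegral_zero
  | one => rw [map_one]; exact isIntegral_one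
  | add x y _ _ hx hy => rw [map_add]; exact hx.add hy
  | neg x _ hx => rw [map_neg]; exact hx.neg
  | mul x y _ _ hx hy => rw [map_mul]; exact hx.mul hy

end IntegralClosure

section Gauss

variable {ℓ : ℕ} [hℓ : Fact ℓ.Prime] {A : ValuationSubring Ω} {M : ℕ}

/-- **(KRON-N) with a diamond, on the Gauss ring.** -/
theorem gauss_kron (hA : A.LiesOverPrime ℓ) (h : GaussRes A M (IsLocalRing.residue A))
    (σ₀ : A.decompositionSubgroup ℚ) (hσ₀ : A.IsFrobeniusAt σ₀.1 ℓ)
    (ζ : (↥A)ˣ) (hζ : ζ ^ ℓ = 1) (yu y : ↥(gaussRing A M)) (c : ↥A)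
    (hnormf : haveI : NeZero ℓ := ⟨hℓ.out.ne_zero⟩
      qExpand Ω ℓ
          ((normAlong (heckeAlphaBar Ω M 1 ℓ)
            (algebraMap Ω ↥(F₁Bar M (1 * ℓ)) ((c : ↥A) : Ω)
              - heckeBetaBar Ω M 1 ℓ (gaussι A M y)) : ↥(F₁Bar M 1)) : LaurentSeries Ω)
        = (∏ b ∈ Finset.range ℓ,
            twist (Units.map (A.subtype : ↥A →* Ω) ζ ^ b)
              (HahnSeries.C ((c : ↥A) : Ω) - ((gaussι A M yu : ↥(F₁Bar M 1)) : LaurentSeries Ω)))
          * (HahnSeries.C ((c : ↥A) : Ω)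
              - qExpand Ω (ℓ ^ 2) ((gaussι A M y : ↥(F₁Bar M 1)) : LaurentSeries Ω))) :
    haveI : NeZero ℓ := ⟨hℓ.out.ne_zero⟩
    ∃ n : ↥(gaussRing A M),
      gaussι A M n = normAlong (heckeAlphaBar Ω M 1 ℓ)
        (algebraMap Ω ↥(F₁Bar M (1 * ℓ)) ((c : ↥A) : Ω)
          - heckeBetaBar Ω M 1 ℓ (gaussι A M y)) ∧
      gaussρF h n
        = (algebraMap (IsLocalRing.ResidueField A) _ (IsLocalRing.residue A c ^ ℓ)
            - coeffAutC (IsLocalRing.ResidueField A) M (resAut A σ₀) • gaussρF h yu)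
          * (algebraMap (IsLocalRing.ResidueField A) _ (IsLocalRing.residue A c)
            - ((coeffAutC (IsLocalRing.ResidueField A) M (resAut A σ₀))⁻¹ • gaussρF h y) ^ ℓ) := by
  haveI : NeZero ℓ := ⟨hℓ.out.ne_zero⟩
  haveI : CharP (IsLocalRing.ResidueField A) ℓ := charP_residueField hA
  haveI : ExpChar (IsLocalRing.ResidueField A) ℓ := ExpChar.prime hℓ.out
  set ν : ↥(F₁Bar M 1) :=
    normAlong (heckeAlphaBar Ω M 1 ℓ)
      (algebraMap Ω ↥(F₁Bar M (1 * ℓ)) ((c : ↥A) : Ω)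
        - heckeBetaBar Ω M 1 ℓ (gaussι A M y)) with hν
  have hsub : Function.Injective (A.subtype : ↥A →+* Ω) := Subtype.val_injective
  obtain ⟨n, hn1, hn2⟩ := exists_kron_of_norm_formula₂ (A.subtype : ↥A →+* Ω)
    (IsLocalRing.residue A) ℓ hsub ζ hζ (yu : LaurentSeries ↥A) (y : LaurentSeries ↥A) c
    (ν : LaurentSeries Ω) hnormf
  have hng : n ∈ gaussRing A M := by
    rw [mem_gaussRing_iff, hn1]
    exact ν.2
  have hnι : gaussι A M ⟨n, hng⟩ = ν := Subtype.ext hn1
  refine ⟨⟨n, hng⟩, hnι, ?_⟩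
  apply Subtype.ext
  have hfrob : ((resAut A σ₀ : IsLocalRing.ResidueField A ≃+* IsLocalRing.ResidueField A) :
      IsLocalRing.ResidueField A →+* IsLocalRing.ResidueField A)
      = frobenius (IsLocalRing.ResidueField A) ℓ := by
    ext x
    show resAut A σ₀ x = x ^ ℓ
    rw [resAut_apply]
    exact hσ₀.smul_residue_eq x
  have h1 : ((coeffAutC (IsLocalRing.ResidueField A) M (resAut A σ₀) • gaussρF h yu :
      ↥(F₁C (IsLocalRing.ResidueField A) M 1)) :
        LaurentSeries (IsLocalRing.ResidueField A))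
      = coeffMap (frobenius (IsLocalRing.ResidueField A) ℓ)
          (coeffMap (IsLocalRing.residue A) (yu : LaurentSeries ↥A)) := by
    rw [coe_coeffAutC_smul, hfrob, coe_gaussρF]
  have h2 : ((((coeffAutC (IsLocalRing.ResidueField A) M (resAut A σ₀))⁻¹ • gaussρF h y) ^ ℓ :
      ↥(F₁C (IsLocalRing.ResidueField A) M 1)) :
        LaurentSeries (IsLocalRing.ResidueField A))
      = qExpand (IsLocalRing.ResidueField A) ℓ
          (coeffMap (IsLocalRing.residue A) (y : LaurentSeries ↥A)) := by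
    rw [SubmonoidClass.coe_pow, laurent_pow_char ℓ, ← map_inv, coe_coeffAutC_smul,
      coeffMap_coeffMap, coe_gaussρF]
    congr 1
    have e : (frobenius (IsLocalRing.ResidueField A) ℓ).comp
        (((resAut A σ₀)⁻¹ : RingAut (IsLocalRing.ResidueField A)) :
          IsLocalRing.ResidueField A →+* IsLocalRing.ResidueField A)
        = RingHom.id _ := by
      rw [← hfrob]
      ext x
      show resAut A σ₀ ((resAut A σ₀)⁻¹ x) = x
      exact (resAut A σ₀).apply_symm_apply x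
    rw [coeffMap_congr e, coeffMap_id]
  have e3 : ∀ a : IsLocalRing.ResidueField A,
      ((algebraMap (IsLocalRing.ResidueField A)
        ↥(F₁C (IsLocalRing.ResidueField A) M 1) a :
          ↥(F₁C (IsLocalRing.ResidueField A) M 1)) :
        LaurentSeries (IsLocalRing.ResidueField A)) = HahnSeries.C a := by
    intro a
    rw [HahnSeries.C_apply, ← algebraMap_laurentSeries_eq_single]
    rfl
  show coeffMap (IsLocalRing.residue A) n = _
  rw [hn2, MulMemClass.coe_mul, AddSubgroupClass.coe_sub, AddSubgroupClass.coe_sub, h1, h2, e3,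
    e3]

/-- **(KRON-N) with a diamond, on a chart ring.** -/
theorem chart_kron (hA : A.LiesOverPrime ℓ) (h : GaussRes A M (IsLocalRing.residue A))
    (z : ↥(F₁Bar M 1))
    (σ₀ : A.decompositionSubgroup ℚ) (hσ₀ : A.IsFrobeniusAt σ₀.1 ℓ)
    (ζ : (↥A)ˣ) (hζ : ζ ^ ℓ = 1) (yu y : ↥(chartRing A M z)) (c : ↥A)
    (hnormf : haveI : NeZero ℓ := ⟨hℓ.out.ne_zero⟩
      qExpand Ω ℓ
          ((normAlong (heckeAlphaBar Ω M 1 ℓ)
            (algebraMap Ω ↥(F₁Bar M (1 * ℓ)) ((c : ↥A) : Ω)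
              - heckeBetaBar Ω M 1 ℓ (chartι A M z y)) : ↥(F₁Bar M 1)) : LaurentSeries Ω)
        = (∏ b ∈ Finset.range ℓ,
            twist (Units.map (A.subtype : ↥A →* Ω) ζ ^ b)
              (HahnSeries.C ((c : ↥A) : Ω) - ((chartι A M z yu : ↥(F₁Bar M 1)) : LaurentSeries Ω)))
          * (HahnSeries.C ((c : ↥A) : Ω)
              - qExpand Ω (ℓ ^ 2) ((chartι A M z y : ↥(F₁Bar M 1)) : LaurentSeries Ω)))
    (hint : haveI : NeZero ℓ := ⟨hℓ.out.ne_zero⟩
      ((heckeAlphaBar Ω M 1 ℓ).toRingHom.comp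
        (algebraMap ↥(coeffSubring A M z) _)).IsIntegralElem (heckeBetaBar Ω M 1 ℓ z)) :
    haveI : NeZero ℓ := ⟨hℓ.out.ne_zero⟩
    ∃ n : ↥(chartRing A M z),
      chartι A M z n = normAlong (heckeAlphaBar Ω M 1 ℓ)
        (algebraMap Ω ↥(F₁Bar M (1 * ℓ)) ((c : ↥A) : Ω)
          - heckeBetaBar Ω M 1 ℓ (chartι A M z y)) ∧
      chartρF h z n
        = (algebraMap (IsLocalRing.ResidueField A) _ (IsLocalRing.residue A c ^ ℓ)
            - coeffAutC (IsLocalRing.ResidueField A) M (resAut A σ₀) • chartρF h z yu)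
          * (algebraMap (IsLocalRing.ResidueField A) _ (IsLocalRing.residue A c)
            - ((coeffAutC (IsLocalRing.ResidueField A) M (resAut A σ₀))⁻¹ • chartρF h z y) ^ ℓ) := by
  haveI : NeZero ℓ := ⟨hℓ.out.ne_zero⟩
  obtain ⟨n, hn1, hn2⟩ := gauss_kron hA h σ₀ hσ₀ ζ hζ
    (Subring.inclusion (chartRing_le_gaussRing z) yu)
    (Subring.inclusion (chartRing_le_gaussRing z) y) c hnormf
  have hnint : IsIntegral ↥(coeffSubring A M z) (gaussι A M ⟨(n : LaurentSeries ↥A), n.2⟩) := by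
    have e0 : (⟨(n : LaurentSeries ↥A), n.2⟩ : ↥(gaussRing A M)) = n := rfl
    rw [e0, hn1]
    have e : algebraMap Ω ↥(F₁Bar M (1 * ℓ)) ((c : ↥A) : Ω)
        = heckeAlphaBar Ω M 1 ℓ
          (algebraMap ↥(coeffSubring A M z) ↥(F₁Bar M 1)
            ⟨_, algebraMap_mem_coeffSubring z c⟩) := by
      show _ = heckeAlphaBar Ω M 1 ℓ (algebraMap Ω _ ((c : ↥A) : Ω))
      rw [AlgHom.commutes]
    rw [e]
    exact isIntegral_normAlong_sub (heckeAlphaBar Ω M 1 ℓ) (heckeBetaBar Ω M 1 ℓ)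
      (isIntegralElem_of_coeffSubring A M z _ _ hint) _ _ (isIntegral_chartι z y)
  exact ⟨⟨(n : LaurentSeries ↥A), n.2, hnint⟩, hn1, hn2⟩

end Gauss

end Fermat.Agent.W1
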