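/-
W1 = [GRΓ1] (S48), package [A5] (helper4), part 6: **the localised chart ring** for the cusp chart of
`X₁(M)` (port of `JA/ES_helper4_CuspChart` for the swapped correspondence `T'_ℓ = β_* α^*`, with
the diamond).
-/
import Mathlib
import Fermat.Agent.W1.ES_helper4_Kron
import Fermat.Agent.JA.ES_helper4_CuspChart

set_option autoImplicit false
set_option linter.unusedSectionVars false
set_option linter.style.haveILetI false

open HahnSeries IntermediateField AlgebraicCurve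

open Fermat.Agent.JA

namespace Fermat.Agent.W1

open ModularCurve Fermat.Agent.X0N Fermat.Agent.Igusa

set_option synthInstance.maxHeartbeats 400000
set_option maxHeartbeats 1600000

local notation "Ω" => AlgebraicClosure ℚ

section ChartLoc

variable {L : Type*} [Field L] [Algebra ℚ L] (A : ValuationSubring L) (M : ℕ)

/-- the chart ring of `z` localised at `s`, inside the Gauss ring. -/
def chartLoc (z : ↥(laurentBaseChange L (F₁ M 1)))
    (s : ↥(chartRing A M z)) : Type _ :=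
  {n : ↥(gaussRing A M) // ∃ m : ℕ,
    (s : LaurentSeries ↥A) ^ m * (n : LaurentSeries ↥A) ∈ chartRing A M z}

variable {A M}
variable {k : Type*} [Field k] {π : ↥A →+* k}

theorem chartι_pow_mul (z : ↥(laurentBaseChange L (F₁ M 1)))
    (s : ↥(chartRing A M z)) (n : ↥(gaussRing A M)) (m : ℕ)
    (hm : (s : LaurentSeries ↥A) ^ m * (n : LaurentSeries ↥A) ∈ chartRing A M z) :
    chartι A M z ⟨_, hm⟩ = chartι A M z s ^ m * gaussι A M n := by
  apply Subtype.ext
  show coeffMap A.subtype ((s : LaurentSeries ↥A) ^ m * (n : LaurentSeries ↥A)) = _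
  rw [map_mul, map_pow]
  rfl

theorem chartρF_pow_mul (h : GaussRes A M π)
    (z : ↥(laurentBaseChange L (F₁ M 1)))
    (s : ↥(chartRing A M z)) (n : ↥(gaussRing A M)) (m : ℕ)
    (hm : (s : LaurentSeries ↥A) ^ m * (n : LaurentSeries ↥A) ∈ chartRing A M z) :
    chartρF h z ⟨_, hm⟩ = chartρF h z s ^ m * gaussρF h n := by
  apply Subtype.ext
  show coeffMap π ((s : LaurentSeries ↥A) ^ m * (n : LaurentSeries ↥A)) = _
  rw [map_mul, map_pow]
  rfl

/-- **(EVAL) on the localised chart ring.** -/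
theorem chartLoc_eval (h : GaussRes A M π)
    (z : ↥(laurentBaseChange L (F₁ M 1)))
    (r : Place L ↥(laurentBaseChange L (F₁ M 1)) →
      Place k ↥(F₁C k M 1))
    (hev : ChartEval h z r) (s : ↥(chartRing A M z))
    (P : Place L ↥(laurentBaseChange L (F₁ M 1))) (hP : GoodAt A M z P)
    (hsP : ∃ a : ↥A, IsUnit a ∧ HasValueAt P (chartι A M z s) (a : L))
    (n : chartLoc A M z s) :
    ∃ a : ↥A, HasValueAt P (gaussι A M n.1) (a : L) ∧
      HasValueAt (r P) (gaussρF h n.1) (π a) := by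
  obtain ⟨m, hm⟩ := n.2
  obtain ⟨as, has1, has2⟩ := hev P hP s
  obtain ⟨au, hu, hau⟩ := hsP
  have e : as = au := Subtype.ext (has1.unique hau)
  subst e
  obtain ⟨u, rfl⟩ := hu
  obtain ⟨a', ha'1, ha'2⟩ := hev P hP ⟨_, hm⟩
  rw [chartι_pow_mul] at ha'1
  rw [chartρF_pow_mul] at ha'2
  have hu0 : ((u : ↥A) : L) ≠ 0 := by
    intro h0
    have : (u : ↥A) = 0 := Subtype.ext h0
    exact u.ne_zero this
  have hπu0 : π (u : ↥A) ≠ 0 := (u.isUnit.map π).ne_zero
  have hinvL : (((u⁻¹ : (↥A)ˣ) : ↥A) : L) = ((u : ↥A) : L)⁻¹ := by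
    have h1 : ((u : ↥A) : L) * (((u⁻¹ : (↥A)ˣ) : ↥A) : L) = 1 := by
      rw [← MulMemClass.coe_mul, Units.mul_inv]; rfl
    exact eq_inv_of_mul_eq_one_right h1
  have hinvk : π ((u⁻¹ : (↥A)ˣ) : ↥A) = (π (u : ↥A))⁻¹ := by
    have h1 : π (u : ↥A) * π ((u⁻¹ : (↥A)ˣ) : ↥A) = 1 := by
      rw [← map_mul, Units.mul_inv, map_one]
    exact eq_inv_of_mul_eq_one_right h1
  refine ⟨a' * ((u⁻¹ : (↥A)ˣ) : ↥A) ^ m, ?_, ?_⟩
  · have h1 := hasValueAt_of_pow_mul m has1 hu0 ha'1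
    have e : ((a' * ((u⁻¹ : (↥A)ˣ) : ↥A) ^ m : ↥A) : L) = (a' : L) * (((u : ↥A) : L) ^ m)⁻¹ := by
      rw [MulMemClass.coe_mul, SubmonoidClass.coe_pow, hinvL, inv_pow]
    rw [e]
    exact h1
  · have h1 := hasValueAt_of_pow_mul m has2 hπu0 ha'2
    have e : π (a' * ((u⁻¹ : (↥A)ˣ) : ↥A) ^ m) = π a' * (π (u : ↥A) ^ m)⁻¹ := by
      rw [map_mul, map_pow, hinvk, inv_pow]
    rw [e]
    exact h1

end ChartLoc

section Kron

variable {ℓ : ℕ} [hℓ : Fact ℓ.Prime] {A : ValuationSubring Ω} {M : ℕ}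

/-- integrality of `ψ` over `φ` localised at `s`, on `A[z]`, from the generator `z`. -/
theorem isIntegral_closure_of_coeffSubring {F' : Type*} [Field F'] [Algebra Ω F']
    [i : Algebra ℤ F'] (z s : ↥(F₁Bar M 1))
    (φ ψ : ↥(F₁Bar M 1) →ₐ[Ω] F')
    (hz : IsIntegral ↥(Algebra.adjoin ℤ {φ z, (φ s)⁻¹}) (ψ z))
    (x : ↥(coeffSubring A M z)) :
    IsIntegral (Subring.closure (φ '' (coeffSubring A M z : Set ↥(F₁Bar M 1))
      ∪ {(φ s)⁻¹})) (ψ (x : ↥(F₁Bar M 1))) := by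
  obtain rfl : i = Ring.toIntAlgebra F' := Subsingleton.elim _ _
  set T := Subring.closure (φ '' (coeffSubring A M z : Set ↥(F₁Bar M 1))
      ∪ {(φ s)⁻¹}) with hT
  obtain ⟨x, hx⟩ := x
  show IsIntegral T (ψ x)
  induction hx using Subring.closure_induction with
  | mem x hx =>
    rcases hx with ⟨a, rfl⟩ | hx
    · have hmem : ψ (algebraMap Ω _ (a : Ω)) ∈ T := by
        rw [AlgHom.commutes, ← AlgHom.commutes φ]
        exact Subring.subset_closure (Or.inl ⟨_, algebraMap_mem_coeffSubring z a, rfl⟩)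
      exact isIntegral_algebraMap (R := T) (x := ⟨_, hmem⟩)
    · rw [Set.mem_singleton_iff] at hx
      rw [hx]
      refine isIntegral_of_adjoin_int_of_subset ?_ hz
      intro w hw
      rcases hw with rfl | hw
      · exact Subring.subset_closure (Or.inl ⟨z, self_mem_coeffSubring z, rfl⟩)
      · rw [Set.mem_singleton_iff] at hw
        rw [hw]
        exact Subring.subset_closure (Or.inr rfl)
  | zero => rw [map_zero]; exact isIntegral_zero
  | one => rw [map_one]; exact isIntegral_one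
  | add x y _ _ hx hy => rw [map_add]; exact hx.add hy
  | neg x _ hx => rw [map_neg]; exact hx.neg
  | mul x y _ _ hx hy => rw [map_mul]; exact hx.mul hy

/-- **(KRON-N) with a diamond, on the localised chart ring.** -/
theorem chartLoc_kron [i : Algebra ℤ ↥(F₁Bar M (1 * ℓ))]
    (hA : A.LiesOverPrime ℓ) (h : GaussRes A M (IsLocalRing.residue A))
    (z : ↥(F₁Bar M 1)) (s : ↥(chartRing A M z))
    (hsz : chartι A M z s ∈ coeffSubring A M z) (hs0 : chartι A M z s ≠ 0)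
    (σ₀ : A.decompositionSubgroup ℚ) (hσ₀ : A.IsFrobeniusAt σ₀.1 ℓ)
    (ζ : (↥A)ˣ) (hζ : ζ ^ ℓ = 1) (yu y : ↥(chartRing A M z)) (c : ↥A)
    (hnormf : haveI : NeZero ℓ := ⟨hℓ.out.ne_zero⟩
      qExpand Ω ℓ
          ((normAlong (heckeAlphaBar Ω M 1 ℓ)
            (algebraMap Ω ↥(F₁Bar M (1 * ℓ)) ((c : ↥A) : Ω)
              - heckeBetaBar Ω M 1 ℓ (chartι A M z y)) : ↥(F₁Bar M 1)) : LaurentSeries Ω)
        = (∏ b ∈ Finset.range ℓ,
            twist (Units.map (A.subtype : ↥A →* Ω) ζ ^ b)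
              (HahnSeries.C ((c : ↥A) : Ω) - ((chartι A M z yu : ↥(F₁Bar M 1)) : LaurentSeries Ω)))
          * (HahnSeries.C ((c : ↥A) : Ω)
              - qExpand Ω (ℓ ^ 2) ((chartι A M z y : ↥(F₁Bar M 1)) : LaurentSeries Ω)))
    (hint : haveI : NeZero ℓ := ⟨hℓ.out.ne_zero⟩
      IsIntegral ↥(Algebra.adjoin ℤ
        {heckeAlphaBar Ω M 1 ℓ z, (heckeAlphaBar Ω M 1 ℓ (chartι A M z s))⁻¹})
        (heckeBetaBar Ω M 1 ℓ z)) :
    haveI : NeZero ℓ := ⟨hℓ.out.ne_zero⟩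
    ∃ n : chartLoc A M z s,
      gaussι A M n.1 = normAlong (heckeAlphaBar Ω M 1 ℓ)
        (algebraMap Ω ↥(F₁Bar M (1 * ℓ)) ((c : ↥A) : Ω)
          - heckeBetaBar Ω M 1 ℓ (chartι A M z y)) ∧
      gaussρF h n.1
        = (algebraMap (IsLocalRing.ResidueField A) _ (IsLocalRing.residue A c ^ ℓ)
            - coeffAutC (IsLocalRing.ResidueField A) M (resAut A σ₀) • chartρF h z yu)
          * (algebraMap (IsLocalRing.ResidueField A) _ (IsLocalRing.residue A c)
            - ((coeffAutC (IsLocalRing.ResidueField A) M (resAut A σ₀))⁻¹ • chartρF h z y) ^ ℓ) := by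
  haveI : NeZero ℓ := ⟨hℓ.out.ne_zero⟩
  obtain ⟨n, hn1, hn2⟩ := gauss_kron hA h σ₀ hσ₀ ζ hζ
    (Subring.inclusion (chartRing_le_gaussRing z) yu)
    (Subring.inclusion (chartRing_le_gaussRing z) y) c hnormf
  -- localised integrality of the norm
  obtain ⟨m, hm⟩ := exists_isIntegral_pow_mul_normAlong
    (heckeAlphaBar Ω M 1 ℓ) (heckeBetaBar Ω M 1 ℓ)
    (coeffSubring A M z) ⟨chartι A M z s, hsz⟩ hs0
    (isIntegral_closure_of_coeffSubring z (chartι A M z s) _ _ hint)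
    ⟨_, algebraMap_mem_coeffSubring z c⟩ (chartι A M z y) (isIntegral_chartι z y)
  have hmem : (s : LaurentSeries ↥A) ^ m * (n : LaurentSeries ↥A) ∈ chartRing A M z := by
    have hg : (s : LaurentSeries ↥A) ^ m * (n : LaurentSeries ↥A) ∈ gaussRing A M :=
      (gaussRing A M).mul_mem ((gaussRing A M).pow_mem s.2.1 m) n.2
    refine ⟨hg, ?_⟩
    have e : gaussι A M ⟨_, hg⟩ = chartι A M z s ^ m * gaussι A M n := by
      apply Subtype.ext
      show coeffMap A.subtype ((s : LaurentSeries ↥A) ^ m * (n : LaurentSeries ↥A)) = _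
      rw [map_mul, map_pow]
      rfl
    rw [e, hn1]
    have e2 : (heckeAlphaBar Ω M 1 ℓ)
        (algebraMap Ω ↥(F₁Bar M 1) ((c : ↥A) : Ω))
        = algebraMap Ω ↥(F₁Bar M (1 * ℓ)) ((c : ↥A) : Ω) := AlgHom.commutes _ _
    rw [← e2]
    exact hm
  exact ⟨⟨n, m, hmem⟩, hn1, hn2⟩

end Kron

end Fermat.Agent.W1
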