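/-
W1 = [GRΓ1] (S48), package [A5] (helper4), part 3: **integral elements have integral
`q`-expansions**.

Let `A ⊂ ℚ̄` be a valuation subring over `ℓ`, `F_Ω = Ω·F₀ ⊆ Ω((q))`, `z` a series with integer
coefficients.  An element `w ∈ F_Ω` which satisfies a monic equation with coefficients in `A[z]`
is the image of a series over `A` (descent to a base `K₁`, where `R₁ = A ∩ K₁` is a discrete
valuation ring and `R₁((q))` is integrally closed — helper6's `exists_emb_eq_of_isIntegralElem`).
This makes the chart rings of `X₁(M)` stable under the diamond automorphisms.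
-/
import Mathlib
import Fermat.Agent.JA.SEP_helper6_Normal
import Fermat.Agent.JA.G1OMEGA_helper5_SatAlg
import Fermat.Agent.JA.G1OMEGA_helper5_Desc
import Fermat.Agent.JA.BC_helper9_DescBase

set_option autoImplicit false
set_option linter.unusedSectionVars false
set_option linter.style.haveILetI false
set_option maxHeartbeats 400000

open HahnSeries IntermediateField ModularCurve Polynomial Fermat.Agent.Igusa Fermat.Agent.X0N

open Fermat.Agent.JA

namespace Fermat.Agent.W1

local notation "Ω" => AlgebraicClosure ℚ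

section IntSer

variable {ℓ : ℕ} [Fact ℓ.Prime] {A : ValuationSubring Ω} (hA : A.LiesOverPrime ℓ)
  (F₀ : IntermediateField ℚ (LaurentSeries ℚ))

include hA in
/-- **an element of `F_Ω` integral over `A[z]` is a series over `A`.** -/
theorem exists_series_of_isIntegral
    (hF₀ : ∀ (K₁ : IntermediateField ℚ Ω) [IsDiscreteValuationRing ↥(baseRing A K₁)],
      laurentBaseChange ↥K₁ F₀ ≤ gaussField ↥(baseRing A K₁) ↥K₁)
    (zA : LaurentSeries ↥A) (hzA : ∀ K₁ : IntermediateField ℚ Ω,
      ∃ z₁ : LaurentSeries ↥(baseRing A K₁), coeffMap (baseIncl A K₁) z₁ = zA)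
    {w : LaurentSeries Ω} (hw : w ∈ laurentBaseChange Ω F₀)
    (P : (↥A)[X][X]) (hP : P.Monic)
    (h0 : eval₂ ((coeffMap A.subtype).comp (serEval zA)) w P = 0) :
    ∃ y : LaurentSeries ↥A, coeffMap A.subtype y = w := by
  classical
  -- a base containing all the constants
  set t : Finset Ω := P.coeffs.biUnion (fun q => q.coeffs.image (fun a : ↥A => (a : Ω))) with ht
  obtain ⟨K₁, hK₁, -, htK, w₁, hw₁F, hw₁⟩ :=
    (isBase_flatBase (ℓ := ℓ)).exists_ge_descent t hw
  haveI := hK₁.isDiscreteValuationRing hA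
  obtain ⟨z₁, hz₁⟩ := hzA K₁
  have hcoef : ∀ i k, (P.coeff i).coeff k ∈ Set.range (baseIncl A K₁) := by
    intro i k
    by_cases h0 : (P.coeff i).coeff k = 0
    · exact ⟨0, by rw [map_zero, h0]⟩
    · have hi : P.coeff i ∈ P.coeffs :=
        coeff_mem_coeffs (fun h => h0 (by rw [h, Polynomial.coeff_zero]))
      have hk : (P.coeff i).coeff k ∈ (P.coeff i).coeffs := coeff_mem_coeffs h0
      have hmem : (((P.coeff i).coeff k : ↥A) : Ω) ∈ K₁ :=
        htK _ (Finset.mem_biUnion.mpr ⟨_, hi, Finset.mem_image.mpr ⟨_, hk, rfl⟩⟩)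
      refine ⟨⟨⟨_, hmem⟩, ?_⟩, ?_⟩
      · rw [mem_baseRing_iff]
        exact (A.valuation_le_one_iff _).mpr ((P.coeff i).coeff k).2
      · apply Subtype.ext
        rfl
  -- lift the polynomial to the base
  have hlift : P ∈ lifts (mapRingHom (baseIncl A K₁)) := by
    rw [lifts_iff_coeff_lifts]
    intro i
    have h1 : P.coeff i ∈ lifts (baseIncl A K₁) := (lifts_iff_coeff_lifts _).mpr (hcoef i)
    obtain ⟨q, hq⟩ := (mem_lifts _).mp h1
    exact ⟨q, by rw [coe_mapRingHom, hq]⟩
  obtain ⟨P₁, hP₁, -, hmon⟩ := lifts_and_degree_eq_and_monic hlift hP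
  -- the integral equation over the base
  have hinjΩ : Function.Injective (coeffMap (algebraMap ↥K₁ Ω) :
      LaurentSeries ↥K₁ → LaurentSeries Ω) :=
    coeffMap_injective_h5 (algebraMap ↥K₁ Ω).injective
  have hcomp : (coeffMap (algebraMap ↥K₁ Ω)).comp
      ((emb ↥(baseRing A K₁) ↥K₁).comp (serEval z₁)) =
      ((coeffMap A.subtype).comp (serEval zA)).comp (mapRingHom (baseIncl A K₁)) := by
    have h1 : (coeffMap (algebraMap ↥K₁ Ω)).comp (emb ↥(baseRing A K₁) ↥K₁) =
        (coeffMap A.subtype).comp (coeffMap (baseIncl A K₁)) := by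
      refine RingHom.ext fun y => ?_
      exact (coeffMap_subtype_coeffMap_baseIncl y).symm
    rw [← RingHom.comp_assoc, h1, RingHom.comp_assoc, coeffMap_comp_serEval, hz₁,
      RingHom.comp_assoc]
  have hint : (emb ↥(baseRing A K₁) ↥K₁).IsIntegralElem w₁ := by
    refine ⟨P₁.map (serEval z₁), hmon.map _, ?_⟩
    apply hinjΩ
    rw [map_zero, eval₂_map, Polynomial.hom_eval₂, hcomp, ← eval₂_map, hP₁, hw₁]
    exact h0
  obtain ⟨y₁, hy₁⟩ := exists_emb_eq_of_isIntegralElem (hF₀ K₁ hw₁F) hint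
  refine ⟨coeffMap (baseIncl A K₁) y₁, ?_⟩
  rw [coeffMap_subtype_coeffMap_baseIncl, hy₁, hw₁]

end IntSer

end Fermat.Agent.W1
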