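/-
W1 = [GRΓ1] (S48), package [A5] (helper4), part 4: **the chart rings of `X₁(M)` are stable under
the diamond automorphisms**.

`diaBarAlg M d` : the diamond automorphism `⟨d⟩` of `F₁Bar M 1` (the `ℚ̄`-form of `diaAlg`);
for a chart coordinate `z` fixed by `⟨d⟩` and given by a series with integer coefficients
(`z = j`, `z = (j - b)⁻¹`), every `y` in the chart ring of `z` has a diamond transform
`chartDia … d y` in the chart ring, `chartι (chartDia d y) = ⟨d⟩ (chartι y)`.
-/
import Mathlib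
import Fermat.Agent.W1.ES_helper4_IntSer
import Fermat.Agent.W1.RED_helper7_Defs
import Fermat.Agent.W1.ES1A_helper2_Integral
import Fermat.Agent.JA.G1OMEGA_helper5_Sat

set_option autoImplicit false
set_option linter.unusedSectionVars false
set_option linter.style.haveILetI false
set_option maxHeartbeats 400000

open HahnSeries IntermediateField ModularCurve Polynomial Fermat.Agent.Igusa Fermat.Agent.X0N
  AlgebraicCurve

open Fermat.Agent.JA

namespace Fermat.Agent.W1

local notation "Ω" => AlgebraicClosure ℚ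

noncomputable section

section DiaBarAlg

variable (M Lv : ℕ) [NeZero M] [NeZero Lv]

/-- **the diamond automorphism `⟨d⟩` of the function field of level `Gpm M Lv` over `ℚ̄`.** -/
def diaBarAlg (d : (ZMod M)ˣ) : ↥(F₁Bar M Lv) ≃ₐ[Ω] ↥(F₁Bar M Lv) :=
  letI : Algebra Ω ℂ := complexEmbedding.toRingHom.toAlgebra
  haveI : IsScalarTower ℚ Ω ℂ := IsScalarTower.of_algebraMap_eq' (Subsingleton.elim _ _)
  diaAlg (k := Ω) M Lv d

theorem diaBarAlg_one : diaBarAlg M Lv 1 = 1 := by
  letI : Algebra Ω ℂ := complexEmbedding.toRingHom.toAlgebra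
  haveI : IsScalarTower ℚ Ω ℂ := IsScalarTower.of_algebraMap_eq' (Subsingleton.elim _ _)
  exact diaAlg_one (k := Ω) M Lv

theorem diaBarAlg_mul (d d' : (ZMod M)ˣ) :
    diaBarAlg M Lv (d * d') = diaBarAlg M Lv d * diaBarAlg M Lv d' := by
  letI : Algebra Ω ℂ := complexEmbedding.toRingHom.toAlgebra
  haveI : IsScalarTower ℚ Ω ℂ := IsScalarTower.of_algebraMap_eq' (Subsingleton.elim _ _)
  exact diaAlg_mul (k := Ω) M Lv d d'

theorem diaBarAlg_jK (d : (ZMod M)ˣ) : diaBarAlg M Lv d (jK Ω M Lv) = jK Ω M Lv := by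
  letI : Algebra Ω ℂ := complexEmbedding.toRingHom.toAlgebra
  haveI : IsScalarTower ℚ Ω ℂ := IsScalarTower.of_algebraMap_eq' (Subsingleton.elim _ _)
  exact diaAlg_jK (k := Ω) d

/-- the diamond automorphisms commute with the arithmetic Galois action. -/
theorem arithmeticGalois_mul_diaBarAlg (σ : Ω ≃ₐ[ℚ] Ω) (d : (ZMod M)ˣ) :
    arithmeticGalois (F₁ M Lv) σ * SemilinearAut.ofAlgAut (diaBarAlg M Lv d) =
      SemilinearAut.ofAlgAut (diaBarAlg M Lv d) * arithmeticGalois (F₁ M Lv) σ := by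
  letI : Algebra Ω ℂ := complexEmbedding.toRingHom.toAlgebra
  haveI : IsScalarTower ℚ Ω ℂ := IsScalarTower.of_algebraMap_eq' (Subsingleton.elim _ _)
  exact arithmeticGalois_mul_diaSL (k := Ω) M Lv σ d

theorem ofAlgAut_diaBarAlg_inv (d : (ZMod M)ˣ) :
    SemilinearAut.ofAlgAut (diaBarAlg M Lv d⁻¹) = (SemilinearAut.ofAlgAut (diaBarAlg M Lv d))⁻¹ := by
  rw [eq_inv_iff_mul_eq_one, ← map_mul, ← diaBarAlg_mul, inv_mul_cancel, diaBarAlg_one, map_one]

/-- the diamond operator on `Pic⁰` is the action of the diamond automorphism. -/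
theorem diaBar_apply (d : (ZMod M)ˣ) (x : Pic0 Ω ↥(F₁Bar M Lv)) :
    diaBar M Lv d x = SemilinearAut.ofAlgAut (diaBarAlg M Lv d) • x := rfl

end DiaBarAlg

section Stable

variable {ℓ : ℕ} [Fact ℓ.Prime] {A : ValuationSubring Ω} (hA : A.LiesOverPrime ℓ)
  (M : ℕ) [NeZero M]

include hA in
/-- **stability of a chart ring under an automorphism fixing the chart coordinate**: if `σ` is a
`ℚ̄`-algebra automorphism of `F₁Bar M 1` fixing `z` (given by an integer series), then for every
`y` in the chart ring of `z` the function `σ (chartι y)` again comes from the chart ring. -/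
theorem exists_chartRing_algEquiv (zZ : LaurentSeries ℤ) (z : ↥(F₁Bar M 1))
    (hz : (z : LaurentSeries Ω) = coeffMap (Int.castRingHom Ω) zZ)
    (σ : ↥(F₁Bar M 1) ≃ₐ[Ω] ↥(F₁Bar M 1)) (hσ : σ z = z) (y : ↥(chartRing A M z)) :
    ∃ y' : ↥(chartRing A M z), chartι A M z y' = σ (chartι A M z y) := by
  classical
  set w : ↥(F₁Bar M 1) := σ (chartι A M z y) with hw
  set zA : LaurentSeries ↥A := coeffMap (Int.castRingHom ↥A) zZ with hzAdef
  have hzA : coeffMap A.subtype zA = (z : LaurentSeries Ω) := by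
    rw [hz]
    exact coeffMap_intCast_comp _ zZ
  -- `σ` fixes `A[z]` pointwise
  have hfix : ∀ x : ↥(coeffSubring A M z), σ (x : ↥(F₁Bar M 1)) = (x : ↥(F₁Bar M 1)) := by
    rintro ⟨x, hx⟩
    show σ x = x
    induction hx using Subring.closure_induction with
    | mem x hx =>
      rcases hx with ⟨a, rfl⟩ | hx
      · exact σ.commutes _
      · rw [Set.mem_singleton_iff] at hx
        rw [hx]
        exact hσ
    | zero => exact map_zero σ
    | one => exact map_one σ
    | add x y _ _ hx hy => rw [map_add, hx, hy]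
    | neg x _ hx => rw [map_neg, hx]
    | mul x y _ _ hx hy => rw [map_mul, hx, hy]
  -- integrality of `w` over `A[z]`
  have hwint : IsIntegral ↥(coeffSubring A M z) w := by
    refine IsIntegral.map_of_comp_eq (RingHom.id ↥(coeffSubring A M z))
      (σ : ↥(F₁Bar M 1) →+* ↥(F₁Bar M 1)) ?_ (isIntegral_chartι z y)
    refine RingHom.ext fun x => ?_
    exact (hfix x).symm
  set φ : ↥A →+* ↥(F₁Bar M 1) := (algebraMap Ω ↥(F₁Bar M 1)).comp A.subtype with hφ
  have hS : coeffSubring A M z = Subring.closure (Set.range φ ∪ {z}) := rfl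
  rw [hS, isIntegral_closure_iff] at hwint
  obtain ⟨P, hP, hP0⟩ := hwint
  set val : ↥(F₁Bar M 1) →+* LaurentSeries Ω :=
    ((F₁Bar M 1).val : ↥(F₁Bar M 1) →+* LaurentSeries Ω) with hval
  have hcomp : val.comp (eval₂RingHom φ z) = (coeffMap A.subtype).comp (serEval zA) := by
    apply Polynomial.ringHom_ext
    · intro a
      rw [RingHom.comp_apply, RingHom.comp_apply, coe_eval₂RingHom, eval₂_C, serEval_C,
        coeffMap_C_h5]
      change algebraMap Ω (LaurentSeries Ω) (a : Ω) = _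
      rw [algebraMap_laurentSeries_eq_single, HahnSeries.C_apply]
      rfl
    · rw [RingHom.comp_apply, RingHom.comp_apply, coe_eval₂RingHom, eval₂_X, serEval_X, hzA]
      rfl
  have h0 : eval₂ ((coeffMap A.subtype).comp (serEval zA)) (w : LaurentSeries Ω) P = 0 := by
    have h1 := congrArg val hP0
    rw [map_zero, Polynomial.hom_eval₂, hcomp] at h1
    exact h1
  obtain ⟨y', hy'⟩ := exists_series_of_isIntegral hA (F₁ M 1)
    (fun K₁ _ => laurentBaseChange_F₁_le_gaussField ↥(baseRing A K₁) ↥K₁ M 1) zA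
    (fun K₁ => ⟨coeffMap (Int.castRingHom ↥(baseRing A K₁)) zZ, coeffMap_intCast_comp _ zZ⟩)
    w.2 P hP h0
  have hy'G : y' ∈ gaussRing A M := by
    rw [mem_gaussRing_iff, hy']
    exact w.2
  have hι : gaussι A M ⟨y', hy'G⟩ = w := Subtype.ext hy'
  have hy'C : y' ∈ chartRing A M z := by
    refine ⟨hy'G, ?_⟩
    rw [hι, hS, isIntegral_closure_iff]
    exact ⟨P, hP, hP0⟩
  exact ⟨⟨y', hy'C⟩, hι⟩

/-- the transform of a chart function under an automorphism fixing the chart coordinate. -/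
def chartTransform (zZ : LaurentSeries ℤ) (z : ↥(F₁Bar M 1))
    (hz : (z : LaurentSeries Ω) = coeffMap (Int.castRingHom Ω) zZ)
    (σ : ↥(F₁Bar M 1) ≃ₐ[Ω] ↥(F₁Bar M 1)) (hσ : σ z = z) (y : ↥(chartRing A M z)) :
    ↥(chartRing A M z) :=
  (exists_chartRing_algEquiv hA M zZ z hz σ hσ y).choose

theorem chartι_chartTransform (zZ : LaurentSeries ℤ) (z : ↥(F₁Bar M 1))
    (hz : (z : LaurentSeries Ω) = coeffMap (Int.castRingHom Ω) zZ)
    (σ : ↥(F₁Bar M 1) ≃ₐ[Ω] ↥(F₁Bar M 1)) (hσ : σ z = z) (y : ↥(chartRing A M z)) :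
    chartι A M z (chartTransform hA M zZ z hz σ hσ y) = σ (chartι A M z y) :=
  (exists_chartRing_algEquiv hA M zZ z hz σ hσ y).choose_spec

end Stable

end

end Fermat.Agent.W1
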