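/-
W1 = [GRΓ1] (S48), package [A5] (helper4), part 7: **series-level facts for the two charts of
`X₁(M)`** (port of `JA/ES_helper4_Series` to the field `F₁ M 1`; the generic declarations
`isUnit_jqModC_sub_C`, `vSer`, `jqModC_sub_C_mul_vSer`, `coeffMap_vSer` are imported from there).
-/
import Mathlib
import Fermat.Agent.W1.ES_helper4_CuspChart
import Fermat.Agent.JA.ES_helper4_Series

set_option autoImplicit false
set_option linter.unusedSectionVars false
set_option linter.style.haveILetI false

open HahnSeries IntermediateField AlgebraicCurve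

open Fermat.Agent.JA

namespace Fermat.Agent.W1

open ModularCurve Fermat.Agent.X0N

set_option synthInstance.maxHeartbeats 400000
set_option maxHeartbeats 1600000

local notation "Ω" => AlgebraicClosure ℚ

section IntAeval

/-- ring homomorphisms commute with polynomial expressions with integer coefficients, whatever the
`ℤ`-algebra instances. -/
theorem map_aeval_int_inst {R S : Type*} [CommRing R] [CommRing S] [Algebra ℤ R] [Algebra ℤ S]
    (f : R →+* S) (x : R) (u : Polynomial ℤ) :
    f (Polynomial.aeval x u) = Polynomial.aeval (f x) u := by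
  rw [Polynomial.aeval_def, Polynomial.aeval_def, Polynomial.hom_eval₂]
  congr 1
  exact RingHom.ext_int _ _

end IntAeval

section Generic

variable {L : Type*} [Field L] [Algebra ℚ L] {A : ValuationSubring L} {M : ℕ}
variable {k : Type*} [Field k] {π : ↥A →+* k}

/-- a series over `A` representing `z` lies in the chart ring of `z`. -/
theorem mem_chartRing_self (z : ↥(laurentBaseChange L (F₁ M 1)))
    (zS : LaurentSeries ↥A)
    (hz : coeffMap A.subtype zS = (z : LaurentSeries L)) : zS ∈ chartRing A M z := by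
  have hg : zS ∈ gaussRing A M := by
    rw [mem_gaussRing_iff, hz]
    exact z.2
  refine ⟨hg, ?_⟩
  have e : gaussι A M ⟨zS, hg⟩ = z := Subtype.ext hz
  rw [e]
  exact isIntegral_algebraMap (R := ↥(coeffSubring A M z)) (x := ⟨z, self_mem_coeffSubring z⟩)

theorem chartι_mk_self (z : ↥(laurentBaseChange L (F₁ M 1)))
    (zS : LaurentSeries ↥A)
    (hz : coeffMap A.subtype zS = (z : LaurentSeries L)) :
    chartι A M z ⟨zS, mem_chartRing_self z zS hz⟩ = z := Subtype.ext hz

/-- polynomial expressions with integer coefficients commute with `chartι`. -/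
theorem chartι_aeval (z : ↥(laurentBaseChange L (F₁ M 1)))
    (x : ↥(chartRing A M z)) (u : Polynomial ℤ) :
    chartι A M z (Polynomial.aeval x u) = Polynomial.aeval (chartι A M z x) u :=
  map_aeval_int_inst (chartι A M z) x u

theorem chartρF_aeval (h : GaussRes A M π)
    (z : ↥(laurentBaseChange L (F₁ M 1)))
    (x : ↥(chartRing A M z)) (u : Polynomial ℤ) :
    chartρF h z (Polynomial.aeval x u) = Polynomial.aeval (chartρF h z x) u :=
  map_aeval_int_inst (chartρF h z) x u

/-- a polynomial in `z` with integer coefficients lies in `A[z]`. -/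
theorem aeval_mem_coeffSubring (z : ↥(laurentBaseChange L (F₁ M 1)))
    (u : Polynomial ℤ) : Polynomial.aeval z u ∈ coeffSubring A M z := by
  have h : Polynomial.aeval z u
      = ((Polynomial.aeval (⟨z, self_mem_coeffSubring z⟩ : ↥(coeffSubring A M z)) u :
          ↥(coeffSubring A M z)) : ↥(laurentBaseChange L (F₁ M 1))) :=
    (map_aeval_int_inst (coeffSubring A M z).subtype
      (⟨z, self_mem_coeffSubring z⟩ : ↥(coeffSubring A M z)) u).symm
  rw [h]
  exact Subtype.property _

end Generic

section Reg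

variable {L : Type*} [Field L] [Algebra ℚ L] {A : ValuationSubring L} {M : ℕ}
variable {k : Type*} [Field k] {π : ↥A →+* k}

/-- **(hreg)**: the reduction of a chart function is regular at every place where the reduction of
the chart coordinate is regular. -/
theorem chartρF_mem_of_mem (h : GaussRes A M π)
    (z : ↥(laurentBaseChange L (F₁ M 1))) (zA : ↥(gaussRing A M))
    (hzA : gaussι A M zA = z) (y : ↥(chartRing A M z))
    (Q : Place k ↥(F₁C k M 1))
    (hQ : gaussρF h zA ∈ Q.toValuationSubring) :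
    chartρF h z y ∈ Q.toValuationSubring := by
  -- the subring `A[zA]` of the Gauss ring
  set G : Subring ↥(gaussRing A M) :=
    Subring.closure (Set.range (gaussC A M) ∪ {zA}) with hG
  set f : ↥G →+* ↥(laurentBaseChange L (F₁ M 1)) :=
    (gaussι A M).comp G.subtype with hf
  have hle : coeffSubring A M z ≤ f.range := by
    unfold coeffSubring
    rw [Subring.closure_le]
    rintro x (⟨a, rfl⟩ | hx)
    · exact ⟨⟨gaussC A M a, Subring.subset_closure (Or.inl ⟨a, rfl⟩)⟩, gaussι_gaussC A M a⟩
    · rw [Set.mem_singleton_iff] at hx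
      rw [hx]
      exact ⟨⟨zA, Subring.subset_closure (Or.inr rfl)⟩, hzA⟩
  set y' : ↥(gaussRing A M) := Subring.inclusion (chartRing_le_gaussRing z) y with hy'
  have hint : f.IsIntegralElem (gaussι A M y') :=
    isIntegralElem_of_isIntegral_of_le_range f _ hle (isIntegral_chartι z y)
  obtain ⟨p, hp, hpy⟩ := hint
  -- the relation holds in the Gauss ring
  have h1 : Polynomial.eval₂ G.subtype y' p = 0 := by
    apply gaussι_injective A M
    rw [map_zero, Polynomial.hom_eval₂]
    exact hpy
  -- apply the reduction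
  set g : ↥G →+* ↥(F₁C k M 1) := (gaussρF h).comp G.subtype with hg
  have h2 : Polynomial.eval₂ g (gaussρF h y') p = 0 := by
    have := congrArg (gaussρF h) h1
    rwa [map_zero, Polynomial.hom_eval₂] at this
  have hrange : ∀ x : ↥G, g x ∈ Q.toValuationSubring := by
    rintro ⟨x, hx⟩
    show gaussρF h x ∈ Q.toValuationSubring
    induction hx using Subring.closure_induction with
    | mem x hx =>
      rcases hx with ⟨a, rfl⟩ | hx
      · have e : gaussρF h (gaussC A M a) = algebraMap k _ (π a) := by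
          apply Subtype.ext
          exact gaussρ_gaussC A M π a
        rw [e]
        exact Q.algebraMap_mem' _
      · rw [Set.mem_singleton_iff] at hx
        rw [hx]
        exact hQ
    | zero => rw [map_zero]; exact Q.toValuationSubring.zero_mem
    | one => rw [map_one]; exact Q.toValuationSubring.one_mem
    | add x y _ _ hx hy => rw [map_add]; exact Q.toValuationSubring.add_mem _ _ hx hy
    | neg x _ hx => rw [map_neg]; exact Q.toValuationSubring.neg_mem _ hx
    | mul x y _ _ hx hy => rw [map_mul]; exact Q.toValuationSubring.mul_mem _ _ hx hy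
  let g' : ↥G →+* ↥Q.toValuationSubring := g.codRestrict Q.toValuationSubring.toSubring hrange
  have h3 : IsIntegral ↥Q.toValuationSubring (gaussρF h y') := by
    refine ⟨p.map g', hp.map g', ?_⟩
    rw [Polynomial.eval₂_map]
    exact h2
  obtain ⟨w, hw⟩ := (IsIntegrallyClosedIn.isIntegral_iff (R := ↥Q.toValuationSubring)
    (A := ↥(F₁C k M 1))).mp h3
  have e : chartρF h z y = gaussρF h y' := rfl
  rw [e, ← hw]
  exact w.2

end Reg

section JChart

variable {A : ValuationSubring Ω} {M : ℕ}
variable {k : Type*} [Field k] {π : ↥A →+* k}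

theorem coe_jBar_eq_jqModC_h4 :
    ((jBar M : ↥(F₁Bar M 1)) : LaurentSeries Ω)
      = jqModC Ω := by
  rw [coe_jBar, coeffEmb, ← jqModC_rat, coeffMap_jqModC]

theorem coeffMap_subtype_jqModC_eq_jBar :
    coeffMap A.subtype (jqModC ↥A)
      = ((jBar M : ↥(F₁Bar M 1)) : LaurentSeries Ω) := by
  rw [coe_jBar_eq_jqModC_h4, coeffMap_jqModC]

variable (A M) in
/-- **`j` as an element of its chart ring.** -/
noncomputable def jA : ↥(chartRing A M (jBar M)) :=
  ⟨jqModC ↥A, mem_chartRing_self (jBar M) _ coeffMap_subtype_jqModC_eq_jBar⟩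

@[simp] theorem coe_jA : ((jA A M : ↥(chartRing A M (jBar M))) : LaurentSeries ↥A) = jqModC ↥A :=
  rfl

theorem chartι_jA : chartι A M (jBar M) (jA A M) = jBar M :=
  chartι_mk_self (jBar M) _ coeffMap_subtype_jqModC_eq_jBar

theorem chartρF_jA (h : GaussRes A M π) : chartρF h (jBar M) (jA A M) = jTildeElt k M := by
  apply Subtype.ext
  show coeffMap π (jqModC ↥A) = jqModC k
  exact coeffMap_jqModC π

end JChart

section VChart

variable {A : ValuationSubring Ω} {M : ℕ}
variable {k : Type*} [Field k] {π : ↥A →+* k}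

theorem coe_inv_jBar_sub (b : ℤ) :
    (((jBar M - (b : ↥(F₁Bar M 1)))⁻¹ : ↥(F₁Bar M 1)) :
        LaurentSeries Ω)
      = (jqModC Ω - HahnSeries.C (b : Ω))⁻¹ := by
  have e : ((b : ↥(F₁Bar M 1)) : LaurentSeries Ω)
      = HahnSeries.C (b : Ω) := by
    rw [map_intCast]
    rfl
  have h := map_inv₀ (algebraMap ↥(F₁Bar M 1)
    (LaurentSeries Ω)) (jBar M - (b : ↥(F₁Bar M 1)))
  change ((((jBar M - (b : ↥(F₁Bar M 1)))⁻¹ : ↥(F₁Bar M 1)) :
    LaurentSeries Ω)) = (((jBar M - (b : ↥(F₁Bar M 1)) :
      ↥(F₁Bar M 1)) : LaurentSeries Ω))⁻¹ at h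
  rw [h, AddSubgroupClass.coe_sub, coe_jBar_eq_jqModC_h4, e]

theorem coeffMap_subtype_vSer (b : ℤ) :
    coeffMap A.subtype (vSer ↥A b)
      = (((jBar M - (b : ↥(F₁Bar M 1)))⁻¹ : ↥(F₁Bar M 1)) :
        LaurentSeries Ω) := by
  rw [coe_inv_jBar_sub, coeffMap_vSer]

variable (A M) in
/-- **`V = (j - b)⁻¹` as an element of its chart ring.** -/
noncomputable def vA (b : ℤ) :
    ↥(chartRing A M (jBar M - (b : ↥(F₁Bar M 1)))⁻¹) :=
  ⟨vSer ↥A b, mem_chartRing_self _ _ (coeffMap_subtype_vSer b)⟩

theorem chartι_vA (b : ℤ) :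
    chartι A M _ (vA A M b) = (jBar M - (b : ↥(F₁Bar M 1)))⁻¹ :=
  chartι_mk_self _ _ (coeffMap_subtype_vSer b)

theorem chartρF_vA (h : GaussRes A M π) (b : ℤ) :
    chartρF h _ (vA A M b)
      = (jTildeElt k M - (b : ↥(F₁C k M 1)))⁻¹ := by
  apply Subtype.ext
  show coeffMap π (vSer ↥A b) = _
  rw [coeffMap_vSer]
  have e : ((b : ↥(F₁C k M 1)) : LaurentSeries k)
      = HahnSeries.C (b : k) := by
    rw [map_intCast]
    rfl
  have h' := map_inv₀ (algebraMap ↥(F₁C k M 1) (LaurentSeries k))
    (jTildeElt k M - (b : ↥(F₁C k M 1)))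
  change ((((jTildeElt k M - (b : ↥(F₁C k M 1)))⁻¹ :
      ↥(F₁C k M 1)) : LaurentSeries k))
    = (((jTildeElt k M - (b : ↥(F₁C k M 1)) :
      ↥(F₁C k M 1)) : LaurentSeries k))⁻¹ at h'
  rw [h', AddSubgroupClass.coe_sub, coe_jTildeElt, e]

end VChart

section Fix

variable (k : Type*) [Field k] (M : ℕ)

/-- **the coefficientwise automorphisms fix `j̃`.** -/
theorem coeffAutC_smul_jTildeElt (τ : RingAut k) :
    coeffAutC k M τ • jTildeElt k M = jTildeElt k M := by
  apply Subtype.ext
  rw [coe_coeffAutC_smul, coe_jTildeElt]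
  exact coeffMap_jqModC _

theorem coeffAutC_smul_inv_jTildeElt_sub (τ : RingAut k) (b : ℤ) :
    coeffAutC k M τ • (jTildeElt k M - (b : ↥(F₁C k M 1)))⁻¹
      = (jTildeElt k M - (b : ↥(F₁C k M 1)))⁻¹ := by
  rw [smul_inv'', smul_sub, coeffAutC_smul_jTildeElt]
  congr 2
  exact map_intCast (MulSemiringAction.toRingHom _ _ (coeffAutC k M τ)) b

end Fix

end Fermat.Agent.W1
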