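/-
W1 = [GRΓ1] (S48), package [A5] (helper4), part 8: **the value of the diamond-twisted factor of the
Kronecker congruence** at the reduction of a place.

For a chart coordinate `z` fixed by the arithmetic Galois group and by the diamond `⟨u⟩`, a chart
function `y` with diamond transform `yu` (`chartι yu = ⟨u⟩ (chartι y)`), a reduction map `r` with
(EVAL) for the chart of `z` and (EQUIV) for the decomposition group, and a Frobenius element `σ₀`:
the value of `Φ • ρ(yu)` at `r P` is `(ρ y)(Q₂)^ℓ`, `Q₂ = Φ⁻¹ • r (⟨u⟩⁻¹ P)`.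
-/
import Mathlib
import Fermat.Agent.W1.ES_helper4_DiaChart
import Fermat.Agent.W1.ES_helper4_Series

set_option autoImplicit false
set_option linter.unusedSectionVars false
set_option linter.style.haveILetI false

open HahnSeries IntermediateField AlgebraicCurve

open Fermat.Agent.JA

namespace Fermat.Agent.W1

open ModularCurve Fermat.Agent.X0N

set_option synthInstance.maxHeartbeats 400000
set_option maxHeartbeats 1600000

local notation "Ω" => AlgebraicClosure ℚ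

section Frob

variable (A : ValuationSubring Ω) (M : ℕ)

/-- the coefficientwise semilinear automorphism of `F̃₁` attached to a Frobenius element acts on
the constants by `a ↦ a ^ ℓ`. -/
theorem baseAut_coeffAutC_resAut_of_isFrobeniusAt {ℓ : ℕ}
    (σ₀ : A.decompositionSubgroup ℚ) (hσ₀ : A.IsFrobeniusAt σ₀.1 ℓ)
    (a : IsLocalRing.ResidueField A) :
    SemilinearAut.baseAut (coeffAutC (IsLocalRing.ResidueField A) M (resAut A σ₀)) a = a ^ ℓ := by
  rw [baseAut_coeffAutC, resAut_apply]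
  exact hσ₀.smul_residue_eq a

end Frob

section AbstractDia

variable {K F k F' : Type*} [Field K] [Field F] [Algebra K F] [Field k] [Field F'] [Algebra k F']

/-- abstract form of the diamond/Frobenius value computation. -/
theorem hasValueAt_smul_of_twist {A₀ R : Type*} (coe : A₀ → K) (hcoe : Function.Injective coe)
    (res : A₀ → k)
    (r : Place K F → Place k F') (good : Place K F → Prop)
    (ι : R → F) (ρ : R → F')
    (hev : ∀ P, good P → ∀ y : R, ∃ a : A₀, HasValueAt P (ι y) (coe a) ∧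
      HasValueAt (r P) (ρ y) (res a))
    (g δ : SemilinearAut K F) (Φ : SemilinearAut k F')
    (hδ : SemilinearAut.baseAut δ = 1)
    (hrg : ∀ P, r (g • P) = Φ⁻¹ • r P)
    (hcomm : δ⁻¹ * g = g * δ⁻¹)
    (hgoodg : ∀ P, good P → good (g • P))
    (hgoodδ : ∀ P, good P → good (δ⁻¹ • P))
    (y yu : R) (hyu : ι yu = δ • ι y)
    (P : Place K F) (hP : good P) :
    HasValueAt (r P) (Φ • ρ yu)
      (SemilinearAut.baseAut Φ (valueAt (Φ⁻¹ • r (δ⁻¹ • P)) (ρ y))) := by
  have hP' := hgoodg P hP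
  have hP'' := hgoodδ _ hP'
  obtain ⟨a₁, h11, h12⟩ := hev (g • P) hP' yu
  obtain ⟨a₂, h21, h22⟩ := hev (δ⁻¹ • (g • P)) hP'' y
  have h13 : HasValueAt (δ⁻¹ • (g • P)) (ι y) (coe a₁) := by
    rw [hyu] at h11
    have e2 : coe a₁ = SemilinearAut.baseAut δ (coe a₁) := by rw [hδ]; rfl
    rw [e2] at h11
    exact (hasValueAt_smul_left_iff δ).mp h11
  have e12 : a₂ = a₁ := hcoe (h21.unique h13)
  have hrP'' : r (δ⁻¹ • (g • P)) = Φ⁻¹ • r (δ⁻¹ • P) := by
    rw [← mul_smul, hcomm, mul_smul, hrg]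
  rw [e12, hrP''] at h22
  rw [hrg] at h12
  rw [h22.valueAt_eq]
  exact (hasValueAt_smul_left_iff Φ).mpr h12

end AbstractDia

section DiaValue

variable {ℓ : ℕ} {A : ValuationSubring Ω} {M : ℕ} [NeZero M]

/-- **the value of `Φ • ρ(⟨u⟩ y)` at `r P`.** -/
theorem hasValueAt_frob_smul_dia (h : GaussRes A M (IsLocalRing.residue A))
    (z : ↥(F₁Bar M 1))
    (hzgal : ∀ σ : Ω ≃ₐ[ℚ] Ω, arithmeticGalois (F₁ M 1) σ • z = z)
    (u : (ZMod M)ˣ) (hzdia : diaBarAlg M 1 u⁻¹ z = z)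
    (r : Place Ω ↥(F₁Bar M 1) →
      Place (IsLocalRing.ResidueField A) ↥(F₁C (IsLocalRing.ResidueField A) M 1))
    (hev : ChartEval h z r)
    (hequiv : ∀ (σ : A.decompositionSubgroup ℚ) (P : Place Ω ↥(F₁Bar M 1)),
      r (arithmeticGalois (F₁ M 1) σ.1 • P)
        = coeffAutC (IsLocalRing.ResidueField A) M (resAut A σ) • r P)
    (σ₀ : A.decompositionSubgroup ℚ) (hσ₀ : A.IsFrobeniusAt σ₀.1 ℓ)
    (y yu : ↥(chartRing A M z))
    (hyu : chartι A M z yu = diaBarAlg M 1 u (chartι A M z y))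
    (P : Place Ω ↥(F₁Bar M 1)) (hP : GoodAt A M z P) :
    HasValueAt (r P)
      (coeffAutC (IsLocalRing.ResidueField A) M (resAut A σ₀) • chartρF h z yu)
      (valueAt ((coeffAutC (IsLocalRing.ResidueField A) M (resAut A σ₀))⁻¹ •
          r (SemilinearAut.ofAlgAut (diaBarAlg M 1 u⁻¹) • P)) (chartρF h z y) ^ ℓ) := by
  have hδinv : (SemilinearAut.ofAlgAut (diaBarAlg M 1 u⁻¹) : SemilinearAut Ω ↥(F₁Bar M 1))
      = (SemilinearAut.ofAlgAut (diaBarAlg M 1 u))⁻¹ := ofAlgAut_diaBarAlg_inv M 1 u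
  have hΦinv : coeffAutC (IsLocalRing.ResidueField A) M (resAut A σ₀⁻¹)
      = (coeffAutC (IsLocalRing.ResidueField A) M (resAut A σ₀))⁻¹ := by
    rw [map_inv, map_inv]
  have hgoodg : ∀ P : Place Ω ↥(F₁Bar M 1), GoodAt A M z P →
      GoodAt A M z (arithmeticGalois (F₁ M 1) (σ₀⁻¹).1 • P) := by
    rintro P ⟨a, ha⟩
    refine ⟨⟨(σ₀⁻¹).1 (a : Ω), ((σ₀⁻¹ : A.decompositionSubgroup ℚ) • (a : ↥A) : ↥A).2⟩, ?_⟩
    have h1 := ha.smul (arithmeticGalois (F₁ M 1) (σ₀⁻¹).1)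
    rw [hzgal] at h1
    exact h1
  have hgoodδ : ∀ P : Place Ω ↥(F₁Bar M 1), GoodAt A M z P →
      GoodAt A M z ((SemilinearAut.ofAlgAut (diaBarAlg M 1 u))⁻¹ • P) := by
    rintro P ⟨a, ha⟩
    refine ⟨a, ?_⟩
    have h1 := ha.smul (SemilinearAut.ofAlgAut (diaBarAlg M 1 u⁻¹))
    have e : (SemilinearAut.ofAlgAut (diaBarAlg M 1 u⁻¹) : SemilinearAut Ω ↥(F₁Bar M 1)) • z = z :=
      hzdia
    rw [e, hδinv] at h1
    exact h1
  have key := hasValueAt_smul_of_twist (K := Ω) (F := ↥(F₁Bar M 1))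
    (k := IsLocalRing.ResidueField A) (F' := ↥(F₁C (IsLocalRing.ResidueField A) M 1))
    (A₀ := ↥A) (R := ↥(chartRing A M z)) (fun a => (a : Ω)) Subtype.val_injective
    (IsLocalRing.residue A) r (GoodAt A M z) (chartι A M z) (chartρF h z)
    hev (arithmeticGalois (F₁ M 1) (σ₀⁻¹).1) (SemilinearAut.ofAlgAut (diaBarAlg M 1 u))
    (coeffAutC (IsLocalRing.ResidueField A) M (resAut A σ₀))
    (SemilinearAut.baseAut_ofAlgAut _)
    (fun P => by rw [hequiv σ₀⁻¹ P, hΦinv])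
    (by rw [← hδinv, arithmeticGalois_mul_diaBarAlg])
    hgoodg hgoodδ y yu hyu P hP
  rw [baseAut_coeffAutC_resAut_of_isFrobeniusAt A M σ₀ hσ₀, ← hδinv] at key
  exact key

end DiaValue

end Fermat.Agent.W1
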