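/-
W1 = [GRΓ1] (S48), package [ANORM1] (helper9), part 5: **the analytic norm formula for `α f`**
at the level `Gpm M L`, in the forms consumed by [KHECKE1]:
`realML (N_{F₁ M (Lℓ) / β F₁ M L} (α f)) = ∏_{b < ℓ} (realML f) ∘ heckeMatrix ℓ b ·
  [ℓ ∤ M L] (realML f) ∘ (σ · diag(ℓ, 1))`
for any `σ ∈ Γ₀(M L)` whose lower right entry is `ℓ` modulo `M` (equivalently: whose upper left
entry is `ℓ⁻¹` modulo `M`).
-/
import Mathlib
import Fermat.Agent.W1.ANORM1_helper9_Main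

set_option autoImplicit false
set_option linter.unusedSectionVars false
set_option linter.style.haveILetI false

namespace Fermat.Agent.W1

open UpperHalfPlane Complex Filter Topology ModularCurve IntermediateField ModularForm
open Fermat.Agent.RatStr AlgebraicCurve Fermat.Agent.GR Fermat.Agent.X0N CongruenceSubgroup
open scoped MatrixGroups Manifold

section Congr

variable {k : Type*} [Field k] [Algebra ℚ k] (ι : k →+* ℂ) {M L : ℕ} [NeZero M] [NeZero L]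

/-- precomposition of a function of level `Gpm M L` with `σ ∈ Γ₀(M L)` only depends on the upper
left entry of `σ` modulo `M`. -/
theorem comp_realML_congr {σ τ : SL(2, ℤ)} (hσ : σ ∈ Gamma0 (M * L)) (hτ : τ ∈ Gamma0 (M * L))
    (h : ((σ 0 0 : ℤ) : ZMod M) = ((τ 0 0 : ℤ) : ZMod M))
    (f : ↥(laurentBaseChange k (F₁ M L))) :
    MerH.comp σ (realML ι M L f) = MerH.comp τ (realML ι M L f) := by
  rw [← realML_diaHom ι hσ, ← realML_diaHom ι hτ, diaHom_congr ι hσ hτ h]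

/-- for `σ ∈ Γ₀(M L)` the diagonal entries are inverse to each other modulo `M`. -/
theorem Gamma0_entry_mul_entry {σ : SL(2, ℤ)} (hσ : σ ∈ Gamma0 (M * L)) :
    ((σ 0 0 : ℤ) : ZMod M) * ((σ 1 1 : ℤ) : ZMod M) = 1 := by
  have hdet : (σ 0 0 : ℤ) * σ 1 1 - σ 0 1 * σ 1 0 = 1 := by
    have := σ.2
    rw [Matrix.det_fin_two] at this
    exact this
  have hc : ((σ 1 0 : ℤ) : ZMod M) = 0 := by
    have h1 : ((σ 1 0 : ℤ) : ZMod (M * L)) = 0 := (Gamma0_mem).mp hσ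
    have h2 : ((M * L : ℕ) : ℤ) ∣ σ 1 0 := (ZMod.intCast_zmod_eq_zero_iff_dvd _ _).mp h1
    have h3 : ((M : ℕ) : ℤ) ∣ σ 1 0 := by
      refine dvd_trans ?_ h2
      exact_mod_cast Dvd.intro L rfl
    exact (ZMod.intCast_zmod_eq_zero_iff_dvd _ _).mpr h3
  have h4 := congrArg (fun z : ℤ => (z : ZMod M)) hdet
  simp only [Int.cast_sub, Int.cast_mul, Int.cast_one, hc, mul_zero, sub_zero] at h4
  exact h4

end Congr

section Final

variable {k : Type*} [Field k] [Algebra ℚ k] [Algebra k ℂ] [IsScalarTower ℚ k ℂ]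
  (M L ℓ : ℕ) [NeZero M] [NeZero L] [NeZero ℓ]

/-- the upper left entry of `alG1` is inverse to `ℓ` modulo `M`. -/
theorem alG1_entry_mul {x y : ℤ} (h : (ℓ : ℤ) * x + ((M * L : ℕ) : ℤ) * y = 1) :
    ((alG1 (M * L) ℓ x y h 0 0 : ℤ) : ZMod M) * (ℓ : ZMod M) = 1 := by
  have h1 : (alG1 (M * L) ℓ x y h 0 0 : ℤ) = x := rfl
  rw [h1]
  have h4 := congrArg (fun z : ℤ => (z : ZMod M)) h
  simp only [Int.cast_add, Int.cast_mul, Int.cast_natCast, Int.cast_one, Nat.cast_mul,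
    ZMod.natCast_self, zero_mul, add_zero] at h4
  rw [mul_comm]
  exact h4

set_option maxHeartbeats 1600000 in
set_option synthInstance.maxHeartbeats 400000 in
/-- **the analytic norm formula for `α f`** (every prime `ℓ`), first form:
`(N_{F₁ M (Lℓ)/βF₁ M L} (α f))(τ) = ∏_{b < ℓ} f((τ + b)/ℓ) · [ℓ ∤ M L] (f ∘ σ)(ℓ τ)` for every
`σ ∈ Γ₀(M L)` with `σ₀₀ ℓ ≡ 1` modulo `M`. -/
theorem realML_norm_heckeAlphaBar_dilate (hM : M ≠ 1) (hℓ : ℓ.Prime) {σ : SL(2, ℤ)}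
    (hσ : σ ∈ Gamma0 (M * L)) (hσℓ : ((σ 0 0 : ℤ) : ZMod M) * (ℓ : ZMod M) = 1)
    (f : ↥(laurentBaseChange k (F₁ M L))) :
    letI := algebraAlong (heckeBetaBar k M L ℓ)
    realML (algebraMap k ℂ) M L
        (Algebra.norm ↥(laurentBaseChange k (F₁ M L)) (heckeAlphaBar k M L ℓ f)) =
      (∏ b : Fin ℓ, MerH.compGL (heckeMatrix ℓ b) (det_heckeMatrix_pos ℓ b)
        (realML (algebraMap k ℂ) M L f)) *
        (if ℓ ∣ M * L then 1 else
          MerH.dilate ℓ (MerH.comp σ (realML (algebraMap k ℂ) M L f))) := by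
  by_cases hℓN : ℓ ∣ M * L
  · rw [if_pos hℓN, mul_one, realML_norm_heckeBetaBar_of_dvd M L ℓ hM hℓ hℓN]
    refine Finset.prod_congr rfl fun b _ => ?_
    rw [realML_heckeAlphaBar]
  · rw [if_neg hℓN]
    have hcop : IsCoprime (ℓ : ℤ) ((M * L : ℕ) : ℤ) := by
      rw [Nat.isCoprime_iff_coprime]
      exact (Nat.Prime.coprime_iff_not_dvd hℓ).mpr hℓN
    obtain ⟨x, y, hxy⟩ := hcop
    have h : (ℓ : ℤ) * x + ((M * L : ℕ) : ℤ) * y = 1 := by rw [← hxy]; ring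
    have e := sigmaInftyML_alpha (k := k) h f
    rw [sigmaInftyML_apply] at e
    rw [realML_norm_heckeBetaBar_of_not_dvd M L ℓ hM hℓ hℓN h, e, realML_heckeAlphaBar]
    congr 2
    refine comp_realML_congr (algebraMap k ℂ) (alG1_mem h) hσ ?_ f
    have h1 := alG1_entry_mul M L ℓ h
    calc ((alG1 (M * L) ℓ x y h 0 0 : ℤ) : ZMod M)
        = ((alG1 (M * L) ℓ x y h 0 0 : ℤ) : ZMod M) *
            (((σ 0 0 : ℤ) : ZMod M) * (ℓ : ZMod M)) := by rw [hσℓ, mul_one]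
      _ = ((σ 0 0 : ℤ) : ZMod M) *
            (((alG1 (M * L) ℓ x y h 0 0 : ℤ) : ZMod M) * (ℓ : ZMod M)) := by ring
      _ = ((σ 0 0 : ℤ) : ZMod M) := by rw [h1, mul_one]

set_option maxHeartbeats 1600000 in
set_option synthInstance.maxHeartbeats 400000 in
/-- **the analytic norm formula for `α f`** (every prime `ℓ`), the form consumed by [KHECKE1]:
`(N (α f)) = ∏_{b < ℓ} f ∘ heckeMatrix ℓ b · [ℓ ∤ M L] f ∘ (σ · diag(ℓ, 1))` for every
`σ ∈ Γ₀(M L)` whose lower right entry is `ℓ` modulo `M`. -/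
theorem realML_norm_heckeAlphaBar (hM : M ≠ 1) (hℓ : ℓ.Prime) {σ : SL(2, ℤ)}
    (hσ : σ ∈ Gamma0 (M * L)) (hσℓ : ((σ 1 1 : ℤ) : ZMod M) = (ℓ : ZMod M))
    (hdet : 0 < ((((σ : SL(2, ℤ)) : GL (Fin 2) ℝ) * heckeDiagMatrix ℓ).det : ℝ))
    (f : ↥(laurentBaseChange k (F₁ M L))) :
    letI := algebraAlong (heckeBetaBar k M L ℓ)
    realML (algebraMap k ℂ) M L
        (Algebra.norm ↥(laurentBaseChange k (F₁ M L)) (heckeAlphaBar k M L ℓ f)) =
      (∏ b : Fin ℓ, MerH.compGL (heckeMatrix ℓ b) (det_heckeMatrix_pos ℓ b)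
        (realML (algebraMap k ℂ) M L f)) *
        (if ℓ ∣ M * L then 1 else
          MerH.compGL (((σ : SL(2, ℤ)) : GL (Fin 2) ℝ) * heckeDiagMatrix ℓ) hdet
            (realML (algebraMap k ℂ) M L f)) := by
  have h1 : ((σ 0 0 : ℤ) : ZMod M) * (ℓ : ZMod M) = 1 := by
    rw [← hσℓ]
    exact Gamma0_entry_mul_entry hσ
  rw [realML_norm_heckeAlphaBar_dilate M L ℓ hM hℓ hσ h1 f]
  congr 2
  have hσpos : 0 < ((((σ : SL(2, ℤ)) : GL (Fin 2) ℝ)).det : ℝ) := by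
    have : ((((σ : SL(2, ℤ)) : GL (Fin 2) ℝ)).det : ℝ) = 1 := by
      simp
    rw [this]
    exact one_pos
  rw [← MerH.compGL_heckeDiagMatrix, ← MerH.compGL_mapGL σ hσpos,
    MerH.compGL_compGL _ _ _ _ hdet]

/-- **the analytic norm formula for `α f`**, diamond form: the factor at infinity is
`(realML (⟨d⟩ f))(ℓ τ)` for the diamond automorphism `diaAlg M L d` with `d ℓ = 1`. -/
theorem realML_norm_heckeAlphaBar_diaAlg (hM : M ≠ 1) (hℓ : ℓ.Prime) (d : (ZMod M)ˣ)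
    (hd : (d : ZMod M) * (ℓ : ZMod M) = 1)
    (f : ↥(laurentBaseChange k (F₁ M L))) :
    letI := algebraAlong (heckeBetaBar k M L ℓ)
    realML (algebraMap k ℂ) M L
        (Algebra.norm ↥(laurentBaseChange k (F₁ M L)) (heckeAlphaBar k M L ℓ f)) =
      (∏ b : Fin ℓ, MerH.compGL (heckeMatrix ℓ b) (det_heckeMatrix_pos ℓ b)
        (realML (algebraMap k ℂ) M L f)) *
        (if ℓ ∣ M * L then 1 else
          MerH.dilate ℓ (realML (algebraMap k ℂ) M L (diaAlg M L d f))) := by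
  rw [realML_diaAlg]
  exact realML_norm_heckeAlphaBar_dilate M L ℓ hM hℓ (sigmaU_mem M L d)
    (by rw [sigmaU_entry]; exact hd) f

end Final

end Fermat.Agent.W1
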