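/-
W1 = [GRΓ1] (S48), package [A5-ES1] (helper2), part 1 (port of `JA/ES1_helper2_W`): **the
Atkin–Lehner operator `W` of the function field `F' = k·F₁ M (L ℓ)`** (`ℓ` prime, `ℓ ∤ M L`), for a
field `k ⊆ ℂ`: a ring homomorphism `W : F' →+* F'` fixing the constants with
`W (β y) = α y`,  `W (α y) = β (⟨γ₁⟩ y)`
(`α` the inclusion of `F = k·F₁ M L`, `β = (q ↦ q^ℓ)`, `⟨γ₁⟩ = diaHom` of helper9's
`γ₁ = alG1 = (x −y; M L  ℓ) ∈ Γ₀(M L)`, upper left entry `x ≡ ℓ⁻¹ mod M`).  It is no longer an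
involution: `W ∘ W = ⟨γ₁⟩`.
-/
import Mathlib
import Fermat.Agent.W1.ANORM1_helper9_Final
import Fermat.Agent.W1.HECKEF_helper4_Dia

set_option autoImplicit false
set_option linter.unusedSectionVars false
set_option linter.style.haveILetI false

namespace Fermat.Agent.W1

open UpperHalfPlane Complex Filter Topology ModularCurve IntermediateField ModularForm
open Fermat.Agent.RatStr AlgebraicCurve Fermat.Agent.GR Fermat.Agent.X0N CongruenceSubgroup
open scoped MatrixGroups Manifold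

variable {k : Type*} [Field k] [Algebra ℚ k] [Algebra k ℂ] [IsScalarTower ℚ k ℂ]
  (M L ℓ : ℕ) [NeZero M] [NeZero L] [NeZero ℓ]

omit [Algebra k ℂ] [IsScalarTower ℚ k ℂ] [NeZero M] [NeZero L] [NeZero ℓ] in
theorem jdBarML_congr {M L : ℕ} {d d' : ℕ} [NeZero d] [NeZero d'] (h : d = d') (hd : d ∣ M * L)
    (hd' : d' ∣ M * L) : jdBarML (k := k) hd = jdBarML hd' := by
  subst h
  rfl

omit [Algebra k ℂ] [IsScalarTower ℚ k ℂ] [NeZero M] [NeZero L] [NeZero ℓ] in
theorem phiBarML_congr {M L : ℕ} {e e' : ℕ} [NeZero e] [NeZero e'] (h : e = e') (he : e ∣ L)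
    (he' : e' ∣ L) {a : ZMod M} (ha : a ≠ 0) : phiBarML (k := k) he ha = phiBarML he' ha := by
  subst h
  rfl

/-- **induction principle for `F'`**: it is generated by the constants, `α F` and `β F`. -/
theorem induction_alpha_beta₁ (hℓ : ℓ.Prime)
    {p : ↥(laurentBaseChange k (F₁ M (L * ℓ))) → Prop}
    (hconst : ∀ c : k, p (algebraMap k _ c))
    (hα : ∀ y : ↥(laurentBaseChange k (F₁ M L)), p (heckeAlphaBar k M L ℓ y))
    (hβ : ∀ y : ↥(laurentBaseChange k (F₁ M L)), p (heckeBetaBar k M L ℓ y))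
    (hadd : ∀ x y, p x → p y → p (x + y))
    (hmul : ∀ x y, p x → p y → p (x * y))
    (hinv : ∀ x, p x → p x⁻¹)
    (z : ↥(laurentBaseChange k (F₁ M (L * ℓ)))) : p z := by
  induction z using F₁_induction with
  | hconst c => exact hconst c
  | hj d hd =>
    by_cases hℓd : ℓ ∣ d
    · obtain ⟨d₀, hd₀⟩ := hℓd
      have hd₀N : d₀ ∣ M * L := by
        have h1 : ℓ * d₀ ∣ ℓ * (M * L) := by
          rw [← hd₀]
          have : ℓ * (M * L) = M * (L * ℓ) := by ring
          rw [this]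
          exact hd
        exact Nat.dvd_of_mul_dvd_mul_left hℓ.pos h1
      haveI : NeZero d₀ := ⟨fun h0 => NeZero.ne d (by rw [hd₀, h0, mul_zero])⟩
      haveI : NeZero (ℓ * d₀) := ⟨mul_ne_zero (NeZero.ne ℓ) (NeZero.ne d₀)⟩
      have h1 := hβ (jdBarML hd₀N)
      rw [heckeBetaBar_jdBarML] at h1
      rw [jdBarML_congr hd₀ hd (dvd_level_mul M L ℓ hd₀N)]
      exact h1
    · have hdN : d ∣ M * L := by
        have hcop : Nat.Coprime d ℓ :=
          (Nat.Coprime.symm ((Nat.Prime.coprime_iff_not_dvd hℓ).mpr hℓd))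
        have h1 : d ∣ (M * L) * ℓ := by
          have : (M * L) * ℓ = M * (L * ℓ) := by ring
          rw [this]
          exact hd
        exact hcop.dvd_of_dvd_mul_right h1
      have h1 := hα (jdBarML hdN)
      rw [heckeAlphaBar_jdBarML] at h1
      exact h1
  | hphi e he a ha =>
    by_cases hℓe : ℓ ∣ e
    · obtain ⟨e₀, he₀⟩ := hℓe
      have he₀L : e₀ ∣ L := by
        have h1 : ℓ * e₀ ∣ ℓ * L := by
          rw [← he₀, mul_comm ℓ L]
          exact he
        exact Nat.dvd_of_mul_dvd_mul_left hℓ.pos h1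
      haveI : NeZero e₀ := ⟨fun h0 => NeZero.ne e (by rw [he₀, h0, mul_zero])⟩
      haveI : NeZero (ℓ * e₀) := ⟨mul_ne_zero (NeZero.ne ℓ) (NeZero.ne e₀)⟩
      have h1 := hβ (phiBarML he₀L ha)
      rw [heckeBetaBar_phiBarML] at h1
      rw [phiBarML_congr he₀ he (dvd_aux_mul L ℓ he₀L) ha]
      exact h1
    · have heL : e ∣ L := by
        have hcop : Nat.Coprime e ℓ :=
          (Nat.Coprime.symm ((Nat.Prime.coprime_iff_not_dvd hℓ).mpr hℓe))
        exact hcop.dvd_of_dvd_mul_right he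
      have h1 := hα (phiBarML heL ha)
      rw [heckeAlphaBar_phiBarML] at h1
      exact h1
  | hadd x y h1 h2 => exact hadd x y h1 h2
  | hmul x y h1 h2 => exact hmul x y h1 h2
  | hinv x h1 => exact hinv x h1

section Construction

variable {M L ℓ} {x y : ℤ} (h : (ℓ : ℤ) * x + ((M * L : ℕ) : ℤ) * y = 1)

/-- `γ₁ ∈ Γ₀(M L)`. -/
theorem alG1_mem_mul : alG1 (M * L) ℓ x y h ∈ Gamma0 (M * L) := alG1_mem h

theorem alOp_realML_alpha (z : ↥(laurentBaseChange k (F₁ M L))) :
    MerH.alOp h (realML (algebraMap k ℂ) M (L * ℓ) (heckeAlphaBar k M L ℓ z)) =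
      realML (algebraMap k ℂ) M (L * ℓ)
        (heckeBetaBar k M L ℓ (diaHom (algebraMap k ℂ) (alG1_mem_mul h) z)) := by
  rw [realML_heckeAlphaBar, realML_heckeBetaBar, realML_diaHom, MerH.alOp_apply]

theorem alOp_realML_beta (z : ↥(laurentBaseChange k (F₁ M L))) :
    MerH.alOp h (realML (algebraMap k ℂ) M (L * ℓ) (heckeBetaBar k M L ℓ z)) =
      realML (algebraMap k ℂ) M (L * ℓ) (heckeAlphaBar k M L ℓ z) := by
  rw [realML_heckeAlphaBar]
  exact sigmaInftyML_beta h z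

theorem alOp_realML_mem_range (hℓ : ℓ.Prime)
    (z : ↥(laurentBaseChange k (F₁ M (L * ℓ)))) :
    MerH.alOp h (realML (algebraMap k ℂ) M (L * ℓ) z) ∈
      (realML (algebraMap k ℂ) M (L * ℓ)).range := by
  refine induction_alpha_beta₁ M L ℓ hℓ
    (p := fun z => MerH.alOp h (realML (algebraMap k ℂ) M (L * ℓ) z) ∈
      (realML (algebraMap k ℂ) M (L * ℓ)).range) ?_ ?_ ?_ ?_ ?_ ?_ z
  · intro c
    show MerH.alOp h (realML (algebraMap k ℂ) M (L * ℓ) (algebraMap k _ c)) ∈ _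
    rw [realML_algebraMap, MerH.alOp_const]
    exact ⟨algebraMap k _ c, realML_algebraMap (algebraMap k ℂ) M (L * ℓ) c⟩
  · intro z
    exact ⟨_, (alOp_realML_alpha h z).symm⟩
  · intro z
    exact ⟨_, (alOp_realML_beta h z).symm⟩
  · intro a b h1 h2
    show MerH.alOp h (realML (algebraMap k ℂ) M (L * ℓ) (a + b)) ∈ _
    rw [map_add, map_add]
    exact Subring.add_mem _ h1 h2
  · intro a b h1 h2
    show MerH.alOp h (realML (algebraMap k ℂ) M (L * ℓ) (a * b)) ∈ _
    rw [map_mul, map_mul]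
    exact Subring.mul_mem _ h1 h2
  · intro a h1
    obtain ⟨b, hb⟩ := h1
    refine ⟨b⁻¹, ?_⟩
    show realML (algebraMap k ℂ) M (L * ℓ) b⁻¹ =
      MerH.alOp h (realML (algebraMap k ℂ) M (L * ℓ) a⁻¹)
    rw [map_inv₀, map_inv₀, map_inv₀, hb]

/-- the ring isomorphism of the function field onto its realisation. -/
noncomputable def realMLEquiv (M L : ℕ) :
    ↥(laurentBaseChange k (F₁ M L)) ≃+* ↥(realML (algebraMap k ℂ) M L).range :=
  RingEquiv.ofBijective (realML (algebraMap k ℂ) M L).rangeRestrict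
    ⟨fun a b hab => realML_injective (algebraMap k ℂ) M L (congrArg Subtype.val hab),
      (realML (algebraMap k ℂ) M L).rangeRestrict_surjective⟩

theorem coe_realMLEquiv (M L : ℕ) (z : ↥(laurentBaseChange k (F₁ M L))) :
    ((realMLEquiv M L z : ↥(realML (algebraMap k ℂ) M L).range) : MerH) =
      realML (algebraMap k ℂ) M L z := rfl

/-- **the Atkin–Lehner operator** of `F' = k·F₁ M (L ℓ)`, defined through the realisation. -/
noncomputable def atkinLehnerML (hℓ : ℓ.Prime) :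
    ↥(laurentBaseChange k (F₁ M (L * ℓ))) →+* ↥(laurentBaseChange k (F₁ M (L * ℓ))) :=
  ((realMLEquiv (k := k) M (L * ℓ)).symm : ↥(realML (algebraMap k ℂ) M (L * ℓ)).range →+* _).comp
    (((MerH.alOp h).comp (realML (algebraMap k ℂ) M (L * ℓ))).codRestrict
      (realML (algebraMap k ℂ) M (L * ℓ)).range (fun z => alOp_realML_mem_range h hℓ z))

theorem realML_atkinLehnerML (hℓ : ℓ.Prime) (z : ↥(laurentBaseChange k (F₁ M (L * ℓ)))) :
    realML (algebraMap k ℂ) M (L * ℓ) (atkinLehnerML h hℓ z) =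
      MerH.alOp h (realML (algebraMap k ℂ) M (L * ℓ) z) := by
  rw [← coe_realMLEquiv]
  unfold atkinLehnerML
  simp only [RingHom.comp_apply, RingHom.coe_coe, RingEquiv.apply_symm_apply]
  rfl

/-- **`W (α z) = β (⟨γ₁⟩ z)`.** -/
theorem atkinLehnerML_alpha (hℓ : ℓ.Prime) (z : ↥(laurentBaseChange k (F₁ M L))) :
    atkinLehnerML h hℓ (heckeAlphaBar k M L ℓ z) =
      heckeBetaBar k M L ℓ (diaHom (algebraMap k ℂ) (alG1_mem_mul h) z) := by
  apply realML_injective (algebraMap k ℂ) M (L * ℓ)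
  rw [realML_atkinLehnerML, alOp_realML_alpha]

/-- **`W (β z) = α z`.** -/
theorem atkinLehnerML_beta (hℓ : ℓ.Prime) (z : ↥(laurentBaseChange k (F₁ M L))) :
    atkinLehnerML h hℓ (heckeBetaBar k M L ℓ z) = heckeAlphaBar k M L ℓ z := by
  apply realML_injective (algebraMap k ℂ) M (L * ℓ)
  rw [realML_atkinLehnerML, alOp_realML_beta]

theorem atkinLehnerML_algebraMap (hℓ : ℓ.Prime) (c : k) :
    atkinLehnerML h hℓ (algebraMap k ↥(laurentBaseChange k (F₁ M (L * ℓ))) c) =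
      algebraMap k ↥(laurentBaseChange k (F₁ M (L * ℓ))) c := by
  apply realML_injective (algebraMap k ℂ) M (L * ℓ)
  rw [realML_atkinLehnerML, realML_algebraMap, MerH.alOp_const]

/-- the diamond `⟨γ₁⟩` in terms of helper4's `diaAlg`: `γ₁` has upper left entry `ℓ⁻¹`. -/
theorem diaHom_alG1_eq_diaAlg (d : (ZMod M)ˣ) (hd : (d : ZMod M) * (ℓ : ZMod M) = 1)
    (z : ↥(laurentBaseChange k (F₁ M L))) :
    diaHom (algebraMap k ℂ) (alG1_mem_mul h) z = diaAlg M L d z := by
  rw [diaAlg_apply]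
  refine diaHom_congr (algebraMap k ℂ) (alG1_mem_mul h) (sigmaU_mem M L d) ?_ z
  rw [sigmaU_entry]
  have h1 := alG1_entry_mul M L ℓ h
  have hu : IsUnit ((ℓ : ZMod M)) := IsUnit.of_mul_eq_one _ ((mul_comm _ _).trans hd)
  exact hu.mul_right_cancel (h1.trans hd.symm)

end Construction

end Fermat.Agent.W1
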