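/-
W1 = [GRΓ1] (S48), package [A5-ES1] (helper2), part 2 (port of `JA/ES1_helper2_{Bar,Norm,Shape}`):
the Atkin–Lehner operator `W` of `F' = k·F₁ M (L ℓ)` with canonical Bézout data, the homomorphism
`σ_∞ = (q ↦ q^ℓ) ∘ W : F' → k((q))`, the `ℓ + 1` conjugates of `F'` over `β F` and **the norm
formula with the diamond**
`(N_{F'/βF} z)(q^ℓ) = ∏_{b < ℓ} z(ζ^b q) · σ_∞(z)`,  `σ_∞(α y) = (⟨d⟩ y)(q^{ℓ²})`, `d ℓ = 1`,
in particular, in the literal shape of helper7's `exists_kron_of_norm_formula₂`: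
`(N_{F'/βF} (c − α y))(q^ℓ) = ∏_{b ∈ range ℓ} (q ↦ ζ^b q)(c − y) · (c − (⟨d⟩ y)(q^(ℓ^2)))`.
Here `k` is any field with `ℚ ⊆ k ⊆ ℂ` containing a primitive `ℓ`-th root of unity.
-/
import Mathlib
import Fermat.Agent.W1.ES1A_helper2_W
import Fermat.Agent.Igusa.A_helper2_Twist
import Fermat.Agent.JA.RAM0_helper2_Shapes
import Fermat.Prelude.Thm_ModularCurve_coeff_jqModC_neg_one

set_option autoImplicit false
set_option linter.unusedSectionVars false
set_option linter.style.haveILetI false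

namespace Fermat.Agent.W1

open ModularCurve AlgebraicCurve IntermediateField Fermat.Agent.X0N Fermat.Agent.Igusa
open Fermat.Agent.JA Fermat.Agent.GR CongruenceSubgroup

variable {k : Type*} [Field k] [Algebra ℚ k] [Algebra k ℂ] [IsScalarTower ℚ k ℂ]
  {M L ℓ : ℕ} [NeZero M] [NeZero L] [NeZero ℓ]

omit [NeZero M] [NeZero L] [NeZero ℓ] in
/-- Bézout data for `ℓ` prime, `ℓ ∤ M L`. -/
theorem exists_bezout_ML (hℓ : ℓ.Prime) (hℓN : ¬ ℓ ∣ M * L) :
    ∃ x y : ℤ, (ℓ : ℤ) * x + ((M * L : ℕ) : ℤ) * y = 1 := by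
  have h := Nat.Coprime.isCoprime ((Nat.Prime.coprime_iff_not_dvd hℓ).mpr hℓN)
  obtain ⟨a, b, hab⟩ := h
  exact ⟨a, b, by linear_combination hab⟩

variable (k M L ℓ) in
/-- **the Atkin–Lehner operator** `W_ℓ` of `F' = k·F₁ M (L ℓ)` (`ℓ` prime, `ℓ ∤ M L`). -/
noncomputable def atkinLehnerBar₁ (hℓ : ℓ.Prime) (hℓN : ¬ ℓ ∣ M * L) :
    ↥(laurentBaseChange k (F₁ M (L * ℓ))) →+* ↥(laurentBaseChange k (F₁ M (L * ℓ))) :=
  atkinLehnerML
    (Classical.choose_spec (Classical.choose_spec (exists_bezout_ML hℓ hℓN))) hℓ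

variable (hℓ : ℓ.Prime) (hℓN : ¬ ℓ ∣ M * L)

/-- **`W (α y) = β (⟨d⟩ y)`**, `d ℓ = 1` in `ZMod M` (helper4's `diaAlg`: upper left convention). -/
theorem atkinLehnerBar₁_alpha (d : (ZMod M)ˣ) (hd : (d : ZMod M) * (ℓ : ZMod M) = 1)
    (y : ↥(laurentBaseChange k (F₁ M L))) :
    atkinLehnerBar₁ k M L ℓ hℓ hℓN (heckeAlphaBar k M L ℓ y) =
      heckeBetaBar k M L ℓ (diaAlg M L d y) := by
  unfold atkinLehnerBar₁
  rw [atkinLehnerML_alpha, diaHom_alG1_eq_diaAlg _ d hd]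

/-- **`W (β y) = α y`.** -/
theorem atkinLehnerBar₁_beta (y : ↥(laurentBaseChange k (F₁ M L))) :
    atkinLehnerBar₁ k M L ℓ hℓ hℓN (heckeBetaBar k M L ℓ y) = heckeAlphaBar k M L ℓ y :=
  atkinLehnerML_beta _ hℓ y

theorem atkinLehnerBar₁_algebraMap (c : k) :
    atkinLehnerBar₁ k M L ℓ hℓ hℓN (algebraMap k ↥(laurentBaseChange k (F₁ M (L * ℓ))) c) =
      algebraMap k ↥(laurentBaseChange k (F₁ M (L * ℓ))) c :=
  atkinLehnerML_algebraMap _ hℓ c

/-- **`σ_∞ = (q ↦ q^ℓ) ∘ W_ℓ`** : `F' → k((q))`, the "extra" conjugate over `β F`. -/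
noncomputable def sigmaInf₁ :
    ↥(laurentBaseChange k (F₁ M (L * ℓ))) →+* LaurentSeries k :=
  (qExpand k ℓ).comp
    ((laurentBaseChange k (F₁ M (L * ℓ))).val.toRingHom.comp (atkinLehnerBar₁ k M L ℓ hℓ hℓN))

theorem sigmaInf₁_apply (z : ↥(laurentBaseChange k (F₁ M (L * ℓ)))) :
    sigmaInf₁ hℓ hℓN z =
      qExpand k ℓ ((atkinLehnerBar₁ k M L ℓ hℓ hℓN z : _) : LaurentSeries k) := rfl

/-- `σ_∞ (y(q)) = (⟨d⟩ y)(q^{ℓ²})` for `y ∈ F`, `d ℓ = 1`. -/
theorem sigmaInf₁_alpha (d : (ZMod M)ˣ) (hd : (d : ZMod M) * (ℓ : ZMod M) = 1)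
    (y : ↥(laurentBaseChange k (F₁ M L))) :
    sigmaInf₁ hℓ hℓN (heckeAlphaBar k M L ℓ y) =
      qExpand k (ℓ * ℓ) ((diaAlg M L d y : ↥(laurentBaseChange k (F₁ M L))) : LaurentSeries k) := by
  rw [sigmaInf₁_apply, atkinLehnerBar₁_alpha hℓ hℓN d hd, coe_heckeBetaBar, qExpand_qExpand]

/-- `σ_∞ (f(q^ℓ)) = f(q^ℓ)` for `f ∈ F`. -/
theorem sigmaInf₁_beta (y : ↥(laurentBaseChange k (F₁ M L))) :
    sigmaInf₁ hℓ hℓN (heckeBetaBar k M L ℓ y) = qExpand k ℓ (y : LaurentSeries k) := by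
  rw [sigmaInf₁_apply, atkinLehnerBar₁_beta, coe_heckeAlphaBar]

theorem sigmaInf₁_algebraMap (c : k) :
    sigmaInf₁ hℓ hℓN (algebraMap k ↥(laurentBaseChange k (F₁ M (L * ℓ))) c) = HahnSeries.C c := by
  rw [sigmaInf₁_apply, atkinLehnerBar₁_algebraMap]
  show qExpand k ℓ (algebraMap k (LaurentSeries k) c) = HahnSeries.C c
  rw [algebraMap_laurentSeries_eq_single]
  exact qExpand_C ℓ c

/-- `σ_∞ (j) = j(q^{ℓ²})`. -/
theorem sigmaInf₁_jK :
    sigmaInf₁ hℓ hℓN (heckeAlphaBar k M L ℓ (jK k M L)) =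
      qExpand k (ℓ * ℓ) (coeffEmb k jq) := by
  have hℓM : ¬ ℓ ∣ M := fun h => hℓN (Dvd.dvd.mul_right h L)
  have hu : IsUnit ((ℓ : ZMod M)) := by
    rw [ZMod.isUnit_iff_coprime]
    exact (Nat.Prime.coprime_iff_not_dvd hℓ).mpr hℓM
  obtain ⟨u, hu⟩ := hu
  have hd : ((u⁻¹ : (ZMod M)ˣ) : ZMod M) * (ℓ : ZMod M) = 1 := by
    rw [← hu, ← Units.val_mul, inv_mul_cancel, Units.val_one]
  rw [sigmaInf₁_alpha hℓ hℓN u⁻¹ hd]
  have h1 : jK k M L = jdBarML (k := k) (one_dvd (M * L)) := by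
    apply Subtype.ext
    rw [coe_jK, coe_jdBarML, qExpand_one_apply]
  rw [h1, diaAlg_jdBarML, coe_jdBarML, qExpand_one_apply]

/-! ### the norm formula -/

omit [Algebra k ℂ] [IsScalarTower ℚ k ℂ] in
/-- the coefficient of `q⁻¹` in `j`. -/
theorem coeff_coeffEmb_jq_neg_one₁ : (coeffEmb k jq).coeff (-1 : ℤ) = 1 := by
  have h := coeffEmb_qExpand_jq k 1
  rw [qExpand_one_apply, qExpand_one_apply] at h
  rw [h, coeff_jqModC_neg_one]

omit [Algebra ℚ k] [Algebra k ℂ] [IsScalarTower ℚ k ℂ] in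
/-- the rotation `q ↦ ξ q` fixes `f(q^ℓ)` when `ξ^ℓ = 1`. -/
theorem twist_qExpand_of_pow_eq_one₁ (ξ : kˣ) (hξ : ξ ^ ℓ = 1) (f : LaurentSeries k) :
    twist ξ (qExpand k ℓ f) = qExpand k ℓ f := by
  rw [twist_qExpand, hξ, twist_one]

include hℓ hℓN in
set_option maxHeartbeats 1600000 in
set_option synthInstance.maxHeartbeats 400000 in
/-- **the norm formula for `F' / β F`**: for `z ∈ F'` and `ζ` a primitive `ℓ`-th root of unity,
`(N_{F'/βF} z)(q^ℓ) = ∏_{b < ℓ} z(ζ^b q) · σ_∞(z)`. -/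
theorem qExpand_norm_heckeBetaBar₁ (hM : M ≠ 1) (ζ : kˣ) (hζ : IsPrimitiveRoot ζ ℓ)
    (z : ↥(laurentBaseChange k (F₁ M (L * ℓ)))) :
    letI := algebraAlong (heckeBetaBar k M L ℓ)
    qExpand k ℓ ((Algebra.norm ↥(laurentBaseChange k (F₁ M L)) z :
        ↥(laurentBaseChange k (F₁ M L))) : LaurentSeries k) =
      (∏ b : Fin ℓ, twist (ζ ^ (b : ℕ)) (z : LaurentSeries k)) * sigmaInf₁ hℓ hℓN z := by
  letI algFF' := algebraAlong (heckeBetaBar k M L ℓ)
  let Ebar := AlgebraicClosure (LaurentSeries k)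
  let ιE : LaurentSeries k →+* Ebar := algebraMap (LaurentSeries k) Ebar
  have hιE : Function.Injective ιE := ιE.injective
  let φ₀ : ↥(laurentBaseChange k (F₁ M L)) →+* LaurentSeries k :=
    (qExpand k ℓ).comp (laurentBaseChange k (F₁ M L)).val.toRingHom
  letI algFE : Algebra ↥(laurentBaseChange k (F₁ M L)) Ebar := (ιE.comp φ₀).toAlgebra
  obtain ⟨hfin0, hrank0⟩ := finrankAlong_heckeBetaBar_ML (k := k) M L ℓ hM hℓ
  rw [if_neg hℓN] at hrank0
  haveI hfin : FiniteDimensional ↥(laurentBaseChange k (F₁ M L))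
      ↥(laurentBaseChange k (F₁ M (L * ℓ))) := hfin0
  have hrank : Module.finrank ↥(laurentBaseChange k (F₁ M L))
      ↥(laurentBaseChange k (F₁ M (L * ℓ))) = ℓ + 1 := hrank0
  haveI : CharZero k := charZero_of_injective_algebraMap (algebraMap ℚ k).injective
  haveI : CharZero ↥(laurentBaseChange k (F₁ M L)) :=
    charZero_of_injective_algebraMap (algebraMap k ↥(laurentBaseChange k (F₁ M L))).injective
  haveI : Algebra.IsSeparable ↥(laurentBaseChange k (F₁ M L))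
      ↥(laurentBaseChange k (F₁ M (L * ℓ))) := Algebra.IsAlgebraic.isSeparable_of_perfectField
  have hζℓ : ∀ b : ℕ, (ζ ^ b) ^ ℓ = 1 := fun b => by
    rw [← pow_mul, mul_comm, pow_mul, hζ.pow_eq_one, one_pow]
  -- the `ℓ + 1` embeddings
  let embRot : Fin ℓ → (↥(laurentBaseChange k (F₁ M (L * ℓ))) →ₐ[↥(laurentBaseChange k (F₁ M L))]
      Ebar) := fun b =>
    { toRingHom := ιE.comp ((twist (ζ ^ (b : ℕ))).toRingHom.comp
        (laurentBaseChange k (F₁ M (L * ℓ))).val.toRingHom)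
      commutes' := fun r => by
        show ιE (twist (ζ ^ (b : ℕ)) (qExpand k ℓ (r : LaurentSeries k))) =
          ιE (qExpand k ℓ (r : LaurentSeries k))
        rw [twist_qExpand_of_pow_eq_one₁ _ (hζℓ b)] }
  let embInf : ↥(laurentBaseChange k (F₁ M (L * ℓ))) →ₐ[↥(laurentBaseChange k (F₁ M L))] Ebar :=
    { toRingHom := ιE.comp (sigmaInf₁ hℓ hℓN)
      commutes' := fun r => by
        show ιE (sigmaInf₁ hℓ hℓN (heckeBetaBar k M L ℓ r)) =
          ιE (qExpand k ℓ (r : LaurentSeries k))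
        rw [sigmaInf₁_beta] }
  let emb : Option (Fin ℓ) → (↥(laurentBaseChange k (F₁ M (L * ℓ))) →ₐ[
      ↥(laurentBaseChange k (F₁ M L))] Ebar) := fun o => o.elim embInf embRot
  -- the test element `j`
  set z₀ : ↥(laurentBaseChange k (F₁ M (L * ℓ))) := heckeAlphaBar k M L ℓ (jK k M L) with hz₀
  have hz₀c : (z₀ : LaurentSeries k) = coeffEmb k jq := rfl
  have hrot : ∀ b : Fin ℓ, (twist (ζ ^ (b : ℕ)) (z₀ : LaurentSeries k)).coeff (-1 : ℤ) =
      ((ζ ^ (b : ℕ) : kˣ)⁻¹ : kˣ) := fun b => by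
    rw [twist_coeff, hz₀c, coeff_coeffEmb_jq_neg_one₁, mul_one, zpow_neg_one]
  have hinf : (sigmaInf₁ hℓ hℓN z₀).coeff (-1 : ℤ) = 0 := by
    rw [hz₀, sigmaInf₁_jK]
    refine qExpand_coeff_of_not_dvd (ℓ * ℓ) _ ?_
    rintro ⟨c, hc⟩
    have h2 : 2 ≤ ℓ := hℓ.two_le
    have h4 : (4 : ℤ) ≤ ((ℓ * ℓ : ℕ) : ℤ) := by
      have : 4 ≤ ℓ * ℓ := by nlinarith
      exact_mod_cast this
    have hdvd : ((ℓ * ℓ : ℕ) : ℤ) ∣ 1 := ⟨-c, by linarith⟩
    have := Int.le_of_dvd one_pos hdvd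
    linarith
  have hinj : Function.Injective emb := by
    intro o o' hoo'
    have hval := congrArg (fun σ : ↥(laurentBaseChange k (F₁ M (L * ℓ))) →ₐ[
      ↥(laurentBaseChange k (F₁ M L))] Ebar => σ z₀) hoo'
    cases o with
    | none =>
      cases o' with
      | none => rfl
      | some b' =>
        exfalso
        have h1 : ιE (sigmaInf₁ hℓ hℓN z₀) = ιE (twist (ζ ^ (b' : ℕ)) (z₀ : LaurentSeries k)) :=
          hval
        have h2 := congrArg (fun x : LaurentSeries k => x.coeff (-1 : ℤ)) (hιE h1)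
        simp only [hinf, hrot] at h2
        exact Units.ne_zero _ h2.symm
    | some b =>
      cases o' with
      | none =>
        exfalso
        have h1 : ιE (twist (ζ ^ (b : ℕ)) (z₀ : LaurentSeries k)) = ιE (sigmaInf₁ hℓ hℓN z₀) :=
          hval
        have h2 := congrArg (fun x : LaurentSeries k => x.coeff (-1 : ℤ)) (hιE h1)
        simp only [hinf, hrot] at h2
        exact Units.ne_zero _ h2
      | some b' =>
        have h1 : ιE (twist (ζ ^ (b : ℕ)) (z₀ : LaurentSeries k)) =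
            ιE (twist (ζ ^ (b' : ℕ)) (z₀ : LaurentSeries k)) := hval
        have h2 := congrArg (fun x : LaurentSeries k => x.coeff (-1 : ℤ)) (hιE h1)
        simp only [hrot] at h2
        have h3 : ζ ^ (b : ℕ) = ζ ^ (b' : ℕ) := by
          have := Units.ext h2
          exact inv_injective this
        have h4 := hζ.pow_inj b.2 b'.2 h3
        exact congrArg some (Fin.ext h4)
  have hcard : Fintype.card (Option (Fin ℓ)) = Fintype.card (↥(laurentBaseChange k (F₁ M (L * ℓ)))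
      →ₐ[↥(laurentBaseChange k (F₁ M L))] Ebar) := by
    rw [AlgHom.card ↥(laurentBaseChange k (F₁ M L)) ↥(laurentBaseChange k (F₁ M (L * ℓ))) Ebar,
      Fintype.card_option, Fintype.card_fin]
    exact hrank.symm
  have hbij : Function.Bijective emb :=
    (Fintype.bijective_iff_injective_and_card emb).mpr ⟨hinj, hcard⟩
  have hnorm := Algebra.norm_eq_prod_embeddings ↥(laurentBaseChange k (F₁ M L)) Ebar z
  rw [← Fintype.prod_bijective emb hbij (fun o => emb o z) (fun σ => σ z) (fun _ => rfl),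
    Fintype.prod_option] at hnorm
  have hL : algebraMap ↥(laurentBaseChange k (F₁ M L)) Ebar
      (Algebra.norm ↥(laurentBaseChange k (F₁ M L)) z) =
      ιE (qExpand k ℓ ((Algebra.norm ↥(laurentBaseChange k (F₁ M L)) z :
        ↥(laurentBaseChange k (F₁ M L))) : LaurentSeries k)) := rfl
  have hR1 : emb none z = ιE (sigmaInf₁ hℓ hℓN z) := rfl
  have hR2 : ∀ i : Fin ℓ, emb (some i) z = ιE (twist (ζ ^ (i : ℕ)) (z : LaurentSeries k)) :=
    fun _ => rfl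
  rw [hL, hR1, Finset.prod_congr rfl (fun i _ => hR2 i), ← map_prod, ← map_mul] at hnorm
  have hfinal := hιE hnorm
  rw [hfinal]
  exact mul_comm _ _

include hℓ hℓN in
/-- **the norm formula for `F' / β F`**, product over `Finset.range ℓ`. -/
theorem qExpand_norm_heckeBetaBar₁_range (hM : M ≠ 1) (ζ : kˣ) (hζ : IsPrimitiveRoot ζ ℓ)
    (z : ↥(laurentBaseChange k (F₁ M (L * ℓ)))) :
    letI := algebraAlong (heckeBetaBar k M L ℓ)
    qExpand k ℓ ((Algebra.norm ↥(laurentBaseChange k (F₁ M L)) z :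
        ↥(laurentBaseChange k (F₁ M L))) : LaurentSeries k) =
      (∏ b ∈ Finset.range ℓ, twist (ζ ^ b) (z : LaurentSeries k)) * sigmaInf₁ hℓ hℓN z := by
  rw [qExpand_norm_heckeBetaBar₁ hℓ hℓN hM ζ hζ z,
    Fin.prod_univ_eq_prod_range (fun b => twist (ζ ^ b) (z : LaurentSeries k)) ℓ]

include hℓ hℓN in
/-- **the norm formula for `c − α y`** in the shape of the abstract Kronecker congruence with two
series (`exists_kron_of_norm_formula₂`, `y' = ⟨d⟩ y`, `d ℓ = 1`):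
`(N_{F'/βF} (c − y))(q^ℓ) = ∏_{b ∈ range ℓ} (q ↦ ζ^b q)(c − y) · (c − (⟨d⟩ y)(q^(ℓ^2)))`. -/
theorem qExpand_norm_sub_heckeAlphaBar₁_range (hM : M ≠ 1) (ζ : kˣ) (hζ : IsPrimitiveRoot ζ ℓ)
    (d : (ZMod M)ˣ) (hd : (d : ZMod M) * (ℓ : ZMod M) = 1) (c : k)
    (y : ↥(laurentBaseChange k (F₁ M L))) :
    letI := algebraAlong (heckeBetaBar k M L ℓ)
    qExpand k ℓ ((Algebra.norm ↥(laurentBaseChange k (F₁ M L))
        (algebraMap k ↥(laurentBaseChange k (F₁ M (L * ℓ))) c - heckeAlphaBar k M L ℓ y) :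
        ↥(laurentBaseChange k (F₁ M L))) : LaurentSeries k) =
      (∏ b ∈ Finset.range ℓ, twist (ζ ^ b) (HahnSeries.C c - (y : LaurentSeries k))) *
        (HahnSeries.C c - qExpand k (ℓ ^ 2)
          ((diaAlg M L d y : ↥(laurentBaseChange k (F₁ M L))) : LaurentSeries k)) := by
  have h := qExpand_norm_heckeBetaBar₁_range hℓ hℓN hM ζ hζ
    (algebraMap k ↥(laurentBaseChange k (F₁ M (L * ℓ))) c - heckeAlphaBar k M L ℓ y)
  have h1 : ((algebraMap k ↥(laurentBaseChange k (F₁ M (L * ℓ))) c -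
      heckeAlphaBar k M L ℓ y : ↥(laurentBaseChange k (F₁ M (L * ℓ)))) :
      LaurentSeries k) = HahnSeries.C c - (y : LaurentSeries k) := by
    rw [AddSubgroupClass.coe_sub, coe_heckeAlphaBar]
    congr 1
    show algebraMap k (LaurentSeries k) c = HahnSeries.C c
    rw [algebraMap_laurentSeries_eq_single]
    rfl
  rw [h, h1, map_sub, sigmaInf₁_algebraMap, sigmaInf₁_alpha hℓ hℓN d hd]
  congr 2
  exact qExpand_congr (sq ℓ).symm _

end Fermat.Agent.W1
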