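/-
W1 = [GRΓ1] (S48), package [A5] (helper4), part 2: **the norm formula for `T'_ℓ = β_* α^*`**.

helper2's `qExpand_norm_sub_heckeAlphaBar₁_range` computes the norm of `c - α y` along `β`; the
correspondence `T'_ℓ = β_* α^*` (`heckeSwapDivOf`) needs the norm of `c - β y` along `α`.  The
Atkin–Lehner operator `W` (`W ∘ β = α`, `W ∘ α = β ∘ ⟨d⟩`, `d ℓ = 1`) is bijective and transports one
into the other:
`(N_α (c - β y))(q^ℓ) = ∏_{b<ℓ} (q ↦ ζ^b q)(c - ⟨u⟩ y) · (c - y(q^{ℓ²}))`,  `u = ℓ` in `(ℤ/M)ˣ`.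
-/
import Mathlib
import Fermat.Agent.W1.ES1A_helper2_Norm
import Fermat.Agent.JA.ES_helper4_Main

set_option autoImplicit false
set_option linter.unusedSectionVars false
set_option linter.style.haveILetI false
set_option maxHeartbeats 400000

namespace Fermat.Agent.W1

open ModularCurve AlgebraicCurve IntermediateField Fermat.Agent.X0N Fermat.Agent.Igusa
open Fermat.Agent.JA Fermat.Agent.GR CongruenceSubgroup

section Abstract

variable {K F F' : Type*} [Field K] [Field F] [Field F'] [Algebra K F] [Algebra K F']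

/-- the norm along `ψ = W ∘ φ` of `W z` is the norm along `φ` of `z`, for a ring automorphism `W`
of the upper field. -/
theorem normAlong_ringEquiv (φ ψ : F →ₐ[K] F') (W : F' ≃+* F') (hW : ∀ x, W (φ x) = ψ x)
    (z : F') : normAlong ψ (W z) = normAlong φ z := by
  unfold normAlong
  have he : RingHom.comp (@algebraMap F F' _ _ (algebraAlong ψ)) ((RingEquiv.refl F : F ≃+* F) :
      F →+* F) = RingHom.comp (W : F' →+* F') (@algebraMap F F' _ _ (algebraAlong φ)) := by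
    ext x
    exact (hW x).symm
  have h := @Algebra.norm_eq_of_equiv_equiv F F' F F' _ _ _ _ (algebraAlong φ) (algebraAlong ψ)
    (RingEquiv.refl F) W he z
  exact h.symm

end Abstract

variable {k : Type*} [Field k] [Algebra ℚ k] [Algebra k ℂ] [IsScalarTower ℚ k ℂ]
  {M L ℓ : ℕ} [NeZero M] [NeZero L] [NeZero ℓ]

variable (hℓ : ℓ.Prime) (hℓN : ¬ ℓ ∣ M * L)

/-- the Atkin–Lehner operator is surjective. -/
theorem atkinLehnerBar₁_surjective :
    Function.Surjective (atkinLehnerBar₁ k M L ℓ hℓ hℓN) := by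
  have hℓM : ¬ ℓ ∣ M := fun h => hℓN (Dvd.dvd.mul_right h L)
  have hu : IsUnit ((ℓ : ZMod M)) := by
    rw [ZMod.isUnit_iff_coprime]
    exact (Nat.Prime.coprime_iff_not_dvd hℓ).mpr hℓM
  obtain ⟨u, hu⟩ := hu
  have hd : ((u⁻¹ : (ZMod M)ˣ) : ZMod M) * (ℓ : ZMod M) = 1 := by
    rw [← hu, ← Units.val_mul, inv_mul_cancel, Units.val_one]
  intro z
  refine induction_alpha_beta₁ M L ℓ hℓ
    (p := fun z => ∃ w, atkinLehnerBar₁ k M L ℓ hℓ hℓN w = z) ?_ ?_ ?_ ?_ ?_ ?_ z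
  · intro c
    exact ⟨_, atkinLehnerBar₁_algebraMap hℓ hℓN c⟩
  · intro y
    exact ⟨_, atkinLehnerBar₁_beta hℓ hℓN y⟩
  · intro y
    refine ⟨heckeAlphaBar k M L ℓ (diaAlg M L u y), ?_⟩
    rw [atkinLehnerBar₁_alpha hℓ hℓN u⁻¹ hd, ← AlgEquiv.mul_apply, ← diaAlg_mul, inv_mul_cancel,
      diaAlg_one, AlgEquiv.one_apply]
  · rintro a b ⟨a', rfl⟩ ⟨b', rfl⟩
    exact ⟨a' + b', map_add _ _ _⟩
  · rintro a b ⟨a', rfl⟩ ⟨b', rfl⟩
    exact ⟨a' * b', map_mul _ _ _⟩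
  · rintro a ⟨a', rfl⟩
    exact ⟨a'⁻¹, map_inv₀ _ _⟩

/-- the Atkin–Lehner operator as a ring automorphism. -/
noncomputable def atkinLehnerEquiv₁ :
    ↥(laurentBaseChange k (F₁ M (L * ℓ))) ≃+* ↥(laurentBaseChange k (F₁ M (L * ℓ))) :=
  RingEquiv.ofBijective (atkinLehnerBar₁ k M L ℓ hℓ hℓN)
    ⟨(atkinLehnerBar₁ k M L ℓ hℓ hℓN).injective, atkinLehnerBar₁_surjective hℓ hℓN⟩

theorem atkinLehnerEquiv₁_apply (z : ↥(laurentBaseChange k (F₁ M (L * ℓ)))) :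
    atkinLehnerEquiv₁ hℓ hℓN z = atkinLehnerBar₁ k M L ℓ hℓ hℓN z :=
  RingEquiv.ofBijective_apply _ _ z

include hℓ hℓN in
/-- **the norm along `α` of `c - β y`** is the norm along `β` of `c - α (⟨u⟩ y)`, `u = ℓ`. -/
theorem normAlong_alpha_sub_beta (u : (ZMod M)ˣ) (hu : (u : ZMod M) = (ℓ : ZMod M)) (c : k)
    (y : ↥(laurentBaseChange k (F₁ M L))) :
    normAlong (heckeAlphaBar k M L ℓ)
        (algebraMap k ↥(laurentBaseChange k (F₁ M (L * ℓ))) c - heckeBetaBar k M L ℓ y) =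
      normAlong (heckeBetaBar k M L ℓ)
        (algebraMap k ↥(laurentBaseChange k (F₁ M (L * ℓ))) c -
          heckeAlphaBar k M L ℓ (diaAlg M L u y)) := by
  have hd : ((u⁻¹ : (ZMod M)ˣ) : ZMod M) * (ℓ : ZMod M) = 1 := by
    rw [← hu, ← Units.val_mul, inv_mul_cancel, Units.val_one]
  have h := normAlong_ringEquiv (heckeBetaBar k M L ℓ) (heckeAlphaBar k M L ℓ)
    (atkinLehnerEquiv₁ hℓ hℓN) (fun x => atkinLehnerBar₁_beta hℓ hℓN x)
    (algebraMap k ↥(laurentBaseChange k (F₁ M (L * ℓ))) c -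
          heckeAlphaBar k M L ℓ (diaAlg M L u y))
  rw [← h, atkinLehnerEquiv₁_apply, map_sub, atkinLehnerBar₁_algebraMap,
    atkinLehnerBar₁_alpha hℓ hℓN u⁻¹ hd, ← AlgEquiv.mul_apply, ← diaAlg_mul, inv_mul_cancel,
    diaAlg_one, AlgEquiv.one_apply]

include hℓ hℓN in
/-- **the norm formula for `T'_ℓ = β_* α^*`**:
`(N_α (c - β y))(q^ℓ) = ∏_{b ∈ range ℓ} (q ↦ ζ^b q)(c - ⟨u⟩ y) · (c - y(q^(ℓ^2)))`, `u = ℓ`. -/
theorem qExpand_normAlong_alpha_sub_beta (hM : M ≠ 1) (ζ : kˣ) (hζ : IsPrimitiveRoot ζ ℓ)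
    (u : (ZMod M)ˣ) (hu : (u : ZMod M) = (ℓ : ZMod M)) (c : k)
    (y : ↥(laurentBaseChange k (F₁ M L))) :
    qExpand k ℓ ((normAlong (heckeAlphaBar k M L ℓ)
        (algebraMap k ↥(laurentBaseChange k (F₁ M (L * ℓ))) c - heckeBetaBar k M L ℓ y) :
        ↥(laurentBaseChange k (F₁ M L))) : LaurentSeries k) =
      (∏ b ∈ Finset.range ℓ, twist (ζ ^ b)
          (HahnSeries.C c - ((diaAlg M L u y : ↥(laurentBaseChange k (F₁ M L))) :
            LaurentSeries k))) *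
        (HahnSeries.C c - qExpand k (ℓ ^ 2) (y : LaurentSeries k)) := by
  have hd : ((u⁻¹ : (ZMod M)ˣ) : ZMod M) * (ℓ : ZMod M) = 1 := by
    rw [← hu, ← Units.val_mul, inv_mul_cancel, Units.val_one]
  rw [normAlong_alpha_sub_beta hℓ hℓN u hu c y]
  have h := qExpand_norm_sub_heckeAlphaBar₁_range hℓ hℓN hM ζ hζ u⁻¹ hd c (diaAlg M L u y)
  rw [← AlgEquiv.mul_apply, ← diaAlg_mul, inv_mul_cancel, diaAlg_one, AlgEquiv.one_apply] at h
  exact h

end Fermat.Agent.W1
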