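/-
W1 = [GRΓ1] (S48), package [A5] (helper4), part 9: **Eichler–Shimura at place level for every
place of `X₁(M)`** (port of `JA/ES_helper4_{Modular,Final}` with the diamond):
`r_* (T'_ℓ P) = [Φ (r P)] + ℓ [Φ⁻¹ (r (⟨ℓ⟩⁻¹ P))]`, `T'_ℓ = β_* α^*`, from the chart inputs of the
place reduction: (RES) `GaussRes`, (EVAL) `ChartEval` and (SEP) `ChartSep` for the `j`-chart and
the cusp chart `V = (j - b)⁻¹`, `deg = 1` on `F̃₁`, and the Galois equivariance of `r`.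
-/
import Mathlib
import Fermat.Agent.W1.ES_helper4_Abstract
import Fermat.Agent.W1.ES_helper4_NormSwap
import Fermat.Agent.W1.ES_helper4_Kron
import Fermat.Agent.W1.ES_helper4_CuspChart
import Fermat.Agent.W1.ES_helper4_DiaValue
import Fermat.Agent.JA.ES_helper4_Final
import Fermat.Agent.JA.ES_helper7_SpecNAlong
import Fermat.Agent.W1.ES1A_helper2_Integral
import Fermat.Agent.W1.ES1A_helper2_Cusp
import Fermat.Agent.W1.HECKEF_helper4_Swap

set_option autoImplicit false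
set_option linter.unusedSectionVars false
set_option linter.style.haveILetI false

open HahnSeries IntermediateField AlgebraicCurve

open Fermat.Agent.JA

namespace Fermat.Agent.W1

open ModularCurve Fermat.Agent.X0N Fermat.Agent.Igusa

set_option synthInstance.maxHeartbeats 400000
set_option maxHeartbeats 1600000

local notation "Ω" => AlgebraicClosure ℚ

section AuxInst

/-- instance-agnostic form of `isIntegral_of_adjoin_int_of_subset`. -/
theorem isIntegral_of_adjoin_int_of_subset_inst {S : Type*} [CommRing S] [i : Algebra ℤ S]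
    {s : Set S} {T : Subring S} (hs : s ⊆ T) {x : S}
    (hx : IsIntegral (Algebra.adjoin ℤ s) x) : IsIntegral T x := by
  obtain rfl : i = Ring.toIntAlgebra S := Subsingleton.elim _ _
  exact isIntegral_of_adjoin_int_of_subset hs hx

/-- integrality over `ℤ[X]` with `X` in the range of `f` gives an integral element for `f`. -/
theorem isIntegralElem_of_adjoin_int_of_mem_range {R' S : Type*} [CommRing R'] [CommRing S]
    [Nontrivial S] [i : Algebra ℤ S] (f : R' →+* S) {X Y : S} (hX : X ∈ f.range)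
    (h : IsIntegral (Algebra.adjoin ℤ {X}) Y) : f.IsIntegralElem Y := by
  have h1 : IsIntegral ↥f.range Y := by
    refine isIntegral_of_adjoin_int_of_subset_inst ?_ h
    intro w hw
    rw [Set.mem_singleton_iff] at hw
    rw [hw]
    exact hX
  exact isIntegralElem_of_isIntegral_of_le_range f f.range le_rfl h1

variable {K F : Type*} [Field K] [Field F] [Algebra K F] {A : ValuationSubring K}
  {P : Place K F}

/-- instance-agnostic form of `hasValueAt_of_isIntegral_adjoin_int`. -/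
theorem hasValueAt_of_isIntegral_adjoin_int_inst [i : Algebra ℤ F] (hdeg : P.deg = 1) {X Y : F}
    (hXY : IsIntegral (Algebra.adjoin ℤ {Y}) X) (hY : ∃ a : A, HasValueAt P Y (a : K)) :
    ∃ a : A, HasValueAt P X (a : K) := by
  obtain rfl : i = Ring.toIntAlgebra F := Subsingleton.elim _ _
  exact hasValueAt_of_isIntegral_adjoin_int hdeg hXY hY

/-- instance-agnostic form of `hasValueAt_inv_sub_of_isIntegral_adjoin_int`. -/
theorem hasValueAt_inv_sub_of_isIntegral_adjoin_int_inst [i : Algebra ℤ F] (hdeg : P.deg = 1)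
    {X Y : F} (b : ℤ)
    (hYX : IsIntegral (Algebra.adjoin ℤ {X}) Y) (hYb : Y - (b : F) ≠ 0)
    (hY : ∃ a : A, IsLocalRing.residue A a = 0 ∧ HasValueAt P (Y - (b : F))⁻¹ (a : K)) :
    ∃ a : A, IsLocalRing.residue A a = 0 ∧ HasValueAt P (X - (b : F))⁻¹ (a : K) := by
  obtain rfl : i = Ring.toIntAlgebra F := Subsingleton.elim _ _
  exact hasValueAt_inv_sub_of_isIntegral_adjoin_int hdeg b hYX hYb hY

end AuxInst

section Main

variable {ℓ : ℕ} [hℓ : Fact ℓ.Prime] {A : ValuationSubring Ω} {M : ℕ} [NeZero M]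

/-- the norm formula of (ES1) for `T'_ℓ = β_* α^*` in the shape `hnormf` of `chart_kron`. -/
theorem hnormf_of_es1 (hM : M ≠ 1) (hℓM : ¬ ℓ ∣ M) (ζ : (↥A)ˣ)
    (hζ : IsPrimitiveRoot (Units.map (A.subtype : ↥A →* Ω) ζ) ℓ)
    (u : (ZMod M)ˣ) (hu : (u : ZMod M) = (ℓ : ZMod M))
    (Y : ↥(F₁Bar M 1)) (c : Ω) :
    haveI : NeZero ℓ := ⟨hℓ.out.ne_zero⟩
    qExpand Ω ℓ
        ((normAlong (heckeAlphaBar Ω M 1 ℓ)
          (algebraMap Ω ↥(F₁Bar M (1 * ℓ)) c - heckeBetaBar Ω M 1 ℓ Y) : ↥(F₁Bar M 1)) :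
          LaurentSeries Ω)
      = (∏ b ∈ Finset.range ℓ,
          twist (Units.map (A.subtype : ↥A →* Ω) ζ ^ b)
            (HahnSeries.C c - ((diaBarAlg M 1 u Y : ↥(F₁Bar M 1)) : LaurentSeries Ω)))
        * (HahnSeries.C c - qExpand Ω (ℓ ^ 2) (Y : LaurentSeries Ω)) := by
  haveI : NeZero ℓ := ⟨hℓ.out.ne_zero⟩
  letI : Algebra Ω ℂ := complexEmbedding.toRingHom.toAlgebra
  haveI : IsScalarTower ℚ Ω ℂ := IsScalarTower.of_algebraMap_eq' (Subsingleton.elim _ _)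
  have hℓN : ¬ ℓ ∣ M * 1 := by rwa [mul_one]
  exact qExpand_normAlong_alpha_sub_beta (k := Ω) (M := M) (L := 1) hℓ.out hℓN hM _ hζ u hu c Y

/-- the integrality input `hint` of `chart_kron` for the `j`-chart. -/
theorem hint_jBar :
    haveI : NeZero ℓ := ⟨hℓ.out.ne_zero⟩
    ((heckeAlphaBar Ω M 1 ℓ).toRingHom.comp
      (algebraMap ↥(coeffSubring A M (jBar M)) _)).IsIntegralElem
        (heckeBetaBar Ω M 1 ℓ (jBar M)) := by
  haveI : NeZero ℓ := ⟨hℓ.out.ne_zero⟩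
  letI : Algebra Ω ℂ := complexEmbedding.toRingHom.toAlgebra
  have hprim : ∃ z : Ω, IsPrimitiveRoot z ℓ :=
    HasEnoughRootsOfUnity.exists_primitiveRoot Ω ℓ
  have h0 := isIntegral_heckeBetaBar_jK (k := Ω) (M := M) (L := 1) (ℓ := ℓ) hprim
  have e : jBar M = jK Ω M 1 := rfl
  rw [e]
  refine isIntegralElem_of_adjoin_int_of_mem_range (i := Ring.toIntAlgebra _) _ ?_ h0
  exact ⟨⟨jK Ω M 1, self_mem_coeffSubring _⟩, rfl⟩

/-- the arithmetic Galois action fixes `j`. -/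
theorem arithmeticGalois_smul_jBar (σ : Ω ≃ₐ[ℚ] Ω) :
    arithmeticGalois (F₁ M 1) σ • jBar M = jBar M := by
  apply Subtype.ext
  rw [coe_arithmeticGalois_smul, coe_jBar, coeffMap_coeffEmb]

/-- the diamonds fix `j`. -/
theorem diaBarAlg_jBar (d : (ZMod M)ˣ) : diaBarAlg M 1 d (jBar M) = jBar M :=
  diaBarAlg_jK M 1 d

theorem coe_jBar_eq_coeffMap_intCast :
    ((jBar M : ↥(F₁Bar M 1)) : LaurentSeries Ω) = coeffMap (Int.castRingHom Ω) (jqModC ℤ) := by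
  rw [coe_jBar_eq_jqModC_h4, coeffMap_jqModC]

end Main

section Modular

variable {ℓ : ℕ} [hℓ : Fact ℓ.Prime] {A : ValuationSubring Ω} {M : ℕ} [NeZero M]

/-- **Eichler–Shimura at place level for `X₁(M)`**, from the chart inputs (EVAL), (G2), (SEP),
(KRON-N with a diamond) and the second place `Q₂`. -/
theorem es_place_modular_dia (hM : M ≠ 1)
    (r : Place Ω ↥(F₁Bar M 1) →
      Place (IsLocalRing.ResidueField A) ↥(F₁C (IsLocalRing.ResidueField A) M 1))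
    (σ₀ : A.decompositionSubgroup ℚ) (hσ₀ : A.IsFrobeniusAt σ₀.1 ℓ)
    {𝔅₁ 𝔅₂ : Type*} (ι : 𝔅₁ → ↥(F₁Bar M 1))
    (ρ : 𝔅₁ → ↥(F₁C (IsLocalRing.ResidueField A) M 1))
    (ι₂ : 𝔅₂ → ↥(F₁Bar M 1))
    (ρ₂ : 𝔅₂ → ↥(F₁C (IsLocalRing.ResidueField A) M 1))
    (good₁ good : Place Ω ↥(F₁Bar M 1) → Prop)
    (goodk : Place (IsLocalRing.ResidueField A)
      ↥(F₁C (IsLocalRing.ResidueField A) M 1) → Prop)
    (hdegk : ∀ Q, goodk Q → Q.deg = 1)
    (heval : ∀ P, good₁ P → ∀ y : 𝔅₁, ∃ a : A,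
      HasValueAt P (ι y) (a : Ω) ∧ HasValueAt (r P) (ρ y) (IsLocalRing.residue A a))
    (heval₂ : ∀ P, good P → ∀ n : 𝔅₂, ∃ a : A,
      HasValueAt P (ι₂ n) (a : Ω) ∧ HasValueAt (r P) (ρ₂ n) (IsLocalRing.residue A a))
    (hgood_r : ∀ P, good P → goodk (r P)) (hgood_r₁ : ∀ P, good₁ P → goodk (r P))
    (hreg : ∀ (y : 𝔅₁) Q, goodk Q → ρ y ∈ Q.toValuationSubring)
    (hG2 : haveI : NeZero ℓ := ⟨hℓ.out.ne_zero⟩
      haveI := (jCoordBarOf M (1 * ℓ) hM).hasPrincipalDivisors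
      ∀ P, good P →
      ∀ W ∈ Place.fiberAlong (heckeAlphaBar Ω M 1 ℓ)
        (heckeAlphaBarIntegral_of_coord Ω M 1 ℓ (jCoordBarOf M 1 hM) (jCoordBarOf M (1 * ℓ) hM)) P,
        good₁ (W.restrictAlong (heckeBetaBar Ω M 1 ℓ)
          (heckeBetaBarIntegral_of_coord Ω M 1 ℓ (jCoordBarOf M 1 hM)
            (jCoordBarOf M (1 * ℓ) hM))))
    (hsep : ∀ T : Finset (Place (IsLocalRing.ResidueField A)
        ↥(F₁C (IsLocalRing.ResidueField A) M 1)),
      (∀ Q ∈ T, goodk Q) → ∀ Q₀ ∈ T,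
      ∃ y : 𝔅₁, HasValueAt Q₀ (ρ y) 0 ∧ ∀ Q ∈ T, Q ≠ Q₀ → ¬ HasValueAt Q (ρ y) 0)
    (P : Place Ω ↥(F₁Bar M 1)) (hP : good P)
    (Q₂ : Place (IsLocalRing.ResidueField A) ↥(F₁C (IsLocalRing.ResidueField A) M 1))
    (hQ₂ : goodk Q₂)
    (hΦP : goodk (coeffAutC (IsLocalRing.ResidueField A) M (resAut A σ₀) • r P))
    (hkron : haveI : NeZero ℓ := ⟨hℓ.out.ne_zero⟩
      ∀ (y : 𝔅₁) (c : A), ∃ (n : 𝔅₂) (w : ↥(F₁C (IsLocalRing.ResidueField A) M 1)),
      ι₂ n = normAlong (heckeAlphaBar Ω M 1 ℓ)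
        (algebraMap Ω ↥(F₁Bar M (1 * ℓ)) (c : Ω) - heckeBetaBar Ω M 1 ℓ (ι y)) ∧
      ρ₂ n = (algebraMap (IsLocalRing.ResidueField A) _ (IsLocalRing.residue A c ^ ℓ) - w)
        * (algebraMap (IsLocalRing.ResidueField A) _ (IsLocalRing.residue A c)
          - ((coeffAutC (IsLocalRing.ResidueField A) M (resAut A σ₀))⁻¹ • ρ y) ^ ℓ) ∧
      HasValueAt (r P) w (valueAt Q₂ (ρ y) ^ ℓ)) :
    haveI : NeZero ℓ := ⟨hℓ.out.ne_zero⟩
    Finsupp.mapDomain r (heckeSwapDivBar M 1 ℓ hM (Finsupp.single P 1))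
      = Finsupp.single (coeffAutC (IsLocalRing.ResidueField A) M (resAut A σ₀) • r P) 1
        + Finsupp.single Q₂ (ℓ : ℤ) := by
  haveI : NeZero ℓ := ⟨hℓ.out.ne_zero⟩
  haveI : IsAlgClosed (IsLocalRing.ResidueField A) := isAlgClosed_residueField A
  haveI : Infinite (IsLocalRing.ResidueField A) := IsAlgClosed.instInfinite
  haveI := (jCoordBarOf M (1 * ℓ) hM).hasPrincipalDivisors
  have hα := heckeAlphaBarIntegral_of_coord Ω M 1 ℓ (jCoordBarOf M 1 hM) (jCoordBarOf M (1 * ℓ) hM)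
  have hdeg' : ∀ W : Place Ω ↥(F₁Bar M (1 * ℓ)), W.deg = 1 :=
    fun W => (jCoordBarOf M (1 * ℓ) hM).deg_eq_one W
  exact es_place_abstract_dia (heckeAlphaBar Ω M 1 ℓ) (heckeBetaBar Ω M 1 ℓ)
    (heckeAlphaBarIntegral_of_coord Ω M 1 ℓ (jCoordBarOf M 1 hM) (jCoordBarOf M (1 * ℓ) hM))
    (heckeBetaBarIntegral_of_coord Ω M 1 ℓ (jCoordBarOf M 1 hM) (jCoordBarOf M (1 * ℓ) hM))
    hdeg' A (IsLocalRing.residue A)
    IsLocalRing.residue_surjective r
    (coeffAutC (IsLocalRing.ResidueField A) M (resAut A σ₀)) ℓ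
    (baseAut_coeffAutC_resAut_of_isFrobeniusAt A M σ₀ hσ₀)
    ι ρ ι₂ ρ₂ good₁ good goodk hdegk heval heval₂ hgood_r hgood_r₁ hreg hG2 hsep
    (fun P z a hz => hasValueAt_normAlong _ hα
      (finiteAlong_of_coord (jCoordBarOf M 1 hM) (jCoordBarOf M (1 * ℓ) hM) _) hdeg' P z a hz)
    P hP Q₂ hQ₂ hΦP hkron

end Modular

section JChart

variable {ℓ : ℕ} [hℓ : Fact ℓ.Prime] {A : ValuationSubring Ω} {M : ℕ} [NeZero M]

/-- **(O4) on the `j`-chart, for `X₁(M)`.** -/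
theorem es_place_jchart (hA : A.LiesOverPrime ℓ) (hM : M ≠ 1) (hℓM : ¬ ℓ ∣ M)
    (h : GaussRes A M (IsLocalRing.residue A))
    (r : Place Ω ↥(F₁Bar M 1) →
      Place (IsLocalRing.ResidueField A) ↥(F₁C (IsLocalRing.ResidueField A) M 1))
    (σ₀ : A.decompositionSubgroup ℚ) (hσ₀ : A.IsFrobeniusAt σ₀.1 ℓ)
    (u : (ZMod M)ˣ) (hu : (u : ZMod M) = (ℓ : ZMod M))
    (hdegk : ∀ Q : Place (IsLocalRing.ResidueField A)
      ↥(F₁C (IsLocalRing.ResidueField A) M 1), Q.deg = 1)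
    (hequiv : ∀ (σ : A.decompositionSubgroup ℚ) (P : Place Ω ↥(F₁Bar M 1)),
      r (arithmeticGalois (F₁ M 1) σ.1 • P)
        = coeffAutC (IsLocalRing.ResidueField A) M (resAut A σ) • r P)
    (hev : ChartEval h (jBar M) r)
    (hsep : ChartSep h (jBar M)
      (fun Q => jTildeElt (IsLocalRing.ResidueField A) M ∈ Q.toValuationSubring))
    (P : Place Ω ↥(F₁Bar M 1)) (hP : GoodAt A M (jBar M) P) :
    haveI : NeZero ℓ := ⟨hℓ.out.ne_zero⟩
    Finsupp.mapDomain r (heckeSwapDivBar M 1 ℓ hM (Finsupp.single P 1))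
      = Finsupp.single (coeffAutC (IsLocalRing.ResidueField A) M (resAut A σ₀) • r P) 1
        + Finsupp.single ((coeffAutC (IsLocalRing.ResidueField A) M (resAut A σ₀))⁻¹ •
            r (SemilinearAut.ofAlgAut (diaBarAlg M 1 u⁻¹) • P)) (ℓ : ℤ) := by
  haveI : NeZero ℓ := ⟨hℓ.out.ne_zero⟩
  letI : Algebra Ω ℂ := complexEmbedding.toRingHom.toAlgebra
  haveI := (jCoordBarOf M (1 * ℓ) hM).hasPrincipalDivisors
  obtain ⟨ζ, hζ⟩ := exists_unit_isPrimitiveRoot A ℓ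
  have hζ1 : ζ ^ ℓ = 1 := by
    have h1 := hζ.pow_eq_one
    rw [← map_pow] at h1
    exact Units.map_injective (f := (A.subtype : ↥A →* Ω))
      Subtype.val_injective (h1.trans (map_one _).symm)
  have hprim : ∃ z : Ω, IsPrimitiveRoot z ℓ :=
    HasEnoughRootsOfUnity.exists_primitiveRoot Ω ℓ
  have hdeg' : ∀ W : Place Ω ↥(F₁Bar M (1 * ℓ)), W.deg = 1 :=
    fun W => (jCoordBarOf M (1 * ℓ) hM).deg_eq_one W
  have hgood_r : ∀ P : Place Ω ↥(F₁Bar M 1), GoodAt A M (jBar M) P →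
      jTildeElt (IsLocalRing.ResidueField A) M ∈ (r P).toValuationSubring := by
    intro P hP
    obtain ⟨a, -, h2⟩ := hev P hP (jA A M)
    rw [chartρF_jA] at h2
    exact h2.mem
  -- the place `⟨u⟩⁻¹ P` is good
  have hPδ : GoodAt A M (jBar M) (SemilinearAut.ofAlgAut (diaBarAlg M 1 u⁻¹) • P) := by
    obtain ⟨a, ha⟩ := hP
    refine ⟨a, ?_⟩
    have h1 := ha.smul (SemilinearAut.ofAlgAut (diaBarAlg M 1 u⁻¹))
    have e : (SemilinearAut.ofAlgAut (diaBarAlg M 1 u⁻¹) : SemilinearAut Ω ↥(F₁Bar M 1)) • jBar M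
        = jBar M := diaBarAlg_jBar u⁻¹
    rw [e] at h1
    exact h1
  refine es_place_modular_dia hM r σ₀ hσ₀ (chartι A M (jBar M)) (chartρF h (jBar M))
    (chartι A M (jBar M)) (chartρF h (jBar M)) (GoodAt A M (jBar M)) (GoodAt A M (jBar M))
    (fun Q => jTildeElt (IsLocalRing.ResidueField A) M ∈ Q.toValuationSubring)
    (fun Q _ => hdegk Q) hev hev hgood_r hgood_r ?_ ?_ hsep P hP _ ?_ ?_ ?_
  · -- hreg
    intro y Q hQ
    refine chartρF_mem_of_mem h (jBar M)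
      (Subring.inclusion (chartRing_le_gaussRing (jBar M)) (jA A M)) chartι_jA y Q ?_
    have e : gaussρF h (Subring.inclusion (chartRing_le_gaussRing (jBar M)) (jA A M))
        = jTildeElt (IsLocalRing.ResidueField A) M := chartρF_jA h
    rw [e]
    exact hQ
  · -- hG2
    intro P hP W hW
    obtain ⟨a, ha⟩ := hP
    have hWP := Place.mem_fiberAlong.mp hW
    have h1 : HasValueAt W (heckeAlphaBar Ω M 1 ℓ (jBar M)) (a : Ω) := by
      rw [← hasValueAt_restrictAlong_iff _ (heckeAlphaBarIntegral_of_coord Ω M 1 ℓ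
        (jCoordBarOf M 1 hM) (jCoordBarOf M (1 * ℓ) hM)), hWP]
      exact ha
    have h0 := isIntegral_heckeBetaBar_jK (k := Ω) (M := M) (L := 1) (ℓ := ℓ) hprim
    obtain ⟨a', ha'⟩ := hasValueAt_of_isIntegral_adjoin_int_inst (i := Ring.toIntAlgebra _)
      (A := A) (hdeg' W) h0 ⟨a, h1⟩
    exact ⟨a', (hasValueAt_restrictAlong_iff _ _ W _ _).mpr ha'⟩
  · -- hQ₂
    rw [← map_inv]
    exact mem_smul_place_of_smul_eq _ _ (coeffAutC_smul_jTildeElt _ M _) (hgood_r _ hPδ)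
  · -- hΦP
    exact mem_smul_place_of_smul_eq _ _ (coeffAutC_smul_jTildeElt _ M _) (hgood_r _ hP)
  · -- hkron
    intro y c
    obtain ⟨yu, hyu⟩ := exists_chartRing_algEquiv hA M (jqModC ℤ) (jBar M)
      coe_jBar_eq_coeffMap_intCast (diaBarAlg M 1 u) (diaBarAlg_jBar u) y
    have hnormf := hnormf_of_es1 hM hℓM ζ hζ u hu (chartι A M (jBar M) y) (c : Ω)
    rw [← hyu] at hnormf
    obtain ⟨n, hn1, hn2⟩ := chart_kron hA h (jBar M) σ₀ hσ₀ ζ hζ1 yu y c hnormf hint_jBar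
    refine ⟨n, _, hn1, hn2, ?_⟩
    exact hasValueAt_frob_smul_dia h (jBar M) arithmeticGalois_smul_jBar u (diaBarAlg_jBar u⁻¹)
      r hev hequiv σ₀ hσ₀ y yu hyu P hP

end JChart

section CuspDen

/-- instance-agnostic form of `HasValueAt.aeval_int`. -/
theorem hasValueAt_aeval_int_inst {K F : Type*} [Field K] [Field F] [Algebra K F]
    [i : Algebra ℤ F] [i' : Algebra ℤ K] {P : Place K F} {f : F} {c : K}
    (hf : HasValueAt P f c) (u : Polynomial ℤ) :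
    HasValueAt P (Polynomial.aeval f u) (Polynomial.aeval c u) := by
  obtain rfl : i = Ring.toIntAlgebra F := Subsingleton.elim _ _
  obtain rfl : i' = Ring.toIntAlgebra K := Subsingleton.elim _ _
  exact hf.aeval_int u

variable {L : Type*} [Field L] [Algebra ℚ L] {A : ValuationSubring L} {M : ℕ}

/-- the denominator `s = u(V)` of the cusp chart, with all the facts used about it; generic in
the `ℤ`-algebra instance of the upper field. -/
theorem exists_cusp_denominator {F' : Type*} [Field F'] [Algebra L F'] [i : Algebra ℤ F']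
    (φ ψ : ↥(laurentBaseChange L (F₁ M 1)) →ₐ[L] F')
    (V : ↥(laurentBaseChange L (F₁ M 1))) (vS : ↥(chartRing A M V))
    (hvS : chartι A M V vS = V)
    (p : Polynomial ℤ) (hp0 : p.coeff 0 = 1)
    (hpne : Polynomial.aeval (φ V) p ≠ 0)
    (hint : IsIntegral ↥(Algebra.adjoin ℤ {φ V, (Polynomial.aeval (φ V) p)⁻¹}) (ψ V)) :
    ∃ sA : ↥(chartRing A M V), chartι A M V sA ∈ coeffSubring A M V ∧ chartι A M V sA ≠ 0 ∧
      IsIntegral ↥(Algebra.adjoin ℤ {φ V, (φ (chartι A M V sA))⁻¹}) (ψ V) ∧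
      ∀ P : Place L ↥(laurentBaseChange L (F₁ M 1)),
        (∃ a : ↥A, IsLocalRing.residue ↥A a = 0 ∧ HasValueAt P V (a : L)) →
        ∃ a : ↥A, IsUnit a ∧ HasValueAt P (chartι A M V sA) (a : L) := by
  have hιs : chartι A M V (Polynomial.aeval vS p) = Polynomial.aeval V p := by
    rw [chartι_aeval, hvS]
  have hφs : φ (Polynomial.aeval V p) = Polynomial.aeval (φ V) p :=
    map_aeval_int_inst φ.toRingHom V p
  refine ⟨Polynomial.aeval vS p, ?_, ?_, ?_, ?_⟩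
  · rw [hιs]
    exact aeval_mem_coeffSubring V p
  · rw [hιs]
    intro h0
    apply hpne
    rw [← hφs, h0, map_zero]
  · rw [hιs, hφs]
    exact hint
  · rintro P ⟨a, ha0, ha⟩
    refine ⟨Polynomial.aeval a p, isUnit_aeval_of_residue_eq_zero A p hp0 a ha0, ?_⟩
    have e : ((Polynomial.aeval a p : ↥A) : L) = Polynomial.aeval (a : L) p :=
      map_aeval_int_inst A.subtype a p
    rw [hιs, e]
    exact hasValueAt_aeval_int_inst ha p

end CuspDen

section VChart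

variable {ℓ : ℕ} [hℓ : Fact ℓ.Prime] {A : ValuationSubring Ω} {M : ℕ} [NeZero M]

theorem jBar_sub_intCast_ne_zero (b : ℤ) : jBar M - (b : ↥(F₁Bar M 1)) ≠ 0 := by
  intro h0
  apply transcendental_jBar M
  have e : jBar M = algebraMap Ω ↥(F₁Bar M 1) ((b : ℤ) : Ω) := by
    rw [map_intCast]
    exact sub_eq_zero.mp h0
  rw [e]
  exact isAlgebraic_algebraMap _

theorem map_inv_jBar_sub {F' : Type*} [Field F'] [Algebra Ω F']
    (φ : ↥(F₁Bar M 1) →ₐ[Ω] F') (b : ℤ) :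
    φ ((jBar M - (b : ↥(F₁Bar M 1)))⁻¹) = (φ (jBar M) - (b : F'))⁻¹ := by
  rw [map_inv₀, map_sub, map_intCast]

/-- the arithmetic Galois action fixes `(j - b)⁻¹`. -/
theorem arithmeticGalois_smul_inv_jBar_sub (σ : Ω ≃ₐ[ℚ] Ω) (b : ℤ) :
    arithmeticGalois (F₁ M 1) σ • (jBar M - (b : ↥(F₁Bar M 1)))⁻¹
      = (jBar M - (b : ↥(F₁Bar M 1)))⁻¹ := by
  rw [smul_inv'', smul_sub, arithmeticGalois_smul_jBar]
  congr 2
  exact map_intCast (MulSemiringAction.toRingHom _ _ (arithmeticGalois (F₁ M 1) σ)) b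

/-- the diamonds fix `(j - b)⁻¹`. -/
theorem diaBarAlg_inv_jBar_sub (d : (ZMod M)ˣ) (b : ℤ) :
    diaBarAlg M 1 d (jBar M - (b : ↥(F₁Bar M 1)))⁻¹ = (jBar M - (b : ↥(F₁Bar M 1)))⁻¹ := by
  rw [map_inv₀, map_sub, map_intCast, diaBarAlg_jBar]

theorem coe_inv_jBar_sub_eq_coeffMap_intCast (b : ℤ) :
    (((jBar M - (b : ↥(F₁Bar M 1)))⁻¹ : ↥(F₁Bar M 1)) : LaurentSeries Ω)
      = coeffMap (Int.castRingHom Ω) (vSer ℤ b) := by
  rw [coe_inv_jBar_sub, coeffMap_vSer]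

/-- **(O4) on the cusp chart `V = (j - b)⁻¹`, for `X₁(M)`.** -/
theorem es_place_vchart (hA : A.LiesOverPrime ℓ) (hM : M ≠ 1) (hℓM : ¬ ℓ ∣ M)
    (h : GaussRes A M (IsLocalRing.residue A))
    (r : Place Ω ↥(F₁Bar M 1) →
      Place (IsLocalRing.ResidueField A) ↥(F₁C (IsLocalRing.ResidueField A) M 1))
    (σ₀ : A.decompositionSubgroup ℚ) (hσ₀ : A.IsFrobeniusAt σ₀.1 ℓ)
    (u : (ZMod M)ˣ) (hu : (u : ZMod M) = (ℓ : ZMod M)) (b : ℤ)
    (hdegk : ∀ Q : Place (IsLocalRing.ResidueField A)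
      ↥(F₁C (IsLocalRing.ResidueField A) M 1), Q.deg = 1)
    (hequiv : ∀ (σ : A.decompositionSubgroup ℚ) (P : Place Ω ↥(F₁Bar M 1)),
      r (arithmeticGalois (F₁ M 1) σ.1 • P)
        = coeffAutC (IsLocalRing.ResidueField A) M (resAut A σ) • r P)
    (hev : ChartEval h (jBar M - (b : ↥(F₁Bar M 1)))⁻¹ r)
    (hsep : ChartSep h (jBar M - (b : ↥(F₁Bar M 1)))⁻¹
      (fun Q => HasValueAt Q (jTildeElt (IsLocalRing.ResidueField A) M
        - (b : ↥(F₁C (IsLocalRing.ResidueField A) M 1)))⁻¹ 0))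
    (P : Place Ω ↥(F₁Bar M 1))
    (hP : ∃ a : ↥A, IsLocalRing.residue ↥A a = 0 ∧
      HasValueAt P (jBar M - (b : ↥(F₁Bar M 1)))⁻¹ (a : Ω)) :
    haveI : NeZero ℓ := ⟨hℓ.out.ne_zero⟩
    Finsupp.mapDomain r (heckeSwapDivBar M 1 ℓ hM (Finsupp.single P 1))
      = Finsupp.single (coeffAutC (IsLocalRing.ResidueField A) M (resAut A σ₀) • r P) 1
        + Finsupp.single ((coeffAutC (IsLocalRing.ResidueField A) M (resAut A σ₀))⁻¹ •
            r (SemilinearAut.ofAlgAut (diaBarAlg M 1 u⁻¹) • P)) (ℓ : ℤ) := by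
  haveI : NeZero ℓ := ⟨hℓ.out.ne_zero⟩
  letI : Algebra Ω ℂ := complexEmbedding.toRingHom.toAlgebra
  haveI : IsScalarTower ℚ Ω ℂ := IsScalarTower.of_algebraMap_eq' (Subsingleton.elim _ _)
  haveI := (jCoordBarOf M (1 * ℓ) hM).hasPrincipalDivisors
  obtain ⟨ζ, hζ⟩ := exists_unit_isPrimitiveRoot A ℓ
  have hζ1 : ζ ^ ℓ = 1 := by
    have h1 := hζ.pow_eq_one
    rw [← map_pow] at h1
    exact Units.map_injective (f := (A.subtype : ↥A →* Ω))
      Subtype.val_injective (h1.trans (map_one _).symm)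
  have hprim : ∃ z : Ω, IsPrimitiveRoot z ℓ :=
    HasEnoughRootsOfUnity.exists_primitiveRoot Ω ℓ
  have hℓN : ¬ ℓ ∣ M * 1 := by rwa [mul_one]
  have hdeg' : ∀ W : Place Ω ↥(F₁Bar M (1 * ℓ)), W.deg = 1 :=
    fun W => (jCoordBarOf M (1 * ℓ) hM).deg_eq_one W
  have hαint := heckeAlphaBarIntegral_of_coord Ω M 1 ℓ (jCoordBarOf M 1 hM)
    (jCoordBarOf M (1 * ℓ) hM)
  have hβint := heckeBetaBarIntegral_of_coord Ω M 1 ℓ (jCoordBarOf M 1 hM)
    (jCoordBarOf M (1 * ℓ) hM)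
  set V : ↥(F₁Bar M 1) := (jBar M - (b : ↥(F₁Bar M 1)))⁻¹ with hV
  set Vt : ↥(F₁C (IsLocalRing.ResidueField A) M 1) :=
    (jTildeElt (IsLocalRing.ResidueField A) M
      - (b : ↥(F₁C (IsLocalRing.ResidueField A) M 1)))⁻¹ with hVt
  have hfix1 : coeffAutC (IsLocalRing.ResidueField A) M (resAut A σ₀) • Vt = Vt :=
    coeffAutC_smul_inv_jTildeElt_sub _ M _ b
  have hfix2 : (coeffAutC (IsLocalRing.ResidueField A) M (resAut A σ₀))⁻¹ • Vt = Vt := by
    have e : (coeffAutC (IsLocalRing.ResidueField A) M (resAut A σ₀))⁻¹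
        = coeffAutC (IsLocalRing.ResidueField A) M (resAut A σ₀)⁻¹ := (map_inv _ _).symm
    rw [e]
    exact coeffAutC_smul_inv_jTildeElt_sub _ M _ b
  -- the polynomial `p` of the cusp integrality and the denominator `sA = p(V)`
  obtain ⟨p, hp0, hpne, hint⟩ := exists_isIntegral_heckeBetaBar_inv_jK_sub (k := Ω) (M := M)
    (L := 1) (ℓ := ℓ) hprim hℓ.out hℓN b
  obtain ⟨sA, hsz, hs0, hint', hsP⟩ := exists_cusp_denominator (A := A)
    (i := Ring.toIntAlgebra _) (heckeAlphaBar Ω M 1 ℓ) (heckeBetaBar Ω M 1 ℓ) V (vA A M b)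
    (chartι_vA b) p hp0 hpne hint
  have hgood_r : ∀ P : Place Ω ↥(F₁Bar M 1),
      (∃ a : ↥A, IsLocalRing.residue ↥A a = 0 ∧ HasValueAt P V (a : Ω)) →
      HasValueAt (r P) Vt 0 := by
    rintro P ⟨a, ha0, ha⟩
    obtain ⟨a', h1, h2⟩ := hev P ⟨a, ha⟩ (vA A M b)
    rw [chartι_vA] at h1
    rw [chartρF_vA] at h2
    have e : a' = a := Subtype.ext (h1.unique ha)
    rw [e, ha0] at h2
    exact h2
  -- the place `⟨u⟩⁻¹ P` is good
  have hPδ : ∃ a : ↥A, IsLocalRing.residue ↥A a = 0 ∧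
      HasValueAt (SemilinearAut.ofAlgAut (diaBarAlg M 1 u⁻¹) • P) V (a : Ω) := by
    obtain ⟨a, ha0, ha⟩ := hP
    refine ⟨a, ha0, ?_⟩
    have h1 := ha.smul (SemilinearAut.ofAlgAut (diaBarAlg M 1 u⁻¹))
    have e : (SemilinearAut.ofAlgAut (diaBarAlg M 1 u⁻¹) : SemilinearAut Ω ↥(F₁Bar M 1)) • V
        = V := diaBarAlg_inv_jBar_sub u⁻¹ b
    rw [e] at h1
    exact h1
  have hPgood : GoodAt A M V P := by
    obtain ⟨a, -, ha⟩ := hP
    exact ⟨a, ha⟩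
  refine es_place_modular_dia hM r σ₀ hσ₀ (chartι A M V) (chartρF h V)
    (fun n : chartLoc A M V sA => gaussι A M n.1) (fun n : chartLoc A M V sA => gaussρF h n.1)
    (fun P => ∃ a : ↥A, IsLocalRing.residue ↥A a = 0 ∧ HasValueAt P V (a : Ω))
    (fun P => ∃ a : ↥A, IsLocalRing.residue ↥A a = 0 ∧ HasValueAt P V (a : Ω))
    (fun Q => HasValueAt Q Vt 0)
    (fun Q _ => hdegk Q) ?_ ?_ hgood_r hgood_r ?_ ?_ hsep P hP _ ?_ ?_ ?_
  · -- heval
    rintro P ⟨a, -, ha⟩ y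
    exact hev P ⟨a, ha⟩ y
  · -- heval₂
    rintro P ⟨a, ha0, ha⟩ n
    exact chartLoc_eval h V r hev sA P ⟨a, ha⟩ (hsP P ⟨a, ha0, ha⟩) n
  · -- hreg
    intro y Q hQ
    refine chartρF_mem_of_mem h V
      (Subring.inclusion (chartRing_le_gaussRing V) (vA A M b)) (chartι_vA b) y Q ?_
    have e : gaussρF h (Subring.inclusion (chartRing_le_gaussRing V) (vA A M b)) = Vt :=
      chartρF_vA h b
    rw [e]
    exact hQ.mem
  · -- hG2
    rintro P ⟨a, ha0, ha⟩ W hW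
    have hWP := Place.mem_fiberAlong.mp hW
    have h1 : HasValueAt W (heckeAlphaBar Ω M 1 ℓ V) (a : Ω) := by
      rw [← hasValueAt_restrictAlong_iff _ hαint, hWP]
      exact ha
    rw [hV, map_inv_jBar_sub] at h1
    have hYb : heckeAlphaBar Ω M 1 ℓ (jBar M) - (b : ↥(F₁Bar M (1 * ℓ))) ≠ 0 := by
      have e : heckeAlphaBar Ω M 1 ℓ (jBar M) - (b : ↥(F₁Bar M (1 * ℓ)))
          = heckeAlphaBar Ω M 1 ℓ (jBar M - (b : ↥(F₁Bar M 1))) := by
        rw [map_sub, map_intCast]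
      rw [e]
      exact (map_ne_zero _).mpr (jBar_sub_intCast_ne_zero b)
    have h0 := isIntegral_heckeAlphaBar_jK (k := Ω) (M := M) (L := 1) (ℓ := ℓ) hprim hℓ.out hℓN
    obtain ⟨a', ha'0, ha'⟩ := hasValueAt_inv_sub_of_isIntegral_adjoin_int_inst
      (i := Ring.toIntAlgebra _) (A := A) (hdeg' W) b h0 hYb ⟨a, ha0, h1⟩
    refine ⟨a', ha'0, (hasValueAt_restrictAlong_iff _ hβint W _ _).mpr ?_⟩
    rw [hV, map_inv_jBar_sub]
    exact ha'
  · -- hQ₂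
    rw [← map_inv]
    exact hasValueAt_zero_smul_place_of_smul_eq _ _
      (coeffAutC_smul_inv_jTildeElt_sub _ M _ b) (hgood_r _ hPδ)
  · -- hΦP
    exact hasValueAt_zero_smul_place_of_smul_eq _ _ hfix1 (hgood_r _ hP)
  · -- hkron
    intro y c
    obtain ⟨yu, hyu⟩ := exists_chartRing_algEquiv hA M (vSer ℤ b) V
      (coe_inv_jBar_sub_eq_coeffMap_intCast b) (diaBarAlg M 1 u) (diaBarAlg_inv_jBar_sub u b) y
    have hnormf := hnormf_of_es1 hM hℓM ζ hζ u hu (chartι A M V y) (c : Ω)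
    rw [← hyu] at hnormf
    have key := chartLoc_kron (i := Ring.toIntAlgebra _) hA h V sA hsz hs0 σ₀ hσ₀ ζ hζ1
      yu y c
    have key2 := key hnormf
    have key3 := key2 hint'
    obtain ⟨n, hn1, hn2⟩ := key3
    refine ⟨n, _, hn1, hn2, ?_⟩
    exact hasValueAt_frob_smul_dia h V (fun σ => arithmeticGalois_smul_inv_jBar_sub σ b) u
      (diaBarAlg_inv_jBar_sub u⁻¹ b) r hev hequiv σ₀ hσ₀ y yu hyu P hPgood

end VChart

section All

variable {ℓ : ℕ} [hℓ : Fact ℓ.Prime] {A : ValuationSubring Ω} {M : ℕ} [NeZero M]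

/-- **(O4): Eichler–Shimura at place level for every place of `X₁(M)`**:
`r_* (T'_ℓ P) = [Φ (r P)] + ℓ [Φ⁻¹ (r (⟨ℓ⟩⁻¹ P))]`. -/
theorem es_place_all (hA : A.LiesOverPrime ℓ) (hM : M ≠ 1) (hℓM : ¬ ℓ ∣ M)
    (h : GaussRes A M (IsLocalRing.residue A))
    (r : Place Ω ↥(F₁Bar M 1) →
      Place (IsLocalRing.ResidueField A) ↥(F₁C (IsLocalRing.ResidueField A) M 1))
    (σ₀ : A.decompositionSubgroup ℚ) (hσ₀ : A.IsFrobeniusAt σ₀.1 ℓ)
    (u : (ZMod M)ˣ) (hu : (u : ZMod M) = (ℓ : ZMod M)) (b : ℤ)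
    (hdegk : ∀ Q : Place (IsLocalRing.ResidueField A)
      ↥(F₁C (IsLocalRing.ResidueField A) M 1), Q.deg = 1)
    (hequiv : ∀ (σ : A.decompositionSubgroup ℚ) (P : Place Ω ↥(F₁Bar M 1)),
      r (arithmeticGalois (F₁ M 1) σ.1 • P)
        = coeffAutC (IsLocalRing.ResidueField A) M (resAut A σ) • r P)
    (hevJ : ChartEval h (jBar M) r)
    (hsepJ : ChartSep h (jBar M)
      (fun Q => jTildeElt (IsLocalRing.ResidueField A) M ∈ Q.toValuationSubring))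
    (hevV : ChartEval h (jBar M - (b : ↥(F₁Bar M 1)))⁻¹ r)
    (hsepV : ChartSep h (jBar M - (b : ↥(F₁Bar M 1)))⁻¹
      (fun Q => HasValueAt Q (jTildeElt (IsLocalRing.ResidueField A) M
        - (b : ↥(F₁C (IsLocalRing.ResidueField A) M 1)))⁻¹ 0))
    (P : Place Ω ↥(F₁Bar M 1)) :
    haveI : NeZero ℓ := ⟨hℓ.out.ne_zero⟩
    Finsupp.mapDomain r (heckeSwapDivBar M 1 ℓ hM (Finsupp.single P 1))
      = Finsupp.single (coeffAutC (IsLocalRing.ResidueField A) M (resAut A σ₀) • r P) 1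
        + Finsupp.single ((coeffAutC (IsLocalRing.ResidueField A) M (resAut A σ₀))⁻¹ •
            r (SemilinearAut.ofAlgAut (diaBarAlg M 1 u⁻¹) • P)) (ℓ : ℤ) := by
  haveI : NeZero ℓ := ⟨hℓ.out.ne_zero⟩
  rcases hasValueAt_or_hasValueAt_inv_sub (A := A) ((jCoordBarOf M 1 hM).deg_eq_one P) (jBar M) b
    with hP | hP
  · exact es_place_jchart hA hM hℓM h r σ₀ hσ₀ u hu hdegk hequiv hevJ hsepJ P hP
  · exact es_place_vchart hA hM hℓM h r σ₀ hσ₀ u hu b hdegk hequiv hevV hsepV P hP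

end All

end Fermat.Agent.W1
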