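/-
W1 — helper7 — PORT of `JA/G1OMEGA_helper5_PGI` to the field `F₁ M 1` of `X₁(M)` (against `[W1Api M]`);
only the field-specific declarations are restated, the generic ones are imported from the original.
Original header:
-/
/-
J-A package G1-Ω (helper5), part 2: (O2) `PrincipalGeneratedByIntegral A (residue A) (F₁ M 1) (F₁C _ M 1)` and
(RES-Ω): the coefficientwise reduction of an integral element of `F_Ω` lies in `F̃`.
-/
import Fermat.Agent.JA.G1OMEGA_helper5_Desc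
import Fermat.Agent.X0N.S24_helper7_Wiring
import Fermat.Agent.FF.PlaceBasic
import Fermat.Prelude.Def_ModularCurve_ReductionModL
import Fermat.Agent.W1.API_helper7_Lemmas
import Fermat.Agent.JA.G1OMEGA_helper5_PGI

set_option autoImplicit false
set_option linter.unusedSectionVars false
set_option linter.style.haveILetI false

open scoped MatrixGroups
open Polynomial IntermediateField Fermat.Agent.Igusa Fermat.Agent.X0N ModularCurve
  CongruenceSubgroup AlgebraicCurve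

open Fermat.Agent.JA

namespace Fermat.Agent.W1

noncomputable section

section Inj

end Inj

section Omega

local notation "Ω" => AlgebraicClosure ℚ

variable {ℓ : ℕ} [Fact ℓ.Prime] {A : ValuationSubring (AlgebraicClosure ℚ)}
  (hA : A.LiesOverPrime ℓ) (M : ℕ) [NeZero M] [W1Api M]

include hA in
/-- **(RES-Ω)** the coefficientwise reduction of an integral element of `F_Ω` lies in `F̃`. -/
theorem coeffMap_residue_mem_fullC (hℓM : ¬ ℓ ∣ M) (y : LaurentSeries ↥A)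
    (hy : coeffMap A.subtype y ∈ laurentBaseChange Ω (F₁ M 1)) :
    coeffMap (IsLocalRing.residue ↥A) y ∈
      F₁C (IsLocalRing.ResidueField ↥A) M 1 := by
  obtain ⟨K₁, hK₁, y₁, hy₁, rfl⟩ :=
    exists_isBase_of_integral (ℓ := ℓ) (F₁ M 1) A hy
  haveI := hK₁.isDiscreteValuationRing hA
  letI : Algebra ↥K₁ ℂ :=
    (((IsAlgClosed.lift : Ω →ₐ[ℚ] ℂ) : Ω →+* ℂ).comp (algebraMap ↥K₁ Ω)).toAlgebra
  haveI : IsScalarTower ℚ ↥K₁ ℂ := IsScalarTower.of_algebraMap_eq' (Subsingleton.elim _ _)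
  rw [coeffMap_residue_coeffMap_baseIncl]
  have h1 := hRES_baseRing hA M hℓM hK₁ _ hy₁ (emb_mem_gaussInt ↥(baseRing A K₁) ↥K₁ y₁)
  rwa [gaussRed_emb] at h1

include hA in
/-- **(O2)** principal divisors of `F_Ω` are generated by the divisors of integral elements with
nonzero reduction in `F̃`. -/
theorem principalGeneratedByIntegral_residue (hℓM : ¬ ℓ ∣ M) :
    PrincipalGeneratedByIntegral A (IsLocalRing.residue ↥A) (F₁ M 1) (F₁C _ M 1) := by
  classical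
  haveI : HasPrincipalDivisors (AlgebraicClosure ℚ) (F₁Bar M 1) :=
    (jCoordBar M).hasPrincipalDivisors
  intro D hD
  obtain ⟨f, hf0, hDf⟩ := hD
  have hfne : (f : LaurentSeries Ω) ≠ 0 := fun h => hf0 (Subtype.ext h)
  obtain ⟨K₁, hK₁, f₁, hf₁, hff⟩ :=
    exists_isBase_of_mem_laurentBaseChange ℓ (F₁ M 1) f.2
  haveI := hK₁.isDiscreteValuationRing hA
  letI : Algebra ↥K₁ ℂ :=
    (((IsAlgClosed.lift : Ω →ₐ[ℚ] ℂ) : Ω →+* ℂ).comp (algebraMap ↥K₁ Ω)).toAlgebra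
  haveI : IsScalarTower ℚ ↥K₁ ℂ := IsScalarTower.of_algebraMap_eq' (Subsingleton.elim _ _)
  have hf₁0 : f₁ ≠ 0 := by
    rintro rfl
    rw [map_zero] at hff
    exact hfne hff.symm
  obtain ⟨ϖ, hϖ⟩ := IsDiscreteValuationRing.exists_irreducible ↥(baseRing A K₁)
  obtain ⟨m, y₁, y₂, hy₁, hy₂, hr₁, hr₂, hfeq⟩ := exists_pgi_baseRing hA M hℓM hK₁ hϖ hf₁ hf₁0
  have hm₁ : coeffMap (baseResidueMap A K₁) (red ↥(baseRing A K₁) y₁) ∈
      F₁C (IsLocalRing.ResidueField ↥A) M 1 := by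
    have h1 := hRES_baseRing hA M hℓM hK₁ _ hy₁ (emb_mem_gaussInt ↥(baseRing A K₁) ↥K₁ y₁)
    rwa [gaussRed_emb] at h1
  have hm₂ : coeffMap (baseResidueMap A K₁) (red ↥(baseRing A K₁) y₂) ∈
      F₁C (IsLocalRing.ResidueField ↥A) M 1 := by
    have h1 := hRES_baseRing hA M hℓM hK₁ _ hy₂ (emb_mem_gaussInt ↥(baseRing A K₁) ↥K₁ y₂)
    rwa [gaussRed_emb] at h1
  -- push to `Ω`
  set ι : LaurentSeries ↥K₁ →+* LaurentSeries Ω := coeffMap (algebraMap ↥K₁ Ω) with hι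
  set Y₁ : LaurentSeries ↥A := coeffMap (baseIncl A K₁) y₁ with hY₁
  set Y₂ : LaurentSeries ↥A := coeffMap (baseIncl A K₁) y₂ with hY₂
  have hιY₁ : coeffMap A.subtype Y₁ = ι (emb ↥(baseRing A K₁) ↥K₁ y₁) :=
    coeffMap_subtype_coeffMap_baseIncl y₁
  have hιY₂ : coeffMap A.subtype Y₂ = ι (emb ↥(baseRing A K₁) ↥K₁ y₂) :=
    coeffMap_subtype_coeffMap_baseIncl y₂
  have hY₁F : coeffMap A.subtype Y₁ ∈ laurentBaseChange Ω (F₁ M 1) := by
    rw [hιY₁]; exact coeffMap_hom_mem_laurentBaseChange _ _ hy₁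
  have hY₂F : coeffMap A.subtype Y₂ ∈ laurentBaseChange Ω (F₁ M 1) := by
    rw [hιY₂]; exact coeffMap_hom_mem_laurentBaseChange _ _ hy₂
  have hY₁k : coeffMap (IsLocalRing.residue ↥A) Y₁ ∈
      F₁C (IsLocalRing.ResidueField ↥A) M 1 := by
    rw [hY₁, coeffMap_residue_coeffMap_baseIncl]
    exact hm₁
  have hY₂k : coeffMap (IsLocalRing.residue ↥A) Y₂ ∈
      F₁C (IsLocalRing.ResidueField ↥A) M 1 := by
    rw [hY₂, coeffMap_residue_coeffMap_baseIncl]
    exact hm₂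
  have hinj : Function.Injective (coeffMap (baseResidueMap A K₁)) :=
    (coeffMap (baseResidueMap A K₁)).injective
  have hY₁ne : coeffMap (IsLocalRing.residue ↥A) Y₁ ≠ 0 := by
    rw [hY₁, coeffMap_residue_coeffMap_baseIncl]
    exact fun h => hr₁ (hinj (by rw [h, map_zero]))
  have hY₂ne : coeffMap (IsLocalRing.residue ↥A) Y₂ ≠ 0 := by
    rw [hY₂, coeffMap_residue_coeffMap_baseIncl]
    exact fun h => hr₂ (hinj (by rw [h, map_zero]))
  have hY₁0 : coeffMap A.subtype Y₁ ≠ 0 := by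
    intro h
    apply hY₁ne
    have h1 : Y₁ = 0 := (coeffMap_subtype_injective_h5 A) (by rw [h, map_zero])
    rw [h1, map_zero]
  have hY₂0 : coeffMap A.subtype Y₂ ≠ 0 := by
    intro h
    apply hY₂ne
    have h1 : Y₂ = 0 := (coeffMap_subtype_injective_h5 A) (by rw [h, map_zero])
    rw [h1, map_zero]
  set g₁ : ↥(laurentBaseChange Ω (F₁ M 1)) := ⟨coeffMap A.subtype Y₁, hY₁F⟩
    with hg₁
  set g₂ : ↥(laurentBaseChange Ω (F₁ M 1)) := ⟨coeffMap A.subtype Y₂, hY₂F⟩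
    with hg₂
  have hg₁0 : g₁ ≠ 0 := fun h => hY₁0 (congrArg Subtype.val h)
  have hg₂0 : g₂ ≠ 0 := fun h => hY₂0 (congrArg Subtype.val h)
  -- the constant
  set c : Ω := algebraMap ↥K₁ Ω (algebraMap ↥(baseRing A K₁) ↥K₁ ϖ) with hc
  have hc0 : c ≠ 0 := by
    rw [hc]
    intro h
    have h1 := (map_eq_zero (algebraMap ↥K₁ Ω)).mp h
    exact hϖ.ne_zero ((map_eq_zero_iff _ (IsFractionRing.injective ↥(baseRing A K₁) ↥K₁)).mp h1)
  have hfF : f = algebraMap Ω ↥(laurentBaseChange Ω (F₁ M 1)) (c ^ m) *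
      g₁ * g₂⁻¹ := by
    apply Subtype.ext
    show (f : LaurentSeries Ω) = algebraMap Ω (LaurentSeries Ω) (c ^ m) *
      coeffMap A.subtype Y₁ * (coeffMap A.subtype Y₂)⁻¹
    have hC : ι (HahnSeries.C ((algebraMap ↥(baseRing A K₁) ↥K₁) ϖ)) =
        algebraMap Ω (LaurentSeries Ω) c := by
      have h1 : (HahnSeries.C ((algebraMap ↥(baseRing A K₁) ↥K₁) ϖ) : LaurentSeries ↥K₁) =
          algebraMap ↥K₁ (LaurentSeries ↥K₁) ((algebraMap ↥(baseRing A K₁) ↥K₁) ϖ) := by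
        rw [algebraMap_laurentSeries_eq_single]; rfl
      rw [h1, hι, coeffMap_algebraMap']
    rw [← hff, hfeq, hιY₁, hιY₂, div_eq_mul_inv, map_mul, map_mul, map_inv₀, map_zpow₀, hC,
      map_zpow₀]
  obtain ⟨D₁, hD₁, -⟩ := HasPrincipalDivisors.exists_divisor (K := Ω) g₁ hg₁0
  obtain ⟨D₂, hD₂, -⟩ := HasPrincipalDivisors.exists_divisor (K := Ω) g₂ hg₂0
  have hDeq : D = D₁ - D₂ := by
    ext P
    rw [hDf P, Finsupp.sub_apply, hD₁ P, hD₂ P, hfF,
      P.ord_mul (mul_ne_zero ((_root_.map_ne_zero _).mpr (zpow_ne_zero _ hc0)) hg₁0) (inv_ne_zero hg₂0),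
      P.ord_mul ((_root_.map_ne_zero _).mpr (zpow_ne_zero _ hc0)) hg₁0, P.ord_inv,
      Fermat.Agent.FF.PlaceAux.ord_algebraMap]
    ring
  rw [hDeq]
  refine sub_mem (AddSubgroup.subset_closure ?_) (AddSubgroup.subset_closure ?_)
  · exact ⟨Y₁, hY₁F, hY₁k, hY₁ne, hD₁⟩
  · exact ⟨Y₂, hY₂F, hY₂k, hY₂ne, hD₂⟩

end Omega

end

end Fermat.Agent.W1
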