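/-
W1 — helper7 — PORT of `JA/RED_helper7_Coords` to the field `F₁ M 1` of `X₁(M)` (against `[W1Api M]`);
only the field-specific declarations are restated, the generic ones are imported from the original.
Original header:
-/
/-
J-A programme, package RED (helper7), part 9: the two concrete charts `j` and `(j - b)⁻¹`
(`b ∈ ℤ`) over `ℚ̄`, and the place reduction for `A | ℓ` with everything discharged except (SEP)
for the two charts.
-/
import Mathlib
import Fermat.Agent.W1.RED_helper7_Chart2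
import Fermat.Agent.JA.RED_helper7_Chart2
import Fermat.Agent.W1.G1OMEGA_helper7_Sat
import Fermat.Agent.JA.G1OMEGA_helper5_Sat
import Fermat.Agent.W1.G1OMEGA_helper7_PGI
import Fermat.Agent.JA.G1OMEGA_helper5_PGI
import Fermat.Agent.JA.G1_helper5_Unram
import Fermat.Agent.JA.CONST_helper6
import Fermat.Agent.X0N.LD_helper1_Laurent
import Fermat.Agent.W1.API_helper7_Lemmas
import Fermat.Agent.JA.RED_helper7_Coords

set_option autoImplicit false
set_option linter.unusedSectionVars false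
set_option linter.style.haveILetI false

open AlgebraicCurve ModularCurve IntermediateField

open Fermat.Agent.JA

namespace Fermat.Agent.W1

noncomputable section

set_option synthInstance.maxHeartbeats 400000
set_option maxHeartbeats 1600000

open Fermat.Agent.X0N

local notation "Ω" => AlgebraicClosure ℚ

section Coords

variable (A : ValuationSubring Ω) (M : ℕ) [NeZero M] [W1Api M]

theorem coe_jBar_eq_jqModC :
    ((jBar M : ↥(F₁Bar M 1)) : LaurentSeries Ω) = jqModC Ω := by
  rw [coe_jBar, coeffEmb, ← jqModC_rat, coeffMap_jqModC]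

/-- `j` as a Gauss-integral series. -/
def jGauss : ↥(gaussRing A M) :=
  ⟨jqModC ↥A, by
    rw [mem_gaussRing_iff, coeffMap_jqModC, ← coe_jBar_eq_jqModC M]
    exact (jBar M).2⟩

@[simp] theorem coe_jGauss : ((jGauss A M : ↥(gaussRing A M)) : LaurentSeries ↥A) = jqModC ↥A :=
  rfl

theorem gaussι_jGauss : gaussι A M (jGauss A M) = jBar M := by
  apply Subtype.ext
  rw [coe_gaussι, coe_jGauss, coeffMap_jqModC, coe_jBar_eq_jqModC]

theorem gaussρF_jGauss {k : Type*} [Field k] {π : ↥A →+* k} (h : GaussRes A M π) :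
    gaussρF h (jGauss A M) = jTildeElt k M := by
  apply Subtype.ext
  rw [coe_gaussρF, coe_jGauss, coeffMap_jqModC, coe_jTildeElt]

theorem smul_jBar (σ : Ω ≃ₐ[ℚ] Ω) :
    arithmeticGalois (F₁ M 1) σ • jBar M = jBar M := by
  apply Subtype.ext
  rw [coe_arithmeticGalois_smul, coe_jBar, coeffMap_coeffEmb]

/-- the second chart coordinate `(j - b)⁻¹`. -/
def jInvBar (b : ℤ) : ↥(F₁Bar M 1) :=
  (jBar M - algebraMap Ω ↥(F₁Bar M 1) (b : Ω))⁻¹

theorem coe_jInvBar (b : ℤ) :
    ((jInvBar M b : ↥(F₁Bar M 1)) : LaurentSeries Ω) =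
      (jqModC Ω - HahnSeries.C (b : Ω))⁻¹ := by
  have h1 : ((algebraMap Ω ↥(F₁Bar M 1) (b : Ω) :
      ↥(F₁Bar M 1)) : LaurentSeries Ω) = HahnSeries.C (b : Ω) := by
    change algebraMap Ω (LaurentSeries Ω) (b : Ω) = _
    rw [algebraMap_laurentSeries_eq_single, HahnSeries.C_apply]
  change (((jBar M : ↥(F₁Bar M 1)) : LaurentSeries Ω) -
    ((algebraMap Ω ↥(F₁Bar M 1) (b : Ω) :
      ↥(F₁Bar M 1)) : LaurentSeries Ω))⁻¹ = _
  rw [h1, coe_jBar_eq_jqModC]

/-- `(j - b)⁻¹` as a Gauss-integral series. -/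
def jInvGauss (b : ℤ) : ↥(gaussRing A M) :=
  ⟨coeffMap (Int.castRingHom ↥A) (jInvZ b), by
    rw [mem_gaussRing_iff, coeffMap_intCast_comp_h7, coeffMap_jInv (jInvZ_spec b),
      ← coe_jInvBar M b]
    exact (jInvBar M b).2⟩

@[simp] theorem coe_jInvGauss (b : ℤ) :
    ((jInvGauss A M b : ↥(gaussRing A M)) : LaurentSeries ↥A) =
      coeffMap (Int.castRingHom ↥A) (jInvZ b) := rfl

theorem gaussι_jInvGauss (b : ℤ) : gaussι A M (jInvGauss A M b) = jInvBar M b := by
  apply Subtype.ext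
  rw [coe_gaussι, coe_jInvGauss, coeffMap_intCast_comp_h7, coeffMap_jInv (jInvZ_spec b),
    coe_jInvBar]

theorem jInvGauss_rel (b : ℤ) :
    jInvGauss A M b * (jGauss A M - gaussC A M ((b : ℤ) : ↥A)) = 1 := by
  apply Subtype.ext
  change coeffMap (Int.castRingHom ↥A) (jInvZ b) *
    (jqModC ↥A - (HahnSeries.C ((b : ℤ) : ↥A) : LaurentSeries ↥A)) = 1
  have h1 := congrArg (coeffMap (Int.castRingHom ↥A)) (jInvZ_spec b)
  rw [map_mul, map_sub, coeffMap_jqModC, coeffMap_C_h5, map_one] at h1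
  rw [mul_comm]
  exact h1

end Coords

section Residue

variable {ℓ : ℕ} [Fact ℓ.Prime] {A : ValuationSubring Ω}
  (hA : A.LiesOverPrime ℓ) (M : ℕ) [NeZero M] [W1Api M]

include hA in
/-- **(RES-Ω)** in the shape of `GaussRes`. -/
theorem gaussRes_residue (hℓM : ¬ ℓ ∣ M) : GaussRes A M (IsLocalRing.residue ↥A) :=
  fun y hy => coeffMap_residue_mem_fullC hA M hℓM y hy

include hA in
/-- **the place reduction for `A | ℓ`**, from (SEP) for the charts of `j` and `(j - b)⁻¹`:
(EVAL) for both charts, characterisation, cover, (EQUIV). -/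
theorem exists_placeReduction_residue (hℓM : ¬ ℓ ∣ M) (b : ℤ)
    (hsep₁ : ChartSep (gaussRes_residue hA M hℓM) (jBar M)
      (fun Q => gaussρF (gaussRes_residue hA M hℓM) (jGauss A M) ∈ Q.toValuationSubring))
    (hsep₂ : ChartSep (gaussRes_residue hA M hℓM) (jInvBar M b)
      (fun Q => gaussρF (gaussRes_residue hA M hℓM) (jInvGauss A M b) ∈ Q.toValuationSubring)) :
    ∃ r : Place Ω ↥(F₁Bar M 1) →
        Place (IsLocalRing.ResidueField ↥A)
          ↥(F₁C (IsLocalRing.ResidueField ↥A) M 1),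
      ChartEval (gaussRes_residue hA M hℓM) (jBar M) r ∧
      ChartEval (gaussRes_residue hA M hℓM) (jInvBar M b) r ∧
      (∀ P Q, GoodAt A M (jBar M) P →
        EvalAt (gaussRes_residue hA M hℓM) (jBar M) P Q → r P = Q) ∧
      (∀ P Q, GoodAt A M (jInvBar M b) P →
        EvalAt (gaussRes_residue hA M hℓM) (jInvBar M b) P Q → r P = Q) ∧
      (∀ P, GoodAt A M (jBar M) P ∨ GoodAt A M (jInvBar M b) P) ∧
      ∀ (σ : A.decompositionSubgroup ℚ) (P : Place Ω ↥(F₁Bar M 1)),
        r (arithmeticGalois (F₁ M 1) σ.1 • P)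
          = coeffAutC (IsLocalRing.ResidueField ↥A) M (resAut A σ) • r P := by
  have e := gaussρF_jGauss A M (gaussRes_residue hA M hℓM)
  haveI : FiniteDimensional
      (IsLocalRing.ResidueField ↥A)⟮gaussρF (gaussRes_residue hA M hℓM) (jGauss A M)⟯
      ↥(F₁C (IsLocalRing.ResidueField ↥A) M 1) := by
    rw [e]
    exact finiteDimensional_fullC_residueField hA M hℓM
  haveI : Algebra.IsSeparable
      (IsLocalRing.ResidueField ↥A)⟮gaussρF (gaussRes_residue hA M hℓM) (jGauss A M)⟯
      ↥(F₁C (IsLocalRing.ResidueField ↥A) M 1) := by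
    rw [e]
    exact isSeparable_fullC_residueField hA M hℓM
  exact exists_placeReduction_of_charts' (gaussRes_residue hA M hℓM) (jBar M) (jInvBar M b)
    (smul_jBar M) (jGauss A M) (jInvGauss A M b) (gaussι_jGauss A M) (gaussι_jInvGauss A M b)
    ((b : ℤ) : ↥A) (intCast_fixed A b) (jInvGauss_rel A M b)
    (chartSat_j hA M hℓM (jBar M) (coe_jBar_eq_jqModC M))
    (chartSat_inv hA M hℓM b (jInvBar M b) (coe_jInvBar M b))
    (by rw [e]; exact transcendental_jTildeElt _ M) hsep₁ hsep₂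

end Residue

end

end Fermat.Agent.W1
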