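/-
W1 = [GRΓ1] (S48), package [A5] (helper4), part 10 (top): **the Eichler–Shimura congruence for
`X₁(M)` on `Pic⁰`**, `hES_of_charts`:
`red (T'_ℓ x) = Φ • red x + ℓ • Φ⁻¹ • red (⟨ℓ⟩⁻¹ x)`, in the shape `hES` consumed by helper7's
`exists_red_of_placeReduction` / `placeReductionData_of_exists_data` (T := heckeSwapBar M 1 ℓ hM,
D := diaBar M 1 u⁻¹, `(u : ZMod M) = ℓ`), from the chart inputs of `exists_placeReduction_residue`.
Contains the bridge to helper7's chart conventions (port of `JA/ES_helper4_Shim` and of the Bridge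
section of `JA/S37Asm_helper7_Final`) and the divisor/`Pic⁰` step (port of
`JA/S37Asm_helper7_ESPlace` with a diamond).
-/
import Mathlib
import Fermat.Agent.W1.ES_helper4_Final
import Fermat.Agent.W1.RED_helper7_Coords
import Fermat.Agent.W1.S37Asm_helper7_Red

set_option autoImplicit false
set_option linter.unusedSectionVars false
set_option linter.style.haveILetI false

open HahnSeries IntermediateField AlgebraicCurve

open Fermat.Agent.JA

namespace Fermat.Agent.W1

open ModularCurve Fermat.Agent.X0N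

set_option synthInstance.maxHeartbeats 400000
set_option maxHeartbeats 1600000

local notation "Ω" => AlgebraicClosure ℚ

section Mono

variable {L : Type*} [Field L] [Algebra ℚ L] {A : ValuationSubring L} {M : ℕ}
variable {k : Type*} [Field k] {π : ↥A →+* k}

/-- (SEP) for a class of places implies (SEP) for every smaller class. -/
theorem ChartSep.mono {h : GaussRes A M π}
    {z : ↥(laurentBaseChange L (F₁ M 1))}
    {goodk goodk' : Place k ↥(F₁C k M 1) → Prop}
    (hsep : ChartSep h z goodk) (hle : ∀ Q, goodk' Q → goodk Q) : ChartSep h z goodk' :=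
  fun T hT Q₀ hQ₀ => hsep T (fun Q hQ => hle Q (hT Q hQ)) Q₀ hQ₀

end Mono

section Bridge

variable (A : ValuationSubring Ω) (M : ℕ) [NeZero M] [W1Api M]

theorem jInvBar_eq (b : ℤ) : jInvBar M b = (jBar M - (b : ↥(F₁Bar M 1)))⁻¹ := by
  rw [jInvBar, map_intCast]

/-- `j` as a Gauss-integral series (from its chart ring). -/
noncomputable def jG : ↥(gaussRing A M) :=
  Subring.inclusion (chartRing_le_gaussRing (jBar M)) (jA A M)

/-- `(j - b)⁻¹` as a Gauss-integral series (from its chart ring). -/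
noncomputable def vG (b : ℤ) : ↥(gaussRing A M) :=
  Subring.inclusion (chartRing_le_gaussRing _) (vA A M b)

variable {A M}
variable {k : Type*} [Field k] {π : ↥A →+* k}

theorem gaussι_jG : gaussι A M (jG A M) = jBar M := chartι_jA

theorem gaussι_vG (b : ℤ) :
    gaussι A M (vG A M b) = (jBar M - (b : ↥(F₁Bar M 1)))⁻¹ := chartι_vA b

theorem gaussρF_jG (h : GaussRes A M π) : gaussρF h (jG A M) = jTildeElt k M := chartρF_jA h

theorem gaussρF_vG (h : GaussRes A M π) (b : ℤ) :
    gaussρF h (vG A M b) = (jTildeElt k M - (b : ↥(F₁C k M 1)))⁻¹ :=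
  chartρF_vA h b

variable (A M)

theorem jG_eq_jGauss : jG A M = jGauss A M :=
  gaussι_injective A M (gaussι_jG.trans (gaussι_jGauss A M).symm)

theorem vG_eq_jInvGauss (b : ℤ) : vG A M b = jInvGauss A M b :=
  gaussι_injective A M (by rw [gaussι_vG, gaussι_jInvGauss, jInvBar_eq])

end Bridge

section Main

variable {ℓ : ℕ} [hℓ : Fact ℓ.Prime] {A : ValuationSubring Ω} {M : ℕ} [NeZero M] [W1Api M]

/-- **(O4) for every place of `X₁(M)`**, with (EVAL)/(SEP) in the shape of helper7's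
`exists_placeReduction_residue`. -/
theorem es_place_all_of_gauss (hA : A.LiesOverPrime ℓ) (hM : M ≠ 1) (hℓM : ¬ ℓ ∣ M)
    (h : GaussRes A M (IsLocalRing.residue A))
    (r : Place Ω ↥(F₁Bar M 1) →
      Place (IsLocalRing.ResidueField A) ↥(F₁C (IsLocalRing.ResidueField A) M 1))
    (σ₀ : A.decompositionSubgroup ℚ) (hσ₀ : A.IsFrobeniusAt σ₀.1 ℓ)
    (u : (ZMod M)ˣ) (hu : (u : ZMod M) = (ℓ : ZMod M)) (b : ℤ)
    (hdegk : ∀ Q : Place (IsLocalRing.ResidueField A)
      ↥(F₁C (IsLocalRing.ResidueField A) M 1), Q.deg = 1)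
    (hequiv : ∀ (σ : A.decompositionSubgroup ℚ) (P : Place Ω ↥(F₁Bar M 1)),
      r (arithmeticGalois (F₁ M 1) σ.1 • P)
        = coeffAutC (IsLocalRing.ResidueField A) M (resAut A σ) • r P)
    (hev₁ : ChartEval h (jBar M) r)
    (hsep₁ : ChartSep h (jBar M) (fun Q => gaussρF h (jGauss A M) ∈ Q.toValuationSubring))
    (hev₂ : ChartEval h (jInvBar M b) r)
    (hsep₂ : ChartSep h (jInvBar M b)
      (fun Q => gaussρF h (jInvGauss A M b) ∈ Q.toValuationSubring))
    (P : Place Ω ↥(F₁Bar M 1)) :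
    haveI : NeZero ℓ := ⟨hℓ.out.ne_zero⟩
    Finsupp.mapDomain r (heckeSwapDivBar M 1 ℓ hM (Finsupp.single P 1))
      = Finsupp.single (coeffAutC (IsLocalRing.ResidueField A) M (resAut A σ₀) • r P) 1
        + Finsupp.single ((coeffAutC (IsLocalRing.ResidueField A) M (resAut A σ₀))⁻¹ •
            r (SemilinearAut.ofAlgAut (diaBarAlg M 1 u⁻¹) • P)) (ℓ : ℤ) := by
  haveI : NeZero ℓ := ⟨hℓ.out.ne_zero⟩
  rw [jInvBar_eq] at hev₂ hsep₂
  refine es_place_all hA hM hℓM h r σ₀ hσ₀ u hu b hdegk hequiv hev₁ ?_ hev₂ ?_ P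
  · refine hsep₁.mono fun Q hQ => ?_
    rw [← jG_eq_jGauss, gaussρF_jG]
    exact hQ
  · refine hsep₂.mono fun Q hQ => ?_
    rw [← vG_eq_jInvGauss, gaussρF_vG]
    exact hQ.mem

end Main

section PicAbstract

variable {K F K' F' : Type*} [Field K] [Field F] [Algebra K F] [Field K'] [Field F']
  [Algebra K' F']

/-- divisor-level Eichler–Shimura with a diamond, from its values on single places. -/
theorem mapDomain_swap_eq_of_single (r : Place K F → Place K' F')
    (T : Divisor K F →+ Divisor K F)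
    (Φ : SemilinearAut K' F') (δ : SemilinearAut K F) (ℓ : ℕ)
    (h : ∀ P : Place K F, Finsupp.mapDomain r (T (Finsupp.single P 1))
      = Finsupp.single (Φ • r P) 1 + Finsupp.single (Φ⁻¹ • r (δ • P)) (ℓ : ℤ))
    (D : Divisor K F) :
    Finsupp.mapDomain r (T D)
      = Φ • Finsupp.mapDomain r D + ℓ • (Φ⁻¹ • Finsupp.mapDomain r (δ • D)) := by
  induction D using Finsupp.induction_linear with
  | zero => simp
  | add D E hD hE =>
    rw [map_add, Finsupp.mapDomain_add, hD, hE, Finsupp.mapDomain_add, smul_add, smul_add,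
      Finsupp.mapDomain_add, smul_add, smul_add]
    abel
  | single P n =>
    have e : (Finsupp.single P n : Divisor K F) = n • Finsupp.single P (1 : ℤ) := by
      rw [Finsupp.smul_single, smul_eq_mul, mul_one]
    have e1 : Finsupp.mapDomain r (T (Finsupp.single P n))
        = n • Finsupp.mapDomain r (T (Finsupp.single P 1)) := by
      rw [e, map_zsmul, Finsupp.mapDomain_smul]
    rw [e1, h P, Finsupp.mapDomain_single, SemilinearAut.smul_single, SemilinearAut.smul_single,
      Finsupp.mapDomain_single, SemilinearAut.smul_single,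
      smul_add, Finsupp.smul_single, Finsupp.smul_single, Finsupp.smul_single]
    simp only [smul_eq_mul, mul_one, nsmul_eq_mul]
    rw [mul_comm]

end PicAbstract

section Pic

variable {A : ValuationSubring Ω} {M : ℕ} [NeZero M]
variable {r : Place Ω ↥(F₁Bar M 1) →
      Place (IsLocalRing.ResidueField A) ↥(F₁C (IsLocalRing.ResidueField A) M 1)}
variable (hr : IsPlaceReductionModL A (F₁ M 1) (F₁C (IsLocalRing.ResidueField A) M 1) r)
  (hgen : PrincipalGeneratedByIntegral A (IsLocalRing.residue A) (F₁ M 1)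
    (F₁C (IsLocalRing.ResidueField A) M 1))

/-- **Eichler–Shimura on `Pic⁰` (with a diamond) from its place-level form.** -/
theorem hES_pic_of_place (hM : M ≠ 1) {ℓ : ℕ} [NeZero ℓ]
    (Φ : SemilinearAut (IsLocalRing.ResidueField A) ↥(F₁C (IsLocalRing.ResidueField A) M 1))
    (δ : SemilinearAut Ω ↥(F₁Bar M 1))
    (h : ∀ P : Place Ω ↥(F₁Bar M 1),
      Finsupp.mapDomain r (heckeSwapDivBar M 1 ℓ hM (Finsupp.single P 1))
        = Finsupp.single (Φ • r P) 1 + Finsupp.single (Φ⁻¹ • r (δ • P)) (ℓ : ℤ))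
    (x : J₁ M) :
    reductionPic0Along r hr hgen (heckeSwapBar M 1 ℓ hM x)
      = Φ • reductionPic0Along r hr hgen x
        + ℓ • (Φ⁻¹ • reductionPic0Along r hr hgen (δ • x)) := by
  obtain ⟨D, rfl⟩ := Pic0.mk_surjective x
  have e2 : heckeSwapBar M 1 ℓ hM (Pic0.mk D)
      = Pic0.mk ⟨heckeSwapDivBar M 1 ℓ hM (D : Divisor Ω ↥(F₁Bar M 1)),
          heckeSwapDivOf_mem_degZero Ω M 1 ℓ (jCoordBarOf M 1 hM) (jCoordBarOf M (1 * ℓ) hM)
            D.2⟩ := rfl
  rw [e2, SemilinearAut.pic0_smul_mk, reductionPic0Along_mk, reductionPic0Along_mk,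
    reductionPic0Along_mk, SemilinearAut.pic0_smul_mk, SemilinearAut.pic0_smul_mk]
  have e3 : ∀ X Y : Divisor.degZero (K := IsLocalRing.ResidueField A)
      (F := ↥(F₁C (IsLocalRing.ResidueField A) M 1)),
      Pic0.mk X + ℓ • Pic0.mk Y = Pic0.mk (X + ℓ • Y) := fun X Y => rfl
  rw [e3]
  refine congrArg Pic0.mk (Subtype.ext ?_)
  exact mapDomain_swap_eq_of_single r (heckeSwapDivBar M 1 ℓ hM) Φ δ ℓ h
    (D : Divisor Ω ↥(F₁Bar M 1))

end Pic

section Top

variable {ℓ : ℕ} [hℓ : Fact ℓ.Prime] {A : ValuationSubring Ω} {M : ℕ} [NeZero M] [W1Api M]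
variable {r : Place Ω ↥(F₁Bar M 1) →
      Place (IsLocalRing.ResidueField A) ↥(F₁C (IsLocalRing.ResidueField A) M 1)}

/-- **[A5] the Eichler–Shimura congruence for `X₁(M)` on `Pic⁰`**, in the shape `hES` of
`exists_red_of_placeReduction` / `placeReductionData_of_exists_data`:
`red (T'_ℓ x) = Φ • red x + ℓ • Φ⁻¹ • red (⟨ℓ⟩⁻¹ x)`, `T'_ℓ = heckeSwapBar M 1 ℓ hM = β_* α^*`,
from the chart inputs of `exists_placeReduction_residue`. -/
theorem hES_of_charts (hA : A.LiesOverPrime ℓ) (hM : M ≠ 1) (hℓM : ¬ ℓ ∣ M)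
    (h : GaussRes A M (IsLocalRing.residue A))
    (hr : IsPlaceReductionModL A (F₁ M 1) (F₁C (IsLocalRing.ResidueField A) M 1) r)
    (hgen : PrincipalGeneratedByIntegral A (IsLocalRing.residue A) (F₁ M 1)
      (F₁C (IsLocalRing.ResidueField A) M 1))
    (σ₀ : A.decompositionSubgroup ℚ) (hσ₀ : A.IsFrobeniusAt σ₀.1 ℓ)
    (u : (ZMod M)ˣ) (hu : (u : ZMod M) = (ℓ : ZMod M)) (b : ℤ)
    (hdegk : ∀ Q : Place (IsLocalRing.ResidueField A)
      ↥(F₁C (IsLocalRing.ResidueField A) M 1), Q.deg = 1)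
    (hequiv : ∀ (σ : A.decompositionSubgroup ℚ) (P : Place Ω ↥(F₁Bar M 1)),
      r (arithmeticGalois (F₁ M 1) σ.1 • P)
        = coeffAutC (IsLocalRing.ResidueField A) M (resAut A σ) • r P)
    (hev₁ : ChartEval h (jBar M) r)
    (hsep₁ : ChartSep h (jBar M) (fun Q => gaussρF h (jGauss A M) ∈ Q.toValuationSubring))
    (hev₂ : ChartEval h (jInvBar M b) r)
    (hsep₂ : ChartSep h (jInvBar M b)
      (fun Q => gaussρF h (jInvGauss A M b) ∈ Q.toValuationSubring))
    (x : J₁ M) :
    haveI : NeZero ℓ := ⟨hℓ.out.ne_zero⟩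
    reductionPic0Along r hr hgen (heckeSwapBar M 1 ℓ hM x)
      = coeffAutC (IsLocalRing.ResidueField A) M (resAut A σ₀) • reductionPic0Along r hr hgen x
        + ℓ • ((coeffAutC (IsLocalRing.ResidueField A) M (resAut A σ₀))⁻¹ •
            reductionPic0Along r hr hgen (diaBar M 1 u⁻¹ x)) := by
  haveI : NeZero ℓ := ⟨hℓ.out.ne_zero⟩
  rw [diaBar_apply]
  exact hES_pic_of_place hr hgen hM
    (coeffAutC (IsLocalRing.ResidueField A) M (resAut A σ₀))
    (SemilinearAut.ofAlgAut (diaBarAlg M 1 u⁻¹))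
    (fun P => es_place_all_of_gauss hA hM hℓM h r σ₀ hσ₀ u hu b hdegk hequiv hev₁ hsep₁ hev₂
      hsep₂ P) x

end Top

end Fermat.Agent.W1
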