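/-
W1 = [GRΓ1] (S48), package [ES1] (helper9), part 2 (generic port of `X0N/ES_helper5_Prim`): for
ANY finite index subgroup `Γ ≤ SL₂(ℤ)`: the canonical primitive of a weight 2 cusp form, the
period map `periodMap f : Additive Γ →+ ℂ` and its linearity.
-/
import Mathlib
import Fermat.Prelude.Def_ModularCurve_PeriodHomPair
import Fermat.Agent.S22.Prim
import Fermat.Agent.S22.Decay

set_option autoImplicit false
set_option linter.unusedSectionVars false

open Complex Filter Topology Set ModularForm CongruenceSubgroup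
open UpperHalfPlane hiding I
open scoped MatrixGroups Pointwise
open Fermat.Agent.S22

namespace Fermat.Agent.W1.ES

/-- Exponential decay at `i∞`, uniformly in the real part. -/
def UDecay (h : ℍ → ℂ) : Prop :=
  ∃ C c A : ℝ, 0 < c ∧ ∀ τ : ℍ, A ≤ τ.im → ‖h τ‖ ≤ C * Real.exp (-c * τ.im)

theorem UDecay.stripDecay {h : ℍ → ℂ} (hd : UDecay h) : StripDecay h := by
  obtain ⟨C, c, A, hc, hb⟩ := hd
  exact fun _ => ⟨C, c, A, hc, fun τ _ h2 => hb τ h2⟩

/-- A primitive of a uniformly exponentially decaying function converges at `i∞`, uniformly in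
the real part. -/
theorem exists_tendsto_atImInfty_of_isPrim {G h : ℍ → ℂ} (hG : IsPrim G h) (hd : UDecay h) :
    ∃ L : ℂ, Tendsto G atImInfty (𝓝 L) := by
  obtain ⟨L, hL⟩ := hG.exists_hasVLim hd.stripDecay
  obtain ⟨C, c, A, hc, hb⟩ := hd
  refine ⟨L, ?_⟩
  rw [tendsto_iff_norm_sub_tendsto_zero]
  have hbd : Tendsto (fun τ : ℍ => C / c * Real.exp (-c * τ.im)) atImInfty (𝓝 0) := by
    have h1 : Tendsto (fun τ : ℍ => τ.im) atImInfty atTop := tendsto_comap
    have h2 : Tendsto (fun t : ℝ => Real.exp (-c * t)) atTop (𝓝 0) := by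
      have : Tendsto (fun t : ℝ => -c * t) atTop atBot :=
        (tendsto_id.const_mul_atTop_of_neg (by linarith : -c < 0))
      exact Real.tendsto_exp_atBot.comp this
    simpa using ((h2.comp h1).const_mul (C / c))
  refine squeeze_zero' (Eventually.of_forall fun _ => norm_nonneg _) ?_ hbd
  have hev : ∀ᶠ τ : ℍ in atImInfty, A ≤ τ.im := by
    rw [Filter.Eventually, UpperHalfPlane.atImInfty_mem]
    exact ⟨A, fun τ hτ => hτ⟩
  filter_upwards [hev] with τ hτ
  exact hG.norm_sub_le_of_hasVLim hL (A := |τ.re|) hc (fun τ' _ h2 => hb τ' h2) τ le_rfl hτ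


/-- Chain rule for the action of `SL(2, ℤ)` in terms of the weight 2 slash action. -/
theorem isPrim_comp_SL {G h : ℍ → ℂ} (hG : IsPrim G h) (δ : SL(2, ℤ)) :
    IsPrim (fun τ => G (δ • τ)) (h ∣[(2 : ℤ)] δ) := by
  have hdet : ((δ : GL (Fin 2) ℝ) : Matrix (Fin 2) (Fin 2) ℝ).det = 1 := by
    have h := Matrix.SpecialLinearGroup.det_mapGL (S := ℝ) δ
    have h2 := congrArg Units.val h
    rwa [Matrix.GeneralLinearGroup.val_det_apply] at h2
  have h1 := hG.comp_smul (g := (δ : GL (Fin 2) ℝ)) (by rw [hdet]; exact one_pos)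
  refine (h1.congr fun τ => ?_)
  rw [hdet, SL_slash_apply]
  have hd : denom δ τ ≠ 0 := denom_ne_zero δ τ
  show h ((δ : GL (Fin 2) ℝ) • τ) * (((1 : ℝ) : ℂ) / denom (δ : GL (Fin 2) ℝ) τ ^ 2)
      = h (δ • τ) * denom δ τ ^ (-2 : ℤ)
  rw [ofReal_one, zpow_neg, one_div]
  rfl

variable {Γ : Subgroup SL(2, ℤ)} [Γ.FiniteIndex]

/-- Uniform exponential decay at `i∞` of `f ∣[k] α` for a cusp form `f` of level `Γ` and a
rational matrix `α` (generic version of `S22.exists_exp_decay_slash`). -/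
theorem exists_exp_decay_slash_rat {k : ℤ} (f : CuspForm Γ k) (α : GL (Fin 2) ℚ) :
    ∃ C c A : ℝ, 0 < c ∧ ∀ τ : ℍ, A ≤ τ.im →
      ‖(⇑f ∣[k] ratGL α) τ‖ ≤ C * Real.exp (-c * τ.im) := by
  have harith : (ConjAct.toConjAct (ratGL α)⁻¹ • ((Γ : Subgroup SL(2, ℤ)) :
      Subgroup (GL (Fin 2) ℝ))).IsArithmetic := by
    have := Subgroup.IsArithmetic.conj ((Γ : Subgroup SL(2, ℤ)) :
      Subgroup (GL (Fin 2) ℝ)) α⁻¹
    simpa [ratGL, map_inv] using this
  let f' := CuspForm.translate f (ratGL α)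
  have hdec := CuspFormClass.exp_decay_atImInfty' (f := f')
  obtain ⟨c, hc, hO⟩ := hdec
  obtain ⟨C, hC⟩ := hO.bound
  rw [Filter.Eventually, UpperHalfPlane.atImInfty_mem] at hC
  obtain ⟨A, hA⟩ := hC
  refine ⟨C, c, A, hc, fun τ hτ => ?_⟩
  have h1 : ‖f' τ‖ ≤ C * ‖Real.exp (-c * τ.im)‖ := hA τ hτ
  have hcoe : f' τ = (⇑f ∣[k] ratGL α) τ := rfl
  rw [hcoe, Real.norm_eq_abs, abs_of_pos (Real.exp_pos _)] at h1
  exact h1

theorem exists_exp_decay_slash_of_mem_rat {k : ℤ} (f : CuspForm Γ k)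
    {α : GL (Fin 2) ℝ} (hα : α ∈ ratSubgroup) :
    ∃ C c A : ℝ, 0 < c ∧ ∀ τ : ℍ, A ≤ τ.im → ‖(⇑f ∣[k] α) τ‖ ≤ C * Real.exp (-c * τ.im) := by
  obtain ⟨α', rfl⟩ := hα
  exact exists_exp_decay_slash_rat f α'


theorem exists_isPrim_cuspForm (f : CuspForm Γ 2) : ∃ G : ℍ → ℂ, IsPrim G ⇑f :=
  exists_isPrim (UpperHalfPlane.mdifferentiable_iff.mp (CuspFormClass.holo f))

theorem uDecay_slash (f : CuspForm Γ 2) (δ : SL(2, ℤ)) : UDecay (⇑f ∣[(2 : ℤ)] δ) :=
  exists_exp_decay_slash_of_mem_rat f (coe_SL_mem_ratSubgroup δ)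

theorem uDecay_cuspForm (f : CuspForm Γ 2) : UDecay ⇑f := by
  have := uDecay_slash f 1
  simpa using this

theorem exists_canonPrim (f : CuspForm Γ 2) :
    ∃ F : ℍ → ℂ, IsPrim F ⇑f ∧ Tendsto F atImInfty (𝓝 0) := by
  obtain ⟨G, hG⟩ := exists_isPrim_cuspForm f
  obtain ⟨L, hL⟩ := exists_tendsto_atImInfty_of_isPrim hG (uDecay_cuspForm f)
  refine ⟨fun τ => G τ + (-L), hG.add_const (-L), ?_⟩
  have := hL.add_const (-L)
  rwa [add_neg_cancel] at this

/-- The canonical primitive of a weight 2 cusp form: `F' = f` and `F → 0` at `i∞`. -/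
noncomputable def canonPrim (f : CuspForm Γ 2) : ℍ → ℂ := (exists_canonPrim f).choose

theorem canonPrim_isPrim (f : CuspForm Γ 2) : IsPrim (canonPrim f) ⇑f :=
  (exists_canonPrim f).choose_spec.1

theorem canonPrim_tendsto (f : CuspForm Γ 2) :
    Tendsto (canonPrim f) atImInfty (𝓝 0) :=
  (exists_canonPrim f).choose_spec.2

/-- Uniqueness of the primitive vanishing at `i∞`. -/
theorem eq_canonPrim (f : CuspForm Γ 2) {F : ℍ → ℂ} (hF : IsPrim F ⇑f)
    (h0 : Tendsto F atImInfty (𝓝 0)) : F = canonPrim f := by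
  obtain ⟨c, hc⟩ := hF.exists_eq_add_const (canonPrim_isPrim f)
  have h1 : Tendsto (fun τ => F τ - canonPrim f τ) atImInfty (𝓝 (0 - 0)) :=
    h0.sub (canonPrim_tendsto f)
  have h2 : (fun τ => F τ - canonPrim f τ) = fun _ => c := by
    ext τ; rw [hc τ]; ring
  rw [h2, sub_zero] at h1
  have hc0 : c = 0 := tendsto_nhds_unique tendsto_const_nhds h1
  ext τ
  rw [hc τ, hc0, add_zero]

/-- Equivariance of the canonical primitive under `Γ₀(N)`. -/
theorem canonPrim_equivariant (f : CuspForm Γ 2) :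
    ModularCurve.Period.IsEquivariantPrimitive Γ (canonPrim f) := by
  intro γ
  have h1 := isPrim_comp_SL (canonPrim_isPrim f) (γ : SL(2, ℤ))
  have hinv : (⇑f ∣[(2 : ℤ)] (γ : SL(2, ℤ))) = ⇑f := by
    have := SlashInvariantFormClass.slash_action_eq f ((γ : SL(2, ℤ)) : GL (Fin 2) ℝ)
      (Subgroup.mem_map_of_mem _ γ.2)
    exact this
  rw [hinv] at h1
  obtain ⟨c, hc⟩ := h1.exists_eq_add_const (canonPrim_isPrim f)
  exact ⟨c, fun z => by rw [hc z]; ring⟩

/-- The canonical primitive has a limit at every cusp. -/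
theorem canonPrim_cusp_limit (f : CuspForm Γ 2) (δ : SL(2, ℤ)) :
    ∃ L : ℂ, Tendsto (fun w : ℍ => canonPrim f (δ • w)) atImInfty (𝓝 L) :=
  exists_tendsto_atImInfty_of_isPrim (isPrim_comp_SL (canonPrim_isPrim f) δ) (uDecay_slash f δ)

/-- **the period map** of a weight 2 cusp form for `Γ`. -/
noncomputable def periodMap (f : CuspForm Γ 2) : Additive Γ →+ ℂ :=
  (canonPrim_equivariant f).periodHom

/-- Explicit formula for the period map. -/
theorem periodMap_apply (f : CuspForm Γ 2) (γ : Γ) :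
    periodMap f (Additive.ofMul γ) =
      canonPrim f ((γ : SL(2, ℤ)) • UpperHalfPlane.I) - canonPrim f UpperHalfPlane.I := rfl

/-- The period map evaluated via any base point. -/
theorem periodMap_apply' (f : CuspForm Γ 2) (γ : Γ) (z : ℍ) :
    periodMap f (Additive.ofMul γ) =
      canonPrim f ((γ : SL(2, ℤ)) • z) - canonPrim f z := by
  rw [periodMap_apply]
  have h := canonPrim_equivariant f
  rw [h.sub_eq_period γ z]
  rfl


/-! ### Linearity -/

theorem canonPrim_add (f g : CuspForm Γ 2) :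
    canonPrim (f + g) = canonPrim f + canonPrim g := by
  symm
  apply eq_canonPrim
  · have := (canonPrim_isPrim f).add (canonPrim_isPrim g)
    exact this
  · have := (canonPrim_tendsto f).add (canonPrim_tendsto g)
    rw [add_zero] at this
    exact this

theorem canonPrim_smul (c : ℂ) (f : CuspForm Γ 2) :
    canonPrim (c • f) = c • canonPrim f := by
  symm
  apply eq_canonPrim
  · have := (canonPrim_isPrim f).const_smul c
    exact this
  · have := (canonPrim_tendsto f).const_smul c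
    rw [smul_zero] at this
    exact this

theorem periodMap_add (f g : CuspForm Γ 2) :
    periodMap (f + g) = periodMap f + periodMap g := by
  refine AddMonoidHom.ext fun γ => ?_
  obtain ⟨γ, rfl⟩ := Additive.ofMul.surjective γ
  rw [AddMonoidHom.add_apply, periodMap_apply, periodMap_apply, periodMap_apply, canonPrim_add]
  simp only [Pi.add_apply]
  ring

theorem periodMap_smul (c : ℂ) (f : CuspForm Γ 2) :
    periodMap (c • f) = c • periodMap f := by
  refine AddMonoidHom.ext fun γ => ?_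
  obtain ⟨γ, rfl⟩ := Additive.ofMul.surjective γ
  rw [AddMonoidHom.smul_apply, periodMap_apply, periodMap_apply, canonPrim_smul]
  simp only [Pi.smul_apply, smul_eq_mul]
  ring

/-- The period map as a `ℂ`-linear map. -/
noncomputable def periodMapLinear (Γ : Subgroup SL(2, ℤ)) [Γ.FiniteIndex] :
    CuspForm Γ 2 →ₗ[ℂ] (Additive Γ →+ ℂ) where
  toFun := periodMap
  map_add' := periodMap_add
  map_smul' := periodMap_smul


end Fermat.Agent.W1.ES
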