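/-
W1 = [GRΓ1] (S48), package [ES1] (helper9), part 4 (generic port of
`X0N/ES_helper5_{Injective,Final}`): **injectivity of the Eichler–Shimura map** for a `JStable`
subgroup `Γ ⊇ Γ(n)` of `SL₂(ℤ)`, and Eichler–Shimura given the two dimension inputs.
-/
import Mathlib
import Fermat.Agent.W1.ES1_helper9_Parabolic
import Fermat.Agent.X0N.ES_helper5_MaxMod

set_option autoImplicit false
set_option linter.unusedSectionVars false

open Complex Filter Topology Set ModularForm CongruenceSubgroup Matrix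
open UpperHalfPlane hiding I
open scoped MatrixGroups Manifold ComplexConjugate
open ModularCurve.Period
open Fermat.Agent.S22 Fermat.Agent.X0N.ES

namespace Fermat.Agent.W1.ES

theorem J_mul_coe_SL (γ : SL(2, ℤ)) :
    UpperHalfPlane.J * (γ : GL (Fin 2) ℝ) = (jConjSL γ : GL (Fin 2) ℝ) * UpperHalfPlane.J := by
  ext i j
  fin_cases i <;> fin_cases j <;>
    simp [Matrix.mul_apply, Fin.sum_univ_two, jConjMat]

theorem J_smul_SL (γ : SL(2, ℤ)) (z : ℍ) :
    UpperHalfPlane.J • (γ • z) = (jConjSL γ) • (UpperHalfPlane.J • z) := by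
  show UpperHalfPlane.J • ((γ : GL (Fin 2) ℝ) • z)
    = (jConjSL γ : GL (Fin 2) ℝ) • (UpperHalfPlane.J • z)
  rw [← mul_smul, ← mul_smul, J_mul_coe_SL]

theorem J_smul_J_smul (z : ℍ) : UpperHalfPlane.J • (UpperHalfPlane.J • z) = z := by
  rw [← mul_smul, ← sq, UpperHalfPlane.J_sq, one_smul]

theorem im_J_smul (z : ℍ) : (UpperHalfPlane.J • z).im = z.im := by
  show ((UpperHalfPlane.J • z : ℍ) : ℂ).im = (z : ℂ).im
  rw [UpperHalfPlane.coe_J_smul]
  simp

theorem tendsto_J_smul_atImInfty :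
    Tendsto (fun w : ℍ => UpperHalfPlane.J • w) atImInfty atImInfty := by
  rw [atImInfty, tendsto_comap_iff]
  have : (UpperHalfPlane.im ∘ fun w : ℍ => UpperHalfPlane.J • w) = UpperHalfPlane.im := by
    ext w
    exact im_J_smul w
  rw [this]
  exact tendsto_comap

theorem trace_conj_T_pow (δ : SL(2, ℤ)) (n : ℤ) :
    ((δ * ModularGroup.T ^ n * δ⁻¹ : SL(2, ℤ)) : Matrix (Fin 2) (Fin 2) ℤ).trace = 2 := by
  rw [Matrix.SpecialLinearGroup.coe_mul, Matrix.trace_mul_comm, ← Matrix.SpecialLinearGroup.coe_mul,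
    ← mul_assoc, inv_mul_cancel, one_mul, ModularGroup.coe_T_zpow, Matrix.trace_fin_two_of]
  norm_num

theorem smul_natCast_vadd (N : ℕ) (δ : SL(2, ℤ)) (w : ℍ) :
    δ • ((N : ℝ) +ᵥ w) = (δ * ModularGroup.T ^ (N : ℤ) * δ⁻¹) • (δ • w) := by
  rw [← mul_smul, mul_assoc, mul_assoc, inv_mul_cancel, mul_one, mul_smul,
    UpperHalfPlane.modular_T_zpow_smul]
  push_cast
  rfl

variable {Γ : Subgroup SL(2, ℤ)} [Γ.FiniteIndex] [JStable Γ]
  (n : ℕ) [NeZero n] (hn : CongruenceSubgroup.Gamma n ≤ Γ)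

include hn in
theorem conj_T_pow_mem (δ : SL(2, ℤ)) : δ * ModularGroup.T ^ (n : ℤ) * δ⁻¹ ∈ Γ := by
  apply hn
  have h1 : ModularGroup.T ^ (n : ℤ) ∈ CongruenceSubgroup.Gamma n := by
    have := ModularGroup_T_pow_mem_Gamma (n : ℤ) (n : ℤ) dvd_rfl
    rwa [Int.natAbs_natCast] at this
  exact (Gamma_normal n).conj_mem _ h1 δ

theorem mdifferentiable_canonPrim (f : CuspForm Γ 2) :
    MDifferentiable 𝓘(ℂ) 𝓘(ℂ) (canonPrim f) :=
  UpperHalfPlane.mdifferentiable_iff.mpr (canonPrim_isPrim f).differentiableOn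

/-- The holomorphic function `z ↦ conj (F (-conj z))` attached to the canonical primitive `F`. -/
noncomputable def reflPrim (c : CuspForm Γ 2) : ℍ → ℂ :=
  fun z => conj (canonPrim c (UpperHalfPlane.J • z))

theorem reflPrim_eq_slash (c : CuspForm Γ 2) :
    reflPrim c = (canonPrim c) ∣[(0 : ℤ)] UpperHalfPlane.J := by
  ext z
  simp [reflPrim, ModularForm.slash_apply]

theorem mdifferentiable_reflPrim (c : CuspForm Γ 2) :
    MDifferentiable 𝓘(ℂ) 𝓘(ℂ) (reflPrim c) := by
  rw [reflPrim_eq_slash]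
  exact (mdifferentiable_canonPrim c).slash 0 _

theorem canonPrim_smul_Γ (f : CuspForm Γ 2) (γ : Γ) (z : ℍ) :
    canonPrim f ((γ : SL(2, ℤ)) • z) =
      canonPrim f z + periodMap f (Additive.ofMul γ) := by
  rw [periodMap_apply' f γ z]; ring

theorem reflPrim_smul_Γ (c : CuspForm Γ 2) (γ : Γ) (z : ℍ) :
    reflPrim c ((γ : SL(2, ℤ)) • z) =
      reflPrim c z + conj (periodMap c (Additive.ofMul (jConjΓ Γ γ))) := by
  unfold reflPrim
  rw [J_smul_SL, ← jConjΓ_coe, canonPrim_smul_Γ, map_add]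

include hn in
/-- Periodicity at the cusps of the canonical primitive. -/
theorem canonPrim_cusp_periodic (f : CuspForm Γ 2) (δ : SL(2, ℤ)) (w : ℍ) :
    canonPrim f (δ • ((n : ℝ) +ᵥ w)) = canonPrim f (δ • w) := by
  rw [smul_natCast_vadd]
  have hmem := conj_T_pow_mem n hn δ
  have := canonPrim_smul_Γ f ⟨_, hmem⟩ (δ • w)
  rw [periodMap_parabolic f ⟨_, hmem⟩ (by rw [trace_conj_T_pow]; norm_num), add_zero] at this
  exact this

include hn in
theorem reflPrim_cusp_periodic (c : CuspForm Γ 2) (δ : SL(2, ℤ)) (w : ℍ) :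
    reflPrim c (δ • ((n : ℝ) +ᵥ w)) = reflPrim c (δ • w) := by
  rw [smul_natCast_vadd]
  have hmem := conj_T_pow_mem n hn δ
  have := reflPrim_smul_Γ c ⟨_, hmem⟩ (δ • w)
  rw [periodMap_parabolic c (jConjΓ Γ ⟨_, hmem⟩)
    (by rw [jConjΓ_coe, jConjSL_coe, jConjMat_trace, trace_conj_T_pow]; norm_num),
    map_zero, add_zero] at this
  exact this

theorem reflPrim_cusp_limit (c : CuspForm Γ 2) (δ : SL(2, ℤ)) :
    ∃ L : ℂ, Tendsto (fun w : ℍ => reflPrim c (δ • w)) atImInfty (𝓝 L) := by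
  obtain ⟨L, hL⟩ := canonPrim_cusp_limit c (jConjSL δ)
  refine ⟨conj L, ?_⟩
  have h1 : Tendsto (fun w : ℍ => canonPrim c (jConjSL δ • (UpperHalfPlane.J • w)))
      atImInfty (𝓝 L) := hL.comp tendsto_J_smul_atImInfty
  have h2 := (Complex.continuous_conj.tendsto L).comp h1
  refine h2.congr fun w => ?_
  simp only [Function.comp_apply, reflPrim, J_smul_SL]

theorem eq_zero_of_const_canonPrim (f : CuspForm Γ 2) {k : ℂ}
    (hk : ∀ z, canonPrim f z = k) : f = 0 := by
  apply DFunLike.ext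
  intro τ
  have h1 := canonPrim_isPrim f τ
  have h2 : (canonPrim f ∘ ofComplex) = fun _ => k := by
    ext w
    exact hk _
  rw [h2] at h1
  have := h1.unique (hasDerivAt_const (τ : ℂ) k)
  rw [this]
  rfl


include hn in
/-- The key vanishing statement behind the injectivity of the Eichler–Shimura map. -/
theorem eq_zero_of_periodMap_add_eq_zero (a c : CuspForm Γ 2)
    (hrel : ∀ γ : Γ, periodMap a (Additive.ofMul γ) +
      periodMap c (Additive.ofMul (jConjΓ Γ γ)) = 0) :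
    a = 0 ∧ c = 0 := by
  have hN : (0 : ℝ) < n := Nat.cast_pos.mpr (NeZero.pos n)
  have hQ : ∀ γ : Γ, periodMap c (Additive.ofMul (jConjΓ Γ γ)) =
      -periodMap a (Additive.ofMul γ) := fun γ => by
    linear_combination hrel γ
  obtain ⟨c1, hc1⟩ := eq_const_of_re_invariant Γ hN
    (fun z => canonPrim a z + reflPrim c z)
    ((mdifferentiable_canonPrim a).add (mdifferentiable_reflPrim c))
    (fun γ hγ z => by
      have h1 := canonPrim_smul_Γ a ⟨γ, hγ⟩ z
      have h2 := reflPrim_smul_Γ c ⟨γ, hγ⟩ z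
      simp only at h1 h2
      rw [h1, h2, hQ]
      simp
      ring)
    (fun δ w => by simp only [canonPrim_cusp_periodic n hn, reflPrim_cusp_periodic n hn])
    (fun δ => by
      obtain ⟨L1, hL1⟩ := canonPrim_cusp_limit a δ
      obtain ⟨L2, hL2⟩ := reflPrim_cusp_limit c δ
      exact ⟨L1 + L2, hL1.add hL2⟩)
  obtain ⟨c2, hc2⟩ := eq_const_of_re_invariant Γ hN
    (fun z => -I * (canonPrim a z - reflPrim c z))
    (((mdifferentiable_canonPrim a).sub (mdifferentiable_reflPrim c)).const_smul (-I))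
    (fun γ hγ z => by
      have h1 := canonPrim_smul_Γ a ⟨γ, hγ⟩ z
      have h2 := reflPrim_smul_Γ c ⟨γ, hγ⟩ z
      simp only at h1 h2
      rw [h1, h2, hQ]
      simp)
    (fun δ w => by simp only [canonPrim_cusp_periodic n hn, reflPrim_cusp_periodic n hn])
    (fun δ => by
      obtain ⟨L1, hL1⟩ := canonPrim_cusp_limit a δ
      obtain ⟨L2, hL2⟩ := reflPrim_cusp_limit c δ
      exact ⟨-I * (L1 - L2), (hL1.sub hL2).const_mul (-I)⟩)
  have hA : ∀ z, canonPrim a z = (c1 + I * c2) / 2 := by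
    intro z
    have h1 : canonPrim a z + reflPrim c z = c1 := hc1 z
    have h2 : -I * (canonPrim a z - reflPrim c z) = c2 := hc2 z
    rw [← h1, ← h2]
    have : I * (-I * (canonPrim a z - reflPrim c z)) = canonPrim a z - reflPrim c z := by
      rw [← mul_assoc, mul_neg, I_mul_I, neg_neg, one_mul]
    rw [this]; ring
  have hD : ∀ z, reflPrim c z = (c1 - I * c2) / 2 := by
    intro z
    have h1 : canonPrim a z + reflPrim c z = c1 := hc1 z
    rw [hA z] at h1
    linear_combination h1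
  have hC : ∀ z, canonPrim c z = conj ((c1 - I * c2) / 2) := by
    intro z
    have h1 := hD (UpperHalfPlane.J • z)
    unfold reflPrim at h1
    rw [J_smul_J_smul] at h1
    rw [← h1, Complex.conj_conj]
  exact ⟨eq_zero_of_const_canonPrim a hA, eq_zero_of_const_canonPrim c hC⟩


theorem periodMap_sub (f g : CuspForm Γ 2) :
    periodMap (f - g) = periodMap f - periodMap g :=
  (periodMapLinear Γ).map_sub f g

include hn in
/-- **Injectivity of the Eichler–Shimura map** `(f, g) ↦ (P f + ι P f) + (P g - ι P g)`. -/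
theorem periodHomPairΓ_injective : Function.Injective (periodHomPairΓ Γ) := by
  rw [← LinearMap.ker_eq_bot, LinearMap.ker_eq_bot']
  rintro ⟨f, g⟩ h
  rw [periodHomPairΓ_apply] at h
  have hrel : ∀ γ : Γ, periodMap (f + g) (Additive.ofMul γ) +
      periodMap (f - g) (Additive.ofMul (jConjΓ Γ γ)) = 0 := by
    intro γ
    have h1 := DFunLike.congr_fun h (Additive.ofMul γ)
    rw [periodMap_add, periodMap_sub]
    simp only [AddMonoidHom.add_apply, AddMonoidHom.sub_apply, charInvolutionΓ_apply,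
      toMul_ofMul, AddMonoidHom.zero_apply] at h1 ⊢
    linear_combination h1
  obtain ⟨h1, h2⟩ := eq_zero_of_periodMap_add_eq_zero n hn (f + g) (f - g) hrel
  have hf : (2 : ℂ) • f = 0 := by
    have : (2 : ℂ) • f = (f + g) + (f - g) := by rw [two_smul]; abel
    rw [this, h1, h2, add_zero]
  have hg : (2 : ℂ) • g = 0 := by
    have : (2 : ℂ) • g = (f + g) - (f - g) := by rw [two_smul]; abel
    rw [this, h1, h2, sub_zero]
  have hf' : f = 0 := (smul_eq_zero.mp hf).resolve_left two_ne_zero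
  have hg' : g = 0 := (smul_eq_zero.mp hg).resolve_left two_ne_zero
  rw [hf', hg']
  rfl

include hn in
/-- the space of weight 2 cusp forms is finite dimensional as soon as `Hom_par(Γ, ℂ)` is. -/
theorem finite_cuspForm [Module.Finite ℂ ↥(parabolicHoms ℂ Γ ℂ)] :
    Module.Finite ℂ (CuspForm Γ 2) := by
  let φ : CuspForm Γ 2 →ₗ[ℂ] ↥(parabolicHoms ℂ Γ ℂ) :=
    ((periodHomPairΓ Γ).codRestrict (parabolicHoms ℂ Γ ℂ)
      (fun x => range_periodHomPairΓ_le Γ ⟨x, rfl⟩)).comp (LinearMap.inl ℂ _ _)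
  refine Module.Finite.of_injective φ ?_
  intro x y hxy
  have h1 : periodHomPairΓ Γ (x, 0) = periodHomPairΓ Γ (y, 0) := congrArg Subtype.val hxy
  have h2 := periodHomPairΓ_injective n hn h1
  exact congrArg Prod.fst h2

include hn in
/-- **Eichler–Shimura for `Γ`**, assuming `dim S₂(Γ) = g` and the bound
`dim Hom_par(Γ, ℂ) ≤ 2 g`. -/
theorem eichlerShimura_of_dims (g : ℕ)
    (hS20 : Module.finrank ℂ (CuspForm Γ 2) = g)
    (hfin : Module.Finite ℂ ↥(parabolicHoms ℂ Γ ℂ))
    (hC4 : Module.finrank ℂ ↥(parabolicHoms ℂ Γ ℂ) ≤ 2 * g) :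
    Function.Injective (periodHomPairΓ Γ)
      ∧ LinearMap.range (periodHomPairΓ Γ) = parabolicHoms ℂ Γ ℂ := by
  have := finite_cuspForm (Γ := Γ) n hn
  refine ⟨periodHomPairΓ_injective n hn, ?_⟩
  apply Submodule.eq_of_le_of_finrank_le (range_periodHomPairΓ_le Γ)
  rw [LinearMap.finrank_range_of_inj (periodHomPairΓ_injective n hn), Module.finrank_prod, hS20]
  omega

include hn in
/-- without any input: `2 dim S₂(Γ) ≤ dim Hom_par(Γ, ℂ)`. -/
theorem two_mul_finrank_cuspForm_le [Module.Finite ℂ ↥(parabolicHoms ℂ Γ ℂ)] :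
    2 * Module.finrank ℂ (CuspForm Γ 2) ≤ Module.finrank ℂ ↥(parabolicHoms ℂ Γ ℂ) := by
  have := finite_cuspForm (Γ := Γ) n hn
  have h1 : Function.Injective ((periodHomPairΓ Γ).codRestrict (parabolicHoms ℂ Γ ℂ)
      (fun x => range_periodHomPairΓ_le Γ ⟨x, rfl⟩)) := by
    intro x y hxy
    apply periodHomPairΓ_injective n hn
    exact congrArg Subtype.val hxy
  have h2 := LinearMap.finrank_le_finrank_of_injective h1
  rw [Module.finrank_prod] at h2
  omega

end Fermat.Agent.W1.ES
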