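/-
W1 = [GRΓ1] (S48) (helper9): **the abstract genus data of a finite index subgroup
`Γ ≤ SL₂(ℤ)`** (shared by [DICT1] and [ES1]): the numbers of orbits of `S`, `ST`, `T` on
`SL₂(ℤ) ⧸ Γ` and the Euler number `eulerΓ Γ = μ - e₂ - e₃ - e_∞` (`= 2 g - 2` by
Riemann–Hurwitz over the `j`-line when `-1 ∈ Γ`).
-/
import Mathlib

set_option autoImplicit false

namespace Fermat.Agent.W1

open MatrixGroups ModularGroup

/-- the number of orbits of the cyclic group generated by `h` on `SL₂(ℤ) ⧸ Γ`. -/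
noncomputable def orbCount (Γ : Subgroup SL(2, ℤ)) (h : SL(2, ℤ)) : ℕ :=
  Nat.card (MulAction.orbitRel.Quotient (Subgroup.zpowers h) (SL(2, ℤ) ⧸ Γ))

/-- `μ - e₂ - e₃ - e_∞`: index minus the numbers of points over `j = 1728`, `j = 0`, `j = ∞`. -/
noncomputable def eulerΓ (Γ : Subgroup SL(2, ℤ)) : ℤ :=
  (Γ.index : ℤ) - orbCount Γ S - orbCount Γ (S * T) - orbCount Γ T

/-- `g` is the genus of `Γ`: `2 g - 2 = μ - e₂ - e₃ - e_∞`. -/
def IsGenusOf (Γ : Subgroup SL(2, ℤ)) (g : ℕ) : Prop := 2 * (g : ℤ) - 2 = eulerΓ Γ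

theorem IsGenusOf.unique {Γ : Subgroup SL(2, ℤ)} {g g' : ℕ} (h : IsGenusOf Γ g)
    (h' : IsGenusOf Γ g') : g = g' := by
  unfold IsGenusOf at h h'
  omega

end Fermat.Agent.W1
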