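/-
W1 = [GRΓ1] (S48), package [ES1] (helper9), part 1 (generic port of `X0N/ParHom_helper9_Main`):
**the cocycle bound for parabolic cohomology**, for ANY subgroup `Γ ≤ SL₂(ℤ)` containing `-1`
and a principal congruence subgroup `Γ(n)`:
`dim Hom_par(Γ, ℂ) + #orb(S) + #orb(ST) + #orb(T) ≤ [SL₂(ℤ) : Γ] + 2`, i.e.
`dim Hom_par(Γ, ℂ) ≤ 2 g(Γ)` with the abstract genus `2 g - 2 = μ - e₂ - e₃ - e_∞`
(`GenusAbs_helper9`).
-/
import Mathlib
import Fermat.Prelude.Def_ModularCurve_PeriodMap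
import Fermat.Agent.X0N.ParHom_helper9_Cocycle
import Fermat.Agent.X0N.ParHom_helper9_Linear
import Fermat.Agent.W1.GenusAbs_helper9

set_option autoImplicit false
set_option linter.unusedSectionVars false

namespace Fermat.Agent.W1

open CongruenceSubgroup MatrixGroups ModularGroup Matrix ModularCurve.Period
open Fermat.Agent.X0N.ParHom

variable (Γ : Subgroup SL(2, ℤ)) [Γ.FiniteIndex] [Fact ((-1 : SL(2, ℤ)) ∈ Γ)]

local notation "XΓ" => (SL(2, ℤ) ⧸ Γ)

theorem ST_cube : (S * T) ^ 3 = -1 := by decide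

theorem neg_one_smul_coset (x : XΓ) : (-1 : SL(2, ℤ)) • x = x := by
  induction x using QuotientGroup.induction_on with
  | H g =>
    rw [MulAction.Quotient.smul_mk, smul_eq_mul, QuotientGroup.eq]
    have e : ((-1 : SL(2, ℤ)) * g)⁻¹ * g = -1 := by
      rw [neg_mul, one_mul]
      have h1 : (-g)⁻¹ = -g⁻¹ := by
        rw [inv_eq_iff_eq_inv]
        apply Subtype.ext
        simp [Matrix.SpecialLinearGroup.coe_neg]
      rw [h1, neg_mul, inv_mul_cancel]
    rw [e]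
    exact Fact.out

theorem closure_S_ST : Subgroup.closure ({S, S * T} : Set SL(2, ℤ)) = ⊤ := by
  rw [eq_top_iff, ← SpecialLinearGroup.SL2Z_generators, Subgroup.closure_le]
  rintro g (rfl | rfl)
  · exact Subgroup.subset_closure (Set.mem_insert _ _)
  · have h1 : S ∈ Subgroup.closure ({S, S * T} : Set SL(2, ℤ)) :=
      Subgroup.subset_closure (Set.mem_insert _ _)
    have h2 : S * T ∈ Subgroup.closure ({S, S * T} : Set SL(2, ℤ)) :=
      Subgroup.subset_closure (Set.mem_insert_of_mem _ rfl)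
    have h3 := Subgroup.mul_mem _ (Subgroup.inv_mem _ h1) h2
    have : S⁻¹ * (S * T) = T := by group
    rw [this] at h3
    exact h3

/-- A function on the cosets invariant under `S` and `T` is constant. -/
theorem const_of_S_T_invariant (f : XΓ → ℂ) (hS : ∀ x, f (S • x) = f x)
    (hT : ∀ x, f (T • x) = f x) (x y : XΓ) : f x = f y := by
  let H : Subgroup SL(2, ℤ) :=
    { carrier := {g | ∀ x, f (g • x) = f x}
      one_mem' := fun x => by rw [one_smul]
      mul_mem' := fun {a b} ha hb x => by rw [mul_smul, ha, hb]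
      inv_mem' := fun {a} ha x => by
        have := ha (a⁻¹ • x)
        rw [smul_inv_smul] at this
        exact this.symm }
  have hH : H = ⊤ := by
    rw [eq_top_iff, ← SpecialLinearGroup.SL2Z_generators, Subgroup.closure_le]
    rintro g (rfl | rfl)
    · exact hS
    · exact hT
  obtain ⟨g, rfl⟩ := MulAction.exists_smul_eq SL(2, ℤ) x y
  have : g ∈ H := by rw [hH]; exact Subgroup.mem_top g
  exact (this x).symm


/-- The total cocycle `c'(g)(x) = c_ψ(g)(x) + v(gx) - v(x)`. -/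
noncomputable def tcoc (ψ : Additive Γ →+ ℂ) (v : XΓ → ℂ) (g : SL(2, ℤ)) (x : XΓ) : ℂ :=
  coc Γ ψ g x + (v (g • x) - v x)

theorem isCoc_tcoc (ψ : Additive Γ →+ ℂ) (v : XΓ → ℂ) :
    IsCoc Γ (tcoc Γ ψ v) :=
  (isCoc_coc _ ψ).add (isCoc_cobound v)

theorem coc_neg_one (ψ : Additive Γ →+ ℂ) (x : XΓ) :
    coc Γ ψ (-1) x = 0 := by
  have hk : kappa Γ (-1) x = ⟨-1, (Fact.out : (-1 : SL(2, ℤ)) ∈ Γ)⟩ := by
    apply Subtype.ext
    rw [kappa_coe_of_smul_eq _ (neg_one_smul_coset Γ x)]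
    simp
  rw [coc, hk]
  set m : Γ := ⟨-1, (Fact.out : (-1 : SL(2, ℤ)) ∈ Γ)⟩
  have hmm : m * m = 1 := by
    apply Subtype.ext
    simp [m]
  have h1 : ψ (Additive.ofMul m) + ψ (Additive.ofMul m) = 0 := by
    rw [← map_add, ← ofMul_mul, hmm, ofMul_one, map_zero]
  have h2 : (2 : ℂ) * ψ (Additive.ofMul m) = 0 := by rw [two_mul]; exact h1
  exact (mul_eq_zero.mp h2).resolve_left two_ne_zero

theorem tcoc_neg_one (ψ : Additive Γ →+ ℂ) (v : XΓ → ℂ) (x : XΓ) :
    tcoc Γ ψ v (-1) x = 0 := by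
  rw [tcoc, coc_neg_one, neg_one_smul_coset, sub_self, add_zero]

theorem tcoc_S_add (ψ : Additive Γ →+ ℂ) (v : XΓ → ℂ) (x : XΓ) :
    tcoc Γ ψ v S x + tcoc Γ ψ v S (S • x) = 0 := by
  have h := isCoc_tcoc Γ ψ v S S x
  have hS : S * S = -1 := by decide
  rw [hS, tcoc_neg_one] at h
  rw [add_comm]; exact h.symm

theorem tcoc_ST_add (ψ : Additive Γ →+ ℂ) (v : XΓ → ℂ) (x : XΓ) :
    tcoc Γ ψ v (S * T) x + tcoc Γ ψ v (S * T) ((S * T) • x) +
      tcoc Γ ψ v (S * T) ((S * T) ^ 2 • x) = 0 := by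
  have h := (isCoc_tcoc Γ ψ v).pow (S * T) 3 x
  rw [ST_cube, tcoc_neg_one] at h
  simp only [Finset.sum_range_succ, Finset.range_zero, Finset.sum_empty, zero_add, pow_zero,
    one_smul, pow_one] at h
  exact h.symm

theorem tcoc_T (ψ : Additive Γ →+ ℂ) (v : XΓ → ℂ) (x : XΓ) :
    tcoc Γ ψ v T x = tcoc Γ ψ v (S * T) x - tcoc Γ ψ v S (T • x) := by
  rw [isCoc_tcoc Γ ψ v S T x]
  ring



variable (n : ℕ) [NeZero n] (hn : CongruenceSubgroup.Gamma n ≤ Γ)

include hn in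
theorem T_pow_N_smul (x : XΓ) : (T ^ n) • x = x := by
  induction x using QuotientGroup.induction_on with
  | H g =>
    rw [MulAction.Quotient.smul_mk, smul_eq_mul, QuotientGroup.eq]
    apply hn
    have h1 : T ^ n ∈ CongruenceSubgroup.Gamma n := by
      have := ModularGroup_T_pow_mem_Gamma (n : ℤ) (n : ℤ) dvd_rfl
      rw [Int.natAbs_natCast] at this
      rwa [zpow_natCast] at this
    have h2 := (CongruenceSubgroup.Gamma_normal n).conj_mem _ (inv_mem h1) g⁻¹
    have e : (T ^ n * g)⁻¹ * g = g⁻¹ * (T ^ n)⁻¹ * g⁻¹⁻¹ := by group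
    rw [e]
    exact h2

theorem trace_conj_T_pow (r : SL(2, ℤ)) (n : ℕ) :
    ((r⁻¹ * T ^ n * r : SL(2, ℤ)) : Matrix (Fin 2) (Fin 2) ℤ).trace = 2 := by
  have h1 : ((r⁻¹ * T ^ n * r : SL(2, ℤ)) : Matrix (Fin 2) (Fin 2) ℤ) =
      (r⁻¹ : SL(2, ℤ)).1 * (T ^ n : SL(2, ℤ)).1 * r.1 := by
    simp [Matrix.SpecialLinearGroup.coe_mul]
  rw [h1, Matrix.trace_mul_cycle, ← Matrix.SpecialLinearGroup.coe_mul, mul_inv_cancel,
    Matrix.SpecialLinearGroup.coe_one, one_mul]
  have h2 : (T ^ n : SL(2, ℤ)).1 = !![1, (n : ℤ); 0, 1] := by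
    have := coe_T_zpow (n : ℤ)
    rwa [zpow_natCast] at this
  rw [h2, Matrix.trace_fin_two_of]
  norm_num

include hn in
theorem coc_T_pow_N {ψ : Additive Γ →+ ℂ} (hψ : ψ ∈ parabolicHoms ℂ Γ ℂ)
    (x : XΓ) : coc Γ ψ (T ^ n) x = 0 := by
  rw [coc]
  apply hψ
  rw [kappa_coe_of_smul_eq _ (T_pow_N_smul Γ n hn x), trace_conj_T_pow]
  norm_num

include hn in
theorem sum_tcoc_T {ψ : Additive Γ →+ ℂ} (hψ : ψ ∈ parabolicHoms ℂ Γ ℂ)
    (v : XΓ → ℂ) (x : XΓ) :
    ∑ i ∈ Finset.range n, tcoc Γ ψ v T (T ^ i • x) = 0 := by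
  rw [← (isCoc_tcoc Γ ψ v).pow T n x, tcoc, coc_T_pow_N Γ n hn hψ, T_pow_N_smul Γ n hn, sub_self,
    add_zero]


/-- Projection to the orbits of the cyclic group generated by `h`. -/
def proj (h : SL(2, ℤ)) : XΓ → MulAction.orbitRel.Quotient (Subgroup.zpowers h) XΓ :=
  Quotient.mk _

theorem proj_smul (h : SL(2, ℤ)) (x : XΓ) : proj Γ h (h • x) = proj Γ h x := by
  apply Quotient.sound
  exact ⟨⟨h, Subgroup.mem_zpowers h⟩, rfl⟩

theorem proj_pow_smul (h : SL(2, ℤ)) (n : ℕ) (x : XΓ) : proj Γ h (h ^ n • x) = proj Γ h x := by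
  induction n with
  | zero => simp
  | succ n ih => rw [pow_succ', mul_smul, proj_smul, ih]

theorem proj_surjective (h : SL(2, ℤ)) : Function.Surjective (proj Γ h) :=
  Quotient.mk_surjective

/-- Fibre sums are invariant under a permutation preserving the fibres. -/
theorem fibre_sum_smul [Fintype XΓ] {Ω : Type*} [DecidableEq Ω] (π : XΓ → Ω) (g : SL(2, ℤ))
    (hπ : ∀ x, π (g • x) = π x) (f : XΓ → ℂ) (ω : Ω) :
    ∑ x, (if π x = ω then f (g • x) else 0) = ∑ x, (if π x = ω then f x else 0) := by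
  have := Equiv.sum_comp (MulAction.toPerm g : Equiv.Perm XΓ)
    (fun x => if π x = ω then f x else 0)
  simp only [MulAction.toPerm_apply, hπ] at this
  exact this


section Main

open Classical

noncomputable local instance instFintypeXΓ : Fintype XΓ := Fintype.ofFinite _

noncomputable local instance instFintypeOrb (h : SL(2, ℤ)) :
    Fintype (MulAction.orbitRel.Quotient (Subgroup.zpowers h) XΓ) := Fintype.ofFinite _

/-- The constraint matrix for `Γ₀(N)`. -/
noncomputable def conM : Matrix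
    (MulAction.orbitRel.Quotient (Subgroup.zpowers S) XΓ ⊕
      MulAction.orbitRel.Quotient (Subgroup.zpowers (S * T)) XΓ ⊕
      MulAction.orbitRel.Quotient (Subgroup.zpowers T) XΓ) (XΓ ⊕ XΓ) ℂ :=
  conMatrix (proj Γ S) (proj Γ (S * T)) (proj Γ T)

/-- The pair of values of the total cocycle on the generators `S`, `ST`. -/
noncomputable def Dfun (ψ : Additive Γ →+ ℂ) (v : XΓ → ℂ) : XΓ ⊕ XΓ → ℂ :=
  Sum.elim (tcoc Γ ψ v S) (tcoc Γ ψ v (S * T))

include hn in
theorem Dfun_mem_ker {ψ : Additive Γ →+ ℂ} (hψ : ψ ∈ parabolicHoms ℂ Γ ℂ)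
    (v : XΓ → ℂ) : (conM Γ).mulVec (Dfun Γ ψ v) = 0 := by
  ext j
  rcases j with ω | ω | ω
  · -- `S`-orbit sums
    rw [conM, conMatrix_mulVec_inl, Pi.zero_apply]
    simp only [Dfun, Sum.elim_inl]
    have h1 := fibre_sum_smul Γ (proj Γ S) S (proj_smul Γ S) (tcoc Γ ψ v S) ω
    have h2 : ∑ x, (if proj Γ S x = ω then tcoc Γ ψ v S x else 0) +
        ∑ x, (if proj Γ S x = ω then tcoc Γ ψ v S (S • x) else 0) = 0 := by
      rw [← Finset.sum_add_distrib]
      refine Finset.sum_eq_zero fun x _ => ?_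
      split_ifs
      · exact tcoc_S_add Γ ψ v x
      · simp
    rw [h1] at h2
    have h3 : (2 : ℂ) * ∑ x, (if proj Γ S x = ω then tcoc Γ ψ v S x else 0) = 0 := by
      rw [two_mul]; exact h2
    exact (mul_eq_zero.mp h3).resolve_left two_ne_zero
  · -- `ST`-orbit sums
    rw [conM, conMatrix_mulVec_inr_inl, Pi.zero_apply]
    simp only [Dfun, Sum.elim_inr]
    have h1 := fibre_sum_smul Γ (proj Γ (S * T)) (S * T) (proj_smul Γ (S * T))
      (tcoc Γ ψ v (S * T)) ω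
    have h1' := fibre_sum_smul Γ (proj Γ (S * T)) ((S * T) ^ 2) (proj_pow_smul Γ (S * T) 2)
      (tcoc Γ ψ v (S * T)) ω
    have h2 : ∑ x, (if proj Γ (S * T) x = ω then tcoc Γ ψ v (S * T) x else 0) +
        ∑ x, (if proj Γ (S * T) x = ω then tcoc Γ ψ v (S * T) ((S * T) • x) else 0) +
        ∑ x, (if proj Γ (S * T) x = ω then tcoc Γ ψ v (S * T) ((S * T) ^ 2 • x) else 0) = 0 := by
      rw [← Finset.sum_add_distrib, ← Finset.sum_add_distrib]
      refine Finset.sum_eq_zero fun x _ => ?_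
      split_ifs
      · exact tcoc_ST_add Γ ψ v x
      · simp
    rw [h1, h1'] at h2
    have h3 : (3 : ℂ) * ∑ x, (if proj Γ (S * T) x = ω then tcoc Γ ψ v (S * T) x else 0) = 0 := by
      linear_combination h2
    exact (mul_eq_zero.mp h3).resolve_left (by norm_num)
  · -- `T`-orbit sums
    rw [conM, conMatrix_mulVec_inr_inr, Pi.zero_apply]
    simp only [Dfun, Sum.elim_inl, Sum.elim_inr]
    have h1 := fibre_sum_smul Γ (proj Γ T) T (proj_smul Γ T) (tcoc Γ ψ v S) ω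
    -- rewrite the summand as `c'(T)` up to a `T`-shift
    have h2 : ∑ x, (if proj Γ T x = ω then tcoc Γ ψ v (S * T) x - tcoc Γ ψ v S x else 0) =
        ∑ x, (if proj Γ T x = ω then tcoc Γ ψ v T x else 0) := by
      have e1 : ∀ x, (if proj Γ T x = ω then tcoc Γ ψ v (S * T) x - tcoc Γ ψ v S x else 0) =
          (if proj Γ T x = ω then tcoc Γ ψ v (S * T) x else 0) -
            (if proj Γ T x = ω then tcoc Γ ψ v S x else 0) := by
        intro x; split_ifs <;> simp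
      have e2 : ∀ x, (if proj Γ T x = ω then tcoc Γ ψ v T x else 0) =
          (if proj Γ T x = ω then tcoc Γ ψ v (S * T) x else 0) -
            (if proj Γ T x = ω then tcoc Γ ψ v S (T • x) else 0) := by
        intro x; rw [tcoc_T]; split_ifs <;> simp
      simp only [e1, e2, Finset.sum_sub_distrib, h1]
    rw [h2]
    -- `N` times the fibre sum of `c'(T)` vanishes
    have h3 : ∀ i : ℕ, ∑ x, (if proj Γ T x = ω then tcoc Γ ψ v T (T ^ i • x) else 0) =
        ∑ x, (if proj Γ T x = ω then tcoc Γ ψ v T x else 0) :=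
      fun i => fibre_sum_smul Γ (proj Γ T) (T ^ i) (proj_pow_smul Γ T i) (tcoc Γ ψ v T) ω
    have h4 : ∑ i ∈ Finset.range n,
        ∑ x, (if proj Γ T x = ω then tcoc Γ ψ v T (T ^ i • x) else 0) = 0 := by
      rw [Finset.sum_comm]
      refine Finset.sum_eq_zero fun x _ => ?_
      split_ifs
      · exact sum_tcoc_T Γ n hn hψ v x
      · simp
    simp only [h3, Finset.sum_const, Finset.card_range, nsmul_eq_mul] at h4
    exact (mul_eq_zero.mp h4).resolve_left (by exact_mod_cast NeZero.ne n)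


theorem eq_zero_of_Dfun_eq_zero (ψ : Additive Γ →+ ℂ) (v : XΓ → ℂ)
    (h : Dfun Γ ψ v = 0) : ψ = 0 ∧ ∀ x y, v x = v y := by
  have hc := isCoc_tcoc Γ ψ v
  have hall : ∀ g x, tcoc Γ ψ v g x = 0 := by
    refine hc.eq_zero_of_closure closure_S_ST ?_
    rintro g (rfl | rfl) x
    · exact congrFun h (Sum.inl x)
    · exact congrFun h (Sum.inr x)
  have hψ : ψ = 0 := by
    refine AddMonoidHom.ext fun a => ?_
    have := hall ((Additive.toMul a : Γ) : SL(2, ℤ)) ((1 : SL(2, ℤ)) : XΓ)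
    rw [tcoc, coc_of_mem, smul_one_coset, sub_self, add_zero, ofMul_toMul] at this
    rw [this, AddMonoidHom.zero_apply]
  refine ⟨hψ, ?_⟩
  have hv : ∀ (g : SL(2, ℤ)) x, v (g • x) = v x := by
    intro g x
    have := hall g x
    rw [tcoc, hψ] at this
    simp only [coc, AddMonoidHom.zero_apply, zero_add] at this
    exact sub_eq_zero.mp this
  exact const_of_S_T_invariant Γ v (hv S) (hv T)

/-- `Dfun` as a linear map. -/
noncomputable def Dlin : ((Additive Γ →+ ℂ) × (XΓ → ℂ)) →ₗ[ℂ] (XΓ ⊕ XΓ → ℂ) where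
  toFun p := Dfun Γ p.1 p.2
  map_add' p q := by
    ext (x | x)
    · simp only [Dfun, tcoc, coc, Prod.fst_add, Prod.snd_add, AddMonoidHom.add_apply,
        Pi.add_apply, Sum.elim_inl]
      ring
    · simp only [Dfun, tcoc, coc, Prod.fst_add, Prod.snd_add, AddMonoidHom.add_apply,
        Pi.add_apply, Sum.elim_inr]
      ring
  map_smul' c p := by
    ext (x | x)
    · simp only [Dfun, tcoc, coc, Prod.smul_fst, Prod.smul_snd, AddMonoidHom.smul_apply,
        Pi.smul_apply, Sum.elim_inl, smul_eq_mul, RingHom.id_apply]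
      ring
    · simp only [Dfun, tcoc, coc, Prod.smul_fst, Prod.smul_snd, AddMonoidHom.smul_apply,
        Pi.smul_apply, Sum.elim_inr, smul_eq_mul, RingHom.id_apply]
      ring

theorem Dlin_apply (ψ : Additive Γ →+ ℂ) (v : XΓ → ℂ) :
    Dlin Γ (ψ, v) = Dfun Γ ψ v := rfl

/-- `Hom(Γ₀(N), ℂ)` is finite dimensional. -/
theorem finite_hom : Module.Finite ℂ (Additive Γ →+ ℂ) := by
  let f : (Additive Γ →+ ℂ) →ₗ[ℂ] (XΓ ⊕ XΓ → ℂ) :=
    (Dlin Γ).comp (LinearMap.inl ℂ _ _)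
  refine Module.Finite.of_injective f ?_
  rw [← LinearMap.ker_eq_bot, LinearMap.ker_eq_bot']
  intro ψ hψ
  exact (eq_zero_of_Dfun_eq_zero Γ ψ 0 hψ).1


/-- `Dlin` restricted to parabolic homomorphisms. -/
noncomputable def DPlin : ((parabolicHoms ℂ Γ ℂ) × (XΓ → ℂ)) →ₗ[ℂ] (XΓ ⊕ XΓ → ℂ) :=
  (Dlin Γ).comp (LinearMap.prodMap (parabolicHoms ℂ Γ ℂ).subtype LinearMap.id)

theorem DPlin_apply (p : (parabolicHoms ℂ Γ ℂ) × (XΓ → ℂ)) :
    DPlin Γ p = Dfun Γ (p.1 : Additive Γ →+ ℂ) p.2 := rfl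

open Module in
theorem finrank_ker_DPlin_le : finrank ℂ (LinearMap.ker (DPlin Γ)) ≤ 1 := by
  have hkey : ∀ p : (parabolicHoms ℂ Γ ℂ) × (XΓ → ℂ), DPlin Γ p = 0 →
      p.2 ((1 : SL(2, ℤ)) : XΓ) = 0 → p = 0 := by
    intro p hp hev
    rw [DPlin_apply] at hp
    obtain ⟨h1, h2⟩ := eq_zero_of_Dfun_eq_zero Γ _ _ hp
    apply Prod.ext
    · exact Subtype.ext h1
    · funext x
      rw [h2 x ((1 : SL(2, ℤ)) : XΓ), hev]
      rfl
  let ev : LinearMap.ker (DPlin Γ) →ₗ[ℂ] ℂ :=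
    ((LinearMap.proj ((1 : SL(2, ℤ)) : XΓ)).comp
      (LinearMap.snd ℂ (parabolicHoms ℂ Γ ℂ) (XΓ → ℂ))).comp (Submodule.subtype _)
  have hinj : Function.Injective ev := by
    intro a b hab
    have h0 : ev (a - b) = 0 := by
      have := LinearMap.map_sub ev a b
      rw [this, hab, sub_self]
    have h1 : DPlin Γ ((a - b : LinearMap.ker (DPlin Γ)) : _ × _) = 0 := (a - b).2
    have h2 := hkey _ h1 h0
    exact sub_eq_zero.mp (Subtype.ext h2)
  have := LinearMap.finrank_le_finrank_of_injective hinj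
  simpa using this

include hn in
open Module in
/-- The combinatorial bound: `dim Hom_par + #orbits(S) + #orbits(ST) + #orbits(T) ≤ ψ + 2`. -/
theorem finrank_parabolicHoms_add_le :
    finrank ℂ (parabolicHoms ℂ Γ ℂ) +
      (Nat.card (MulAction.orbitRel.Quotient (Subgroup.zpowers S) XΓ) +
        Nat.card (MulAction.orbitRel.Quotient (Subgroup.zpowers (S * T)) XΓ) +
        Nat.card (MulAction.orbitRel.Quotient (Subgroup.zpowers T) XΓ)) ≤ Nat.card XΓ + 2 := by
  have := finite_hom Γ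
  have hrange : LinearMap.range (DPlin Γ) ≤ LinearMap.ker (conM Γ).mulVecLin := by
    rintro _ ⟨p, rfl⟩
    rw [LinearMap.mem_ker, Matrix.mulVecLin_apply, DPlin_apply]
    exact Dfun_mem_ker Γ n hn p.1.2 p.2
  have hker := finrank_ker_DPlin_le Γ
  have h1 := LinearMap.finrank_range_add_finrank_ker (DPlin Γ)
  have h2 : finrank ℂ (LinearMap.range (DPlin Γ)) ≤ finrank ℂ (LinearMap.ker (conM Γ).mulVecLin) :=
    Submodule.finrank_mono hrange
  have h3 := finrank_ker_conMatrix_le (proj Γ S) (proj Γ (S * T)) (proj Γ T)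
    (fun f hf2 hf4 => const_of_S_T_invariant Γ f
      (fun x => hf2 _ _ (proj_smul Γ S x)) (fun x => hf4 _ _ (proj_smul Γ T x)))
    (proj_surjective Γ S) (proj_surjective Γ (S * T)) (proj_surjective Γ T)
  rw [Module.finrank_prod, Module.finrank_fintype_fun_eq_card] at h1
  simp only [Nat.card_eq_fintype_card]
  change finrank ℂ (LinearMap.ker (conM Γ).mulVecLin) + _ ≤ _ at h3
  omega


include hn in
/-- **(C4), abstract form**: `Hom_par(Γ, ℂ)` is finite dimensional of dimension at most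
`eulerΓ Γ + 2 = 2 g(Γ)`. -/
theorem parabolicHoms_finite_and_finrank_le :
    Module.Finite ℂ (parabolicHoms ℂ Γ ℂ) ∧
      (Module.finrank ℂ (parabolicHoms ℂ Γ ℂ) : ℤ) ≤ eulerΓ Γ + 2 := by
  have := finite_hom Γ
  refine ⟨inferInstance, ?_⟩
  have h := finrank_parabolicHoms_add_le Γ n hn
  unfold eulerΓ orbCount
  rw [Subgroup.index]
  omega

end Main

end Fermat.Agent.W1
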