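/-
W1 = [GRΓ1] (S48), package [ES1] (helper9): **Eichler–Shimura for `Γ = ±(Γ₁(M) ∩ Γ₀(M L))`**:
the instances making the generic files `ES1_helper9_{ParHom,Prim,Parabolic,Injective}`
applicable to `Gpm M L`, the level theorem (given the genus and `g ≤ dim S₂`), and the bridge
`CuspForm (Gamma1 M) 2 ≃ₗ[ℂ] CuspForm (Gpm M 1) 2`.
-/
import Mathlib
import Fermat.Agent.W1.ES1_helper9_Injective
import Fermat.Agent.W1.ES1_helper9_ParHom
import Fermat.Agent.W1.WEB4_helper9_Fun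

set_option autoImplicit false

namespace Fermat.Agent.W1

open CongruenceSubgroup ModularCurve ModularCurve.Period UpperHalfPlane ModularForm
open scoped MatrixGroups ModularForm Manifold

/-! ### instances for `Gpm M L` -/

instance fact_neg_one_mem_Gpm (M L : ℕ) : Fact ((-1 : SL(2, ℤ)) ∈ Gpm M L) :=
  ⟨neg_one_mem_Gpm M L⟩

theorem Gamma_le_Gpm (M L : ℕ) : Gamma (M * L) ≤ Gpm M L :=
  (Gamma_le_GammaML M L).trans (GammaML_le_Gpm M L)

theorem jConjSL_mem_Gamma1 {N : ℕ} {A : SL(2, ℤ)} (hA : A ∈ Gamma1 N) :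
    jConjSL A ∈ Gamma1 N := by
  rw [Gamma1_mem] at hA ⊢
  obtain ⟨h00, h11, h10⟩ := hA
  refine ⟨?_, ?_, ?_⟩
  · show ((((jConjSL A : SL(2, ℤ)) : Matrix (Fin 2) (Fin 2) ℤ) 0 0 : ℤ) : ZMod N) = 1
    rw [jConjSL_coe, jConjMat_apply_zero_zero]; exact h00
  · show ((((jConjSL A : SL(2, ℤ)) : Matrix (Fin 2) (Fin 2) ℤ) 1 1 : ℤ) : ZMod N) = 1
    rw [jConjSL_coe, jConjMat_apply_one_one]; exact h11
  · show ((((jConjSL A : SL(2, ℤ)) : Matrix (Fin 2) (Fin 2) ℤ) 1 0 : ℤ) : ZMod N) = 0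
    rw [jConjSL_coe, jConjMat_apply_one_zero]; push_cast; rw [h10, neg_zero]

theorem jConjSL_mem_GammaML {M L : ℕ} {A : SL(2, ℤ)} (hA : A ∈ GammaML M L) :
    jConjSL A ∈ GammaML M L := by
  rw [mem_GammaML] at hA ⊢
  exact ⟨jConjSL_mem_Gamma1 hA.1, jConjSL_mem_Gamma0 hA.2⟩

theorem jConjSL_neg (A : SL(2, ℤ)) : jConjSL (-A) = -jConjSL A := by
  apply Subtype.ext
  ext i j
  fin_cases i <;> fin_cases j <;> simp [jConjMat]

theorem jConjSL_mem_Gpm {M L : ℕ} {A : SL(2, ℤ)} (hA : A ∈ Gpm M L) :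
    jConjSL A ∈ Gpm M L := by
  rw [mem_Gpm] at hA ⊢
  rcases hA with h | h
  · exact Or.inl (jConjSL_mem_GammaML h)
  · right
    rw [← jConjSL_neg]
    exact jConjSL_mem_GammaML h

namespace ES

instance jStable_Gamma1 (N : ℕ) : JStable (Gamma1 N) := ⟨fun _ h => jConjSL_mem_Gamma1 h⟩

instance jStable_GammaML (M L : ℕ) : JStable (GammaML M L) :=
  ⟨fun _ h => jConjSL_mem_GammaML h⟩

instance jStable_Gpm (M L : ℕ) : JStable (Gpm M L) := ⟨fun _ h => jConjSL_mem_Gpm h⟩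

/-! ### the level theorem -/

variable (M L : ℕ) [NeZero (M * L)]

/-- `Hom_par(Γ, ℂ)` is finite dimensional for `Γ = Gpm M L`. -/
instance finite_parabolicHoms_Gpm : Module.Finite ℂ ↥(parabolicHoms ℂ (Gpm M L) ℂ) :=
  (parabolicHoms_finite_and_finrank_le (Gpm M L) (M * L) (Gamma_le_Gpm M L)).1

instance finite_cuspForm_Gpm : Module.Finite ℂ (CuspForm (Gpm M L) 2) :=
  finite_cuspForm (Γ := Gpm M L) (M * L) (Gamma_le_Gpm M L)

/-- `dim S₂(Γ) ≤ g` as soon as `2 g - 2 = μ - e₂ - e₃ - e_∞`. -/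
theorem finrank_cuspForm_Gpm_le {g : ℕ} (hg : IsGenusOf (Gpm M L) g) :
    Module.finrank ℂ (CuspForm (Gpm M L) 2) ≤ g := by
  have h1 := (parabolicHoms_finite_and_finrank_le (Gpm M L) (M * L) (Gamma_le_Gpm M L)).2
  have h2 := two_mul_finrank_cuspForm_le (Γ := Gpm M L) (M * L) (Gamma_le_Gpm M L)
  unfold IsGenusOf at hg
  omega

/-- **Eichler–Shimura at level `Gpm M L`** (`S20₁ + S21₁`), given the genus (from [DICT1]:
Riemann–Hurwitz) and `g ≤ dim S₂` (from [DICT1]: regular differentials are cusp forms). -/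
theorem eichlerShimura_Gpm {g : ℕ} (hg : IsGenusOf (Gpm M L) g)
    (hle : g ≤ Module.finrank ℂ (CuspForm (Gpm M L) 2)) :
    Module.finrank ℂ (CuspForm (Gpm M L) 2) = g
      ∧ Module.finrank ℂ ↥(parabolicHoms ℂ (Gpm M L) ℂ) = 2 * g
      ∧ Function.Injective (periodHomPairΓ (Gpm M L))
      ∧ LinearMap.range (periodHomPairΓ (Gpm M L)) = parabolicHoms ℂ (Gpm M L) ℂ := by
  have h0 : Module.finrank ℂ (CuspForm (Gpm M L) 2) = g :=
    le_antisymm (finrank_cuspForm_Gpm_le M L hg) hle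
  have h1 := (parabolicHoms_finite_and_finrank_le (Gpm M L) (M * L) (Gamma_le_Gpm M L)).2
  have h2 := two_mul_finrank_cuspForm_le (Γ := Gpm M L) (M * L) (Gamma_le_Gpm M L)
  have h3 : Module.finrank ℂ ↥(parabolicHoms ℂ (Gpm M L) ℂ) = 2 * g := by
    unfold IsGenusOf at hg
    omega
  obtain ⟨h4, h5⟩ := eichlerShimura_of_dims (Γ := Gpm M L) (M * L) (Gamma_le_Gpm M L) g h0
    (finite_parabolicHoms_Gpm M L) h3.le
  exact ⟨h0, h3, h4, h5⟩

/-- the Eichler–Shimura isomorphism `S₂(Γ) × S₂(Γ) ≃ Hom_par(Γ, ℂ)`. -/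
noncomputable def esEquivGpm {g : ℕ} (hg : IsGenusOf (Gpm M L) g)
    (hle : g ≤ Module.finrank ℂ (CuspForm (Gpm M L) 2)) :
    (CuspForm (Gpm M L) 2 × CuspForm (Gpm M L) 2) ≃ₗ[ℂ] ↥(parabolicHoms ℂ (Gpm M L) ℂ) :=
  (LinearEquiv.ofInjective (periodHomPairΓ (Gpm M L)) (eichlerShimura_Gpm M L hg hle).2.2.1).trans
    (LinearEquiv.ofEq _ _ (eichlerShimura_Gpm M L hg hle).2.2.2)

theorem coe_esEquivGpm {g : ℕ} (hg : IsGenusOf (Gpm M L) g)
    (hle : g ≤ Module.finrank ℂ (CuspForm (Gpm M L) 2)) (x : CuspForm (Gpm M L) 2 × CuspForm (Gpm M L) 2) :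
    ((esEquivGpm M L hg hle x : ↥(parabolicHoms ℂ (Gpm M L) ℂ)) : Additive ↥(Gpm M L) →+ ℂ)
      = periodHomPairΓ (Gpm M L) x := rfl

end ES

end Fermat.Agent.W1
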