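/-
W1 = [GRΓ1] (S48), package [ES1] (helper9): **the bridge `S_k(Γ) ≃ S_k(±Γ)` in even weight**,
in particular `CuspForm (Gamma1 M) 2 ≃ₗ[ℂ] CuspForm (Gpm M 1) 2`, and the consequences of the
level theorem for `Γ₁(M)`.
-/
import Mathlib
import Fermat.Agent.W1.ES1_helper9_Level

set_option autoImplicit false

namespace Fermat.Agent.W1.ES

open CongruenceSubgroup ModularCurve ModularCurve.Period UpperHalfPlane ModularForm
open scoped MatrixGroups ModularForm Manifold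

section generic

variable {Γ Γ' : Subgroup SL(2, ℤ)} [Γ.FiniteIndex] [Γ'.FiniteIndex]

theorem isCusp_iff_of_finiteIndex (c : OnePoint ℝ) :
    IsCusp c (Γ' : Subgroup (GL (Fin 2) ℝ)) ↔ IsCusp c (Γ : Subgroup (GL (Fin 2) ℝ)) := by
  rw [Subgroup.IsArithmetic.isCusp_iff_isCusp_SL2Z (Γ' : Subgroup (GL (Fin 2) ℝ)),
    Subgroup.IsArithmetic.isCusp_iff_isCusp_SL2Z (Γ : Subgroup (GL (Fin 2) ℝ))]

variable (hle : Γ ≤ Γ') (hpm : ∀ γ ∈ Γ', γ ∈ Γ ∨ -γ ∈ Γ) {k : ℤ} (hk : Even k)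

omit [Γ.FiniteIndex] [Γ'.FiniteIndex] in
include hpm hk in
theorem slash_eq_of_pm (f : CuspForm Γ k) (γ : GL (Fin 2) ℝ)
    (hγ : γ ∈ (Γ' : Subgroup (GL (Fin 2) ℝ))) : (f : ℍ → ℂ) ∣[k] γ = f := by
  obtain ⟨σ, hσ, rfl⟩ := hγ
  have hinv : ∀ τ ∈ Γ, (f : ℍ → ℂ) ∣[k] τ = f := fun τ hτ =>
    SlashInvariantForm.slash_action_eqn f _ ⟨τ, hτ, rfl⟩
  show (f : ℍ → ℂ) ∣[k] σ = f
  rcases hpm σ hσ with h | h
  · exact hinv σ h
  · have h2 : σ = (-1 : SL(2, ℤ)) * (-σ) := by rw [neg_mul, one_mul, neg_neg]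
    rw [h2, SlashAction.slash_mul, slash_neg_one_even hk, hinv _ h]

/-- extension from `Γ` to `±Γ` in even weight. -/
noncomputable def cuspFormExtend (f : CuspForm Γ k) : CuspForm Γ' k where
  toFun := f
  slash_action_eq' := slash_eq_of_pm hpm hk f
  holo' := f.holo'
  zero_at_cusps' := fun hc => f.zero_at_cusps' ((isCusp_iff_of_finiteIndex _).mp hc)

/-- restriction from `Γ'` to `Γ ≤ Γ'`. -/
noncomputable def cuspFormRestrict (f : CuspForm Γ' k) : CuspForm Γ k where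
  toFun := f
  slash_action_eq' := fun γ hγ => f.slash_action_eq' γ (Subgroup.map_mono hle hγ)
  holo' := f.holo'
  zero_at_cusps' := fun hc => f.zero_at_cusps' ((isCusp_iff_of_finiteIndex _).mp hc)

/-- **`S_k(Γ) ≃ S_k(±Γ)` for even `k`.** -/
noncomputable def cuspFormPmEquiv : CuspForm Γ k ≃ₗ[ℂ] CuspForm Γ' k where
  toFun := cuspFormExtend hpm hk
  invFun := cuspFormRestrict hle
  map_add' _ _ := rfl
  map_smul' _ _ := rfl
  left_inv _ := rfl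
  right_inv _ := rfl

@[simp] theorem coe_cuspFormPmEquiv (f : CuspForm Γ k) :
    ⇑(cuspFormPmEquiv hle hpm hk f) = (f : ℍ → ℂ) := rfl

@[simp] theorem coe_cuspFormPmEquiv_symm (f : CuspForm Γ' k) :
    ⇑((cuspFormPmEquiv hle hpm hk).symm f) = (f : ℍ → ℂ) := rfl

end generic

/-! ### `Γ₁(M)` versus `Gpm M 1` -/

theorem Gamma1_le_Gpm (M : ℕ) : Gamma1 M ≤ Gpm M 1 := by
  intro γ hγ
  refine GammaML_le_Gpm M 1 (mem_GammaML.mpr ⟨hγ, ?_⟩)
  rw [mul_one]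
  exact Gamma1_in_Gamma0 M hγ

theorem mem_Gamma1_or_neg_of_mem_Gpm (M : ℕ) (γ : SL(2, ℤ)) (hγ : γ ∈ Gpm M 1) :
    γ ∈ Gamma1 M ∨ -γ ∈ Gamma1 M := by
  rcases mem_Gpm.mp hγ with h | h
  · exact Or.inl (mem_GammaML.mp h).1
  · exact Or.inr (mem_GammaML.mp h).1

variable (M : ℕ) [NeZero M]

instance neZero_mul_one : NeZero (M * 1) := ⟨by rw [mul_one]; exact NeZero.ne M⟩

/-- **`S₂(Γ₁(M)) ≃ S₂(±Γ₁(M))`.** -/
noncomputable def cuspFormGpmEquiv : CuspForm (Gamma1 M) 2 ≃ₗ[ℂ] CuspForm (Gpm M 1) 2 :=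
  cuspFormPmEquiv (Gamma1_le_Gpm M) (mem_Gamma1_or_neg_of_mem_Gpm M) ⟨1, by norm_num⟩

@[simp] theorem coe_cuspFormGpmEquiv (f : CuspForm (Gamma1 M) 2) :
    ⇑(cuspFormGpmEquiv M f) = (f : ℍ → ℂ) := rfl

@[simp] theorem coe_cuspFormGpmEquiv_symm (f : CuspForm (Gpm M 1) 2) :
    ⇑((cuspFormGpmEquiv M).symm f) = (f : ℍ → ℂ) := rfl

instance finite_cuspForm_Gamma1 : Module.Finite ℂ (CuspForm (Gamma1 M) 2) :=
  Module.Finite.equiv (cuspFormGpmEquiv M).symm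

theorem finrank_cuspForm_Gamma1_eq :
    Module.finrank ℂ (CuspForm (Gamma1 M) 2) = Module.finrank ℂ (CuspForm (Gpm M 1) 2) :=
  (cuspFormGpmEquiv M).finrank_eq

theorem canonPrim_cuspFormGpmEquiv (f : CuspForm (Gamma1 M) 2) :
    canonPrim (cuspFormGpmEquiv M f) = canonPrim f :=
  eq_canonPrim f (canonPrim_isPrim (cuspFormGpmEquiv M f)) (canonPrim_tendsto _)

/-- the period map of a form on `Γ₁(M)` as a homomorphism on `±Γ₁(M)`. -/
theorem periodMap_cuspFormGpmEquiv (f : CuspForm (Gamma1 M) 2) (γ : Gamma1 M) :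
    periodMap (cuspFormGpmEquiv M f) (Additive.ofMul ⟨γ, Gamma1_le_Gpm M γ.2⟩)
      = periodMap f (Additive.ofMul γ) := by
  rw [periodMap_apply, periodMap_apply, canonPrim_cuspFormGpmEquiv]

/-- `dim S₂(Γ₁(M)) = g₁`. -/
theorem finrank_cuspForm_Gamma1_eq_genus {g : ℕ} (hg : IsGenusOf (Gpm M 1) g)
    (hle : g ≤ Module.finrank ℂ (CuspForm (Gpm M 1) 2)) :
    Module.finrank ℂ (CuspForm (Gamma1 M) 2) = g := by
  rw [finrank_cuspForm_Gamma1_eq]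
  exact (eichlerShimura_Gpm M 1 hg hle).1

end Fermat.Agent.W1.ES
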