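/-
W1 = [GRΓ1] (S48), package [HGRP1] (helper2), part 1 (generic port of `GR/HGRP_helper2_{Par,Period}`):
for ANY subgroup `Γ ≤ SL₂(ℤ)` and any Hecke datum `D` on `Γ` inside `GL₂(ℝ)`:

* the group-theoretic Hecke operator `D.heckeGrp` preserves the parabolic homomorphisms;
* it commutes with the involution `charInvolutionΓ` as soon as conjugation by `J = diag(-1, 1)`
  permutes the cosets of `D`;
* the period map of helper9's `[ES1]` intertwines `f ↦ ∑ᵢ f ∣[2] αᵢ` with `D.heckeGrp`.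
-/
import Mathlib
import Fermat.Agent.GR.HGRP_helper2_Period
import Fermat.Agent.W1.ES1_helper9_Parabolic

set_option autoImplicit false
set_option linter.unusedSectionVars false
set_option linter.unnecessarySeqFocus false

namespace Fermat.Agent.W1

open CongruenceSubgroup ModularForm Matrix ModularCurve.Period Filter Topology
open UpperHalfPlane hiding I
open scoped MatrixGroups
open Fermat.Agent.GR Fermat.Agent.S22 Fermat.Agent.W1.ES

/-- the embedding `Γ → GL₂(ℝ)` of a subgroup of `SL₂(ℤ)`. -/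
noncomputable def slEmb (Γ : Subgroup SL(2, ℤ)) : ↥Γ →* GL (Fin 2) ℝ :=
  (Matrix.SpecialLinearGroup.mapGL ℝ).comp Γ.subtype

theorem slEmb_apply (Γ : Subgroup SL(2, ℤ)) (γ : Γ) :
    slEmb Γ γ = ((γ : SL(2, ℤ)) : GL (Fin 2) ℝ) := rfl

theorem slEmb_injective (Γ : Subgroup SL(2, ℤ)) : Function.Injective (slEmb Γ) :=
  Matrix.SpecialLinearGroup.mapGL_injective.comp Subtype.val_injective

theorem trace_slEmb {Γ : Subgroup SL(2, ℤ)} (γ : Γ) :
    ((slEmb Γ γ : GL (Fin 2) ℝ) : Matrix (Fin 2) (Fin 2) ℝ).trace =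
      (((γ : SL(2, ℤ)) : Matrix (Fin 2) (Fin 2) ℤ).trace : ℝ) := by
  rw [slEmb_apply, val_mapGL_eq, Matrix.trace_fin_two, Matrix.trace_fin_two]
  simp

section Par

variable {Γ : Subgroup SL(2, ℤ)} {ι : Type*} [Fintype ι] (D : HeckeDatum ↥Γ (GL (Fin 2) ℝ) ι)

/-- **the Hecke operators preserve the parabolic homomorphisms** (any `Γ`, any coefficients). -/
theorem heckeGrp_mem_parabolicHoms (hD : D.e = slEmb Γ) (R : Type*) [Semiring R]
    {A : Type*} [AddCommGroup A] [Module R A] {ψ : Additive Γ →+ A}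
    (hψ : ψ ∈ parabolicHoms R Γ A) :
    D.heckeGrp A ψ ∈ parabolicHoms R Γ A := by
  rw [mem_parabolicHoms_iff] at hψ ⊢
  intro γ hγ
  apply D.heckeGrp_apply_eq_zero
  intro i m hm hi
  apply hψ
  have h1 := D.e_cocycle_of_perm_eq hi
  rw [hD] at h1
  have h2 : ((slEmb Γ (D.cocycle (γ ^ m) i) : GL (Fin 2) ℝ) : Matrix (Fin 2) (Fin 2) ℝ).trace =
      ((slEmb Γ (γ ^ m) : GL (Fin 2) ℝ) : Matrix (Fin 2) (Fin 2) ℝ).trace := by
    rw [h1, Units.val_mul, Units.val_mul]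
    exact Matrix.trace_units_conj (D.α i) _
  rw [trace_slEmb, trace_slEmb] at h2
  have h3 : (((D.cocycle (γ ^ m) i : Γ) : SL(2, ℤ)) : Matrix (Fin 2) (Fin 2) ℤ).trace =
      (((γ ^ m : Γ) : SL(2, ℤ)) : Matrix (Fin 2) (Fin 2) ℤ).trace := by
    exact_mod_cast h2
  rw [h3, SubgroupClass.coe_pow]
  exact trace_pow_sq_eq_four _ hγ m

/-- the Hecke operator on the parabolic homomorphisms, as an `R`-linear endomorphism. -/
noncomputable def heckePar (hD : D.e = slEmb Γ) (R : Type*) [Semiring R] (A : Type*)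
    [AddCommGroup A] [Module R A] :
    parabolicHoms R Γ A →ₗ[R] parabolicHoms R Γ A :=
  (D.heckeGrpₗ A R).restrict (fun _ hψ => heckeGrp_mem_parabolicHoms D hD R hψ)

@[simp] theorem coe_heckePar (hD : D.e = slEmb Γ) (R : Type*) [Semiring R] (A : Type*)
    [AddCommGroup A] [Module R A] (ψ : parabolicHoms R Γ A) :
    ((heckePar D hD R A ψ : parabolicHoms R Γ A) : Additive Γ →+ A) =
      D.heckeGrp A (ψ : Additive Γ →+ A) := rfl

end Par

section Invol

variable (Γ : Subgroup SL(2, ℤ)) [Γ.FiniteIndex] [JStable Γ]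

theorem conjJ_slEmb (γ : Γ) :
    UpperHalfPlane.J * slEmb Γ γ * (UpperHalfPlane.J)⁻¹ = slEmb Γ (jConjΓ Γ γ) := by
  rw [Fermat.Agent.GR.J_inv]
  apply Units.ext
  rw [Units.val_mul, Units.val_mul, slEmb_apply, slEmb_apply, val_mapGL_eq, val_mapGL_eq,
    val_conjJ_map]
  rfl

/-- the involution `γ ↦ J γ J⁻¹` of `Γ` as a group automorphism. -/
def jConjEquivΓ : Γ ≃* Γ where
  toFun := jConjΓ Γ
  invFun := jConjΓ Γ
  left_inv := jConjΓ_jConjΓ Γ
  right_inv := jConjΓ_jConjΓ Γ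
  map_mul' := map_mul (jConjΓ Γ)

theorem coe_jConjEquivΓ : ((jConjEquivΓ Γ : Γ ≃* Γ) : Γ →* Γ) = jConjΓ Γ := rfl

variable {Γ} {ι : Type*} [Fintype ι] (D : HeckeDatum ↥Γ (GL (Fin 2) ℝ) ι)

/-- **a Hecke operator commutes with the involution** as soon as conjugation by `J` permutes the
cosets of the datum. -/
theorem heckeGrp_charInvolutionΓ (hD : D.e = slEmb Γ)
    (hα : ∀ i, ∃ (j : ι) (δ : Γ),
      UpperHalfPlane.J * D.α i * (UpperHalfPlane.J)⁻¹ = slEmb Γ δ * D.α j)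
    (R : Type*) [Semiring R] {A : Type*} [AddCommGroup A] [Module R A] (ψ : Additive Γ →+ A) :
    D.heckeGrp A (charInvolutionΓ Γ R A ψ) = charInvolutionΓ Γ R A (D.heckeGrp A ψ) := by
  have h := D.heckeGrp_comp_mulEquiv D (jConjEquivΓ Γ) (MulAut.conj UpperHalfPlane.J).toMonoidHom
    (MulAut.conj UpperHalfPlane.J).injective
    (fun γ => by
      rw [hD]
      exact conjJ_slEmb Γ γ)
    (fun i => by
      obtain ⟨j, δ, h⟩ := hα i
      refine ⟨j, δ, ?_⟩
      rw [hD]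
      exact h) ψ
  exact h.symm

end Invol

/-! ### the period map -/

section Period

variable {Γ : Subgroup SL(2, ℤ)} [Γ.FiniteIndex] {ι : Type*} [Fintype ι]
  (D : HeckeDatum ↥Γ (GL (Fin 2) ℝ) ι)

/-- `∑ᵢ F ∘ αᵢ` is a primitive of `∑ᵢ f ∣[2] αᵢ` (`F` the canonical primitive of `f`). -/
theorem isPrim_sum_canonPrim (hdet : ∀ i, 0 < (D.α i).val.det)
    (f g : CuspForm Γ 2) (hg : ∀ τ, g τ = ∑ i, (⇑f ∣[(2 : ℤ)] D.α i) τ) :
    IsPrim (fun τ => ∑ i, canonPrim f (D.α i • τ)) ⇑g := by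
  have h1 : ∀ i ∈ (Finset.univ : Finset ι), IsPrim (fun τ => canonPrim f (D.α i • τ))
      (fun τ => (⇑f ∣[(2 : ℤ)] D.α i) τ) := by
    intro i _
    refine ((canonPrim_isPrim f).comp_smul (hdet i)).congr fun τ => ?_
    rw [slash_two_apply_of_det_pos _ (hdet i)]
  have h2 := IsPrim.sum Finset.univ h1
  exact h2.congr fun τ => (hg τ).symm

/-- the canonical primitive of `∑ᵢ f ∣[2] αᵢ` is `∑ᵢ F ∘ αᵢ` if the `αᵢ` fix `i∞`. -/
theorem canonPrim_eq_sum (hdet : ∀ i, 0 < (D.α i).val.det)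
    (htend : ∀ i, Tendsto (fun τ : ℍ => D.α i • τ) atImInfty atImInfty)
    (f g : CuspForm Γ 2) (hg : ∀ τ, g τ = ∑ i, (⇑f ∣[(2 : ℤ)] D.α i) τ) :
    canonPrim g = fun τ => ∑ i, canonPrim f (D.α i • τ) := by
  symm
  apply eq_canonPrim
  · exact isPrim_sum_canonPrim D hdet f g hg
  · have h1 : ∀ i ∈ (Finset.univ : Finset ι),
        Tendsto (fun τ => canonPrim f (D.α i • τ)) atImInfty (𝓝 0) :=
      fun i _ => (canonPrim_tendsto f).comp (htend i)
    have h2 := tendsto_finsetSum Finset.univ h1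
    simpa using h2

/-- **compatibility of the period map with Hecke operators** (general form, any `Γ`; the
representatives need not fix the cusp `i∞`). -/
theorem periodMap_eq_heckeGrp (hD : D.e = slEmb Γ) (hdet : ∀ i, 0 < (D.α i).val.det)
    (f g : CuspForm Γ 2) (hg : ∀ τ, g τ = ∑ i, (⇑f ∣[(2 : ℤ)] D.α i) τ) :
    periodMap g = D.heckeGrp ℂ (periodMap f) := by
  refine AddMonoidHom.ext fun γ => ?_
  obtain ⟨γ, rfl⟩ := Additive.ofMul.surjective γ
  obtain ⟨c, hc⟩ := (isPrim_sum_canonPrim D hdet f g hg).exists_eq_add_const (canonPrim_isPrim g)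
  have hG : ∀ τ, canonPrim g τ = (∑ i, canonPrim f (D.α i • τ)) - c := fun τ => by
    have := hc τ
    rw [this]
    ring
  rw [periodMap_apply g γ, hG, hG, HeckeDatum.heckeGrp_apply]
  have h1 : ∀ i, canonPrim f (D.α i • ((γ : SL(2, ℤ)) • UpperHalfPlane.I)) =
      canonPrim f (D.α (D.perm γ i) • UpperHalfPlane.I) +
        periodMap f (Additive.ofMul (D.cocycle γ i)) := by
    intro i
    have h2 : D.α i • ((γ : SL(2, ℤ)) • UpperHalfPlane.I) =
        ((D.cocycle γ i : Γ) : SL(2, ℤ)) • (D.α (D.perm γ i) • UpperHalfPlane.I) := by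
      have h3 := D.spec γ i
      rw [hD] at h3
      show D.α i • (slEmb Γ γ • UpperHalfPlane.I) =
        slEmb Γ (D.cocycle γ i) • (D.α (D.perm γ i) • UpperHalfPlane.I)
      rw [← mul_smul, ← mul_smul, h3]
    rw [h2, periodMap_apply' f (D.cocycle γ i) (D.α (D.perm γ i) • UpperHalfPlane.I)]
    ring
  rw [Finset.sum_congr rfl fun i _ => h1 i, Finset.sum_add_distrib]
  have h4 : ∑ i, canonPrim f (D.α (D.perm γ i) • UpperHalfPlane.I) =
      ∑ i, canonPrim f (D.α i • UpperHalfPlane.I) :=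
    Equiv.sum_comp (D.permEquiv γ) (fun i => canonPrim f (D.α i • UpperHalfPlane.I))
  rw [h4]
  ring

end Period

end Fermat.Agent.W1
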