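/-
W1 = [GRΓ1] (S48), package [HGRP1] (helper2), part 2: **the Hecke data of `Γ = ±Γ₁(M) = Gpm M 1`**.

* `IntReps M p ι`: a system of integral representatives `rZ : ι → M₂(ℤ)` of `Γ₁(M) \ Δ`,
  `Δ = DeltaInt M p` (lead's `[HECKE1]`: determinant `p`, `≡ (1 *; 0 *) mod M`), with its image
  `r : ι → GL₂(ℝ)`; every such system gives a Hecke datum `IntReps.datum` of `Gpm M 1`;
* `heckeDatumT M ℓ hℓ hℓM` (`ℓ ∤ M`): the cosets `Γ (1 b; 0 ℓ)` (`b < ℓ`) and `Γ σ_ℓ (ℓ 0; 0 1)`,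
  with lead's representatives `DS48.heckeRep ℓ (sigmaOf M ℓ)`;
* `heckeDatumU M ℓ hℓ hℓM` (`ℓ ∣ M`): the cosets `Γ (1 b; 0 ℓ)` (`b < ℓ`).
-/
import Mathlib
import Fermat.Agent.W1.HGRP1_helper2_Generic
import Fermat.Agent.W1.ES1_helper9_Bridge
import Fermat.Agent.DS48.HECKE1_lead_Comm

set_option autoImplicit false
set_option linter.unusedSectionVars false
set_option linter.unnecessarySeqFocus false

namespace Fermat.Agent.W1

open CongruenceSubgroup ModularForm Matrix ModularCurve.Period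
open scoped MatrixGroups
open Fermat.Agent.GR Fermat.Agent.W1.ES

/-- the embedding `±Γ₁(M) → GL₂(ℝ)`. -/
noncomputable def gammaEmb (M : ℕ) : ↥(Gpm M 1) →* GL (Fin 2) ℝ := slEmb (Gpm M 1)

theorem gammaEmb_apply (M : ℕ) (γ : Gpm M 1) :
    gammaEmb M γ = ((γ : SL(2, ℤ)) : GL (Fin 2) ℝ) := rfl

theorem gammaEmb_injective (M : ℕ) : Function.Injective (gammaEmb M) := slEmb_injective _

theorem val_gammaEmb (M : ℕ) (γ : Gpm M 1) :
    ((gammaEmb M γ : GL (Fin 2) ℝ) : Matrix (Fin 2) (Fin 2) ℝ) =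
      ((γ : SL(2, ℤ)) : Matrix (Fin 2) (Fin 2) ℤ).map (Int.castRingHom ℝ) :=
  val_mapGL_eq _

/-! ### integer matrices -/

/-- an identity in `GL₂(ℝ)` between matrices with integral entries is an identity of integral
matrices. -/
theorem gl_mul_eq_iff_int {a b c d : GL (Fin 2) ℝ} {A B C D : Matrix (Fin 2) (Fin 2) ℤ}
    (ha : (a : Matrix (Fin 2) (Fin 2) ℝ) = A.map (Int.castRingHom ℝ))
    (hb : (b : Matrix (Fin 2) (Fin 2) ℝ) = B.map (Int.castRingHom ℝ))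
    (hc : (c : Matrix (Fin 2) (Fin 2) ℝ) = C.map (Int.castRingHom ℝ))
    (hd : (d : Matrix (Fin 2) (Fin 2) ℝ) = D.map (Int.castRingHom ℝ)) :
    a * b = c * d ↔ A * B = C * D := by
  rw [← Units.val_inj, Units.val_mul, Units.val_mul, ha, hb, hc, hd, ← Matrix.map_mul,
    ← Matrix.map_mul]
  exact (Matrix.map_injective (Int.castRingHom ℝ).injective_int).eq_iff

theorem gl_eq_mul_iff_int {a c d : GL (Fin 2) ℝ} {A C D : Matrix (Fin 2) (Fin 2) ℤ}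
    (ha : (a : Matrix (Fin 2) (Fin 2) ℝ) = A.map (Int.castRingHom ℝ))
    (hc : (c : Matrix (Fin 2) (Fin 2) ℝ) = C.map (Int.castRingHom ℝ))
    (hd : (d : Matrix (Fin 2) (Fin 2) ℝ) = D.map (Int.castRingHom ℝ)) :
    a = c * d ↔ A = C * D := by
  rw [← Units.val_inj, Units.val_mul, ha, hc, hd, ← Matrix.map_mul]
  exact (Matrix.map_injective (Int.castRingHom ℝ).injective_int).eq_iff

/-- (E1'), without any hypothesis on `p` and `N`: a matrix of `Δ` whose first column is not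
divisible by `p` is `g (1 j; 0 p)` with `g ∈ Γ₁(N)`. -/
theorem exists_repJ_mul {N p : ℕ} (hp : p.Prime)
    {A : Matrix (Fin 2) (Fin 2) ℤ} (hA : A ∈ DS48.DeltaInt N p)
    (h : ¬ ((p : ℤ) ∣ A 0 0 ∧ (p : ℤ) ∣ A 1 0)) :
    ∃ j < p, ∃ g : SL(2, ℤ), g ∈ Gamma1 N ∧ A = g.1 * DS48.repJ p j := by
  have : Fact p.Prime := ⟨hp⟩
  obtain ⟨hdet, h10, h00⟩ := hA
  rw [Matrix.det_fin_two] at hdet
  obtain ⟨j, hj, hj1, hj2⟩ : ∃ j : ℕ, j < p ∧ (p : ℤ) ∣ A 0 1 - j * A 0 0 ∧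
      (p : ℤ) ∣ A 1 1 - j * A 1 0 := by
    have hdetp : ((A 0 0 : ℤ) : ZMod p) * (A 1 1 : ℤ) - (A 0 1 : ℤ) * (A 1 0 : ℤ) = 0 := by
      have := congrArg (fun x : ℤ => (x : ZMod p)) hdet
      simpa using this
    by_cases h0 : (p : ℤ) ∣ A 0 0
    · have h1 : ¬ (p : ℤ) ∣ A 1 0 := fun h1 => h ⟨h0, h1⟩
      have h0' : ((A 0 0 : ℤ) : ZMod p) = 0 := (ZMod.intCast_zmod_eq_zero_iff_dvd _ _).mpr h0
      have h1' : ((A 1 0 : ℤ) : ZMod p) ≠ 0 := fun hh =>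
        h1 ((ZMod.intCast_zmod_eq_zero_iff_dvd _ _).mp hh)
      set t : ZMod p := (A 1 1 : ℤ) / (A 1 0 : ℤ) with ht
      refine ⟨t.val, ZMod.val_lt t, ?_, ?_⟩
      · rw [← ZMod.intCast_zmod_eq_zero_iff_dvd]
        push_cast
        rw [ZMod.natCast_zmod_val, h0', mul_zero, sub_zero]
        rw [h0', zero_mul, zero_sub, neg_eq_zero] at hdetp
        exact (mul_eq_zero.mp hdetp).resolve_right h1'
      · rw [← ZMod.intCast_zmod_eq_zero_iff_dvd]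
        push_cast
        rw [ZMod.natCast_zmod_val, ht, div_mul_cancel₀ _ h1', sub_self]
    · have h0' : ((A 0 0 : ℤ) : ZMod p) ≠ 0 := fun hh =>
        h0 ((ZMod.intCast_zmod_eq_zero_iff_dvd _ _).mp hh)
      set t : ZMod p := (A 0 1 : ℤ) / (A 0 0 : ℤ) with ht
      refine ⟨t.val, ZMod.val_lt t, ?_, ?_⟩
      · rw [← ZMod.intCast_zmod_eq_zero_iff_dvd]
        push_cast
        rw [ZMod.natCast_zmod_val, ht, div_mul_cancel₀ _ h0', sub_self]
      · rw [← ZMod.intCast_zmod_eq_zero_iff_dvd]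
        push_cast
        rw [ZMod.natCast_zmod_val, ht]
        have : ((A 0 0 : ℤ) : ZMod p) *
            ((A 1 1 : ℤ) - (A 0 1 : ℤ) / (A 0 0 : ℤ) * (A 1 0 : ℤ)) = 0 := by
          field_simp
          linear_combination hdetp
        exact (mul_eq_zero.mp this).resolve_left h0'
  obtain ⟨b, hb⟩ := hj1
  obtain ⟨d, hd⟩ := hj2
  have hpne : (p : ℤ) ≠ 0 := by exact_mod_cast hp.ne_zero
  have hdetg : A 0 0 * d - b * A 1 0 = 1 := by
    apply mul_left_cancel₀ hpne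
    have e1 : A 0 1 = p * b + j * A 0 0 := by linarith
    have e2 : A 1 1 = p * d + j * A 1 0 := by linarith
    rw [e1, e2] at hdet
    linear_combination hdet
  refine ⟨j, hj, ⟨!![A 0 0, b; A 1 0, d], by rw [Matrix.det_fin_two_of]; exact hdetg⟩, ?_, ?_⟩
  · refine (Gamma1_mem N _).mpr ⟨by simpa using h00, ?_, by simpa using h10⟩
    show (((!![A 0 0, b; A 1 0, d] : Matrix (Fin 2) (Fin 2) ℤ) 1 1 : ℤ) : ZMod N) = 1
    simp only [Fin.isValue, Matrix.of_apply, Matrix.cons_val',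
      Matrix.cons_val_one, Matrix.cons_val_fin_one]
    have := congrArg (fun x : ℤ => (x : ZMod N)) hdetg
    simp only [Int.cast_sub, Int.cast_mul, h00, h10, mul_zero, sub_zero, one_mul,
      Int.cast_one] at this
    exact this
  · ext i k
    fin_cases i <;> fin_cases k
    · simp [DS48.repJ, Matrix.mul_apply, Fin.sum_univ_two]
    · simp [DS48.repJ, Matrix.mul_apply, Fin.sum_univ_two]; linarith
    · simp [DS48.repJ, Matrix.mul_apply, Fin.sum_univ_two]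
    · simp [DS48.repJ, Matrix.mul_apply, Fin.sum_univ_two]; linarith

theorem DeltaInt_neg_mul_mem {N p : ℕ} {A : Matrix (Fin 2) (Fin 2) ℤ} (hA : A ∈ DS48.DeltaInt N p)
    {g : SL(2, ℤ)} (hg : -g ∈ Gamma1 N) : -(A * g.1) ∈ DS48.DeltaInt N p := by
  have := DS48.DeltaInt.mul_mem hA hg
  rwa [Matrix.SpecialLinearGroup.coe_neg, Matrix.mul_neg] at this

/-- `jConjMat` preserves `Δ`. -/
theorem DeltaInt_jConjMat_mem {N p : ℕ} {A : Matrix (Fin 2) (Fin 2) ℤ}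
    (hA : A ∈ DS48.DeltaInt N p) : jConjMat A ∈ DS48.DeltaInt N p := by
  obtain ⟨hdet, h10, h00⟩ := hA
  refine ⟨by rw [jConjMat_det, hdet], ?_, ?_⟩
  · rw [jConjMat_apply_one_zero]
    push_cast
    rw [h10, neg_zero]
  · rw [jConjMat_apply_zero_zero, h00]

/-- conjugation by `σ ∈ Γ₀(N)` preserves `Δ` (in the form `σ A σ⁻¹`). -/
theorem DeltaInt_conj_mem {N p : ℕ} {A : Matrix (Fin 2) (Fin 2) ℤ} (hA : A ∈ DS48.DeltaInt N p)
    {σ : SL(2, ℤ)} (hσ : σ ∈ Gamma0 N) : σ.1 * A * (σ⁻¹).1 ∈ DS48.DeltaInt N p := by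
  have h := DS48.DeltaInt.conj_mem hA ((Gamma0 N).inv_mem hσ)
  rwa [inv_inv] at h

/-! ### systems of representatives -/

/-- a system of integral representatives of `Γ₁(M) \ Δ`, `Δ = DeltaInt M p`. -/
structure IntReps (M p : ℕ) (ι : Type*) where
  /-- the representatives in `GL₂(ℝ)` -/
  r : ι → GL (Fin 2) ℝ
  /-- the integral matrices of the representatives -/
  rZ : ι → Matrix (Fin 2) (Fin 2) ℤ
  val_r : ∀ i, ((r i : GL (Fin 2) ℝ) : Matrix (Fin 2) (Fin 2) ℝ) =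
    (rZ i).map (Int.castRingHom ℝ)
  mem : ∀ i, rZ i ∈ DS48.DeltaInt M p
  ex : ∀ A ∈ DS48.DeltaInt M p, ∃ i, ∃ g : SL(2, ℤ), g ∈ Gamma1 M ∧ A = g.1 * rZ i
  uniq : ∀ (i j : ι) (g : SL(2, ℤ)), rZ i = g.1 * rZ j → i = j

namespace IntReps

variable {M p : ℕ} {ι : Type*} (S : IntReps M p ι)

/-- every integral matrix in `± Δ · Γ` is in one of the cosets. -/
theorem exists_mul_eq {A : Matrix (Fin 2) (Fin 2) ℤ} (hA : A ∈ DS48.DeltaInt M p)
    (γ : Gpm M 1) :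
    ∃ (j : ι) (δ : Gpm M 1), A * ((γ : SL(2, ℤ)) : Matrix (Fin 2) (Fin 2) ℤ) =
      ((δ : SL(2, ℤ)) : Matrix (Fin 2) (Fin 2) ℤ) * S.rZ j := by
  rcases mem_Gamma1_or_neg_of_mem_Gpm M γ γ.2 with h | h
  · obtain ⟨j, g, hg, hAg⟩ := S.ex _ (DS48.DeltaInt.mul_mem hA h)
    exact ⟨j, ⟨g, Gamma1_le_Gpm M hg⟩, hAg⟩
  · obtain ⟨j, g, hg, hAg⟩ := S.ex _ (DeltaInt_neg_mul_mem hA h)
    refine ⟨j, ⟨-g, neg_mem_Gpm (Gamma1_le_Gpm M hg)⟩, ?_⟩
    show A * ((γ : SL(2, ℤ)) : Matrix (Fin 2) (Fin 2) ℤ) =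
      ((-g : SL(2, ℤ)) : Matrix (Fin 2) (Fin 2) ℤ) * S.rZ j
    rw [Matrix.SpecialLinearGroup.coe_neg, Matrix.neg_mul, ← hAg, neg_neg]

/-- an element of `GL₂(ℝ)` with integral matrix in `Δ` lies in one of the cosets. -/
theorem exists_eq_of_mem {x : GL (Fin 2) ℝ} {A : Matrix (Fin 2) (Fin 2) ℤ}
    (hx : (x : Matrix (Fin 2) (Fin 2) ℝ) = A.map (Int.castRingHom ℝ))
    (hA : A ∈ DS48.DeltaInt M p) :
    ∃ (j : ι) (δ : Gpm M 1), x = gammaEmb M δ * S.r j := by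
  obtain ⟨j, δ, h⟩ := S.exists_mul_eq hA 1
  refine ⟨j, δ, (gl_eq_mul_iff_int hx (val_gammaEmb M δ) (S.val_r j)).mpr ?_⟩
  rw [← h, OneMemClass.coe_one, Matrix.SpecialLinearGroup.coe_one, mul_one]

/-- **the Hecke datum of `±Γ₁(M)` attached to a system of representatives.** -/
noncomputable def datum : HeckeDatum ↥(Gpm M 1) (GL (Fin 2) ℝ) ι where
  e := gammaEmb M
  e_inj := gammaEmb_injective M
  α := S.r
  exists_eq γ i := by
    obtain ⟨j, δ, h⟩ := S.exists_mul_eq (S.mem i) γ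
    exact ⟨j, δ, (gl_mul_eq_iff_int (S.val_r i) (val_gammaEmb M γ) (val_gammaEmb M δ)
      (S.val_r j)).mpr h⟩
  index_eq i j γ' h :=
    S.uniq i j γ' ((gl_eq_mul_iff_int (S.val_r i) (val_gammaEmb M γ') (S.val_r j)).mp h)

@[simp] theorem datum_e : S.datum.e = gammaEmb M := rfl

@[simp] theorem datum_α (i : ι) : S.datum.α i = S.r i := rfl

theorem datum_e_eq_slEmb : S.datum.e = slEmb (Gpm M 1) := rfl

theorem datum_e_apply (γ : Gpm M 1) :
    S.datum.e γ = ((γ : SL(2, ℤ)) : GL (Fin 2) ℝ) := rfl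

theorem det_r_pos (hp : 0 < p) (i : ι) : 0 < (S.r i).val.det := by
  rw [S.val_r i]
  have h := (S.mem i).1
  have h2 : ((S.rZ i).map (Int.castRingHom ℝ)).det = (((S.rZ i).det : ℤ) : ℝ) := by
    rw [Matrix.det_fin_two, Matrix.det_fin_two]
    simp
  rw [h2, h]
  exact_mod_cast hp

end IntReps

end Fermat.Agent.W1
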