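/-
W1 = [GRΓ1] (S48), package [HGRP1] (helper2), part 3: **the Hecke data `T_ℓ` (`ℓ ∤ M`),
`U_ℓ` (`ℓ ∣ M`) and the diamond data `⟨d⟩` of `Γ = ±Γ₁(M) = Gpm M 1`**, and their
group-theoretic operators on `Hom(Γ, A)`: they preserve the parabolic homomorphisms, commute
with the involution `charInvolutionΓ`, and the diamonds commute with `T_ℓ`, `U_ℓ`.
-/
import Mathlib
import Fermat.Agent.W1.HGRP1_helper2_Gamma1

set_option autoImplicit false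
set_option linter.unusedSectionVars false
set_option linter.unnecessarySeqFocus false

namespace Fermat.Agent.W1

open CongruenceSubgroup ModularForm Matrix ModularCurve.Period
open scoped MatrixGroups
open Fermat.Agent.GR Fermat.Agent.W1.ES

/-! ### the systems of representatives -/

section Reps

variable (M : ℕ) [NeZero M] {ℓ : ℕ}

/-- lead's `σ_ℓ ∈ Γ₀(M)` with lower right entry `≡ ℓ`. -/
noncomputable def sigmaP (hℓ : ℓ.Prime) (hℓM : ¬ ℓ ∣ M) : SL(2, ℤ) :=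
  DS48.sigmaOf M (DS48.primeUnit M hℓ hℓM)

theorem sigmaP_mem (hℓ : ℓ.Prime) (hℓM : ¬ ℓ ∣ M) : sigmaP M hℓ hℓM ∈ Gamma0 M :=
  DS48.sigmaOf_mem _

theorem sigmaP_lowerRight (hℓ : ℓ.Prime) (hℓM : ¬ ℓ ∣ M) :
    (((sigmaP M hℓ hℓM) 1 1 : ℤ) : ZMod M) = (ℓ : ZMod M) :=
  DS48.sigmaOf_primeUnit_lowerRight hℓ hℓM

theorem isUnit_of_not_dvd (hℓ : ℓ.Prime) (hℓM : ¬ ℓ ∣ M) : IsUnit (ℓ : ZMod M) := by
  rw [ZMod.isUnit_iff_coprime]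
  exact (Nat.Prime.coprime_iff_not_dvd hℓ).mpr hℓM

/-- the representatives of `T_ℓ`, `ℓ ∤ M`. -/
noncomputable def intRepsT (hℓ : ℓ.Prime) (hℓM : ¬ ℓ ∣ M) : IntReps M ℓ (Option (Fin ℓ)) where
  r := DS48.heckeRep ℓ (sigmaP M hℓ hℓM)
  rZ := DS48.heckeRepInt ℓ (sigmaP M hℓ hℓM)
  val_r i := DS48.heckeRep_val_int hℓ.ne_zero _ i
  mem i := DS48.heckeRepInt_mem (sigmaP_mem M hℓ hℓM) (sigmaP_lowerRight M hℓ hℓM) i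
  ex A hA := by
    by_cases h : (ℓ : ℤ) ∣ A 0 0 ∧ (ℓ : ℤ) ∣ A 1 0
    · obtain ⟨g, hg, hAg⟩ := DS48.exists_repD_of_dvd hℓ (isUnit_of_not_dvd M hℓ hℓM) hA h
        (sigmaP_mem M hℓ hℓM) (sigmaP_lowerRight M hℓ hℓM)
      refine ⟨none, g, hg, ?_⟩
      rw [hAg, Matrix.mul_assoc]
      rfl
    · obtain ⟨j, hj, g, hg, hAg⟩ := exists_repJ_mul hℓ hA h
      exact ⟨some ⟨j, hj⟩, g, hg, hAg⟩
  uniq i j g hg := by
    cases i with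
    | some a =>
      cases j with
      | some b =>
        have := DS48.repJ_unique a.2 b.2 (g := g) hg
        exact congrArg some (Fin.ext this)
      | none =>
        have hg' : DS48.repJ ℓ a = g.1 * (sigmaP M hℓ hℓM).1 * DS48.repD ℓ := by
          rw [Matrix.mul_assoc]; exact hg
        exact (DS48.repJ_ne_repD hℓ hg').elim
    | none =>
      cases j with
      | some b => exact (DS48.repD_ne_repJ hℓ (g := g) (σ := sigmaP M hℓ hℓM) hg).elim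
      | none => rfl

omit [NeZero M] in
theorem not_dvd_of_mem_DeltaInt (hℓ : ℓ.Prime) (hℓM : ℓ ∣ M) {A : Matrix (Fin 2) (Fin 2) ℤ}
    (hA : A ∈ DS48.DeltaInt M ℓ) : ¬ ((ℓ : ℤ) ∣ A 0 0 ∧ (ℓ : ℤ) ∣ A 1 0) := by
  rintro ⟨h0, -⟩
  obtain ⟨-, -, h00⟩ := hA
  have h1 : ((A 0 0 : ℤ) : ZMod ℓ) = 1 := by
    have := congrArg (ZMod.castHom hℓM (ZMod ℓ)) h00
    rwa [map_intCast, map_one] at this
  have h2 : ((A 0 0 : ℤ) : ZMod ℓ) = 0 := (ZMod.intCast_zmod_eq_zero_iff_dvd _ _).mpr h0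
  rw [h2] at h1
  haveI : Fact ℓ.Prime := ⟨hℓ⟩
  exact zero_ne_one h1

omit [NeZero M] in
/-- the representatives of `U_ℓ`, `ℓ ∣ M`. -/
noncomputable def intRepsU (hℓ : ℓ.Prime) (hℓM : ℓ ∣ M) : IntReps M ℓ (Fin ℓ) where
  r b := heckeMatrix ℓ (b : ℕ)
  rZ b := DS48.repJ ℓ (b : ℕ)
  val_r b := DS48.heckeMatrix_val_eq hℓ.ne_zero _
  mem b := DS48.repJ_mem M ℓ _
  ex A hA := by
    obtain ⟨j, hj, g, hg, hAg⟩ := exists_repJ_mul hℓ hA (not_dvd_of_mem_DeltaInt M hℓ hℓM hA)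
    exact ⟨⟨j, hj⟩, g, hg, hAg⟩
  uniq a b g hg := Fin.ext (DS48.repJ_unique a.2 b.2 (g := g) hg)

/-- **the Hecke datum of `T_ℓ`** (`ℓ ∤ M`) for `±Γ₁(M)`: the `ℓ + 1` cosets
`Γ (1 b; 0 ℓ)`, `Γ σ_ℓ (ℓ 0; 0 1)`. -/
noncomputable def heckeDatumT (ℓ : ℕ) (hℓ : ℓ.Prime) (hℓM : ¬ ℓ ∣ M) :
    HeckeDatum ↥(Gpm M 1) (GL (Fin 2) ℝ) (Option (Fin ℓ)) :=
  (intRepsT M hℓ hℓM).datum

omit [NeZero M] in
/-- **the Hecke datum of `U_ℓ`** (`ℓ ∣ M`) for `±Γ₁(M)`: the `ℓ` cosets `Γ (1 b; 0 ℓ)`. -/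
noncomputable def heckeDatumU (ℓ : ℕ) (hℓ : ℓ.Prime) (hℓM : ℓ ∣ M) :
    HeckeDatum ↥(Gpm M 1) (GL (Fin 2) ℝ) (Fin ℓ) :=
  (intRepsU M hℓ hℓM).datum

@[simp] theorem heckeDatumT_e (hℓ : ℓ.Prime) (hℓM : ¬ ℓ ∣ M) :
    (heckeDatumT M ℓ hℓ hℓM).e = gammaEmb M := rfl

theorem heckeDatumT_α (hℓ : ℓ.Prime) (hℓM : ¬ ℓ ∣ M) (i : Option (Fin ℓ)) :
    (heckeDatumT M ℓ hℓ hℓM).α i = DS48.heckeRep ℓ (sigmaP M hℓ hℓM) i := rfl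

@[simp] theorem heckeDatumT_α_none (hℓ : ℓ.Prime) (hℓM : ¬ ℓ ∣ M) :
    (heckeDatumT M ℓ hℓ hℓM).α none =
      ((sigmaP M hℓ hℓM : SL(2, ℤ)) : GL (Fin 2) ℝ) * heckeDiagMatrix ℓ := rfl

@[simp] theorem heckeDatumT_α_some (hℓ : ℓ.Prime) (hℓM : ¬ ℓ ∣ M) (b : Fin ℓ) :
    (heckeDatumT M ℓ hℓ hℓM).α (some b) = heckeMatrix ℓ (b : ℕ) := rfl

omit [NeZero M] in
@[simp] theorem heckeDatumU_e (hℓ : ℓ.Prime) (hℓM : ℓ ∣ M) :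
    (heckeDatumU M ℓ hℓ hℓM).e = gammaEmb M := rfl

omit [NeZero M] in
@[simp] theorem heckeDatumU_α (hℓ : ℓ.Prime) (hℓM : ℓ ∣ M) (b : Fin ℓ) :
    (heckeDatumU M ℓ hℓ hℓM).α b = heckeMatrix ℓ (b : ℕ) := rfl

theorem det_heckeDatumT_pos (hℓ : ℓ.Prime) (hℓM : ¬ ℓ ∣ M) (i : Option (Fin ℓ)) :
    0 < ((heckeDatumT M ℓ hℓ hℓM).α i).val.det :=
  (intRepsT M hℓ hℓM).det_r_pos hℓ.pos i

omit [NeZero M] in
theorem det_heckeDatumU_pos (hℓ : ℓ.Prime) (hℓM : ℓ ∣ M) (b : Fin ℓ) :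
    0 < ((heckeDatumU M ℓ hℓ hℓM).α b).val.det :=
  (intRepsU M hℓ hℓM).det_r_pos hℓ.pos b

end Reps

end Fermat.Agent.W1
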