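/-
W1 = [GRΓ1] (S48), package [HGRP1] (helper2), part 4: the group-theoretic operators of
`Γ = ±Γ₁(M) = Gpm M 1` on `Hom(Γ, A)`:

* for every system of representatives `S : IntReps M p ι` the operator `S.datum.heckeGrp A`
  preserves the parabolic homomorphisms, commutes with the involution `charInvolutionΓ` and with
  `ψ ↦ ψ ∘ (γ ↦ σ γ σ⁻¹)` for every `σ ∈ Γ₀(M)`;
* the diamond operators `diamondGrp M d A` (`d : (ZMod M)ˣ`; `ψ ↦ ψ ∘ (γ ↦ σ_d γ σ_d⁻¹)`, in lead's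
  convention `σ_d ∈ Γ₀(M)` with lower right entry `≡ d`).
-/
import Mathlib
import Fermat.Agent.W1.HGRP1_helper2_Data

set_option autoImplicit false
set_option linter.unusedSectionVars false
set_option linter.unnecessarySeqFocus false

namespace Fermat.Agent.W1

open CongruenceSubgroup ModularForm Matrix ModularCurve.Period
open scoped MatrixGroups
open Fermat.Agent.GR Fermat.Agent.W1.ES

/-! ### conjugation by `Γ₀(M)` -/

section Conj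

variable (M : ℕ)

theorem conj_mem_Gpm {σ : SL(2, ℤ)} (hσ : σ ∈ Gamma0 M) {γ : SL(2, ℤ)} (hγ : γ ∈ Gpm M 1) :
    σ * γ * σ⁻¹ ∈ Gpm M 1 := by
  rcases mem_Gamma1_or_neg_of_mem_Gpm M γ hγ with h | h
  · exact Gamma1_le_Gpm M (DS48.conj_mem_Gamma1 hσ h)
  · have h1 := Gamma1_le_Gpm M (DS48.conj_mem_Gamma1 hσ h)
    have h2 : σ * -γ * σ⁻¹ = -(σ * γ * σ⁻¹) := by rw [mul_neg, neg_mul]
    rw [h2] at h1
    have h3 := neg_mem_Gpm h1
    rwa [neg_neg] at h3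

/-- conjugation by `σ ∈ Γ₀(M)` as an automorphism of `±Γ₁(M)`. -/
def conjGpm (σ : SL(2, ℤ)) (hσ : σ ∈ Gamma0 M) : ↥(Gpm M 1) ≃* ↥(Gpm M 1) where
  toFun γ := ⟨σ * γ * σ⁻¹, conj_mem_Gpm M hσ γ.2⟩
  invFun γ := ⟨σ⁻¹ * γ * σ, by
    have := conj_mem_Gpm M ((Gamma0 M).inv_mem hσ) γ.2
    rwa [inv_inv] at this⟩
  left_inv γ := Subtype.ext (by
    show σ⁻¹ * (σ * (γ : SL(2, ℤ)) * σ⁻¹) * σ = γ
    group)
  right_inv γ := Subtype.ext (by
    show σ * (σ⁻¹ * (γ : SL(2, ℤ)) * σ) * σ⁻¹ = γ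
    group)
  map_mul' γ δ := Subtype.ext (by
    show σ * ((γ : SL(2, ℤ)) * (δ : SL(2, ℤ))) * σ⁻¹ =
      σ * (γ : SL(2, ℤ)) * σ⁻¹ * (σ * (δ : SL(2, ℤ)) * σ⁻¹)
    group)

@[simp] theorem coe_conjGpm (σ : SL(2, ℤ)) (hσ : σ ∈ Gamma0 M) (γ : Gpm M 1) :
    ((conjGpm M σ hσ γ : Gpm M 1) : SL(2, ℤ)) = σ * γ * σ⁻¹ := rfl

theorem val_mapGL (σ : SL(2, ℤ)) :
    ((Matrix.SpecialLinearGroup.mapGL ℝ σ : GL (Fin 2) ℝ) : Matrix (Fin 2) (Fin 2) ℝ) =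
      (σ : Matrix (Fin 2) (Fin 2) ℤ).map (Int.castRingHom ℝ) :=
  val_mapGL_eq σ

theorem gammaEmb_conjGpm (σ : SL(2, ℤ)) (hσ : σ ∈ Gamma0 M) (γ : Gpm M 1) :
    gammaEmb M (conjGpm M σ hσ γ) =
      Matrix.SpecialLinearGroup.mapGL ℝ σ * gammaEmb M γ *
        (Matrix.SpecialLinearGroup.mapGL ℝ σ)⁻¹ := by
  show Matrix.SpecialLinearGroup.mapGL ℝ (σ * (γ : SL(2, ℤ)) * σ⁻¹) =
    Matrix.SpecialLinearGroup.mapGL ℝ σ * Matrix.SpecialLinearGroup.mapGL ℝ (γ : SL(2, ℤ)) *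
      (Matrix.SpecialLinearGroup.mapGL ℝ σ)⁻¹
  rw [map_mul, map_mul, map_inv]

theorem trace_conjGpm (σ : SL(2, ℤ)) (hσ : σ ∈ Gamma0 M) (γ : Gpm M 1) :
    (((conjGpm M σ hσ γ : Gpm M 1) : SL(2, ℤ)) : Matrix (Fin 2) (Fin 2) ℤ).trace =
      (((γ : Gpm M 1) : SL(2, ℤ)) : Matrix (Fin 2) (Fin 2) ℤ).trace := by
  rw [coe_conjGpm, Matrix.SpecialLinearGroup.coe_mul, Matrix.SpecialLinearGroup.coe_mul,
    Matrix.trace_mul_comm, ← Matrix.mul_assoc, ← Matrix.SpecialLinearGroup.coe_mul,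
    inv_mul_cancel, Matrix.SpecialLinearGroup.coe_one, Matrix.one_mul]

end Conj

/-! ### the operators of a system of representatives -/

namespace IntReps

variable {M p : ℕ} [NeZero M] {ι : Type*} [Fintype ι] (S : IntReps M p ι)

theorem heckeGrp_mem_parabolicHoms (R : Type*) [Semiring R] {A : Type*} [AddCommGroup A]
    [Module R A] {ψ : Additive (Gpm M 1) →+ A} (hψ : ψ ∈ parabolicHoms R (Gpm M 1) A) :
    S.datum.heckeGrp A ψ ∈ parabolicHoms R (Gpm M 1) A :=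
  W1.heckeGrp_mem_parabolicHoms S.datum rfl R hψ

/-- **the operator commutes with the involution.** -/
theorem heckeGrp_charInvolution (R : Type*) [Semiring R] {A : Type*} [AddCommGroup A]
    [Module R A] (ψ : Additive (Gpm M 1) →+ A) :
    S.datum.heckeGrp A (charInvolutionΓ (Gpm M 1) R A ψ) =
      charInvolutionΓ (Gpm M 1) R A (S.datum.heckeGrp A ψ) := by
  refine heckeGrp_charInvolutionΓ S.datum rfl (fun i => ?_) R ψ
  have hx : ((UpperHalfPlane.J * S.datum.α i * (UpperHalfPlane.J)⁻¹ : GL (Fin 2) ℝ) :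
      Matrix (Fin 2) (Fin 2) ℝ) = (jConjMat (S.rZ i)).map (Int.castRingHom ℝ) := by
    rw [Fermat.Agent.GR.J_inv, Units.val_mul, Units.val_mul, datum_α, S.val_r, val_conjJ_map]
  exact S.exists_eq_of_mem hx (DeltaInt_jConjMat_mem (S.mem i))

/-- **the operator commutes with conjugation by `Γ₀(M)`.** -/
theorem heckeGrp_comp_conjGpm (σ : SL(2, ℤ)) (hσ : σ ∈ Gamma0 M) {A : Type*} [AddCommGroup A]
    (ψ : Additive (Gpm M 1) →+ A) :
    (S.datum.heckeGrp A ψ).comp (MonoidHom.toAdditive (conjGpm M σ hσ : Gpm M 1 →* Gpm M 1)) =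
      S.datum.heckeGrp A
        (ψ.comp (MonoidHom.toAdditive (conjGpm M σ hσ : Gpm M 1 →* Gpm M 1))) := by
  refine S.datum.heckeGrp_comp_mulEquiv S.datum (conjGpm M σ hσ)
    (MulAut.conj (Matrix.SpecialLinearGroup.mapGL ℝ σ)).toMonoidHom
    (MulAut.conj (Matrix.SpecialLinearGroup.mapGL ℝ σ)).injective
    (fun γ => (gammaEmb_conjGpm M σ hσ γ).symm) (fun i => ?_) ψ
  have hx : ((Matrix.SpecialLinearGroup.mapGL ℝ σ * S.datum.α i *
      (Matrix.SpecialLinearGroup.mapGL ℝ σ)⁻¹ : GL (Fin 2) ℝ) :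
      Matrix (Fin 2) (Fin 2) ℝ) =
      ((σ : Matrix (Fin 2) (Fin 2) ℤ) * S.rZ i *
        ((σ⁻¹ : SL(2, ℤ)) : Matrix (Fin 2) (Fin 2) ℤ)).map (Int.castRingHom ℝ) := by
    rw [← map_inv, Units.val_mul, Units.val_mul, datum_α, S.val_r, val_mapGL, val_mapGL,
      Matrix.map_mul, Matrix.map_mul]
  exact S.exists_eq_of_mem hx (DeltaInt_conj_mem (S.mem i) hσ)

end IntReps

/-! ### diamond operators -/

section Diamond

variable (M : ℕ)

/-- the Hecke datum of the single coset `Γ σ`, `σ ∈ Γ₀(M)`. -/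
noncomputable def diamondDatumBy (σ : SL(2, ℤ)) (hσ : σ ∈ Gamma0 M) :
    HeckeDatum ↥(Gpm M 1) (GL (Fin 2) ℝ) Unit where
  e := gammaEmb M
  e_inj := gammaEmb_injective M
  α _ := Matrix.SpecialLinearGroup.mapGL ℝ σ
  exists_eq γ _ := ⟨(), conjGpm M σ hσ γ, by
    rw [gammaEmb_conjGpm, inv_mul_cancel_right]⟩
  index_eq _ _ _ _ := rfl

@[simp] theorem diamondDatumBy_e (σ : SL(2, ℤ)) (hσ : σ ∈ Gamma0 M) :
    (diamondDatumBy M σ hσ).e = gammaEmb M := rfl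

@[simp] theorem diamondDatumBy_α (σ : SL(2, ℤ)) (hσ : σ ∈ Gamma0 M) (u : Unit) :
    (diamondDatumBy M σ hσ).α u = Matrix.SpecialLinearGroup.mapGL ℝ σ := rfl

theorem diamondDatumBy_cocycle (σ : SL(2, ℤ)) (hσ : σ ∈ Gamma0 M) (γ : Gpm M 1) (u : Unit) :
    (diamondDatumBy M σ hσ).cocycle γ u = conjGpm M σ hσ γ :=
  (diamondDatumBy M σ hσ).cocycle_eq (j := ()) (by
    show Matrix.SpecialLinearGroup.mapGL ℝ σ * gammaEmb M γ =
      gammaEmb M (conjGpm M σ hσ γ) * Matrix.SpecialLinearGroup.mapGL ℝ σ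
    rw [gammaEmb_conjGpm, inv_mul_cancel_right])

theorem det_diamondDatumBy_pos (σ : SL(2, ℤ)) (hσ : σ ∈ Gamma0 M) (u : Unit) :
    0 < ((diamondDatumBy M σ hσ).α u).val.det := by
  rw [diamondDatumBy_α, val_mapGL]
  have h2 : ((σ : Matrix (Fin 2) (Fin 2) ℤ).map (Int.castRingHom ℝ)).det =
      (((σ : Matrix (Fin 2) (Fin 2) ℤ).det : ℤ) : ℝ) := by
    rw [Matrix.det_fin_two, Matrix.det_fin_two]
    simp
  rw [h2, σ.det_coe]
  norm_num

variable (A : Type*) [AddCommGroup A]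

/-- `ψ ↦ ψ ∘ (γ ↦ σ γ σ⁻¹)` on `Hom(±Γ₁(M), A)`, `σ ∈ Γ₀(M)`. -/
noncomputable def diamondGrpBy (σ : SL(2, ℤ)) (hσ : σ ∈ Gamma0 M) :
    (Additive (Gpm M 1) →+ A) →+ (Additive (Gpm M 1) →+ A) :=
  (diamondDatumBy M σ hσ).heckeGrp A

variable {A}

theorem diamondGrpBy_apply (σ : SL(2, ℤ)) (hσ : σ ∈ Gamma0 M) (ψ : Additive (Gpm M 1) →+ A)
    (γ : Gpm M 1) :
    diamondGrpBy M A σ hσ ψ (Additive.ofMul γ) = ψ (Additive.ofMul (conjGpm M σ hσ γ)) := by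
  rw [diamondGrpBy, HeckeDatum.heckeGrp_apply, Fintype.sum_unique, diamondDatumBy_cocycle]

theorem diamondGrpBy_eq_comp (σ : SL(2, ℤ)) (hσ : σ ∈ Gamma0 M) (ψ : Additive (Gpm M 1) →+ A) :
    diamondGrpBy M A σ hσ ψ =
      ψ.comp (MonoidHom.toAdditive (conjGpm M σ hσ : Gpm M 1 →* Gpm M 1)) := by
  refine AddMonoidHom.ext fun γ => ?_
  obtain ⟨γ, rfl⟩ := Additive.ofMul.surjective γ
  rw [diamondGrpBy_apply]
  rfl

/-- the operator depends only on the lower right entry of `σ` mod `M`. -/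
theorem diamondGrpBy_congr {σ σ' : SL(2, ℤ)} (hσ : σ ∈ Gamma0 M) (hσ' : σ' ∈ Gamma0 M)
    (h : ((σ 1 1 : ℤ) : ZMod M) = ((σ' 1 1 : ℤ) : ZMod M)) :
    diamondGrpBy M A σ hσ = diamondGrpBy M A σ' hσ' := by
  refine AddMonoidHom.ext fun ψ => AddMonoidHom.ext fun γ => ?_
  obtain ⟨γ, rfl⟩ := Additive.ofMul.surjective γ
  rw [diamondGrpBy_apply, diamondGrpBy_apply]
  have hg : σ' * σ⁻¹ ∈ Gamma1 M := DS48.mul_inv_mem_Gamma1_of_lowerRight_eq hσ' hσ h.symm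
  set g : Gpm M 1 := ⟨σ' * σ⁻¹, Gamma1_le_Gpm M hg⟩ with hgdef
  have e : conjGpm M σ' hσ' γ = g * conjGpm M σ hσ γ * g⁻¹ := by
    apply Subtype.ext
    show σ' * (γ : SL(2, ℤ)) * σ'⁻¹ = σ' * σ⁻¹ * (σ * (γ : SL(2, ℤ)) * σ⁻¹) * (σ' * σ⁻¹)⁻¹
    group
  rw [e, ofMul_mul, ofMul_mul, ofMul_inv, map_add, map_add, map_neg]
  abel

theorem diamondGrpBy_mul {σ σ' : SL(2, ℤ)} (hσ : σ ∈ Gamma0 M) (hσ' : σ' ∈ Gamma0 M) :
    diamondGrpBy M A (σ * σ') ((Gamma0 M).mul_mem hσ hσ') =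
      (diamondGrpBy M A σ' hσ').comp (diamondGrpBy M A σ hσ) := by
  refine AddMonoidHom.ext fun ψ => AddMonoidHom.ext fun γ => ?_
  obtain ⟨γ, rfl⟩ := Additive.ofMul.surjective γ
  rw [AddMonoidHom.comp_apply, diamondGrpBy_apply, diamondGrpBy_apply, diamondGrpBy_apply]
  congr 2
  apply Subtype.ext
  show σ * σ' * (γ : SL(2, ℤ)) * (σ * σ')⁻¹ = σ * (σ' * (γ : SL(2, ℤ)) * σ'⁻¹) * σ⁻¹
  group

theorem diamondGrpBy_of_mem_Gpm {σ : SL(2, ℤ)} (hσ : σ ∈ Gamma0 M) (hσ1 : σ ∈ Gpm M 1) :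
    diamondGrpBy M A σ hσ = AddMonoidHom.id _ := by
  refine AddMonoidHom.ext fun ψ => AddMonoidHom.ext fun γ => ?_
  obtain ⟨γ, rfl⟩ := Additive.ofMul.surjective γ
  rw [diamondGrpBy_apply, AddMonoidHom.id_apply]
  set g : Gpm M 1 := ⟨σ, hσ1⟩ with hgdef
  have e : conjGpm M σ hσ γ = g * γ * g⁻¹ := Subtype.ext rfl
  rw [e, ofMul_mul, ofMul_mul, ofMul_inv, map_add, map_add, map_neg]
  abel

theorem diamondGrpBy_comp {B : Type*} [AddCommGroup B] (f : A →+ B) (σ : SL(2, ℤ))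
    (hσ : σ ∈ Gamma0 M) (ψ : Additive (Gpm M 1) →+ A) :
    diamondGrpBy M B σ hσ (f.comp ψ) = f.comp (diamondGrpBy M A σ hσ ψ) :=
  HeckeDatum.heckeGrp_comp _ f ψ

theorem diamondGrpBy_mem_parabolicHoms (σ : SL(2, ℤ)) (hσ : σ ∈ Gamma0 M) (R : Type*)
    [Semiring R] [Module R A] {ψ : Additive (Gpm M 1) →+ A}
    (hψ : ψ ∈ parabolicHoms R (Gpm M 1) A) :
    diamondGrpBy M A σ hσ ψ ∈ parabolicHoms R (Gpm M 1) A :=
  W1.heckeGrp_mem_parabolicHoms (diamondDatumBy M σ hσ) rfl R hψ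

variable [NeZero M]

theorem diamondGrpBy_charInvolution (σ : SL(2, ℤ)) (hσ : σ ∈ Gamma0 M) (R : Type*)
    [Semiring R] [Module R A] (ψ : Additive (Gpm M 1) →+ A) :
    diamondGrpBy M A σ hσ (charInvolutionΓ (Gpm M 1) R A ψ) =
      charInvolutionΓ (Gpm M 1) R A (diamondGrpBy M A σ hσ ψ) := by
  refine heckeGrp_charInvolutionΓ (diamondDatumBy M σ hσ) rfl (fun u => ?_) R ψ
  have hJσ : jConjSL σ ∈ Gamma0 M := jConjSL_mem_Gamma0 hσ
  have h11 : (((jConjSL σ) 1 1 : ℤ) : ZMod M) = ((σ 1 1 : ℤ) : ZMod M) := by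
    show ((((jConjSL σ : SL(2, ℤ)) : Matrix (Fin 2) (Fin 2) ℤ) 1 1 : ℤ) : ZMod M) = _
    rw [jConjSL_coe, jConjMat_apply_one_one]
  have hg : jConjSL σ * σ⁻¹ ∈ Gamma1 M := DS48.mul_inv_mem_Gamma1_of_lowerRight_eq hJσ hσ h11
  refine ⟨(), ⟨jConjSL σ * σ⁻¹, Gamma1_le_Gpm M hg⟩, ?_⟩
  have h1 : UpperHalfPlane.J * Matrix.SpecialLinearGroup.mapGL ℝ σ * (UpperHalfPlane.J)⁻¹ =
      Matrix.SpecialLinearGroup.mapGL ℝ (jConjSL σ) := by
    rw [Fermat.Agent.GR.J_inv]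
    apply Units.ext
    rw [Units.val_mul, Units.val_mul, val_mapGL, val_mapGL, val_conjJ_map]
    rfl
  rw [diamondDatumBy_α, h1]
  show _ = Matrix.SpecialLinearGroup.mapGL ℝ (jConjSL σ * σ⁻¹) *
    Matrix.SpecialLinearGroup.mapGL ℝ σ
  rw [← map_mul, inv_mul_cancel_right]

/-- **the group-theoretic diamond operator `⟨d⟩`** on `Hom(±Γ₁(M), A)`:
`ψ ↦ ψ ∘ (γ ↦ σ_d γ σ_d⁻¹)` with `σ_d ∈ Γ₀(M)` of lower right entry `≡ d` (lead's `sigmaOf`). -/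
noncomputable def diamondGrp (A : Type*) [AddCommGroup A] (d : (ZMod M)ˣ) :
    (Additive (Gpm M 1) →+ A) →+ (Additive (Gpm M 1) →+ A) :=
  diamondGrpBy M A (DS48.sigmaOf M d) (DS48.sigmaOf_mem d)

theorem diamondGrp_eq_diamondGrpBy (d : (ZMod M)ˣ) {σ : SL(2, ℤ)} (hσ : σ ∈ Gamma0 M)
    (h : ((σ 1 1 : ℤ) : ZMod M) = (d : ZMod M)) :
    diamondGrp M A d = diamondGrpBy M A σ hσ :=
  diamondGrpBy_congr M _ hσ ((DS48.sigmaOf_lowerRight d).trans h.symm)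

theorem diamondGrp_apply (d : (ZMod M)ˣ) (ψ : Additive (Gpm M 1) →+ A) (γ : Gpm M 1) :
    diamondGrp M A d ψ (Additive.ofMul γ) =
      ψ (Additive.ofMul (conjGpm M (DS48.sigmaOf M d) (DS48.sigmaOf_mem d) γ)) :=
  diamondGrpBy_apply M _ _ ψ γ

theorem diamondGrp_mul (d d' : (ZMod M)ˣ) :
    diamondGrp M A (d * d') = (diamondGrp M A d').comp (diamondGrp M A d) := by
  rw [diamondGrp_eq_diamondGrpBy M (d * d')
    ((Gamma0 M).mul_mem (DS48.sigmaOf_mem d) (DS48.sigmaOf_mem d')), diamondGrpBy_mul]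
  · rfl
  · rw [DS48.lowerRight_mul (DS48.sigmaOf_mem d) (DS48.sigmaOf_mem d'), DS48.sigmaOf_lowerRight,
      DS48.sigmaOf_lowerRight]
    simp

theorem diamondGrp_one : diamondGrp M A (1 : (ZMod M)ˣ) = AddMonoidHom.id _ := by
  rw [diamondGrp_eq_diamondGrpBy M 1 (Gamma1_in_Gamma0 M (Subgroup.one_mem _)) (by simp)]
  exact diamondGrpBy_of_mem_Gpm M _ (Subgroup.one_mem _)

theorem diamondGrp_comm (d d' : (ZMod M)ˣ) :
    (diamondGrp M A d).comp (diamondGrp M A d') = (diamondGrp M A d').comp (diamondGrp M A d) := by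
  rw [← diamondGrp_mul, ← diamondGrp_mul, mul_comm]

/-- `⟨-1⟩` is trivial on `Hom(±Γ₁(M), A)`. -/
theorem diamondGrp_neg_one : diamondGrp M A (-1 : (ZMod M)ˣ) = AddMonoidHom.id _ := by
  have h0 : (-1 : SL(2, ℤ)) ∈ Gamma0 M := by
    have := gamma0_neg_mem (Subgroup.one_mem (Gamma0 M))
    exact this
  rw [diamondGrp_eq_diamondGrpBy M (-1) h0 (by simp)]
  exact diamondGrpBy_of_mem_Gpm M _ (neg_one_mem_Gpm M 1)

theorem diamondGrp_neg (d : (ZMod M)ˣ) : diamondGrp M A (-d) = diamondGrp M A d := by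
  have : -d = -1 * d := by rw [neg_mul, one_mul]
  rw [this, diamondGrp_mul, diamondGrp_neg_one]
  rfl

theorem diamondGrp_comp {B : Type*} [AddCommGroup B] (f : A →+ B) (d : (ZMod M)ˣ)
    (ψ : Additive (Gpm M 1) →+ A) :
    diamondGrp M B d (f.comp ψ) = f.comp (diamondGrp M A d ψ) :=
  diamondGrpBy_comp M f _ _ ψ

theorem diamondGrp_mem_parabolicHoms (d : (ZMod M)ˣ) (R : Type*) [Semiring R] [Module R A]
    {ψ : Additive (Gpm M 1) →+ A} (hψ : ψ ∈ parabolicHoms R (Gpm M 1) A) :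
    diamondGrp M A d ψ ∈ parabolicHoms R (Gpm M 1) A :=
  diamondGrpBy_mem_parabolicHoms M _ _ R hψ

theorem diamondGrp_charInvolution (d : (ZMod M)ˣ) (R : Type*) [Semiring R] [Module R A]
    (ψ : Additive (Gpm M 1) →+ A) :
    diamondGrp M A d (charInvolutionΓ (Gpm M 1) R A ψ) =
      charInvolutionΓ (Gpm M 1) R A (diamondGrp M A d ψ) :=
  diamondGrpBy_charInvolution M _ _ R ψ

/-- **the diamond operators commute with the operator of every system of representatives**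
(in particular with `T_ℓ` and `U_ℓ`). -/
theorem IntReps.diamondGrp_heckeGrp {p : ℕ} {ι : Type*} [Fintype ι] (S : IntReps M p ι)
    (d : (ZMod M)ˣ) (ψ : Additive (Gpm M 1) →+ A) :
    diamondGrp M A d (S.datum.heckeGrp A ψ) = S.datum.heckeGrp A (diamondGrp M A d ψ) := by
  rw [diamondGrp, diamondGrpBy_eq_comp, diamondGrpBy_eq_comp]
  exact S.heckeGrp_comp_conjGpm _ _ ψ

variable (A)

/-- the diamond operator as an `R`-linear map. -/
noncomputable def diamondGrpₗ (R : Type*) [Semiring R] [Module R A] (d : (ZMod M)ˣ) :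
    (Additive (Gpm M 1) →+ A) →ₗ[R] (Additive (Gpm M 1) →+ A) :=
  (diamondDatumBy M (DS48.sigmaOf M d) (DS48.sigmaOf_mem d)).heckeGrpₗ A R

@[simp] theorem diamondGrpₗ_apply (R : Type*) [Semiring R] [Module R A] (d : (ZMod M)ˣ)
    (ψ : Additive (Gpm M 1) →+ A) : diamondGrpₗ M A R d ψ = diamondGrp M A d ψ := rfl

end Diamond

end Fermat.Agent.W1
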