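/-
W1 = [GRΓ1] (S48), package [HGRP1] (helper2), part 5 (port of `GR/HGRP_helper2_Par` (end) and of
the group half of `GR/MULT1_helper2_Ops`): the operators `T_ℓ`, `U_ℓ` of `Γ = ±Γ₁(M) = Gpm M 1`
with the ORIGINAL names, and **the Hecke operators at all primes, uniformly**: `heckeGrpP M ℓ A`
on `Hom(Γ, A)` (`U_ℓ` if `ℓ ∣ M`, `T_ℓ` otherwise).
-/
import Mathlib
import Fermat.Agent.W1.HGRP1_helper2_Ops

set_option autoImplicit false
set_option linter.unusedSectionVars false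
set_option linter.unnecessarySeqFocus false

namespace Fermat.Agent.W1

open CongruenceSubgroup ModularForm Matrix ModularCurve.Period
open scoped MatrixGroups
open Fermat.Agent.GR Fermat.Agent.W1.ES

section TU

variable (M : ℕ) [NeZero M] {ℓ : ℕ} (hℓ : ℓ.Prime) (R : Type*) [Semiring R]
  {A : Type*} [AddCommGroup A] [Module R A]

theorem heckeDatumT_mem_parabolicHoms (hℓM : ¬ ℓ ∣ M) {ψ : Additive (Gpm M 1) →+ A}
    (hψ : ψ ∈ parabolicHoms R (Gpm M 1) A) :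
    (heckeDatumT M ℓ hℓ hℓM).heckeGrp A ψ ∈ parabolicHoms R (Gpm M 1) A :=
  (intRepsT M hℓ hℓM).heckeGrp_mem_parabolicHoms R hψ

theorem heckeDatumU_mem_parabolicHoms (hℓM : ℓ ∣ M) {ψ : Additive (Gpm M 1) →+ A}
    (hψ : ψ ∈ parabolicHoms R (Gpm M 1) A) :
    (heckeDatumU M ℓ hℓ hℓM).heckeGrp A ψ ∈ parabolicHoms R (Gpm M 1) A :=
  (intRepsU M hℓ hℓM).heckeGrp_mem_parabolicHoms R hψ

/-- **`T_ℓ` commutes with the involution.** -/
theorem heckeDatumT_charInvolution (hℓM : ¬ ℓ ∣ M) (ψ : Additive (Gpm M 1) →+ A) :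
    (heckeDatumT M ℓ hℓ hℓM).heckeGrp A (charInvolutionΓ (Gpm M 1) R A ψ) =
      charInvolutionΓ (Gpm M 1) R A ((heckeDatumT M ℓ hℓ hℓM).heckeGrp A ψ) :=
  (intRepsT M hℓ hℓM).heckeGrp_charInvolution R ψ

/-- **`U_ℓ` commutes with the involution.** -/
theorem heckeDatumU_charInvolution (hℓM : ℓ ∣ M) (ψ : Additive (Gpm M 1) →+ A) :
    (heckeDatumU M ℓ hℓ hℓM).heckeGrp A (charInvolutionΓ (Gpm M 1) R A ψ) =
      charInvolutionΓ (Gpm M 1) R A ((heckeDatumU M ℓ hℓ hℓM).heckeGrp A ψ) :=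
  (intRepsU M hℓ hℓM).heckeGrp_charInvolution R ψ

/-- **`⟨d⟩` commutes with `T_ℓ`.** -/
theorem diamondGrp_heckeDatumT (hℓM : ¬ ℓ ∣ M) (d : (ZMod M)ˣ) (ψ : Additive (Gpm M 1) →+ A) :
    diamondGrp M A d ((heckeDatumT M ℓ hℓ hℓM).heckeGrp A ψ) =
      (heckeDatumT M ℓ hℓ hℓM).heckeGrp A (diamondGrp M A d ψ) :=
  (intRepsT M hℓ hℓM).diamondGrp_heckeGrp M d ψ

/-- **`⟨d⟩` commutes with `U_ℓ`.** -/
theorem diamondGrp_heckeDatumU (hℓM : ℓ ∣ M) (d : (ZMod M)ˣ) (ψ : Additive (Gpm M 1) →+ A) :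
    diamondGrp M A d ((heckeDatumU M ℓ hℓ hℓM).heckeGrp A ψ) =
      (heckeDatumU M ℓ hℓ hℓM).heckeGrp A (diamondGrp M A d ψ) :=
  (intRepsU M hℓ hℓM).diamondGrp_heckeGrp M d ψ

end TU

section Grp

variable (M : ℕ) [NeZero M] (ℓ : Nat.Primes) (A : Type*) [AddCommGroup A]

/-- **the group-theoretic Hecke operator at a prime `ℓ`** on `Hom(±Γ₁(M), A)`: `U_ℓ` if `ℓ ∣ M`,
`T_ℓ` otherwise. -/
noncomputable def heckeGrpP : (Additive (Gpm M 1) →+ A) →+ (Additive (Gpm M 1) →+ A) :=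
  if h : (ℓ : ℕ) ∣ M then (heckeDatumU M ℓ ℓ.2 h).heckeGrp A
  else (heckeDatumT M ℓ ℓ.2 h).heckeGrp A

variable {M ℓ}

theorem heckeGrpP_of_dvd (h : (ℓ : ℕ) ∣ M) :
    heckeGrpP M ℓ A = (heckeDatumU M ℓ ℓ.2 h).heckeGrp A := by
  rw [heckeGrpP, dif_pos h]

theorem heckeGrpP_of_not_dvd (h : ¬ (ℓ : ℕ) ∣ M) :
    heckeGrpP M ℓ A = (heckeDatumT M ℓ ℓ.2 h).heckeGrp A := by
  rw [heckeGrpP, dif_neg h]

variable (M ℓ) {A}

/-- naturality in the coefficient group. -/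
theorem heckeGrpP_comp {B : Type*} [AddCommGroup B] (f : A →+ B) (ψ : Additive (Gpm M 1) →+ A) :
    heckeGrpP M ℓ B (f.comp ψ) = f.comp (heckeGrpP M ℓ A ψ) := by
  by_cases h : (ℓ : ℕ) ∣ M
  · rw [heckeGrpP_of_dvd A h, heckeGrpP_of_dvd B h, HeckeDatum.heckeGrp_comp]
  · rw [heckeGrpP_of_not_dvd A h, heckeGrpP_of_not_dvd B h, HeckeDatum.heckeGrp_comp]

theorem heckeGrpP_mem_parabolicHoms (R : Type*) [Semiring R] [Module R A]
    {ψ : Additive (Gpm M 1) →+ A} (hψ : ψ ∈ parabolicHoms R (Gpm M 1) A) :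
    heckeGrpP M ℓ A ψ ∈ parabolicHoms R (Gpm M 1) A := by
  by_cases h : (ℓ : ℕ) ∣ M
  · rw [heckeGrpP_of_dvd A h]
    exact heckeDatumU_mem_parabolicHoms M ℓ.2 R h hψ
  · rw [heckeGrpP_of_not_dvd A h]
    exact heckeDatumT_mem_parabolicHoms M ℓ.2 R h hψ

theorem heckeGrpP_charInvolution (R : Type*) [Semiring R] [Module R A]
    (ψ : Additive (Gpm M 1) →+ A) :
    heckeGrpP M ℓ A (charInvolutionΓ (Gpm M 1) R A ψ) =
      charInvolutionΓ (Gpm M 1) R A (heckeGrpP M ℓ A ψ) := by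
  by_cases h : (ℓ : ℕ) ∣ M
  · rw [heckeGrpP_of_dvd A h]
    exact heckeDatumU_charInvolution M ℓ.2 R h ψ
  · rw [heckeGrpP_of_not_dvd A h]
    exact heckeDatumT_charInvolution M ℓ.2 R h ψ

/-- **the diamonds commute with the Hecke operators at all primes.** -/
theorem diamondGrp_heckeGrpP (d : (ZMod M)ˣ) (ψ : Additive (Gpm M 1) →+ A) :
    diamondGrp M A d (heckeGrpP M ℓ A ψ) = heckeGrpP M ℓ A (diamondGrp M A d ψ) := by
  by_cases h : (ℓ : ℕ) ∣ M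
  · rw [heckeGrpP_of_dvd A h]
    exact diamondGrp_heckeDatumU M ℓ.2 h d ψ
  · rw [heckeGrpP_of_not_dvd A h]
    exact diamondGrp_heckeDatumT M ℓ.2 h d ψ

variable (A)

/-- the Hecke operator at `ℓ` as an `R`-linear endomorphism of `Hom(±Γ₁(M), A)`. -/
noncomputable def heckeGrpPₗ (R : Type*) [Semiring R] [Module R A] :
    (Additive (Gpm M 1) →+ A) →ₗ[R] (Additive (Gpm M 1) →+ A) where
  toFun := heckeGrpP M ℓ A
  map_add' := map_add _
  map_smul' c ψ := by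
    by_cases h : (ℓ : ℕ) ∣ M
    · rw [heckeGrpP_of_dvd A h]
      exact ((heckeDatumU M ℓ ℓ.2 h).heckeGrpₗ A R).map_smul c ψ
    · rw [heckeGrpP_of_not_dvd A h]
      exact ((heckeDatumT M ℓ ℓ.2 h).heckeGrpₗ A R).map_smul c ψ

@[simp] theorem heckeGrpPₗ_apply (R : Type*) [Semiring R] [Module R A]
    (ψ : Additive (Gpm M 1) →+ A) : heckeGrpPₗ M ℓ A R ψ = heckeGrpP M ℓ A ψ := rfl

/-- the Hecke operator at `ℓ` on the parabolic homomorphisms. -/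
noncomputable def heckeParP (R : Type*) [Semiring R] [Module R A] :
    parabolicHoms R (Gpm M 1) A →ₗ[R] parabolicHoms R (Gpm M 1) A :=
  (heckeGrpPₗ M ℓ A R).restrict (fun _ hψ => heckeGrpP_mem_parabolicHoms M ℓ R hψ)

@[simp] theorem coe_heckeParP (R : Type*) [Semiring R] [Module R A]
    (ψ : parabolicHoms R (Gpm M 1) A) :
    ((heckeParP M ℓ A R ψ : parabolicHoms R (Gpm M 1) A) : Additive (Gpm M 1) →+ A) =
      heckeGrpP M ℓ A (ψ : Additive (Gpm M 1) →+ A) := rfl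

/-- the diamond operator on the parabolic homomorphisms. -/
noncomputable def diamondPar (R : Type*) [Semiring R] [Module R A] (d : (ZMod M)ˣ) :
    parabolicHoms R (Gpm M 1) A →ₗ[R] parabolicHoms R (Gpm M 1) A :=
  (diamondGrpₗ M A R d).restrict (fun _ hψ => diamondGrp_mem_parabolicHoms M d R hψ)

@[simp] theorem coe_diamondPar (R : Type*) [Semiring R] [Module R A] (d : (ZMod M)ˣ)
    (ψ : parabolicHoms R (Gpm M 1) A) :
    ((diamondPar M A R d ψ : parabolicHoms R (Gpm M 1) A) : Additive (Gpm M 1) →+ A) =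
      diamondGrp M A d (ψ : Additive (Gpm M 1) →+ A) := rfl

end Grp

end Fermat.Agent.W1
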