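/-
W1 = [GRΓ1] (S48), package [PER1] (helper2): **the period map of `±Γ₁(M)` intertwines the Hecke
operators on `S₂(Γ₁(M))`** (lead's `heckeT1`, `diamond`, and `heckeU1` defined here) **with the
group-theoretic operators** `T_ℓ`, `U_ℓ`, `⟨d⟩` on `Hom(±Γ₁(M), ℂ)`.
-/
import Mathlib
import Fermat.Agent.W1.HGRP1_helper2_Main

set_option autoImplicit false
set_option linter.unusedSectionVars false
set_option linter.unnecessarySeqFocus false

namespace Fermat.Agent.W1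

open CongruenceSubgroup ModularForm Matrix ModularCurve.Period Filter Topology
open UpperHalfPlane hiding I
open scoped MatrixGroups ModularForm
open Fermat.Agent.GR Fermat.Agent.S22 Fermat.Agent.W1.ES

/-! ### `U_p` on `S_k(Γ₁(N))`, `p ∣ N` -/

section U1

variable {N p : ℕ}

theorem heckeU_eq_sum_fin (k : ℤ) (p : ℕ) (f : ℍ → ℂ) :
    heckeU k p f = ∑ b : Fin p, f ∣[k] heckeMatrix p (b : ℕ) := by
  rw [heckeU_def, Finset.sum_range]

/-- `U_p` preserves `Γ₁(N)`-invariance (`p ∣ N` prime). -/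
theorem heckeU_slash_eq_self_of_mem_Gamma1 (k : ℤ) (hp : p.Prime) (hpN : p ∣ N) (f : ℍ → ℂ)
    (hf : ∀ γ ∈ (Gamma1 N : Subgroup (GL (Fin 2) ℝ)), f ∣[k] γ = f)
    (γ : GL (Fin 2) ℝ) (hγ : γ ∈ (Gamma1 N : Subgroup (GL (Fin 2) ℝ))) :
    heckeU k p f ∣[k] γ = heckeU k p f := by
  have hp0 : p ≠ 0 := hp.ne_zero
  rw [heckeU_eq_sum_fin]
  have hRv : ∀ b : Fin p, ((heckeMatrix p (b : ℕ) : GL (Fin 2) ℝ) : Matrix (Fin 2) (Fin 2) ℝ) =
      (DS48.repJ p (b : ℕ)).map (Int.cast : ℤ → ℝ) := fun b => DS48.heckeMatrix_val_eq hp0 _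
  refine DS48.sum_slash_invariant_of_reps (Gamma1 N : Subgroup (GL (Fin 2) ℝ)) (DS48.DeltaR N p)
    (fun b : Fin p => heckeMatrix p (b : ℕ))
    (fun b => ⟨DS48.repJ p (b : ℕ), DS48.repJ_mem N p _, hRv b⟩) ?_ ?_ ?_ f hf γ hγ
  · rintro α ⟨A, hA, hαA⟩ γ' ⟨g, hg, rfl⟩
    refine ⟨A * g.1, DS48.DeltaInt.mul_mem hA hg, ?_⟩
    rw [Units.val_mul, hαA, DS48.mapGL_val, DS48.map_intCast_mul]
  · rintro α ⟨A, hA, hαA⟩
    obtain ⟨j, hj, g, hg, hAg⟩ := exists_repJ_mul hp hA (not_dvd_of_mem_DeltaInt N hp hpN hA)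
    exact ⟨⟨j, hj⟩, DS48.mul_inv_mem_of_int_eq hαA (hRv ⟨j, hj⟩) hg hAg⟩
  · intro a b hab
    obtain ⟨g, -, hg⟩ := DS48.int_eq_of_mul_inv_mem (hRv a) (hRv b) hab
    exact Fin.ext (DS48.repJ_unique a.2 b.2 (g := g) hg)

/-- **the Hecke operator `U_p`, `p ∣ N` prime, on `S_k(Γ₁(N))`.** -/
noncomputable def heckeU1 [NeZero N] (k : ℤ) (hp : p.Prime) (hpN : p ∣ N) :
    CuspForm (Gamma1 N) k →ₗ[ℂ] CuspForm (Gamma1 N) k where
  toFun f :=
    { toFun := heckeU k p ⇑f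
      slash_action_eq' := fun γ hγ => heckeU_slash_eq_self_of_mem_Gamma1 k hp hpN ⇑f
        (fun g hg => SlashInvariantFormClass.slash_action_eq f g hg) γ hγ
      holo' := mdifferentiable_heckeU (CuspFormClass.holo f) k p
      zero_at_cusps' := fun hc => CuspFormClass.isZeroAt_heckeU f p hc }
  map_add' f g := DFunLike.coe_injective <| by
    show heckeU k p ⇑(f + g) = heckeU k p ⇑f + heckeU k p ⇑g
    rw [CuspForm.coe_add, heckeU_add]
  map_smul' c f := DFunLike.coe_injective <| by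
    show heckeU k p ⇑(c • f) = c • heckeU k p ⇑f
    rw [CuspForm.IsGLPos.coe_smul, heckeU_smul]

@[simp] theorem coe_heckeU1 [NeZero N] (k : ℤ) (hp : p.Prime) (hpN : p ∣ N)
    (f : CuspForm (Gamma1 N) k) :
    ⇑(heckeU1 k hp hpN f) = heckeU k p ⇑f := rfl

end U1

/-! ### the period map -/

section Period

variable (M : ℕ) [NeZero M] {ℓ : ℕ}

/-- **[PER1] for `T_ℓ`**, `ℓ ∤ M`. -/
theorem periodMap_heckeT1 (hℓ : ℓ.Prime) (hℓM : ¬ ℓ ∣ M) (f : CuspForm (Gamma1 M) 2) :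
    periodMap (cuspFormGpmEquiv M (DS48.heckeT1 2 hℓ hℓM f)) =
      (heckeDatumT M ℓ hℓ hℓM).heckeGrp ℂ (periodMap (cuspFormGpmEquiv M f)) := by
  apply periodMap_eq_heckeGrp (heckeDatumT M ℓ hℓ hℓM) rfl (det_heckeDatumT_pos M hℓ hℓM)
  intro τ
  show DS48.heckeT1Fun 2 ℓ (sigmaP M hℓ hℓM) ⇑f τ = _
  rw [DS48.heckeT1Fun_eq_sum, Finset.sum_apply]
  rfl

/-- **[PER1] for `U_ℓ`**, `ℓ ∣ M`. -/
theorem periodMap_heckeU1 (hℓ : ℓ.Prime) (hℓM : ℓ ∣ M) (f : CuspForm (Gamma1 M) 2) :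
    periodMap (cuspFormGpmEquiv M (heckeU1 2 hℓ hℓM f)) =
      (heckeDatumU M ℓ hℓ hℓM).heckeGrp ℂ (periodMap (cuspFormGpmEquiv M f)) := by
  apply periodMap_eq_heckeGrp (heckeDatumU M ℓ hℓ hℓM) rfl (det_heckeDatumU_pos M hℓ hℓM)
  intro τ
  show heckeU 2 ℓ ⇑f τ = _
  rw [heckeU_eq_sum_fin, Finset.sum_apply]
  rfl

/-- **[PER1] for the diamond operators.** -/
theorem periodMap_diamond (d : (ZMod M)ˣ) (f : CuspForm (Gamma1 M) 2) :
    periodMap (cuspFormGpmEquiv M (DS48.diamond 2 d f)) =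
      diamondGrp M ℂ d (periodMap (cuspFormGpmEquiv M f)) := by
  apply periodMap_eq_heckeGrp (diamondDatumBy M (DS48.sigmaOf M d) (DS48.sigmaOf_mem d)) rfl
    (det_diamondDatumBy_pos M _ _)
  intro τ
  rw [Fintype.sum_unique]
  rfl

end Period

end Fermat.Agent.W1
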