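/-
W1 = [GRΓ1] (S48), package [PER1] (helper2), part 2 (port of `GR/MULT1_helper2_Ops`): **the Hecke
operators of `±Γ₁(M)` at all indices, uniformly.**  The index set is
`HIdx M = Nat.Primes ⊕ (ZMod M)ˣ`: a prime `ℓ` stands for `T_ℓ` (`ℓ ∤ M`) resp. `U_ℓ` (`ℓ ∣ M`), a
unit `d` for the diamond operator `⟨d⟩`.
* `heckeGrpI M i A` on `Hom(±Γ₁(M), A)`, `heckeOpI M i` on `S₂(Γ₁(M))`;
* `periodMap₁ M`, `periodHomPair₁ M` (the Eichler–Shimura map of `S₂(Γ₁(M))²`), injective and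
  Hecke equivariant;
* `class ESHyp M`: the Eichler–Shimura map is onto the parabolic homomorphisms (= helper9's
  `eichlerShimura_Gpm` once the genus inputs of [DICT1] are available);
* commutativity: `heckeOpI_comm` on forms, `heckeGrpI_comm_complex`, `heckeGrpI_comm_of_injective`
  on parabolic homomorphisms.
-/
import Mathlib
import Fermat.Agent.W1.PER1_helper2_Main
import Fermat.Agent.DS48.HECKE1_lead_Comm
import Fermat.Agent.DS48.HECKE1_lead_QExp
import Fermat.Agent.DS48.A_lead_Nice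

set_option autoImplicit false
set_option linter.unusedSectionVars false
set_option linter.unnecessarySeqFocus false

namespace Fermat.Agent.W1

open CongruenceSubgroup ModularForm Matrix ModularCurve.Period ModularFormClass
open UpperHalfPlane hiding I
open scoped MatrixGroups ModularForm
open Fermat.Agent.GR Fermat.Agent.W1.ES

/-- **the index set of the Hecke operators of `±Γ₁(M)`**: a prime `ℓ` (`T_ℓ` resp. `U_ℓ`) or a
unit `d` (the diamond operator `⟨d⟩`). -/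
abbrev HIdx (M : ℕ) : Type := Nat.Primes ⊕ (ZMod M)ˣ

section Grp

variable (M : ℕ) [NeZero M] (i : HIdx M) (A : Type*) [AddCommGroup A]

/-- **the group-theoretic Hecke operator at the index `i`** on `Hom(±Γ₁(M), A)`. -/
noncomputable def heckeGrpI : (Additive (Gpm M 1) →+ A) →+ (Additive (Gpm M 1) →+ A) :=
  Sum.elim (fun ℓ => heckeGrpP M ℓ A) (fun d => diamondGrp M A d) i

@[simp] theorem heckeGrpI_inl (ℓ : Nat.Primes) :
    heckeGrpI M (Sum.inl ℓ) A = heckeGrpP M ℓ A := rfl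

@[simp] theorem heckeGrpI_inr (d : (ZMod M)ˣ) :
    heckeGrpI M (Sum.inr d) A = diamondGrp M A d := rfl

variable {A}

/-- naturality in the coefficient group. -/
theorem heckeGrpI_comp {B : Type*} [AddCommGroup B] (f : A →+ B) (ψ : Additive (Gpm M 1) →+ A) :
    heckeGrpI M i B (f.comp ψ) = f.comp (heckeGrpI M i A ψ) := by
  rcases i with ℓ | d
  · exact heckeGrpP_comp M ℓ f ψ
  · exact diamondGrp_comp M f d ψ

theorem heckeGrpI_mem_parabolicHoms (R : Type*) [Semiring R] [Module R A]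
    {ψ : Additive (Gpm M 1) →+ A} (hψ : ψ ∈ parabolicHoms R (Gpm M 1) A) :
    heckeGrpI M i A ψ ∈ parabolicHoms R (Gpm M 1) A := by
  rcases i with ℓ | d
  · exact heckeGrpP_mem_parabolicHoms M ℓ R hψ
  · exact diamondGrp_mem_parabolicHoms M d R hψ

theorem heckeGrpI_charInvolution (R : Type*) [Semiring R] [Module R A]
    (ψ : Additive (Gpm M 1) →+ A) :
    heckeGrpI M i A (charInvolutionΓ (Gpm M 1) R A ψ) =
      charInvolutionΓ (Gpm M 1) R A (heckeGrpI M i A ψ) := by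
  rcases i with ℓ | d
  · exact heckeGrpP_charInvolution M ℓ R ψ
  · exact diamondGrp_charInvolution M d R ψ

/-- **the diamonds commute with all the operators** (no parabolicity needed). -/
theorem diamondGrp_heckeGrpI (d : (ZMod M)ˣ) (ψ : Additive (Gpm M 1) →+ A) :
    diamondGrp M A d (heckeGrpI M i A ψ) = heckeGrpI M i A (diamondGrp M A d ψ) := by
  rcases i with ℓ | d'
  · exact diamondGrp_heckeGrpP M ℓ d ψ
  · exact DFunLike.congr_fun (diamondGrp_comm M d d') ψ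

variable (A)

/-- the operator at the index `i` as an `R`-linear endomorphism of `Hom(±Γ₁(M), A)`. -/
noncomputable def heckeGrpIₗ (R : Type*) [Semiring R] [Module R A] :
    (Additive (Gpm M 1) →+ A) →ₗ[R] (Additive (Gpm M 1) →+ A) where
  toFun := heckeGrpI M i A
  map_add' := map_add _
  map_smul' c ψ := by
    rcases i with ℓ | d
    · exact (heckeGrpPₗ M ℓ A R).map_smul c ψ
    · exact (diamondGrpₗ M A R d).map_smul c ψ

@[simp] theorem heckeGrpIₗ_apply (R : Type*) [Semiring R] [Module R A]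
    (ψ : Additive (Gpm M 1) →+ A) : heckeGrpIₗ M i A R ψ = heckeGrpI M i A ψ := rfl

/-- the operator at the index `i` on the parabolic homomorphisms. -/
noncomputable def heckeParI (R : Type*) [Semiring R] [Module R A] :
    parabolicHoms R (Gpm M 1) A →ₗ[R] parabolicHoms R (Gpm M 1) A :=
  (heckeGrpIₗ M i A R).restrict (fun _ hψ => heckeGrpI_mem_parabolicHoms M i R hψ)

@[simp] theorem coe_heckeParI (R : Type*) [Semiring R] [Module R A]
    (ψ : parabolicHoms R (Gpm M 1) A) :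
    ((heckeParI M i A R ψ : parabolicHoms R (Gpm M 1) A) : Additive (Gpm M 1) →+ A) =
      heckeGrpI M i A (ψ : Additive (Gpm M 1) →+ A) := rfl

end Grp

section Forms

variable (M : ℕ) [NeZero M]

/-- **the Hecke operator at a prime `ℓ`** on `S₂(Γ₁(M))`: `U_ℓ` if `ℓ ∣ M`, `T_ℓ` otherwise. -/
noncomputable def heckeOpP (ℓ : Nat.Primes) :
    CuspForm (Gamma1 M) 2 →ₗ[ℂ] CuspForm (Gamma1 M) 2 :=
  if h : (ℓ : ℕ) ∣ M then heckeU1 2 ℓ.2 h else DS48.heckeT1 2 ℓ.2 h

variable {M}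

theorem heckeOpP_of_dvd {ℓ : Nat.Primes} (h : (ℓ : ℕ) ∣ M) :
    heckeOpP M ℓ = heckeU1 2 ℓ.2 h := by
  rw [heckeOpP, dif_pos h]

theorem heckeOpP_of_not_dvd {ℓ : Nat.Primes} (h : ¬ (ℓ : ℕ) ∣ M) :
    heckeOpP M ℓ = DS48.heckeT1 2 ℓ.2 h := by
  rw [heckeOpP, dif_neg h]

variable (M)

/-- **the Hecke operator at the index `i`** on `S₂(Γ₁(M))`. -/
noncomputable def heckeOpI (i : HIdx M) :
    CuspForm (Gamma1 M) 2 →ₗ[ℂ] CuspForm (Gamma1 M) 2 :=
  Sum.elim (fun ℓ => heckeOpP M ℓ) (fun d => DS48.diamond 2 d) i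

@[simp] theorem heckeOpI_inl (ℓ : Nat.Primes) : heckeOpI M (Sum.inl ℓ) = heckeOpP M ℓ := rfl

@[simp] theorem heckeOpI_inr (d : (ZMod M)ˣ) : heckeOpI M (Sum.inr d) = DS48.diamond 2 d := rfl

/-- the period map of `S₂(Γ₁(M))`, with values in `Hom(±Γ₁(M), ℂ)`. -/
noncomputable def periodMap₁ : CuspForm (Gamma1 M) 2 →ₗ[ℂ] (Additive (Gpm M 1) →+ ℂ) :=
  (periodMapLinear (Gpm M 1)).comp (cuspFormGpmEquiv M).toLinearMap

theorem periodMap₁_apply (f : CuspForm (Gamma1 M) 2) :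
    periodMap₁ M f = periodMap (cuspFormGpmEquiv M f) := rfl

theorem periodMap₁_heckeOpP (ℓ : Nat.Primes) (f : CuspForm (Gamma1 M) 2) :
    periodMap₁ M (heckeOpP M ℓ f) = heckeGrpP M ℓ ℂ (periodMap₁ M f) := by
  by_cases h : (ℓ : ℕ) ∣ M
  · rw [heckeOpP_of_dvd h, heckeGrpP_of_dvd ℂ h]
    exact periodMap_heckeU1 M ℓ.2 h f
  · rw [heckeOpP_of_not_dvd h, heckeGrpP_of_not_dvd ℂ h]
    exact periodMap_heckeT1 M ℓ.2 h f

/-- **[PER1], uniform form.** -/
theorem periodMap₁_heckeOpI (i : HIdx M) (f : CuspForm (Gamma1 M) 2) :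
    periodMap₁ M (heckeOpI M i f) = heckeGrpI M i ℂ (periodMap₁ M f) := by
  rcases i with ℓ | d
  · exact periodMap₁_heckeOpP M ℓ f
  · exact periodMap_diamond M d f

/-- **the Eichler–Shimura map of `S₂(Γ₁(M))`**: `(f, g) ↦ (P f + ι P f) + (P g - ι P g)`. -/
noncomputable def periodHomPair₁ :
    (CuspForm (Gamma1 M) 2 × CuspForm (Gamma1 M) 2) →ₗ[ℂ] (Additive (Gpm M 1) →+ ℂ) :=
  (periodHomPairΓ (Gpm M 1)).comp
    ((cuspFormGpmEquiv M).toLinearMap.prodMap (cuspFormGpmEquiv M).toLinearMap)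

theorem periodHomPair₁_apply (f g : CuspForm (Gamma1 M) 2) :
    periodHomPair₁ M (f, g) =
      (periodMap₁ M f + charInvolutionΓ (Gpm M 1) ℂ ℂ (periodMap₁ M f)) +
        (periodMap₁ M g - charInvolutionΓ (Gpm M 1) ℂ ℂ (periodMap₁ M g)) :=
  periodHomPairΓ_apply (Gpm M 1) _ _

theorem periodHomPair₁_injective : Function.Injective (periodHomPair₁ M) := by
  have h1 := periodHomPairΓ_injective (Γ := Gpm M 1) (M * 1) (Gamma_le_Gpm M 1)
  intro x y hxy
  have h2 := h1 hxy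
  have h3 := Prod.ext_iff.mp h2
  exact Prod.ext ((cuspFormGpmEquiv M).injective h3.1) ((cuspFormGpmEquiv M).injective h3.2)

theorem periodMap₁_injective : Function.Injective (periodMap₁ M) := by
  intro f g hfg
  have h : periodHomPair₁ M (f, 0) = periodHomPair₁ M (g, 0) := by
    rw [periodHomPair₁_apply, periodHomPair₁_apply, hfg]
  exact (Prod.ext_iff.mp (periodHomPair₁_injective M h)).1

theorem periodHomPair₁_mem_parabolicHoms (f g : CuspForm (Gamma1 M) 2) :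
    periodHomPair₁ M (f, g) ∈ parabolicHoms ℂ (Gpm M 1) ℂ :=
  range_periodHomPairΓ_le (Gpm M 1) ⟨_, rfl⟩

theorem periodHomPair₁_heckeOpI (i : HIdx M) (f g : CuspForm (Gamma1 M) 2) :
    periodHomPair₁ M (heckeOpI M i f, heckeOpI M i g) =
      heckeGrpI M i ℂ (periodHomPair₁ M (f, g)) := by
  rw [periodHomPair₁_apply, periodHomPair₁_apply, periodMap₁_heckeOpI, periodMap₁_heckeOpI,
    map_add, map_add, map_sub, heckeGrpI_charInvolution, heckeGrpI_charInvolution]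

end Forms

section QU
variable {N : ℕ} [NeZero N]

/-- **q-coefficients of `U_p`** on `S_k(Γ₁(N))`. -/
theorem qCoeff_heckeU1 (k : ℤ) {p : ℕ} (hp : p.Prime) (hpN : p ∣ N)
    (f : CuspForm (Gamma1 N) k) (n : ℕ) :
    qCoeff (heckeU1 k hp hpN f) n = qCoeff f (n * p) := by
  have h1 := UpperHalfPlane.qCoeff_heckeU (DS48.periodic_cuspForm f) (CuspFormClass.holo f)
    (DS48.isBoundedAtImInfty_cuspForm f) k hp.ne_zero n
  rw [coe_heckeU1, h1, coeffHeckeU_apply]

end QU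

section Comm

variable (M : ℕ) [NeZero M]

/-- **the diamonds commute with all the Hecke operators on `S₂(Γ₁(M))`** (also with `U_ℓ`). -/
theorem diamond_heckeOpI_apply (d : (ZMod M)ˣ) (i : HIdx M) (f : CuspForm (Gamma1 M) 2) :
    DS48.diamond 2 d (heckeOpI M i f) = heckeOpI M i (DS48.diamond 2 d f) := by
  apply periodMap₁_injective M
  have h1 := periodMap₁_heckeOpI M (Sum.inr d) (heckeOpI M i f)
  have h2 := periodMap₁_heckeOpI M (Sum.inr d) f
  rw [heckeOpI_inr, heckeGrpI_inr] at h1 h2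
  rw [h1, periodMap₁_heckeOpI, periodMap₁_heckeOpI, h2, diamondGrp_heckeGrpI]

theorem diamond_heckeOpP_apply (d : (ZMod M)ˣ) (ℓ : Nat.Primes) (f : CuspForm (Gamma1 M) 2) :
    DS48.diamond 2 d (heckeOpP M ℓ f) = heckeOpP M ℓ (DS48.diamond 2 d f) :=
  diamond_heckeOpI_apply M d (Sum.inl ℓ) f

theorem heckeU1_comm_apply {p q : ℕ} (hp : p.Prime) (hpM : p ∣ M) (hq : q.Prime) (hqM : q ∣ M)
    (f : CuspForm (Gamma1 M) 2) :
    heckeU1 2 hp hpM (heckeU1 2 hq hqM f) = heckeU1 2 hq hqM (heckeU1 2 hp hpM f) := by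
  apply DS48.cuspForm_ext_qCoeff
  intro n
  rw [qCoeff_heckeU1, qCoeff_heckeU1, qCoeff_heckeU1, qCoeff_heckeU1]
  congr 1
  ring

theorem heckeU1_heckeT1_comm_apply {p q : ℕ} (hp : p.Prime) (hpM : p ∣ M) (hq : q.Prime)
    (hqM : ¬ q ∣ M) (f : CuspForm (Gamma1 M) 2) :
    heckeU1 2 hp hpM (DS48.heckeT1 2 hq hqM f) = DS48.heckeT1 2 hq hqM (heckeU1 2 hp hpM f) := by
  have hpq : p ≠ q := fun h => hqM (h ▸ hpM)
  have hqp : ¬ q ∣ p := fun h => hpq ((Nat.prime_dvd_prime_iff_eq hq hp).mp h).symm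
  have hd : DS48.diamond 2 (DS48.primeUnit M hq hqM) (heckeU1 2 hp hpM f) =
      heckeU1 2 hp hpM (DS48.diamond 2 (DS48.primeUnit M hq hqM) f) := by
    have h := diamond_heckeOpP_apply M (DS48.primeUnit M hq hqM) ⟨p, hp⟩ f
    rw [heckeOpP_of_dvd (ℓ := ⟨p, hp⟩) hpM] at h
    exact h
  apply DS48.cuspForm_ext_qCoeff
  intro n
  rw [qCoeff_heckeU1, DS48.qCoeff_heckeT1, DS48.qCoeff_heckeT1, qCoeff_heckeU1, hd]
  have e1 : q ∣ n * p ↔ q ∣ n :=
    ⟨fun h => (hq.dvd_mul.mp h).resolve_right hqp, fun h => Dvd.dvd.mul_right h p⟩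
  have e2 : n * p * q = n * q * p := by ring
  rw [e2]
  congr 1
  by_cases h : q ∣ n
  · rw [if_pos h, if_pos (e1.mpr h), qCoeff_heckeU1]
    congr 2
    exact (Nat.div_mul_right_comm h p).symm
  · rw [if_neg h, if_neg (fun h' => h (e1.mp h'))]

/-- **the Hecke operators at the primes commute on `S₂(Γ₁(M))`.** -/
theorem heckeOpP_comm (ℓ q : Nat.Primes) : Commute (heckeOpP M ℓ) (heckeOpP M q) := by
  by_cases h : (ℓ : ℕ) ∣ M <;> by_cases h' : (q : ℕ) ∣ M
  · rw [heckeOpP_of_dvd h, heckeOpP_of_dvd h']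
    exact LinearMap.ext fun f => heckeU1_comm_apply M ℓ.2 h q.2 h' f
  · rw [heckeOpP_of_dvd h, heckeOpP_of_not_dvd h']
    exact LinearMap.ext fun f => heckeU1_heckeT1_comm_apply M ℓ.2 h q.2 h' f
  · rw [heckeOpP_of_not_dvd h, heckeOpP_of_dvd h']
    exact LinearMap.ext fun f => (heckeU1_heckeT1_comm_apply M q.2 h' ℓ.2 h f).symm
  · rw [heckeOpP_of_not_dvd h, heckeOpP_of_not_dvd h']
    exact DS48.heckeT1_comm 2 ℓ.2 h q.2 h'

/-- **all the Hecke operators commute on `S₂(Γ₁(M))`.** -/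
theorem heckeOpI_comm (i j : HIdx M) : Commute (heckeOpI M i) (heckeOpI M j) := by
  rcases i with ℓ | d
  · rcases j with q | d'
    · exact heckeOpP_comm M ℓ q
    · exact LinearMap.ext fun f => (diamond_heckeOpP_apply M d' ℓ f).symm
  · exact LinearMap.ext fun f => diamond_heckeOpI_apply M d j f

end Comm


section Subring

variable (M : ℕ) [NeZero M]

/-- **the Eichler–Shimura hypothesis at level `Γ₁(M)`**: the (injective) map `periodHomPair₁ M`
is ONTO the parabolic homomorphisms.  This is helper9's `eichlerShimura_Gpm M 1 hg hle`, whose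
inputs (the genus of `±Γ₁(M)` and `g ≤ dim S₂`) come from [DICT1]. -/
class ESHyp : Prop where
  range_eq : LinearMap.range (periodHomPairΓ (Gpm M 1)) = parabolicHoms ℂ (Gpm M 1) ℂ

theorem ESHyp.of_genus {g : ℕ} (hg : IsGenusOf (Gpm M 1) g)
    (hle : g ≤ Module.finrank ℂ (CuspForm (Gpm M 1) 2)) : ESHyp M :=
  ⟨(eichlerShimura_Gpm M 1 hg hle).2.2.2⟩

/-- every parabolic homomorphism with complex coefficients is a period pair. -/
theorem exists_periodHomPair₁_eq [ESHyp M] {ψ : Additive (Gpm M 1) →+ ℂ}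
    (hψ : ψ ∈ parabolicHoms ℂ (Gpm M 1) ℂ) :
    ∃ f g : CuspForm (Gamma1 M) 2, periodHomPair₁ M (f, g) = ψ := by
  rw [← ESHyp.range_eq (M := M)] at hψ
  obtain ⟨⟨f, g⟩, h⟩ := hψ
  refine ⟨(cuspFormGpmEquiv M).symm f, (cuspFormGpmEquiv M).symm g, ?_⟩
  show periodHomPairΓ (Gpm M 1) (cuspFormGpmEquiv M ((cuspFormGpmEquiv M).symm f),
    cuspFormGpmEquiv M ((cuspFormGpmEquiv M).symm g)) = ψ
  rw [LinearEquiv.apply_symm_apply, LinearEquiv.apply_symm_apply]
  exact h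

/-- **commutativity on the complex parabolic homomorphisms.** -/
theorem heckeGrpI_comm_complex [ESHyp M] (i j : HIdx M) {ψ : Additive (Gpm M 1) →+ ℂ}
    (hψ : ψ ∈ parabolicHoms ℂ (Gpm M 1) ℂ) :
    heckeGrpI M i ℂ (heckeGrpI M j ℂ ψ) = heckeGrpI M j ℂ (heckeGrpI M i ℂ ψ) := by
  obtain ⟨f, g, rfl⟩ := exists_periodHomPair₁_eq M hψ
  rw [← periodHomPair₁_heckeOpI, ← periodHomPair₁_heckeOpI, ← periodHomPair₁_heckeOpI,
    ← periodHomPair₁_heckeOpI]
  have h1 : ∀ x, heckeOpI M i (heckeOpI M j x) = heckeOpI M j (heckeOpI M i x) := fun x =>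
    congrArg (fun T : Module.End ℂ (CuspForm (Gamma1 M) 2) => T x) (heckeOpI_comm M i j).eq
  rw [h1 f, h1 g]

/-- **commutativity on parabolic homomorphisms with coefficients in any abelian group embedded in
`ℂ`** (in particular `ℤ`, `ℚ`, number fields, …). -/
theorem heckeGrpI_comm_of_injective [ESHyp M] (i j : HIdx M) {A : Type*} [AddCommGroup A]
    (e : A →+ ℂ) (he : Function.Injective e) {ψ : Additive (Gpm M 1) →+ A}
    (hψ : ∀ γ : Gpm M 1, ((γ : SL(2, ℤ)) : Matrix (Fin 2) (Fin 2) ℤ).trace ^ 2 = 4 →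
      ψ (Additive.ofMul γ) = 0) :
    heckeGrpI M i A (heckeGrpI M j A ψ) = heckeGrpI M j A (heckeGrpI M i A ψ) := by
  have hpar : e.comp ψ ∈ parabolicHoms ℂ (Gpm M 1) ℂ := by
    rw [mem_parabolicHoms_iff]
    intro γ hγ
    show e (ψ (Additive.ofMul γ)) = 0
    rw [hψ γ hγ, map_zero]
  have h := heckeGrpI_comm_complex M i j hpar
  rw [heckeGrpI_comp, heckeGrpI_comp, heckeGrpI_comp, heckeGrpI_comp] at h
  refine AddMonoidHom.ext fun γ => he ?_
  exact congrArg (fun φ : Additive (Gpm M 1) →+ ℂ => φ γ) h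

end Subring

end Fermat.Agent.W1
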