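/-
W1 = [GRΓ1] (S48), package [MULT1₁] (helper2), part 1 (port of `GR/MULT1_helper2_Complex`):
**multiplicity one over `ℂ`**.  For a system of eigenvalues `a : HIdx M → ℂ` (eigenvalues of the
`T_ℓ`, `U_ℓ` AND of the diamonds), the eigenspace `E_a ⊆ Hom_par(±Γ₁(M), ℂ)` is, via the
Eichler–Shimura isomorphism `periodHomPair₁` (`[ESHyp M]`) and its Hecke equivariance ([PER1]), two
copies of the eigenspace `S₂(Γ₁(M))[a]`, which is at most a line by the `q`-expansion principle.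
-/
import Mathlib
import Fermat.Agent.W1.PER1_helper2_Ops
import Fermat.Agent.S49_Eigenform

set_option autoImplicit false
set_option linter.unusedSectionVars false

namespace Fermat.Agent.W1

open CongruenceSubgroup ModularForm Matrix ModularCurve.Period ModularFormClass Module
open scoped MatrixGroups
open Fermat.Agent.S49E Fermat.Agent.GR Fermat.Agent.W1.ES

section Forms

variable (M : ℕ) [NeZero M]

/-- the simultaneous eigenspace of all `T_ℓ`, `U_ℓ`, `⟨d⟩` in `S₂(Γ₁(M))` for the system `a`. -/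
def eigenForms (a : HIdx M → ℂ) : Submodule ℂ (CuspForm (Gamma1 M) 2) where
  carrier := {f | ∀ i : HIdx M, heckeOpI M i f = a i • f}
  add_mem' := by
    intro f g hf hg i
    rw [map_add, hf i, hg i, smul_add]
  zero_mem' := by
    intro i
    rw [map_zero, smul_zero]
  smul_mem' := by
    intro c f hf i
    rw [map_smul, hf i, smul_comm]

variable {M}

theorem mem_eigenForms {a : HIdx M → ℂ} {f : CuspForm (Gamma1 M) 2} :
    f ∈ eigenForms M a ↔ ∀ i : HIdx M, heckeOpI M i f = a i • f := Iff.rfl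

theorem qCoeff_sub₁ (f g : CuspForm (Gamma1 M) 2) (n : ℕ) :
    qCoeff (⇑(f - g : CuspForm (Gamma1 M) 2)) n = qCoeff f n - qCoeff g n :=
  DS48.qCoeff_sub (DS48.IsNice.of_cuspForm f) (DS48.IsNice.of_cuspForm g) n

theorem qCoeff_smul₁ (c : ℂ) (f : CuspForm (Gamma1 M) 2) (n : ℕ) :
    qCoeff (⇑(c • f : CuspForm (Gamma1 M) 2)) n = c * qCoeff f n :=
  DS48.qCoeff_smul (DS48.IsNice.of_cuspForm f) c n

theorem qCoeff_zero_eq_zero₁ (f : CuspForm (Gamma1 M) 2) : qCoeff f 0 = 0 :=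
  CuspFormClass.qExpansion_coeff_zero f one_pos (DS48.one_mem_strictPeriods_Gamma1 M)

theorem eq_zero_of_qCoeff_eq_zero₁ (f : CuspForm (Gamma1 M) 2) (h : ∀ n, qCoeff f n = 0) :
    f = 0 := by
  apply DS48.cuspForm_ext_qCoeff
  intro n
  rw [h n]
  have h0 := qCoeff_smul₁ (0 : ℂ) (0 : CuspForm (Gamma1 M) 2) n
  rw [zero_smul, zero_mul] at h0
  exact h0.symm

/-- **multiplicity one (q-expansion principle)**: a simultaneous eigenvector of all `T_ℓ`, `U_ℓ`
and `⟨d⟩` whose first coefficient vanishes is zero. -/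
theorem eq_zero_of_mem_eigenForms {a : HIdx M → ℂ} {f : CuspForm (Gamma1 M) 2}
    (hf : f ∈ eigenForms M a) (h1 : qCoeff f 1 = 0) : f = 0 := by
  classical
  set lam : ℕ → ℂ := fun p => if hp : p.Prime then a (Sum.inl ⟨p, hp⟩) else 0 with hlam
  set ε : ℕ → ℂ := fun p => if hp : p.Prime ∧ ¬ p ∣ M then
    (p : ℂ) * a (Sum.inr (DS48.primeUnit M hp.1 hp.2)) else 0 with hε
  have hrec : HeckeRec lam ε (fun n => qCoeff f n) := by
    intro p hp n
    have hfp := hf (Sum.inl ⟨p, hp⟩)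
    rw [heckeOpI_inl] at hfp
    have hl : lam p = a (Sum.inl ⟨p, hp⟩) := by simp only [hlam, dif_pos hp]
    by_cases hpM : p ∣ M
    · have h2 := qCoeff_heckeU1 2 hp hpM f n
      rw [heckeOpP_of_dvd (ℓ := ⟨p, hp⟩) hpM] at hfp
      rw [hfp, qCoeff_smul₁] at h2
      have he : ε p = 0 := by
        simp only [hε]
        rw [dif_neg (fun h => h.2 hpM)]
      simp only [he, zero_mul, ite_self, sub_zero]
      rw [hl]
      exact h2.symm
    · have h2 := DS48.qCoeff_heckeT1 2 hp hpM f n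
      rw [heckeOpP_of_not_dvd (ℓ := ⟨p, hp⟩) hpM] at hfp
      have hd := hf (Sum.inr (DS48.primeUnit M hp hpM))
      rw [heckeOpI_inr] at hd
      rw [hfp, hd, qCoeff_smul₁, qCoeff_smul₁] at h2
      have he : ε p = (p : ℂ) * a (Sum.inr (DS48.primeUnit M hp hpM)) := by
        simp only [hε]
        rw [dif_pos ⟨hp, hpM⟩]
      have hpow : (p : ℂ) ^ ((2 : ℤ) - 1) = p := by norm_num
      rw [hpow] at h2
      simp only [he]
      rw [hl, h2]
      split_ifs <;> ring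
  exact eq_zero_of_qCoeff_eq_zero₁ f (hrec.eq_zero_of_one (qCoeff_zero_eq_zero₁ f) h1)

/-- the eigenspace of a system of eigenvalues in `S₂(Γ₁(M))` is at most a line. -/
theorem exists_smul_eq_of_mem_eigenForms {a : HIdx M → ℂ} {f₀ f : CuspForm (Gamma1 M) 2}
    (hf₀ : f₀ ∈ eigenForms M a) (h0 : f₀ ≠ 0) (hf : f ∈ eigenForms M a) :
    ∃ c : ℂ, f = c • f₀ := by
  have h1 : qCoeff f₀ 1 ≠ 0 := fun h => h0 (eq_zero_of_mem_eigenForms hf₀ h)
  refine ⟨qCoeff f 1 / qCoeff f₀ 1, ?_⟩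
  have h2 : f - (qCoeff f 1 / qCoeff f₀ 1) • f₀ ∈ eigenForms M a :=
    (eigenForms M a).sub_mem hf ((eigenForms M a).smul_mem _ hf₀)
  have h3 := eq_zero_of_mem_eigenForms h2 (by
    rw [qCoeff_sub₁, qCoeff_smul₁, div_mul_cancel₀ _ h1, sub_self])
  exact sub_eq_zero.mp h3

end Forms

section Betti

variable (M : ℕ) [NeZero M] (F : Type*) [CommRing F]

/-- **the eigenspace `E_a`** of a system of eigenvalues `a` in the parabolic homomorphisms
`Hom_par(±Γ₁(M), F)`. -/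
def eigenPar (a : HIdx M → F) : Submodule F (Additive (Gpm M 1) →+ F) where
  carrier := {ψ | ψ ∈ parabolicHoms F (Gpm M 1) F ∧ ∀ ℓ : HIdx M, heckeGrpI M ℓ F ψ = a ℓ • ψ}
  add_mem' := by
    rintro ψ φ ⟨hψ, hψ'⟩ ⟨hφ, hφ'⟩
    refine ⟨(parabolicHoms F (Gpm M 1) F).add_mem hψ hφ, fun ℓ => ?_⟩
    rw [map_add, hψ' ℓ, hφ' ℓ, smul_add]
  zero_mem' := ⟨(parabolicHoms F (Gpm M 1) F).zero_mem, fun ℓ => by rw [map_zero, smul_zero]⟩
  smul_mem' := by
    rintro c ψ ⟨hψ, hψ'⟩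
    refine ⟨(parabolicHoms F (Gpm M 1) F).smul_mem c hψ, fun ℓ => ?_⟩
    have h := (heckeGrpIₗ M ℓ F F).map_smul c ψ
    rw [heckeGrpIₗ_apply, heckeGrpIₗ_apply] at h
    rw [h, hψ' ℓ, smul_comm]

/-- the `+1`-eigenspace of the involution `ι` in `E_a`. -/
def eigenParPlus (a : HIdx M → F) : Submodule F (Additive (Gpm M 1) →+ F) :=
  eigenPar M F a ⊓ LinearMap.ker (charInvolutionΓ (Gpm M 1) F F - LinearMap.id)

/-- the `-1`-eigenspace of the involution `ι` in `E_a`. -/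
def eigenParMinus (a : HIdx M → F) : Submodule F (Additive (Gpm M 1) →+ F) :=
  eigenPar M F a ⊓ LinearMap.ker (charInvolutionΓ (Gpm M 1) F F + LinearMap.id)

variable {M F}

theorem mem_eigenPar {a : HIdx M → F} {ψ : Additive (Gpm M 1) →+ F} :
    ψ ∈ eigenPar M F a ↔ ψ ∈ parabolicHoms F (Gpm M 1) F ∧
      ∀ ℓ : HIdx M, heckeGrpI M ℓ F ψ = a ℓ • ψ := Iff.rfl

theorem mem_eigenParPlus {a : HIdx M → F} {ψ : Additive (Gpm M 1) →+ F} :
    ψ ∈ eigenParPlus M F a ↔ ψ ∈ eigenPar M F a ∧ charInvolutionΓ (Gpm M 1) F F ψ = ψ := by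
  rw [eigenParPlus, Submodule.mem_inf, LinearMap.mem_ker, LinearMap.sub_apply, LinearMap.id_apply,
    sub_eq_zero]

theorem mem_eigenParMinus {a : HIdx M → F} {ψ : Additive (Gpm M 1) →+ F} :
    ψ ∈ eigenParMinus M F a ↔ ψ ∈ eigenPar M F a ∧ charInvolutionΓ (Gpm M 1) F F ψ = -ψ := by
  rw [eigenParMinus, Submodule.mem_inf, LinearMap.mem_ker, LinearMap.add_apply,
    LinearMap.id_apply, add_eq_zero_iff_eq_neg]

end Betti

section Complex

variable {M : ℕ} [NeZero M]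

theorem periodMap₁_neg (g : CuspForm (Gamma1 M) 2) :
    periodMap₁ M (-g) = -periodMap₁ M g :=
  (periodMap₁ M).map_neg g

/-- the involution `ι` acts as `(+1, -1)` on `S₂ × S₂`. -/
theorem charInvolution_periodHomPair₁ (f g : CuspForm (Gamma1 M) 2) :
    charInvolutionΓ (Gpm M 1) ℂ ℂ (periodHomPair₁ M (f, g)) =
      periodHomPair₁ M (f, -g) := by
  rw [periodHomPair₁_apply, periodHomPair₁_apply, periodMap₁_neg, map_add, map_add, map_sub,
    map_neg, charInvolutionΓ_charInvolutionΓ, charInvolutionΓ_charInvolutionΓ]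
  abel

theorem periodHomPair₁_mem_eigenPar_iff {a : HIdx M → ℂ} (f g : CuspForm (Gamma1 M) 2) :
    periodHomPair₁ M (f, g) ∈ eigenPar M ℂ a ↔
      f ∈ eigenForms M a ∧ g ∈ eigenForms M a := by
  rw [mem_eigenPar, mem_eigenForms, mem_eigenForms]
  constructor
  · rintro ⟨-, h⟩
    have h2 : ∀ ℓ : HIdx M, (heckeOpI M ℓ f, heckeOpI M ℓ g) = (a ℓ • f, a ℓ • g) := by
      intro ℓ
      apply periodHomPair₁_injective M
      rw [periodHomPair₁_heckeOpI, h ℓ, ← Prod.smul_mk, map_smul]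
    exact ⟨fun ℓ => (Prod.ext_iff.mp (h2 ℓ)).1, fun ℓ => (Prod.ext_iff.mp (h2 ℓ)).2⟩
  · rintro ⟨hf, hg⟩
    refine ⟨periodHomPair₁_mem_parabolicHoms M f g, fun ℓ => ?_⟩
    rw [← periodHomPair₁_heckeOpI, hf ℓ, hg ℓ, ← Prod.smul_mk, map_smul]

variable [ESHyp M]

/-- the structure of `E_a` over `ℂ`: it is spanned by `Φ(f₀, 0)` and `Φ(0, f₀)` for a non-zero
eigenform `f₀`. -/
theorem exists_eigenForm_of_eigenPar_ne_bot {a : HIdx M → ℂ} (h : eigenPar M ℂ a ≠ ⊥) :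
    ∃ f₀ : CuspForm (Gamma1 M) 2, f₀ ≠ 0 ∧ f₀ ∈ eigenForms M a := by
  obtain ⟨ψ, hψ, hψ0⟩ := (Submodule.ne_bot_iff _).mp h
  obtain ⟨f, g, rfl⟩ := exists_periodHomPair₁_eq M hψ.1
  obtain ⟨hf, hg⟩ := (periodHomPair₁_mem_eigenPar_iff f g).mp hψ
  by_cases hf0 : f = 0
  · by_cases hg0 : g = 0
    · exfalso
      apply hψ0
      rw [hf0, hg0]
      exact map_zero _
    · exact ⟨g, hg0, hg⟩
  · exact ⟨f, hf0, hf⟩

theorem eigenParPlus_eq_span {a : HIdx M → ℂ} {f₀ : CuspForm (Gamma1 M) 2} (h0 : f₀ ≠ 0)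
    (hf₀ : f₀ ∈ eigenForms M a) :
    eigenParPlus M ℂ a = Submodule.span ℂ {periodHomPair₁ M (f₀, 0)} := by
  apply le_antisymm
  · intro ψ hψ
    obtain ⟨hψ1, hψ2⟩ := mem_eigenParPlus.mp hψ
    obtain ⟨f, g, rfl⟩ := exists_periodHomPair₁_eq M hψ1.1
    obtain ⟨hf, hg⟩ := (periodHomPair₁_mem_eigenPar_iff f g).mp hψ1
    rw [charInvolution_periodHomPair₁] at hψ2
    have h2 := (Prod.ext_iff.mp (periodHomPair₁_injective M hψ2)).2
    have hg0 : g = 0 := by
      have h3 : g = -g := h2.symm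
      have h4 : (2 : ℂ) • g = 0 := by
        rw [two_smul]
        nth_rewrite 1 [h3]
        exact neg_add_cancel g
      exact (smul_eq_zero.mp h4).resolve_left two_ne_zero
    obtain ⟨c, rfl⟩ := exists_smul_eq_of_mem_eigenForms hf₀ h0 hf
    rw [Submodule.mem_span_singleton]
    refine ⟨c, ?_⟩
    rw [← map_smul, hg0, Prod.smul_mk, smul_zero]
  · rw [Submodule.span_singleton_le_iff_mem, mem_eigenParPlus]
    refine ⟨(periodHomPair₁_mem_eigenPar_iff f₀ 0).mpr ⟨hf₀, (eigenForms M a).zero_mem⟩, ?_⟩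
    rw [charInvolution_periodHomPair₁, neg_zero]

theorem eigenParMinus_eq_span {a : HIdx M → ℂ} {f₀ : CuspForm (Gamma1 M) 2} (h0 : f₀ ≠ 0)
    (hf₀ : f₀ ∈ eigenForms M a) :
    eigenParMinus M ℂ a = Submodule.span ℂ {periodHomPair₁ M (0, f₀)} := by
  apply le_antisymm
  · intro ψ hψ
    obtain ⟨hψ1, hψ2⟩ := mem_eigenParMinus.mp hψ
    obtain ⟨f, g, rfl⟩ := exists_periodHomPair₁_eq M hψ1.1
    obtain ⟨hf, hg⟩ := (periodHomPair₁_mem_eigenPar_iff f g).mp hψ1
    rw [charInvolution_periodHomPair₁, ← map_neg] at hψ2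
    have h2 := (Prod.ext_iff.mp (periodHomPair₁_injective M hψ2)).1
    have hf0 : f = 0 := by
      have h3 : f = -f := h2
      have h4 : (2 : ℂ) • f = 0 := by
        rw [two_smul]
        nth_rewrite 1 [h3]
        exact neg_add_cancel f
      exact (smul_eq_zero.mp h4).resolve_left two_ne_zero
    obtain ⟨c, rfl⟩ := exists_smul_eq_of_mem_eigenForms hf₀ h0 hg
    rw [Submodule.mem_span_singleton]
    refine ⟨c, ?_⟩
    rw [← map_smul, hf0, Prod.smul_mk, smul_zero]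
  · rw [Submodule.span_singleton_le_iff_mem, mem_eigenParMinus]
    refine ⟨(periodHomPair₁_mem_eigenPar_iff 0 f₀).mpr ⟨(eigenForms M a).zero_mem, hf₀⟩, ?_⟩
    rw [charInvolution_periodHomPair₁, ← map_neg, Prod.neg_mk, neg_zero]

theorem eigenPar_eq_span {a : HIdx M → ℂ} {f₀ : CuspForm (Gamma1 M) 2} (h0 : f₀ ≠ 0)
    (hf₀ : f₀ ∈ eigenForms M a) :
    eigenPar M ℂ a = Submodule.span ℂ (Set.range
      ![periodHomPair₁ M (f₀, 0), periodHomPair₁ M (0, f₀)]) := by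
  apply le_antisymm
  · intro ψ hψ
    obtain ⟨f, g, rfl⟩ := exists_periodHomPair₁_eq M hψ.1
    obtain ⟨hf, hg⟩ := (periodHomPair₁_mem_eigenPar_iff f g).mp hψ
    obtain ⟨c, rfl⟩ := exists_smul_eq_of_mem_eigenForms hf₀ h0 hf
    obtain ⟨d, rfl⟩ := exists_smul_eq_of_mem_eigenForms hf₀ h0 hg
    have h1 : periodHomPair₁ M (c • f₀, d • f₀) =
        c • periodHomPair₁ M (f₀, 0) + d • periodHomPair₁ M (0, f₀) := by
      rw [← map_smul, ← map_smul, ← map_add]
      congr 1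
      simp
    rw [h1]
    refine Submodule.add_mem _ (Submodule.smul_mem _ _ (Submodule.subset_span ⟨0, rfl⟩))
      (Submodule.smul_mem _ _ (Submodule.subset_span ⟨1, rfl⟩))
  · rw [Submodule.span_le]
    rintro _ ⟨i, rfl⟩
    fin_cases i
    · exact (periodHomPair₁_mem_eigenPar_iff f₀ 0).mpr ⟨hf₀, (eigenForms M a).zero_mem⟩
    · exact (periodHomPair₁_mem_eigenPar_iff 0 f₀).mpr ⟨(eigenForms M a).zero_mem, hf₀⟩

/-- **(MULT1) over `ℂ`**: if the system of eigenvalues `a` occurs in the parabolic cohomology, its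
eigenspace is two-dimensional, and the `± 1`-eigenspaces of `ι` in it are lines. -/
theorem mult1_complex {a : HIdx M → ℂ} (h : eigenPar M ℂ a ≠ ⊥) :
    finrank ℂ ↥(eigenParPlus M ℂ a) = 1 ∧ finrank ℂ ↥(eigenParMinus M ℂ a) = 1 ∧
      finrank ℂ ↥(eigenPar M ℂ a) = 2 := by
  obtain ⟨f₀, h0, hf₀⟩ := exists_eigenForm_of_eigenPar_ne_bot h
  have hinj := periodHomPair₁_injective M
  have hv1 : periodHomPair₁ M (f₀, 0) ≠ 0 := by
    intro h1
    rw [← map_zero (periodHomPair₁ M)] at h1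
    exact h0 (Prod.ext_iff.mp (hinj h1)).1
  have hv2 : periodHomPair₁ M (0, f₀) ≠ 0 := by
    intro h1
    rw [← map_zero (periodHomPair₁ M)] at h1
    exact h0 (Prod.ext_iff.mp (hinj h1)).2
  refine ⟨?_, ?_, ?_⟩
  · rw [eigenParPlus_eq_span h0 hf₀]
    exact finrank_span_singleton hv1
  · rw [eigenParMinus_eq_span h0 hf₀]
    exact finrank_span_singleton hv2
  · rw [eigenPar_eq_span h0 hf₀]
    have hli : LinearIndependent ℂ
        ![periodHomPair₁ M (f₀, 0), periodHomPair₁ M (0, f₀)] := by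
      rw [LinearIndependent.pair_iff]
      intro s t hst
      rw [← map_smul, ← map_smul, ← map_add, ← map_zero (periodHomPair₁ M)] at hst
      have h2 := Prod.ext_iff.mp (hinj hst)
      simp only [Prod.smul_mk, smul_zero, Prod.mk_add_mk, add_zero, zero_add, Prod.fst_zero,
        Prod.snd_zero] at h2
      exact ⟨(smul_eq_zero.mp h2.1).resolve_right h0, (smul_eq_zero.mp h2.2).resolve_right h0⟩
    rw [finrank_span_eq_card hli]
    rfl

end Complex

end Fermat.Agent.W1
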