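/-
W1 = [GRΓ1] (S48), package [MULT1₁] (helper2), part 2 (port of `GR/MULT1_helper2_Field`; the
linear algebra of `GR/MULT1_helper2_BaseChange` is generic in `Γ` and used as is):
**multiplicity one over every field of characteristic `0`**.
* `eigenParOn M F σ a`: the eigenspace of the operators at the indices in `σ ⊆ HIdx M` only;
* `finrank_eigenParOn_map`, `finrank_eigenPar_map`, `finrank_eigenParPlus_map`,
  `finrank_eigenParMinus_map`: invariance of the dimensions under extension of the coefficients;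
* `isIntegral_of_heckeGrpI_eq_smul`: eigenvalues of the Hecke operators on the parabolic
  homomorphisms are algebraic integers;
* `mult1_field`: for a field `F` of characteristic `0` and a system of eigenvalues `a` occurring in
  `Hom_par(±Γ₁(M), F)`, the eigenspace `E_a` has dimension `2` and its `±`-parts have dimension `1`.
-/
import Mathlib
import Fermat.Agent.GR.MULT1_helper2_BaseChange
import Fermat.Agent.W1.MULT1_helper2_Complex

set_option autoImplicit false
set_option linter.unusedSectionVars false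
set_option linter.style.haveILetI false

namespace Fermat.Agent.W1

open TensorProduct CongruenceSubgroup ModularCurve.Period
open scoped MatrixGroups
open Fermat.Agent.GR Fermat.Agent.W1.ES

instance group_fg_Gpm (M : ℕ) [NeZero M] : Group.FG ↥(Gpm M 1) :=
  Subgroup.fg_of_index_ne_zero (Gpm M 1)

section EigenOn

variable (M : ℕ) [NeZero M] (F : Type*) [CommRing F]

/-- the eigenspace of the Hecke operators at the primes in `σ`, with eigenvalues `a ℓ`, in the
parabolic homomorphisms. -/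
def eigenParOn (σ : Set (HIdx M)) (a : HIdx M → F) :
    Submodule F (Additive (Gpm M 1) →+ F) where
  carrier := {ψ | ψ ∈ parabolicHoms F (Gpm M 1) F ∧ ∀ ℓ ∈ σ, heckeGrpI M ℓ F ψ = a ℓ • ψ}
  add_mem' := by
    rintro ψ φ ⟨hψ, hψ'⟩ ⟨hφ, hφ'⟩
    refine ⟨(parabolicHoms F (Gpm M 1) F).add_mem hψ hφ, fun ℓ hℓ => ?_⟩
    rw [map_add, hψ' ℓ hℓ, hφ' ℓ hℓ, smul_add]
  zero_mem' := ⟨(parabolicHoms F (Gpm M 1) F).zero_mem, fun ℓ _ => by rw [map_zero, smul_zero]⟩
  smul_mem' := by
    rintro c ψ ⟨hψ, hψ'⟩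
    refine ⟨(parabolicHoms F (Gpm M 1) F).smul_mem c hψ, fun ℓ hℓ => ?_⟩
    have h := (heckeGrpIₗ M ℓ F F).map_smul c ψ
    rw [heckeGrpIₗ_apply, heckeGrpIₗ_apply] at h
    rw [h, hψ' ℓ hℓ, smul_comm]

/-- the operator `T_ℓ - c`. -/
noncomputable def heckeShift (ℓ : HIdx M) (c : F) :
    (Additive (Gpm M 1) →+ F) →ₗ[F] (Additive (Gpm M 1) →+ F) :=
  heckeGrpIₗ M ℓ F F - c • LinearMap.id

variable {M F}

theorem mem_eigenParOn {σ : Set (HIdx M)} {a : HIdx M → F}
    {ψ : Additive (Gpm M 1) →+ F} :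
    ψ ∈ eigenParOn M F σ a ↔ ψ ∈ parabolicHoms F (Gpm M 1) F ∧
      ∀ ℓ ∈ σ, heckeGrpI M ℓ F ψ = a ℓ • ψ := Iff.rfl

theorem eigenParOn_univ (a : HIdx M → F) : eigenParOn M F Set.univ a = eigenPar M F a := by
  ext ψ
  rw [mem_eigenParOn, mem_eigenPar]
  exact ⟨fun h => ⟨h.1, fun ℓ => h.2 ℓ (Set.mem_univ _)⟩, fun h => ⟨h.1, fun ℓ _ => h.2 ℓ⟩⟩

theorem eigenPar_le_eigenParOn (σ : Set (HIdx M)) (a : HIdx M → F) :
    eigenPar M F a ≤ eigenParOn M F σ a :=
  fun _ h => ⟨h.1, fun ℓ _ => h.2 ℓ⟩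

theorem eigenParOn_congr {σ : Set (HIdx M)} {a a' : HIdx M → F}
    (h : ∀ ℓ ∈ σ, a ℓ = a' ℓ) : eigenParOn M F σ a = eigenParOn M F σ a' := by
  ext ψ
  rw [mem_eigenParOn, mem_eigenParOn]
  refine and_congr Iff.rfl (forall₂_congr fun ℓ hℓ => ?_)
  rw [h ℓ hℓ]

theorem heckeShift_apply (ℓ : HIdx M) (c : F) (ψ : Additive (Gpm M 1) →+ F) :
    heckeShift M F ℓ c ψ = heckeGrpI M ℓ F ψ - c • ψ := rfl

theorem heckeShift_mem (ℓ : HIdx M) (c : F) {ψ : Additive (Gpm M 1) →+ F}
    (hψ : ψ ∈ parabolicHoms F (Gpm M 1) F) :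
    heckeShift M F ℓ c ψ ∈ parabolicHoms F (Gpm M 1) F := by
  rw [heckeShift_apply]
  exact (parabolicHoms F (Gpm M 1) F).sub_mem (heckeGrpI_mem_parabolicHoms M ℓ F hψ)
    ((parabolicHoms F (Gpm M 1) F).smul_mem c hψ)

theorem eigenParOn_eq_inf (σ : Set (HIdx M)) (a : HIdx M → F) :
    eigenParOn M F σ a = parabolicHoms F (Gpm M 1) F ⊓
      ⨅ ℓ : σ, LinearMap.ker (heckeShift M F ℓ.1 (a ℓ.1)) := by
  ext ψ
  rw [mem_eigenParOn, Submodule.mem_inf, Submodule.mem_iInf]
  refine and_congr Iff.rfl ?_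
  constructor
  · rintro h ⟨ℓ, hℓ⟩
    rw [LinearMap.mem_ker, heckeShift_apply, h ℓ hℓ, sub_self]
  · intro h ℓ hℓ
    have := h ⟨ℓ, hℓ⟩
    rwa [LinearMap.mem_ker, heckeShift_apply, sub_eq_zero] at this

/-- the operator `ι - s`. -/
noncomputable def signShift (M : ℕ) [NeZero M] (F : Type*) [CommRing F] (s : F) :
    (Additive (Gpm M 1) →+ F) →ₗ[F] (Additive (Gpm M 1) →+ F) :=
  charInvolutionΓ (Gpm M 1) F F - s • LinearMap.id

theorem signShift_apply (s : F) (ψ : Additive (Gpm M 1) →+ F) :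
    signShift M F s ψ = charInvolutionΓ (Gpm M 1) F F ψ - s • ψ := rfl

/-- the family of operators cutting out `E_a^{+}` (`s = 1`) resp. `E_a^{-}` (`s = -1`). -/
noncomputable def signedFamily (M : ℕ) [NeZero M] (F : Type*) [CommRing F] (s : F) (a : HIdx M → F) :
    Option (HIdx M) → (Additive (Gpm M 1) →+ F) →ₗ[F] (Additive (Gpm M 1) →+ F)
  | none => signShift M F s
  | some ℓ => heckeShift M F ℓ (a ℓ)

theorem eigenParPlus_eq_inf (a : HIdx M → F) :
    eigenParPlus M F a = parabolicHoms F (Gpm M 1) F ⊓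
      ⨅ i, LinearMap.ker (signedFamily M F 1 a i) := by
  ext ψ
  rw [mem_eigenParPlus, mem_eigenPar, Submodule.mem_inf, Submodule.mem_iInf, Option.forall]
  rw [and_assoc]
  refine and_congr Iff.rfl ?_
  rw [and_comm]
  refine and_congr ?_ (forall_congr' fun ℓ => ?_)
  · show _ ↔ signShift M F 1 ψ = 0
    rw [signShift_apply, one_smul, sub_eq_zero]
  · show _ ↔ heckeShift M F ℓ (a ℓ) ψ = 0
    rw [heckeShift_apply, sub_eq_zero]

theorem eigenParMinus_eq_inf (a : HIdx M → F) :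
    eigenParMinus M F a = parabolicHoms F (Gpm M 1) F ⊓
      ⨅ i, LinearMap.ker (signedFamily M F (-1) a i) := by
  ext ψ
  rw [mem_eigenParMinus, mem_eigenPar, Submodule.mem_inf, Submodule.mem_iInf, Option.forall]
  rw [and_assoc]
  refine and_congr Iff.rfl ?_
  rw [and_comm]
  refine and_congr ?_ (forall_congr' fun ℓ => ?_)
  · show _ ↔ signShift M F (-1) ψ = 0
    rw [signShift_apply, neg_smul, one_smul, sub_neg_eq_add, add_eq_zero_iff_eq_neg]
  · show _ ↔ heckeShift M F ℓ (a ℓ) ψ = 0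
    rw [heckeShift_apply, sub_eq_zero]

theorem signedFamily_mem (s : F) (a : HIdx M → F) (i : Option (HIdx M))
    {ψ : Additive (Gpm M 1) →+ F} (hψ : ψ ∈ parabolicHoms F (Gpm M 1) F) :
    signedFamily M F s a i ψ ∈ parabolicHoms F (Gpm M 1) F := by
  cases i with
  | none =>
    show signShift M F s ψ ∈ _
    rw [signShift_apply]
    exact (parabolicHoms F (Gpm M 1) F).sub_mem (charInvolutionΓ_mem_parabolicHoms (Gpm M 1) F F hψ)
      ((parabolicHoms F (Gpm M 1) F).smul_mem s hψ)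
  | some ℓ => exact heckeShift_mem ℓ (a ℓ) hψ

end EigenOn

section Map

variable {M : ℕ} [NeZero M] (K F : Type*) [Field K] [Field F] [Algebra K F]

theorem comp_smul_algebraMap (c : K) (ψ : Additive (Gpm M 1) →+ K) :
    (algebraMap K F : K →+ F).comp (c • ψ) =
      algebraMap K F c • (algebraMap K F : K →+ F).comp ψ := by
  refine AddMonoidHom.ext fun γ => ?_
  show algebraMap K F (c • ψ γ) = algebraMap K F c • algebraMap K F (ψ γ)
  rw [smul_eq_mul, map_mul, smul_eq_mul]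

theorem heckeShift_comp_algebraMap (ℓ : HIdx M) (c : K) (ψ : Additive (Gpm M 1) →+ K) :
    heckeShift M F ℓ (algebraMap K F c) ((algebraMap K F : K →+ F).comp ψ) =
      (algebraMap K F : K →+ F).comp (heckeShift M K ℓ c ψ) := by
  rw [heckeShift_apply, heckeShift_apply, heckeGrpI_comp, ← comp_smul_algebraMap]
  refine AddMonoidHom.ext fun γ => ?_
  show algebraMap K F _ - algebraMap K F _ = algebraMap K F (_ - _)
  rw [map_sub]

theorem signedFamily_comp_algebraMap (s : K) (a₀ : HIdx M → K) (i : Option (HIdx M))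
    (ψ : Additive (Gpm M 1) →+ K) :
    signedFamily M F (algebraMap K F s) (fun ℓ => algebraMap K F (a₀ ℓ)) i
        ((algebraMap K F : K →+ F).comp ψ) =
      (algebraMap K F : K →+ F).comp (signedFamily M K s a₀ i ψ) := by
  cases i with
  | none =>
    show signShift M F (algebraMap K F s) _ =
      (algebraMap K F : K →+ F).comp (signShift M K s ψ)
    rw [signShift_apply, signShift_apply, ← comp_smul_algebraMap]
    refine AddMonoidHom.ext fun γ => ?_
    show algebraMap K F _ - algebraMap K F _ = algebraMap K F (_ - _)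
    rw [map_sub]
    rfl
  | some ℓ => exact heckeShift_comp_algebraMap K F ℓ (a₀ ℓ) ψ

variable [CharZero K] [CharZero F]

/-- **the dimension of a Hecke eigenspace is invariant under extension of the coefficients.** -/
theorem finrank_eigenParOn_map (σ : Set (HIdx M)) (a₀ : HIdx M → K) :
    Module.finrank F ↥(eigenParOn M F σ (fun ℓ => algebraMap K F (a₀ ℓ))) =
      Module.finrank K ↥(eigenParOn M K σ a₀) := by
  rw [eigenParOn_eq_inf, eigenParOn_eq_inf]
  exact finrank_par_inf_iInf_ker K F (Gpm M 1)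
    (fun ℓ : σ => heckeShift M K ℓ.1 (a₀ ℓ.1))
    (fun ℓ : σ => heckeShift M F ℓ.1 (algebraMap K F (a₀ ℓ.1)))
    (fun ℓ _ hψ => heckeShift_mem ℓ.1 _ hψ) (fun ℓ _ hψ => heckeShift_mem ℓ.1 _ hψ)
    (fun ℓ ψ => heckeShift_comp_algebraMap K F ℓ.1 (a₀ ℓ.1) ψ)

theorem finrank_eigenPar_map (a₀ : HIdx M → K) :
    Module.finrank F ↥(eigenPar M F (fun ℓ => algebraMap K F (a₀ ℓ))) =
      Module.finrank K ↥(eigenPar M K a₀) := by
  rw [← eigenParOn_univ, ← eigenParOn_univ]
  exact finrank_eigenParOn_map K F Set.univ a₀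

theorem finrank_eigenParPlus_map (a₀ : HIdx M → K) :
    Module.finrank F ↥(eigenParPlus M F (fun ℓ => algebraMap K F (a₀ ℓ))) =
      Module.finrank K ↥(eigenParPlus M K a₀) := by
  rw [eigenParPlus_eq_inf, eigenParPlus_eq_inf]
  have h := finrank_par_inf_iInf_ker K F (Gpm M 1)
    (signedFamily M K 1 a₀)
    (signedFamily M F (algebraMap K F 1) (fun ℓ => algebraMap K F (a₀ ℓ)))
    (fun i _ hψ => signedFamily_mem _ _ i hψ) (fun i _ hψ => signedFamily_mem _ _ i hψ)
    (fun i ψ => signedFamily_comp_algebraMap K F 1 a₀ i ψ)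
  rwa [map_one] at h

theorem finrank_eigenParMinus_map (a₀ : HIdx M → K) :
    Module.finrank F ↥(eigenParMinus M F (fun ℓ => algebraMap K F (a₀ ℓ))) =
      Module.finrank K ↥(eigenParMinus M K a₀) := by
  rw [eigenParMinus_eq_inf, eigenParMinus_eq_inf]
  have h := finrank_par_inf_iInf_ker K F (Gpm M 1)
    (signedFamily M K (-1) a₀)
    (signedFamily M F (algebraMap K F (-1)) (fun ℓ => algebraMap K F (a₀ ℓ)))
    (fun i _ hψ => signedFamily_mem _ _ i hψ) (fun i _ hψ => signedFamily_mem _ _ i hψ)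
    (fun i ψ => signedFamily_comp_algebraMap K F (-1) a₀ i ψ)
  rwa [map_neg, map_one] at h

end Map

section Integral

variable {M : ℕ} [NeZero M] {F : Type*} [Field F] [CharZero F]

/-- the Hecke operators on `Hom_par(±Γ₁(M), F)` are the base changes of the integral ones. -/
theorem heckeParI_parTheta (ℓ : HIdx M) (x : F ⊗[ℤ] ↥(parabolicHoms ℤ (Gpm M 1) ℤ)) :
    heckeParI M ℓ F F (parTheta F (Gpm M 1) F x) =
      parTheta F (Gpm M 1) F ((heckeParI M ℓ ℤ ℤ).baseChange F x) := by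
  have h := parTheta_natural_of_comp F (Gpm M 1) F (heckeGrpI M ℓ ℤ) (heckeGrpI M ℓ F)
    (fun f ψ => heckeGrpI_comp M ℓ f ψ) (heckeParI M ℓ ℤ ℤ) (fun ψ => rfl)
    (heckeParI M ℓ F F) (fun ψ => rfl) x
  rw [h]
  rfl

/-- **eigenvalues of the Hecke operators on the parabolic homomorphisms are algebraic
integers.** -/
theorem isIntegral_of_heckeGrpI_eq_smul {ℓ : HIdx M} {c : F}
    {ψ : Additive (Gpm M 1) →+ F} (hψ : ψ ∈ parabolicHoms F (Gpm M 1) F) (h0 : ψ ≠ 0)
    (h : heckeGrpI M ℓ F ψ = c • ψ) : IsIntegral ℤ c := by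
  set x := (parTheta F (Gpm M 1) F).symm ⟨ψ, hψ⟩ with hx
  have hx0 : x ≠ 0 := by
    intro h'
    apply h0
    have h1 : parTheta F (Gpm M 1) F x = ⟨ψ, hψ⟩ := LinearEquiv.apply_symm_apply _ _
    rw [h', map_zero] at h1
    exact (congrArg Subtype.val h1).symm
  have hTx : (heckeParI M ℓ ℤ ℤ).baseChange F x = c • x := by
    apply (parTheta F (Gpm M 1) F).injective
    rw [← heckeParI_parTheta, map_smul, hx, LinearEquiv.apply_symm_apply]
    apply Subtype.ext
    exact h
  have hev : Module.End.HasEigenvalue ((heckeParI M ℓ ℤ ℤ).baseChange F) c :=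
    Module.End.hasEigenvalue_of_hasEigenvector ⟨Module.End.mem_eigenspace_iff.2 hTx, hx0⟩
  rw [Module.End.hasEigenvalue_iff_isRoot_charpoly, LinearMap.charpoly_baseChange] at hev
  refine ⟨(heckeParI M ℓ ℤ ℤ).charpoly, LinearMap.charpoly_monic _, ?_⟩
  rw [← Polynomial.eval_map]
  exact hev

theorem isIntegral_of_eigenParOn_ne_bot {σ : Set (HIdx M)} {a : HIdx M → F}
    (h : eigenParOn M F σ a ≠ ⊥) {ℓ : HIdx M} (hℓ : ℓ ∈ σ) : IsIntegral ℤ (a ℓ) := by
  obtain ⟨ψ, hψ, h0⟩ := (Submodule.ne_bot_iff _).1 h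
  exact isIntegral_of_heckeGrpI_eq_smul hψ.1 h0 (hψ.2 ℓ hℓ)

theorem isIntegral_of_eigenPar_ne_bot {a : HIdx M → F} (h : eigenPar M F a ≠ ⊥)
    (ℓ : HIdx M) : IsIntegral ℤ (a ℓ) := by
  obtain ⟨ψ, hψ, h0⟩ := (Submodule.ne_bot_iff _).1 h
  exact isIntegral_of_heckeGrpI_eq_smul hψ.1 h0 (hψ.2 ℓ)

end Integral

section Mult1

variable {M : ℕ} [NeZero M] {F : Type*} [Field F] [CharZero F]

instance eigenParOn_moduleFinite (σ : Set (HIdx M)) (a : HIdx M → F) :
    Module.Finite F ↥(eigenParOn M F σ a) := by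
  have : IsNoetherian F ↥(parabolicHoms F (Gpm M 1) F) := inferInstance
  exact Module.Finite.of_injective
    (Submodule.inclusion (fun ψ hψ => hψ.1 : eigenParOn M F σ a ≤ parabolicHoms F (Gpm M 1) F))
    (Submodule.inclusion_injective _)

instance eigenPar_moduleFinite (a : HIdx M → F) : Module.Finite F ↥(eigenPar M F a) := by
  have : IsNoetherian F ↥(parabolicHoms F (Gpm M 1) F) := inferInstance
  exact Module.Finite.of_injective
    (Submodule.inclusion (fun ψ hψ => hψ.1 : eigenPar M F a ≤ parabolicHoms F (Gpm M 1) F))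
    (Submodule.inclusion_injective _)

instance eigenParPlus_moduleFinite (a : HIdx M → F) : Module.Finite F ↥(eigenParPlus M F a) :=
  Submodule.finiteDimensional_of_le (inf_le_left : eigenParPlus M F a ≤ eigenPar M F a)

instance eigenParMinus_moduleFinite (a : HIdx M → F) : Module.Finite F ↥(eigenParMinus M F a) :=
  Submodule.finiteDimensional_of_le (inf_le_left : eigenParMinus M F a ≤ eigenPar M F a)

variable [ESHyp M]

/-- **(MULT1), multiplicity one over a field of characteristic `0`**: if the system of eigenvalues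
`a` occurs in `Hom_par(±Γ₁(M), F)`, then `E_a` has dimension `2` and `E_a^{±}` have dimension `1`. -/
theorem mult1_field {a : HIdx M → F} (h : eigenPar M F a ≠ ⊥) :
    Module.finrank F ↥(eigenParPlus M F a) = 1 ∧ Module.finrank F ↥(eigenParMinus M F a) = 1 ∧
      Module.finrank F ↥(eigenPar M F a) = 2 := by
  -- the eigenvalues are algebraic
  have halg : ∀ ℓ, a ℓ ∈ algebraicClosure ℚ F := by
    intro ℓ
    rw [mem_algebraicClosure_iff']
    exact (isIntegral_of_eigenPar_ne_bot h ℓ).tower_top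
  let a₀ : HIdx M → algebraicClosure ℚ F := fun ℓ => ⟨a ℓ, halg ℓ⟩
  have ha : a = fun ℓ => algebraMap (algebraicClosure ℚ F) F (a₀ ℓ) := rfl
  -- embed into `ℂ`
  haveI : Algebra.IsAlgebraic ℚ ↥(algebraicClosure ℚ F) := algebraicClosure.isAlgebraic ℚ F
  let σ : algebraicClosure ℚ F →ₐ[ℚ] ℂ := IsAlgClosed.lift
  let _ : Algebra (algebraicClosure ℚ F) ℂ := σ.toRingHom.toAlgebra
  have h1 := finrank_eigenPar_map (algebraicClosure ℚ F) F (M := M) a₀
  have h2 := finrank_eigenParPlus_map (algebraicClosure ℚ F) F (M := M) a₀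
  have h3 := finrank_eigenParMinus_map (algebraicClosure ℚ F) F (M := M) a₀
  have h1' := finrank_eigenPar_map (algebraicClosure ℚ F) ℂ (M := M) a₀
  have h2' := finrank_eigenParPlus_map (algebraicClosure ℚ F) ℂ (M := M) a₀
  have h3' := finrank_eigenParMinus_map (algebraicClosure ℚ F) ℂ (M := M) a₀
  rw [← ha] at h1 h2 h3
  have hpos : 0 < Module.finrank F ↥(eigenPar M F a) := by
    rw [Module.finrank_pos_iff_exists_ne_zero (R := F) (M := ↥(eigenPar M F a))]
    obtain ⟨ψ, hψ, h0⟩ := (Submodule.ne_bot_iff _).1 h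
    exact ⟨⟨ψ, hψ⟩, fun h' => h0 (congrArg Subtype.val h')⟩
  have hne : eigenPar M ℂ (fun ℓ => algebraMap (algebraicClosure ℚ F) ℂ (a₀ ℓ)) ≠ ⊥ := by
    intro hbot
    rw [hbot, finrank_bot] at h1'
    omega
  obtain ⟨m1, m2, m3⟩ := mult1_complex hne
  refine ⟨?_, ?_, ?_⟩ <;> omega

/-- the `+`-part and the `-`-part of `E_a` are nonzero as soon as `E_a` is. -/
theorem eigenParPlus_ne_bot {a : HIdx M → F} (h : eigenPar M F a ≠ ⊥) :
    eigenParPlus M F a ≠ ⊥ := by
  intro hbot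
  have := (mult1_field h).1
  rw [hbot, finrank_bot] at this
  omega

theorem eigenParMinus_ne_bot {a : HIdx M → F} (h : eigenPar M F a ≠ ⊥) :
    eigenParMinus M F a ≠ ⊥ := by
  intro hbot
  have := (mult1_field h).2.1
  rw [hbot, finrank_bot] at this
  omega

end Mult1

end Fermat.Agent.W1
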