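/-
W1 = [GRΓ1] (S48), package [MULT1₁] (helper2), part 3 (port of `GR/MULT1_helper2_Occur`):
**(OCCUR)** — every character of lead's Hecke algebra `hecke1Alg M` (generated by the `T_p`,
`p ∤ M`, and the diamonds on `S₂(Γ₁(M))`) with values in an algebraically closed field `F` of
characteristic `0` occurs as a system of Hecke eigenvalues in `Hom_par(±Γ₁(M), F)`.
* `hecke1Alg_instCommRing`: `hecke1Alg M` is commutative;
* `aeval_heckeParI_charpoly`, `aeval_heckeOpI_charpoly`, `isIntegral_heckeOpI`,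
  `isIntegral_hecke1Alg`: integrality of the Hecke operators on `Hom_par` and on `S₂(Γ₁(M))`;
* `eigenParOn_ne_bot_of_field`, `eigenParOn_ne_bot_of_domain`: occurrence of a system of eigenvalues
  does not depend on the embedding of its ring of definition;
* `genIdx M`, `heckeGen1`: the indices of the generators of `hecke1Alg M`;
* `eigenParOn_ne_bot_of_character`: occurrence (at the indices in `genIdx M`) of a character of
  `hecke1Alg M` with values in a field of characteristic `0`;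
* `heckeGrpI_comm_field`, `heckeParI_commute`: commutativity over fields of characteristic `0`;
* `exists_eigenPar_of_eigenParOn`: extension of a partial system to a full one;
* `exists_eigenPar_of_character`: (OCCUR).
-/
import Mathlib
import Fermat.Agent.W1.MULT1_helper2_Field
import Fermat.Agent.GR.MULT1_helper2_Occur
import Fermat.Agent.DS48.Defs_lead
import Fermat.Agent.Helper2.EigenChar

set_option autoImplicit false
set_option linter.unusedSectionVars false
set_option linter.style.haveILetI false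

namespace Fermat.Agent.W1

open TensorProduct CongruenceSubgroup ModularCurve.Period Polynomial
open scoped MatrixGroups
open Fermat.Agent.GR Fermat.Agent.W1.ES

section Integrality

variable {M : ℕ} [NeZero M]

/-- `ψ₀ ↦ (γ ↦ ψ₀ γ • c)` as an additive map `Hom_par(Γ, ℤ) → Hom_par(Γ, F)`. -/
def parScalHom (F : Type*) [CommRing F] (c : F) :
    ↥(parabolicHoms ℤ (Gpm M 1) ℤ) →+ ↥(parabolicHoms F (Gpm M 1) F) where
  toFun ψ₀ := parScal F F c ψ₀
  map_zero' := by
    apply Subtype.ext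
    refine AddMonoidHom.ext fun γ => ?_
    show (0 : ℤ) • c = 0
    exact zero_smul _ _
  map_add' ψ φ := by
    apply Subtype.ext
    refine AddMonoidHom.ext fun γ => ?_
    show (ψ.1 γ + φ.1 γ) • c = ψ.1 γ • c + φ.1 γ • c
    exact add_smul _ _ _

theorem heckeParI_parScal (F : Type*) [CommRing F] (ℓ : HIdx M) (c : F)
    (ψ₀ : ↥(parabolicHoms ℤ (Gpm M 1) ℤ)) :
    heckeParI M ℓ F F (parScal F F c ψ₀) = parScal F F c (heckeParI M ℓ ℤ ℤ ψ₀) := by
  apply Subtype.ext
  rw [coe_heckeParI, parScal_coe_eq_comp, heckeGrpI_comp, parScal_coe_eq_comp, coe_heckeParI]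

/-- the Hecke operator at `ℓ` on `Hom_par(±Γ₁(M), F)` is killed by the characteristic polynomial
of the integral Hecke operator. -/
theorem aeval_heckeParI_charpoly {F : Type*} [Field F] [CharZero F] (ℓ : HIdx M) :
    aeval (heckeParI M ℓ F F) (heckeParI M ℓ ℤ ℤ).charpoly = 0 := by
  apply LinearMap.ext
  intro ψ
  obtain ⟨x, rfl⟩ := (parTheta F (Gpm M 1) F).surjective ψ
  rw [LinearMap.zero_apply]
  induction x using TensorProduct.induction_on with
  | zero => rw [map_zero, map_zero]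
  | tmul c ψ₀ =>
    rw [parTheta_tmul]
    have h := aeval_int_intertwine (heckeParI M ℓ ℤ ℤ) (heckeParI M ℓ F F) (parScalHom F c)
      (fun m => (heckeParI_parScal F ℓ c m).symm) (heckeParI M ℓ ℤ ℤ).charpoly ψ₀
    rw [LinearMap.aeval_self_charpoly, LinearMap.zero_apply, map_zero] at h
    exact h.symm
  | add x y hx hy => rw [map_add, map_add, hx, hy, add_zero]

/-- `f ↦ Φ(f, 0)`, `S₂(±Γ₁(M)) → Hom_par(±Γ₁(M), ℂ)`. -/
noncomputable def periodPlusLin :
    CuspForm (Gamma1 M) 2 →ₗ[ℂ] ↥(parabolicHoms ℂ (Gpm M 1) ℂ) :=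
  ((periodHomPair₁ M).comp (LinearMap.inl ℂ _ _)).codRestrict _
    (fun f => periodHomPair₁_mem_parabolicHoms M f 0)

theorem periodPlusLin_coe (f : CuspForm (Gamma1 M) 2) :
    ((periodPlusLin f : ↥(parabolicHoms ℂ (Gpm M 1) ℂ)) : Additive (Gpm M 1) →+ ℂ) =
      periodHomPair₁ M (f, 0) := rfl

theorem periodPlusLin_injective :
    Function.Injective (periodPlusLin : CuspForm (Gamma1 M) 2 →ₗ[ℂ] _) := by
  intro f g h
  have h1 := congrArg Subtype.val h
  rw [periodPlusLin_coe, periodPlusLin_coe] at h1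
  exact (Prod.ext_iff.mp (periodHomPair₁_injective M h1)).1

theorem periodPlusLin_heckeOpI (ℓ : HIdx M) (f : CuspForm (Gamma1 M) 2) :
    periodPlusLin (heckeOpI M ℓ f) = heckeParI M ℓ ℂ ℂ (periodPlusLin f) := by
  apply Subtype.ext
  rw [coe_heckeParI, periodPlusLin_coe, periodPlusLin_coe, ← periodHomPair₁_heckeOpI, map_zero]

/-- **the Hecke operators on `S₂(±Γ₁(M))` are integral**: `T_ℓ` is killed by the characteristic
polynomial of the integral Hecke operator on `Hom_par(±Γ₁(M), ℤ)`. -/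
theorem aeval_heckeOpI_charpoly (ℓ : HIdx M) :
    aeval (heckeOpI M ℓ) (heckeParI M ℓ ℤ ℤ).charpoly = 0 := by
  apply LinearMap.ext
  intro f
  rw [LinearMap.zero_apply]
  apply periodPlusLin_injective
  have h := aeval_int_intertwine (heckeOpI M ℓ) (heckeParI M ℓ ℂ ℂ)
    (periodPlusLin : CuspForm (Gamma1 M) 2 →ₗ[ℂ] _).toAddMonoidHom
    (fun m => periodPlusLin_heckeOpI ℓ m) (heckeParI M ℓ ℤ ℤ).charpoly f
  rw [aeval_heckeParI_charpoly, LinearMap.zero_apply] at h
  rw [map_zero]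
  exact h

theorem isIntegral_heckeOpI (ℓ : HIdx M) : IsIntegral ℤ (heckeOpI M ℓ) :=
  ⟨(heckeParI M ℓ ℤ ℤ).charpoly, LinearMap.charpoly_monic _, aeval_heckeOpI_charpoly ℓ⟩

end Integrality

section Algebra

variable (M : ℕ) [NeZero M]

/-- the generators of `hecke1Alg M` commute. -/
theorem commute_of_mem_hecke1Gens {T T' : Module.End ℂ (CuspForm (Gamma1 M) 2)}
    (hT : T ∈ ({t | ∃ (p : ℕ) (hp : p.Prime) (hpM : ¬ p ∣ M), t = DS48.heckeT1 2 hp hpM} ∪
      {t | ∃ d : (ZMod M)ˣ, t = DS48.diamond 2 d} : Set (Module.End ℂ (CuspForm (Gamma1 M) 2))))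
    (hT' : T' ∈ ({t | ∃ (p : ℕ) (hp : p.Prime) (hpM : ¬ p ∣ M), t = DS48.heckeT1 2 hp hpM} ∪
      {t | ∃ d : (ZMod M)ˣ, t = DS48.diamond 2 d} : Set (Module.End ℂ (CuspForm (Gamma1 M) 2)))) :
    Commute T T' := by
  rcases hT with ⟨p, hp, hpM, rfl⟩ | ⟨d, rfl⟩ <;> rcases hT' with ⟨q, hq, hqM, rfl⟩ | ⟨d', rfl⟩
  · exact DS48.heckeT1_comm 2 hp hpM hq hqM
  · exact (DS48.diamond_heckeT1_comm 2 d' hp hpM).symm
  · exact DS48.diamond_heckeT1_comm 2 d hq hqM
  · exact DS48.diamond_comm 2 d d'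

instance hecke1Alg_instIsMulCommutative : IsMulCommutative (DS48.hecke1Alg M) :=
  Algebra.isMulCommutative_adjoin ℤ fun _ hT _ hT' => commute_of_mem_hecke1Gens M hT hT'

open scoped IsMulCommutative in
/-- **`hecke1Alg M` is a commutative ring.** -/
noncomputable instance hecke1Alg_instCommRing : CommRing (DS48.hecke1Alg M) := inferInstance

/-- the indices of the generators of `hecke1Alg M`: the primes `ℓ ∤ M` and all the units. -/
def genIdx : Set (HIdx M) := {i | ∀ ℓ : Nat.Primes, i = Sum.inl ℓ → ¬ (ℓ : ℕ) ∣ M}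

variable {M}

theorem inl_mem_genIdx {ℓ : Nat.Primes} : (Sum.inl ℓ : HIdx M) ∈ genIdx M ↔ ¬ (ℓ : ℕ) ∣ M :=
  ⟨fun h => h ℓ rfl, fun h q hq => by rw [← Sum.inl.inj hq]; exact h⟩

theorem inr_mem_genIdx (d : (ZMod M)ˣ) : (Sum.inr d : HIdx M) ∈ genIdx M :=
  fun _ h => (Sum.inr_ne_inl h).elim

theorem heckeOpI_mem_hecke1Alg {i : HIdx M} (h : i ∈ genIdx M) :
    heckeOpI M i ∈ DS48.hecke1Alg M := by
  rcases i with ℓ | d
  · have hℓ : ¬ (ℓ : ℕ) ∣ M := inl_mem_genIdx.1 h
    rw [heckeOpI_inl, heckeOpP_of_not_dvd hℓ]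
    exact DS48.heckeT1_mem_hecke1Alg M ℓ.2 hℓ
  · exact DS48.diamond_mem_hecke1Alg M d

/-- the generator of `hecke1Alg M` at the index `i ∈ genIdx M`. -/
noncomputable def heckeGen1 (i : HIdx M) (h : i ∈ genIdx M) : DS48.hecke1Alg M :=
  ⟨heckeOpI M i, heckeOpI_mem_hecke1Alg h⟩

theorem heckeGen1_inl {ℓ : ℕ} (hℓ : ℓ.Prime) (hℓM : ¬ ℓ ∣ M)
    (h : (Sum.inl ⟨ℓ, hℓ⟩ : HIdx M) ∈ genIdx M) :
    heckeGen1 (Sum.inl ⟨ℓ, hℓ⟩) h =
      ⟨DS48.heckeT1 2 hℓ hℓM, DS48.heckeT1_mem_hecke1Alg M hℓ hℓM⟩ := by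
  apply Subtype.ext
  show heckeOpP M ⟨ℓ, hℓ⟩ = DS48.heckeT1 2 hℓ hℓM
  rw [heckeOpP_of_not_dvd (ℓ := ⟨ℓ, hℓ⟩) hℓM]

theorem heckeGen1_inr (d : (ZMod M)ˣ) (h : (Sum.inr d : HIdx M) ∈ genIdx M) :
    heckeGen1 (Sum.inr d) h = ⟨DS48.diamond 2 d, DS48.diamond_mem_hecke1Alg M d⟩ := rfl

theorem isIntegral_heckeGen1 (i : HIdx M) (h : i ∈ genIdx M) :
    IsIntegral ℤ (heckeGen1 i h) := by
  obtain ⟨p, hp, hp0⟩ := isIntegral_heckeOpI (M := M) i
  refine ⟨p, hp, ?_⟩
  apply Subtype.ext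
  rw [← aeval_def]
  have h1 := Polynomial.aeval_algHom_apply (DS48.hecke1Alg M).val (heckeGen1 i h) p
  exact h1.symm.trans hp0

/-- **the Hecke algebra `hecke1Alg M` is integral over `ℤ`.** -/
theorem isIntegral_hecke1Alg (t : DS48.hecke1Alg M) : IsIntegral ℤ t := by
  obtain ⟨t, ht⟩ := t
  unfold DS48.hecke1Alg at ht
  induction ht using Algebra.adjoin_induction with
  | mem x hx =>
    rcases hx with ⟨ℓ, hℓ, hℓM, rfl⟩ | ⟨d, rfl⟩
    · have := isIntegral_heckeGen1 (M := M) (Sum.inl ⟨ℓ, hℓ⟩) (inl_mem_genIdx.2 hℓM)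
      rw [heckeGen1_inl hℓ hℓM] at this
      exact this
    · exact isIntegral_heckeGen1 (M := M) (Sum.inr d) (inr_mem_genIdx d)
  | algebraMap r => exact isIntegral_algebraMap (R := ℤ) (A := DS48.hecke1Alg M) (x := r)
  | add x y hx hy ihx ihy => exact IsIntegral.add ihx ihy
  | mul x y hx hy ihx ihy => exact IsIntegral.mul ihx ihy

end Algebra

section Transfer

variable {M : ℕ} [NeZero M] {F F' : Type*} [Field F] [CharZero F] [Field F'] [CharZero F']

/-- occurrence of a system of eigenvalues does not depend on the embedding of its field of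
definition. -/
theorem eigenParOn_ne_bot_of_field {K : Type*} [Field K] (j : K →+* F) (j' : K →+* F')
    (σ : Set (HIdx M)) (a₀ : HIdx M → K)
    (h : eigenParOn M F σ (fun ℓ => j (a₀ ℓ)) ≠ ⊥) :
    eigenParOn M F' σ (fun ℓ => j' (a₀ ℓ)) ≠ ⊥ := by
  haveI : CharZero K := j.charZero
  have hK : eigenParOn M K σ a₀ ≠ ⊥ := by
    letI : Algebra K F := j.toAlgebra
    have h1 := finrank_eigenParOn_map K F (M := M) σ a₀
    intro hbot
    rw [hbot, finrank_bot] at h1
    exact h (Submodule.finrank_eq_zero.1 h1)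
  letI : Algebra K F' := j'.toAlgebra
  have h2 := finrank_eigenParOn_map K F' (M := M) σ a₀
  intro hbot
  apply hK
  rw [← Submodule.finrank_eq_zero, ← h2]
  have h4 : Module.finrank F' ↥(eigenParOn M F' σ (fun ℓ => j' (a₀ ℓ))) = 0 := by
    rw [hbot, finrank_bot]
  exact h4

/-- occurrence of a system of eigenvalues does not depend on the embedding of its ring of
definition. -/
theorem eigenParOn_ne_bot_of_domain {D : Type*} [CommRing D] [IsDomain D] (g : D →+* F)
    (g' : D →+* F') (hg : Function.Injective g) (hg' : Function.Injective g')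
    (σ : Set (HIdx M)) (d : HIdx M → D)
    (h : eigenParOn M F σ (fun ℓ => g (d ℓ)) ≠ ⊥) :
    eigenParOn M F' σ (fun ℓ => g' (d ℓ)) ≠ ⊥ := by
  have h1 := eigenParOn_ne_bot_of_field (M := M) (IsFractionRing.lift hg : FractionRing D →+* F)
    (IsFractionRing.lift hg' : FractionRing D →+* F') σ (fun ℓ => algebraMap D _ (d ℓ)) (by
      simp only [IsFractionRing.lift_algebraMap]
      exact h)
  simp only [IsFractionRing.lift_algebraMap] at h1
  exact h1

end Transfer


section Occur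

variable {M : ℕ} [NeZero M] {F : Type*} [Field F] [CharZero F]

/-- **every character of the Hecke algebra `hecke1Alg M` with values in a field of characteristic
`0` occurs in the parabolic homomorphisms** (as a system of eigenvalues at the indices of the
generators). -/
theorem eigenParOn_ne_bot_of_character (χ : DS48.hecke1Alg M →+* F)
    (a : HIdx M → F) (ha : ∀ (i : HIdx M) (h : i ∈ genIdx M), a i = χ (heckeGen1 i h)) :
    eigenParOn M F (genIdx M) a ≠ ⊥ := by
  classical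
  -- an eigenform whose eigencharacter has the same kernel as `χ`
  let ρ : DS48.hecke1Alg M →+* Module.End ℂ (CuspForm (Gamma1 M) 2) :=
    (DS48.hecke1Alg M).val.toRingHom
  haveI : (RingHom.ker χ).IsPrime := RingHom.ker_isPrime χ
  obtain ⟨f, χ'', hf0, hfe, hχ''⟩ :=
    Fermat.Agent.Helper2.exists_eigenvector_character ρ (RingHom.ker χ) (by
      intro s hs
      have : s = 0 := Subtype.ext hs
      rw [this]
      exact Ideal.zero_mem _)
  have hle : RingHom.ker χ'' ≤ RingHom.ker χ := by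
    intro s hs
    by_contra hns
    exact hχ'' s hns ((RingHom.mem_ker).1 hs)
  have hker : RingHom.ker χ'' = RingHom.ker χ := by
    by_contra hne
    have hlt : RingHom.ker χ'' < RingHom.ker χ := lt_of_le_of_ne hle hne
    obtain ⟨x, hx, hnx⟩ := SetLike.exists_of_lt hlt
    haveI : (RingHom.ker χ'').IsPrime := RingHom.ker_isPrime χ''
    have h1 := Ideal.comap_lt_comap_of_integral_mem_sdiff (R := ℤ) hle ⟨hx, hnx⟩
      (isIntegral_hecke1Alg x)
    obtain ⟨n, hn, hnn⟩ := SetLike.exists_of_lt h1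
    apply hnn
    rw [Ideal.mem_comap, RingHom.mem_ker, eq_intCast, map_intCast] at hn
    have hn0 : n = 0 := by exact_mod_cast hn
    rw [hn0]
    exact Ideal.zero_mem _
  -- the system occurs over `ℂ`, with the character `χ''`
  haveI : IsDomain (DS48.hecke1Alg M ⧸ RingHom.ker χ) := Ideal.Quotient.isDomain _
  have hinj' : Function.Injective (RingHom.kerLift χ) := RingHom.kerLift_injective χ
  let g'' : (DS48.hecke1Alg M ⧸ RingHom.ker χ) →+* ℂ :=
    Ideal.Quotient.lift (RingHom.ker χ) χ'' (fun s hs => by rw [← hker] at hs; exact hs)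
  have hinj'' : Function.Injective g'' :=
    RingHom.lift_injective_of_ker_le_ideal _ _ hker.le
  let d : HIdx M → (DS48.hecke1Alg M ⧸ RingHom.ker χ) := fun i =>
    if h : i ∈ genIdx M then Ideal.Quotient.mk (RingHom.ker χ) (heckeGen1 i h) else 0
  have hd' : ∀ (i : HIdx M) (h : i ∈ genIdx M),
      RingHom.kerLift χ (d i) = χ (heckeGen1 i h) := by
    intro i h
    show RingHom.kerLift χ (dite _ _ _) = _
    rw [dif_pos h]
    rfl
  have hd'' : ∀ (i : HIdx M) (h : i ∈ genIdx M), g'' (d i) = χ'' (heckeGen1 i h) := by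
    intro i h
    show g'' (dite _ _ _) = _
    rw [dif_pos h]
    rfl
  have hC : eigenParOn M ℂ (genIdx M) (fun i => g'' (d i)) ≠ ⊥ := by
    rw [Submodule.ne_bot_iff]
    refine ⟨periodHomPair₁ M (f, 0), ⟨periodHomPair₁_mem_parabolicHoms M f 0, ?_⟩, ?_⟩
    · intro i hi
      have h1 : heckeOpI M i f = χ'' (heckeGen1 i hi) • f := hfe (heckeGen1 i hi)
      show heckeGrpI M i ℂ _ = g'' (d i) • _
      rw [hd'' i hi, ← map_smul, Prod.smul_mk, smul_zero, ← h1,
        ← periodHomPair₁_heckeOpI, map_zero]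
    · intro h0
      apply hf0
      have := periodHomPair₁_injective M (h0.trans (map_zero _).symm)
      exact (Prod.ext_iff.mp this).1
  have hF := eigenParOn_ne_bot_of_domain (M := M) g'' (RingHom.kerLift χ) hinj'' hinj'
    (genIdx M) d hC
  have h3 : eigenParOn M F (genIdx M) a =
      eigenParOn M F (genIdx M) (fun i => RingHom.kerLift χ (d i)) :=
    eigenParOn_congr (fun i hi => by rw [ha i hi, hd' i hi])
  rw [h3]
  exact hF

end Occur

section Extend

variable {M : ℕ} [NeZero M] [ESHyp M] {F : Type*} [Field F] [CharZero F]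

/-- **the Hecke operators commute on `Hom_par(±Γ₁(M), F)`** for every field `F` of
characteristic `0`. -/
theorem heckeGrpI_comm_field (ℓ q : HIdx M) {ψ : Additive (Gpm M 1) →+ F}
    (hψ : ψ ∈ parabolicHoms F (Gpm M 1) F) :
    heckeGrpI M ℓ F (heckeGrpI M q F ψ) = heckeGrpI M q F (heckeGrpI M ℓ F ψ) := by
  obtain ⟨x, hx⟩ := (parTheta F (Gpm M 1) F).surjective ⟨ψ, hψ⟩
  have hψx : ψ = (parTheta F (Gpm M 1) F x).1 := by rw [hx]
  rw [hψx]
  clear hx hψx hψ
  induction x using TensorProduct.induction_on with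
  | zero => rw [map_zero]; simp only [Submodule.coe_zero, map_zero]
  | tmul c ψ₀ =>
    rw [parTheta_tmul, parScal_coe_eq_comp, heckeGrpI_comp, heckeGrpI_comp, heckeGrpI_comp,
      heckeGrpI_comp]
    congr 1
    refine heckeGrpI_comm_of_injective M ℓ q (Int.castAddHom ℂ) Int.cast_injective ?_
    intro γ hγ
    exact ψ₀.2 γ hγ
  | add x y hx hy =>
    rw [map_add, Submodule.coe_add, map_add, map_add, map_add, map_add, hx, hy]

theorem heckeParI_commute (ℓ q : HIdx M) :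
    Commute (heckeParI M ℓ F F) (heckeParI M q F F) := by
  apply LinearMap.ext
  intro ψ
  apply Subtype.ext
  exact heckeGrpI_comm_field ℓ q ψ.2

/-- **a system of eigenvalues at the primes of `σ` occurring in `Hom_par(±Γ₁(M), F)`, `F`
algebraically closed of characteristic `0`, extends to a system of eigenvalues at all primes.** -/
theorem exists_eigenPar_of_eigenParOn [IsAlgClosed F] {σ : Set (HIdx M)} {a : HIdx M → F}
    (h : eigenParOn M F σ a ≠ ⊥) :
    ∃ a' : HIdx M → F, eigenPar M F a' ≠ ⊥ ∧ ∀ ℓ ∈ σ, a' ℓ = a ℓ := by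
  obtain ⟨ψ, hψ, hψ0⟩ := (Submodule.ne_bot_iff _).1 h
  let W : Submodule F ↥(parabolicHoms F (Gpm M 1) F) :=
    (eigenParOn M F σ a).comap (parabolicHoms F (Gpm M 1) F).subtype
  have hW : W ≠ ⊥ := by
    rw [Submodule.ne_bot_iff]
    exact ⟨⟨ψ, hψ.1⟩, hψ, fun h0 => hψ0 (congrArg Subtype.val h0)⟩
  obtain ⟨v, hvW, hv0, hv⟩ := Fermat.Agent.Helper2.exists_common_eigenvector
    (Set.range fun q : HIdx M => heckeParI M q F F)
    (by rintro _ ⟨ℓ, rfl⟩ _ ⟨q, rfl⟩; exact heckeParI_commute ℓ q) W hW (by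
      rintro _ ⟨q, rfl⟩ w hw
      refine ⟨(heckeParI M q F F w).2, fun ℓ hℓ => ?_⟩
      show heckeGrpI M ℓ F (heckeGrpI M q F w.1) = a ℓ • heckeGrpI M q F w.1
      have hw2 : heckeGrpI M ℓ F w.1 = a ℓ • w.1 := hw.2 ℓ hℓ
      rw [heckeGrpI_comm_field ℓ q w.2, hw2]
      have h1 := (heckeGrpIₗ M q F F).map_smul (a ℓ) w.1
      exact h1)
  choose a' ha' using fun q : HIdx M => hv (heckeParI M q F F) ⟨q, rfl⟩
  have hv0' : (v : Additive (Gpm M 1) →+ F) ≠ 0 := fun h0 => hv0 (Subtype.ext h0)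
  have hmem : (v : Additive (Gpm M 1) →+ F) ∈ eigenPar M F a' :=
    ⟨v.2, fun q => congrArg Subtype.val (ha' q)⟩
  refine ⟨a', (Submodule.ne_bot_iff _).2 ⟨v.1, hmem, hv0'⟩, fun ℓ hℓ => ?_⟩
  have hv2 : heckeGrpI M ℓ F v.1 = a ℓ • v.1 := hvW.2 ℓ hℓ
  have h1 : a' ℓ • v.1 = a ℓ • v.1 := by
    rw [← hmem.2 ℓ, hv2]
  exact smul_left_injective F hv0' h1

/-- **(OCCUR)**: every ring homomorphism `χ : hecke1Alg M → F`, `F` algebraically closed of
characteristic `0`, extends to a system of eigenvalues `a` occurring in `Hom_par(±Γ₁(M), F)`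
(`E_a ≠ ⊥`) with `a ℓ = χ (T_ℓ)` for all primes `ℓ ∤ M` and `a d = χ ⟨d⟩` for all units `d`. -/
theorem exists_eigenPar_of_character [IsAlgClosed F] (χ : DS48.hecke1Alg M →+* F) :
    ∃ a : HIdx M → F, eigenPar M F a ≠ ⊥ ∧
      (∀ (ℓ : ℕ) (hℓ : ℓ.Prime) (hℓM : ¬ ℓ ∣ M), a (Sum.inl ⟨ℓ, hℓ⟩) =
        χ ⟨DS48.heckeT1 2 hℓ hℓM, DS48.heckeT1_mem_hecke1Alg M hℓ hℓM⟩) ∧
      (∀ d : (ZMod M)ˣ, a (Sum.inr d) =
        χ ⟨DS48.diamond 2 d, DS48.diamond_mem_hecke1Alg M d⟩) := by
  classical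
  let a₁ : HIdx M → F := fun i => if h : i ∈ genIdx M then χ (heckeGen1 i h) else 0
  have ha₁ : ∀ (i : HIdx M) (h : i ∈ genIdx M), a₁ i = χ (heckeGen1 i h) := by
    intro i h
    show dite _ _ _ = _
    rw [dif_pos h]
  obtain ⟨a, ha, haσ⟩ := exists_eigenPar_of_eigenParOn
    (eigenParOn_ne_bot_of_character χ a₁ ha₁)
  refine ⟨a, ha, ?_, ?_⟩
  · intro ℓ hℓ hℓM
    have hmem : (Sum.inl ⟨ℓ, hℓ⟩ : HIdx M) ∈ genIdx M := inl_mem_genIdx.2 hℓM
    rw [haσ _ hmem, ha₁ _ hmem, heckeGen1_inl hℓ hℓM]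
  · intro d
    rw [haσ _ (inr_mem_genIdx d), ha₁ _ (inr_mem_genIdx d), heckeGen1_inr]

end Extend

end Fermat.Agent.W1
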