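/-
W1 = [GRΓ1] (S48), package [MULT1₁] (helper2), part 5 (NEW): **the Hecke algebra `hecke1Alg M` of
`S₂(Γ₁(M))` is a finite free `ℤ`-module.**  Every `T ∈ hecke1Alg M` is intertwined, via the
(injective) period map `f ↦ Φ(f, 0)`, with the complexification of an endomorphism of the LATTICE
`Hom_par(±Γ₁(M), ℤ)` (for the generators: the group-theoretic Hecke operators with integer
coefficients, [PER1]); hence `hecke1Alg M` is contained in the image of the finite `ℤ`-module
`End_ℤ(Hom_par(±Γ₁(M), ℤ))` under a `ℤ`-linear map.  No Eichler–Shimura surjectivity is used.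
-/
import Mathlib
import Fermat.Agent.W1.MULT1_helper2_Occur

set_option autoImplicit false
set_option linter.unusedSectionVars false
set_option linter.style.haveILetI false

namespace Fermat.Agent.W1

open TensorProduct CongruenceSubgroup ModularCurve.Period Polynomial
open scoped MatrixGroups
open Fermat.Agent.GR Fermat.Agent.W1.ES

section Lattice

variable (M : ℕ) [NeZero M]

/-- the complexification of an endomorphism of the lattice `Hom_par(±Γ₁(M), ℤ)`, as a ring
homomorphism `End_ℤ(Hom_par(Γ, ℤ)) → End_ℂ(Hom_par(Γ, ℂ))`. -/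
noncomputable def parExtHom :
    Module.End ℤ ↥(parabolicHoms ℤ (Gpm M 1) ℤ) →+* Module.End ℂ ↥(parabolicHoms ℂ (Gpm M 1) ℂ) :=
  (LinearEquiv.conjRingEquiv (parTheta ℂ (Gpm M 1) ℂ)).toRingHom.comp
    (Module.End.baseChangeHom ℤ ℂ ↥(parabolicHoms ℤ (Gpm M 1) ℤ)).toRingHom

theorem parExtHom_apply (b : Module.End ℤ ↥(parabolicHoms ℤ (Gpm M 1) ℤ))
    (y : ↥(parabolicHoms ℂ (Gpm M 1) ℂ)) :
    parExtHom M b y =
      parTheta ℂ (Gpm M 1) ℂ (b.baseChange ℂ ((parTheta ℂ (Gpm M 1) ℂ).symm y)) := rfl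

/-- the complexification of the integral operator at the index `i` is the complex one. -/
theorem parExtHom_heckeParI (i : HIdx M) :
    parExtHom M (heckeParI M i ℤ ℤ) = heckeParI M i ℂ ℂ := by
  apply LinearMap.ext
  intro y
  rw [parExtHom_apply, ← heckeParI_parTheta, LinearEquiv.apply_symm_apply]

/-- `T` is intertwined with (the complexification of) an endomorphism of the lattice. -/
def LiftsToLattice (T : Module.End ℂ (CuspForm (Gamma1 M) 2)) : Prop :=
  ∃ b : Module.End ℤ ↥(parabolicHoms ℤ (Gpm M 1) ℤ),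
    ∀ f, periodPlusLin (T f) = parExtHom M b (periodPlusLin f)

theorem liftsToLattice_heckeOpI (i : HIdx M) : LiftsToLattice M (heckeOpI M i) :=
  ⟨heckeParI M i ℤ ℤ, fun f => by rw [parExtHom_heckeParI, periodPlusLin_heckeOpI]⟩

/-- **every element of `hecke1Alg M` preserves the lattice.** -/
theorem liftsToLattice_of_mem {T : Module.End ℂ (CuspForm (Gamma1 M) 2)}
    (hT : T ∈ DS48.hecke1Alg M) : LiftsToLattice M T := by
  unfold DS48.hecke1Alg at hT
  induction hT using Algebra.adjoin_induction with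
  | mem x hx =>
    rcases hx with ⟨ℓ, hℓ, hℓM, rfl⟩ | ⟨d, rfl⟩
    · have h := liftsToLattice_heckeOpI M (Sum.inl ⟨ℓ, hℓ⟩)
      rw [heckeOpI_inl, heckeOpP_of_not_dvd (ℓ := ⟨ℓ, hℓ⟩) hℓM] at h
      exact h
    · exact liftsToLattice_heckeOpI M (Sum.inr d)
  | algebraMap r =>
    refine ⟨(r : Module.End ℤ ↥(parabolicHoms ℤ (Gpm M 1) ℤ)), fun f => ?_⟩
    rw [map_intCast, algebraMap_int_eq, eq_intCast, Module.End.intCast_apply,
      Module.End.intCast_apply, map_zsmul]
  | add x y hx hy ihx ihy =>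
    obtain ⟨b, hb⟩ := ihx
    obtain ⟨b', hb'⟩ := ihy
    refine ⟨b + b', fun f => ?_⟩
    rw [LinearMap.add_apply, map_add, hb, hb', map_add, LinearMap.add_apply]
  | mul x y hx hy ihx ihy =>
    obtain ⟨b, hb⟩ := ihx
    obtain ⟨b', hb'⟩ := ihy
    refine ⟨b * b', fun f => ?_⟩
    rw [Module.End.mul_apply, hb, hb', map_mul, Module.End.mul_apply]

instance hecke1Alg_instIsAddTorsionFree : IsAddTorsionFree (DS48.hecke1Alg M) where
  nsmul_right_injective n hn a b hab := by
    apply Subtype.ext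
    have h : (n : ℂ) • (a : Module.End ℂ (CuspForm (Gamma1 M) 2)) =
        (n : ℂ) • (b : Module.End ℂ (CuspForm (Gamma1 M) 2)) := by
      simp only [Nat.cast_smul_eq_nsmul]
      exact congrArg Subtype.val hab
    exact smul_right_injective _ (Nat.cast_ne_zero.mpr hn) h

/-- **`hecke1Alg M` is a finitely generated `ℤ`-module.** -/
instance hecke1Alg_moduleFinite : Module.Finite ℤ (DS48.hecke1Alg M) := by
  -- a retraction of the period map
  obtain ⟨r, hr⟩ := LinearMap.exists_leftInverse_of_injective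
    (periodPlusLin : CuspForm (Gamma1 M) 2 →ₗ[ℂ] ↥(parabolicHoms ℂ (Gpm M 1) ℂ))
    (LinearMap.ker_eq_bot.2 periodPlusLin_injective)
  let Θ₀ : Module.End ℤ ↥(parabolicHoms ℤ (Gpm M 1) ℤ) →+ Module.End ℂ (CuspForm (Gamma1 M) 2) :=
    { toFun := fun b => (r ∘ₗ parExtHom M b) ∘ₗ periodPlusLin
      map_zero' := by rw [map_zero, LinearMap.comp_zero, LinearMap.zero_comp]
      map_add' := fun b b' => by rw [map_add, LinearMap.comp_add, LinearMap.add_comp] }
  let Θ : Module.End ℤ ↥(parabolicHoms ℤ (Gpm M 1) ℤ) →ₗ[ℤ] Module.End ℂ (CuspForm (Gamma1 M) 2) :=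
    Θ₀.toIntLinearMap
  have hΘ : ∀ T ∈ DS48.hecke1Alg M, T ∈ LinearMap.range Θ := by
    intro T hT
    obtain ⟨b, hb⟩ := liftsToLattice_of_mem M hT
    refine ⟨b, ?_⟩
    apply LinearMap.ext
    intro f
    show r (parExtHom M b (periodPlusLin f)) = T f
    rw [← hb]
    exact LinearMap.congr_fun hr (T f)
  let j : ↥(DS48.hecke1Alg M) →ₗ[ℤ] ↥(LinearMap.range Θ) :=
    LinearMap.codRestrict (LinearMap.range Θ) (DS48.hecke1Alg M).val.toLinearMap
      (fun t => hΘ t.1 t.2)
  have hj : Function.Injective j := by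
    intro s t hst
    apply Subtype.ext
    have h1 : ((j s : ↥(LinearMap.range Θ)) : Module.End ℂ (CuspForm (Gamma1 M) 2)) =
        ((j t : ↥(LinearMap.range Θ)) : Module.End ℂ (CuspForm (Gamma1 M) 2)) :=
      congrArg Subtype.val hst
    exact h1
  exact Module.Finite.of_injective j hj

/-- **`hecke1Alg M` is a free `ℤ`-module.** -/
instance hecke1Alg_moduleFree : Module.Free ℤ (DS48.hecke1Alg M) :=
  Module.free_of_finite_type_torsion_free' (R := ℤ) (M := ↥(DS48.hecke1Alg M))

end Lattice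

end Fermat.Agent.W1
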