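/-
W1 = [GRΓ1] (S48), package [CHAR1] (helper9), part 3 (port of `GR/CHAR_helper8_{Main,Compat}`):
**the Kummer map** `kappa M L n hM : Pic⁰(F_ℂ)[n] →+ (Additive (Gpm M L) →+ ZMod n)` for the
function field `F_ℂ = ℂ·F₁ M L` of level `Gpm M L` (`M ≠ 1`), its defining property for ALL
representatives and all roots, its vanishing on parabolic elements, and the compatibility for
`n ∣ m`.
-/
import Mathlib
import Fermat.Agent.GR.CHAR_helper8_Compat
import Fermat.Agent.W1.CHAR1_helper9_Kappa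

set_option autoImplicit false
set_option linter.style.haveILetI false
set_option linter.unusedSectionVars false

open UpperHalfPlane hiding I
open Complex ModularGroup ModularCurve CongruenceSubgroup AlgebraicCurve
open scoped MatrixGroups

namespace Fermat.Agent.W1

open Fermat.Agent.X0N Fermat.Agent.GR

variable {M L : ℕ} [NeZero M] [NeZero L] {n : ℕ} [NeZero n]

/-- a divisor whose class is `n`-torsion is `n`-divisible up to a principal divisor. -/
theorem exists_fun_of_mk_mem_torsion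
    (D : ↥(Divisor.degZero (K := ℂ) (F := ↥(laurentBaseChange ℂ (F₁ M L)))))
    (hD : Pic0.mk D ∈ Pic0.torsion ℂ ↥(laurentBaseChange ℂ (F₁ M L)) n) :
    ∃ f : ↥(laurentBaseChange ℂ (F₁ M L)), f ≠ 0 ∧
      ∀ v : Place ℂ ↥(laurentBaseChange ℂ (F₁ M L)),
        (n : ℤ) * (D : Divisor ℂ _) v = v.ord f := by
  rw [Pic0.mem_torsion] at hD
  have h1 : Pic0.mk ((n : ℤ) • D) = 0 := hD
  have h2 : ((n : ℤ) • D) ∈ (Divisor.principal (K := ℂ)
      (F := ↥(laurentBaseChange ℂ (F₁ M L)))).addSubgroupOf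
        Divisor.degZero := (QuotientAddGroup.eq_zero_iff _).mp h1
  rw [AddSubgroup.mem_addSubgroupOf] at h2
  obtain ⟨f, hf, hfD⟩ := h2
  refine ⟨f, hf, fun v => ?_⟩
  rw [← hfD v]
  simp

/-- every torsion class has a representative with a Kummer root. -/
theorem exists_rep_isKummerRoot
    (x : ↥(Pic0.torsion ℂ ↥(laurentBaseChange ℂ (F₁ M L)) n)) :
    ∃ (D : ↥(Divisor.degZero (K := ℂ)
        (F := ↥(laurentBaseChange ℂ (F₁ M L))))) (u : MerH),
      Pic0.mk D = (x : Pic0 ℂ ↥(laurentBaseChange ℂ (F₁ M L))) ∧ IsKummerRoot M L n (D : Divisor ℂ _) u := by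
  obtain ⟨D, hD⟩ := Pic0.mk_surjective (x : Pic0 ℂ ↥(laurentBaseChange ℂ (F₁ M L)))
  obtain ⟨f, hf, hfD⟩ := exists_fun_of_mk_mem_torsion (n := n) D (by rw [hD]; exact x.2)
  obtain ⟨u, hu⟩ := exists_isKummerRoot (D : Divisor ℂ _) f hf hfD
  exact ⟨D, u, hD, hu⟩

/-- the Kummer character only depends on the class. -/
theorem kummerChar_eq_of_mk_eq (hM : M ≠ 1)
    {D D' : ↥(Divisor.degZero (K := ℂ)
      (F := ↥(laurentBaseChange ℂ (F₁ M L))))} {u u' : MerH}
    (h : Pic0.mk D = Pic0.mk D') (hu : IsKummerRoot M L n (D : Divisor ℂ _) u)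
    (hu' : IsKummerRoot M L n (D' : Divisor ℂ _) u') :
    kummerChar (Gpm M L) n u' = kummerChar (Gpm M L) n u := by
  have h1 : -D + D' ∈ (Divisor.principal (K := ℂ)
      (F := ↥(laurentBaseChange ℂ (F₁ M L)))).addSubgroupOf
        Divisor.degZero := QuotientAddGroup.eq.mp h
  rw [AddSubgroup.mem_addSubgroupOf] at h1
  obtain ⟨g, hg, hgD⟩ := h1
  refine hu.kummerChar_eq hM hu' g hg (fun v => ?_)
  rw [← hgD v]
  simp
  ring

variable (M L n)

/-- the Kummer character of a torsion class (auxiliary). -/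
noncomputable def kappaFun
    (x : ↥(Pic0.torsion ℂ ↥(laurentBaseChange ℂ (F₁ M L)) n)) :
    Additive ↥(Gpm M L) →+ ZMod n :=
  kummerChar (Gpm M L) n (Classical.choose (Classical.choose_spec (exists_rep_isKummerRoot x)))

variable {M L n}

theorem kappaFun_eq (hM : M ≠ 1)
    (x : ↥(Pic0.torsion ℂ ↥(laurentBaseChange ℂ (F₁ M L)) n))
    (D : ↥(Divisor.degZero (K := ℂ)
      (F := ↥(laurentBaseChange ℂ (F₁ M L)))))
    (hD : Pic0.mk D = (x : Pic0 ℂ ↥(laurentBaseChange ℂ (F₁ M L)))) {u : MerH} (hu : IsKummerRoot M L n (D : Divisor ℂ _) u) :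
    kappaFun M L n x = kummerChar (Gpm M L) n u := by
  have h := Classical.choose_spec (Classical.choose_spec (exists_rep_isKummerRoot x))
  exact kummerChar_eq_of_mk_eq hM (hD.trans h.1.symm) hu h.2

theorem kappaFun_add (hM : M ≠ 1)
    (x y : ↥(Pic0.torsion ℂ ↥(laurentBaseChange ℂ (F₁ M L)) n)) :
    kappaFun M L n (x + y) = kappaFun M L n x + kappaFun M L n y := by
  obtain ⟨D, u, hD, hu⟩ := exists_rep_isKummerRoot x
  obtain ⟨D', u', hD', hu'⟩ := exists_rep_isKummerRoot y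
  have hadd : Pic0.mk (D + D') = ((x + y : ↥(Pic0.torsion ℂ ↥(laurentBaseChange ℂ (F₁ M L)) n)) :
        Pic0 ℂ ↥(laurentBaseChange ℂ (F₁ M L))) := by
    rw [Pic0.mk_add, hD, hD']
    rfl
  have hmul : IsKummerRoot M L n ((D + D' : ↥(Divisor.degZero (K := ℂ)
      (F := ↥(laurentBaseChange ℂ (F₁ M L))))) : Divisor ℂ _) (u * u') :=
    hu.mul hu'
  rw [kappaFun_eq hM (x + y) (D + D') hadd hmul, kappaFun_eq hM x D hD hu, kappaFun_eq hM y D' hD' hu',
    kummerChar_mul hu.isKummerElt hu'.isKummerElt]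

variable (M L n)

/-- **(K2 CHAR) the Kummer map** `Pic⁰(F_ℂ)[n] →+ Hom(Γ₀(N), ℤ/n)`. -/
noncomputable def kappa (hM : M ≠ 1) :
    ↥(Pic0.torsion ℂ ↥(laurentBaseChange ℂ (F₁ M L)) n) →+
      (Additive ↥(Gpm M L) →+ ZMod n) :=
  AddMonoidHom.mk' (kappaFun M L n) (kappaFun_add hM)

variable {M L n}

/-- `kappa` is the Kummer character of ANY root of ANY representative. -/
theorem kappa_eq_kummerChar (hM : M ≠ 1)
    (x : ↥(Pic0.torsion ℂ ↥(laurentBaseChange ℂ (F₁ M L)) n))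
    (D : ↥(Divisor.degZero (K := ℂ)
      (F := ↥(laurentBaseChange ℂ (F₁ M L)))))
    (hD : Pic0.mk D = (x : Pic0 ℂ ↥(laurentBaseChange ℂ (F₁ M L)))) {u : MerH} (hu : IsKummerRoot M L n (D : Divisor ℂ _) u) :
    kappa M L n hM x = kummerChar (Gpm M L) n u :=
  kappaFun_eq hM x D hD hu

/-- **the defining property of `kappa`**: for every representative `D` of `x`, every `f` with
`n D = div f` and every `n`-th root `u` of `realNC f`:
`u ∘ γ = exp(2πi · kappa x γ / n) · u` for all `γ ∈ Γ₀(N)`. -/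
theorem kappa_spec (hM : M ≠ 1)
    (x : ↥(Pic0.torsion ℂ ↥(laurentBaseChange ℂ (F₁ M L)) n))
    (D : ↥(Divisor.degZero (K := ℂ)
      (F := ↥(laurentBaseChange ℂ (F₁ M L)))))
    (hD : Pic0.mk D = (x : Pic0 ℂ ↥(laurentBaseChange ℂ (F₁ M L)))) {u : MerH} (hu : IsKummerRoot M L n (D : Divisor ℂ _) u)
    (γ : ↥(Gpm M L)) :
    MerH.comp (γ : SL(2, ℤ)) u =
      MerH.const (ZMod.stdAddChar (kappa M L n hM x (Additive.ofMul γ))) * u := by
  rw [kappa_eq_kummerChar hM x D hD hu]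
  exact kummerChar_spec hu.isKummerElt γ

/-- **`kappa` kills the parabolic elements** (`trace ^ 2 = 4`). -/
theorem kappa_isParabolicHom (hM : M ≠ 1)
    (x : ↥(Pic0.torsion ℂ ↥(laurentBaseChange ℂ (F₁ M L)) n)) :
    ModularCurve.Period.IsParabolicHom (Gpm M L) (kappa M L n hM x) := by
  intro γ htr
  obtain ⟨D, u, hD, hu⟩ := exists_rep_isKummerRoot x
  rw [kappa_eq_kummerChar hM x D hD hu, kummerChar_apply_eq_zero_iff hu.isKummerElt]
  exact hu.comp_eq_of_parabolic γ.2 htr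

theorem kappa_mem_parabolicHoms (hM : M ≠ 1)
    (x : ↥(Pic0.torsion ℂ ↥(laurentBaseChange ℂ (F₁ M L)) n)) :
    kappa M L n hM x ∈ ModularCurve.Period.parabolicHoms ℤ (Gpm M L) (ZMod n) :=
  ModularCurve.Period.mem_parabolicHoms_iff.mpr (kappa_isParabolicHom hM x)

/-- **injectivity criterion** (input for K3 INV): `kappa x = 0` iff one (equivalently every) Kummer
root of `x` is `Γ₀(N)`-invariant. -/
theorem kappa_eq_zero_iff (hM : M ≠ 1)
    (x : ↥(Pic0.torsion ℂ ↥(laurentBaseChange ℂ (F₁ M L)) n))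
    (D : ↥(Divisor.degZero (K := ℂ)
      (F := ↥(laurentBaseChange ℂ (F₁ M L)))))
    (hD : Pic0.mk D = (x : Pic0 ℂ ↥(laurentBaseChange ℂ (F₁ M L)))) {u : MerH} (hu : IsKummerRoot M L n (D : Divisor ℂ _) u) :
    kappa M L n hM x = 0 ↔ ∀ γ ∈ Gpm M L, MerH.comp γ u = u := by
  rw [kappa_eq_kummerChar hM x D hD hu, kummerChar_eq_zero_iff hu.isKummerElt]



/-! ### compatibility for `n ∣ m` (port of `GR/CHAR_helper8_Compat`) -/

theorem IsKummerRoot.pow {m n d : ℕ} [NeZero m] [NeZero n] (hm : m = n * d)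
    {D : Divisor ℂ ↥(laurentBaseChange ℂ (F₁ M L))} {u : MerH}
    (hu : IsKummerRoot M L m D u) : IsKummerRoot M L n ((d : ℤ) • D) (u ^ d) := by
  obtain ⟨f, hf, hD, hpow⟩ := hu
  refine ⟨f, hf, fun v => ?_, ?_⟩
  · rw [← hD v, hm, Finsupp.smul_apply, smul_eq_mul]
    push_cast
    ring
  · rw [← hpow, ← pow_mul, mul_comm, hm]

/-- **(compat)**: for `m = n d`, `x ∈ Pic⁰[m]` and `y = d • x ∈ Pic⁰[n]`:
`kappa n y = (reduction mod n) ∘ kappa m x`. -/
theorem kappa_eq_castHom_comp (hM : M ≠ 1) {m n d : ℕ} [NeZero m] [NeZero n] (hm : m = n * d)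
    (x : ↥(Pic0.torsion ℂ ↥(laurentBaseChange ℂ (F₁ M L)) m))
    (y : ↥(Pic0.torsion ℂ ↥(laurentBaseChange ℂ (F₁ M L)) n))
    (hxy : (y : Pic0 ℂ ↥(laurentBaseChange ℂ (F₁ M L))) =
      (d : ℤ) • (x : Pic0 ℂ ↥(laurentBaseChange ℂ (F₁ M L)))) :
    kappa M L n hM y =
      (ZMod.castHom (Dvd.intro d hm.symm) (ZMod n)).toAddMonoidHom.comp (kappa M L m hM x) := by
  obtain ⟨D, u, hD, hu⟩ := exists_rep_isKummerRoot x
  have hD' : Pic0.mk ((d : ℤ) • D) =
      (y : Pic0 ℂ ↥(laurentBaseChange ℂ (F₁ M L))) := by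
    rw [hxy, ← hD]
    rfl
  have hu' : IsKummerRoot M L n (((d : ℤ) • D : ↥(Divisor.degZero (K := ℂ)
      (F := ↥(laurentBaseChange ℂ (F₁ M L))))) : Divisor ℂ _) (u ^ d) :=
    hu.pow hm
  rw [kappa_eq_kummerChar hM y _ hD' hu', kappa_eq_kummerChar hM x D hD hu,
    kummerChar_pow_eq_castHom_comp hm hu.isKummerElt]

end Fermat.Agent.W1
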