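/-
W1 = [GRΓ1] (S48), package [KHECKE1] (helper4), part 1: **`κ (T'_ℓ x) = T^grp_ℓ (κ x)` and
`κ (⟨d⟩ x) = ⟨d⁻¹⟩^grp (κ x)`** for the Kummer map `κ = kappa M 1 n hM` of level `±Γ₁(M) = Gpm M 1`
(port of `GR/KHECKE_helper4_Main`, plus the diamonds).

* `heckeProdP M ℓ u = ∏_b u((τ + b)/ℓ) · [ℓ ∤ M] u(σ_ℓ (ℓ τ))` (helper2's representatives
  `heckeDatumT/U`); `heckeProdP_pow_eq` : it is an `n`-th root of `N_β(α f)` if `u ^ n = f`
  (helper9's analytic norm formula), for every field `k ⊆ ℂ`; `kummerChar_heckeProdP` :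
  `χ_{u'} = T^grp_ℓ χ_u`;
* `kummerChar_comp_sigmaU` : `χ_{u ∘ σ_d} = ⟨d⁻¹⟩^grp χ_u` (`σ_d` with UPPER LEFT entry `d`,
  helper2's `diamondGrp M _ d` is conjugation by a matrix with LOWER RIGHT entry `d`);
* `kappa_heckeSwapCTors`, `kappa_diaCTors` : the compatibilities over `ℂ`;
* `hecke_compat_of_kummerChar`, `dia_compat_of_kummerChar` : the same for any map computed by
  Kummer characters of roots, in `k`-divisor form (`k ⊆ ℂ` algebraically closed);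
* `hroot_heckeProdP`, `hroot_dia` : the root statements in the shape of the Stage-I assembly.
-/
import Mathlib
import Fermat.Agent.GR.KHECKE_helper4_Generic
import Fermat.Agent.W1.ANORM1_helper9_Final
import Fermat.Agent.W1.HGRP1_helper2_Main
import Fermat.Agent.W1.CHAR1_helper9_Main
import Fermat.Agent.W1.HECKEF_helper4_Dia

set_option autoImplicit false
set_option maxHeartbeats 400000
set_option linter.style.haveILetI false
set_option linter.unusedSectionVars false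

open UpperHalfPlane hiding I
open Complex ModularGroup ModularCurve CongruenceSubgroup AlgebraicCurve ModularForm
open scoped MatrixGroups

namespace Fermat.Agent.W1

open Fermat.Agent.X0N Fermat.Agent.JA Fermat.Agent.FF Fermat.Agent.GR

section Roots

variable {k : Type*} [Field k] [Algebra ℚ k] [Algebra k ℂ] [IsScalarTower ℚ k ℂ]
  (M ℓ : ℕ) [NeZero M]

theorem det_heckeDatumT_pos' (hℓ : ℓ.Prime) (hℓM : ¬ ℓ ∣ M) (i : Option (Fin ℓ)) :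
    0 < (((heckeDatumT M ℓ hℓ hℓM).α i).det : ℝ) :=
  det_heckeDatumT_pos M hℓ hℓM i

theorem det_heckeDatumU_pos' (hℓ : ℓ.Prime) (hℓM : ℓ ∣ M) (b : Fin ℓ) :
    0 < (((heckeDatumU M ℓ hℓ hℓM).α b).det : ℝ) :=
  det_heckeDatumU_pos M hℓ hℓM b

/-- the product of the `T_ℓ`-translates of `u` (`ℓ ∤ M`). -/
noncomputable def heckeProdT (hℓ : ℓ.Prime) (hℓM : ¬ ℓ ∣ M) (u : MerH) : MerH :=
  heckeProd (heckeDatumT M ℓ hℓ hℓM) (det_heckeDatumT_pos' M ℓ hℓ hℓM) u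

/-- the product of the `U_ℓ`-translates of `u` (`ℓ ∣ M`). -/
noncomputable def heckeProdU (hℓ : ℓ.Prime) (hℓM : ℓ ∣ M) (u : MerH) : MerH :=
  heckeProd (heckeDatumU M ℓ hℓ hℓM) (det_heckeDatumU_pos' M ℓ hℓ hℓM) u

/-- **`u'` is an `n`-th root of `N_β(α f)`** (`ℓ ∤ M`). -/
theorem heckeProdT_pow_eq [NeZero ℓ] (hM : M ≠ 1) (hℓ : ℓ.Prime) (hℓM : ¬ ℓ ∣ M) {n : ℕ}
    {f : ↥(laurentBaseChange k (F₁ M 1))} {u : MerH}
    (hu : u ^ n = realML (algebraMap k ℂ) M 1 f) :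
    heckeProdT M ℓ hℓ hℓM u ^ n =
      realML (algebraMap k ℂ) M 1
        (normAlong (heckeBetaBar k M 1 ℓ) (heckeAlphaBar k M 1 ℓ f)) := by
  have hσ : sigmaP M hℓ hℓM ∈ Gamma0 (M * 1) := by
    rw [mul_one]
    exact sigmaP_mem M hℓ hℓM
  have h := realML_norm_heckeAlphaBar (k := k) M 1 ℓ hM hℓ hσ (sigmaP_lowerRight M hℓ hℓM)
    (det_heckeDatumT_pos' M ℓ hℓ hℓM none) f
  have hℓM' : ¬ ℓ ∣ M * 1 := by rwa [mul_one]
  rw [if_neg hℓM'] at h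
  unfold heckeProdT
  rw [heckeProd_pow, hu]
  unfold heckeProd
  rw [Fintype.prod_option, mul_comm]
  exact h.symm

/-- **`u'` is an `n`-th root of `N_β(α f)`** (`ℓ ∣ M`). -/
theorem heckeProdU_pow_eq [NeZero ℓ] (hM : M ≠ 1) (hℓ : ℓ.Prime) (hℓM : ℓ ∣ M) {n : ℕ}
    {f : ↥(laurentBaseChange k (F₁ M 1))} {u : MerH}
    (hu : u ^ n = realML (algebraMap k ℂ) M 1 f) :
    heckeProdU M ℓ hℓ hℓM u ^ n =
      realML (algebraMap k ℂ) M 1
        (normAlong (heckeBetaBar k M 1 ℓ) (heckeAlphaBar k M 1 ℓ f)) := by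
  have hℓM' : ℓ ∣ M * 1 := by rwa [mul_one]
  have h := realML_norm_heckeBetaBar_of_dvd (k := k) M 1 ℓ hM hℓ hℓM' (heckeAlphaBar k M 1 ℓ f)
  unfold heckeProdU
  rw [heckeProd_pow, hu]
  unfold heckeProd
  refine Eq.trans ?_ h.symm
  refine Finset.prod_congr rfl fun b _ => ?_
  rw [realML_heckeAlphaBar]
  rfl

end Roots

section Uniform

variable {k : Type*} [Field k] [Algebra ℚ k] [Algebra k ℂ] [IsScalarTower ℚ k ℂ]
  (M : ℕ) [NeZero M] (ℓ : Nat.Primes)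

/-- **`u' = ∏_b u((τ + b)/ℓ) · [ℓ ∤ M] u(σ_ℓ (ℓ τ))`**, uniformly in the prime `ℓ`. -/
noncomputable def heckeProdP (u : MerH) : MerH :=
  if h : (ℓ : ℕ) ∣ M then heckeProdU M ℓ ℓ.2 h u else heckeProdT M ℓ ℓ.2 h u

variable {M ℓ}

theorem heckeProdP_of_dvd (h : (ℓ : ℕ) ∣ M) (u : MerH) :
    heckeProdP M ℓ u = heckeProdU M ℓ ℓ.2 h u := by
  rw [heckeProdP, dif_pos h]

theorem heckeProdP_of_not_dvd (h : ¬ (ℓ : ℕ) ∣ M) (u : MerH) :
    heckeProdP M ℓ u = heckeProdT M ℓ ℓ.2 h u := by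
  rw [heckeProdP, dif_neg h]

variable (M ℓ)

theorem heckeProdP_ne_zero {u : MerH} (hu : u ≠ 0) : heckeProdP M ℓ u ≠ 0 := by
  by_cases h : (ℓ : ℕ) ∣ M
  · rw [heckeProdP_of_dvd h]
    exact heckeProd_ne_zero (heckeDatumU M ℓ ℓ.2 h) (det_heckeDatumU_pos' M ℓ ℓ.2 h) hu
  · rw [heckeProdP_of_not_dvd h]
    exact heckeProd_ne_zero (heckeDatumT M ℓ ℓ.2 h) (det_heckeDatumT_pos' M ℓ ℓ.2 h) hu

/-- **`u'` is an `n`-th root of (the realisation of) `N_β(α f)`**, for every prime `ℓ` and every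
field `k ⊆ ℂ`. -/
theorem heckeProdP_pow_eq (hM : M ≠ 1) {n : ℕ}
    {f : ↥(laurentBaseChange k (F₁ M 1))} {u : MerH}
    (hu : u ^ n = realML (algebraMap k ℂ) M 1 f) :
    haveI : NeZero (ℓ : ℕ) := ⟨ℓ.2.ne_zero⟩
    heckeProdP M ℓ u ^ n =
      realML (algebraMap k ℂ) M 1
        (normAlong (heckeBetaBar k M 1 ℓ) (heckeAlphaBar k M 1 ℓ f)) := by
  haveI : NeZero (ℓ : ℕ) := ⟨ℓ.2.ne_zero⟩
  by_cases h : (ℓ : ℕ) ∣ M
  · rw [heckeProdP_of_dvd h]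
    exact heckeProdU_pow_eq M ℓ hM ℓ.2 h hu
  · rw [heckeProdP_of_not_dvd h]
    exact heckeProdT_pow_eq M ℓ hM ℓ.2 h hu

variable {n : ℕ} [NeZero n]

theorem isKummerElt_heckeProdP {u : MerH} (hu : IsKummerElt (Gpm M 1) n u) :
    IsKummerElt (Gpm M 1) n (heckeProdP M ℓ u) := by
  by_cases h : (ℓ : ℕ) ∣ M
  · rw [heckeProdP_of_dvd h]
    exact isKummerElt_heckeProd (heckeDatumU M ℓ ℓ.2 h) (det_heckeDatumU_pos' M ℓ ℓ.2 h)
      (fun γ => rfl) hu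
  · rw [heckeProdP_of_not_dvd h]
    exact isKummerElt_heckeProd (heckeDatumT M ℓ ℓ.2 h) (det_heckeDatumT_pos' M ℓ ℓ.2 h)
      (fun γ => rfl) hu

/-- **`χ_{u'} = T^grp_ℓ χ_u`**, uniformly in the prime `ℓ`. -/
theorem kummerChar_heckeProdP {u : MerH} (hu : IsKummerElt (Gpm M 1) n u) :
    kummerChar (Gpm M 1) n (heckeProdP M ℓ u) =
      heckeGrpP M ℓ (ZMod n) (kummerChar (Gpm M 1) n u) := by
  by_cases h : (ℓ : ℕ) ∣ M
  · rw [heckeProdP_of_dvd h, heckeGrpP_of_dvd _ h]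
    exact kummerChar_heckeProd (heckeDatumU M ℓ ℓ.2 h) (det_heckeDatumU_pos' M ℓ ℓ.2 h)
      (fun γ => rfl) hu
  · rw [heckeProdP_of_not_dvd h, heckeGrpP_of_not_dvd _ h]
    exact kummerChar_heckeProd (heckeDatumT M ℓ ℓ.2 h) (det_heckeDatumT_pos' M ℓ ℓ.2 h)
      (fun γ => rfl) hu

/-- an `n`-th root of the realisation of a non-zero function is a Kummer element. -/
theorem isKummerElt_of_pow_eq_realML (L : ℕ) [NeZero L]
    {f : ↥(laurentBaseChange k (F₁ M L))} (hf : f ≠ 0) {u : MerH}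
    (hu : u ^ n = realML (algebraMap k ℂ) M L f) : IsKummerElt (Gpm M L) n u := by
  refine ⟨?_, fun γ hγ => ?_⟩
  · rintro rfl
    rw [zero_pow (NeZero.ne n)] at hu
    exact hf ((map_eq_zero_iff _ (realML_injective (algebraMap k ℂ) M L)).mp hu.symm)
  · rw [hu]
    exact comp_realML_of_mem_Gpm (algebraMap k ℂ) hγ f

end Uniform

section Kappa

theorem normAlong_ne_zero {K F F' : Type*} [Field K] [Field F] [Field F'] [Algebra K F]
    [Algebra K F'] (φ : F →ₐ[K] F') (hfin : FiniteAlong K φ) {z : F'} (hz : z ≠ 0) :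
    normAlong φ z ≠ 0 := by
  letI := algebraAlong φ
  haveI : Module.Finite F F' := hfin
  show Algebra.norm F z ≠ 0
  rwa [Ne, Algebra.norm_eq_zero_iff]

variable (M ℓ n : ℕ) [NeZero M] [NeZero ℓ] (hM : M ≠ 1)

/-- `T'_ℓ` on the `n`-torsion of `Pic⁰` over `ℂ`. -/
noncomputable def heckeSwapCTors :
    ↥(Pic0.torsion ℂ ↥(laurentBaseChange ℂ (F₁ M 1)) n) →+
      ↥(Pic0.torsion ℂ ↥(laurentBaseChange ℂ (F₁ M 1)) n) :=
  ((heckeSwapC M 1 ℓ hM).comp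
    (Pic0.torsion ℂ ↥(laurentBaseChange ℂ (F₁ M 1)) n).subtype).codRestrict _
    (fun x => by
      have hx := x.2
      rw [Pic0.mem_torsion] at hx ⊢
      rw [AddMonoidHom.comp_apply, ← map_zsmul]
      show heckeSwapC M 1 ℓ hM ((n : ℤ) • (x : Pic0 ℂ _)) = 0
      rw [hx, map_zero])

@[simp] theorem coe_heckeSwapCTors
    (x : ↥(Pic0.torsion ℂ ↥(laurentBaseChange ℂ (F₁ M 1)) n)) :
    ((heckeSwapCTors M ℓ n hM x : ↥(Pic0.torsion ℂ _ n)) :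
      Pic0 ℂ ↥(laurentBaseChange ℂ (F₁ M 1))) = heckeSwapC M 1 ℓ hM x :=
  rfl

/-- the diamond operator on the `n`-torsion of `Pic⁰` over `ℂ`. -/
noncomputable def diaCTors (d : (ZMod M)ˣ) :
    ↥(Pic0.torsion ℂ ↥(laurentBaseChange ℂ (F₁ M 1)) n) →+
      ↥(Pic0.torsion ℂ ↥(laurentBaseChange ℂ (F₁ M 1)) n) :=
  ((diaPic0 (k := ℂ) M 1 d).comp
    (Pic0.torsion ℂ ↥(laurentBaseChange ℂ (F₁ M 1)) n).subtype).codRestrict _
    (fun x => by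
      have hx := x.2
      rw [Pic0.mem_torsion] at hx ⊢
      rw [AddMonoidHom.comp_apply, ← map_zsmul]
      show diaPic0 (k := ℂ) M 1 d ((n : ℤ) • (x : Pic0 ℂ _)) = 0
      rw [hx, map_zero])

@[simp] theorem coe_diaCTors (d : (ZMod M)ˣ)
    (x : ↥(Pic0.torsion ℂ ↥(laurentBaseChange ℂ (F₁ M 1)) n)) :
    ((diaCTors M n d x : ↥(Pic0.torsion ℂ _ n)) :
      Pic0 ℂ ↥(laurentBaseChange ℂ (F₁ M 1))) = diaPic0 (k := ℂ) M 1 d x :=
  rfl

end Kappa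

section DiaChar

variable (M : ℕ) [NeZero M] {n : ℕ} [NeZero n]

theorem heckeProd_diamondDatumBy (σ : SL(2, ℤ)) (hσ : σ ∈ Gamma0 M)
    (hdet : ∀ i, 0 < (((diamondDatumBy M σ hσ).α i).det : ℝ)) (u : MerH) :
    heckeProd (diamondDatumBy M σ hσ) hdet u = MerH.comp σ u := by
  unfold heckeProd
  rw [Fintype.prod_unique]
  exact MerH.compGL_mapGL σ _ u

/-- precomposition with `σ ∈ Γ₀(M)` preserves the Kummer elements of `±Γ₁(M)`. -/
theorem isKummerElt_comp_of_mem_Gamma0 {σ : SL(2, ℤ)} (hσ : σ ∈ Gamma0 M) {u : MerH}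
    (hu : IsKummerElt (Gpm M 1) n u) : IsKummerElt (Gpm M 1) n (MerH.comp σ u) := by
  rw [← heckeProd_diamondDatumBy M σ hσ (det_diamondDatumBy_pos M σ hσ)]
  exact isKummerElt_heckeProd (diamondDatumBy M σ hσ) (det_diamondDatumBy_pos M σ hσ)
    (fun γ => rfl) hu

/-- **`χ_{u ∘ σ} = χ_u ∘ (γ ↦ σ γ σ⁻¹)`** for `σ ∈ Γ₀(M)`. -/
theorem kummerChar_comp_of_mem_Gamma0 {σ : SL(2, ℤ)} (hσ : σ ∈ Gamma0 M) {u : MerH}
    (hu : IsKummerElt (Gpm M 1) n u) :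
    kummerChar (Gpm M 1) n (MerH.comp σ u) =
      diamondGrpBy M (ZMod n) σ hσ (kummerChar (Gpm M 1) n u) := by
  rw [← heckeProd_diamondDatumBy M σ hσ (det_diamondDatumBy_pos M σ hσ)]
  exact kummerChar_heckeProd (diamondDatumBy M σ hσ) (det_diamondDatumBy_pos M σ hσ)
    (fun γ => rfl) hu

theorem sigmaU_mem_Gamma0 (d : (ZMod M)ˣ) : sigmaU M 1 d ∈ Gamma0 M := by
  have h := sigmaU_mem M 1 d
  rwa [mul_one] at h

theorem sigmaU_lowerRight (d : (ZMod M)ˣ) :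
    ((sigmaU M 1 d 1 1 : ℤ) : ZMod M) = ((d⁻¹ : (ZMod M)ˣ) : ZMod M) := by
  have h1 := entry_mul_entry_eq_one (sigmaU_mem_Gamma0 M d)
  rw [sigmaU_entry] at h1
  calc ((sigmaU M 1 d 1 1 : ℤ) : ZMod M)
      = ((d⁻¹ : (ZMod M)ˣ) : ZMod M) * ((d : ZMod M) * ((sigmaU M 1 d 1 1 : ℤ) : ZMod M)) := by
        rw [← mul_assoc, Units.inv_mul, one_mul]
    _ = ((d⁻¹ : (ZMod M)ˣ) : ZMod M) := by rw [h1, mul_one]

/-- **`χ_{u ∘ σ_d} = ⟨d⁻¹⟩^grp χ_u`** (`σ_d` = helper9's `sigmaU M 1 d`, upper left entry `d`). -/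
theorem kummerChar_comp_sigmaU (d : (ZMod M)ˣ) {u : MerH} (hu : IsKummerElt (Gpm M 1) n u) :
    kummerChar (Gpm M 1) n (MerH.comp (sigmaU M 1 d) u) =
      diamondGrp M (ZMod n) d⁻¹ (kummerChar (Gpm M 1) n u) := by
  rw [kummerChar_comp_of_mem_Gamma0 M (sigmaU_mem_Gamma0 M d) hu,
    diamondGrp_eq_diamondGrpBy M d⁻¹ (sigmaU_mem_Gamma0 M d) (sigmaU_lowerRight M d)]

end DiaChar

section DiaDiv

variable {k : Type*} [Field k] [Algebra ℚ k] [Algebra k ℂ] [IsScalarTower ℚ k ℂ]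
  (M L : ℕ) [NeZero M] [NeZero L]

/-- `n • D = div f → n • ⟨d⟩ D = div (⟨d⟩ f)`. -/
theorem diaSL_smul_nsmul_apply_of_ord (d : (ZMod M)ˣ) {n : ℕ}
    {f : ↥(laurentBaseChange k (F₁ M L))}
    {D : Divisor k ↥(laurentBaseChange k (F₁ M L))}
    (hD : ∀ P, (n : ℤ) * D P = P.ord f)
    (P : Place k ↥(laurentBaseChange k (F₁ M L))) :
    (n : ℤ) * (diaSL (k := k) M L d • D) P = P.ord (diaAlg M L d f) := by
  rw [SemilinearAut.divisor_smul_apply, hD, ← diaSL_smul]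
  have h := SemilinearAut.ord_smul (diaSL (k := k) M L d) ((diaSL (k := k) M L d)⁻¹ • P) f
  rw [smul_inv_smul] at h
  exact h.symm

theorem diaAlg_ne_zero (d : (ZMod M)ˣ) {f : ↥(laurentBaseChange k (F₁ M L))} (hf : f ≠ 0) :
    diaAlg M L d f ≠ 0 := fun h =>
  hf ((diaAlg (k := k) M L d).injective (h.trans (map_zero (diaAlg (k := k) M L d)).symm))

theorem diaPic0_mk (d : (ZMod M)ˣ)
    (D : ↥(Divisor.degZero (K := k) (F := ↥(laurentBaseChange k (F₁ M L))))) :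
    diaPic0 (k := k) M L d (Pic0.mk D) =
      Pic0.mk (SemilinearAut.degZeroSMulHom (diaSL (k := k) M L d) D) := rfl

/-- `u ∘ σ_d` is an `n`-th root of the realisation of `⟨d⟩ f`. -/
theorem comp_sigmaU_pow_eq (d : (ZMod M)ˣ) {n : ℕ} {f : ↥(laurentBaseChange k (F₁ M L))}
    {u : MerH} (hu : u ^ n = realML (algebraMap k ℂ) M L f) :
    MerH.comp (sigmaU M L d) u ^ n = realML (algebraMap k ℂ) M L (diaAlg M L d f) := by
  rw [← map_pow, hu, realML_diaAlg]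

end DiaDiv

section KappaHecke

variable {M n : ℕ} [NeZero M] [NeZero n]

/-- **(hecke) over `ℂ`: `κ (T'_ℓ x) = T^grp_ℓ (κ x)`** for EVERY prime `ℓ` (`T_ℓ` if `ℓ ∤ M`, `U_ℓ`
if `ℓ ∣ M`). -/
theorem kappa_heckeSwapCTors (hM : M ≠ 1) (ℓ : Nat.Primes)
    (x : ↥(Pic0.torsion ℂ ↥(laurentBaseChange ℂ (F₁ M 1)) n)) :
    haveI : NeZero (ℓ : ℕ) := ⟨ℓ.2.ne_zero⟩
    kappa M 1 n hM (heckeSwapCTors M ℓ n hM x) = heckeGrpP M ℓ (ZMod n) (kappa M 1 n hM x) := by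
  haveI : NeZero (ℓ : ℕ) := ⟨ℓ.2.ne_zero⟩
  obtain ⟨D, u, hD, hu⟩ := exists_rep_isKummerRoot x
  have hu0 := hu
  obtain ⟨f, hf, hfD, hpow⟩ := hu
  set D' : ↥(Divisor.degZero (K := ℂ) (F := ↥(laurentBaseChange ℂ (F₁ M 1)))) :=
    ⟨heckeSwapDivC M 1 ℓ hM (D : Divisor ℂ _), heckeSwapDivC_mem_degZero M 1 ℓ hM D.2⟩ with hD'def
  have hD' : Pic0.mk D' = ((heckeSwapCTors M ℓ n hM x : ↥(Pic0.torsion ℂ _ n)) :
      Pic0 ℂ ↥(laurentBaseChange ℂ (F₁ M 1))) := by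
    rw [coe_heckeSwapCTors, ← hD, heckeSwapC_mk]
  have hfin : FiniteAlong ℂ (heckeBetaBar ℂ M 1 ℓ) :=
    finiteAlong_of_coord (jCoordC M 1 hM) (jCoordC M (1 * ℓ) hM) _
  have hg : normAlong (heckeBetaBar ℂ M 1 ℓ) (heckeAlphaBar ℂ M 1 ℓ f) ≠ 0 :=
    normAlong_ne_zero _ hfin ((map_ne_zero _).mpr hf)
  have hgD' : ∀ v : Place ℂ ↥(laurentBaseChange ℂ (F₁ M 1)),
      (n : ℤ) * (D' : Divisor ℂ _) v
        = v.ord (normAlong (heckeBetaBar ℂ M 1 ℓ) (heckeAlphaBar ℂ M 1 ℓ f)) :=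
    fun v => heckeSwapDivC_nsmul_apply_of_ord M 1 ℓ hM hf hfD v
  have hpow' : u ^ n = realML (algebraMap ℂ ℂ) M 1 f := hpow
  have hu' : IsKummerRoot M 1 n (D' : Divisor ℂ _) (heckeProdP M ℓ u) :=
    ⟨_, hg, hgD', heckeProdP_pow_eq (k := ℂ) M ℓ hM hpow'⟩
  rw [kappa_eq_kummerChar hM _ D' hD' hu', kappa_eq_kummerChar hM x D hD hu0]
  exact kummerChar_heckeProdP M ℓ hu0.isKummerElt

/-- **(diamond) over `ℂ`: `κ (⟨d⟩ x) = ⟨d⁻¹⟩^grp (κ x)`** (`⟨d⟩ = diaPic0 M 1 d` is induced by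
`σ ∈ Γ₀(M)` with UPPER LEFT entry `d`; `⟨d⟩^grp = diamondGrp M _ d` by `σ` with LOWER RIGHT entry
`d`). -/
theorem kappa_diaCTors (hM : M ≠ 1) (d : (ZMod M)ˣ)
    (x : ↥(Pic0.torsion ℂ ↥(laurentBaseChange ℂ (F₁ M 1)) n)) :
    kappa M 1 n hM (diaCTors M n d x) = diamondGrp M (ZMod n) d⁻¹ (kappa M 1 n hM x) := by
  obtain ⟨D, u, hD, hu⟩ := exists_rep_isKummerRoot x
  have hu0 := hu
  obtain ⟨f, hf, hfD, hpow⟩ := hu
  set D' : ↥(Divisor.degZero (K := ℂ) (F := ↥(laurentBaseChange ℂ (F₁ M 1)))) :=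
    SemilinearAut.degZeroSMulHom (diaSL (k := ℂ) M 1 d) D with hD'def
  have hD' : Pic0.mk D' = ((diaCTors M n d x : ↥(Pic0.torsion ℂ _ n)) :
      Pic0 ℂ ↥(laurentBaseChange ℂ (F₁ M 1))) := by
    rw [coe_diaCTors, ← hD, diaPic0_mk]
  have hpow' : u ^ n = realML (algebraMap ℂ ℂ) M 1 f := hpow
  have hu' : IsKummerRoot M 1 n (D' : Divisor ℂ _) (MerH.comp (sigmaU M 1 d) u) :=
    ⟨diaAlg M 1 d f, diaAlg_ne_zero M 1 d hf,
      fun v => diaSL_smul_nsmul_apply_of_ord M 1 d hfD v, comp_sigmaU_pow_eq M 1 d hpow'⟩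
  rw [kappa_eq_kummerChar hM _ D' hD' hu', kappa_eq_kummerChar hM x D hD hu0]
  exact kummerChar_comp_sigmaU M d hu0.isKummerElt

end KappaHecke

section Descent

variable {k : Type*} [Field k] [Algebra ℚ k] [CharZero k] [IsAlgClosed k] [Algebra k ℂ]
  [IsScalarTower ℚ k ℂ] {M n : ℕ} [NeZero M] [NeZero n]

/-- **(hecke) in `k`-divisor form** (`k ⊆ ℂ` algebraically closed, e.g. `k = ℚ̄`): if a map `kap` on
`Pic⁰(F_k)` is computed by the Kummer character of any `n`-th root `u` of (the realisation of) any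
`f` with `div f = n D`, then `kap (T'_ℓ [D]) = T^grp_ℓ (kap [D])`. -/
theorem hecke_compat_of_kummerChar (hM : M ≠ 1) (ℓ : Nat.Primes)
    (kap : Pic0 k ↥(laurentBaseChange k (F₁ M 1)) → (Additive ↥(Gpm M 1) →+ ZMod n))
    (hkap : ∀ (D : ↥(Divisor.degZero (K := k) (F := ↥(laurentBaseChange k (F₁ M 1)))))
      (f : ↥(laurentBaseChange k (F₁ M 1))) (u : MerH), f ≠ 0 →
      (∀ v : Place k ↥(laurentBaseChange k (F₁ M 1)),
        (n : ℤ) * (D : Divisor k _) v = v.ord f) →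
      u ^ n = realML (algebraMap k ℂ) M 1 f → kap (Pic0.mk D) = kummerChar (Gpm M 1) n u)
    (c : Coord k ↥(laurentBaseChange k (F₁ M 1)))
    (c' : Coord k ↥(laurentBaseChange k (F₁ M (1 * ℓ))))
    (D : ↥(Divisor.degZero (K := k) (F := ↥(laurentBaseChange k (F₁ M 1)))))
    {f : ↥(laurentBaseChange k (F₁ M 1))} (hf : f ≠ 0)
    (hfD : ∀ v : Place k ↥(laurentBaseChange k (F₁ M 1)),
      (n : ℤ) * (D : Divisor k _) v = v.ord f)
    {u : MerH} (hu : u ^ n = realML (algebraMap k ℂ) M 1 f) :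
    haveI : NeZero (ℓ : ℕ) := ⟨ℓ.2.ne_zero⟩
    kap (heckeSwapOf k M 1 ℓ c c' (Pic0.mk D)) = heckeGrpP M ℓ (ZMod n) (kap (Pic0.mk D)) := by
  haveI : NeZero (ℓ : ℕ) := ⟨ℓ.2.ne_zero⟩
  have hfin : FiniteAlong k (heckeBetaBar k M 1 ℓ) := finiteAlong_of_coord c c' _
  have hg : normAlong (heckeBetaBar k M 1 ℓ) (heckeAlphaBar k M 1 ℓ f) ≠ 0 :=
    normAlong_ne_zero _ hfin ((map_ne_zero _).mpr hf)
  rw [heckeSwapOf_mk, hkap _ _ (heckeProdP M ℓ u) hg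
      (fun v => heckeSwapDivOf_nsmul_apply_of_ord k M 1 ℓ c c' hf hfD v)
      (heckeProdP_pow_eq M ℓ hM hu),
    hkap D f u hf hfD hu]
  exact kummerChar_heckeProdP M ℓ (isKummerElt_of_pow_eq_realML M 1 hf hu)

/-- **(diamond) in `k`-divisor form**: `kap (⟨d⟩ [D]) = ⟨d⁻¹⟩^grp (kap [D])`. -/
theorem dia_compat_of_kummerChar (d : (ZMod M)ˣ)
    (kap : Pic0 k ↥(laurentBaseChange k (F₁ M 1)) → (Additive ↥(Gpm M 1) →+ ZMod n))
    (hkap : ∀ (D : ↥(Divisor.degZero (K := k) (F := ↥(laurentBaseChange k (F₁ M 1)))))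
      (f : ↥(laurentBaseChange k (F₁ M 1))) (u : MerH), f ≠ 0 →
      (∀ v : Place k ↥(laurentBaseChange k (F₁ M 1)),
        (n : ℤ) * (D : Divisor k _) v = v.ord f) →
      u ^ n = realML (algebraMap k ℂ) M 1 f → kap (Pic0.mk D) = kummerChar (Gpm M 1) n u)
    (D : ↥(Divisor.degZero (K := k) (F := ↥(laurentBaseChange k (F₁ M 1)))))
    {f : ↥(laurentBaseChange k (F₁ M 1))} (hf : f ≠ 0)
    (hfD : ∀ v : Place k ↥(laurentBaseChange k (F₁ M 1)),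
      (n : ℤ) * (D : Divisor k _) v = v.ord f)
    {u : MerH} (hu : u ^ n = realML (algebraMap k ℂ) M 1 f) :
    kap (diaPic0 (k := k) M 1 d (Pic0.mk D)) = diamondGrp M (ZMod n) d⁻¹ (kap (Pic0.mk D)) := by
  rw [diaPic0_mk, hkap _ (diaAlg M 1 d f) (MerH.comp (sigmaU M 1 d) u) (diaAlg_ne_zero M 1 d hf)
      (fun v => diaSL_smul_nsmul_apply_of_ord M 1 d hfD v) (comp_sigmaU_pow_eq M 1 d hu),
    hkap D f u hf hfD hu]
  exact kummerChar_comp_sigmaU M d (isKummerElt_of_pow_eq_realML M 1 hf hu)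

end Descent

section HRoot

variable {k : Type*} [Field k] [Algebra ℚ k] [Algebra k ℂ] [IsScalarTower ℚ k ℂ]
  {M : ℕ} [NeZero M]

/-- **the Hecke-root statement** (the shape consumed by the Stage-I assembly): from an `n`-th root
`u` of (the realisation of) `f` one gets an `n`-th root `u'` of `N_β(α f)` whose Kummer character
is `T^grp_ℓ` of that of `u`. -/
theorem hroot_heckeProdP (hM : M ≠ 1) (n : ℕ) [NeZero n] (ℓ : Nat.Primes) :
    haveI : NeZero (ℓ : ℕ) := ⟨ℓ.2.ne_zero⟩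
    ∀ (f : ↥(laurentBaseChange k (F₁ M 1))), f ≠ 0 → ∀ u : MerH,
      u ^ n = realML (algebraMap k ℂ) M 1 f → IsKummerElt (Gpm M 1) n u →
      ∃ u' : MerH, u' ≠ 0 ∧
        u' ^ n = realML (algebraMap k ℂ) M 1
          (normAlong (heckeBetaBar k M 1 ℓ) (heckeAlphaBar k M 1 ℓ f)) ∧
        kummerChar (Gpm M 1) n u' = heckeGrpP M ℓ (ZMod n) (kummerChar (Gpm M 1) n u) := by
  intro f _ u hu hK
  exact ⟨heckeProdP M ℓ u, heckeProdP_ne_zero M ℓ hK.1, heckeProdP_pow_eq M ℓ hM hu,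
    kummerChar_heckeProdP M ℓ hK⟩

/-- **the diamond-root statement**: from an `n`-th root `u` of `f` one gets an `n`-th root `u'` of
`⟨d⟩ f = diaAlg M 1 d f` whose Kummer character is `⟨d⁻¹⟩^grp` of that of `u`. -/
theorem hroot_dia (n : ℕ) [NeZero n] (d : (ZMod M)ˣ) :
    ∀ (f : ↥(laurentBaseChange k (F₁ M 1))), f ≠ 0 → ∀ u : MerH,
      u ^ n = realML (algebraMap k ℂ) M 1 f → IsKummerElt (Gpm M 1) n u →
      ∃ u' : MerH, u' ≠ 0 ∧
        u' ^ n = realML (algebraMap k ℂ) M 1 (diaAlg M 1 d f) ∧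
        kummerChar (Gpm M 1) n u' = diamondGrp M (ZMod n) d⁻¹ (kummerChar (Gpm M 1) n u) := by
  intro f _ u hu hK
  exact ⟨MerH.comp (sigmaU M 1 d) u, (isKummerElt_comp_of_mem_Gamma0 M (sigmaU_mem_Gamma0 M d) hK).1,
    comp_sigmaU_pow_eq M 1 d hu, kummerChar_comp_sigmaU M d hK⟩

end HRoot

end Fermat.Agent.W1
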