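/-
W1 = [GRΓ1] (S48), package [CONJ1] (helper9), part 1 (port of `GR/CONJ_helper5_RealN`; the generic
`GR/CONJ_helper5_Mer` is used as it is): `φ_a(q^e)` has real Fourier coefficients, hence the
realisation `realML` intertwines the coefficientwise action of an automorphism `σ` of `k` lying
over complex conjugation with the complex conjugation operator `MerH.cconj`.
-/
import Mathlib
import Fermat.Agent.GR.CONJ_helper5_RealN
import Fermat.Agent.W1.REAL1_helper9_Main

set_option autoImplicit false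

namespace Fermat.Agent.W1

open UpperHalfPlane hiding I
open Complex Filter Topology ModularCurve Fermat.Agent.RatStr Fermat.Agent.X0N HahnSeries
open scoped MatrixGroups Manifold ComplexConjugate

/-- a function meromorphic at `i∞` (in `q`) with real Laurent coefficients is fixed by the
complex conjugation operator. -/
theorem conj_apply_J_smul_of_laurent_real {F : ℍ → ℂ} (hF : IsMeroInfty 1 F)
    (hreal : ∀ m : ℤ, conj ((laurent 1 F).coeff m) = (laurent 1 F).coeff m) (z : ℍ) :
    conj (F (UpperHalfPlane.J • z)) = F z := by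
  obtain ⟨m, hm⟩ := hF
  have hL : laurent 1 F =
      single (-(m : ℤ)) (1 : ℂ) * ofPowerSeries ℤ ℂ (qExpansion 1 (F * qf 1 ^ m)) :=
    laurent_eq one_pos hm
  have hcoef : ∀ n : ℕ, (qExpansion 1 (F * qf 1 ^ m)).coeff n =
      (laurent 1 F).coeff ((n : ℤ) - m) := by
    intro n
    rw [hL]
    have h1 : ((n : ℤ) - m) = (n : ℤ) + (-(m : ℤ)) := by ring
    rw [h1, HahnSeries.coeff_single_mul_add, one_mul, ofPowerSeries_apply_coeff]
  have h1 := conj_apply_J_smul_of_real hm (fun n => by rw [hcoef n]; exact hreal _) z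
  simp only [Pi.mul_apply, Pi.pow_apply, map_mul, map_pow] at h1
  have h2 : conj (qf 1 (UpperHalfPlane.J • z)) = qf 1 z := by
    rw [qf_apply, qf_apply]
    exact conj_qParam_J_smul z
  rw [h2] at h1
  exact mul_right_cancel₀ (pow_ne_zero m (qf_ne_zero 1 z)) h1

/-- `φ_a` has real Fourier coefficients: `conj (φ_a (-conj τ)) = φ_a τ`. -/
theorem conj_phiFun_J_smul {M : ℕ} {a : ZMod M} (ha : a ≠ 0) (z : ℍ) :
    conj (phiFun M a (UpperHalfPlane.J • z)) = phiFun M a z := by
  apply conj_apply_J_smul_of_laurent_real (isMeroInfty_phiFun M a)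
  intro m
  rw [laurent_phiFun_eq_coeffEmb ha, coeffEmb_coeff]
  simp

theorem conj_phiFunE_J_smul {M : ℕ} {a : ZMod M} (ha : a ≠ 0) (e : ℕ) [NeZero e] (z : ℍ) :
    conj (phiFunE M a e (UpperHalfPlane.J • z)) = phiFunE M a e z := by
  rw [phiFunE, dilate_apply, dilate_apply, ← J_smul_heckeDiagMatrix_smul (NeZero.ne e),
    conj_phiFun_J_smul ha]

theorem HolH.cconjHom_phiHolE {M : ℕ} {a : ZMod M} (ha : a ≠ 0) (e : ℕ) [NeZero e] :
    HolH.cconjHom (phiHolE M a e) = phiHolE M a e := by
  apply Subtype.ext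
  funext z
  exact conj_phiFunE_J_smul ha e z

variable {k : Type*} [Field k] [Algebra ℚ k] (ι : k →+* ℂ) (M L : ℕ)

theorem arithmeticRingAut_jdBarML (σ : k ≃ₐ[ℚ] k) {d : ℕ} [NeZero d] (hd : d ∣ M * L) :
    arithmeticRingAut (F₁ M L) σ (jdBarML hd) = jdBarML (k := k) hd := by
  apply Subtype.ext
  rw [coe_arithmeticRingAut_apply]
  exact coeffMap_coeffEmb_self _ _

theorem arithmeticRingAut_phiBarML (σ : k ≃ₐ[ℚ] k) {e : ℕ} [NeZero e] (he : e ∣ L) {a : ZMod M}
    (ha : a ≠ 0) :
    arithmeticRingAut (F₁ M L) σ (phiBarML he ha) = phiBarML (k := k) he ha := by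
  apply Subtype.ext
  rw [coe_arithmeticRingAut_apply]
  exact coeffMap_coeffEmb_self _ _

/-- **(C2)** `realML` intertwines an automorphism of `k` over complex conjugation with `cconj`. -/
theorem realML_arithmeticRingAut (σ : k ≃ₐ[ℚ] k) (hσ : ∀ a : k, ι (σ a) = conj (ι a))
    (f : ↥(laurentBaseChange k (F₁ M L))) :
    realML ι M L (arithmeticRingAut (F₁ M L) σ f) = MerH.cconj (realML ι M L f) := by
  induction f using F₁_induction with
  | hconst c =>
    rw [arithmeticRingAut_algebraMap, realML_algebraMap, realML_algebraMap, MerH.cconj_const, hσ]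
  | hj d hd =>
    rw [arithmeticRingAut_jdBarML, realML_jdBarML, MerH.cconj_ofHol, HolH.cconjHom_jdHol]
  | hphi e he a ha =>
    rw [arithmeticRingAut_phiBarML, realML_phiBarML, MerH.cconj_ofHol, HolH.cconjHom_phiHolE ha]
  | hadd x y h1 h2 => rw [map_add, map_add, map_add, map_add, h1, h2]
  | hmul x y h1 h2 => rw [map_mul, map_mul, map_mul, map_mul, h1, h2]
  | hinv x h1 => rw [map_inv₀, map_inv₀, map_inv₀, map_inv₀, h1]

theorem realML_arithmeticGalois_smul (σ : k ≃ₐ[ℚ] k) (hσ : ∀ a : k, ι (σ a) = conj (ι a))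
    (f : ↥(laurentBaseChange k (F₁ M L))) :
    realML ι M L (arithmeticGalois (F₁ M L) σ • f) = MerH.cconj (realML ι M L f) :=
  realML_arithmeticRingAut ι M L σ hσ f

theorem realML_conjQ_smul (f : ↥(laurentBaseChange ℂ (F₁ M L))) :
    realML (RingHom.id ℂ) M L (arithmeticGalois (F₁ M L) conjQ • f) =
      MerH.cconj (realML (RingHom.id ℂ) M L f) :=
  realML_arithmeticGalois_smul (RingHom.id ℂ) M L conjQ (fun _ => rfl) f

end Fermat.Agent.W1
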