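/-
W1 = [GRΓ1] (S48), package [CONJ1] (helper9), part 2 (port of `GR/CONJ_helper5_{Kappa,Omega,Lit}`):
over `ℂ`, the Kummer map `kappa M L n hM` intertwines complex conjugation (acting coefficientwise
on the function field of `X(Gpm M L)`, hence on `Pic⁰`) with `ψ ↦ -(ψ ∘ (γ ↦ JγJ⁻¹))`
(`ES.charInvolutionΓ (Gpm M L)`); consumer forms.
-/
import Mathlib
import Fermat.Agent.GR.CONJ_helper5_Omega
import Fermat.Agent.W1.CONJ1_helper9_RealML
import Fermat.Agent.W1.CHAR1_helper9_Main
import Fermat.Agent.W1.ES1_helper9_Level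

set_option autoImplicit false
set_option linter.unusedSectionVars false

namespace Fermat.Agent.W1

open UpperHalfPlane hiding I
open Complex ModularGroup ModularCurve CongruenceSubgroup AlgebraicCurve ModularCurve.Period
open Fermat.Agent.X0N Fermat.Agent.GR Fermat.Agent.W1.ES
open scoped MatrixGroups ComplexConjugate

section Kummer

variable {Γ : Subgroup SL(2, ℤ)} [Γ.FiniteIndex] [JStable Γ] {n : ℕ} [NeZero n]

omit [NeZero n] in
/-- the conjugate of a Kummer element for a `J`-stable `Γ` is a Kummer element. -/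
theorem IsKummerElt.cconjΓ {u : MerH} (hu : IsKummerElt Γ n u) :
    IsKummerElt Γ n (MerH.cconj u) := by
  refine ⟨fun h0 => hu.1 (MerH.cconj_injective (h0.trans (map_zero _).symm)), fun γ hγ => ?_⟩
  rw [← map_pow, MerH.comp_cconj, hu.2 _ (JStable.jConj_mem _ hγ)]

/-- **the Kummer character of the conjugate**: `χ_{cconj u} = -χ_u ∘ (γ ↦ JγJ⁻¹)`. -/
theorem kummerChar_cconjΓ {u : MerH} (hu : IsKummerElt Γ n u) :
    kummerChar Γ n (MerH.cconj u) =
      -(charInvolutionΓ Γ ℤ (ZMod n) (kummerChar Γ n u)) := by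
  apply kummerChar_eq_of_spec (IsKummerElt.cconjΓ hu).1
  intro γ
  have h2 := kummerChar_spec hu (jConjΓ Γ γ)
  rw [jConjΓ_coe] at h2
  rw [MerH.comp_cconj, h2, map_mul, MerH.cconj_const, ← stdAddChar_neg_eq_conj]
  rfl

end Kummer

section Kappa

variable {M L : ℕ} [NeZero M] [NeZero L] {n : ℕ} [NeZero n]

omit [NeZero M] [NeZero L] [NeZero n] in
/-- the conjugate of a Kummer root is a Kummer root of the conjugate divisor. -/
theorem IsKummerRoot.cconj {D : Divisor ℂ ↥(laurentBaseChange ℂ (F₁ M L))}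
    {u : MerH} (hu : IsKummerRoot M L n D u) :
    IsKummerRoot M L n (arithmeticGalois (F₁ M L) conjQ • D) (MerH.cconj u) := by
  obtain ⟨f, hf, hdiv, hun⟩ := hu
  set g := arithmeticGalois (L := ℂ) (F₁ M L) conjQ with hg
  refine ⟨g • f, ?_, fun v => ?_, ?_⟩
  · intro h0
    apply hf
    have := congrArg (fun y => g⁻¹ • y) h0
    simpa using this
  · rw [SemilinearAut.divisor_smul_apply, hdiv (g⁻¹ • v)]
    have h := SemilinearAut.ord_smul g (g⁻¹ • v) f
    rw [smul_inv_smul] at h
    exact h.symm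
  · rw [← map_pow, hun, realMLC_apply, realMLC_apply, realML_conjQ_smul]

/-- **(conj) over `ℂ`**: `kappa (conj • x) = -(kappa x) ∘ (γ ↦ JγJ⁻¹)`. -/
theorem kappa_conjQ_smul (hM : M ≠ 1)
    (x : ↥(Pic0.torsion ℂ ↥(laurentBaseChange ℂ (F₁ M L)) n)) :
    kappa M L n hM (arithmeticGalois (F₁ M L) conjQ • x) =
      -(charInvolutionΓ (Gpm M L) ℤ (ZMod n) (kappa M L n hM x)) := by
  obtain ⟨D, u, hD, hu⟩ := exists_rep_isKummerRoot x
  set g := arithmeticGalois (L := ℂ) (F₁ M L) conjQ with hg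
  have hD' : Pic0.mk (SemilinearAut.degZeroSMulHom g D) =
      ((g • x : ↥(Pic0.torsion ℂ ↥(laurentBaseChange ℂ (F₁ M L)) n)) :
        Pic0 ℂ ↥(laurentBaseChange ℂ (F₁ M L))) := by
    rw [SemilinearAut.coe_torsion_smul, ← hD, SemilinearAut.pic0_smul_mk]
  have hu' : IsKummerRoot M L n
      ((SemilinearAut.degZeroSMulHom g D : ↥(Divisor.degZero (K := ℂ)
        (F := ↥(laurentBaseChange ℂ (F₁ M L))))) : Divisor ℂ _)
      (MerH.cconj u) := by
    rw [SemilinearAut.coe_degZeroSMulHom]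
    exact hu.cconj
  have hu0 : MerH.cconj u ≠ 0 := hu'.ne_zero
  refine AddMonoidHom.ext fun γa => ?_
  obtain ⟨γ, rfl⟩ : ∃ γ : ↥(Gpm M L), Additive.ofMul γ = γa := ⟨Additive.toMul γa, rfl⟩
  have h1 := kappa_spec hM (g • x) _ hD' hu' γ
  have h2 := kappa_spec hM x D hD hu (jConjΓ (Gpm M L) γ)
  rw [jConjΓ_coe] at h2
  rw [MerH.comp_cconj, h2, map_mul, MerH.cconj_const, ← stdAddChar_neg_eq_conj] at h1
  have h3 := mul_right_cancel₀ hu0 h1
  have h4 := ZMod.injective_stdAddChar (MerH.const_injective h3)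
  rw [← h4]
  rfl

/-- **(conj) over `ℂ`** for the Prelude's `complexConjAlgEquiv`. -/
theorem kappa_complexConjAlgEquiv_smul (hM : M ≠ 1)
    (x : ↥(Pic0.torsion ℂ ↥(laurentBaseChange ℂ (F₁ M L)) n)) :
    kappa M L n hM (arithmeticGalois (F₁ M L) complexConjAlgEquiv • x) =
      -(charInvolutionΓ (Gpm M L) ℤ (ZMod n) (kappa M L n hM x)) := by
  rw [← conjQ_eq_complexConjAlgEquiv]
  exact kappa_conjQ_smul hM x

/-- **(conj) over `ℂ`**, in the shape consumed by the assembly of `StageIData`. -/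
theorem kappa_eq_neg_charInvolution_of_eq_smul (hM : M ≠ 1)
    (y y' : ↥(Pic0.torsion ℂ ↥(laurentBaseChange ℂ (F₁ M L)) n))
    (h : (y' : Pic0 ℂ ↥(laurentBaseChange ℂ (F₁ M L))) =
      complexConjAlgEquiv • (y : Pic0 ℂ ↥(laurentBaseChange ℂ (F₁ M L)))) :
    kappa M L n hM y' = -charInvolutionΓ (Gpm M L) ℤ (ZMod n) (kappa M L n hM y) := by
  have h1 : y' = arithmeticGalois (F₁ M L) complexConjAlgEquiv • y :=
    Subtype.ext h
  rw [h1]
  exact kappa_complexConjAlgEquiv_smul hM y

end Kappa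

section OmegaForm

variable {k : Type*} [Field k] [Algebra ℚ k] (ι : k →+* ℂ) (M L : ℕ) {n : ℕ}

/-- **(conj), divisor form, analytic half**: if `u` is an `n`-th root of the realisation of `f` then
`cconj u` is an `n`-th root of the realisation of `σ • f`, for every automorphism `σ` of `k` lying
over complex conjugation. -/
theorem cconj_pow_eq_realML (σ : k ≃ₐ[ℚ] k) (hσ : ∀ a : k, ι (σ a) = conj (ι a))
    {f : ↥(laurentBaseChange k (F₁ M L))} {u : MerH}
    (hu : u ^ n = realML ι M L f) :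
    (MerH.cconj u) ^ n = realML ι M L (arithmeticGalois (F₁ M L) σ • f) := by
  rw [← map_pow, hu, realML_arithmeticGalois_smul ι M L σ hσ]

/-- the instance for `Ω = AlgebraicClosure ℚ` with the Prelude's `complexEmbedding` and
`complexConjugation`. -/
theorem cconj_pow_eq_realML_complexConjugation
    {f : ↥(F₁Bar M L)} {u : MerH}
    (hu : u ^ n = realML (complexEmbedding : AlgebraicClosure ℚ →+* ℂ) M L f) :
    (MerH.cconj u) ^ n = realML (complexEmbedding : AlgebraicClosure ℚ →+* ℂ) M L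
      (arithmeticGalois (F₁ M L) complexConjugation • f) :=
  cconj_pow_eq_realML _ M L complexConjugation
    (fun a => complexEmbedding_complexConjugation a) hu

end OmegaForm

section Bridge

open Fermat.Agent.JA

variable {K L' : Type*} [Field K] [Field L'] [Algebra ℚ K] [Algebra ℚ L'] [Algebra K L']
  [IsScalarTower ℚ K L'] (ι : L' →+* ℂ) (M L : ℕ)

theorem bcHom_jdBarML {d : ℕ} [NeZero d] (hd : d ∣ M * L) :
    bcHom (L := L') (F₁ M L) (jdBarML (k := K) hd) = jdBarML (k := L') hd := by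
  apply Subtype.ext
  rw [coe_bcHom]
  show coeffMap (algebraMap K L') (coeffEmb K (qExpand ℚ d jq)) = coeffEmb L' (qExpand ℚ d jq)
  rw [coeffEmb, coeffMap_coeffMap]
  exact coeffMap_congr (Subsingleton.elim _ _) _

theorem bcHom_phiBarML {e : ℕ} [NeZero e] (he : e ∣ L) {a : ZMod M} (ha : a ≠ 0) :
    bcHom (L := L') (F₁ M L) (phiBarML (k := K) he ha) = phiBarML (k := L') he ha := by
  apply Subtype.ext
  rw [coe_bcHom]
  show coeffMap (algebraMap K L') (coeffEmb K (qExpand ℚ e (phiGen ℚ M a))) =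
    coeffEmb L' (qExpand ℚ e (phiGen ℚ M a))
  rw [coeffEmb, coeffMap_coeffMap]
  exact coeffMap_congr (Subsingleton.elim _ _) _

/-- **bridge**: the realisation over `K` (via `ι ∘ algebraMap K L'`) is the realisation over `L'`
of the coefficientwise base change. -/
theorem realML_bcHom (f : ↥(laurentBaseChange K (F₁ M L))) :
    realML ι M L (bcHom (L := L') (F₁ M L) f) =
      realML (ι.comp (algebraMap K L')) M L f := by
  induction f using F₁_induction with
  | hconst c =>
    rw [bcHom_algebraMap, realML_algebraMap, realML_algebraMap]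
    rfl
  | hj d hd => rw [bcHom_jdBarML, realML_jdBarML, realML_jdBarML]
  | hphi e he a ha => rw [bcHom_phiBarML, realML_phiBarML, realML_phiBarML]
  | hadd x y h1 h2 => rw [map_add, map_add, map_add, h1, h2]
  | hmul x y h1 h2 => rw [map_mul, map_mul, map_mul, h1, h2]
  | hinv x h1 => rw [map_inv₀, map_inv₀, map_inv₀, h1]

end Bridge

end Fermat.Agent.W1
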