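/-
W1 = [GRΓ1] (S48), package [DICT1] (helper3), part 6: **(DICT) regular differentials give
weight two forms, holomorphy on `ℍ`** — port of `X0N/Dict_helper5_Finite` to `F₁ M L`, `realML`.
Original declaration names kept inside `Fermat.Agent.W1.Dict` (`realN ↦ realML`).
-/
import Fermat.Agent.W1.DICT1_helper3_CuspInt
import Fermat.Agent.X0N.Dict_helper5_Finite

set_option autoImplicit false
set_option linter.unusedSectionVars false

open Complex Filter Topology Set ModularForm
open UpperHalfPlane hiding I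
open Fermat.Agent.RatStr ModularCurve AlgebraicCurve KaehlerDifferential
open scoped MatrixGroups Manifold Real

namespace Fermat.Agent.W1.Dict

open Fermat.Agent.X0N Fermat.Agent.FF Fermat.Agent.X0N.Dict Fermat.Agent.W1

variable {k : Type*} [Field k] [Algebra ℚ k] (ι : k →+* ℂ) (M L : ℕ) [NeZero M] [NeZero L]

/-- The `j`-invariant as an element of the function field `k(j(q^d) : d ∣ N)`. -/
noncomputable def jBarN : ↥(laurentBaseChange k (F₁ M L)) :=
  jdBarML (k := k) (one_dvd (M * L))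

theorem realML_jBarN : realML ι M L (jBarN M L) = MerH.ofHol jHol := by
  unfold jBarN
  rw [realML_jdBarML]
  congr 1
  apply Subtype.ext
  exact Fermat.Agent.X0N.Dict.jFunN_one

/-- The order function on the function field attached to a point `τ₀ ∈ ℍ` whose `j`-invariant
lies in `k`. -/
noncomputable def ordFnAt (τ₀ : ℍ) (c : k) (hc : ι c = jFun τ₀) :
    OrdFn k ↥(laurentBaseChange k (F₁ M L)) where
  ord x := MerH.ordAt τ₀ (realML ι M L x)
  ord_mul {x y} hx hy := by
    rw [map_mul, MerH.ordAt_mul (realML_ne_zero ι M L hx) (realML_ne_zero ι M L hy)]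
  ord_add {x y} hx hy hxy := by
    rw [map_add]
    exact MerH.min_ordAt_le_ordAt_add (realML_ne_zero ι M L hx) (realML_ne_zero ι M L hy)
      (by rw [← map_add]; exact realML_ne_zero ι M L hxy) τ₀
  ord_algebraMap a ha := by
    rw [realML_algebraMap]
    exact MerH.ordAt_const (by simpa using ha) τ₀
  nontrivial := by
    refine ⟨jBarN M L - algebraMap k _ c, ?_, ?_⟩
    · intro h
      have h1 := congrArg (realML ι M L) h
      rw [map_sub, realML_jBarN, realML_algebraMap, map_zero, hc] at h1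
      have h2 : MerH.ofHol (jHol - HolH.const (jFun τ₀)) = 0 := by
        rw [map_sub]; exact h1
      exact jHol_sub_const_ne_zero _ (MerH.ofHol_injective (h2.trans (map_zero _).symm))
    · rw [map_sub, realML_jBarN, realML_algebraMap, hc]
      have h2 : MerH.ofHol jHol - MerH.const (jFun τ₀) =
          MerH.ofHol (jHol - HolH.const (jFun τ₀)) := by
        rw [map_sub]; rfl
      rw [h2, MerH.ordAt_ofHol (jHol_sub_const_ne_zero _), ord_jHol_sub_const]
      split_ifs <;> norm_num

theorem ordFnAt_ord (τ₀ : ℍ) (c : k) (hc : ι c = jFun τ₀)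
    (x : ↥(laurentBaseChange k (F₁ M L))) :
    (ordFnAt ι M L τ₀ c hc).ord x = MerH.ordAt τ₀ (realML ι M L x) := rfl

theorem ordFnAt_ord_jBarN_sub (τ₀ : ℍ) (c : k) (hc : ι c = jFun τ₀) :
    (ordFnAt ι M L τ₀ c hc).ord (jBarN M L - algebraMap k _ c) =
      HolH.ord τ₀ (jHol - HolH.const (jFun τ₀)) := by
  rw [ordFnAt_ord, map_sub, realML_jBarN, realML_algebraMap, hc]
  have h2 : MerH.ofHol jHol - MerH.const (jFun τ₀) =
      MerH.ofHol (jHol - HolH.const (jFun τ₀)) := by
    rw [map_sub]; rfl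
  rw [h2, MerH.ordAt_ofHol (jHol_sub_const_ne_zero _)]


section Cx

/-- **Holomorphy on `ℍ`** of the weight two form attached to a regular differential `h dj`:
if `h ∈ L(div dj)` then `h · dj/dτ` has nonnegative order at every point of `ℍ`. -/
theorem ordAt_mul_jD_nonneg (c : Coord ℂ ↥(laurentBaseChange ℂ (F₁ M L)))
    (hcx : c.x = jBarN M L)
    (W : Divisor ℂ ↥(laurentBaseChange ℂ (F₁ M L)))
    (hW : ∀ v : Place ℂ ↥(laurentBaseChange ℂ (F₁ M L)),
      W v = v.ordDifferential (D ℂ _ c.x))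
    {h : ↥(laurentBaseChange ℂ (F₁ M L))} (hh : h ∈ riemannRochSpace W)
    (τ₀ : ℍ) :
    0 ≤ MerH.ordAt τ₀ (realML (RingHom.id ℂ) M L h * MerH.ofHol jDHol) := by
  by_cases h0 : h = 0
  · rw [h0, map_zero, zero_mul, MerH.ordAt_zero]
  set o := ordFnAt (RingHom.id ℂ) M L τ₀ (jFun τ₀) rfl with ho
  set v := o.toPlace with hv
  obtain ⟨m, hm, hmul⟩ := o.exists_ord_eq_mul
  set y : ↥(laurentBaseChange ℂ (F₁ M L)) :=
    jBarN M L - algebraMap ℂ _ (jFun τ₀) with hy
  have hs : o.ord y = HolH.ord τ₀ (jHol - HolH.const (jFun τ₀)) :=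
    ordFnAt_ord_jBarN_sub (RingHom.id ℂ) M L τ₀ (jFun τ₀) rfl
  have hs1 := ord_jDHol_add_one τ₀
  have hy0 : y ≠ 0 := by
    intro hy0
    rw [hy0] at hs
    have : o.ord 0 = 0 := by
      rw [ho, ordFnAt_ord, map_zero, MerH.ordAt_zero]
    rw [this] at hs
    omega
  have hvy := hmul y hy0
  have hvy0 : v.ord y ≠ 0 := by
    intro h1
    rw [h1, mul_zero] at hvy
    omega
  have hDy : D ℂ ↥(laurentBaseChange ℂ (F₁ M L)) y = D ℂ _ c.x := by
    rw [hy, map_sub, hcx, Derivation.map_algebraMap, sub_zero]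
  obtain ⟨-, hord⟩ := c.ordDifferential_D v hvy0
  rw [hDy] at hord
  rw [mem_riemannRochSpace_iff] at hh
  have hWv := (hh v).resolve_left h0
  rw [hW v, hord] at hWv
  have hoh := hmul h h0
  rw [MerH.ordAt_mul (realML_ne_zero _ M L h0) (MerH.ofHol_ne_zero jDHol_ne_zero),
    MerH.ordAt_ofHol jDHol_ne_zero]
  have hoh' : MerH.ordAt τ₀ (realML (RingHom.id ℂ) M L h) = m * v.ord h := hoh
  rw [hoh']
  nlinarith

end Cx

end Fermat.Agent.W1.Dict
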