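/-
W1 = [GRΓ1] (S48), package [DICT1] (helper3), part 7: **(DICT) the dictionary map from regular
differentials to weight two cusp forms for `Gpm M L`** — port of the level-dependent part of
`X0N/Dict_helper5_Main` (the generic part `denomHol`, `slashHol`, … is used from the original).
Original declaration names kept inside `Fermat.Agent.W1.Dict` (`realN ↦ realML`).
-/
import Fermat.Agent.W1.DICT1_helper3_DictFinite
import Fermat.Agent.X0N.Dict_helper5_Main

set_option autoImplicit false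
set_option linter.unusedSectionVars false

open Complex Filter Topology Set ModularForm CongruenceSubgroup
open UpperHalfPlane hiding I
open Fermat.Agent.RatStr ModularCurve AlgebraicCurve KaehlerDifferential
open scoped MatrixGroups Manifold Real

namespace Fermat.Agent.W1.Dict

open Fermat.Agent.X0N Fermat.Agent.FF Fermat.Agent.X0N.Dict Fermat.Agent.W1

variable (M L : ℕ)

/-- If `ofHol f = ρ(h) · dj/dτ` then `f ∘ γ = (cτ+d)² f` for `γ ∈ Γ₀(N)`. -/
theorem comp_eq_of_ofHol_eq {h : ↥(laurentBaseChange ℂ (F₁ M L))} {f : HolH}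
    (hf : MerH.ofHol f = realML (RingHom.id ℂ) M L h * MerH.ofHol jDHol) {γ : SL(2, ℤ)}
    (hγ : γ ∈ Gpm M L) : HolH.comp γ f = denomHol γ ^ 2 * f := by
  apply MerH.ofHol_injective
  have h1 : MerH.ofHol (HolH.comp γ f) = MerH.comp γ (MerH.ofHol f) :=
    (MerH.comp_algebraMap γ f).symm
  rw [h1, hf, map_mul, comp_realML_of_mem_Gpm _ hγ]
  have h2 : MerH.comp γ (MerH.ofHol jDHol) = MerH.ofHol (HolH.comp γ jDHol) :=
    MerH.comp_algebraMap γ jDHol
  rw [h2, comp_jDHol, map_mul, map_mul, hf]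
  ring

/-- The weight two slash translate `f ∣[2] δ` as an element of `HolH`. -/
noncomputable def slashHol (f : HolH) (δ : SL(2, ℤ)) : HolH :=
  ⟨(f : ℍ → ℂ) ∣[(2 : ℤ)] δ, (HolH.mdiff f).slash 2 _⟩

theorem slashHol_mul_denom (f : HolH) (δ : SL(2, ℤ)) :
    slashHol f δ * denomHol δ ^ 2 = HolH.comp δ f := by
  apply Subtype.ext
  funext τ
  rw [HolH.comp_apply]
  show ((f : ℍ → ℂ) ∣[(2 : ℤ)] δ) τ * denom δ τ ^ 2 = (f : ℍ → ℂ) (δ • τ)
  rw [ModularForm.SL_slash_apply, zpow_neg]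
  have h1 : denom δ τ ^ (2 : ℤ) ≠ 0 := zpow_ne_zero _ (denom_ne_zero _ _)
  have e2 : denom δ τ ^ (2 : ℤ) = denom δ τ ^ 2 := by norm_cast
  rw [e2] at h1 ⊢
  field_simp

/-- `f ∣[2] δ` corresponds to `(ρ(h) ∘ δ) · dj/dτ`. -/
theorem ofHol_slashHol {h : ↥(laurentBaseChange ℂ (F₁ M L))} {f : HolH}
    (hf : MerH.ofHol f = realML (RingHom.id ℂ) M L h * MerH.ofHol jDHol) (δ : SL(2, ℤ)) :
    MerH.ofHol (slashHol f δ) =
      MerH.comp δ (realML (RingHom.id ℂ) M L h) * MerH.ofHol jDHol := by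
  have hd : MerH.ofHol (denomHol δ ^ 2) ≠ 0 :=
    MerH.ofHol_ne_zero (pow_ne_zero _ (denomHol_ne_zero δ))
  apply mul_right_cancel₀ hd
  rw [← map_mul, slashHol_mul_denom]
  have h1 : MerH.ofHol (HolH.comp δ f) = MerH.comp δ (MerH.ofHol f) :=
    (MerH.comp_algebraMap δ f).symm
  rw [h1, hf, map_mul]
  have h2 : MerH.comp δ (MerH.ofHol jDHol) = MerH.ofHol (HolH.comp δ jDHol) :=
    MerH.comp_algebraMap δ jDHol
  rw [h2, comp_jDHol, map_mul]
  ring

theorem slash_eq_of_ofHol_eq {h : ↥(laurentBaseChange ℂ (F₁ M L))} {f : HolH}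
    (hf : MerH.ofHol f = realML (RingHom.id ℂ) M L h * MerH.ofHol jDHol) {γ : SL(2, ℤ)}
    (hγ : γ ∈ Gpm M L) : (f : ℍ → ℂ) ∣[(2 : ℤ)] γ = f := by
  have h1 := slashHol_mul_denom f γ
  rw [comp_eq_of_ofHol_eq M L hf hγ, mul_comm] at h1
  have h2 := mul_left_cancel₀ (pow_ne_zero 2 (denomHol_ne_zero γ)) h1
  exact congrArg Subtype.val h2


section Main

variable [NeZero M] [NeZero L]

/-- The cusp condition (to be supplied by the cusp package): the weight two form attached to a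
regular differential vanishes at every cusp. -/
def CuspCond (W : Divisor ℂ ↥(laurentBaseChange ℂ (F₁ M L))) : Prop :=
  ∀ (δ : SL(2, ℤ)) (h : ↥(laurentBaseChange ℂ (F₁ M L))),
    h ∈ riemannRochSpace W → ∀ φ : HolH,
      MerH.ofHol φ = MerH.comp δ (realML (RingHom.id ℂ) M L h) * MerH.ofHol jDHol →
        IsZeroAtImInfty (φ : ℍ → ℂ)

/-- The holomorphic function `ρ(h) · dj/dτ` (zero if this is not holomorphic). -/
noncomputable def dictHol (h : ↥(laurentBaseChange ℂ (F₁ M L))) : HolH :=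
  open Classical in
  if hx : ∃ f : HolH, MerH.ofHol f = realML (RingHom.id ℂ) M L h * MerH.ofHol jDHol
  then hx.choose else 0

theorem ofHol_dictHol {h : ↥(laurentBaseChange ℂ (F₁ M L))}
    (hx : ∃ f : HolH, MerH.ofHol f = realML (RingHom.id ℂ) M L h * MerH.ofHol jDHol) :
    MerH.ofHol (dictHol M L h) = realML (RingHom.id ℂ) M L h * MerH.ofHol jDHol := by
  unfold dictHol
  rw [dif_pos hx]
  exact hx.choose_spec

variable (c : Coord ℂ ↥(laurentBaseChange ℂ (F₁ M L)))
  (hcx : c.x = jBarN M L)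
  (W : Divisor ℂ ↥(laurentBaseChange ℂ (F₁ M L)))
  (hW : ∀ v : Place ℂ ↥(laurentBaseChange ℂ (F₁ M L)),
      W v = v.ordDifferential (D ℂ _ c.x))

include c hcx hW in
theorem exists_ofHol_eq_of_mem {h : ↥(laurentBaseChange ℂ (F₁ M L))}
    (hh : h ∈ riemannRochSpace W) :
    ∃ f : HolH, MerH.ofHol f = realML (RingHom.id ℂ) M L h * MerH.ofHol jDHol :=
  exists_ofHol_eq_of_ordAt_nonneg (ordAt_mul_jD_nonneg M L c hcx W hW hh)

include c hcx hW in
theorem isCF_dictHol (hcusp : CuspCond M L W)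
    {h : ↥(laurentBaseChange ℂ (F₁ M L))} (hh : h ∈ riemannRochSpace W) :
    IsCF (Gpm M L) 2 (dictHol M L h : ℍ → ℂ) := by
  have hf := ofHol_dictHol M L (exists_ofHol_eq_of_mem M L c hcx W hW hh)
  have hzero : ∀ δ : SL(2, ℤ), IsZeroAtImInfty ((dictHol M L h : ℍ → ℂ) ∣[(2 : ℤ)] δ) := fun δ =>
    hcusp δ h hh (slashHol (dictHol M L h) δ) (ofHol_slashHol M L hf δ)
  exact
    { holo := HolH.mdiff _
      inv := fun γ hγ => slash_eq_of_ofHol_eq M L hf hγ
      bdd := fun δ => (hzero δ).boundedAtFilter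
      zero := hzero }

theorem dictHol_add {h₁ h₂ : ↥(laurentBaseChange ℂ (F₁ M L))}
    (hx₁ : ∃ f : HolH, MerH.ofHol f = realML (RingHom.id ℂ) M L h₁ * MerH.ofHol jDHol)
    (hx₂ : ∃ f : HolH, MerH.ofHol f = realML (RingHom.id ℂ) M L h₂ * MerH.ofHol jDHol) :
    dictHol M L (h₁ + h₂) = dictHol M L h₁ + dictHol M L h₂ := by
  have hx : ∃ f : HolH, MerH.ofHol f = realML (RingHom.id ℂ) M L (h₁ + h₂) * MerH.ofHol jDHol :=
    ⟨dictHol M L h₁ + dictHol M L h₂, by
      rw [map_add, ofHol_dictHol M L hx₁, ofHol_dictHol M L hx₂, map_add, add_mul]⟩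
  apply MerH.ofHol_injective
  have h1 : MerH.ofHol (dictHol M L h₁ + dictHol M L h₂) =
      realML (RingHom.id ℂ) M L h₁ * MerH.ofHol jDHol + realML (RingHom.id ℂ) M L h₂ * MerH.ofHol jDHol := by
    rw [map_add, ofHol_dictHol M L hx₁, ofHol_dictHol M L hx₂]
  rw [ofHol_dictHol M L hx, h1, map_add, add_mul]

theorem dictHol_smul (a : ℂ) {h : ↥(laurentBaseChange ℂ (F₁ M L))}
    (hx : ∃ f : HolH, MerH.ofHol f = realML (RingHom.id ℂ) M L h * MerH.ofHol jDHol) :
    dictHol M L (a • h) = HolH.const a * dictHol M L h := by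
  have hsm : realML (RingHom.id ℂ) M L (a • h) = MerH.const a * realML (RingHom.id ℂ) M L h := by
    rw [Algebra.smul_def, map_mul, realML_algebraMap]
    rfl
  have hx' : ∃ f : HolH, MerH.ofHol f = realML (RingHom.id ℂ) M L (a • h) * MerH.ofHol jDHol :=
    ⟨HolH.const a * dictHol M L h, by
      rw [map_mul, ofHol_dictHol M L hx, hsm, mul_assoc]
      rfl⟩
  apply MerH.ofHol_injective
  rw [ofHol_dictHol M L hx', map_mul, ofHol_dictHol M L hx, hsm, mul_assoc]
  rfl

/-- **The dictionary**: regular differentials `h dj` give weight two cusp forms `h · dj/dτ`. -/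
noncomputable def dictMap (hcusp : CuspCond M L W) :
    ↥(riemannRochSpace W) →ₗ[ℂ] CuspForm (Gpm M L) 2 where
  toFun h := (isCF_dictHol M L c hcx W hW hcusp h.2).toCuspForm
  map_add' h₁ h₂ := by
    apply DFunLike.coe_injective
    show (dictHol M L ((h₁ : ↥(laurentBaseChange ℂ (F₁ M L))) + h₂) : ℍ → ℂ) =
      (dictHol M L h₁ : ℍ → ℂ) + (dictHol M L h₂ : ℍ → ℂ)
    rw [dictHol_add M L (exists_ofHol_eq_of_mem M L c hcx W hW h₁.2)
      (exists_ofHol_eq_of_mem M L c hcx W hW h₂.2)]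
    rfl
  map_smul' a h := by
    apply DFunLike.coe_injective
    show (dictHol M L (a • (h : ↥(laurentBaseChange ℂ (F₁ M L)))) : ℍ → ℂ) =
      a • (dictHol M L h : ℍ → ℂ)
    rw [dictHol_smul M L a (exists_ofHol_eq_of_mem M L c hcx W hW h.2)]
    rfl

theorem dictMap_injective (hcusp : CuspCond M L W) :
    Function.Injective (dictMap M L c hcx W hW hcusp) := by
  rw [← LinearMap.ker_eq_bot, LinearMap.ker_eq_bot']
  intro h hh
  have h1 : (dictHol M L (h : ↥(laurentBaseChange ℂ (F₁ M L))) : ℍ → ℂ) = 0 :=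
    congrArg (fun f : CuspForm (Gpm M L) 2 => (f : ℍ → ℂ)) hh
  have h2 : dictHol M L (h : ↥(laurentBaseChange ℂ (F₁ M L))) = 0 :=
    Subtype.ext h1
  have h3 := ofHol_dictHol M L (exists_ofHol_eq_of_mem M L c hcx W hW h.2)
  rw [h2, map_zero] at h3
  have h4 : realML (RingHom.id ℂ) M L (h : ↥(laurentBaseChange ℂ (F₁ M L))) = 0 :=
    (mul_eq_zero.mp h3.symm).resolve_right (MerH.ofHol_ne_zero jDHol_ne_zero)
  apply Subtype.ext
  exact (realML_injective (RingHom.id ℂ) M L) (h4.trans (map_zero _).symm)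

include c hcx hW in
/-- **Lower bound for `dim S₂(Gpm M L)`** by the dimension of the space of regular differentials
(finite-dimensionality of the space of cusp forms is a hypothesis here: it is supplied by the
Eichler–Shimura injection into the parabolic cohomology). -/
theorem finrank_riemannRochSpace_le [Module.Finite ℂ (CuspForm (Gpm M L) 2)]
    (hcusp : CuspCond M L W) :
    Module.finrank ℂ ↥(riemannRochSpace W) ≤ Module.finrank ℂ (CuspForm (Gpm M L) 2) :=
  LinearMap.finrank_le_finrank_of_injective (dictMap_injective M L c hcx W hW hcusp)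

end Main

end Fermat.Agent.W1.Dict
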