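/-
W1 = [GRΓ1] (S48), package [DICT1] (helper3), part 8: **(DICT) the cusp condition and the
inequality `dim L(div dj) ≤ dim S₂(Gpm M L)`** — port of the level-dependent part of
`X0N/Dict_helper5_Cusp` (width `N ↦ M * L`).  Original declaration names kept inside
`Fermat.Agent.W1.Dict` (`realN ↦ realML`).
-/
import Fermat.Agent.W1.DICT1_helper3_DictMain
import Fermat.Agent.X0N.Dict_helper5_Cusp

set_option autoImplicit false
set_option linter.unusedSectionVars false

open Complex Filter Topology Set ModularForm CongruenceSubgroup EisensteinSeries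
open UpperHalfPlane hiding I
open Fermat.Agent.RatStr ModularCurve AlgebraicCurve KaehlerDifferential
open scoped MatrixGroups Manifold Real

namespace Fermat.Agent.W1.Dict

open Fermat.Agent.X0N Fermat.Agent.FF Fermat.Agent.X0N.Cusp Fermat.Agent.X0N.Dict Fermat.Agent.W1

variable (M L : ℕ) [NeZero M] [NeZero L]

theorem jBarN_eq_jK : jBarN (k := ℂ) M L = jK ℂ M L := by
  apply (realML (RingHom.id ℂ) M L).injective
  rw [realML_jBarN, realML_jK_eq_ofHol]

/-- **The cusp condition holds**: the weight two form attached to a regular differential vanishes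
at all cusps. -/
theorem cuspCond (c : Coord ℂ ↥(laurentBaseChange ℂ (F₁ M L)))
    (hcx : c.x = jBarN M L)
    (W : Divisor ℂ ↥(laurentBaseChange ℂ (F₁ M L)))
    (hW : ∀ v : Place ℂ ↥(laurentBaseChange ℂ (F₁ M L)),
      W v = v.ordDifferential (D ℂ _ c.x)) : CuspCond M L W := by
  intro δ h hh φ hφ
  by_cases h0 : h = 0
  · rw [h0, map_zero, map_zero, zero_mul] at hφ
    have : φ = 0 := MerH.ofHol_injective (hφ.trans (map_zero _).symm)
    rw [this]
    show Tendsto (fun _ : ℍ => (0 : ℂ)) atImInfty (𝓝 0)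
    exact tendsto_const_nhds
  set q : SL(2, ℤ) ⧸ Gpm M L := ((δ⁻¹ : SL(2, ℤ)) : SL(2, ℤ) ⧸ Gpm M L) with hq
  have hconj : cuspConj (RingHom.id ℂ) M L q h = MerH.comp δ (realML (RingHom.id ℂ) M L h) := by
    rw [cuspConj_apply, conjM_mk (isModFun_realML _ h), inv_inv]
  set oc := cuspOrdFn (RingHom.id ℂ) M L q with hoc
  set v := oc.toPlace with hv
  obtain ⟨m, hm, hmul⟩ := oc.exists_ord_eq_mul
  have hj : oc.ord (jK ℂ M L) = -((M * L : ℕ) : ℤ) := cuspOrdFn_ord_jK _ M L q
  have hjx : c.x = jK ℂ M L := hcx.trans (jBarN_eq_jK M L)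
  have hj0 : jK ℂ M L ≠ 0 := jK_ne_zero (RingHom.id ℂ) M L
  have hN : (0 : ℤ) < ((M * L : ℕ) : ℤ) := by exact_mod_cast NeZero.pos (M * L)
  have hvj := hmul (jK ℂ M L) hj0
  have hvj0 : v.ord (jK ℂ M L) ≠ 0 := by
    intro h1
    rw [h1, mul_zero, hj] at hvj
    omega
  obtain ⟨-, hord⟩ := c.ordDifferential_D v hvj0
  rw [← hjx] at hord
  rw [mem_riemannRochSpace_iff] at hh
  have hWv := (hh v).resolve_left h0
  rw [hW v, hord, hjx] at hWv
  have hoh := hmul h h0
  -- the order at the cusp of `ρ(h) ∘ δ`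
  have hord_h : ((M * L : ℕ) : ℤ) + 1 ≤ MerH.ordInf (M * L) (MerH.comp δ (realML (RingHom.id ℂ) M L h)) := by
    rw [← hconj]
    have : oc.ord h = MerH.ordInf (M * L) (cuspConj (RingHom.id ℂ) M L q h) := rfl
    rw [← this, hoh]
    nlinarith
  have hmer : IsMerInf (M * L) (MerH.comp δ (realML (RingHom.id ℂ) M L h)) := by
    rw [← hconj]
    exact isMerInf_cuspConj _ M L q h
  have hne : MerH.comp δ (realML (RingHom.id ℂ) M L h) ≠ 0 := by
    rw [← hconj]
    exact cuspConj_ne_zero _ M L q h0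
  apply isZeroAtImInfty_of_ordInf_pos (M * L)
  · rw [hφ]
    exact hmer.mul (isMerInf_jDHol (M * L))
  · rw [hφ, MerH.ordInf_mul hmer (isMerInf_jDHol (M * L)) hne (MerH.ofHol_ne_zero jDHol_ne_zero),
      ordInf_jDHol]
    omega

/-- **(DICT)**: `dim L(div dj) ≤ dim S₂(Γ₀(N))`, unconditionally. -/
theorem finrank_riemannRochSpace_le_finrank_cuspForm [Module.Finite ℂ (CuspForm (Gpm M L) 2)]
    (c : Coord ℂ ↥(laurentBaseChange ℂ (F₁ M L)))
    (hcx : c.x = jBarN M L)
    (W : Divisor ℂ ↥(laurentBaseChange ℂ (F₁ M L)))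
    (hW : ∀ v : Place ℂ ↥(laurentBaseChange ℂ (F₁ M L)),
      W v = v.ordDifferential (D ℂ _ c.x)) :
    Module.finrank ℂ ↥(riemannRochSpace W) ≤ Module.finrank ℂ (CuspForm (Gpm M L) 2) :=
  finrank_riemannRochSpace_le M L c hcx W hW (cuspCond M L c hcx W hW)

end Fermat.Agent.W1.Dict
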