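/-
W1 = [GRΓ1] (S48), package [DICT1] (helper3), part 9: **genus numerics of the function field of
level `Gpm M L` with ABSTRACT orbit counts** — replaces `X0N/S24_helper7_{Assembly,Generic,Wiring}`
and `X0N/S20_helper5_Coord` (no `dedekindPsi`, `genusFormula`, `cuspCount`), in the interface of
`W1/GenusAbs_helper9` (`orbCount`, `eulerΓ`, `IsGenusOf`).  For every algebraically closed
`k ⊆ ℂ`, with `j`-coordinate `jCoordOf k M L hM` (helper4) of degree `μ := (Gpm M L).index`:

* `jCoordOf_counts` : the four place counts (generic / `1728` / `0` / `∞`);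
* `degree_divisor_D_jCoordOf` : `deg div(dj) = eulerΓ (Gpm M L)`  (Riemann–Hurwitz);
* `isGenusOf_finrank_riemannRochSpace` : `IsGenusOf (Gpm M L) (dim L(div dj))`;
* `isGenusOf_genus` : `IsGenusOf (Gpm M L) (genus k F)`;
* **(D1)** `isGenusOf_genus_F₁Bar`, **(D2)** `genus_F₁Bar_le_finrank_cuspForm`.
-/
import Fermat.Agent.W1.DICT1_helper3_DictCusp
import Fermat.Agent.W1.GenusAbs_helper9
import Fermat.Agent.FF.RiemannHurwitz
import Fermat.Agent.FF.Canonical
import Fermat.Agent.FF.RR_helper3_Final

set_option autoImplicit false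
set_option linter.unusedSectionVars false

open AlgebraicCurve CongruenceSubgroup MatrixGroups ModularGroup ModularCurve IntermediateField
open KaehlerDifferential

namespace Fermat.Agent.W1

open Fermat.Agent.FF Fermat.Agent.X0N Fermat.Agent.RatStr

section Generic

variable (k : Type*) [Field k] [Algebra ℚ k] [Algebra k ℂ] [IsScalarTower ℚ k ℂ]
  (M L : ℕ) [NeZero M] [NeZero L] (hM : M ≠ 1)

theorem card_cosets_eq_jCoordOf_degree :
    Nat.card (SL(2, ℤ) ⧸ Gpm M L) = (jCoordOf k M L hM).degree := by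
  rw [jCoordOf_degree]
  rfl

include hM in
/-- The function field of level `Gpm M L` over `k` has canonical divisors. -/
theorem hasCanonicalDivisor_laurentBaseChange_F₁ [CharZero k] [IsAlgClosed k] :
    HasCanonicalDivisor (K := k) (F := ↥(laurentBaseChange k (F₁ M L))) :=
  (jCoordOf k M L hM).hasCanonicalDivisor

variable [CharZero k] [IsAlgClosed k]

/-- the four place counts of the `j`-coordinate. -/
theorem jCoordOf_counts :
    (∀ a : k, a ≠ 0 → a ≠ 1728 →
      ((jCoordOf k M L hM).zeros a).card = (jCoordOf k M L hM).degree) ∧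
    ((jCoordOf k M L hM).zeros 1728).card = orbCount (Gpm M L) S ∧
    ((jCoordOf k M L hM).zeros 0).card = orbCount (Gpm M L) (S * T) ∧
    (jCoordOf k M L hM).poles.card = orbCount (Gpm M L) T := by
  have hX := card_cosets_eq_jCoordOf_degree k M L hM
  refine ⟨fun a h0 h1 => card_zeros_generic_of_coord (jCoordOf k M L hM) rfl hX a h0 h1,
    card_zeros_1728_of_coord (jCoordOf k M L hM) rfl hX,
    card_zeros_zero_of_coord (jCoordOf k M L hM) rfl hX,
    card_poles_eq_card_cusps_jK M L (jCoordOf k M L hM) rfl hX.symm⟩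

/-- **Riemann–Hurwitz for `j`** on the function field of level `Gpm M L`:
`deg div(dj) = μ - o_S - o_ST - o_T`. -/
theorem degree_divisor_D_jCoordOf (W : Divisor k ↥(laurentBaseChange k (F₁ M L)))
    (hW : ∀ v : Place k ↥(laurentBaseChange k (F₁ M L)),
      W v = v.ordDifferential (D k _ (jCoordOf k M L hM).x)) :
    Divisor.degree W = eulerΓ (Gpm M L) := by
  classical
  set c := jCoordOf k M L hM with hc
  obtain ⟨hgen, h1728, h0, hinf⟩ := jCoordOf_counts k M L hM
  have hdeg := jCoordOf_degree k M L hM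
  have h01 : (0 : k) ≠ 1728 := by norm_num
  have hB : ∀ a : k, a ∉ ({0, 1728} : Finset k) →
      ∀ v ∈ c.zeros a, v.ord (c.x - algebraMap k _ a) = 1 := by
    intro a ha v hv
    simp only [Finset.mem_insert, Finset.mem_singleton, not_or] at ha
    exact c.ord_eq_one_of_card_zeros_eq (hgen a ha.1 ha.2) hv
  have h := c.degree_of_forall_eq_ordDifferential_D_x W hW ({0, 1728} : Finset k) hB
  rw [h, Finset.sum_pair h01, h0, h1728, hinf, hdeg]
  unfold eulerΓ
  ring

/-- **Riemann–Roch + Riemann–Hurwitz**: `2 dim L(div dj) - 2 = μ - o_S - o_ST - o_T`. -/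
theorem isGenusOf_finrank_riemannRochSpace
    (W : Divisor k ↥(laurentBaseChange k (F₁ M L)))
    (hW : ∀ v : Place k ↥(laurentBaseChange k (F₁ M L)),
      W v = v.ordDifferential (D k _ (jCoordOf k M L hM).x)) :
    Module.Finite k ↥(riemannRochSpace W) ∧
      IsGenusOf (Gpm M L) (Module.finrank k ↥(riemannRochSpace W)) := by
  obtain ⟨hfin, hRR⟩ := (jCoordOf k M L hM).two_mul_finrank_riemannRochSpace_D_x W hW
  refine ⟨hfin, ?_⟩
  have h := degree_divisor_D_jCoordOf k M L hM W hW
  unfold IsGenusOf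
  linarith

include hM in
/-- **The genus of the function field of level `Gpm M L`** over any algebraically closed
`k ⊆ ℂ`: `2 g - 2 = μ - o_S - o_ST - o_T`. -/
theorem isGenusOf_genus
    [HasCanonicalDivisor (K := k) (F := ↥(laurentBaseChange k (F₁ M L)))] :
    IsGenusOf (Gpm M L) (genus k ↥(laurentBaseChange k (F₁ M L))) := by
  classical
  set c := jCoordOf k M L hM with hc
  obtain ⟨W, hW⟩ := c.exists_divisor_D_x
  obtain ⟨-, hRR⟩ := isGenusOf_finrank_riemannRochSpace k M L hM W hW
  obtain ⟨hgen, h1728, h0, hinf⟩ := jCoordOf_counts k M L hM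
  have hdeg := jCoordOf_degree k M L hM
  have h01 : (0 : k) ≠ 1728 := by norm_num
  have hB : ∀ a : k, a ∉ ({0, 1728} : Finset k) → (c.zeros a).card = c.degree := by
    intro a ha
    simp only [Finset.mem_insert, Finset.mem_singleton, not_or] at ha
    exact hgen a ha.1 ha.2
  have hm : ∑ a ∈ ({0, 1728} : Finset k), ((c.degree : ℤ) - (c.zeros a).card) - c.degree
      - c.poles.card + 2 = 2 * (Module.finrank k ↥(riemannRochSpace W) : ℕ) := by
    rw [Finset.sum_pair h01, h0, h1728, hinf, hdeg]
    have := hRR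
    unfold IsGenusOf eulerΓ at this
    linarith
  rw [c.genus_eq ({0, 1728} : Finset k) hB _ hm]
  exact hRR

/-- the genus is the dimension of the space of regular differentials `L(div dj)`. -/
theorem genus_eq_finrank_riemannRochSpace
    [HasCanonicalDivisor (K := k) (F := ↥(laurentBaseChange k (F₁ M L)))]
    (W : Divisor k ↥(laurentBaseChange k (F₁ M L)))
    (hW : ∀ v : Place k ↥(laurentBaseChange k (F₁ M L)),
      W v = v.ordDifferential (D k _ (jCoordOf k M L hM).x)) :
    genus k ↥(laurentBaseChange k (F₁ M L)) = Module.finrank k ↥(riemannRochSpace W) :=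
  (isGenusOf_genus k M L hM).unique (isGenusOf_finrank_riemannRochSpace k M L hM W hW).2

end Generic

section Complex

variable (M L : ℕ) [NeZero M] [NeZero L] (hM : M ≠ 1)

theorem jCoordOf_x_eq_jBarN : (jCoordOf ℂ M L hM).x = Dict.jBarN M L :=
  (Dict.jBarN_eq_jK M L).symm

include hM in
/-- **(DICT₁)** the genus of the function field of level `Gpm M L` over `ℂ` is at most the
dimension of the weight two cusp forms of level `Gpm M L`. -/
theorem genus_complex_le_finrank_cuspForm
    [HasCanonicalDivisor (K := ℂ) (F := ↥(laurentBaseChange ℂ (F₁ M L)))]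
    [Module.Finite ℂ (CuspForm (Gpm M L) 2)] :
    genus ℂ ↥(laurentBaseChange ℂ (F₁ M L)) ≤ Module.finrank ℂ (CuspForm (Gpm M L) 2) := by
  obtain ⟨W, hW⟩ := (jCoordOf ℂ M L hM).exists_divisor_D_x
  rw [genus_eq_finrank_riemannRochSpace ℂ M L hM W hW]
  exact Dict.finrank_riemannRochSpace_le_finrank_cuspForm M L (jCoordOf ℂ M L hM)
    (jCoordOf_x_eq_jBarN M L hM) W hW

include hM in
/-- **(DICT₁)** in the form of a bound on any genus of `Gpm M L`. -/
theorem IsGenusOf.le_finrank_cuspForm_Gpm [Module.Finite ℂ (CuspForm (Gpm M L) 2)]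
    {g : ℕ} (hg : IsGenusOf (Gpm M L) g) :
    g ≤ Module.finrank ℂ (CuspForm (Gpm M L) 2) := by
  haveI := hasCanonicalDivisor_laurentBaseChange_F₁ ℂ M L hM
  rw [hg.unique (isGenusOf_genus ℂ M L hM)]
  exact genus_complex_le_finrank_cuspForm M L hM

end Complex

section Bar

variable (M L : ℕ) [NeZero M] [NeZero L] (hM : M ≠ 1)

include hM in
/-- the function field of level `Gpm M L` over `ℚ̄` has canonical divisors. -/
theorem hasCanonicalDivisor_F₁Bar :
    HasCanonicalDivisor (K := AlgebraicClosure ℚ) (F := ↥(F₁Bar M L)) :=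
  (jCoordBarOf M L hM).hasCanonicalDivisor

include hM in
/-- **(D1)** Riemann–Hurwitz over the `j`-line for the function field of level `Gpm M L` over
`ℚ̄`: its genus `g` satisfies `2 g - 2 = μ - e₂ - e₃ - e_∞`. -/
theorem isGenusOf_genus_F₁Bar
    [HasCanonicalDivisor (K := AlgebraicClosure ℚ) (F := ↥(F₁Bar M L))] :
    IsGenusOf (Gpm M L) (genus (AlgebraicClosure ℚ) ↥(F₁Bar M L)) := by
  letI : Algebra (AlgebraicClosure ℚ) ℂ := complexEmbedding.toRingHom.toAlgebra
  haveI : IsScalarTower ℚ (AlgebraicClosure ℚ) ℂ :=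
    IsScalarTower.of_algebraMap_eq' (Subsingleton.elim _ _)
  exact isGenusOf_genus (AlgebraicClosure ℚ) M L hM

include hM in
/-- **(D2)** regular differentials inject into the weight two cusp forms: the genus of the
function field of level `Gpm M L` over `ℚ̄` is at most `dim S₂(Gpm M L)`. -/
theorem genus_F₁Bar_le_finrank_cuspForm
    [HasCanonicalDivisor (K := AlgebraicClosure ℚ) (F := ↥(F₁Bar M L))]
    [Module.Finite ℂ (CuspForm (Gpm M L) 2)] :
    genus (AlgebraicClosure ℚ) ↥(F₁Bar M L) ≤ Module.finrank ℂ (CuspForm (Gpm M L) 2) :=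
  (isGenusOf_genus_F₁Bar M L hM).le_finrank_cuspForm_Gpm M L hM

end Bar

end Fermat.Agent.W1
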