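/-
W1 = [GRΓ1] (S48), package [CHAR1] (helper9), part 4 (port of `GR/INV_helper8_{Main,Finite}`):
a `Gpm M L`-invariant `n`-th root in `MerH` of a function on `X(Gpm M L)` is a function on
`X(Gpm M L)`; **the Kummer map `kappa M L n hM` is injective**; finiteness of the `n`-torsion of
`Pic⁰(F_ℂ)`.
(The generic `isModFun_of_pow`, `isMF_of_pow` of `GR/INV_helper8_Main` are used as they are.)
-/
import Mathlib
import Fermat.Agent.GR.INV_helper8_Finite
import Fermat.Agent.W1.CHAR1_helper9_Main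

set_option autoImplicit false
set_option linter.style.haveILetI false
set_option linter.unusedSectionVars false

open UpperHalfPlane hiding I
open Complex ModularGroup ModularCurve CongruenceSubgroup AlgebraicCurve ModularForm
open scoped MatrixGroups ModularForm Manifold

namespace Fermat.Agent.W1

open Fermat.Agent.X0N Fermat.Agent.RatStr Fermat.Agent.GR

section Range

variable (M L : ℕ) [NeZero M] [NeZero L]

/-- **every modular function for `Gpm M L` is in the range of the realisation.** -/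
theorem mem_range_realMLC_of_isModFun (hM : M ≠ 1) {y : MerH} (hy : IsModFun (Gpm M L) y) :
    y ∈ Set.range (realMLC M L) := by
  obtain ⟨x, hx⟩ := exists_realML_eq_of_isModFun M L hM hy
  exact ⟨x, hx⟩

theorem isModFun_iff_mem_range_realMLC (hM : M ≠ 1) {y : MerH} :
    IsModFun (Gpm M L) y ↔ y ∈ Set.range (realMLC M L) := by
  refine ⟨mem_range_realMLC_of_isModFun M L hM, ?_⟩
  rintro ⟨f, rfl⟩
  exact isModFun_realML (RingHom.id ℂ) f

/-- **(K3 INV)** a `Gpm M L`-invariant `n`-th root in `MerH` of a function on `X(Gpm M L)` is a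
function on `X(Gpm M L)`. -/
theorem mem_range_realMLC_of_invariant (hM : M ≠ 1) {n : ℕ} (hn : n ≠ 0) {u : MerH}
    {f : ↥(laurentBaseChange ℂ (F₁ M L))}
    (hinv : ∀ γ ∈ Gpm M L, MerH.comp γ u = u) (hu : u ^ n = realMLC M L f) :
    u ∈ Set.range (realMLC M L) := by
  apply mem_range_realMLC_of_isModFun M L hM
  apply isModFun_of_pow hn hinv
  rw [hu]
  exact isModFun_realML (RingHom.id ℂ) f

/-- **(K3 INV, ratio form for K4)** a `Gpm M L`-invariant ratio `u = g / h` of holomorphic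
functions such that `g ^ n` and `h ^ n` are modular forms of the same weight lies in the range of
the realisation. -/
theorem mem_range_realMLC_of_pow_isMF (hM : M ≠ 1) {n : ℕ} (hn : n ≠ 0) {k : ℤ} {g h : HolH}
    (hg : IsMF (Gpm M L) k ((g : ℍ → ℂ) ^ n)) (hh : IsMF (Gpm M L) k ((h : ℍ → ℂ) ^ n))
    (h0 : h ≠ 0)
    (hinv : ∀ γ ∈ Gpm M L, MerH.comp γ (MerH.ofHol g / MerH.ofHol h) =
      MerH.ofHol g / MerH.ofHol h) :
    MerH.ofHol g / MerH.ofHol h ∈ Set.range (realMLC M L) := by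
  apply mem_range_realMLC_of_isModFun M L hM
  apply isModFun_of_pow hn hinv
  refine ⟨k, g ^ n, h ^ n, hg, hh, pow_ne_zero n h0, ?_⟩
  rw [div_pow, map_pow, map_pow]

end Range

/-! ### injectivity of the Kummer map -/

section Inj

variable {M L : ℕ} [NeZero M] [NeZero L] {n : ℕ} [NeZero n]

/-- **(inj)** the Kummer map `kappa M L n hM : Pic⁰(F_ℂ)[n] → Hom(Gpm M L, ℤ/n)` is injective. -/
theorem kappa_injective (hM : M ≠ 1) : Function.Injective (kappa M L n hM) := by
  rw [injective_iff_map_eq_zero]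
  intro x hx
  obtain ⟨D, u, hD, hu⟩ := exists_rep_isKummerRoot x
  have hinv := (kappa_eq_zero_iff hM x D hD hu).mp hx
  obtain ⟨f, hf, hfD, huf⟩ := hu
  obtain ⟨g, hg⟩ := mem_range_realMLC_of_invariant M L hM (NeZero.ne n) hinv huf
  have hgf : g ^ n = f := by
    apply realMLC_injective M L
    rw [map_pow, hg, huf]
  have hg0 : g ≠ 0 := by
    rintro rfl
    rw [zero_pow (NeZero.ne n)] at hgf
    exact hf hgf.symm
  have hprin : (D : Divisor ℂ ↥(laurentBaseChange ℂ (F₁ M L))) ∈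
      Divisor.principal (K := ℂ) (F := ↥(laurentBaseChange ℂ (F₁ M L))) := by
    refine ⟨g, hg0, fun v => ?_⟩
    have h1 := hfD v
    rw [← hgf, ← zpow_natCast, Place.ord_zpow] at h1
    have hn0 : (n : ℤ) ≠ 0 := Nat.cast_ne_zero.mpr (NeZero.ne n)
    exact mul_left_cancel₀ hn0 h1
  have h0 : Pic0.mk D = 0 := by
    rw [Pic0.mk, QuotientAddGroup.eq_zero_iff]
    exact hprin
  apply Subtype.ext
  rw [← hD, h0]
  rfl

theorem kappa_eq_zero_iff_eq_zero (hM : M ≠ 1)
    (x : ↥(Pic0.torsion ℂ ↥(laurentBaseChange ℂ (F₁ M L)) n)) :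
    kappa M L n hM x = 0 ↔ x = 0 :=
  ⟨fun h => kappa_injective hM (h.trans (map_zero _).symm), fun h => by rw [h, map_zero]⟩

end Inj

/-! ### finiteness of the torsion -/

instance finite_hom_Gpm_zmod (M L : ℕ) [NeZero (M * L)] (n : ℕ) [NeZero n] :
    Finite (Additive ↥(Gpm M L) →+ ZMod n) :=
  finite_addMonoidHom_of_fg _ _

/-- **the `n`-torsion of `Pic⁰(F_ℂ)` is finite** (`n ≠ 0`). -/
theorem finite_torsion_pic0C_ML (M L : ℕ) [NeZero M] [NeZero L] (hM : M ≠ 1) {n : ℕ}
    (hn : n ≠ 0) : Finite ↥(Pic0.torsion ℂ ↥(laurentBaseChange ℂ (F₁ M L)) n) := by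
  haveI : NeZero n := ⟨hn⟩
  haveI : NeZero (M * L) := ⟨mul_ne_zero (NeZero.ne M) (NeZero.ne L)⟩
  exact Finite.of_injective _ (kappa_injective (M := M) (L := L) (n := n) hM)

end Fermat.Agent.W1
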