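/-
W1 = [GRΓ1] (S48), package [KSUR1] (helper9) (port of `GR/EIS_helper9_Main`; the generic
`GR/EIS_helper9_{Weighted,Char}` are used as they are): **surjectivity of the Kummer map** onto
the characters killing parabolic and finite order elements, for the level `Gpm M L`.

For `ψ : Gpm M L → ℤ/n` killing the elements with `trace² = 4` and the elements of finite order,
`u := E_χ / E_1 ∈ MerH` (`χ = stdAddChar ∘ ψ`) satisfies `u ∘ γ = χ(γ) u`, `u ^ n = realMLC f` for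
a function `f` on `X(Gpm M L)` all of whose orders are divisible by `n` (ORD-K4, here the
hypothesis `OrdK4 M L`, proved from the places dictionary [DICT1]), so `D := div(f) / n` defines a
class `x ∈ Pic⁰(F_ℂ)[n]` with `kappa M L n hM x = ψ`.
-/
import Mathlib
import Fermat.Agent.GR.EIS_helper9_Main
import Fermat.Agent.W1.CHAR1_helper9_Inj

set_option autoImplicit false
set_option linter.unusedSectionVars false
set_option linter.style.haveILetI false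

open UpperHalfPlane hiding I
open Complex ModularGroup ModularCurve CongruenceSubgroup AlgebraicCurve Matrix
open Fermat.Agent.RatStr ModularCurve.Period
open scoped MatrixGroups

namespace Fermat.Agent.W1

open Fermat.Agent.X0N Fermat.Agent.GR

noncomputable section

/-- **(ORD-K4) at level `Gpm M L`** (statement): divisibility by `n` of the divisor of `f` from an
`n`-th root `u` of its realisation which is invariant under the parabolic and the finite order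
elements of `Gpm M L` and meromorphic at all cusps. -/
def OrdK4 (M L : ℕ) : Prop :=
  ∀ {n : ℕ}, n ≠ 0 → ∀ {f : ↥(laurentBaseChange ℂ (F₁ M L))}, f ≠ 0 → ∀ {u : MerH},
    u ^ n = realML (RingHom.id ℂ) M L f →
    (∀ γ : SL(2, ℤ), γ ∈ Gpm M L →
      ((γ : Matrix (Fin 2) (Fin 2) ℤ).trace ^ 2 = 4 ∨ IsOfFinOrder γ) → MerH.comp γ u = u) →
    (∀ σ : SL(2, ℤ), IsMerInf (M * L) (MerH.comp σ u)) →
    ∀ P : Place ℂ ↥(laurentBaseChange ℂ (F₁ M L)), (n : ℤ) ∣ P.ord f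

/-- `E_χ` as an element of `HolH` (any `Γ`). -/
def eisHolΓ {Γ : Subgroup SL(2, ℤ)} {n : ℕ} [NeZero n] (ψ : Additive ↥Γ →+ ZMod n) : HolH :=
  ⟨eisChi ψ, mdiff_eisChi ψ⟩

@[simp] theorem coe_eisHolΓ {Γ : Subgroup SL(2, ℤ)} {n : ℕ} [NeZero n]
    (ψ : Additive ↥Γ →+ ZMod n) : (eisHolΓ ψ : ℍ → ℂ) = eisChi ψ := rfl

variable {M L : ℕ} [NeZero M] [NeZero L] {n : ℕ} [NeZero n] (ψ : Additive ↥(Gpm M L) →+ ZMod n)

/-- the Kummer element `u = E_χ / E_1`. -/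
def eisUML : MerH :=
  MerH.ofHol (eisHolΓ ψ) / MerH.ofHol (eisHolΓ (0 : Additive ↥(Gpm M L) →+ ZMod n))

theorem eis_isParabolicHom_zero_Gpm :
    IsParabolicHom (Gpm M L) (0 : Additive ↥(Gpm M L) →+ ZMod n) := fun _ _ => rfl

variable {ψ}

theorem eisHolΓ_ne_zero_Gpm (hψ : IsParabolicHom (Gpm M L) ψ) : eisHolΓ ψ ≠ 0 := by
  intro h
  exact eisChi_ne_zero hψ (neg_one_mem_Gpm M L) (congrArg Subtype.val h)

theorem eisUML_ne_zero (hψ : IsParabolicHom (Gpm M L) ψ) : eisUML ψ ≠ 0 :=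
  div_ne_zero (MerH.ofHol_ne_zero (eisHolΓ_ne_zero_Gpm hψ))
    (MerH.ofHol_ne_zero (eisHolΓ_ne_zero_Gpm eis_isParabolicHom_zero_Gpm))

theorem slashSL_eisHolΓ_Gpm (hψ : IsParabolicHom (Gpm M L) ψ) (γ : ↥(Gpm M L)) :
    HolH.slashSL 4 (γ : SL(2, ℤ)) (eisHolΓ ψ) =
      HolH.const (ZMod.stdAddChar (ψ (Additive.ofMul γ))) * eisHolΓ ψ := by
  apply Subtype.ext
  rw [HolH.coe_slashSL, coe_eisHolΓ, eisChi_slash hψ γ]
  rfl

/-- **`u ∘ γ = χ(γ) u`.** -/
theorem comp_eisUML (hψ : IsParabolicHom (Gpm M L) ψ) (γ : ↥(Gpm M L)) :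
    MerH.comp (γ : SL(2, ℤ)) (eisUML ψ) =
      MerH.const (ZMod.stdAddChar (ψ (Additive.ofMul γ))) * eisUML ψ := by
  unfold eisUML
  rw [MerH.comp_div_eq_slash 4 (γ : SL(2, ℤ)) (eisHolΓ ψ)
      (eisHolΓ_ne_zero_Gpm eis_isParabolicHom_zero_Gpm),
    slashSL_eisHolΓ_Gpm hψ γ, slashSL_eisHolΓ_Gpm eis_isParabolicHom_zero_Gpm γ,
    AddMonoidHom.zero_apply, AddChar.map_zero_eq_one, map_one, one_mul, map_mul, mul_div_assoc]
  rfl

theorem kerSub_le_kerSub_zero_Gpm :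
    kerSub ψ ≤ kerSub (0 : Additive ↥(Gpm M L) →+ ZMod n) :=
  fun _ h => ⟨h.1, rfl⟩

/-- `u` is a modular function for `ker ψ`. -/
theorem isModFun_eisUML (hψ : IsParabolicHom (Gpm M L) ψ) : IsModFun (kerSub ψ) (eisUML ψ) :=
  ⟨4, eisHolΓ ψ, eisHolΓ 0, isMF_eisChi hψ,
    (isMF_eisChi eis_isParabolicHom_zero_Gpm).mono kerSub_le_kerSub_zero_Gpm,
    eisHolΓ_ne_zero_Gpm eis_isParabolicHom_zero_Gpm, rfl⟩

/-- `u ^ n` is a modular function for `Gpm M L`. -/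
theorem isModFun_eisUML_pow (hψ : IsParabolicHom (Gpm M L) ψ) :
    IsModFun (Gpm M L) (eisUML ψ ^ n) := by
  refine ⟨(n : ℤ) * 4, eisHolΓ ψ ^ n, eisHolΓ 0 ^ n, isMF_eisChi_pow hψ,
    isMF_eisChi_pow eis_isParabolicHom_zero_Gpm,
    pow_ne_zero n (eisHolΓ_ne_zero_Gpm eis_isParabolicHom_zero_Gpm), ?_⟩
  unfold eisUML
  rw [div_pow, map_pow, map_pow]

/-- `u` is meromorphic at all cusps. -/
theorem isMerInf_comp_eisUML (hψ : IsParabolicHom (Gpm M L) ψ) (σ : SL(2, ℤ)) :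
    IsMerInf (M * L) (MerH.comp σ (eisUML ψ)) := by
  apply isMerInf_comp_of_isModFun (isModFun_eisUML hψ) σ
  have h0 : T ^ (M * L) ∈ CongruenceSubgroup.Gamma (M * L) := Cusp.T_pow_mem_Gamma (M * L)
  have h1 : σ * T ^ (M * L) * σ⁻¹ ∈ Gpm M L := by
    apply (Gamma_le_GammaML M L).trans (GammaML_le_Gpm M L)
    exact (CongruenceSubgroup.Gamma_normal (M * L)).conj_mem _ h0 σ
  refine mem_kerSub_of_trace hψ h1 ?_
  have h2 : ((σ * T ^ (M * L) * σ⁻¹ : SL(2, ℤ)) : Matrix (Fin 2) (Fin 2) ℤ).trace =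
      ((T ^ (M * L) : SL(2, ℤ)) : Matrix (Fin 2) (Fin 2) ℤ).trace := by
    rw [Matrix.SpecialLinearGroup.coe_mul, Matrix.SpecialLinearGroup.coe_mul,
      Matrix.trace_mul_cycle, ← Matrix.SpecialLinearGroup.coe_mul, inv_mul_cancel,
      Matrix.SpecialLinearGroup.coe_one, Matrix.one_mul]
  have h3 : ((T ^ (M * L) : SL(2, ℤ)) : Matrix (Fin 2) (Fin 2) ℤ) =
      !![1, ((M * L : ℕ) : ℤ); 0, 1] := by
    rw [← zpow_natCast]
    exact ModularGroup.coe_T_zpow ((M * L : ℕ) : ℤ)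
  rw [h2, h3, Matrix.trace_fin_two]
  norm_num

/-- **(K4 EIS) surjectivity of the Kummer map**: every character of `Gpm M L` with values in
`ℤ/n` which kills the parabolic elements and the elements of finite order is the Kummer character
of an `n`-torsion class of `Pic⁰` of the function field of `X(Gpm M L)` over `ℂ`. -/
theorem kappa_surjective_onto (hM : M ≠ 1) (hK4 : OrdK4 M L) (hψ : IsParabolicHom (Gpm M L) ψ)
    (hfin : ∀ γ : ↥(Gpm M L), IsOfFinOrder γ → ψ (Additive.ofMul γ) = 0) :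
    ∃ x : ↥(Pic0.torsion ℂ ↥(laurentBaseChange ℂ (F₁ M L)) n),
      kappa M L n hM x = ψ := by
  haveI : HasPrincipalDivisors ℂ ↥(laurentBaseChange ℂ (F₁ M L)) :=
    (jCoordC M L hM).hasPrincipalDivisors
  have hn : n ≠ 0 := NeZero.ne n
  have hu0 : eisUML ψ ≠ 0 := eisUML_ne_zero hψ
  obtain ⟨f, hf⟩ := mem_range_realMLC_of_isModFun M L hM (isModFun_eisUML_pow hψ)
  have hf0 : f ≠ 0 := by
    rintro rfl
    rw [map_zero] at hf
    exact pow_ne_zero n hu0 hf.symm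
  have hinv : ∀ γ : SL(2, ℤ), γ ∈ Gpm M L →
      ((γ : Matrix (Fin 2) (Fin 2) ℤ).trace ^ 2 = 4 ∨ IsOfFinOrder γ) →
      MerH.comp γ (eisUML ψ) = eisUML ψ := by
    intro γ hγ h
    have h0 : ψ (Additive.ofMul (⟨γ, hγ⟩ : ↥(Gpm M L))) = 0 := by
      rcases h with h | h
      · exact hψ ⟨γ, hγ⟩ h
      · apply hfin
        exact (Submonoid.isOfFinOrder_coe (H := (Gpm M L).toSubmonoid)
          (x := (⟨γ, hγ⟩ : ↥(Gpm M L)))).mp h
    have h1 := comp_eisUML hψ ⟨γ, hγ⟩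
    rw [h0, AddChar.map_zero_eq_one, map_one, one_mul] at h1
    exact h1
  have hdiv := hK4 hn hf0 hf.symm hinv (isMerInf_comp_eisUML hψ)
  obtain ⟨D, hD, hdeg⟩ := exists_divisor_div (n := n) hf0 hdiv
  let D' : ↥(Divisor.degZero (K := ℂ)
      (F := ↥(laurentBaseChange ℂ (F₁ M L)))) := ⟨D, hdeg⟩
  have hroot : IsKummerRoot M L n (D' : Divisor ℂ _) (eisUML ψ) := ⟨f, hf0, hD, hf.symm⟩
  have htors : Pic0.mk D' ∈
      Pic0.torsion ℂ ↥(laurentBaseChange ℂ (F₁ M L)) n := by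
    rw [Pic0.mem_torsion]
    have h1 : (n : ℤ) • Pic0.mk D' = Pic0.mk ((n : ℤ) • D') := rfl
    rw [h1]
    apply (QuotientAddGroup.eq_zero_iff _).mpr
    rw [AddSubgroup.mem_addSubgroupOf]
    refine ⟨f, hf0, fun v => ?_⟩
    rw [← hD v]
    simp [D']
  refine ⟨⟨Pic0.mk D', htors⟩, ?_⟩
  rw [kappa_eq_kummerChar hM ⟨Pic0.mk D', htors⟩ D' rfl hroot]
  exact kummerChar_eq_of_spec hu0 ψ (comp_eisUML hψ)

/-- **(sur) of (TOP-0), over `ℂ`**: the reduction mod `p ^ k` of a parabolic homomorphism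
`Gpm M L → ℤ_p` is in the range of the Kummer map. -/
theorem exists_kappa_eq_toZModPow_comp (hM : M ≠ 1) (hK4 : OrdK4 M L) (p : ℕ) [Fact p.Prime]
    (k : ℕ) [NeZero (p ^ k)] (φ : ↥(parabolicHoms ℤ_[p] (Gpm M L) ℤ_[p])) :
    ∃ x : ↥(Pic0.torsion ℂ ↥(laurentBaseChange ℂ (F₁ M L)) (p ^ k)),
      kappa M L (p ^ k) hM x = (PadicInt.toZModPow k).toAddMonoidHom.comp φ.1 := by
  apply kappa_surjective_onto hM hK4
  · intro γ htr
    have h1 : φ.1 (Additive.ofMul γ) = 0 := φ.2 γ htr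
    show PadicInt.toZModPow k (φ.1 (Additive.ofMul γ)) = 0
    rw [h1, map_zero]
  · intro γ hγ
    show PadicInt.toZModPow k (φ.1 (Additive.ofMul γ)) = 0
    rw [map_eq_zero_of_isOfFinOrder φ.1 hγ, map_zero]

end

end Fermat.Agent.W1
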