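/-
W1 = [GRΓ1] (S48), package [KSUR1] (helper9), part 2: **(ORD-K4) at the level `Gpm M L`** — port
of `GR/ORD_helper5_{Par,Fin}` on top of the places dictionary [DICT1] (helper3): if `u ∈ MerH` is an
`n`-th root of the realisation of a function `f` on `X(Gpm M L)` over `ℂ` which is invariant under
the parabolic and the finite order elements of `Gpm M L` and meromorphic at all cusps, then all
orders of `f` at places are divisible by `n`.  Consequence: the Kummer map `kappa` is onto the
parabolic characters killing the elements of finite order, unconditionally.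
-/
import Mathlib
import Fermat.Agent.GR.ORD_helper5_Fin
import Fermat.Agent.W1.DICT1_helper3_Genus
import Fermat.Agent.W1.KSUR1_helper9_Main

set_option autoImplicit false
set_option linter.unusedSectionVars false
set_option linter.style.haveILetI false

namespace Fermat.Agent.W1

open UpperHalfPlane hiding I
open Complex Filter Topology ModularGroup CongruenceSubgroup ModularCurve AlgebraicCurve
open Fermat.Agent.RatStr Fermat.Agent.FF Fermat.Agent.X0N Fermat.Agent.X0N.Cusp
open Fermat.Agent.GR ModularCurve.Period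
open scoped MatrixGroups Manifold

section Dict

variable (M L : ℕ) [NeZero M] [NeZero L]

/-- **cusp dictionary**: the cusp valuation at the coset `q` (order at `i∞` in the parameter
`q_{M L}` of the `q`-th conjugate) is exactly `M L / width` times the normalised order of its
place. -/
theorem cuspOrdFn_ord_eq_mul (hM : M ≠ 1) (q : SL(2, ℤ) ⧸ Gpm M L) :
    ∃ m : ℤ, m * (MulAction.period T q : ℤ) = ((M * L : ℕ) : ℤ) ∧
      ∀ x : ↥(laurentBaseChange ℂ (F₁ M L)), x ≠ 0 →
        (cuspOrdFn (RingHom.id ℂ) M L q).ord x =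
          m * (cuspOrdFn (RingHom.id ℂ) M L q).toPlace.ord x := by
  have hc : (jCoordC M L hM).x = jB (k := ℂ) M L := (jB_eq_jK (k := ℂ) M L).symm
  have hdeg : (jCoordC M L hM).degree = Nat.card (SL(2, ℤ) ⧸ Gpm M L) :=
    (card_cosets_eq_jCoordOf_degree ℂ M L hM).symm
  obtain ⟨-, hb, -, -⟩ := poles_jB_squeeze (k := ℂ) M L (jCoordC M L hM) hc hdeg
  obtain ⟨m, -, hm⟩ := (cuspOrdFn (RingHom.id ℂ) M L q).exists_ord_eq_mul
  refine ⟨m, ?_, hm⟩
  have h1 := hm (jK ℂ M L) (jK_ne_zero (RingHom.id ℂ) M L)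
  rw [cuspOrdFn_ord_jK] at h1
  have h2 := hb q
  rw [card_orbit_T_eq_period] at h2
  have h3 : (cuspOrdFn (RingHom.id ℂ) M L q).toPlace.ord (jK ℂ M L) =
      -(MulAction.period T q : ℤ) := by
    have h4 : (cuspOrdFn (algebraMap ℂ ℂ) M L q).toPlace.ord (jCoordC M L hM).x =
        (cuspOrdFn (RingHom.id ℂ) M L q).toPlace.ord (jK ℂ M L) := rfl
    rw [← h4]
    linarith
  rw [h3] at h1
  linarith

end Dict

/-! ### auxiliary facts -/

section Aux

variable (M L : ℕ) [NeZero M] [NeZero L]

/-- invariance of the conjugate `u ∘ q.out⁻¹` under `s` fixing the coset `q`, for `u` invariant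
under the element `q.out⁻¹ s q.out` of `Gpm M L`. -/
theorem comp_conj_eq_of_smul_eq {u : MerH} {s : SL(2, ℤ)} {q : SL(2, ℤ) ⧸ Gpm M L}
    (hq : s • q = q) (hu : ∀ γ : SL(2, ℤ), γ ∈ Gpm M L → γ = (q.out)⁻¹ * s * q.out →
      MerH.comp γ u = u) :
    MerH.comp s (MerH.comp (q.out)⁻¹ u) = MerH.comp (q.out)⁻¹ u := by
  have hmem : (q.out)⁻¹ * s * q.out ∈ Gpm M L := by
    have h1 : s • ((q.out : SL(2, ℤ)) : SL(2, ℤ) ⧸ Gpm M L) = ((q.out : SL(2, ℤ)) : _) := by
      rw [QuotientGroup.out_eq']
      exact hq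
    rw [MulAction.Quotient.smul_mk, QuotientGroup.eq, smul_eq_mul] at h1
    have h2 : (q.out)⁻¹ * s * q.out = ((s * q.out)⁻¹ * q.out)⁻¹ := by group
    rw [h2]
    exact (Gpm M L).inv_mem h1
  rw [← MerH.comp_mul]
  have h3 : (q.out)⁻¹ * s = ((q.out)⁻¹ * s * q.out) * (q.out)⁻¹ := by group
  rw [h3, MerH.comp_mul, hu _ hmem rfl]

end Aux

/-! ### (ORD-K4) -/

section K4

variable {M L : ℕ} [NeZero M] [NeZero L]
variable {n : ℕ} {f : ↥(laurentBaseChange ℂ (F₁ M L))} {u : MerH}

/-- the finite places: abstract step. -/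
theorem dvd_toPlace_ord_finOrdFn_aux (hf : f ≠ 0)
    (hu : u ^ n = realML (RingHom.id ℂ) M L f) (τ₀ : ℍ) (a : ℂ)
    (hτ : jFun τ₀ = (RingHom.id ℂ) a) (q : SL(2, ℤ) ⧸ Gpm M L)
    (hdv : ∀ m : ℤ, 0 < m → (∀ x : ↥(laurentBaseChange ℂ (F₁ M L)), x ≠ 0 →
      (finOrdFn M L (RingHom.id ℂ) τ₀ a hτ q).ord x =
        m * (finOrdFn M L (RingHom.id ℂ) τ₀ a hτ q).toPlace.ord x) →
      m ∣ MerH.ordAt τ₀ (MerH.comp (q.out)⁻¹ u)) :
    (n : ℤ) ∣ (finOrdFn M L (RingHom.id ℂ) τ₀ a hτ q).toPlace.ord f := by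
  obtain ⟨m, hm0, hm⟩ := (finOrdFn M L (RingHom.id ℂ) τ₀ a hτ q).exists_ord_eq_mul
  obtain ⟨k', hk'⟩ := hdv m hm0 hm
  have h1 : (finOrdFn M L (RingHom.id ℂ) τ₀ a hτ q).ord f =
      n * MerH.ordAt τ₀ (MerH.comp (q.out)⁻¹ u) := by
    rw [finOrdFn_ord]
    unfold conjM
    rw [← hu, map_pow, MerH.ordAt_pow]
  rw [hm f hf, hk'] at h1
  refine ⟨k', ?_⟩
  have h2 : m * ((finOrdFn M L (RingHom.id ℂ) τ₀ a hτ q).toPlace.ord f) = m * (n * k') := by
    rw [h1]; ring
  exact mul_left_cancel₀ hm0.ne' h2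

/-- **(ORD-K4) at the level `Gpm M L`**. -/
theorem ordK4 (hM : M ≠ 1) : OrdK4 M L := by
  intro n hn f hf u hu hinv hmer P
  have hc : (jCoordC M L hM).x = jK ℂ M L := rfl
  have hX : Nat.card (SL(2, ℤ) ⧸ Gpm M L) = (jCoordC M L hM).degree :=
    card_cosets_eq_jCoordOf_degree ℂ M L hM
  rcases (jCoordC M L hM).mem_poles_or_exists_mem_zeros P with hP | ⟨a, hP⟩
  · -- cusps
    have hcB : (jCoordC M L hM).x = jB (k := ℂ) M L := (jB_eq_jK (k := ℂ) M L).symm
    obtain ⟨-, -, -, hsurj⟩ := poles_jB_squeeze (k := ℂ) M L (jCoordC M L hM) hcB hX.symm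
    obtain ⟨q, hq⟩ := hsurj P hP
    have hq' : (cuspOrdFn (RingHom.id ℂ) M L q).toPlace = P := hq
    rw [← hq']
    obtain ⟨m, hmw, hm⟩ := cuspOrdFn_ord_eq_mul M L hM q
    set x : MerH := MerH.comp (q.out)⁻¹ u with hx
    have hxmer : IsMerInf (M * L) x := hmer _
    have hxn : x ^ n = cuspConj (RingHom.id ℂ) M L q f := by
      rw [hx, ← map_pow, hu]
      rfl
    have hx0 : x ≠ 0 := by
      intro h0
      have h1 := cuspConj_ne_zero (RingHom.id ℂ) M L q hf
      rw [← hxn, h0, zero_pow hn] at h1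
      exact h1 rfl
    have hord : (cuspOrdFn (RingHom.id ℂ) M L q).ord f = n * MerH.ordInf (M * L) x := by
      show MerH.ordInf (M * L) (cuspConj (RingHom.id ℂ) M L q f) = _
      rw [← hxn, MerH.ordInf_pow' hxmer hx0]
    -- `m = M L / width` divides the order of `x`
    have hw := period_T_dvd M L q
    have hwd : MulAction.period T q * (M * L / MulAction.period T q) = M * L :=
      Nat.mul_div_cancel' hw
    have hw0 : (MulAction.period T q : ℤ) ≠ 0 := by
      intro h0
      rw [h0, mul_zero] at hmw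
      exact (NeZero.ne (M * L)) (by exact_mod_cast hmw.symm)
    have hmd : m = ((M * L / MulAction.period T q : ℕ) : ℤ) := by
      have h1 : ((MulAction.period T q : ℕ) : ℤ) * ((M * L / MulAction.period T q : ℕ) : ℤ) =
          ((M * L : ℕ) : ℤ) := by
        exact_mod_cast hwd
      apply mul_right_cancel₀ hw0
      rw [hmw, ← h1]
      ring
    have hTx : MerH.comp (T ^ MulAction.period T q) x = x := by
      apply comp_conj_eq_of_smul_eq M L (MulAction.pow_period_smul T q)
      intro γ hγ hγe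
      apply hinv γ hγ
      left
      rw [hγe, ParHom.trace_conj_T_pow]
      norm_num
    obtain ⟨k', hk'⟩ := MerH.dvd_ordInf_of_comp_eq hxmer hwd hTx
    rw [← hmd] at hk'
    refine ⟨k', ?_⟩
    have hm00 : m ≠ 0 := by
      rintro rfl
      rw [zero_mul] at hmw
      exact (NeZero.ne (M * L)) (by exact_mod_cast hmw.symm)
    have h2 : m * (cuspOrdFn (RingHom.id ℂ) M L q).toPlace.ord f = m * (n * k') := by
      rw [← hm f hf, hord, hk']
      ring
    exact mul_left_cancel₀ hm00 h2
  · -- finite places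
    by_cases h0 : a = 0
    · -- `j = 0`
      subst h0
      obtain ⟨-, hb, -, hsurj⟩ := fin_squeeze_zero (RingHom.id ℂ) (jCoordC M L hM) hc hX
        (fun g hg0 hg => finPt_isIntegral M L (jCoordC M L hM) hc 0 rhoH
          (jFun_rhoH_eq_map _) g hg0 hg)
      obtain ⟨q, rfl⟩ := hsurj P hP
      apply dvd_toPlace_ord_finOrdFn_aux hf hu
      intro m hm0 hm
      have hj0 : jK ℂ M L - algebraMap ℂ _ (0 : ℂ) ≠ 0 := by
        intro h
        have h1 := finOrdFn_ord_jGen_sub (M := M) (L := L) (ι := RingHom.id ℂ) rhoH 0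
          (jFun_rhoH_eq_map _) q
        rw [h] at h1
        have h2 : (finOrdFn M L (RingHom.id ℂ) rhoH 0 (jFun_rhoH_eq_map _) q).ord 0 = 0 := by
          show MerH.ordAt rhoH (conjRealN M L (RingHom.id ℂ) q 0) = 0
          rw [map_zero, MerH.ordAt_zero]
        rw [h2] at h1
        simp at h1
      have h1 := hm _ hj0
      rw [finOrdFn_ord_jGen_sub, if_pos (by simp), ← hc, hb q] at h1
      by_cases hfix : (S * T) • q = q
      · have h3 : (3 : ℤ) ∣ MerH.ordAt rhoH (MerH.comp (q.out)⁻¹ u) := by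
          have hx : MerH.comp (S * T) (MerH.comp (q.out)⁻¹ u) = MerH.comp (q.out)⁻¹ u := by
            apply comp_conj_eq_of_smul_eq M L hfix
            intro γ hγ hγe
            apply hinv γ hγ
            right
            rw [hγe]
            exact isOfFinOrder_conj_ST _
          have h := MerH.zpow_ordAt_eq_one_of_comp_eq ST_smul_rhoH hx
          have : Fact (Nat.Prime 3) := ⟨Nat.prime_three⟩
          have := dvd_of_zpow_eq_one_of_prime (p := 3)
            (by rw [inv_denom_ST_rhoH_sq]; exact rhoH_sq_pow_three)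
            (by rw [inv_denom_ST_rhoH_sq]; exact rhoH_sq_ne_one) h
          exact_mod_cast this
        exact Dvd.dvd.trans ⟨_, h1⟩ h3
      · have h2 : 2 ≤ Nat.card {q' // MulAction.orbitRel (Subgroup.zpowers (S * T))
            (SL(2, ℤ) ⧸ Gpm M L) q' q} :=
          finPt_two_le_card_class _ (by
            have h1 := smul_orbitRel_zpowers (X := SL(2, ℤ) ⧸ Gpm M L) (S * T) 1 q
            rw [zpow_one] at h1
            exact h1) hfix
        have h2' : (2 : ℤ) ≤ (Nat.card {q' // MulAction.orbitRel (Subgroup.zpowers (S * T))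
            (SL(2, ℤ) ⧸ Gpm M L) q' q} : ℤ) := by exact_mod_cast h2
        have hm1 : m = 1 := by nlinarith
        rw [hm1]
        exact one_dvd _
    · by_cases h1 : a = 1728
      · -- `j = 1728`
        subst h1
        obtain ⟨-, hb, -, hsurj⟩ := fin_squeeze_1728 (RingHom.id ℂ) (jCoordC M L hM) hc hX
          (fun g hg0 hg => finPt_isIntegral M L (jCoordC M L hM) hc 1728 UpperHalfPlane.I
            (jFun_I_eq_map _) g hg0 hg)
        obtain ⟨q, rfl⟩ := hsurj P hP
        apply dvd_toPlace_ord_finOrdFn_aux hf hu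
        intro m hm0 hm
        have hj0 : jK ℂ M L - algebraMap ℂ _ (1728 : ℂ) ≠ 0 := by
          intro h
          have h1 := finOrdFn_ord_jGen_sub (M := M) (L := L) (ι := RingHom.id ℂ)
            UpperHalfPlane.I 1728 (jFun_I_eq_map _) q
          rw [h] at h1
          have h2 : (finOrdFn M L (RingHom.id ℂ) UpperHalfPlane.I 1728
              (jFun_I_eq_map _) q).ord 0 = 0 := by
            show MerH.ordAt UpperHalfPlane.I (conjRealN M L (RingHom.id ℂ) q 0) = 0
            rw [map_zero, MerH.ordAt_zero]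
          rw [h2] at h1
          simp at h1
        have h1 := hm _ hj0
        rw [finOrdFn_ord_jGen_sub, if_neg (by simp), if_pos (by simp), ← hc, hb q] at h1
        by_cases hfix : S • q = q
        · have h3 : (2 : ℤ) ∣ MerH.ordAt UpperHalfPlane.I (MerH.comp (q.out)⁻¹ u) := by
            have hx : MerH.comp S (MerH.comp (q.out)⁻¹ u) = MerH.comp (q.out)⁻¹ u := by
              apply comp_conj_eq_of_smul_eq M L hfix
              intro γ hγ hγe
              apply hinv γ hγ
              right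
              rw [hγe]
              exact isOfFinOrder_conj_S _
            have h := MerH.zpow_ordAt_eq_one_of_comp_eq S_smul_I hx
            have : Fact (Nat.Prime 2) := ⟨Nat.prime_two⟩
            have := dvd_of_zpow_eq_one_of_prime (p := 2)
              (by rw [inv_denom_S_I_sq]; norm_num) (by rw [inv_denom_S_I_sq]; norm_num) h
            exact_mod_cast this
          exact Dvd.dvd.trans ⟨_, h1⟩ h3
        · have h2 : 2 ≤ Nat.card {q' // MulAction.orbitRel (Subgroup.zpowers S)
              (SL(2, ℤ) ⧸ Gpm M L) q' q} :=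
            finPt_two_le_card_class _ (by
              have h1 := smul_orbitRel_zpowers (X := SL(2, ℤ) ⧸ Gpm M L) S 1 q
              rw [zpow_one] at h1
              exact h1) hfix
          have h2' : (2 : ℤ) ≤ (Nat.card {q' // MulAction.orbitRel (Subgroup.zpowers S)
              (SL(2, ℤ) ⧸ Gpm M L) q' q} : ℤ) := by exact_mod_cast h2
          have hm1 : m = 1 := by nlinarith
          rw [hm1]
          exact one_dvd _
      · -- generic fibres
        obtain ⟨τ₀, hτ⟩ := exists_jFun_eq ((RingHom.id ℂ) a)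
        obtain ⟨-, hb, -, hsurj⟩ := fin_squeeze_generic (RingHom.id ℂ) (jCoordC M L hM) hc hX
          a h0 h1 τ₀ hτ
          (fun g hg0 hg => finPt_isIntegral M L (jCoordC M L hM) hc a τ₀ hτ g hg0 hg)
        obtain ⟨q, rfl⟩ := hsurj P hP
        apply dvd_toPlace_ord_finOrdFn_aux hf hu
        intro m hm0 hm
        have hj0 : jK ℂ M L - algebraMap ℂ _ a ≠ 0 := by
          intro h
          have h1 := finOrdFn_ord_jGen_sub (M := M) (L := L) (ι := RingHom.id ℂ) τ₀ a hτ q
          rw [h] at h1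
          have h2 : (finOrdFn M L (RingHom.id ℂ) τ₀ a hτ q).ord 0 = 0 := by
            show MerH.ordAt τ₀ (conjRealN M L (RingHom.id ℂ) q 0) = 0
            rw [map_zero, MerH.ordAt_zero]
          rw [h2] at h1
          split_ifs at h1 <;> simp at h1
        have h2 := hm _ hj0
        rw [finOrdFn_ord_jGen_sub, if_neg (by simpa using h0), if_neg (by simpa using h1), ← hc,
          hb q] at h2
        have hm1 : m = 1 := by linarith
        rw [hm1]
        exact one_dvd _

end K4

section Surj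

variable {M L : ℕ} [NeZero M] [NeZero L] {n : ℕ} [NeZero n]
  {ψ : Additive ↥(Gpm M L) →+ ZMod n}

/-- **(K4 EIS) surjectivity of the Kummer map, unconditional**. -/
theorem kappa_surjective_onto' (hM : M ≠ 1) (hψ : IsParabolicHom (Gpm M L) ψ)
    (hfin : ∀ γ : ↥(Gpm M L), IsOfFinOrder γ → ψ (Additive.ofMul γ) = 0) :
    ∃ x : ↥(Pic0.torsion ℂ ↥(laurentBaseChange ℂ (F₁ M L)) n),
      kappa M L n hM x = ψ :=
  kappa_surjective_onto hM (ordK4 hM) hψ hfin

/-- the reductions modulo `p ^ k` of the `ℤ_p`-valued parabolic characters are Kummer characters,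
unconditionally. -/
theorem exists_kappa_eq_toZModPow_comp' (hM : M ≠ 1) (p : ℕ) [Fact p.Prime]
    (k : ℕ) [NeZero (p ^ k)] (φ : ↥(parabolicHoms ℤ_[p] (Gpm M L) ℤ_[p])) :
    ∃ x : ↥(Pic0.torsion ℂ ↥(laurentBaseChange ℂ (F₁ M L)) (p ^ k)),
      kappa M L (p ^ k) hM x = (PadicInt.toZModPow k).toAddMonoidHom.comp φ.1 :=
  exists_kappa_eq_toZModPow_comp hM (ordK4 hM) p k φ

end Surj

end Fermat.Agent.W1
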