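/-
W1 = [GRΓ1] (S48), package [TOP1] (helper9), part 1 (port of `GR/ASM_helper8_{Kap,Inst}`): the
Kummer maps `kap k` on the `p^k`-torsion of `Pic⁰` of the function field of level `Gpm M L` over
`ℚ̄`, obtained by transporting `kappa M L (p^k)` along the descent datum of K5 DESC (generic,
helper3), and the clauses (inj), (par), (compat), (sur) of `KapData`; the description of `kap` by
Kummer roots of functions over `ℚ̄`; (conj).
-/
import Mathlib
import Fermat.Agent.GR.ASM_helper8_Kap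
import Fermat.Agent.GR.DESC_helper3_Main
import Fermat.Agent.W1.KSUR1_helper9_OrdK4
import Fermat.Agent.W1.CONJ1_helper9_Kappa

set_option autoImplicit false
set_option linter.style.haveILetI false
set_option linter.unusedSectionVars false

open UpperHalfPlane hiding I
open Complex ModularGroup ModularCurve CongruenceSubgroup AlgebraicCurve ModularCurve.Period
open scoped MatrixGroups

namespace Fermat.Agent.W1

open Fermat.Agent.X0N Fermat.Agent.JA Fermat.Agent.GR Fermat.Agent.FF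

local notation "Ω" => AlgebraicClosure ℚ
local notation "GQ" => (AlgebraicClosure ℚ ≃ₐ[ℚ] AlgebraicClosure ℚ)

attribute [local instance] algebraQbarComplex isScalarTower_rat_qbar_complex

/-- existence of an `n`-th root of the realisation of a function with `n`-divisible divisor. -/
theorem exists_root_realMLC {M L : ℕ} [NeZero M] [NeZero L] {n : ℕ} [NeZero n]
    (D : Divisor ℂ ↥(laurentBaseChange ℂ (F₁ M L)))
    (f : ↥(laurentBaseChange ℂ (F₁ M L))) (hf : f ≠ 0)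
    (hD : ∀ v : Place ℂ ↥(laurentBaseChange ℂ (F₁ M L)),
      (n : ℤ) * D v = v.ord f) : ∃ u : MerH, u ^ n = realMLC M L f := by
  have hdiv : ∀ τ : ℍ, (n : ℤ) ∣ MerH.ordAt τ (realMLC M L f) := by
    intro τ
    exact char_dvd_ordAt_realML (RingHom.id ℂ) M L τ (jFun τ) rfl (n : ℤ) hf
      (fun v => ⟨D v, (hD v).symm⟩)
  exact exists_root_merH n (NeZero.ne n) (realMLC M L f) (realMLC_ne_zero hf) hdiv

/-! ### the descent datum (interface of K5) -/

/-- **the interface of K5 DESC** at the level `Gpm M L`: an additive map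
`Pic⁰(F_ℚ̄) → Pic⁰(F_ℂ)`, injective, surjective on torsion, compatible with divisors of functions,
and natural for the Galois actions. -/
structure DescData₁ (M L : ℕ) [NeZero M] [NeZero L] where
  /-- the base change map -/
  bc : Pic0 Ω ↥(F₁Bar M L) →+ Pic0 ℂ ↥(laurentBaseChange ℂ (F₁ M L))
  inj : Function.Injective bc
  sur : ∀ n : ℕ, n ≠ 0 →
    ∀ c ∈ Pic0.torsion ℂ ↥(laurentBaseChange ℂ (F₁ M L)) n,
      ∃ c₀ : Pic0 Ω ↥(F₁Bar M L), bc c₀ = c
  rep : ∀ (n : ℕ) (D : ↥(Divisor.degZero (K := Ω) (F := ↥(F₁Bar M L))))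
    (f : ↥(F₁Bar M L)), f ≠ 0 →
    (∀ P : Place Ω ↥(F₁Bar M L), (n : ℤ) * (D : Divisor Ω _) P = P.ord f) →
    ∃ D' : ↥(Divisor.degZero (K := ℂ) (F := ↥(laurentBaseChange ℂ (F₁ M L)))),
      bc (Pic0.mk D) = Pic0.mk D' ∧
      ∀ Q : Place ℂ ↥(laurentBaseChange ℂ (F₁ M L)),
        (n : ℤ) * (D' : Divisor ℂ _) Q = Q.ord (bcHom (L := ℂ) (F₁ M L) f)
  gal : ∀ (τ : Ω ≃ₐ[ℚ] Ω) (σ : ℂ ≃ₐ[ℚ] ℂ),
    (∀ a : Ω, σ (algebraMap Ω ℂ a) = algebraMap Ω ℂ (τ a)) →
    ∀ x : Pic0 Ω ↥(F₁Bar M L), bc (τ • x) = σ • bc x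

namespace DescData₁

variable {M L : ℕ} [NeZero M] [NeZero L] (B : DescData₁ M L)

/-- the restriction of `bc` to `n`-torsion. -/
noncomputable def torsMap (n : ℕ) : ↥(torsionNat (Pic0 Ω ↥(F₁Bar M L)) n) →+
    ↥(Pic0.torsion ℂ ↥(laurentBaseChange ℂ (F₁ M L)) n) where
  toFun x := ⟨B.bc x.1, by
    rw [Pic0.mem_torsion, natCast_zsmul, ← map_nsmul, mem_torsionNat.mp x.2, map_zero]⟩
  map_zero' := Subtype.ext (map_zero B.bc)
  map_add' x y := Subtype.ext (map_add B.bc x.1 y.1)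

@[simp] theorem coe_torsMap (n : ℕ) (x : ↥(torsionNat (Pic0 Ω ↥(F₁Bar M L)) n)) :
    ((B.torsMap n x : ↥(Pic0.torsion ℂ ↥(laurentBaseChange ℂ (F₁ M L)) n)) :
      Pic0 ℂ ↥(laurentBaseChange ℂ (F₁ M L))) = B.bc x.1 := rfl

theorem torsMap_injective (n : ℕ) : Function.Injective (B.torsMap n) := by
  intro x y h
  exact Subtype.ext (B.inj (congrArg Subtype.val h))

theorem torsMap_surjective {n : ℕ} (hn : n ≠ 0) : Function.Surjective (B.torsMap n) := by
  intro c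
  obtain ⟨c₀, hc₀⟩ := B.sur n hn c.1 c.2
  have h1 : n • c₀ = 0 := by
    apply B.inj
    rw [map_nsmul, hc₀, map_zero, ← natCast_zsmul]
    exact Pic0.mem_torsion.mp c.2
  exact ⟨⟨c₀, h1⟩, Subtype.ext hc₀⟩

variable (hM : M ≠ 1)

/-- **the Kummer map on the `n`-torsion of `Pic⁰(F_ℚ̄)`.** -/
noncomputable def kapOf (n : ℕ) [NeZero n] :
    ↥(torsionNat (Pic0 Ω ↥(F₁Bar M L)) n) →+ (Additive ↥(Gpm M L) →+ ZMod n) :=
  (kappa M L n hM).comp (B.torsMap n)

theorem kapOf_apply (n : ℕ) [NeZero n] (x : ↥(torsionNat (Pic0 Ω ↥(F₁Bar M L)) n)) :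
    B.kapOf hM n x = kappa M L n hM (B.torsMap n x) := rfl

/-- (inj) -/
theorem kapOf_injective (n : ℕ) [NeZero n] : Function.Injective (B.kapOf hM n) :=
  (kappa_injective hM).comp (B.torsMap_injective n)

/-- (par) -/
theorem kapOf_mem_parabolicHoms (n : ℕ) [NeZero n]
    (x : ↥(torsionNat (Pic0 Ω ↥(F₁Bar M L)) n)) :
    B.kapOf hM n x ∈ parabolicHoms ℤ (Gpm M L) (ZMod n) :=
  kappa_mem_parabolicHoms hM _

/-- (compat) -/
theorem kapOf_compat (p : ℕ) [Fact p.Prime] (k : ℕ)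
    (x : ↥(torsionNat (Pic0 Ω ↥(F₁Bar M L)) (p ^ (k + 1)))) :
    B.kapOf hM (p ^ k) (pMul (Pic0 Ω ↥(F₁Bar M L)) p k x) =
      (redSucc p k).toAddMonoidHom.comp (B.kapOf hM (p ^ (k + 1)) x) := by
  rw [kapOf_apply, kapOf_apply]
  refine kappa_eq_castHom_comp hM (m := p ^ (k + 1)) (n := p ^ k) (d := p) (pow_succ p k)
    (B.torsMap _ x) (B.torsMap _ (pMul (Pic0 Ω ↥(F₁Bar M L)) p k x)) ?_
  rw [coe_torsMap, coe_torsMap, pMul_coe, map_nsmul, natCast_zsmul]

/-- (sur), from the surjectivity of `kappa` onto the reductions (K4 EIS). -/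
theorem kapOf_sur (p : ℕ) [Fact p.Prime]
    (k : ℕ) (ψ : ↥(parabolicHoms ℤ_[p] (Gpm M L) ℤ_[p])) :
    ∃ x, B.kapOf hM (p ^ k) x = (PadicInt.toZModPow k).toAddMonoidHom.comp ψ.1 := by
  obtain ⟨y, hy⟩ := exists_kappa_eq_toZModPow_comp' hM p k ψ
  obtain ⟨x, rfl⟩ := B.torsMap_surjective (NeZero.ne (p ^ k)) y
  exact ⟨x, hy⟩

/-- **the `KapData` of a descent datum**. -/
noncomputable def kapData (p : ℕ) [Fact p.Prime] :
    KapData (Pic0 Ω ↥(F₁Bar M L)) (Gpm M L) p where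
  kap k := B.kapOf hM (p ^ k)
  inj k := B.kapOf_injective hM (p ^ k)
  par k x := B.kapOf_mem_parabolicHoms hM (p ^ k) x
  sur k ψ := B.kapOf_sur hM p k ψ
  compat k x := B.kapOf_compat hM p k x

theorem kapData_kap (p : ℕ) [Fact p.Prime] (k : ℕ) :
    (B.kapData hM p).kap k = B.kapOf hM (p ^ k) := rfl

/-! ### `kap` in terms of Kummer roots of functions over `ℚ̄` -/

/-- the realisation over `ℚ̄` is the realisation over `ℂ` of the coefficientwise base change. -/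
theorem realML_eq_realMLC_bcHom (f : ↥(F₁Bar M L)) :
    realML (algebraMap Ω ℂ) M L f = realMLC M L (bcHom (L := ℂ) (F₁ M L) f) :=
  (realML_bcHom (K := Ω) (L' := ℂ) (RingHom.id ℂ) M L f).symm

/-- **`kap` of the class of `D` with `n D = div f` is the Kummer character of any `n`-th root of
the realisation of `f`.** -/
theorem kapOf_eq_kummerChar (n : ℕ) [NeZero n]
    (D : ↥(Divisor.degZero (K := Ω) (F := ↥(F₁Bar M L))))
    (f : ↥(F₁Bar M L)) (hf : f ≠ 0)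
    (hD : ∀ P : Place Ω ↥(F₁Bar M L), (n : ℤ) * (D : Divisor Ω _) P = P.ord f)
    (x : ↥(torsionNat (Pic0 Ω ↥(F₁Bar M L)) n))
    (hx : (x : Pic0 Ω ↥(F₁Bar M L)) = Pic0.mk D)
    {u : MerH} (hu : u ^ n = realML (algebraMap Ω ℂ) M L f) :
    B.kapOf hM n x = kummerChar (Gpm M L) n u := by
  obtain ⟨D', hbc, hD'⟩ := B.rep n D f hf hD
  have hf' : bcHom (L := ℂ) (F₁ M L) f ≠ 0 := by
    rw [Ne, map_eq_zero_iff _ (bcHom (L := ℂ) (F₁ M L)).injective]
    exact hf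
  have hroot : IsKummerRoot M L n (D' : Divisor ℂ _) u :=
    ⟨bcHom (L := ℂ) (F₁ M L) f, hf', hD', by
      rw [hu, realML_eq_realMLC_bcHom]⟩
  rw [kapOf_apply]
  refine kappa_eq_kummerChar hM _ D' ?_ hroot
  rw [coe_torsMap, hx, hbc]

/-- every torsion point has a representative `D` with `n D = div f` and a Kummer root. -/
theorem exists_rep_root (n : ℕ) [NeZero n] (x : ↥(torsionNat (Pic0 Ω ↥(F₁Bar M L)) n)) :
    ∃ (D : ↥(Divisor.degZero (K := Ω) (F := ↥(F₁Bar M L))))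
      (f : ↥(F₁Bar M L)) (u : MerH), f ≠ 0 ∧
      (∀ P : Place Ω ↥(F₁Bar M L), (n : ℤ) * (D : Divisor Ω _) P = P.ord f) ∧
      (x : Pic0 Ω ↥(F₁Bar M L)) = Pic0.mk D ∧ u ^ n = realML (algebraMap Ω ℂ) M L f ∧
      IsKummerElt (Gpm M L) n u ∧ B.kapOf hM n x = kummerChar (Gpm M L) n u := by
  obtain ⟨D, hD⟩ := Pic0.mk_surjective (x : Pic0 Ω ↥(F₁Bar M L))
  have h0 : n • Pic0.mk D = 0 := by
    rw [hD]
    exact mem_torsionNat.mp x.2
  obtain ⟨f, hf, hfD⟩ := exists_fun_of_nsmul_mk_eq_zero n D h0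
  obtain ⟨D', hbc, hD'⟩ := B.rep n D f hf hfD
  have hf' : bcHom (L := ℂ) (F₁ M L) f ≠ 0 := by
    rw [Ne, map_eq_zero_iff _ (bcHom (L := ℂ) (F₁ M L)).injective]
    exact hf
  obtain ⟨u, hu⟩ := exists_root_realMLC (n := n) (D' : Divisor ℂ _) _ hf' hD'
  have hun : u ^ n = realML (algebraMap Ω ℂ) M L f := by
    rw [hu, realML_eq_realMLC_bcHom]
  have hroot : IsKummerRoot M L n (D' : Divisor ℂ _) u :=
    ⟨bcHom (L := ℂ) (F₁ M L) f, hf', hD', hu⟩
  exact ⟨D, f, u, hf, hfD, hD.symm, hun, hroot.isKummerElt,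
    B.kapOf_eq_kummerChar hM n D f hf hfD x hD.symm hun⟩

/-- **(conj)** for the transported Kummer map, from (conj) for `kappa` over `ℂ` ([CONJ1]). -/
theorem kapOf_conj (n : ℕ) [NeZero n] (x : ↥(torsionNat (Pic0 Ω ↥(F₁Bar M L)) n)) :
    B.kapOf hM n (torsionNat.map n
        (DistribMulAction.toAddMonoidEnd GQ (Pic0 Ω ↥(F₁Bar M L)) complexConjugation) x) =
      -ES.charInvolutionΓ (Gpm M L) ℤ (ZMod n) (B.kapOf hM n x) := by
  rw [kapOf_apply, kapOf_apply]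
  apply kappa_eq_neg_charInvolution_of_eq_smul hM
  show B.bc (complexConjugation • x.1) = complexConjAlgEquiv • B.bc x.1
  refine B.gal complexConjugation complexConjAlgEquiv (fun a => ?_) x.1
  rw [algebraMap_qbar_complex, algebraMap_qbar_complex, complexEmbedding_complexConjugation]
  rfl

end DescData₁

/-- **the descent datum of `X(Gpm M L)`** (helper3's generic K5 DESC along
`complexEmbedding : ℚ̄ → ℂ`). -/
noncomputable def descData₁ (M L : ℕ) [NeZero M] [NeZero L] (hM : M ≠ 1) : DescData₁ M L where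
  bc := bcPic0 (L := ℂ) (F₁ M L) (jCoordBarOf M L hM) (jCoordC M L hM)
  inj := bcPic0_injective (L := ℂ) (F₁ M L) (jCoordBarOf M L hM) (jCoordC M L hM)
  sur n hn c hc := by
    obtain ⟨c₀, -, h⟩ := exists_bcPic0_eq_of_mem_torsion (L := ℂ) (F₁ M L)
      (jCoordBarOf M L hM) (jCoordC M L hM) n (finite_torsion_pic0C_ML M L hM hn) c hc
    exact ⟨c₀, h⟩
  rep n D f _ hD :=
    ⟨⟨bcConorm (L := ℂ) (F₁ M L) (jCoordBarOf M L hM) (D : Divisor Ω _),
        bcConorm_mem_degZero (F₁ M L) (jCoordBarOf M L hM) (jCoordC M L hM) D.2⟩,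
      bcPic0_mk (L := ℂ) (F₁ M L) (jCoordBarOf M L hM) (jCoordC M L hM) D,
      fun Q => bcConorm_apply_of_ord (L := ℂ) (F₁ M L) (jCoordBarOf M L hM)
        (D : Divisor Ω _) f hD Q⟩
  gal τ σ h x := bcPic0_galois_smul (L := ℂ) (F₁ M L) (jCoordBarOf M L hM)
    (jCoordC M L hM) τ σ h x

end Fermat.Agent.W1
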