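/-
W1 = [GRΓ1] (S48), package [TOP1] (helper9), part 4 (port of `GR/ASM_helper8_Main`): transfer of
operators through the Kummer maps `kapOf`.  If an endomorphism `T` of `Pic⁰(F_ℚ̄)` is induced by a
map `TD` on divisors such that `n D = div f ⇒ n (TD D) = div (Tf f)`, and `n`-th roots of the
realisation of `Tf f` have Kummer character `Ψ (κ(u))`, then `kapOf (T x) = Ψ (kapOf x)`.
Instances: the Hecke correspondences `T'_ℓ = β_* α^*` (`heckeSwapBar`) and the diamond operators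
(`diaBar`).
-/
import Mathlib
import Fermat.Agent.W1.TOP1_helper9_Desc
import Fermat.Agent.W1.HECKEF_helper4_Dia

set_option autoImplicit false
set_option linter.style.haveILetI false
set_option linter.unusedSectionVars false

open UpperHalfPlane hiding I
open Complex ModularGroup ModularCurve CongruenceSubgroup AlgebraicCurve ModularCurve.Period
open scoped MatrixGroups

namespace Fermat.Agent.W1

open Fermat.Agent.X0N Fermat.Agent.JA Fermat.Agent.GR Fermat.Agent.FF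

local notation "Ω" => AlgebraicClosure ℚ
local notation "GQ" => (AlgebraicClosure ℚ ≃ₐ[ℚ] AlgebraicClosure ℚ)

attribute [local instance] algebraQbarComplex isScalarTower_rat_qbar_complex

namespace DescData₁

variable {M L : ℕ} [NeZero M] [NeZero L] (B : DescData₁ M L) (hM : M ≠ 1)

/-- **transfer of an operator through the Kummer map.** -/
theorem kapOf_map_eq (n : ℕ) [NeZero n]
    (T : Pic0 Ω ↥(F₁Bar M L) →+ Pic0 Ω ↥(F₁Bar M L))
    (TD : Divisor Ω ↥(F₁Bar M L) → Divisor Ω ↥(F₁Bar M L))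
    (Tf : ↥(F₁Bar M L) → ↥(F₁Bar M L))
    (hTmk : ∀ D : ↥(Divisor.degZero (K := Ω) (F := ↥(F₁Bar M L))),
      ∃ h : TD (D : Divisor Ω _) ∈ Divisor.degZero (K := Ω) (F := ↥(F₁Bar M L)),
        T (Pic0.mk D) = Pic0.mk ⟨TD (D : Divisor Ω _), h⟩)
    (hTord : ∀ (f : ↥(F₁Bar M L)), f ≠ 0 → ∀ D : Divisor Ω ↥(F₁Bar M L),
      (∀ P : Place Ω ↥(F₁Bar M L), (n : ℤ) * D P = P.ord f) →
      ∀ P : Place Ω ↥(F₁Bar M L), (n : ℤ) * TD D P = P.ord (Tf f))
    (Ψ : (Additive ↥(Gpm M L) →+ ZMod n) → (Additive ↥(Gpm M L) →+ ZMod n))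
    (hroot : ∀ (f : ↥(F₁Bar M L)), f ≠ 0 → ∀ u : MerH,
      u ^ n = realML (algebraMap Ω ℂ) M L f → IsKummerElt (Gpm M L) n u →
      ∃ u' : MerH, u' ≠ 0 ∧ u' ^ n = realML (algebraMap Ω ℂ) M L (Tf f) ∧
        kummerChar (Gpm M L) n u' = Ψ (kummerChar (Gpm M L) n u))
    (x : ↥(torsionNat (Pic0 Ω ↥(F₁Bar M L)) n)) :
    B.kapOf hM n (torsionNat.map n T x) = Ψ (B.kapOf hM n x) := by
  obtain ⟨D, f, u, hf, hfD, hx, hun, hK, hkap⟩ := B.exists_rep_root hM n x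
  obtain ⟨u', hu'0, hu', hchar⟩ := hroot f hf u hun hK
  have hg0 : Tf f ≠ 0 := by
    intro h0
    rw [h0, map_zero] at hu'
    exact hu'0 (pow_eq_zero_iff (NeZero.ne n) |>.mp hu')
  obtain ⟨hdeg, hmk⟩ := hTmk D
  have hx' : ((torsionNat.map n T x : ↥(torsionNat (Pic0 Ω ↥(F₁Bar M L)) n)) :
      Pic0 Ω ↥(F₁Bar M L)) = Pic0.mk ⟨TD (D : Divisor Ω _), hdeg⟩ := by
    rw [torsionNat.map_coe, hx]
    exact hmk
  rw [B.kapOf_eq_kummerChar hM n _ (Tf f) hg0 (hTord f hf _ hfD) _ hx' hu', hchar, hkap]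

end DescData₁

section Hecke

variable (M : ℕ) [NeZero M] (hM : M ≠ 1)

/-- **(hecke)** for the transported Kummer map, from the analytic Hecke-root statement of
[KHECKE1]. -/
theorem DescData₁.kapOf_hecke (B : DescData₁ M 1) (n : ℕ) [NeZero n] (ℓ : ℕ) [NeZero ℓ]
    (Ψ : (Additive ↥(Gpm M 1) →+ ZMod n) → (Additive ↥(Gpm M 1) →+ ZMod n))
    (hroot : ∀ (f : ↥(F₁Bar M 1)), f ≠ 0 → ∀ u : MerH,
      u ^ n = realML (algebraMap Ω ℂ) M 1 f → IsKummerElt (Gpm M 1) n u →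
      ∃ u' : MerH, u' ≠ 0 ∧
        u' ^ n = realML (algebraMap Ω ℂ) M 1
          (normAlong (heckeBetaBar Ω M 1 ℓ) (heckeAlphaBar Ω M 1 ℓ f)) ∧
        kummerChar (Gpm M 1) n u' = Ψ (kummerChar (Gpm M 1) n u))
    (x : ↥(torsionNat (J₁ M) n)) :
    B.kapOf hM n (torsionNat.map n (heckeSwapBar M 1 ℓ hM) x) = Ψ (B.kapOf hM n x) := by
  refine B.kapOf_map_eq hM n (heckeSwapBar M 1 ℓ hM) (fun D => heckeSwapDivBar M 1 ℓ hM D)
    (fun f => normAlong (heckeBetaBar Ω M 1 ℓ) (heckeAlphaBar Ω M 1 ℓ f)) ?_ ?_ Ψ hroot x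
  · intro D
    exact ⟨heckeSwapDivBar_mem_degZero M 1 ℓ hM D.2, heckeSwapBar_mk M 1 ℓ hM D⟩
  · intro f hf D hD P
    exact heckeSwapDivBar_nsmul_apply_of_ord M 1 ℓ hM hf hD P

end Hecke

section Dia

variable {M L : ℕ} [NeZero M] [NeZero L] (hM : M ≠ 1)

/-- the diamond operator on the class of a divisor. -/
theorem diaBar_mk (d : (ZMod M)ˣ)
    (D : ↥(Divisor.degZero (K := Ω) (F := ↥(F₁Bar M L)))) :
    ∃ h : diaSL (k := Ω) M L d • (D : Divisor Ω ↥(F₁Bar M L)) ∈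
        Divisor.degZero (K := Ω) (F := ↥(F₁Bar M L)),
      diaBar M L d (Pic0.mk D) =
        Pic0.mk ⟨diaSL (k := Ω) M L d • (D : Divisor Ω ↥(F₁Bar M L)), h⟩ :=
  ⟨SemilinearAut.smul_mem_degZero _ D.2, rfl⟩

/-- `n D = div f ⇒ n (⟨d⟩ D) = div (⟨d⟩ f)`. -/
theorem diaSL_smul_apply_of_ord (d : (ZMod M)ˣ) {n : ℕ} (f : ↥(F₁Bar M L))
    (D : Divisor Ω ↥(F₁Bar M L))
    (hD : ∀ P : Place Ω ↥(F₁Bar M L), (n : ℤ) * D P = P.ord f)
    (P : Place Ω ↥(F₁Bar M L)) :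
    (n : ℤ) * (diaSL (k := Ω) M L d • D) P = P.ord (diaAlg (k := Ω) M L d f) := by
  rw [SemilinearAut.divisor_smul_apply, hD]
  have h := SemilinearAut.ord_smul (diaSL (k := Ω) M L d) ((diaSL (k := Ω) M L d)⁻¹ • P) f
  rw [smul_inv_smul, diaSL_smul] at h
  exact h.symm

/-- **(dia)** for the transported Kummer map, from the analytic statement of [KHECKE1]. -/
theorem DescData₁.kapOf_dia (B : DescData₁ M L) (n : ℕ) [NeZero n] (d : (ZMod M)ˣ)
    (Ψ : (Additive ↥(Gpm M L) →+ ZMod n) → (Additive ↥(Gpm M L) →+ ZMod n))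
    (hroot : ∀ (f : ↥(F₁Bar M L)), f ≠ 0 → ∀ u : MerH,
      u ^ n = realML (algebraMap Ω ℂ) M L f → IsKummerElt (Gpm M L) n u →
      ∃ u' : MerH, u' ≠ 0 ∧
        u' ^ n = realML (algebraMap Ω ℂ) M L (diaAlg (k := Ω) M L d f) ∧
        kummerChar (Gpm M L) n u' = Ψ (kummerChar (Gpm M L) n u))
    (x : ↥(torsionNat (Pic0 Ω ↥(F₁Bar M L)) n)) :
    B.kapOf hM n (torsionNat.map n (diaBar M L d) x) = Ψ (B.kapOf hM n x) := by
  refine B.kapOf_map_eq hM n (diaBar M L d) (fun D => diaSL (k := Ω) M L d • D)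
    (fun f => diaAlg (k := Ω) M L d f) ?_ ?_ Ψ hroot x
  · intro D
    exact diaBar_mk d D
  · intro f _ D hD P
    exact diaSL_smul_apply_of_ord d f D hD P

end Dia

end Fermat.Agent.W1
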