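/-
W1 = [GRΓ1] (S48), package [TOP1] (helper9), part 5 (port of `GR/ASM_helper8_{Main,Inst}`): the
assembly of `StageIData₁ M p` from the named inputs: the descent datum (K5, generic), surjectivity
of `kappa` (K4, [KSUR1]), the analytic root statements for the Hecke correspondences and the
diamond operators ([KHECKE1]), (conj) ([CONJ1]), (fix) and the Eichler–Shimura clauses.
-/
import Mathlib
import Fermat.Agent.W1.TOP1_helper9_Transfer
import Fermat.Agent.W1.TOP1_helper9_System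
import Fermat.Agent.W1.KHECKE1_helper4_Main

set_option autoImplicit false
set_option linter.style.haveILetI false
set_option linter.unusedSectionVars false

open UpperHalfPlane hiding I
open Complex ModularGroup ModularCurve CongruenceSubgroup AlgebraicCurve ModularCurve.Period
open scoped MatrixGroups

namespace Fermat.Agent.W1

open Fermat.Agent.X0N Fermat.Agent.JA Fermat.Agent.GR Fermat.Agent.FF Fermat.Agent.W1.ES

local notation "Ω" => AlgebraicClosure ℚ
local notation "GQ" => (AlgebraicClosure ℚ ≃ₐ[ℚ] AlgebraicClosure ℚ)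

attribute [local instance] algebraQbarComplex isScalarTower_rat_qbar_complex

variable (M : ℕ) [NeZero M] (hM : M ≠ 1)

/-- **the operators on `J₁ M`**: at a prime `ℓ` the swapped Hecke correspondence
`T'_ℓ = β_* α^*`, at a unit `d` the diamond operator `⟨d⁻¹⟩` of helper4's upper left convention
(which corresponds to `diamondGrp d`, the lower right convention, under the Kummer maps). -/
noncomputable def opBar : HIdx M → (J₁ M →+ J₁ M) :=
  Sum.elim
    (fun ℓ : Nat.Primes => haveI : NeZero (ℓ : ℕ) := ⟨ℓ.2.ne_zero⟩; heckeSwapBar M 1 ℓ hM)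
    (fun d : (ZMod M)ˣ => diaBar M 1 d⁻¹)

theorem opBar_inl (ℓ : Nat.Primes) :
    opBar M hM (Sum.inl ℓ) =
      (haveI : NeZero (ℓ : ℕ) := ⟨ℓ.2.ne_zero⟩; heckeSwapBar M 1 ℓ hM) := rfl

theorem opBar_inr (d : (ZMod M)ˣ) : opBar M hM (Sum.inr d) = diaBar M 1 d⁻¹ := rfl

theorem opBar_galois_smul (i : HIdx M) (σ : GQ) (x : J₁ M) :
    opBar M hM i (σ • x) = σ • opBar M hM i x := by
  rcases i with ℓ | d
  · haveI : NeZero (ℓ : ℕ) := ⟨ℓ.2.ne_zero⟩
    exact heckeSwapBar_galois_smul M 1 ℓ hM σ x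
  · exact diaBar_galois_smul M 1 d⁻¹ σ x

/-- **the analytic root statement of [KHECKE1]**, uniformly in the index `i : HIdx M`: an `n`-th
root `u` of the realisation of `f` with Kummer character `κ` gives an `n`-th root of the
realisation of `N_β (α f)` (resp. of `⟨d⁻¹⟩ f`) with Kummer character `T_i^grp κ`. -/
def HeckeRoot (n : ℕ) [NeZero n] : Prop :=
  (∀ ℓ : Nat.Primes, haveI : NeZero (ℓ : ℕ) := ⟨ℓ.2.ne_zero⟩
    ∀ (f : ↥(F₁Bar M 1)), f ≠ 0 → ∀ u : MerH,
      u ^ n = realML (algebraMap Ω ℂ) M 1 f → IsKummerElt (Gpm M 1) n u →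
      ∃ u' : MerH, u' ≠ 0 ∧
        u' ^ n = realML (algebraMap Ω ℂ) M 1
          (normAlong (heckeBetaBar Ω M 1 ℓ) (heckeAlphaBar Ω M 1 ℓ f)) ∧
        kummerChar (Gpm M 1) n u' = heckeGrpP M ℓ (ZMod n) (kummerChar (Gpm M 1) n u)) ∧
  (∀ d : (ZMod M)ˣ, ∀ (f : ↥(F₁Bar M 1)), f ≠ 0 → ∀ u : MerH,
      u ^ n = realML (algebraMap Ω ℂ) M 1 f → IsKummerElt (Gpm M 1) n u →
      ∃ u' : MerH, u' ≠ 0 ∧
        u' ^ n = realML (algebraMap Ω ℂ) M 1 (diaAlg (k := Ω) M 1 d⁻¹ f) ∧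
        kummerChar (Gpm M 1) n u' = diamondGrp M (ZMod n) d (kummerChar (Gpm M 1) n u))

include hM in
/-- **[KHECKE1] (helper4)**: the analytic root statements hold. -/
theorem heckeRoot (n : ℕ) [NeZero n] : HeckeRoot M n := by
  refine ⟨fun ℓ => hroot_heckeProdP (k := Ω) hM n ℓ, fun d f hf u hu hK => ?_⟩
  obtain ⟨u', h0, h1, h2⟩ := hroot_dia (k := Ω) (M := M) n d⁻¹ f hf u hu hK
  rw [inv_inv] at h2
  exact ⟨u', h0, h1, h2⟩

/-- **(hecke)** for the transported Kummer maps at all indices. -/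
theorem DescData₁.kapOf_opBar (B : DescData₁ M 1) (n : ℕ) [NeZero n] (hroot : HeckeRoot M n)
    (i : HIdx M) (x : ↥(torsionNat (J₁ M) n)) :
    B.kapOf hM n (torsionNat.map n (opBar M hM i) x) =
      heckeGrpI M i (ZMod n) (B.kapOf hM n x) := by
  rcases i with ℓ | d
  · haveI : NeZero (ℓ : ℕ) := ⟨ℓ.2.ne_zero⟩
    exact B.kapOf_hecke M hM n ℓ (heckeGrpP M ℓ (ZMod n)) (hroot.1 ℓ) x
  · exact B.kapOf_dia hM n d⁻¹ (diamondGrp M (ZMod n) d) (hroot.2 d) x

/-- **[TOP1]: the stage-(I) data on `J₁ M` at `p`**, assembled from (fix) and the Eichler–Shimura clauses. -/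
noncomputable def stageIData₁_of (p : ℕ) [Fact p.Prime]
    (hfix : ∀ x : J₁ M, ∃ L : IntermediateField ℚ Ω, FiniteDimensional ℚ L ∧
      ∀ σ : GQ, (∀ a ∈ L, σ a = a) → σ • x = x)
    (hclause : ∀ ℓ : ℕ, (hℓ : ℓ.Prime) → (hℓMp : ¬ ℓ ∣ M * p) →
      ∀ A : ValuationSubring Ω, A.LiesOverPrime ℓ →
        ∃ (Mod : Type) (_ : AddCommGroup Mod) (red : J₁ M →+ Mod) (Fr : Mod →+ Mod) (σ₀ : GQ),
          A.IsFrobeniusAt σ₀ ℓ ∧
          (∀ σ ∈ A.inertiaSubgroupIn ℚ, ∀ x : J₁ M, red (σ • x) = red x) ∧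
          (∀ σ : GQ, A.IsFrobeniusAt σ ℓ → ∀ x : J₁ M, red (σ • x) = Fr (red x)) ∧
          (∀ x : J₁ M,
            red (σ₀ • σ₀ • x - opBar M hM (Sum.inl ⟨ℓ, hℓ⟩) (σ₀ • x) +
              ℓ • opBar M hM (Sum.inr (DS48.primeUnit M hℓ
                (fun h => hℓMp (Dvd.dvd.mul_right h p)))) x) = 0) ∧
          (∀ x : J₁ M, (∃ n : ℕ, p ^ n • x = 0) → red x = 0 → x = 0)) :
    StageIData₁ M p where
  D := (descData₁ M 1 hM).kapData hM p
  Op := opBar M hM
  hecke i k x := (descData₁ M 1 hM).kapOf_opBar M hM (p ^ k) (heckeRoot M hM (p ^ k)) i x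
  gal i σ x := opBar_galois_smul M hM i σ x
  c0 := complexConjugation
  conj k x := (descData₁ M 1 hM).kapOf_conj hM (p ^ k) x
  fix := hfix
  clause := hclause

end Fermat.Agent.W1
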