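/-
W1 = [GRΓ1] (S48), package [LIFTθ] (helper3): **lifting a mod `ℓ` eigensystem to characteristic
zero** (Deligne–Serre, Lemme 6.11).  For a commutative ring `𝕋`, finite and torsion-free over `ℤ`
(the Hecke algebra `hecke1Alg M`), and a ring homomorphism `θ : 𝕋 →+* 𝔽` to a field of
characteristic `ℓ`, there are a complete discrete valuation ring `𝒪` of characteristic zero with
finite residue field, `ℓ ∈ 𝔪_𝒪`, and `Θ : 𝕋 →+* 𝒪` with `Θ x ∈ 𝔪_𝒪 ↔ θ x = 0`.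

Proof: a minimal prime `𝔭 ≤ ker θ` contains no nonzero integer, `𝕋 ⧸ 𝔭` embeds into `ℂ` with
integral values, the image generates a number field `E`, the prime `ker θ` lifts to a prime `𝔓` of
`𝓞 E` (lying over), and `𝒪` is the completion of `𝓞 E` at `𝔓` (`GR/PADIC_lead_Dedekind`).
-/
import Mathlib
import Fermat.Agent.GR.PADIC_lead_NumberField

set_option autoImplicit false
set_option linter.style.haveILetI false
set_option linter.unusedSectionVars false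

open IsLocalRing NumberField

namespace Fermat.Agent.W1

open Fermat.Agent.GR

section Quot

variable {𝕋 : Type} [CommRing 𝕋] [Module.Finite ℤ 𝕋]

/-- a prime of a finite torsion-free `ℤ`-algebra containing no nonzero integer is the kernel of a
ring homomorphism to `ℂ` with integral values. -/
theorem exists_ringHom_complex_of_prime (𝔭 : Ideal 𝕋) [𝔭.IsPrime]
    (hint : ∀ n : ℤ, n ≠ 0 → (n : 𝕋) ∉ 𝔭) :
    ∃ ι : 𝕋 →+* ℂ, RingHom.ker ι = 𝔭 ∧ ∀ x, IsIntegral ℤ (ι x) := by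
  have : CharZero (𝕋 ⧸ 𝔭) := by
    refine ⟨fun m n h => ?_⟩
    have h1 : ((m : ℤ) : 𝕋 ⧸ 𝔭) - ((n : ℤ) : 𝕋 ⧸ 𝔭) = 0 := by
      push_cast
      rw [h, sub_self]
    rw [← Int.cast_sub, ← map_intCast (Ideal.Quotient.mk 𝔭), Ideal.Quotient.eq_zero_iff_mem] at h1
    by_contra hne
    exact hint ((m : ℤ) - n) (by omega) h1
  have : Algebra.IsIntegral ℤ 𝕋 := inferInstance
  have : Module.Finite ℤ (𝕋 ⧸ 𝔭) :=
    Module.Finite.of_surjective (Ideal.Quotient.mkₐ ℤ 𝔭).toLinearMap Ideal.Quotient.mk_surjective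
  have : Algebra.IsIntegral ℤ (𝕋 ⧸ 𝔭) := inferInstance
  have : Algebra.IsAlgebraic ℤ (𝕋 ⧸ 𝔭) := inferInstance
  let ι₀ : (𝕋 ⧸ 𝔭) →ₐ[ℤ] ℂ := IsAlgClosed.lift
  have hker₀ : RingHom.ker ι₀.toRingHom = ⊥ := by
    apply Ideal.eq_bot_of_comap_eq_bot (R := ℤ)
    rw [eq_bot_iff]
    intro n hn
    rw [Ideal.mem_comap, RingHom.mem_ker] at hn
    have h1 : ι₀.toRingHom (algebraMap ℤ (𝕋 ⧸ 𝔭) n) = (n : ℂ) := by
      simp
    rw [h1] at hn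
    rw [Ideal.mem_bot]
    exact_mod_cast hn
  have hinj : Function.Injective ι₀ := (RingHom.injective_iff_ker_eq_bot _).mpr hker₀
  refine ⟨ι₀.toRingHom.comp (Ideal.Quotient.mk 𝔭), ?_, fun x => ?_⟩
  · ext x
    rw [RingHom.mem_ker, RingHom.comp_apply]
    constructor
    · intro h
      have : Ideal.Quotient.mk 𝔭 x = 0 := hinj (h.trans (map_zero _).symm)
      exact Ideal.Quotient.eq_zero_iff_mem.mp this
    · intro h
      rw [Ideal.Quotient.eq_zero_iff_mem.mpr h, map_zero]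
  · have h1 : IsIntegral ℤ (Ideal.Quotient.mk 𝔭 x) := Algebra.IsIntegral.isIntegral _
    exact h1.map ι₀

end Quot

section Main

variable {𝕋 : Type} [CommRing 𝕋] [Module.Finite ℤ 𝕋]

theorem exists_lift_char_zero_comm
    (htf : ∀ (n : ℤ) (x : 𝕋), n • x = 0 → n = 0 ∨ x = 0)
    {ℓ : ℕ} [Fact ℓ.Prime] {𝔽 : Type} [Field 𝔽] [CharP 𝔽 ℓ] (θ : 𝕋 →+* 𝔽) :
    ∃ (𝒪 : Type) (_ : CommRing 𝒪) (_ : IsDomain 𝒪) (_ : IsDiscreteValuationRing 𝒪)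
      (_ : IsAdicComplete (IsLocalRing.maximalIdeal 𝒪) 𝒪)
      (_ : Finite (IsLocalRing.ResidueField 𝒪)) (_ : CharZero 𝒪)
      (Θ : 𝕋 →+* 𝒪), (ℓ : 𝒪) ∈ IsLocalRing.maximalIdeal 𝒪 ∧
        ∀ x, Θ x ∈ IsLocalRing.maximalIdeal 𝒪 ↔ θ x = 0 := by
  classical
  -- the maximal ideal and a minimal prime below it
  set 𝔪 : Ideal 𝕋 := RingHom.ker θ with h𝔪
  haveI h𝔪prime : 𝔪.IsPrime := RingHom.ker_isPrime θ
  obtain ⟨𝔭, h𝔭min, h𝔭le⟩ := Ideal.exists_minimalPrimes_le (bot_le : (⊥ : Ideal 𝕋) ≤ 𝔪)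
  haveI h𝔭prime : 𝔭.IsPrime := h𝔭min.1.1
  have hint : ∀ n : ℤ, n ≠ 0 → (n : 𝕋) ∉ 𝔭 := by
    intro n hn hmem
    have hnzd : (n : 𝕋) ∈ nonZeroDivisors 𝕋 := by
      rw [mem_nonZeroDivisors_iff_right]
      intro x hx
      have h1 : n • x = 0 := by rw [zsmul_eq_mul, mul_comm]; exact hx
      exact (htf n x h1).resolve_left hn
    exact Set.disjoint_left.mp (Ideal.disjoint_nonZeroDivisors_of_mem_minimalPrimes h𝔭min)
      hmem hnzd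
  obtain ⟨ι, hkerι, hintι⟩ := exists_ringHom_complex_of_prime 𝔭 hint
  -- the number field generated by the image
  obtain ⟨G, hG⟩ := (Module.Finite.fg_top : (⊤ : Submodule ℤ 𝕋).FG)
  set E : IntermediateField ℚ ℂ := IntermediateField.adjoin ℚ (ι '' (G : Set 𝕋)) with hE
  haveI : FiniteDimensional ℚ E := by
    apply IntermediateField.finiteDimensional_adjoin
    rintro _ ⟨x, -, rfl⟩
    exact (hintι x).tower_top
  have hmemE : ∀ x : 𝕋, ι x ∈ E := by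
    intro x
    have hx : x ∈ Submodule.span ℤ (G : Set 𝕋) := by rw [hG]; exact Submodule.mem_top
    induction hx using Submodule.span_induction with
    | mem y hy => exact IntermediateField.subset_adjoin ℚ _ ⟨y, hy, rfl⟩
    | zero => rw [map_zero]; exact E.zero_mem
    | add y z _ _ hy hz => rw [map_add]; exact E.add_mem hy hz
    | smul n y _ hy =>
      rw [zsmul_eq_mul, map_mul, map_intCast]
      exact E.mul_mem (E.intCast_mem n) hy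
  let ιE : 𝕋 →+* ↥E := ι.codRestrict E.toSubring hmemE
  letI : Algebra 𝕋 ↥E := ιE.toAlgebra
  haveI : Algebra.IsIntegral ℤ 𝕋 := inferInstance
  let ι' : 𝕋 →ₐ[ℤ] 𝓞 ↥E := IsIntegralClosure.lift ℤ (𝓞 ↥E) ↥E
  have hι' : ∀ x : 𝕋, (((ι' x : 𝓞 ↥E) : ↥E) : ℂ) = ι x := by
    intro x
    have := IsIntegralClosure.algebraMap_lift ℤ (𝓞 ↥E) ↥E x
    exact congrArg Subtype.val this
  have hkerι' : RingHom.ker ι'.toRingHom = 𝔭 := by
    rw [← hkerι]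
    ext x
    rw [RingHom.mem_ker, RingHom.mem_ker, ← hι' x]
    constructor
    · intro h
      have : ι' x = 0 := h
      rw [this]
      rfl
    · intro h
      have h1 : ((ι' x : 𝓞 ↥E) : ↥E) = 0 := Subtype.ext h
      exact RingOfIntegers.ext h1
  -- lying over
  letI : Algebra 𝕋 (𝓞 ↥E) := ι'.toRingHom.toAlgebra
  haveI : Algebra.IsIntegral 𝕋 (𝓞 ↥E) := by
    refine ⟨fun y => ?_⟩
    have hy : IsIntegral ℤ y := Algebra.IsIntegral.isIntegral y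
    exact hy.tower_top
  obtain ⟨𝔓, -, h𝔓prime, h𝔓comap⟩ :=
    Ideal.exists_ideal_over_prime_of_isIntegral 𝔪 (⊥ : Ideal (𝓞 ↥E)) (by
      have : (⊥ : Ideal (𝓞 ↥E)).comap (algebraMap 𝕋 (𝓞 ↥E)) = 𝔭 := hkerι'
      rw [this]
      exact h𝔭le)
  have hmem𝔓 : ∀ x : 𝕋, ι' x ∈ 𝔓 ↔ θ x = 0 := by
    intro x
    have h1 : ι' x ∈ 𝔓 ↔ x ∈ 𝔓.comap (algebraMap 𝕋 (𝓞 ↥E)) := Iff.rfl
    rw [h1, h𝔓comap, h𝔪, RingHom.mem_ker]
  have hℓ𝔓 : ((ℓ : ℕ) : 𝓞 ↥E) ∈ 𝔓 := by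
    have h1 : ι' ((ℓ : ℕ) : 𝕋) ∈ 𝔓 := by
      rw [hmem𝔓, map_natCast]
      exact CharP.cast_eq_zero 𝔽 ℓ
    rwa [map_natCast] at h1
  have h𝔓0 : 𝔓 ≠ ⊥ := by
    intro h
    rw [h, Ideal.mem_bot] at hℓ𝔓
    exact (Fact.out : ℓ.Prime).ne_zero (by exact_mod_cast hℓ𝔓)
  haveI h𝔓max : 𝔓.IsMaximal := h𝔓prime.isMaximal h𝔓0
  haveI : Finite (𝓞 ↥E ⧸ 𝔓) := Ideal.finiteQuotientOfFreeOfNeBot 𝔓 h𝔓0
  obtain ⟨𝒪, i1, i2, i3, i4, i5, i6, j, -, hℓ𝒪, hmem, -⟩ :=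
    exists_completeDVR_of_dedekind (𝓞 ↥E) 𝔓 h𝔓0 ℓ hℓ𝔓
  refine ⟨𝒪, i1, i2, i3, i4, i5, i6, j.comp ι'.toRingHom, hℓ𝒪, fun x => ?_⟩
  rw [RingHom.comp_apply, hmem]
  exact hmem𝔓 x

end Main

/-- **[LIFTθ]** (Deligne–Serre 6.11): a ring homomorphism `θ` from a commutative ring `𝕋`, finite
and torsion-free over `ℤ`, to a field of characteristic `ℓ` lifts to characteristic zero: there
are a complete discrete valuation ring `𝒪` of characteristic zero with finite residue field of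
characteristic `ℓ` and `Θ : 𝕋 →+* 𝒪` with `Θ⁻¹(𝔪) = ker θ`. -/
theorem exists_lift_char_zero {𝕋 : Type} [Ring 𝕋] (hcomm : ∀ x y : 𝕋, x * y = y * x)
    [Module.Finite ℤ 𝕋]
    (htf : ∀ (n : ℤ) (x : 𝕋), n • x = 0 → n = 0 ∨ x = 0)
    {ℓ : ℕ} [Fact ℓ.Prime] {𝔽 : Type} [Field 𝔽] [CharP 𝔽 ℓ] (θ : 𝕋 →+* 𝔽) :
    ∃ (𝒪 : Type) (_ : CommRing 𝒪) (_ : IsDomain 𝒪) (_ : IsDiscreteValuationRing 𝒪)
      (_ : IsAdicComplete (IsLocalRing.maximalIdeal 𝒪) 𝒪)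
      (_ : Finite (IsLocalRing.ResidueField 𝒪)) (_ : CharZero 𝒪)
      (Θ : 𝕋 →+* 𝒪), (ℓ : 𝒪) ∈ IsLocalRing.maximalIdeal 𝒪 ∧
        ∀ x, Θ x ∈ IsLocalRing.maximalIdeal 𝒪 ↔ θ x = 0 := by
  letI : CommRing 𝕋 := { ‹Ring 𝕋› with mul_comm := hcomm }
  exact exists_lift_char_zero_comm htf θ

end Fermat.Agent.W1
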