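/-
W1 — helper7 — PORT of `JA/BCD_helper9_Host` to the field `F₁ M 1` of `X₁(M)` (against `[W1Api M]`);
only the field-specific declarations are restated, the generic ones are imported from the original.
Original header:
-/
/-
J-A third wave, package R4 (base-change dictionary for places) — helper9. Part 3: the concrete
coefficient extensions of the host tower.

* `coeffHom φ E_K E_L h : ↥E_K →+* ↥E_L` — the coefficientwise map between intermediate fields of
  Laurent series, `coeffHom_algebraMap`, and the generation criterion `closure_range_coeffHom`;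
* generation: `keyFq`, `keyFw`, `legE`, `hesE` over `L` are generated over `L` by the images of the
  corresponding fields over `K`;
* `coordOfHost` : a coordinate (`FF.Coord`) on an intermediate field of a host from a
  transcendental `t` with `E / K(t)` finite; `finite_legE`, `finite_hesE`, and the coordinates
  `legCoord`, `hesCoord` (any `K ⊆ ℂ`), `legCoordBar`, `hesCoordBar` (over `Ω`), `legCoordBase`,
  `hesCoordBase`, `keyFqCoordBase` (over an intermediate field `K₁ ⊆ Ω`);
* all places of `legE Ω M`, `hesE Ω M` have degree one.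
-/
import Mathlib
import Fermat.Agent.W1.GEOBASE_helper7_Compat
import Fermat.Agent.JA.GEOBASE_helper8_Compat
import Fermat.Agent.FF.Residue
import Fermat.Agent.W1.API_helper7_Lemmas
import Fermat.Agent.JA.BCD_helper9_Host

set_option autoImplicit false
set_option linter.unusedSectionVars false
set_option linter.style.haveILetI false
set_option synthInstance.maxHeartbeats 200000

open HahnSeries IntermediateField AlgebraicCurve ModularCurve Polynomial

open Fermat.Agent.JA

namespace Fermat.Agent.W1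

section CoeffHom

variable {K L : Type*} [Field K] [Field L] (φ : K →+* L)
  (E_K : IntermediateField K (LaurentSeries K)) (E_L : IntermediateField L (LaurentSeries L))
  (h : ∀ x ∈ E_K, coeffMap φ x ∈ E_L)

end CoeffHom

section Generation

open scoped Fermat.Agent.JA.Host Fermat.Agent.W1.Host

variable {K L : Type} [Field K] [Field L] [Algebra ℚ K] [Algebra ℚ L] (φ : K →+* L)
  (M : ℕ) [NeZero M] [W1Api M]

/-- `F_q(L)` is generated over `L` by the image of `F_q(K)`. -/
theorem keyFq_le_adjoin_image :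
    keyFq L M ≤ IntermediateField.adjoin L (⇑(coeffMap φ) '' (keyFq K M : Set (LaurentSeries K))) := by
  show IntermediateField.adjoin L _ ≤ _
  rw [IntermediateField.adjoin_le_iff]
  rintro _ ⟨z, hz, rfl⟩
  refine IntermediateField.subset_adjoin L _ ⟨coeffEmb K z, coeffEmb_mem_laurentBaseChange K hz, ?_⟩
  exact coeffMap_coeffEmb_hom φ z

/-- `F_w(L)` is generated over `L` by the image of `F_w(K)`. -/
theorem keyFw_le_adjoin_image (w : ℕ) [NeZero w] :
    keyFw L M w ≤
      IntermediateField.adjoin L (⇑(coeffMap φ) '' (keyFw K M w : Set (LaurentSeries K))) := by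
  have h1 : keyFq L M ≤ (IntermediateField.adjoin L
      (⇑(coeffMap φ) '' (keyFw K M w : Set (LaurentSeries K)))).comap (qExpandAlgHomC L w) := by
    show IntermediateField.adjoin L _ ≤ _
    rw [IntermediateField.adjoin_le_iff]
    rintro _ ⟨z, hz, rfl⟩
    show qExpandAlgHomC L w (coeffEmb L z) ∈ IntermediateField.adjoin L
      (⇑(coeffMap φ) '' (keyFw K M w : Set (LaurentSeries K)))
    rw [qExpandAlgHomC_apply]
    refine IntermediateField.subset_adjoin L _ ⟨qExpand K w (coeffEmb K z), ?_, ?_⟩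
    · exact qExpand_mem_hostImage (coeffEmb_mem_laurentBaseChange K hz)
    · rw [coeffMap_qExpand, coeffMap_coeffEmb_hom]
  exact IntermediateField.map_le_iff_le_comap.mpr h1

/-- `E(L) = L(t)·F_w(L)` is generated over `L` by the image of `E(K)`. -/
theorem etu_le_adjoin_image (w : ℕ) [NeZero w] (tK : LaurentSeries K) (tL : LaurentSeries L)
    (ht : coeffMap φ tK = tL) :
    Host.Etu (keyFw L M w) tL 1 ≤ IntermediateField.adjoin L
      (⇑(coeffMap φ) '' (Host.Etu (keyFw K M w) tK 1 : Set (LaurentSeries K))) := by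
  have hsub : keyFw K M w ≤ Host.Etu (keyFw K M w) tK 1 :=
    (le_sup_left : keyFw K M w ≤ Host.Fu (keyFw K M w) 1).trans
      (le_sup_right : Host.Fu (keyFw K M w) 1 ≤ Host.Etu (keyFw K M w) tK 1)
  refine sup_le ?_ (sup_le ?_ ?_)
  · rw [adjoin_simple_le_iff]
    exact IntermediateField.subset_adjoin L _ ⟨tK, Host.mem_Etu_t _ _ _, ht⟩
  · refine (keyFw_le_adjoin_image φ M w).trans (IntermediateField.adjoin.mono L _ _ ?_)
    exact Set.image_mono fun x hx => hsub hx
  · rw [adjoin_simple_le_iff]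
    exact one_mem _

theorem legE_le_adjoin_image :
    legE L M ≤ IntermediateField.adjoin L (⇑(coeffMap φ) '' (legE K M : Set (LaurentSeries K))) :=
  etu_le_adjoin_image φ M 2 (legT K) (legT L) (coeffMap_legT φ)

theorem hesE_le_adjoin_image :
    hesE L M ≤ IntermediateField.adjoin L (⇑(coeffMap φ) '' (hesE K M : Set (LaurentSeries K))) :=
  etu_le_adjoin_image φ M 3 (hesT K) (hesT L) (coeffMap_hesT φ)

end Generation

section CoordHost

open scoped Fermat.Agent.JA.Host Fermat.Agent.W1.Host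

variable {K H : Type*} [Field K] [Field H] [Algebra K H]

end CoordHost

section Concrete

open scoped Fermat.Agent.JA.Host Fermat.Agent.W1.Host

variable (K : Type) [Field K] [Algebra ℚ K] [Algebra K ℂ] (M : ℕ) [NeZero M] [W1Api M]

set_option maxHeartbeats 1600000 in
/-- `E / K(t)` is finite, Legendre tower (`K ⊆ ℂ`). -/
theorem finite_legE : Module.Finite ↥K⟮legT K⟯ ↥(legE K M) := by
  haveI : Module.Finite ↥K⟮jqNModC K 2⟯ ↥(keyFw K M 2) := finite_hostImage_full M 2
  exact Host.finite_Kt_Etu (keyFw K M 2) (jqNModC K 2) (legT K) 1 (isIntegral_legT K)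
    isIntegral_one

set_option maxHeartbeats 1600000 in
/-- `E / K(t)` is finite, Hesse tower (`K ⊆ ℂ`). -/
theorem finite_hesE : Module.Finite ↥K⟮hesT K⟯ ↥(hesE K M) := by
  haveI : Module.Finite ↥K⟮jqNModC K 3⟯ ↥(keyFw K M 3) := finite_hostImage_full M 3
  exact Host.finite_Kt_Etu (keyFw K M 3) (jqNModC K 3) (hesT K) 1 (isIntegral_hesT K)
    isIntegral_one

/-- the Legendre coordinate `t` on `E = K(t)·F_2`. -/
noncomputable def legCoord : FF.Coord K ↥(legE K M) :=
  haveI := finite_legE K M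
  coordOfHost (legE K M) (legT K) (transcendental_legT K)

/-- the Hesse coordinate `t` on `E = K(t)·F_3`. -/
noncomputable def hesCoord : FF.Coord K ↥(hesE K M) :=
  haveI := finite_hesE K M
  coordOfHost (hesE K M) (hesT K) (transcendental_hesT K)

theorem coe_legCoord_x : (((legCoord K M).x : ↥(legE K M)) : LaurentSeries K) = legT K := rfl

theorem coe_hesCoord_x : (((hesCoord K M).x : ↥(hesE K M)) : LaurentSeries K) = hesT K := rfl

end Concrete

section Bar

/-- `Ω = AlgebraicClosure ℚ`. -/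
local notation "Ω" => AlgebraicClosure ℚ

variable (M : ℕ) [NeZero M] [W1Api M]

/-- the Legendre coordinate on `E(Ω)`. -/
noncomputable def legCoordBar : FF.Coord Ω ↥(legE Ω M) :=
  letI : Algebra Ω ℂ := ((IsAlgClosed.lift : Ω →ₐ[ℚ] ℂ) : Ω →+* ℂ).toAlgebra
  legCoord Ω M

/-- the Hesse coordinate on `E(Ω)`. -/
noncomputable def hesCoordBar : FF.Coord Ω ↥(hesE Ω M) :=
  letI : Algebra Ω ℂ := ((IsAlgClosed.lift : Ω →ₐ[ℚ] ℂ) : Ω →+* ℂ).toAlgebra
  hesCoord Ω M

theorem coe_legCoordBar_x :
    (((legCoordBar M).x : ↥(legE Ω M)) : LaurentSeries Ω) = legT Ω := rfl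

theorem coe_hesCoordBar_x :
    (((hesCoordBar M).x : ↥(hesE Ω M)) : LaurentSeries Ω) = hesT Ω := rfl

/-- all places of the Legendre tower field over `Ω` have degree one. -/
theorem bcd_deg_eq_one_legE (P : Place Ω ↥(legE Ω M)) : P.deg = 1 := (legCoordBar M).deg_eq_one P

/-- all places of the Hesse tower field over `Ω` have degree one. -/
theorem bcd_deg_eq_one_hesE (P : Place Ω ↥(hesE Ω M)) : P.deg = 1 := (hesCoordBar M).deg_eq_one P

variable (K₁ : IntermediateField ℚ Ω)

/-- the Legendre coordinate on `E(K₁)`, `K₁ ⊆ Ω`. -/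
noncomputable def legCoordBase : FF.Coord ↥K₁ ↥(legE ↥K₁ M) :=
  letI : Algebra ↥K₁ ℂ :=
    (((IsAlgClosed.lift : Ω →ₐ[ℚ] ℂ) : Ω →+* ℂ).comp (algebraMap ↥K₁ Ω)).toAlgebra
  legCoord ↥K₁ M

/-- the Hesse coordinate on `E(K₁)`, `K₁ ⊆ Ω`. -/
noncomputable def hesCoordBase : FF.Coord ↥K₁ ↥(hesE ↥K₁ M) :=
  letI : Algebra ↥K₁ ℂ :=
    (((IsAlgClosed.lift : Ω →ₐ[ℚ] ℂ) : Ω →+* ℂ).comp (algebraMap ↥K₁ Ω)).toAlgebra
  hesCoord ↥K₁ M

/-- the `j`-coordinate on `F(K₁)`, `K₁ ⊆ Ω`. -/
noncomputable def keyFqCoordBase : FF.Coord ↥K₁ ↥(keyFq ↥K₁ M) :=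
  letI : Algebra ↥K₁ ℂ :=
    (((IsAlgClosed.lift : Ω →ₐ[ℚ] ℂ) : Ω →+* ℂ).comp (algebraMap ↥K₁ Ω)).toAlgebra
  jCoordK ↥K₁ M

theorem coe_legCoordBase_x :
    (((legCoordBase M K₁).x : ↥(legE ↥K₁ M)) : LaurentSeries ↥K₁) = legT ↥K₁ := rfl

theorem coe_hesCoordBase_x :
    (((hesCoordBase M K₁).x : ↥(hesE ↥K₁ M)) : LaurentSeries ↥K₁) = hesT ↥K₁ := rfl

end Bar

end Fermat.Agent.W1
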