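/-
W1 — helper7 — PORT of `JA/BCD_helper9_HostRat` to the field `F₁ M 1` of `X₁(M)` (against `[W1Api M]`);
only the field-specific declarations are restated, the generic ones are imported from the original.
Original header:
-/
/-
J-A third wave, package R4 (base-change dictionary for places) — helper9. Part 4: the concrete
instance of the dictionary for the host tower fields.

`Ω = AlgebraicClosure ℚ`, `K₁ ⊆ Ω` an intermediate field of `Ω / ℚ`.

* `exists_finset_forall_isRationalPlace_tower` : **(RAT-fin), generic form** for a family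
  `E(K) ⊆ K⸨x⸩` functorial in the coefficient field;
* `legBC M K₁ : E(K₁) →+* E(Ω)`, `hesBC M K₁`, `keyFqBC M K₁` (coefficientwise), with the literal
  hypotheses `hφ` (`legBC_algebraMap`), `hgen` (`closure_range_legBC`) of `restrictBC`;
* `exists_finset_forall_isRationalPlace_legE` (`_hesE`, `_keyFq`) : for a finite set `s` of places
  of `E(Ω)` there is a finite `t ⊂ Ω` such that for every `K₁ ⊇ K₀` containing `t` all
  `restrictBC (legBC M K₁) … P`, `P ∈ s`, are rational places of `E(K₁) / K₁`;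
* `IsBase.exists_ge_isRationalPlace_legE` (`_hesE`, `_keyFq`) : the same with a base `K₁ ⊇ K₀`;
* `bcd_hasPrincipalDivisors_legE`, `bcd_hasPrincipalDivisors_hesE`.
-/
import Mathlib
import Fermat.Agent.W1.BCD_helper7_Host
import Fermat.Agent.JA.BCD_helper9_Host
import Fermat.Agent.JA.BCD_helper9_Rational
import Fermat.Agent.X0N.S24_helper7_Wiring
import Fermat.Agent.W1.API_helper7_Lemmas
import Fermat.Agent.JA.BCD_helper9_HostRat

set_option autoImplicit false
set_option linter.unusedSectionVars false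
set_option linter.style.haveILetI false
set_option synthInstance.maxHeartbeats 200000

open HahnSeries IntermediateField AlgebraicCurve ModularCurve Polynomial

open Fermat.Agent.JA

namespace Fermat.Agent.W1

open Fermat.Agent.FF

section Tower

/-- `Ω = AlgebraicClosure ℚ`. -/
local notation "Ω" => AlgebraicClosure ℚ

variable (E : ∀ (K : Type) [Field K] [Algebra ℚ K], IntermediateField K (LaurentSeries K))
  (hE : ∀ (K L : Type) [Field K] [Field L] [Algebra ℚ K] [Algebra ℚ L] (φ : K →+* L),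
    ∀ x ∈ E K, coeffMap φ x ∈ E L)
  (hgenE : ∀ (K L : Type) [Field K] [Field L] [Algebra ℚ K] [Algebra ℚ L] (φ : K →+* L),
    E L ≤ IntermediateField.adjoin L (⇑(coeffMap φ) '' (E K : Set (LaurentSeries K))))

end Tower

section Instances

/-- `Ω = AlgebraicClosure ℚ`. -/
local notation "Ω" => AlgebraicClosure ℚ

variable (M : ℕ) [NeZero M] [W1Api M] (K₁ : IntermediateField ℚ Ω)

/-- coefficientwise base change `E(K₁) → E(Ω)` of the Legendre tower field. -/
noncomputable def legBC : ↥(legE ↥K₁ M) →+* ↥(legE Ω M) :=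
  coeffHom (algebraMap ↥K₁ Ω) (legE ↥K₁ M) (legE Ω M)
    (fun _ hx => coeffMap_mem_legE (algebraMap ↥K₁ Ω) M hx)

/-- coefficientwise base change `E(K₁) → E(Ω)` of the Hesse tower field. -/
noncomputable def hesBC : ↥(hesE ↥K₁ M) →+* ↥(hesE Ω M) :=
  coeffHom (algebraMap ↥K₁ Ω) (hesE ↥K₁ M) (hesE Ω M)
    (fun _ hx => coeffMap_mem_hesE (algebraMap ↥K₁ Ω) M hx)

/-- coefficientwise base change `F(K₁) → F(Ω)` of the function field of `X₀(M)`. -/
noncomputable def keyFqBC : ↥(keyFq ↥K₁ M) →+* ↥(keyFq Ω M) :=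
  coeffHom (algebraMap ↥K₁ Ω) (keyFq ↥K₁ M) (keyFq Ω M)
    (fun _ hx => coeffMap_hom_mem_laurentBaseChange (algebraMap ↥K₁ Ω) _ hx)

theorem coe_legBC (x : ↥(legE ↥K₁ M)) : ((legBC M K₁ x : ↥(legE Ω M)) : LaurentSeries Ω) =
    coeffMap (algebraMap ↥K₁ Ω) (x : LaurentSeries ↥K₁) := rfl

theorem coe_hesBC (x : ↥(hesE ↥K₁ M)) : ((hesBC M K₁ x : ↥(hesE Ω M)) : LaurentSeries Ω) =
    coeffMap (algebraMap ↥K₁ Ω) (x : LaurentSeries ↥K₁) := rfl

theorem coe_keyFqBC (x : ↥(keyFq ↥K₁ M)) : ((keyFqBC M K₁ x : ↥(keyFq Ω M)) : LaurentSeries Ω) =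
    coeffMap (algebraMap ↥K₁ Ω) (x : LaurentSeries ↥K₁) := rfl

/-- `hφ` of `restrictBC` for `legBC`. -/
theorem legBC_algebraMap (a : ↥K₁) : legBC M K₁ (algebraMap ↥K₁ ↥(legE ↥K₁ M) a) =
    algebraMap Ω ↥(legE Ω M) (algebraMap ↥K₁ Ω a) :=
  coeffHom_algebraMap _ _ _ _ a

/-- `hφ` of `restrictBC` for `hesBC`. -/
theorem hesBC_algebraMap (a : ↥K₁) : hesBC M K₁ (algebraMap ↥K₁ ↥(hesE ↥K₁ M) a) =
    algebraMap Ω ↥(hesE Ω M) (algebraMap ↥K₁ Ω a) :=
  coeffHom_algebraMap _ _ _ _ a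

/-- `hφ` of `restrictBC` for `keyFqBC`. -/
theorem keyFqBC_algebraMap (a : ↥K₁) : keyFqBC M K₁ (algebraMap ↥K₁ ↥(keyFq ↥K₁ M) a) =
    algebraMap Ω ↥(keyFq Ω M) (algebraMap ↥K₁ Ω a) :=
  coeffHom_algebraMap _ _ _ _ a

/-- `hgen` of `restrictBC` for `legBC`. -/
theorem closure_range_legBC :
    Subfield.closure (Set.range (legBC M K₁) ∪ Set.range (algebraMap Ω ↥(legE Ω M))) = ⊤ :=
  closure_range_coeffHom _ _ _ _ (legE_le_adjoin_image (algebraMap ↥K₁ Ω) M)

/-- `hgen` of `restrictBC` for `hesBC`. -/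
theorem closure_range_hesBC :
    Subfield.closure (Set.range (hesBC M K₁) ∪ Set.range (algebraMap Ω ↥(hesE Ω M))) = ⊤ :=
  closure_range_coeffHom _ _ _ _ (hesE_le_adjoin_image (algebraMap ↥K₁ Ω) M)

/-- `hgen` of `restrictBC` for `keyFqBC`. -/
theorem closure_range_keyFqBC :
    Subfield.closure (Set.range (keyFqBC M K₁) ∪ Set.range (algebraMap Ω ↥(keyFq Ω M))) = ⊤ :=
  closure_range_coeffHom _ _ _ _ (keyFq_le_adjoin_image (algebraMap ↥K₁ Ω) M)

/-- the base change of the Legendre coordinate is the Legendre coordinate. -/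
theorem legBC_coord : legBC M K₁ (legCoordBase M K₁).x = (legCoordBar M).x :=
  Subtype.ext (coeffMap_legT (algebraMap ↥K₁ Ω))

/-- the base change of the Hesse coordinate is the Hesse coordinate. -/
theorem hesBC_coord : hesBC M K₁ (hesCoordBase M K₁).x = (hesCoordBar M).x :=
  Subtype.ext (coeffMap_hesT (algebraMap ↥K₁ Ω))

/-- `F(K₁) ⊆ E(K₁)` is compatible with base change (Legendre). -/
theorem legBC_of_mem_keyFw (x : ↥(legE ↥K₁ M)) (hx : (x : LaurentSeries ↥K₁) ∈ keyFw ↥K₁ M 2) :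
    ((legBC M K₁ x : ↥(legE Ω M)) : LaurentSeries Ω) ∈ keyFw Ω M 2 :=
  coeffMap_mem_keyFw (algebraMap ↥K₁ Ω) M 2 hx

/-- `F(K₁) ⊆ E(K₁)` is compatible with base change (Hesse). -/
theorem hesBC_of_mem_keyFw (x : ↥(hesE ↥K₁ M)) (hx : (x : LaurentSeries ↥K₁) ∈ keyFw ↥K₁ M 3) :
    ((hesBC M K₁ x : ↥(hesE Ω M)) : LaurentSeries Ω) ∈ keyFw Ω M 3 :=
  coeffMap_mem_keyFw (algebraMap ↥K₁ Ω) M 3 hx

instance charZero_legE : CharZero ↥(legE Ω M) :=
  charZero_of_injective_algebraMap (algebraMap Ω ↥(legE Ω M)).injective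

instance charZero_hesE : CharZero ↥(hesE Ω M) :=
  charZero_of_injective_algebraMap (algebraMap Ω ↥(hesE Ω M)).injective

theorem bcd_hasPrincipalDivisors_legE : HasPrincipalDivisors Ω ↥(legE Ω M) :=
  (legCoordBar M).hasPrincipalDivisors

theorem bcd_hasPrincipalDivisors_hesE : HasPrincipalDivisors Ω ↥(hesE Ω M) :=
  (hesCoordBar M).hasPrincipalDivisors

end Instances

section RatFin

/-- `Ω = AlgebraicClosure ℚ`. -/
local notation "Ω" => AlgebraicClosure ℚ

variable (M : ℕ) [NeZero M] [W1Api M] (K₀ : IntermediateField ℚ Ω)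

/-- **(RAT-fin), Legendre tower**: finitely many places of `E(Ω)` restrict to rational places of
`E(K₁)` for every `K₁ ⊇ K₀` containing a suitable finite set. -/
theorem exists_finset_forall_isRationalPlace_legE (s : Finset (Place Ω ↥(legE Ω M))) :
    ∃ t : Finset Ω, ∀ K₁ : IntermediateField ℚ Ω, K₀ ≤ K₁ → (∀ c ∈ t, c ∈ K₁) → ∀ P ∈ s,
      IsRationalPlace (restrictBC (legBC M K₁) (legBC_algebraMap M K₁)
        (closure_range_legBC M K₁) P) :=
  exists_finset_forall_isRationalPlace_tower (fun K _ _ => legE K M)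
    (fun _ _ _ _ _ _ φ _ hx => coeffMap_mem_legE φ M hx)
    (fun _ _ _ _ _ _ φ => legE_le_adjoin_image φ M) K₀ (legCoordBase M K₀)
    (bcd_deg_eq_one_legE M) s

/-- **(RAT-fin), Hesse tower**. -/
theorem exists_finset_forall_isRationalPlace_hesE (s : Finset (Place Ω ↥(hesE Ω M))) :
    ∃ t : Finset Ω, ∀ K₁ : IntermediateField ℚ Ω, K₀ ≤ K₁ → (∀ c ∈ t, c ∈ K₁) → ∀ P ∈ s,
      IsRationalPlace (restrictBC (hesBC M K₁) (hesBC_algebraMap M K₁)
        (closure_range_hesBC M K₁) P) :=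
  exists_finset_forall_isRationalPlace_tower (fun K _ _ => hesE K M)
    (fun _ _ _ _ _ _ φ _ hx => coeffMap_mem_hesE φ M hx)
    (fun _ _ _ _ _ _ φ => hesE_le_adjoin_image φ M) K₀ (hesCoordBase M K₀)
    (bcd_deg_eq_one_hesE M) s

/-- **(RAT-fin), function field of `X₀(M)`**. -/
theorem exists_finset_forall_isRationalPlace_keyFq (s : Finset (Place Ω ↥(keyFq Ω M))) :
    ∃ t : Finset Ω, ∀ K₁ : IntermediateField ℚ Ω, K₀ ≤ K₁ → (∀ c ∈ t, c ∈ K₁) → ∀ P ∈ s,
      IsRationalPlace (restrictBC (keyFqBC M K₁) (keyFqBC_algebraMap M K₁)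
        (closure_range_keyFqBC M K₁) P) :=
  exists_finset_forall_isRationalPlace_tower (fun K _ _ => keyFq K M)
    (fun _ _ _ _ _ _ φ _ hx => coeffMap_hom_mem_laurentBaseChange φ _ hx)
    (fun _ _ _ _ _ _ φ => keyFq_le_adjoin_image φ M) K₀ (keyFqCoordBase M K₀)
    (fun P => (jCoordBar M).deg_eq_one P) s

variable {M K₀} {ℓ : ℕ}

/-- **(RAT-fin) at a base, Legendre tower.** -/
theorem IsBase.exists_ge_isRationalPlace_legE (hK₀ : IsBase ℓ K₀)
    (s : Finset (Place Ω ↥(legE Ω M))) :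
    ∃ K₁ : IntermediateField ℚ Ω, IsBase ℓ K₁ ∧ K₀ ≤ K₁ ∧ ∀ P ∈ s,
      IsRationalPlace (restrictBC (legBC M K₁) (legBC_algebraMap M K₁)
        (closure_range_legBC M K₁) P) := by
  obtain ⟨t, ht⟩ := exists_finset_forall_isRationalPlace_legE M K₀ s
  obtain ⟨K₁, h1, h2, h3⟩ := hK₀.exists_ge_forall_mem t
  exact ⟨K₁, h1, h2, ht K₁ h2 h3⟩

/-- **(RAT-fin) at a base, Hesse tower.** -/
theorem IsBase.exists_ge_isRationalPlace_hesE (hK₀ : IsBase ℓ K₀)
    (s : Finset (Place Ω ↥(hesE Ω M))) :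
    ∃ K₁ : IntermediateField ℚ Ω, IsBase ℓ K₁ ∧ K₀ ≤ K₁ ∧ ∀ P ∈ s,
      IsRationalPlace (restrictBC (hesBC M K₁) (hesBC_algebraMap M K₁)
        (closure_range_hesBC M K₁) P) := by
  obtain ⟨t, ht⟩ := exists_finset_forall_isRationalPlace_hesE M K₀ s
  obtain ⟨K₁, h1, h2, h3⟩ := hK₀.exists_ge_forall_mem t
  exact ⟨K₁, h1, h2, ht K₁ h2 h3⟩

/-- **(RAT-fin) at a base, function field of `X₀(M)`.** -/
theorem IsBase.exists_ge_isRationalPlace_keyFq (hK₀ : IsBase ℓ K₀)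
    (s : Finset (Place Ω ↥(keyFq Ω M))) :
    ∃ K₁ : IntermediateField ℚ Ω, IsBase ℓ K₁ ∧ K₀ ≤ K₁ ∧ ∀ P ∈ s,
      IsRationalPlace (restrictBC (keyFqBC M K₁) (keyFqBC_algebraMap M K₁)
        (closure_range_keyFqBC M K₁) P) := by
  obtain ⟨t, ht⟩ := exists_finset_forall_isRationalPlace_keyFq M K₀ s
  obtain ⟨K₁, h1, h2, h3⟩ := hK₀.exists_ge_forall_mem t
  exact ⟨K₁, h1, h2, ht K₁ h2 h3⟩

end RatFin

end Fermat.Agent.W1
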