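/-
W1 — helper7 — PORT of `JA/UP_helper7_Emb` to the field `F₁ M 1` of `X₁(M)` (against `[W1Api M]`);
only the field-specific declarations are restated, the generic ones are imported from the original.
Original header:
-/
/-
J-A third wave, package (UP) (helper7), part 1: the embedding of the modular function field
`F_K = K·ℚ(j_d : d ∣ M) ⊂ K((q))` into the tower field `E_K = K(t)·F_w ⊂ K((x))`, `q = x ^ w`
(`legE` for `w = 2`, `hesE` for `w = 3`), its compatibility with coefficient change, and the
finiteness of `E_K / F_K`.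
-/
import Mathlib
import Fermat.Agent.W1.GEOBASE_helper7_Compat
import Fermat.Agent.JA.GEOBASE_helper8_Compat
import Fermat.Agent.W1.API_helper7_Lemmas
import Fermat.Agent.JA.UP_helper7_Emb

set_option autoImplicit false
set_option linter.unusedSectionVars false
set_option linter.style.haveILetI false
set_option synthInstance.maxHeartbeats 200000

open HahnSeries IntermediateField AlgebraicCurve ModularCurve Polynomial

open Fermat.Agent.JA

namespace Fermat.Agent.W1

open scoped Fermat.Agent.JA.Host Fermat.Agent.W1.Host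

noncomputable section

section General

variable (K : Type) [Field K] [Algebra ℚ K] (M w : ℕ) [NeZero M] [W1Api M] [NeZero w]
  (t : LaurentSeries K)

theorem keyFw_le_Etu : keyFw K M w ≤ Host.Etu (keyFw K M w) t 1 :=
  le_trans (le_sup_left : keyFw K M w ≤ Host.Fu (keyFw K M w) 1) le_sup_right

/-- the embedding `F_K → E_K = K(t)·F_w`, `f(q) ↦ f(x ^ w)`. -/
def fullToEtu : ↥(keyFq K M) →ₐ[K] ↥(Host.Etu (keyFw K M w) t 1) :=
  (IntermediateField.inclusion (keyFw_le_Etu K M w t)).comp
    (hostImageEquiv K w (keyFq K M)).toAlgHom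

theorem coe_fullToEtu (f : ↥(keyFq K M)) :
    ((fullToEtu K M w t f : ↥(Host.Etu (keyFw K M w) t 1)) : LaurentSeries K) =
      qExpand K w (f : LaurentSeries K) := rfl

theorem Etu_one_eq_sup : Host.Etu (keyFw K M w) t 1 = keyFw K M w ⊔ K⟮t⟯ := by
  have h : Host.Fu (keyFw K M w) 1 = keyFw K M w := by
    refine le_antisymm (sup_le le_rfl ?_) le_sup_left
    rw [adjoin_simple_le_iff]
    exact one_mem _
  show K⟮t⟯ ⊔ Host.Fu (keyFw K M w) 1 = _
  rw [h, sup_comm]

/-- `E_K / F_w` is finite when `t` is integral over `K(j(x ^ w))`. -/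
theorem finite_keyFw_Etu (ht : IsIntegral ↥K⟮jqNModC K w⟯ t) :
    Module.Finite ↥(keyFw K M w) ↥(Host.Etu (keyFw K M w) t 1) := by
  refine Host.finite_of_eq_sup_simple t (Etu_one_eq_sup K M w t) ?_
  exact ht.tower_top

/-- `E_K / F_K` is finite (for the algebra structure given by `fullToEtu`). -/
theorem finite_fullToEtu (ht : IsIntegral ↥K⟮jqNModC K w⟯ t) :
    letI := (fullToEtu K M w t).toRingHom.toAlgebra
    Module.Finite ↥(keyFq K M) ↥(Host.Etu (keyFw K M w) t 1) := by
  letI := (fullToEtu K M w t).toRingHom.toAlgebra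
  haveI := finite_keyFw_Etu K M w t ht
  refine Module.Finite.of_equiv_equiv (A₁ := ↥(keyFw K M w))
    (B₁ := ↥(Host.Etu (keyFw K M w) t 1))
    (hostImageEquiv K w (keyFq K M)).symm.toRingEquiv (RingEquiv.refl _) ?_
  refine RingHom.ext fun y => ?_
  obtain ⟨x, rfl⟩ := (hostImageEquiv K w (keyFq K M)).surjective y
  show fullToEtu K M w t ((hostImageEquiv K w (keyFq K M)).symm
    (hostImageEquiv K w (keyFq K M) x)) = _
  rw [AlgEquiv.symm_apply_apply]
  rfl

end General

section Coeff

variable {K L : Type} [Field K] [Field L] [Algebra ℚ K] [Algebra ℚ L] (φ : K →+* L)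
  (M w : ℕ) [NeZero M] [W1Api M] [NeZero w]

/-- compatibility of the embeddings `F → E` with coefficient change. -/
theorem coeffMap_fullToEtu (t : LaurentSeries K) (t' : LaurentSeries L) (f : ↥(keyFq K M)) :
    coeffMap φ ((fullToEtu K M w t f : ↥(Host.Etu (keyFw K M w) t 1)) : LaurentSeries K) =
      ((fullToEtu L M w t' ⟨coeffMap φ (f : LaurentSeries K),
        coeffMap_hom_mem_laurentBaseChange φ _ f.2⟩ :
          ↥(Host.Etu (keyFw L M w) t' 1)) : LaurentSeries L) := by
  rw [coe_fullToEtu, coe_fullToEtu, coeffMap_qExpand]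

end Coeff

section LegHes

variable (K : Type) [Field K] [Algebra ℚ K] (M : ℕ) [NeZero M] [W1Api M]

/-- the embedding `F_K → legE K M`. -/
def fullToLegE : ↥(keyFq K M) →ₐ[K] ↥(legE K M) := fullToEtu K M 2 (legT K)

/-- the embedding `F_K → hesE K M`. -/
def fullToHesE : ↥(keyFq K M) →ₐ[K] ↥(hesE K M) := fullToEtu K M 3 (hesT K)

theorem coe_fullToLegE (f : ↥(keyFq K M)) :
    ((fullToLegE K M f : ↥(legE K M)) : LaurentSeries K) = qExpand K 2 (f : LaurentSeries K) :=
  rfl

theorem coe_fullToHesE (f : ↥(keyFq K M)) :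
    ((fullToHesE K M f : ↥(hesE K M)) : LaurentSeries K) = qExpand K 3 (f : LaurentSeries K) :=
  rfl

variable {K} in
theorem coeffMap_fullToLegE {L : Type} [Field L] [Algebra ℚ L] (φ : K →+* L)
    (f : ↥(keyFq K M)) :
    coeffMap φ ((fullToLegE K M f : ↥(legE K M)) : LaurentSeries K) =
      ((fullToLegE L M ⟨coeffMap φ (f : LaurentSeries K),
        coeffMap_hom_mem_laurentBaseChange φ _ f.2⟩ : ↥(legE L M)) : LaurentSeries L) :=
  coeffMap_fullToEtu φ M 2 (legT K) (legT L) f

variable {K} in
theorem coeffMap_fullToHesE {L : Type} [Field L] [Algebra ℚ L] (φ : K →+* L)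
    (f : ↥(keyFq K M)) :
    coeffMap φ ((fullToHesE K M f : ↥(hesE K M)) : LaurentSeries K) =
      ((fullToHesE L M ⟨coeffMap φ (f : LaurentSeries K),
        coeffMap_hom_mem_laurentBaseChange φ _ f.2⟩ : ↥(hesE L M)) : LaurentSeries L) :=
  coeffMap_fullToEtu φ M 3 (hesT K) (hesT L) f

/-- `legE K M / F_K` is finite. -/
theorem finite_fullToLegE :
    letI := (fullToLegE K M).toRingHom.toAlgebra
    Module.Finite ↥(keyFq K M) ↥(legE K M) :=
  finite_fullToEtu K M 2 (legT K) (isIntegral_legT K)

/-- `hesE K M / F_K` is finite. -/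
theorem finite_fullToHesE :
    letI := (fullToHesE K M).toRingHom.toAlgebra
    Module.Finite ↥(keyFq K M) ↥(hesE K M) :=
  finite_fullToEtu K M 3 (hesT K) (isIntegral_hesT K)

end LegHes

end

end Fermat.Agent.W1
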