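/-
W1 — helper7 — PORT of `JA/UP_helper7_Coord` to the field `F₁ M 1` of `X₁(M)` (against `[W1Api M]`);
only the field-specific declarations are restated, the generic ones are imported from the original.
Original header:
-/
/-
J-A third wave, package (UP) (helper7), part 2: the upstairs function field `E_Ω ⊇ F_Ω` over
`Ω = ℚ̄`: a coordinate on `E_Ω`, `HasPrincipalDivisors`, all places of degree one, the fundamental
identity `∑_{w | v} e(w | v) = [E_Ω : F_Ω]`.
-/
import Mathlib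
import Fermat.Agent.W1.UP_helper7_Emb
import Fermat.Agent.JA.UP_helper7_Emb
import Fermat.Agent.JA.H0_helper7_Main
import Fermat.Agent.X0N.S24_helper7_Generic
import Fermat.Agent.W1.API_helper7_Lemmas
import Fermat.Agent.JA.UP_helper7_Coord

set_option autoImplicit false
set_option linter.unusedSectionVars false
set_option linter.style.haveILetI false
set_option synthInstance.maxHeartbeats 200000

open HahnSeries IntermediateField AlgebraicCurve ModularCurve Polynomial

open Fermat.Agent.JA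

namespace Fermat.Agent.W1

open Fermat.Agent.FF Fermat.Agent.FF.Gal

noncomputable section

section Abstract

variable {K F F' : Type*} [Field K] [Field F] [Field F'] [Algebra K F] [Algebra K F']

variable [CharZero K] [IsAlgClosed K]

end Abstract

section Omega

local notation "Ω" => AlgebraicClosure ℚ

variable (M w : ℕ) [NeZero M] [W1Api M] [NeZero w] (t : LaurentSeries Ω)

/-- `E_Ω / F_Ω` is finite. -/
theorem finiteAlong_fullToEtu (ht : IsIntegral ↥Ω⟮jqNModC Ω w⟯ t) :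
    FiniteAlong Ω (fullToEtu Ω M w t) :=
  finite_fullToEtu Ω M w t ht

/-- a coordinate on `E_Ω` (the image of `j`). -/
def etuCoordBar (ht : IsIntegral ↥Ω⟮jqNModC Ω w⟯ t) :
    Coord Ω ↥(Host.Etu (keyFw Ω M w) t 1) :=
  (jCoordBar M).extendAlong (fullToEtu Ω M w t) (finiteAlong_fullToEtu M w t ht)

theorem hasPrincipalDivisors_Etu (ht : IsIntegral ↥Ω⟮jqNModC Ω w⟯ t) :
    HasPrincipalDivisors Ω ↥(Host.Etu (keyFw Ω M w) t 1) :=
  (etuCoordBar M w t ht).hasPrincipalDivisors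

theorem deg_eq_one_Etu (ht : IsIntegral ↥Ω⟮jqNModC Ω w⟯ t)
    (P : Place Ω ↥(Host.Etu (keyFw Ω M w) t 1)) : P.deg = 1 :=
  (etuCoordBar M w t ht).deg_eq_one P

end Omega

section LegHes

local notation "Ω" => AlgebraicClosure ℚ

variable (M : ℕ) [NeZero M] [W1Api M]

theorem finiteAlong_fullToLegE : FiniteAlong Ω (fullToLegE Ω M) :=
  finiteAlong_fullToEtu M 2 (legT Ω) (isIntegral_legT Ω)

theorem finiteAlong_fullToHesE : FiniteAlong Ω (fullToHesE Ω M) :=
  finiteAlong_fullToEtu M 3 (hesT Ω) (isIntegral_hesT Ω)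

/-- a coordinate on `legE Ω M`. -/
def legECoordBar : Coord Ω ↥(legE Ω M) := etuCoordBar M 2 (legT Ω) (isIntegral_legT Ω)

/-- a coordinate on `hesE Ω M`. -/
def hesECoordBar : Coord Ω ↥(hesE Ω M) := etuCoordBar M 3 (hesT Ω) (isIntegral_hesT Ω)

theorem up_hasPrincipalDivisors_legE : HasPrincipalDivisors Ω ↥(legE Ω M) :=
  (legECoordBar M).hasPrincipalDivisors

theorem up_hasPrincipalDivisors_hesE : HasPrincipalDivisors Ω ↥(hesE Ω M) :=
  (hesECoordBar M).hasPrincipalDivisors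

theorem up_deg_eq_one_legE (P : Place Ω ↥(legE Ω M)) : P.deg = 1 := (legECoordBar M).deg_eq_one P

theorem up_deg_eq_one_hesE (P : Place Ω ↥(hesE Ω M)) : P.deg = 1 := (hesECoordBar M).deg_eq_one P

/-- **(UP) for `legE Ω M ⊇ F_Ω`**: tower, finiteness, integrality, degree one, the fundamental
identity and `∑_{w | v} e(w | v) = [E_Ω : F_Ω]`. -/
theorem upstairs_legE :
    letI : Algebra ↥(F₁Bar M 1) ↥(legE Ω M) :=
      (fullToLegE Ω M).toRingHom.toAlgebra
    haveI : HasPrincipalDivisors Ω ↥(legE Ω M) := up_hasPrincipalDivisors_legE M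
    ∃ (_ : IsScalarTower Ω ↥(F₁Bar M 1) ↥(legE Ω M))
      (_ : Algebra.IsIntegral ↥(F₁Bar M 1) ↥(legE Ω M)),
      FiniteDimensional ↥(F₁Bar M 1) ↥(legE Ω M) ∧
      (∀ w : Place Ω ↥(legE Ω M), w.deg = 1) ∧
      FundamentalIdentity Ω ↥(F₁Bar M 1) ↥(legE Ω M) ∧
      ∀ v : Place Ω ↥(F₁Bar M 1),
        ∑ w ∈ v.fiber ↥(legE Ω M), (w.ramificationIndex ↥(F₁Bar M 1) : ℤ) =
          (Module.finrank ↥(F₁Bar M 1) ↥(legE Ω M) : ℤ) := by
  letI : Algebra ↥(F₁Bar M 1) ↥(legE Ω M) :=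
    (fullToLegE Ω M).toRingHom.toAlgebra
  have h := upstairs_of_coord (jCoordBar M) (fullToLegE Ω M)
    (finiteAlong_fullToLegE M)
  exact ⟨isScalarTower_along (fullToLegE Ω M),
    isIntegral_along (fullToLegE Ω M) (isIntegral_of_finiteAlong _ (finiteAlong_fullToLegE M)),
    finiteAlong_fullToLegE M, h.1, h.2.1, h.2.2⟩

/-- **(UP) for `hesE Ω M ⊇ F_Ω`**. -/
theorem upstairs_hesE :
    letI : Algebra ↥(F₁Bar M 1) ↥(hesE Ω M) :=
      (fullToHesE Ω M).toRingHom.toAlgebra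
    haveI : HasPrincipalDivisors Ω ↥(hesE Ω M) := up_hasPrincipalDivisors_hesE M
    ∃ (_ : IsScalarTower Ω ↥(F₁Bar M 1) ↥(hesE Ω M))
      (_ : Algebra.IsIntegral ↥(F₁Bar M 1) ↥(hesE Ω M)),
      FiniteDimensional ↥(F₁Bar M 1) ↥(hesE Ω M) ∧
      (∀ w : Place Ω ↥(hesE Ω M), w.deg = 1) ∧
      FundamentalIdentity Ω ↥(F₁Bar M 1) ↥(hesE Ω M) ∧
      ∀ v : Place Ω ↥(F₁Bar M 1),
        ∑ w ∈ v.fiber ↥(hesE Ω M), (w.ramificationIndex ↥(F₁Bar M 1) : ℤ) =
          (Module.finrank ↥(F₁Bar M 1) ↥(hesE Ω M) : ℤ) := by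
  letI : Algebra ↥(F₁Bar M 1) ↥(hesE Ω M) :=
    (fullToHesE Ω M).toRingHom.toAlgebra
  have h := upstairs_of_coord (jCoordBar M) (fullToHesE Ω M)
    (finiteAlong_fullToHesE M)
  exact ⟨isScalarTower_along (fullToHesE Ω M),
    isIntegral_along (fullToHesE Ω M) (isIntegral_of_finiteAlong _ (finiteAlong_fullToHesE M)),
    finiteAlong_fullToHesE M, h.1, h.2.1, h.2.2⟩

end LegHes

section GeneralK

variable (K : Type) [Field K] [Algebra ℚ K] [Algebra K ℂ] [IsScalarTower ℚ K ℂ]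
  (M : ℕ) [NeZero M] [W1Api M]

/-- a coordinate on `legE K M` for every field `ℚ ⊆ K ⊆ ℂ` (e.g. a base). -/
def legECoordK : Coord K ↥(legE K M) :=
  (jCoordK K M).extendAlong (fullToLegE K M) (finite_fullToLegE K M)

/-- a coordinate on `hesE K M` for every field `ℚ ⊆ K ⊆ ℂ`. -/
def hesECoordK : Coord K ↥(hesE K M) :=
  (jCoordK K M).extendAlong (fullToHesE K M) (finite_fullToHesE K M)

theorem legECoordK_x : (legECoordK K M).x = fullToLegE K M (jGen K M) := rfl

theorem hesECoordK_x : (hesECoordK K M).x = fullToHesE K M (jGen K M) := rfl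

end GeneralK

end

end Fermat.Agent.W1
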