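/-
W1 — helper7 — PORT of `JA/BCDEG_helper7` to the field `F₁ M 1` of `X₁(M)` (against `[W1Api M]`);
only the field-specific declarations are restated, the generic ones are imported from the original.
Original header:
-/
/-
(BCDEG) (helper7, for helper1's O1), concrete part: the degrees `[legE : F]`, `[hesE : F]` of the
tower fields over the modular function field are the same over a base `K₁ ⊆ Ω` and over `Ω`.
-/
import Mathlib
import Fermat.Agent.JA.BCDEG_helper7_Abs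
import Fermat.Agent.W1.BCD_helper7_HostRat
import Fermat.Agent.JA.BCD_helper9_HostRat
import Fermat.Agent.W1.UP_helper7_Coord
import Fermat.Agent.JA.UP_helper7_Coord
import Fermat.Agent.W1.API_helper7_Lemmas
import Fermat.Agent.JA.BCDEG_helper7

set_option autoImplicit false
set_option linter.unusedSectionVars false
set_option linter.unusedVariables false
set_option linter.style.haveILetI false
set_option synthInstance.maxHeartbeats 200000

open HahnSeries IntermediateField AlgebraicCurve ModularCurve Module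

open Fermat.Agent.JA

namespace Fermat.Agent.W1

open Fermat.Agent.FF

section LD

variable {K L : Type*} [Field K] [Field L] [Algebra K L]
  (E_K : IntermediateField K (LaurentSeries K)) (E_L : IntermediateField L (LaurentSeries L))
  (h : ∀ x ∈ E_K, coeffMap (algebraMap K L) x ∈ E_L)

end LD

section Inst

/-- `Ω = AlgebraicClosure ℚ`. -/
local notation "Ω" => AlgebraicClosure ℚ

variable (M : ℕ) [NeZero M] [W1Api M] (K₁ : IntermediateField ℚ Ω)

theorem bcdeg_legBC_fullToLegE (f : ↥(keyFq ↥K₁ M)) :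
    legBC M K₁ (fullToLegE ↥K₁ M f) = fullToLegE Ω M (keyFqBC M K₁ f) :=
  Subtype.ext (coeffMap_fullToLegE M (algebraMap ↥K₁ Ω) f)

theorem bcdeg_hesBC_fullToHesE (f : ↥(keyFq ↥K₁ M)) :
    hesBC M K₁ (fullToHesE ↥K₁ M f) = fullToHesE Ω M (keyFqBC M K₁ f) :=
  Subtype.ext (coeffMap_fullToHesE M (algebraMap ↥K₁ Ω) f)

/-- **(BCDEG) for `legE`**. -/
theorem finrank_legE_base :
    letI : Algebra ↥(keyFq ↥K₁ M) ↥(legE ↥K₁ M) := (fullToLegE ↥K₁ M).toRingHom.toAlgebra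
    letI : Algebra ↥(F₁Bar M 1) ↥(legE Ω M) :=
      (fullToLegE Ω M).toRingHom.toAlgebra
    Module.finrank ↥(F₁Bar M 1) ↥(legE Ω M) =
      Module.finrank ↥(keyFq ↥K₁ M) ↥(legE ↥K₁ M) := by
  letI : Algebra ↥(keyFq ↥K₁ M) ↥(legE ↥K₁ M) := (fullToLegE ↥K₁ M).toRingHom.toAlgebra
  letI : Algebra ↥(F₁Bar M 1) ↥(legE Ω M) :=
    (fullToLegE Ω M).toRingHom.toAlgebra
  haveI : IsScalarTower Ω ↥(F₁Bar M 1) ↥(legE Ω M) :=
    isScalarTower_along (fullToLegE Ω M)
  haveI : FiniteDimensional ↥(keyFq ↥K₁ M) ↥(legE ↥K₁ M) := finite_fullToLegE ↥K₁ M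
  haveI : FiniteDimensional ↥(F₁Bar M 1) ↥(legE Ω M) := finite_fullToLegE Ω M
  haveI : Algebra.IsAlgebraic ↥(F₁Bar M 1) ↥(legE Ω M) :=
    Algebra.IsAlgebraic.of_finite _ _
  exact BCDeg.finrank_eq_of_linearDisjoint (k := ↥K₁) (Ω' := Ω) (keyFqBC M K₁) (legBC M K₁)
    (bcdeg_legBC_fullToLegE M K₁) (keyFqBC_algebraMap M K₁) (closure_range_keyFqBC M K₁)
    (closure_range_legBC M K₁)
    (fun g hg => phi_coeffHom_eq_zero _ _ _ _ (Basis.ofVectorSpace ↥K₁ Ω).linearIndependent g hg)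

/-- **(BCDEG) for `hesE`**. -/
theorem finrank_hesE_base :
    letI : Algebra ↥(keyFq ↥K₁ M) ↥(hesE ↥K₁ M) := (fullToHesE ↥K₁ M).toRingHom.toAlgebra
    letI : Algebra ↥(F₁Bar M 1) ↥(hesE Ω M) :=
      (fullToHesE Ω M).toRingHom.toAlgebra
    Module.finrank ↥(F₁Bar M 1) ↥(hesE Ω M) =
      Module.finrank ↥(keyFq ↥K₁ M) ↥(hesE ↥K₁ M) := by
  letI : Algebra ↥(keyFq ↥K₁ M) ↥(hesE ↥K₁ M) := (fullToHesE ↥K₁ M).toRingHom.toAlgebra
  letI : Algebra ↥(F₁Bar M 1) ↥(hesE Ω M) :=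
    (fullToHesE Ω M).toRingHom.toAlgebra
  haveI : IsScalarTower Ω ↥(F₁Bar M 1) ↥(hesE Ω M) :=
    isScalarTower_along (fullToHesE Ω M)
  haveI : FiniteDimensional ↥(keyFq ↥K₁ M) ↥(hesE ↥K₁ M) := finite_fullToHesE ↥K₁ M
  haveI : FiniteDimensional ↥(F₁Bar M 1) ↥(hesE Ω M) := finite_fullToHesE Ω M
  haveI : Algebra.IsAlgebraic ↥(F₁Bar M 1) ↥(hesE Ω M) :=
    Algebra.IsAlgebraic.of_finite _ _
  exact BCDeg.finrank_eq_of_linearDisjoint (k := ↥K₁) (Ω' := Ω) (keyFqBC M K₁) (hesBC M K₁)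
    (bcdeg_hesBC_fullToHesE M K₁) (keyFqBC_algebraMap M K₁) (closure_range_keyFqBC M K₁)
    (closure_range_hesBC M K₁)
    (fun g hg => phi_coeffHom_eq_zero _ _ _ _ (Basis.ofVectorSpace ↥K₁ Ω).linearIndependent g hg)

end Inst

end Fermat.Agent.W1
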