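/-
W1 — helper7 — PORT of `JA/SEP_helper6_BaseGen` to the field `F₁ M 1` of `X₁(M)` (against `[W1Api M]`);
only the field-specific declarations are restated, the generic ones are imported from the original.
Original header:
-/
/-
J-A — helper6 — package SEP (R2), cusp chart, part 2: **(SEP-F) in the host tower for an arbitrary
chart coordinate** `z` (generalisation of `chartSep_of_geoHyps`, which is the case `z = j`,
`τ = t`).  The GEO coordinate `τ` is any element of `K₁(t)` with helper8's `GeoHyps`; the chart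
coordinate is any Gauss-integral series `zG` whose function is `P(τ)/Q(τ)` in the host.
-/
import Mathlib
import Fermat.Agent.W1.GEOBASE_helper7_Compat
import Fermat.Agent.JA.GEOBASE_helper8_Compat
import Fermat.Agent.W1.SEP_helper7_Base
import Fermat.Agent.JA.SEP_helper6_Base
import Fermat.Agent.W1.RED_helper7_Defs
import Fermat.Agent.JA.RED_helper7_Defs
import Fermat.Agent.JA.SEP_helper6_Geo
import Fermat.Agent.JA.SEP_helper6_Normal
import Fermat.Agent.JA.SEP_helper6_Bezout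
import Fermat.Agent.JA.CONST_helper6
import Fermat.Agent.W1.API_helper7_Lemmas
import Fermat.Agent.JA.SEP_helper6_BaseGen

set_option autoImplicit false
set_option linter.unusedSectionVars false
set_option linter.style.haveILetI false
set_option synthInstance.maxHeartbeats 200000

open HahnSeries IntermediateField AlgebraicCurve ModularCurve Fermat.Agent.Igusa Polynomial

open Fermat.Agent.JA

namespace Fermat.Agent.W1

open scoped Fermat.Agent.JA.Host Fermat.Agent.W1.Host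

section Generic

variable {K₁ : Type} [Field K₁] [Algebra ℚ K₁] (R : ValuationSubring K₁)
  [IsDiscreteValuationRing ↥R] (M w : ℕ) [NeZero M] [W1Api M] [NeZero w]

set_option maxHeartbeats 1600000 in
theorem chartSep_of_geoHyps_gen {ϖ : ↥R} (hϖ : Irreducible ϖ)
    (hFq : keyFq K₁ M ≤ gaussField ↥R K₁)
    (hmemW : ∀ W : ValuationSubring ↥(keyFq K₁ M),
      (∀ c : ↥(keyFq K₁ M), (c : LaurentSeries K₁) ∈ K₁⟮emb ↥R K₁ (jqModC ↥R)⟯ →
        (c ∈ W ↔ (c : LaurentSeries K₁) ∈ gaussInt ↥R K₁)) →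
      ∀ z : ↥(keyFq K₁ M), (z : LaurentSeries K₁) ∈ gaussInt ↥R K₁ → z ∈ W)
    {k : Type*} [Field k] (σ : IsLocalRing.ResidueField ↥R →+* k) (hσ : Function.Surjective σ)
    (hRES : ∀ (z : LaurentSeries K₁) (_ : z ∈ keyFq K₁ M) (hzi : z ∈ gaussInt ↥R K₁),
      coeffMap σ (gaussRed ↥R K₁ ⟨z, hzi⟩) ∈ F₁C k M 1)
    (hLIFT : ∀ a ∈ F₁C k M 1, ∃ (z : LaurentSeries K₁)
      (hzi : z ∈ gaussInt ↥R K₁), z ∈ keyFq K₁ M ∧ coeffMap σ (gaussRed ↥R K₁ ⟨z, hzi⟩) = a)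
    (t : LaurentSeries K₁)
    [Fact (K₁⟮jqNModC K₁ w⟯ ≤ keyFw K₁ M w)] [Fact (K₁⟮jqNModC K₁ w⟯ ≤ K₁⟮t⟯)]
    [Module.Finite ↥K₁⟮jqNModC K₁ w⟯ ↥(keyFw K₁ M w)]
    (S : Finset ↥R)
    (τ : ↥K₁⟮t⟯)
    (hgeo : GeoHyps K₁ (K := ↥K₁⟮t⟯) ϖ τ ↥(Host.Etu (keyFw K₁ M w) t 1) M S)
    (hline : ∀ 𝒢t : ValuationSubring ↥K₁⟮t⟯, IsGaussAt ↥R ϖ τ 𝒢t →
      IsGaussAt ↥R ϖ (AdjoinSimple.gen K₁ (jqNModC K₁ w))
        (𝒢t.comap (algebraMap ↥K₁⟮jqNModC K₁ w⟯ ↥K₁⟮t⟯)) ∧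
      ∀ x ∈ 𝒢t, IsIntegral ↥(𝒢t.comap (algebraMap ↥K₁⟮jqNModC K₁ w⟯ ↥K₁⟮t⟯)) x)
    (P Q U V' : (↥R)[X]) (hbez : U * P + V' * Q = 1) (hlc : IsUnit P.leadingCoeff)
    (hdegPQ : Q.natDegree < P.natDegree) (hQπ : ¬ C ϖ ∣ Q)
    (htint : IsIntegral ↥K₁⟮jqNModC K₁ w⟯ t)
    (h₁ : GaussRes R M (σ.comp (IsLocalRing.residue ↥R)))
    (zG : ↥(gaussRing R M))
    (hz : qExpand K₁ w (coeffMap R.subtype (zG : LaurentSeries ↥R)) *
        aeval (τ : LaurentSeries K₁) (Q.map (algebraMap ↥R K₁)) =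
      aeval (τ : LaurentSeries K₁) (P.map (algebraMap ↥R K₁)))
    (htrz : Transcendental k (gaussρF h₁ zG))
    [FiniteDimensional k⟮gaussρF h₁ zG⟯ ↥(F₁C k M 1)]
    [Algebra.IsSeparable k⟮gaussρF h₁ zG⟯ ↥(F₁C k M 1)] :
    ChartSep h₁ (gaussι R M zG) (fun Q => gaussρF h₁ zG ∈ Q.toValuationSubring) := by
  classical
  intro T hT Q₀ hQ₀
  haveI : CharZero ↥R := charZero_valuationSubring_of_algebraRat R
  have htr : Transcendental K₁ (τ : LaurentSeries K₁) := by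
    have := hgeo.transcendental
    exact (transcendental_algebraMap_iff (algebraMap ↥K₁⟮t⟯ (LaurentSeries K₁)).injective).mpr this
  have htrj : Transcendental K₁ (AdjoinSimple.gen K₁ (jqNModC K₁ w)) :=
    Host.transcendental_gen (transcendental_jqNModC w)
  have hKj : IntermediateField.adjoin K₁ {AdjoinSimple.gen K₁ (jqNModC K₁ w)} = ⊤ :=
    Host.adjoin_gen_eq_top _
  -- notation
  set Fq : IntermediateField K₁ (LaurentSeries K₁) := keyFq K₁ M with hFqdef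
  set Fw : IntermediateField K₁ (LaurentSeries K₁) := keyFw K₁ M w with hFwdef
  set e : ↥Fq ≃ₐ[K₁] ↥Fw := hostImageEquiv K₁ w Fq with he
  haveI hfinE : FiniteDimensional ↥K₁⟮t⟯ ↥(Host.Etu Fw t 1) := hgeo.finite
  -- Gauss valuation subrings
  obtain ⟨𝒢t, h𝒢t⟩ := exists_isGaussAt ϖ hϖ τ hgeo.transcendental hgeo.adjoin_eq_top
  obtain ⟨h𝒢j, hintj⟩ := hline 𝒢t h𝒢t
  set 𝒢j : ValuationSubring ↥K₁⟮jqNModC K₁ w⟯ :=
    𝒢t.comap (algebraMap ↥K₁⟮jqNModC K₁ w⟯ ↥K₁⟮t⟯) with h𝒢jdef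
  haveI : IsDiscreteValuationRing ↥𝒢j :=
    isDiscreteValuationRing_of_isGaussAt ϖ hϖ _ htrj hKj h𝒢j
  haveI : IsDiscreteValuationRing ↥𝒢t :=
    isDiscreteValuationRing_of_isGaussAt ϖ hϖ _ hgeo.transcendental hgeo.adjoin_eq_top h𝒢t
  -- the algebra structure `F_q → E` through `F_q ≃ F_w ⊆ E`
  letI algFE : Algebra ↥Fq ↥(Host.Etu Fw t 1) :=
    ((algebraMap ↥Fw ↥(Host.Etu Fw t 1)).comp (e : ↥Fq →+* ↥Fw)).toAlgebra
  have halgFE : ∀ x : ↥Fq, algebraMap ↥Fq ↥(Host.Etu Fw t 1) x =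
      algebraMap ↥Fw ↥(Host.Etu Fw t 1) (e x) := fun x => rfl
  haveI hfinFw : Module.Finite ↥Fw ↥(Host.Etu Fw t 1) := by
    refine Host.finite_of_eq_sup_simple (A := Fw) (B := Host.Etu Fw t 1) t ?_ htint.tower_top
    show K₁⟮t⟯ ⊔ (Fw ⊔ K₁⟮(1 : LaurentSeries K₁)⟯) = Fw ⊔ K₁⟮t⟯
    have h1 : K₁⟮(1 : LaurentSeries K₁)⟯ ≤ Fw := by
      rw [adjoin_simple_le_iff]
      exact one_mem _
    rw [sup_eq_left.mpr h1, sup_comm]
  haveI hfinFq : FiniteDimensional ↥Fq ↥(Host.Etu Fw t 1) := by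
    refine Module.Finite.of_equiv_equiv (A₁ := ↥Fw) (B₁ := ↥(Host.Etu Fw t 1))
      (e.symm : ↥Fw ≃+* ↥Fq) (RingEquiv.refl ↥(Host.Etu Fw t 1)) ?_
    refine RingHom.ext fun x => ?_
    show algebraMap ↥Fw ↥(Host.Etu Fw t 1) (e (e.symm x)) = algebraMap ↥Fw ↥(Host.Etu Fw t 1) x
    rw [e.apply_symm_apply]
  -- the valuation ring `V`, the constants, `j`
  set V : ValuationSubring ↥Fq := gaussValSub ↥R K₁ Fq hFq with hVdef
  let φ : ↥R →+* ↥Fq := (algebraMap K₁ ↥Fq).comp R.subtype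
  have hjmem : gaussι R M zG ∈ V := by
    show emb ↥R K₁ (zG : LaurentSeries ↥R) ∈ gaussInt ↥R K₁
    exact emb_mem_gaussInt ↥R K₁ _
  set jV : ↥V := ⟨gaussι R M zG, hjmem⟩ with hjVdef
  -- the residue map
  let resV : ↥V →+* ↥(F₁C k M 1) :=
    ((coeffMap σ).comp (gaussValRed ↥R K₁ Fq hFq)).codRestrict
      (F₁C k M 1).toSubring (fun v => hRES _ (v : ↥Fq).2 v.2)
  have hresV_coe : ∀ v : ↥V, ((resV v : ↥(F₁C k M 1)) : LaurentSeries k) =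
      coeffMap σ (gaussRed ↥R K₁ ⟨((v : ↥Fq) : LaurentSeries K₁), v.2⟩) := fun v => rfl
  have hφ : ∀ r : ↥R, algebraMap ↥Fq ↥(Host.Etu Fw t 1) (φ r) =
      algebraMap ↥K₁⟮t⟯ ↥(Host.Etu Fw t 1) (algebraMap ↥R ↥K₁⟮t⟯ r) := by
    intro r
    apply Subtype.ext
    show ((e (algebraMap K₁ ↥Fq (r : K₁)) : ↥Fw) : LaurentSeries K₁) = _
    rw [e.commutes, IsScalarTower.algebraMap_apply ↥R K₁ ↥K₁⟮t⟯,
      ← IsScalarTower.algebraMap_apply K₁ ↥K₁⟮t⟯ ↥(Host.Etu Fw t 1)]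
    rfl
  have hjeq : resV jV = gaussρF h₁ zG := by
    apply Subtype.ext
    rw [hresV_coe, coe_gaussρF]
    have h1 : (⟨((jV : ↥Fq) : LaurentSeries K₁), jV.2⟩ : gaussInt ↥R K₁) =
        ⟨emb ↥R K₁ (zG : LaurentSeries ↥R), emb_mem_gaussInt ↥R K₁ _⟩ := Subtype.ext rfl
    rw [h1, gaussRed_emb]
    show coeffMap σ (coeffMap (IsLocalRing.residue ↥R) (zG : LaurentSeries ↥R)) = _
    rw [coeffMap_coeffMap]
  have hresR : Function.Surjective (σ.comp (IsLocalRing.residue ↥R)) :=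
    hσ.comp IsLocalRing.residue_surjective
  have hresV : Function.Surjective resV := by
    intro a
    obtain ⟨z, hzi, hzF, hza⟩ := hLIFT (a : LaurentSeries k) a.2
    exact ⟨⟨⟨z, hzF⟩, hzi⟩, Subtype.ext hza⟩
  have hresRV : ∀ (r : ↥R) (v : ↥V), ((v : ↥V) : ↥Fq) = φ r →
      resV v = algebraMap k ↥(F₁C k M 1)
        ((σ.comp (IsLocalRing.residue ↥R)) r) := by
    intro r v hv
    apply Subtype.ext
    rw [hresV_coe]
    have h1 : (⟨((v : ↥Fq) : LaurentSeries K₁), v.2⟩ : gaussInt ↥R K₁) =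
        ⟨emb ↥R K₁ (HahnSeries.C r), emb_mem_gaussInt ↥R K₁ _⟩ := by
      apply Subtype.ext
      show ((v : ↥Fq) : LaurentSeries K₁) = emb ↥R K₁ (HahnSeries.C r)
      rw [hv, emb_C]
      show algebraMap K₁ (LaurentSeries K₁) (r : K₁) = _
      rw [algebraMap_laurentSeries_eq_single]
      rfl
    rw [h1, gaussRed_emb, red_C, coeffMapV_C]
    show _ = algebraMap k (LaurentSeries k) (σ (IsLocalRing.residue ↥R r))
    rw [algebraMap_laurentSeries_eq_single]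
    rfl
  -- the twisted algebra structure `K₁(j_w) → F_q` and the identification of `𝒢j`
  let ρ : ↥K₁⟮jqNModC K₁ w⟯ →+* ↥Fq :=
    (e.symm : ↥Fw →+* ↥Fq).comp (algebraMap ↥K₁⟮jqNModC K₁ w⟯ ↥Fw)
  have hρE : ∀ s : ↥K₁⟮jqNModC K₁ w⟯, algebraMap ↥Fq ↥(Host.Etu Fw t 1) (ρ s) =
      algebraMap ↥K₁⟮jqNModC K₁ w⟯ ↥(Host.Etu Fw t 1) s := by
    intro s
    show algebraMap ↥Fw ↥(Host.Etu Fw t 1) (e (e.symm (algebraMap ↥K₁⟮jqNModC K₁ w⟯ ↥Fw s))) = _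
    rw [e.apply_symm_apply]
    rfl
  have h𝒢 : 𝒢j = V.comap ρ := by
    letI algρ : Algebra ↥K₁⟮jqNModC K₁ w⟯ ↥Fq := ρ.toAlgebra
    haveI towρ : IsScalarTower K₁ ↥K₁⟮jqNModC K₁ w⟯ ↥Fq :=
      IsScalarTower.of_algebraMap_eq fun c => by
        show algebraMap K₁ ↥Fq c =
          e.symm (algebraMap ↥K₁⟮jqNModC K₁ w⟯ ↥Fw (algebraMap K₁ ↥K₁⟮jqNModC K₁ w⟯ c))
        rw [← IsScalarTower.algebraMap_apply K₁ ↥K₁⟮jqNModC K₁ w⟯ ↥Fw, e.symm.commutes]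
    have hj₀ : ((algebraMap ↥K₁⟮jqNModC K₁ w⟯ ↥Fq (AdjoinSimple.gen K₁ (jqNModC K₁ w)) : ↥Fq) :
        LaurentSeries K₁) = emb ↥R K₁ (jqModC ↥R) := by
      have h1 : e ⟨jqModC K₁, jqModC_mem_keyFq _ M⟩ =
          algebraMap ↥K₁⟮jqNModC K₁ w⟯ ↥Fw (AdjoinSimple.gen K₁ (jqNModC K₁ w)) :=
        Subtype.ext rfl
      show ((e.symm (algebraMap ↥K₁⟮jqNModC K₁ w⟯ ↥Fw (AdjoinSimple.gen K₁ (jqNModC K₁ w))) :
        ↥Fq) : LaurentSeries K₁) = _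
      rw [← h1, e.symm_apply_apply]
      show jqModC K₁ = coeffMap (algebraMap ↥R K₁) (jqModC ↥R)
      rw [coeffMap_jqModC]
    have hst : Transcendental (IsLocalRing.ResidueField ↥R) (red ↥R (jqModC ↥R)) := by
      have h1 : red ↥R (jqModC ↥R) = jqModC (IsLocalRing.ResidueField ↥R) := coeffMap_jqModC _
      rw [h1]
      exact transcendental_jqModC _
    exact isGaussAt_unique ϖ hϖ _ htrj hKj h𝒢j (isGaussAt_comap_gaussValSub Fq hFq (jqModC ↥R)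
      (AdjoinSimple.gen K₁ (jqNModC K₁ w)) hj₀ hϖ hst)
  -- the inclusion `𝒢j → 𝒢t`
  let incl : ↥𝒢j →+* ↥𝒢t :=
    { toFun := fun s => ⟨algebraMap ↥K₁⟮jqNModC K₁ w⟯ ↥K₁⟮t⟯ (s : ↥K₁⟮jqNModC K₁ w⟯), s.2⟩
      map_one' := Subtype.ext (map_one _)
      map_mul' := fun a b => Subtype.ext (map_mul _ _ _)
      map_zero' := Subtype.ext (map_zero _)
      map_add' := fun a b => Subtype.ext (map_add _ _ _) }
  have hVto : ∀ x : ↥Fq, x ∈ V →
      IsIntegral ↥𝒢t (algebraMap ↥Fq ↥(Host.Etu Fw t 1) x) := by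
    intro x hx
    have hxw : IsIntegral ↥𝒢j (e x) :=
      isIntegral_hostImageEquiv_of_mem_gaussInt R M w hϖ hFq hmemW 𝒢j h𝒢j x hx
    refine IsIntegral.map_of_comp_eq incl (algebraMap ↥Fw ↥(Host.Etu Fw t 1)) ?_ hxw
    refine RingHom.ext fun s => ?_
    rfl
  haveI hloc : IsLocalRing ↥(integralClosure ↥𝒢t ↥(Host.Etu Fw t 1)) := hgeo.isLocalRing 𝒢t h𝒢t
  haveI hK0 : CharZero ↥K₁⟮t⟯ := algebraRat.charZero _
  have hV : ∀ x : ↥Fq, x ∈ V ↔ IsIntegral ↥𝒢t (algebraMap ↥Fq ↥(Host.Etu Fw t 1) x) := by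
    intro x
    refine ⟨hVto x, fun hx => ?_⟩
    set W' : ValuationSubring ↥Fq :=
      (closureValSub (E := ↥(Host.Etu Fw t 1)) 𝒢t).comap (algebraMap ↥Fq ↥(Host.Etu Fw t 1))
      with hW'
    have hle : V ≤ W' := fun y hy => hVto y hy
    rcases eq_or_eq_top_of_le_of_isDiscreteValuationRing V W' hle with h1 | h1
    · rw [← h1]; exact hx
    · exfalso
      have h2 : (φ ϖ)⁻¹ ∈ W' := by rw [h1]; trivial
      have h3 : IsIntegral ↥𝒢t (algebraMap ↥Fq ↥(Host.Etu Fw t 1) (φ ϖ)⁻¹) := h2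
      rw [map_inv₀, hφ, ← map_inv₀] at h3
      have h4 : IsIntegral ↥𝒢t ((algebraMap ↥R ↥K₁⟮t⟯ ϖ)⁻¹) :=
        (isIntegral_algebraMap_iff (algebraMap ↥K₁⟮t⟯ ↥(Host.Etu Fw t 1)).injective).mp h3
      obtain ⟨y, hy⟩ := IsIntegrallyClosed.isIntegral_iff.mp h4
      apply h𝒢t.2.1
      rw [← hy]
      exact y.2
  have hint : ∀ x : ↥(Host.Etu Fw t 1), IsIntegral ↥𝒢t x → IsIntegral ↥V x := by
    intro x hx
    have h1 : IsIntegral ↥𝒢j x := by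
      refine isIntegral_of_isIntegral_of_forall_isIntegral (S₁ := ↥𝒢t) (S₂ := ↥𝒢j) ?_ hx
      intro s
      have h2 : IsIntegral ↥𝒢j (s : ↥K₁⟮t⟯) := hintj s s.2
      refine IsIntegral.map_of_comp_eq (RingHom.id ↥𝒢j)
        (algebraMap ↥K₁⟮t⟯ ↥(Host.Etu Fw t 1)) ?_ h2
      refine RingHom.ext fun r => ?_
      rfl
    refine isIntegral_of_isIntegral_of_forall_exists (S₁ := ↥𝒢j) (S₂ := ↥V) ?_ h1
    intro s
    have hs : (s : ↥K₁⟮jqNModC K₁ w⟯) ∈ V.comap ρ := by rw [← h𝒢]; exact s.2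
    exact ⟨⟨ρ s, hs⟩, hρE s⟩
  have hcoe : ∀ f : (↥R)[X], ((aeval τ f : ↥K₁⟮t⟯) : LaurentSeries K₁) =
      aeval (τ : LaurentSeries K₁) (f.map (algebraMap ↥R K₁)) := by
    intro f
    rw [aeval_def, aeval_def, eval₂_map]
    have h1 := Polynomial.hom_eval₂ f (algebraMap ↥R ↥K₁⟮t⟯)
      ((K₁⟮t⟯).val : ↥K₁⟮t⟯ →+* LaurentSeries K₁) τ
    have h2 : ((K₁⟮t⟯).val : ↥K₁⟮t⟯ →+* LaurentSeries K₁).comp (algebraMap ↥R ↥K₁⟮t⟯) =
        (algebraMap K₁ (LaurentSeries K₁)).comp (algebraMap ↥R K₁) := by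
      refine RingHom.ext fun r => ?_
      show ((algebraMap ↥R ↥K₁⟮t⟯ r : ↥K₁⟮t⟯) : LaurentSeries K₁) =
        algebraMap K₁ (LaurentSeries K₁) (algebraMap ↥R K₁ r)
      rw [IsScalarTower.algebraMap_apply ↥R K₁ ↥K₁⟮t⟯]
      rfl
    rw [h2] at h1
    exact h1
  have hQ0 : aeval (τ : LaurentSeries K₁) (Q.map (algebraMap ↥R K₁)) ≠ 0 := by
    intro h0
    have h1 : Q.map (algebraMap ↥R K₁) = 0 := (transcendental_iff.mp htr) _ h0
    have h2 : Q = 0 := by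
      apply Polynomial.map_injective _ (IsFractionRing.injective ↥R K₁)
      rw [h1, Polynomial.map_zero]
    exact hQπ (h2 ▸ dvd_zero _)
  have hjV : algebraMap ↥Fq ↥(Host.Etu Fw t 1) ((jV : ↥V) : ↥Fq) =
      algebraMap ↥K₁⟮t⟯ ↥(Host.Etu Fw t 1) (aeval τ P / aeval τ Q) := by
    apply Subtype.ext
    show qExpand K₁ w (coeffMap R.subtype (zG : LaurentSeries ↥R)) =
      ((aeval τ P / aeval τ Q : ↥K₁⟮t⟯) : LaurentSeries K₁)
    rw [IntermediateField.coe_div, hcoe, hcoe, eq_div_iff hQ0]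
    exact hz
  haveI : FiniteDimensional k⟮resV jV⟯ ↥(F₁C k M 1) := by
    rw [hjeq]; infer_instance
  haveI : Algebra.IsSeparable k⟮resV jV⟯ ↥(F₁C k M 1) := by
    rw [hjeq]; infer_instance
  have htrk : Transcendental k (resV jV) := by
    rw [hjeq]; exact htrz
  have hT' : ∀ Q ∈ T, resV jV ∈ Q.toValuationSubring := by
    intro Q hQ
    rw [hjeq]
    exact hT Q hQ
  obtain ⟨v, hvint, hv0, hvne⟩ := geo_exists_isIntegral_hasValueAt_zero (K₁ := K₁) ϖ hϖ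
    τ hgeo.transcendental hgeo.adjoin_eq_top M hgeo.isUnit_n
    hgeo.exists_root S hgeo.unit_sub hgeo.zero_or_unit hgeo.unr hgeo.tame hgeo.gauss hgeo.const
    𝒢t h𝒢t P Q U V' hbez hlc hdegPQ hQπ φ hφ V hV hint jV hjV
    (σ.comp (IsLocalRing.residue ↥R)) hresR resV hresV hresRV htrk T hT' Q₀ hQ₀
  -- `v` is (the image of) a series with coefficients in `R`
  set A₀ : Subring ↥Fq := Subring.closure (Set.range φ ∪ {((jV : ↥V) : ↥Fq)}) with hA₀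
  have hA₀emb : ∀ a : ↥A₀, ∃ s : LaurentSeries ↥R, emb ↥R K₁ s = ((a : ↥Fq) : LaurentSeries K₁) := by
    have hle : A₀ ≤ ((emb ↥R K₁).range).comap (Fq.val : ↥Fq →+* LaurentSeries K₁) := by
      rw [hA₀, Subring.closure_le]
      rintro x (⟨r, rfl⟩ | hx)
      · refine ⟨HahnSeries.C r, ?_⟩
        rw [emb_C]
        show _ = algebraMap K₁ (LaurentSeries K₁) (r : K₁)
        rw [algebraMap_laurentSeries_eq_single]
        rfl
      · rw [Set.mem_singleton_iff] at hx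
        rw [hx]
        exact ⟨(zG : LaurentSeries ↥R), rfl⟩
    intro a
    exact hle a.2
  have hvser : ∃ y : LaurentSeries ↥R, emb ↥R K₁ y = (((v : ↥V) : ↥Fq) : LaurentSeries K₁) := by
    apply exists_emb_eq_of_isIntegralElem (hFq ((v : ↥V) : ↥Fq).2)
    letI algemb : Algebra (LaurentSeries ↥R) (LaurentSeries K₁) := (emb ↥R K₁).toAlgebra
    have h1 : IsIntegral ↥A₀ (((v : ↥V) : ↥Fq) : LaurentSeries K₁) := by
      refine IsIntegral.map_of_comp_eq (RingHom.id ↥A₀) (Fq.val : ↥Fq →+* LaurentSeries K₁) ?_ hvint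
      refine RingHom.ext fun r => ?_
      rfl
    have h2 : IsIntegral (LaurentSeries ↥R) (((v : ↥V) : ↥Fq) : LaurentSeries K₁) := by
      refine isIntegral_of_isIntegral_of_forall_exists (S₁ := ↥A₀) (S₂ := LaurentSeries ↥R) ?_ h1
      intro a
      obtain ⟨s', hs'⟩ := hA₀emb a
      exact ⟨s', hs'⟩
    exact h2
  obtain ⟨y, hy⟩ := hvser
  have hyF : y ∈ gaussRing R M := by
    show coeffMap R.subtype y ∈ laurentBaseChange K₁ (F₁ M 1)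
    have h1 : coeffMap R.subtype y = emb ↥R K₁ y := rfl
    rw [h1, hy]
    exact ((v : ↥V) : ↥Fq).2
  have hιy : gaussι R M ⟨y, hyF⟩ = ((v : ↥V) : ↥Fq) := Subtype.ext hy
  have hychart : y ∈ chartRing R M (gaussι R M zG) := by
    refine ⟨hyF, ?_⟩
    rw [hιy]
    exact hvint
  have hρy : chartρF h₁ (gaussι R M zG) ⟨y, hychart⟩ = resV v := by
    apply Subtype.ext
    rw [coe_chartρF, hresV_coe]
    have h1 : (⟨(((v : ↥V) : ↥Fq) : LaurentSeries K₁), v.2⟩ : gaussInt ↥R K₁) =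
        ⟨emb ↥R K₁ y, emb_mem_gaussInt ↥R K₁ _⟩ := Subtype.ext hy.symm
    rw [h1, gaussRed_emb]
    show _ = coeffMap σ (coeffMap (IsLocalRing.residue ↥R) y)
    rw [coeffMap_coeffMap]
  refine ⟨⟨y, hychart⟩, ?_, ?_⟩
  · rw [hρy]; exact hv0
  · intro Q hQ hne
    rw [hρy]
    exact hvne Q hQ hne

end Generic

end Fermat.Agent.W1
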