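/-
W1 — helper7 — PORT of `JA/O1_helper6_BasePkg` to the field `F₁ M 1` of `X₁(M)` (against `[W1Api M]`);
only the field-specific declarations are restated, the generic ones are imported from the original.
Original header:
-/
/-
J-A third wave — helper6 — (P1) BASE-PKG for helper1's (O1), part 1: the internals of
`chartSep_of_geoHyps_gen` as TOP-LEVEL definitions and lemmas, with the same generic binders:
`V := gaussValSub` (`baseV`), its residue map `resV : V → F̃` (`baseResV`: formula, surjectivity,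
values on constants and on Gauss-integral series), the constants `φ : R → F_q` (`baseφ`), the
algebra `F_q → E = Etu` given by helper7's `fullToEtu` (`baseAlgFE`), `hφ`, `hV`
(`x ∈ V ↔ IsIntegral 𝒢t (algebraMap F_q E x)`), `hint`, `h𝒢` (`𝒢j = V.comap ρ`), finiteness.
-/
import Mathlib
import Fermat.Agent.W1.SEP_helper7_BaseGen
import Fermat.Agent.JA.SEP_helper6_BaseGen
import Fermat.Agent.W1.UP_helper7_Emb
import Fermat.Agent.JA.UP_helper7_Emb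
import Fermat.Agent.W1.API_helper7_Lemmas
import Fermat.Agent.JA.O1_helper6_BasePkg

set_option autoImplicit false
set_option linter.unusedSectionVars false
set_option linter.style.haveILetI false
set_option synthInstance.maxHeartbeats 200000

open HahnSeries IntermediateField AlgebraicCurve ModularCurve Fermat.Agent.Igusa Polynomial

open Fermat.Agent.JA

namespace Fermat.Agent.W1

open scoped Fermat.Agent.JA.Host Fermat.Agent.W1.Host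

section BasePkg

variable {K₁ : Type} [Field K₁] [Algebra ℚ K₁] (R : ValuationSubring K₁)
  [IsDiscreteValuationRing ↥R] (M w : ℕ) [NeZero M] [W1Api M] [NeZero w]
  (hFq : keyFq K₁ M ≤ gaussField ↥R K₁)
  {k : Type*} [Field k] (σ : IsLocalRing.ResidueField ↥R →+* k)
  (hRES : ∀ (z : LaurentSeries K₁) (_ : z ∈ keyFq K₁ M) (hzi : z ∈ gaussInt ↥R K₁),
    coeffMap σ (gaussRed ↥R K₁ ⟨z, hzi⟩) ∈ F₁C k M 1)

/-- the Gauss valuation ring `V ⊆ F_q` over `R`. -/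
noncomputable def baseV : ValuationSubring ↥(keyFq K₁ M) :=
  gaussValSub ↥R K₁ (keyFq K₁ M) hFq

theorem mem_baseV_iff (x : ↥(keyFq K₁ M)) :
    x ∈ baseV R M hFq ↔ (x : LaurentSeries K₁) ∈ gaussInt ↥R K₁ := Iff.rfl

instance isDiscreteValuationRing_baseV : IsDiscreteValuationRing ↥(baseV R M hFq) := by
  unfold baseV; infer_instance

/-- the residue map `V → F̃`. -/
noncomputable def baseResV : ↥(baseV R M hFq) →+* ↥(F₁C k M 1) :=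
  ((coeffMap σ).comp (gaussValRed ↥R K₁ (keyFq K₁ M) hFq)).codRestrict
    (F₁C k M 1).toSubring (fun v => hRES _ (v : ↥(keyFq K₁ M)).2 v.2)

theorem coe_baseResV (v : ↥(baseV R M hFq)) :
    ((baseResV R M hFq σ hRES v : ↥(F₁C k M 1)) : LaurentSeries k) =
      coeffMap σ (gaussRed ↥R K₁ ⟨((v : ↥(keyFq K₁ M)) : LaurentSeries K₁), v.2⟩) := rfl

/-- Gauss-integral series lie in `V`. -/
theorem gaussι_mem_baseV (zG : ↥(gaussRing R M)) : gaussι R M zG ∈ baseV R M hFq := by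
  show emb ↥R K₁ (zG : LaurentSeries ↥R) ∈ gaussInt ↥R K₁
  exact emb_mem_gaussInt ↥R K₁ _

/-- the residue of a Gauss-integral series is helper7's `gaussρF`. -/
theorem baseResV_gaussι (h₁ : GaussRes R M (σ.comp (IsLocalRing.residue ↥R)))
    (zG : ↥(gaussRing R M)) :
    baseResV R M hFq σ hRES ⟨gaussι R M zG, gaussι_mem_baseV R M hFq zG⟩ = gaussρF h₁ zG := by
  apply Subtype.ext
  rw [coe_baseResV, coe_gaussρF]
  have h1 : (⟨((gaussι R M zG : ↥(keyFq K₁ M)) : LaurentSeries K₁),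
      gaussι_mem_baseV R M hFq zG⟩ : gaussInt ↥R K₁) =
      ⟨emb ↥R K₁ (zG : LaurentSeries ↥R), emb_mem_gaussInt ↥R K₁ _⟩ := Subtype.ext rfl
  rw [h1, gaussRed_emb]
  show coeffMap σ (coeffMap (IsLocalRing.residue ↥R) (zG : LaurentSeries ↥R)) = _
  rw [coeffMap_coeffMap]

/-- surjectivity of `resV` from (LIFT). -/
theorem baseResV_surjective
    (hLIFT : ∀ a ∈ F₁C k M 1, ∃ (z : LaurentSeries K₁)
      (hzi : z ∈ gaussInt ↥R K₁), z ∈ keyFq K₁ M ∧ coeffMap σ (gaussRed ↥R K₁ ⟨z, hzi⟩) = a) :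
    Function.Surjective (baseResV R M hFq σ hRES) := by
  intro a
  obtain ⟨z, hzi, hzF, hza⟩ := hLIFT (a : LaurentSeries k) a.2
  exact ⟨⟨⟨z, hzF⟩, hzi⟩, Subtype.ext hza⟩

/-- the constants `R → F_q`. -/
noncomputable def baseφ : ↥R →+* ↥(keyFq K₁ M) :=
  (algebraMap K₁ ↥(keyFq K₁ M)).comp R.subtype

theorem baseφ_apply (r : ↥R) : baseφ R M r = algebraMap K₁ ↥(keyFq K₁ M) (r : K₁) := rfl

/-- `resV` on constants. -/
theorem baseResV_const (r : ↥R) (v : ↥(baseV R M hFq))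
    (hv : ((v : ↥(baseV R M hFq)) : ↥(keyFq K₁ M)) = baseφ R M r) :
    baseResV R M hFq σ hRES v = algebraMap k ↥(F₁C k M 1)
      ((σ.comp (IsLocalRing.residue ↥R)) r) := by
  apply Subtype.ext
  rw [coe_baseResV]
  have h1 : (⟨((v : ↥(keyFq K₁ M)) : LaurentSeries K₁), v.2⟩ : gaussInt ↥R K₁) =
      ⟨emb ↥R K₁ (HahnSeries.C r), emb_mem_gaussInt ↥R K₁ _⟩ := by
    apply Subtype.ext
    show ((v : ↥(keyFq K₁ M)) : LaurentSeries K₁) = emb ↥R K₁ (HahnSeries.C r)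
    rw [hv, emb_C]
    show algebraMap K₁ (LaurentSeries K₁) (r : K₁) = _
    rw [algebraMap_laurentSeries_eq_single]
    rfl
  rw [h1, gaussRed_emb, red_C, coeffMapV_C]
  show _ = algebraMap k (LaurentSeries k) (σ (IsLocalRing.residue ↥R r))
  rw [algebraMap_laurentSeries_eq_single]
  rfl

section Tower

variable (t : LaurentSeries K₁)
  [Fact (K₁⟮jqNModC K₁ w⟯ ≤ keyFw K₁ M w)] [Fact (K₁⟮jqNModC K₁ w⟯ ≤ K₁⟮t⟯)]

/-- the algebra `F_q → E = Etu` of helper7's `fullToEtu` (use with `letI`). -/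
@[reducible] noncomputable def baseAlgFE :
    Algebra ↥(keyFq K₁ M) ↥(Host.Etu (keyFw K₁ M w) t 1) :=
  (fullToEtu K₁ M w t).toRingHom.toAlgebra

theorem baseAlgFE_algebraMap (x : ↥(keyFq K₁ M)) :
    letI := baseAlgFE M w t
    algebraMap ↥(keyFq K₁ M) ↥(Host.Etu (keyFw K₁ M w) t 1) x =
      algebraMap ↥(keyFw K₁ M w) ↥(Host.Etu (keyFw K₁ M w) t 1)
        (hostImageEquiv K₁ w (keyFq K₁ M) x) := rfl

theorem coe_baseAlgFE_algebraMap (x : ↥(keyFq K₁ M)) :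
    letI := baseAlgFE M w t
    ((algebraMap ↥(keyFq K₁ M) ↥(Host.Etu (keyFw K₁ M w) t 1) x :
      ↥(Host.Etu (keyFw K₁ M w) t 1)) : LaurentSeries K₁) = qExpand K₁ w (x : LaurentSeries K₁) :=
  rfl

theorem baseAlgFE_isScalarTower :
    letI := baseAlgFE M w t
    IsScalarTower K₁ ↥(keyFq K₁ M) ↥(Host.Etu (keyFw K₁ M w) t 1) := by
  letI := baseAlgFE M w t
  refine IsScalarTower.of_algebraMap_eq fun c => ?_
  exact ((fullToEtu K₁ M w t).commutes c).symm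

/-- `(hφ)`: the constants of `R` in `E` through `F_q` and through `K₁(t)`. -/
theorem baseAlgFE_baseφ (r : ↥R) :
    letI := baseAlgFE M w t
    algebraMap ↥(keyFq K₁ M) ↥(Host.Etu (keyFw K₁ M w) t 1) (baseφ R M r) =
      algebraMap ↥K₁⟮t⟯ ↥(Host.Etu (keyFw K₁ M w) t 1) (algebraMap ↥R ↥K₁⟮t⟯ r) := by
  letI := baseAlgFE M w t
  apply Subtype.ext
  show ((hostImageEquiv K₁ w (keyFq K₁ M) (algebraMap K₁ ↥(keyFq K₁ M) (r : K₁)) :
    ↥(keyFw K₁ M w)) : LaurentSeries K₁) = _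
  rw [(hostImageEquiv K₁ w (keyFq K₁ M)).commutes, IsScalarTower.algebraMap_apply ↥R K₁ ↥K₁⟮t⟯,
    ← IsScalarTower.algebraMap_apply K₁ ↥K₁⟮t⟯ ↥(Host.Etu (keyFw K₁ M w) t 1)]
  rfl

/-- the twisted structure map `K₁(j_w) → F_q`, `j(x ^ w) ↦ j(q)`. -/
noncomputable def baseρ : ↥K₁⟮jqNModC K₁ w⟯ →+* ↥(keyFq K₁ M) :=
  ((hostImageEquiv K₁ w (keyFq K₁ M)).symm : ↥(keyFw K₁ M w) →+* ↥(keyFq K₁ M)).comp
    (algebraMap ↥K₁⟮jqNModC K₁ w⟯ ↥(keyFw K₁ M w))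

theorem baseAlgFE_baseρ (s : ↥K₁⟮jqNModC K₁ w⟯) :
    letI := baseAlgFE M w t
    algebraMap ↥(keyFq K₁ M) ↥(Host.Etu (keyFw K₁ M w) t 1) (baseρ M w s) =
      algebraMap ↥K₁⟮jqNModC K₁ w⟯ ↥(Host.Etu (keyFw K₁ M w) t 1) s := by
  letI := baseAlgFE M w t
  show algebraMap ↥(keyFw K₁ M w) ↥(Host.Etu (keyFw K₁ M w) t 1)
    (hostImageEquiv K₁ w (keyFq K₁ M) ((hostImageEquiv K₁ w (keyFq K₁ M)).symm
      (algebraMap ↥K₁⟮jqNModC K₁ w⟯ ↥(keyFw K₁ M w) s))) = _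
  rw [(hostImageEquiv K₁ w (keyFq K₁ M)).apply_symm_apply]
  rfl

theorem baseρ_algebraMap (c : K₁) :
    baseρ M w (algebraMap K₁ ↥K₁⟮jqNModC K₁ w⟯ c) = algebraMap K₁ ↥(keyFq K₁ M) c := by
  show (hostImageEquiv K₁ w (keyFq K₁ M)).symm
    (algebraMap ↥K₁⟮jqNModC K₁ w⟯ ↥(keyFw K₁ M w) (algebraMap K₁ ↥K₁⟮jqNModC K₁ w⟯ c)) = _
  rw [← IsScalarTower.algebraMap_apply K₁ ↥K₁⟮jqNModC K₁ w⟯ ↥(keyFw K₁ M w),
    (hostImageEquiv K₁ w (keyFq K₁ M)).symm.commutes]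

theorem coe_baseρ_gen :
    ((baseρ M w (AdjoinSimple.gen K₁ (jqNModC K₁ w)) : ↥(keyFq K₁ M)) : LaurentSeries K₁) =
      jqModC K₁ := by
  have h1 : hostImageEquiv K₁ w (keyFq K₁ M) ⟨jqModC K₁, jqModC_mem_keyFq _ M⟩ =
      algebraMap ↥K₁⟮jqNModC K₁ w⟯ ↥(keyFw K₁ M w) (AdjoinSimple.gen K₁ (jqNModC K₁ w)) :=
    Subtype.ext rfl
  show (((hostImageEquiv K₁ w (keyFq K₁ M)).symm (algebraMap ↥K₁⟮jqNModC K₁ w⟯ ↥(keyFw K₁ M w)
    (AdjoinSimple.gen K₁ (jqNModC K₁ w))) : ↥(keyFq K₁ M)) : LaurentSeries K₁) = _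
  rw [← h1, (hostImageEquiv K₁ w (keyFq K₁ M)).symm_apply_apply]

section Gauss

variable {ϖ : ↥R} (hϖ : Irreducible ϖ)
  (𝒢t : ValuationSubring ↥K₁⟮t⟯)
  (h𝒢j : IsGaussAt ↥R ϖ (AdjoinSimple.gen K₁ (jqNModC K₁ w))
    (𝒢t.comap (algebraMap ↥K₁⟮jqNModC K₁ w⟯ ↥K₁⟮t⟯)))

include hϖ h𝒢j in
/-- `(h𝒢)`: `𝒢j = 𝒢t ∩ K₁(j_w)` is the restriction of `V` along `ρ`. -/
theorem comap_eq_baseV_comap :
    𝒢t.comap (algebraMap ↥K₁⟮jqNModC K₁ w⟯ ↥K₁⟮t⟯) = (baseV R M hFq).comap (baseρ M w) := by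
  haveI : CharZero ↥R := charZero_valuationSubring_of_algebraRat R
  have htrj : Transcendental K₁ (AdjoinSimple.gen K₁ (jqNModC K₁ w)) :=
    Host.transcendental_gen (transcendental_jqNModC w)
  have hKj : IntermediateField.adjoin K₁ {AdjoinSimple.gen K₁ (jqNModC K₁ w)} = ⊤ :=
    Host.adjoin_gen_eq_top _
  letI algρ : Algebra ↥K₁⟮jqNModC K₁ w⟯ ↥(keyFq K₁ M) := (baseρ M w).toAlgebra
  haveI towρ : IsScalarTower K₁ ↥K₁⟮jqNModC K₁ w⟯ ↥(keyFq K₁ M) :=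
    IsScalarTower.of_algebraMap_eq fun c => (baseρ_algebraMap M w c).symm
  have hj₀ : ((algebraMap ↥K₁⟮jqNModC K₁ w⟯ ↥(keyFq K₁ M)
      (AdjoinSimple.gen K₁ (jqNModC K₁ w)) : ↥(keyFq K₁ M)) : LaurentSeries K₁) =
      emb ↥R K₁ (jqModC ↥R) := by
    show ((baseρ M w (AdjoinSimple.gen K₁ (jqNModC K₁ w)) : ↥(keyFq K₁ M)) :
      LaurentSeries K₁) = _
    rw [coe_baseρ_gen]
    show jqModC K₁ = coeffMap (algebraMap ↥R K₁) (jqModC ↥R)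
    rw [coeffMap_jqModC]
  have hst : Transcendental (IsLocalRing.ResidueField ↥R) (red ↥R (jqModC ↥R)) := by
    have h1 : red ↥R (jqModC ↥R) = jqModC (IsLocalRing.ResidueField ↥R) := coeffMap_jqModC _
    rw [h1]
    exact transcendental_jqModC _
  exact isGaussAt_unique ϖ hϖ _ htrj hKj h𝒢j (isGaussAt_comap_gaussValSub (keyFq K₁ M) hFq
    (jqModC ↥R) (AdjoinSimple.gen K₁ (jqNModC K₁ w)) hj₀ hϖ hst)

variable
  (hmemW : ∀ W : ValuationSubring ↥(keyFq K₁ M),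
    (∀ c : ↥(keyFq K₁ M), (c : LaurentSeries K₁) ∈ K₁⟮emb ↥R K₁ (jqModC ↥R)⟯ →
      (c ∈ W ↔ (c : LaurentSeries K₁) ∈ gaussInt ↥R K₁)) →
    ∀ z : ↥(keyFq K₁ M), (z : LaurentSeries K₁) ∈ gaussInt ↥R K₁ → z ∈ W)
  [Module.Finite ↥K₁⟮jqNModC K₁ w⟯ ↥(keyFw K₁ M w)]

set_option maxHeartbeats 1600000 in
include hϖ h𝒢j hmemW in
/-- elements of `V` are integral over `𝒢t` in `E`. -/
theorem isIntegral_of_mem_baseV (x : ↥(keyFq K₁ M)) (hx : x ∈ baseV R M hFq) :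
    letI := baseAlgFE M w t
    IsIntegral ↥𝒢t (algebraMap ↥(keyFq K₁ M) ↥(Host.Etu (keyFw K₁ M w) t 1) x) := by
  letI := baseAlgFE M w t
  haveI : CharZero ↥R := charZero_valuationSubring_of_algebraRat R
  have hxw : IsIntegral ↥(𝒢t.comap (algebraMap ↥K₁⟮jqNModC K₁ w⟯ ↥K₁⟮t⟯))
      (hostImageEquiv K₁ w (keyFq K₁ M) x) :=
    isIntegral_hostImageEquiv_of_mem_gaussInt R M w hϖ hFq hmemW _ h𝒢j x hx
  refine IsIntegral.map_of_comp_eq (baseIncl𝒢 w t 𝒢t)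
    (algebraMap ↥(keyFw K₁ M w) ↥(Host.Etu (keyFw K₁ M w) t 1)) ?_ hxw
  refine RingHom.ext fun s => ?_
  rfl

variable {S : Finset ↥R} {τ : ↥K₁⟮t⟯}
  (hgeo : GeoHyps K₁ (K := ↥K₁⟮t⟯) ϖ τ ↥(Host.Etu (keyFw K₁ M w) t 1) M S)
  (h𝒢t : IsGaussAt ↥R ϖ τ 𝒢t)

set_option maxHeartbeats 1600000 in
include hϖ h𝒢j hmemW hgeo h𝒢t in
/-- `(hV)`: `V = W ∩ F_q` for the integral closure `W` of `𝒢t` in `E`. -/
theorem mem_baseV_iff_isIntegral (x : ↥(keyFq K₁ M)) :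
    letI := baseAlgFE M w t
    x ∈ baseV R M hFq ↔
      IsIntegral ↥𝒢t (algebraMap ↥(keyFq K₁ M) ↥(Host.Etu (keyFw K₁ M w) t 1) x) := by
  letI := baseAlgFE M w t
  haveI : CharZero ↥R := charZero_valuationSubring_of_algebraRat R
  haveI hfinE : FiniteDimensional ↥K₁⟮t⟯ ↥(Host.Etu (keyFw K₁ M w) t 1) := hgeo.finite
  haveI : IsDiscreteValuationRing ↥𝒢t :=
    isDiscreteValuationRing_of_isGaussAt ϖ hϖ _ hgeo.transcendental hgeo.adjoin_eq_top h𝒢t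
  haveI hloc : IsLocalRing ↥(integralClosure ↥𝒢t ↥(Host.Etu (keyFw K₁ M w) t 1)) :=
    hgeo.isLocalRing 𝒢t h𝒢t
  haveI hK0 : CharZero ↥K₁⟮t⟯ := algebraRat.charZero _
  refine ⟨isIntegral_of_mem_baseV R M w hFq t hϖ 𝒢t h𝒢j hmemW x, fun hx => ?_⟩
  set W' : ValuationSubring ↥(keyFq K₁ M) :=
    (closureValSub (E := ↥(Host.Etu (keyFw K₁ M w) t 1)) 𝒢t).comap
      (algebraMap ↥(keyFq K₁ M) ↥(Host.Etu (keyFw K₁ M w) t 1)) with hW'
  have hle : baseV R M hFq ≤ W' := fun y hy =>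
    isIntegral_of_mem_baseV R M w hFq t hϖ 𝒢t h𝒢j hmemW y hy
  rcases eq_or_eq_top_of_le_of_isDiscreteValuationRing (baseV R M hFq) W' hle with h1 | h1
  · rw [← h1]; exact hx
  · exfalso
    have h2 : (baseφ R M ϖ)⁻¹ ∈ W' := by rw [h1]; trivial
    have h3 : IsIntegral ↥𝒢t (algebraMap ↥(keyFq K₁ M) ↥(Host.Etu (keyFw K₁ M w) t 1)
        (baseφ R M ϖ)⁻¹) := h2
    rw [map_inv₀, baseAlgFE_baseφ, ← map_inv₀] at h3
    have h4 : IsIntegral ↥𝒢t ((algebraMap ↥R ↥K₁⟮t⟯ ϖ)⁻¹) :=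
      (isIntegral_algebraMap_iff
        (algebraMap ↥K₁⟮t⟯ ↥(Host.Etu (keyFw K₁ M w) t 1)).injective).mp h3
    obtain ⟨y, hy⟩ := IsIntegrallyClosed.isIntegral_iff.mp h4
    apply h𝒢t.2.1
    rw [← hy]
    exact y.2

variable (hintj : ∀ x ∈ 𝒢t, IsIntegral ↥(𝒢t.comap (algebraMap ↥K₁⟮jqNModC K₁ w⟯ ↥K₁⟮t⟯)) x)

set_option maxHeartbeats 1600000 in
include hϖ h𝒢j hintj in
/-- `(hint)`: elements of `E` integral over `𝒢t` are integral over `V`. -/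
theorem isIntegral_baseV_of_isIntegral (x : ↥(Host.Etu (keyFw K₁ M w) t 1))
    (hx : IsIntegral ↥𝒢t x) :
    letI := baseAlgFE M w t
    IsIntegral ↥(baseV R M hFq) x := by
  letI := baseAlgFE M w t
  have h1 : IsIntegral ↥(𝒢t.comap (algebraMap ↥K₁⟮jqNModC K₁ w⟯ ↥K₁⟮t⟯)) x := by
    refine isIntegral_of_isIntegral_of_forall_isIntegral (S₁ := ↥𝒢t)
      (S₂ := ↥(𝒢t.comap (algebraMap ↥K₁⟮jqNModC K₁ w⟯ ↥K₁⟮t⟯))) ?_ hx
    intro s
    have h2 : IsIntegral ↥(𝒢t.comap (algebraMap ↥K₁⟮jqNModC K₁ w⟯ ↥K₁⟮t⟯)) (s : ↥K₁⟮t⟯) :=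
      hintj s s.2
    refine IsIntegral.map_of_comp_eq
      (RingHom.id ↥(𝒢t.comap (algebraMap ↥K₁⟮jqNModC K₁ w⟯ ↥K₁⟮t⟯)))
      (algebraMap ↥K₁⟮t⟯ ↥(Host.Etu (keyFw K₁ M w) t 1)) ?_ h2
    refine RingHom.ext fun r => ?_
    rfl
  refine isIntegral_of_isIntegral_of_forall_exists
    (S₁ := ↥(𝒢t.comap (algebraMap ↥K₁⟮jqNModC K₁ w⟯ ↥K₁⟮t⟯))) (S₂ := ↥(baseV R M hFq)) ?_ h1
  intro s
  have hs : (s : ↥K₁⟮jqNModC K₁ w⟯) ∈ (baseV R M hFq).comap (baseρ M w) := by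
    rw [← comap_eq_baseV_comap R M w hFq t hϖ 𝒢t h𝒢j]; exact s.2
  exact ⟨⟨baseρ M w s, hs⟩, baseAlgFE_baseρ M w t s⟩

end Gauss

end Tower

end BasePkg

end Fermat.Agent.W1
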