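/-
W1 — helper7 — PORT of `JA/GM_helper1_JLineHost` to the field `F₁ M 1` of `X₁(M)` (against `[W1Api M]`).
Original header:
-/
/-
J-A package GM — helper1.
(JLineHost) `JLineHyp` for the image `F_w ⊂ K₁⸨x⸩` (`q = x^w`) of the function field of `X₀(M)`
over `K₁`, from RAM0 (helper2), the dictionary (DICT, helper4) and the Gauss-place input.
-/
import Fermat.Agent.JA.GM_helper1_JLineHost
import Fermat.Agent.JA.RAM0_helper2_Shapes
import Fermat.Agent.JA.HOST_helper3_Main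
import Fermat.Agent.X0N.S24_helper7_Generic
import Fermat.Agent.W1.API_helper7_Lemmas

set_option autoImplicit false
set_option linter.style.haveILetI false
set_option linter.unusedSectionVars false

open Polynomial IntermediateField AlgebraicCurve

open Fermat.Agent.JA

namespace Fermat.Agent.W1

open Fermat.Agent.FF Fermat.Agent.FF.Gal

section Host

open scoped Fermat.Agent.JA.Host
open ModularCurve Fermat.Agent.X0N

section Univ

variable {K₁ : Type*} [Field K₁] [Algebra ℚ K₁] (M : ℕ) (w : ℕ) [NeZero w]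

/-- the coordinate `j(x^w)` is the image of `jGen` under `F_q ≃ F_w`. -/
theorem coe_hostImageEquiv_jGen :
    ((hostImageEquiv K₁ w (laurentBaseChange K₁ (F₁ M 1)) (jGen K₁ M) :
      ↥(hostImage K₁ w (laurentBaseChange K₁ (F₁ M 1)))) : LaurentSeries K₁)
      = jqNModC K₁ w := by
  rw [coe_hostImageEquiv]
  show qExpand K₁ w (coeffEmb K₁ jq) = jqNModC K₁ w
  rw [jqNModC, coeffEmb, ← jqModC_rat, coeffMap_jqModC]

theorem jqNModC_mem_hostImage :
    jqNModC K₁ w ∈ hostImage K₁ w (laurentBaseChange K₁ (F₁ M 1)) := by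
  rw [← coe_hostImageEquiv_jGen M w]
  exact Subtype.mem _

theorem adjoin_jqNModC_le_hostImage :
    K₁⟮jqNModC K₁ w⟯ ≤ hostImage K₁ w (laurentBaseChange K₁ (F₁ M 1)) := by
  rw [IntermediateField.adjoin_le_iff, Set.singleton_subset_iff]
  exact jqNModC_mem_hostImage M w

end Univ

variable {K₁ : Type} [Field K₁] [Algebra ℚ K₁] (M : ℕ) [NeZero M] [W1Api M] (w : ℕ) [NeZero w]

/-- `F_w` is finite over `K₁(j(x^w))`. -/
theorem finite_hostImage_full
    [Fact (K₁⟮jqNModC K₁ w⟯ ≤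
      hostImage K₁ w (laurentBaseChange K₁ (F₁ M 1)))] :
    Module.Finite ↥K₁⟮jqNModC K₁ w⟯
      ↥(hostImage K₁ w (laurentBaseChange K₁ (F₁ M 1))) := by
  haveI := finite_keyFq K₁ M
  exact finite_of_algEquiv_intermediateField _
    (hostImageEquiv K₁ w (laurentBaseChange K₁ (F₁ M 1))) (jGen K₁ M)
    (jqNModC K₁ w) (coe_hostImageEquiv_jGen M w)

variable {R : Type*} [CommRing R] [IsDomain R] [IsDiscreteValuationRing R] [CharZero R]
  [Algebra R K₁] [IsFractionRing R K₁] [Algebra K₁ ℂ]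

/-- **`JLineHyp` for `F_w`**, the image in `K₁⸨x⸩` of the function field of `X₀(M)` over `K₁`,
from RAM0 and (DICT), given the Gauss-place input (G1). -/
theorem jLineHyp_hostImage (hN : ∃ z : K₁, IsPrimitiveRoot z M) (π : R)
    [Fact (K₁⟮jqNModC K₁ w⟯ ≤
      hostImage K₁ w (laurentBaseChange K₁ (F₁ M 1)))]
    (hgauss : ∀ 𝒢 : ValuationSubring ↥K₁⟮jqNModC K₁ w⟯,
      IsGaussAt R π (AdjoinSimple.gen K₁ (jqNModC K₁ w)) 𝒢 →
      Unr 𝒢 ↥(hostImage K₁ w (laurentBaseChange K₁ (F₁ M 1)))) :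
    JLineHyp (K₁ := K₁) π (AdjoinSimple.gen K₁ (jqNModC K₁ w))
      ↥(hostImage K₁ w (laurentBaseChange K₁ (F₁ M 1))) M := by
  haveI : Module.Finite ↥K₁⟮jqNModC K₁ w⟯
      ↥(hostImage K₁ w (laurentBaseChange K₁ (F₁ M 1))) :=
    finite_hostImage_full M w
  set e := hostImageEquiv K₁ w (laurentBaseChange K₁ (F₁ M 1)) with he
  have hj : algebraMap ↥K₁⟮jqNModC K₁ w⟯
      ↥(hostImage K₁ w (laurentBaseChange K₁ (F₁ M 1)))
      (AdjoinSimple.gen K₁ (jqNModC K₁ w)) = e (jGen K₁ M) := by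
    apply Subtype.ext
    rw [Host.coe_algebraMap, AdjoinSimple.coe_gen, he, coe_hostImageEquiv_jGen]
  have haev : ∀ q : K₁[X], aeval (e (jGen K₁ M)) q = e (aeval (jGen K₁ M) q) := fun q =>
    Polynomial.aeval_algHom_apply e (jGen K₁ M) q
  refine jLineHyp_of_ram π (AdjoinSimple.gen K₁ (jqNModC K₁ w)) (adjoin_simple_gen_eq_top _) M
    (fun P' q hq hm h0 h1 hpos => ?_) (fun P' hpos => ?_) (fun P' hpos => ?_)
    (fun P' hneg => ?_) hgauss
  · obtain ⟨P, hP⟩ := exists_place_ord_comp_equiv e P'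
    rw [hj, haev, ← hP] at hpos ⊢
    exact ram0_generic' hN P q hq hm h0 h1 hpos
  · obtain ⟨P, hP⟩ := exists_place_ord_comp_equiv e P'
    rw [hj, ← hP] at hpos ⊢
    exact ram0_zero_dvd hN P hpos
  · obtain ⟨P, hP⟩ := exists_place_ord_comp_equiv e P'
    have h1728 : e (jGen K₁ M) - 1728 = e (jGen K₁ M - 1728) := by
      rw [map_sub, map_ofNat]
    rw [hj, h1728, ← hP] at hpos ⊢
    exact ram0_1728_dvd hN P hpos
  · obtain ⟨P, hP⟩ := exists_place_ord_comp_equiv e P'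
    rw [hj, ← hP] at hneg ⊢
    exact ram0_infty_neg hN P hneg

end Host

section HostBases

open scoped Fermat.Agent.JA.Host
open ModularCurve

local notation "Ω" => AlgebraicClosure ℚ

variable {ℓ : ℕ} [Fact ℓ.Prime] {A : ValuationSubring (AlgebraicClosure ℚ)}
  (hA : A.LiesOverPrime ℓ) (M : ℕ) [NeZero M] [W1Api M] (w : ℕ) [NeZero w]
  {K₁ : IntermediateField ℚ (AlgebraicClosure ℚ)}

include hA in
/-- **`JLineHyp` for `F_w` at a base** `R₁ = A ∩ K₁` (port of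
`JA/G1_helper5_UnrHost.jLineHyp_hostImage_baseRing`). -/
theorem jLineHyp_hostImage_baseRing (hℓM : ¬ ℓ ∣ M) (hK₁ : IsBase ℓ K₁)
    [IsDiscreteValuationRing ↥(baseRing A K₁)]
    [Fact ((↥K₁)⟮jqNModC ↥K₁ w⟯ ≤
      hostImage ↥K₁ w (laurentBaseChange ↥K₁ (F₁ M 1)))]
    {π : ↥(baseRing A K₁)} (hπ : Irreducible π) :
    JLineHyp (K₁ := ↥K₁) π (AdjoinSimple.gen ↥K₁ (jqNModC ↥K₁ w))
      ↥(hostImage ↥K₁ w (laurentBaseChange ↥K₁ (F₁ M 1))) M := by
  haveI : CharZero ↥(baseRing A K₁) := by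
    haveI : CharZero ↥K₁ := algebraRat.charZero ↥K₁
    exact RingHom.charZero (baseRing A K₁).subtype
  letI : Algebra ↥K₁ ℂ :=
    (((IsAlgClosed.lift : Ω →ₐ[ℚ] ℂ) : Ω →+* ℂ).comp (algebraMap ↥K₁ Ω)).toAlgebra
  have hN : ∃ z : ↥K₁, IsPrimitiveRoot z M :=
    hK₁.exists_isPrimitiveRoot (Nat.pos_of_ne_zero (NeZero.ne M)) hℓM
  exact jLineHyp_hostImage M w hN π (fun 𝒢 h𝒢 =>
    unr_hostImage_baseRing_of_isGaussAt hA M hℓM w hK₁ hπ 𝒢 h𝒢)

end HostBases

end Fermat.Agent.W1
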