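/-
W1 — helper7 — PORT of `JA/GEOBASE_helper8_Base` to the field `F₁ M 1` of `X₁(M)` (against `[W1Api M]`);
only the field-specific declarations are restated, the generic ones are imported from the original.
Original header:
-/
/-
J-A — helper8 — (GEOBASE) part 3: the concrete GEO instance at every base `R₁ = A ∩ K₁`:
`GeoHyps` for `K = K₁(t)`, `E = K₁(t) · F_w` (`F_w` = the function field of `X₀(M)` over `K₁` inside
the host `K₁⸨x⸩`, `q = x ^ w`), with `t` the canonical Legendre coordinate (`w = 2`, `ℓ ≠ 2`) or the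
canonical Hesse coordinate (`w = 3`, `ℓ ≠ 3`).
-/
import Mathlib
import Fermat.Agent.JA.GEOBASE_helper8_Coord
import Fermat.Agent.JA.GEOBASE_helper8_Hyps
import Fermat.Agent.W1.KEYBASE_helper7_Final
import Fermat.Agent.JA.KEYBASE_helper8_Final
import Fermat.Agent.W1.API_helper7_Lemmas
import Fermat.Agent.JA.GEOBASE_helper8_Base

set_option autoImplicit false
set_option linter.unusedSectionVars false
set_option linter.style.haveILetI false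
set_option synthInstance.maxHeartbeats 200000

open HahnSeries IntermediateField AlgebraicCurve ModularCurve Fermat.Agent.Igusa Polynomial

open Fermat.Agent.JA

namespace Fermat.Agent.W1

namespace Host

/-- `K(j(x^w)) ≤ F_w`. -/
scoped instance fact_adjoin_le_keyFw (K : Type*) [Field K] [Algebra ℚ K] (M w : ℕ) [NeZero M] [W1Api M]
    [NeZero w] : Fact (K⟮jqNModC K w⟯ ≤ keyFw K M w) := ⟨adjoin_jqNModC_le_hostImage M w⟩

end Host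

open scoped Fermat.Agent.JA.Host Fermat.Agent.W1.Host

/-- `Ω = AlgebraicClosure ℚ`. -/
local notation "Ω" => AlgebraicClosure ℚ

/-- the Legendre tower field `E = K(t) · F_2 ⊆ K⸨x⸩`. -/
noncomputable abbrev legE (K : Type*) [Field K] [Algebra ℚ K] (M : ℕ) [NeZero M] [W1Api M] :
    IntermediateField K (LaurentSeries K) := Host.Etu (keyFw K M 2) (legT K) 1

/-- the Hesse tower field `E = K(t) · F_3 ⊆ K⸨x⸩`. -/
noncomputable abbrev hesE (K : Type*) [Field K] [Algebra ℚ K] (M : ℕ) [NeZero M] [W1Api M] :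
    IntermediateField K (LaurentSeries K) := Host.Etu (keyFw K M 3) (hesT K) 1

section Base

variable {ℓ : ℕ} [Fact ℓ.Prime] {A : ValuationSubring Ω} (hA : A.LiesOverPrime ℓ)
  (M : ℕ) [NeZero M] [W1Api M] {K₁ : IntermediateField ℚ Ω}

set_option maxHeartbeats 1600000 in
include hA in
/-- `F_w / K₁(j_w)` is finite at a base. -/
theorem finite_keyFw_base (w : ℕ) [NeZero w] :
    Module.Finite ↥(↥K₁)⟮jqNModC ↥K₁ w⟯ ↥(keyFw ↥K₁ M w) := by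
  letI : Algebra ↥K₁ ℂ :=
    (((IsAlgClosed.lift : Ω →ₐ[ℚ] ℂ) : Ω →+* ℂ).comp (algebraMap ↥K₁ Ω)).toAlgebra
  exact finite_hostImage_full M w

set_option maxHeartbeats 1600000 in
include hA in
/-- the `j`-line hypotheses for `F_w(1) = F_w` at a base (the Kummer step with `m = 1`). -/
theorem jLineHyp_Fu_one_baseRing (hℓM : ¬ ℓ ∣ M) (hK₁ : IsBase ℓ K₁)
    [IsDiscreteValuationRing ↥(baseRing A K₁)] (w : ℕ) [NeZero w]
    {ϖ : ↥(baseRing A K₁)} (hϖ : Irreducible ϖ) :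
    JLineHyp (K₁ := ↥K₁) ϖ (AdjoinSimple.gen ↥K₁ (jqNModC ↥K₁ w))
      ↥(Host.Fu (keyFw ↥K₁ M w) 1) M := by
  haveI : CharZero ↥(baseRing A K₁) := charZero_valuationSubring_of_algebraRat _
  haveI : Module.Finite ↥(↥K₁)⟮jqNModC ↥K₁ w⟯ ↥(keyFw ↥K₁ M w) := finite_keyFw_base hA M w
  have hJ : JLineHyp (K₁ := ↥K₁) ϖ (AdjoinSimple.gen ↥K₁ (jqNModC ↥K₁ w)) ↥(keyFw ↥K₁ M w) M :=
    jLineHyp_hostImage_baseRing hA M w hℓM hK₁ hϖ
  have hℓ1 : ¬ ℓ ∣ 1 := fun h => (Fact.out : ℓ.Prime).one_lt.ne' (Nat.dvd_one.mp h)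
  have hmK : ((1 : ℕ) : ↥K₁) ≠ 0 := by simp
  have hmR : (((1 : ℕ) : ↥K₁))⁻¹ ∈ baseRing A K₁ := inv_natCast_mem_baseRing hA hℓ1
  have hFq : keyFq ↥K₁ M ≤ gaussField ↥(baseRing A K₁) ↥K₁ :=
    laurentBaseChange_full_le_gaussField ↥(baseRing A K₁) ↥K₁ M
  have hmemW : ∀ W : ValuationSubring ↥(keyFq ↥K₁ M),
      (∀ c : ↥(keyFq ↥K₁ M), (c : LaurentSeries ↥K₁) ∈
          (↥K₁)⟮emb ↥(baseRing A K₁) ↥K₁ (jqModC ↥(baseRing A K₁))⟯ →
        (c ∈ W ↔ (c : LaurentSeries ↥K₁) ∈ gaussInt ↥(baseRing A K₁) ↥K₁)) →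
      ∀ z : ↥(keyFq ↥K₁ M), (z : LaurentSeries ↥K₁) ∈ gaussInt ↥(baseRing A K₁) ↥K₁ → z ∈ W :=
    fun W hW z hz => mem_of_mem_gaussInt_baseRing hA M hℓM hK₁ W hW z hz
  have h1 : ((1 : ↥(keyFq ↥K₁ M)) : LaurentSeries ↥K₁) = 1 := rfl
  refine jLineHyp_Fu_of_jLineHyp (baseRing A K₁) M w 1 hϖ hmR hmK hFq hmemW hJ 1 one_ne_zero ?_ ?_
    (fun P => ?_) 1 ?_
  · rw [h1]; exact (gaussInt ↥(baseRing A K₁) ↥K₁).one_mem
  · rw [h1, inv_one]; exact (gaussInt ↥(baseRing A K₁) ↥K₁).one_mem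
  · rw [Nat.cast_one]; exact one_dvd _
  · rw [h1, map_one, pow_one]

set_option maxHeartbeats 1600000 in
include hA in
/-- **GEO at a base, Legendre coordinate** (`ℓ ≠ 2`): the complete hypothesis list of lead's GEO
theorems for `K = K₁(t)`, `E = K₁(t) · F_2`, `n = M`, `S = {0, 1}`. -/
theorem geoHyps_legE_baseRing [DecidableEq ↥(baseRing A K₁)] (hℓM : ¬ ℓ ∣ M)
    (hK₁ : IsBase ℓ K₁) (hℓ2 : ℓ ≠ 2) [IsDiscreteValuationRing ↥(baseRing A K₁)]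
    {ϖ : ↥(baseRing A K₁)} (hϖ : Irreducible ϖ) :
    GeoHyps ↥K₁ (K := ↥(↥K₁)⟮legT ↥K₁⟯) ϖ (AdjoinSimple.gen ↥K₁ (legT ↥K₁)) ↥(legE ↥K₁ M) M
      ({0, 1} : Finset ↥(baseRing A K₁)) := by
  haveI : CharZero ↥(baseRing A K₁) := charZero_valuationSubring_of_algebraRat _
  haveI : Module.Finite ↥(↥K₁)⟮jqNModC ↥K₁ 2⟯ ↥(keyFw ↥K₁ M 2) := finite_keyFw_base hA M 2
  have hℓ2' : ¬ ℓ ∣ 2 := fun h =>
    hℓ2 ((Nat.prime_dvd_prime_iff_eq (Fact.out : ℓ.Prime) Nat.prime_two).mp h)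
  have h2res : (2 : IsLocalRing.ResidueField ↥(baseRing A K₁)) ≠ 0 := by
    have := natCast_residueField_baseRing_ne_zero hA (K₁ := K₁) hℓ2'
    exact_mod_cast this
  have hj' : jqNModC ↥K₁ 2 * aeval (legT ↥K₁) (X ^ 2 * (X - 1) ^ 2 : (↥K₁)[X]) =
      aeval (legT ↥K₁) (256 * (X ^ 2 - X + 1) ^ 3 : (↥K₁)[X]) := jqNModC_mul_aeval_legT ↥K₁
  have hL := Host.lineHyp_legendre_host (jqNModC ↥K₁ 2) (legT ↥K₁) (transcendental_legT ↥K₁) hj'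
    ϖ hϖ h2res ({0, 1} : Finset ↥(baseRing A K₁)) (by simp) (by simp)
  obtain ⟨hS, hS0⟩ := legendre_branch_facts ↥(baseRing A K₁)
  exact Host.geoHyps_Etu (keyFw ↥K₁ M 2) (jqNModC ↥K₁ 2) (legT ↥K₁) 1
    (fun x hx => laurentSeries_mem_range_algebraMap_of_isAlgebraic x hx) (transcendental_legT ↥K₁)
    (isIntegral_legT ↥K₁) isIntegral_one ϖ hϖ M (Nat.pos_of_ne_zero (NeZero.ne M))
    (isUnit_natCast_baseRing hA hℓM)
    (hK₁.exists_isPrimitiveRoot_baseRing A (Nat.pos_of_ne_zero (NeZero.ne M)) hℓM)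
    _ hS hS0 hL (jLineHyp_Fu_one_baseRing hA M hℓM hK₁ 2 hϖ)

set_option maxHeartbeats 1600000 in
include hA in
/-- **GEO at a base, Hesse coordinate** (`ℓ ≠ 3`): the complete hypothesis list of lead's GEO
theorems for `K = K₁(t)`, `E = K₁(t) · F_3`, `n = M`, `S = {1, ω, ω²}`. -/
theorem geoHyps_hesE_baseRing [DecidableEq ↥(baseRing A K₁)] (hℓM : ¬ ℓ ∣ M)
    (hK₁ : IsBase ℓ K₁) (hℓ3 : ℓ ≠ 3) [IsDiscreteValuationRing ↥(baseRing A K₁)]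
    {ϖ : ↥(baseRing A K₁)} (hϖ : Irreducible ϖ) :
    ∃ ω : ↥(baseRing A K₁), ω ^ 2 + ω + 1 = 0 ∧
      GeoHyps ↥K₁ (K := ↥(↥K₁)⟮hesT ↥K₁⟯) ϖ (AdjoinSimple.gen ↥K₁ (hesT ↥K₁)) ↥(hesE ↥K₁ M) M
        ({1, ω, ω ^ 2} : Finset ↥(baseRing A K₁)) := by
  haveI : CharZero ↥(baseRing A K₁) := charZero_valuationSubring_of_algebraRat _
  haveI : Module.Finite ↥(↥K₁)⟮jqNModC ↥K₁ 3⟯ ↥(keyFw ↥K₁ M 3) := finite_keyFw_base hA M 3
  have hℓ3' : ¬ ℓ ∣ 3 := fun h =>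
    hℓ3 ((Nat.prime_dvd_prime_iff_eq (Fact.out : ℓ.Prime) Nat.prime_three).mp h)
  have h3res : (3 : IsLocalRing.ResidueField ↥(baseRing A K₁)) ≠ 0 := by
    have := natCast_residueField_baseRing_ne_zero hA (K₁ := K₁) hℓ3'
    exact_mod_cast this
  have h3unit : IsUnit (3 : ↥(baseRing A K₁)) := by
    have := isUnit_natCast_baseRing hA (K₁ := K₁) hℓ3'
    exact_mod_cast this
  obtain ⟨ω, hω⟩ := exists_cubeRoot_baseRing hA hK₁ hℓ3
  refine ⟨ω, hω, ?_⟩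
  have hj' : jqNModC ↥K₁ 3 * aeval (hesT ↥K₁) ((X ^ 3 - 1) ^ 3 : (↥K₁)[X]) =
      aeval (hesT ↥K₁) (27 * X ^ 3 * (X ^ 3 + 8) ^ 3 : (↥K₁)[X]) := jqNModC_mul_aeval_hesT ↥K₁
  have hL := Host.lineHyp_hesse_host (jqNModC ↥K₁ 3) (hesT ↥K₁) (transcendental_hesT ↥K₁) hj'
    ϖ hϖ h3res ω hω ({1, ω, ω ^ 2} : Finset ↥(baseRing A K₁)) (by simp) (by simp) (by simp)
  obtain ⟨hS, hS0⟩ := hesse_branch_facts ↥(baseRing A K₁) h3unit ω hω
  exact Host.geoHyps_Etu (keyFw ↥K₁ M 3) (jqNModC ↥K₁ 3) (hesT ↥K₁) 1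
    (fun x hx => laurentSeries_mem_range_algebraMap_of_isAlgebraic x hx) (transcendental_hesT ↥K₁)
    (isIntegral_hesT ↥K₁) isIntegral_one ϖ hϖ M (Nat.pos_of_ne_zero (NeZero.ne M))
    (isUnit_natCast_baseRing hA hℓM)
    (hK₁.exists_isPrimitiveRoot_baseRing A (Nat.pos_of_ne_zero (NeZero.ne M)) hℓM)
    _ hS hS0 hL (jLineHyp_Fu_one_baseRing hA M hℓM hK₁ 3 hϖ)

end Base

end Fermat.Agent.W1
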