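/-
W1 — helper8 — PORT of `JA/GEOBASE_helper8_CuspBase` to the field `F₁ M 1` of `X₁(M)` (against
`[W1Api M]`); only the field-specific declarations are restated, the generic ones
(`cusp_val_legendre`, `cusp_val_hesse`, `exists_isBase_root_legendre`, `exists_isBase_root_hesse`,
and all of `JA/GEOBASE_helper8_Cusp`) are imported from the original.
Original header:
-/
/-
J-A — helper8 — (GEOBASE) part 6: the cusp-chart coordinate `t' = (t - r)⁻¹` at a base, `r` a root of
`A(X) - b B(X)` (`j = A(t)/B(t)` the Legendre resp. Hesse `j`-function, `b ∈ ℤ`): existence of `r`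
in a larger base with all translated branch points units, and `GeoHyps` for `t'`.
-/
import Mathlib
import Fermat.Agent.W1.GEOBASE_helper7_Base
import Fermat.Agent.JA.GEOBASE_helper8_Base
import Fermat.Agent.JA.GEOBASE_helper8_Cusp
import Fermat.Agent.W1.API_helper7_Lemmas
import Fermat.Agent.JA.GEOBASE_helper8_CuspBase

set_option autoImplicit false
set_option linter.unusedSectionVars false
set_option linter.style.haveILetI false
set_option synthInstance.maxHeartbeats 200000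

open HahnSeries IntermediateField AlgebraicCurve ModularCurve Fermat.Agent.Igusa Polynomial

open Fermat.Agent.JA

namespace Fermat.Agent.W1

open scoped Fermat.Agent.JA.Host Fermat.Agent.W1.Host

/-- `Ω = AlgebraicClosure ℚ`. -/
local notation "Ω" => AlgebraicClosure ℚ

section Base

variable {ℓ : ℕ} [Fact ℓ.Prime] {A : ValuationSubring Ω} (hA : A.LiesOverPrime ℓ)
  (M : ℕ) [NeZero M] [W1Api M] {K₁ : IntermediateField ℚ Ω}

set_option maxHeartbeats 1600000 in
include hA in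
/-- **GEO at a base for the cusp-chart coordinate** `t' = (t - r)⁻¹`, Legendre case. -/
theorem geoHyps_legE_cusp_baseRing [DecidableEq ↥(baseRing A K₁)] (hℓM : ¬ ℓ ∣ M)
    (hK₁ : IsBase ℓ K₁) (hℓ2 : ℓ ≠ 2) [IsDiscreteValuationRing ↥(baseRing A K₁)]
    {ϖ : ↥(baseRing A K₁)} (hϖ : Irreducible ϖ) (r : ↥(baseRing A K₁)) (hr0 : IsUnit r)
    (hr1 : IsUnit (r - 1)) :
    ∃ S' : Finset ↥(baseRing A K₁),
      GeoHyps ↥K₁ (K := ↥(↥K₁)⟮legT ↥K₁⟯) ϖ
        (AdjoinSimple.gen ↥K₁ (legT ↥K₁) -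
          algebraMap ↥(baseRing A K₁) ↥(↥K₁)⟮legT ↥K₁⟯ r)⁻¹ ↥(legE ↥K₁ M) M S' := by
  haveI : CharZero ↥(baseRing A K₁) := charZero_valuationSubring_of_algebraRat _
  refine (geoHyps_legE_baseRing hA M hℓM hK₁ hℓ2 hϖ).inv_translate r ?_
  intro a ha
  simp only [Finset.mem_insert, Finset.mem_singleton] at ha
  rcases ha with rfl | rfl
  · right; rw [zero_sub]; exact hr0.neg
  · right
    have : (1 : ↥(baseRing A K₁)) - r = -(r - 1) := by ring
    rw [this]; exact hr1.neg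

set_option maxHeartbeats 1600000 in
include hA in
/-- **GEO at a base for the cusp-chart coordinate** `t' = (t - r)⁻¹`, Hesse case. -/
theorem geoHyps_hesE_cusp_baseRing [DecidableEq ↥(baseRing A K₁)] (hℓM : ¬ ℓ ∣ M)
    (hK₁ : IsBase ℓ K₁) (hℓ3 : ℓ ≠ 3) [IsDiscreteValuationRing ↥(baseRing A K₁)]
    {ϖ : ↥(baseRing A K₁)} (hϖ : Irreducible ϖ) (r : ↥(baseRing A K₁))
    (hr : ∀ c : ↥(baseRing A K₁), c ^ 3 = 1 → IsUnit (c - r)) :
    ∃ S' : Finset ↥(baseRing A K₁),
      GeoHyps ↥K₁ (K := ↥(↥K₁)⟮hesT ↥K₁⟯) ϖ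
        (AdjoinSimple.gen ↥K₁ (hesT ↥K₁) -
          algebraMap ↥(baseRing A K₁) ↥(↥K₁)⟮hesT ↥K₁⟯ r)⁻¹ ↥(hesE ↥K₁ M) M S' := by
  haveI : CharZero ↥(baseRing A K₁) := charZero_valuationSubring_of_algebraRat _
  obtain ⟨ω, hω, hG⟩ := geoHyps_hesE_baseRing hA M hℓM hK₁ hℓ3 hϖ
  have hω3 : ω ^ 3 = 1 := by linear_combination (ω - 1) * hω
  refine hG.inv_translate r ?_
  intro a ha
  simp only [Finset.mem_insert, Finset.mem_singleton] at ha
  right
  rcases ha with h | h | h
  · rw [h]; exact hr 1 (one_pow 3)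
  · rw [h]; exact hr ω hω3
  · rw [h]; exact hr (ω ^ 2) (by rw [← pow_mul, mul_comm, pow_mul, hω3, one_pow])

end Base

end Fermat.Agent.W1
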