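/-
W1 — helper7 — PORT of `JA/GEOBASE_helper8_CuspBase`: the same port was landed first by helper8 as
`W1/GEOBASE_helper8_CuspBase` (same declaration names, same statements); this file is now a thin
re-export of it, so that every import closure contains exactly one copy.
-/
import Mathlib
import Fermat.Agent.W1.GEOBASE_helper8_CuspBase
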