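/-
W1 — helper7 — PORT of `JA/SEP_helper6_Inst` to the field `F₁ M 1` of `X₁(M)` (against `[W1Api M]`);
only the field-specific declarations are restated, the generic ones are imported from the original.
Original header:
-/
/-
J-A — helper6 — package SEP (R2), layer C, part 4: **(SEP-F) at a base** `R₁ = A ∩ K₁`
(`IsBase ℓ K₁`, `ℓ ∤ M`): helper7's `ChartSep` for the chart of `z = j` over `(K₁, R₁)` with residue
map `R₁ → κ(A)`, from helper8's GEO instance (Legendre coordinate for `ℓ ≠ 2`, Hesse coordinate for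
`ℓ ≠ 3`).
-/
import Mathlib
import Fermat.Agent.W1.SEP_helper7_Base
import Fermat.Agent.JA.SEP_helper6_Base
import Fermat.Agent.W1.G1OMEGA_helper7_PGI
import Fermat.Agent.JA.G1OMEGA_helper5_PGI
import Fermat.Agent.JA.G1_helper5_Unram
import Fermat.Agent.W1.API_helper7_Lemmas
import Fermat.Agent.JA.SEP_helper6_Inst

set_option autoImplicit false
set_option linter.unusedSectionVars false
set_option linter.style.haveILetI false
set_option synthInstance.maxHeartbeats 200000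

open HahnSeries IntermediateField AlgebraicCurve ModularCurve Fermat.Agent.Igusa Polynomial
open scoped MatrixGroups
open CongruenceSubgroup

open Fermat.Agent.JA

namespace Fermat.Agent.W1

open scoped Fermat.Agent.JA.Host Fermat.Agent.W1.Host

/-- `Ω = AlgebraicClosure ℚ`. -/
local notation "Ω" => AlgebraicClosure ℚ

section Base

variable {ℓ : ℕ} [Fact ℓ.Prime] {A : ValuationSubring Ω} (hA : A.LiesOverPrime ℓ)
  (M : ℕ) [NeZero M] [W1Api M] {K₁ : IntermediateField ℚ Ω}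

set_option maxHeartbeats 1600000 in
include hA in
/-- **(SEP-F) at a base, generic host coordinate.** -/
theorem chartSep_baseRing_of_geoHyps (hℓM : ¬ ℓ ∣ M) (hK₁ : IsBase ℓ K₁)
    [IsDiscreteValuationRing ↥(baseRing A K₁)] (w : ℕ) [NeZero w]
    {ϖ : ↥(baseRing A K₁)} (hϖ : Irreducible ϖ) (t : LaurentSeries ↥K₁)
    [Fact ((↥K₁)⟮jqNModC ↥K₁ w⟯ ≤ keyFw ↥K₁ M w)] [Fact ((↥K₁)⟮jqNModC ↥K₁ w⟯ ≤ (↥K₁)⟮t⟯)]
    (S : Finset ↥(baseRing A K₁))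
    (hgeo : GeoHyps ↥K₁ (K := ↥(↥K₁)⟮t⟯) ϖ (AdjoinSimple.gen ↥K₁ t)
      ↥(Host.Etu (keyFw ↥K₁ M w) t 1) M S)
    (hline : ∀ 𝒢t : ValuationSubring ↥(↥K₁)⟮t⟯,
      IsGaussAt ↥(baseRing A K₁) ϖ (AdjoinSimple.gen ↥K₁ t) 𝒢t →
      IsGaussAt ↥(baseRing A K₁) ϖ (AdjoinSimple.gen ↥K₁ (jqNModC ↥K₁ w))
        (𝒢t.comap (algebraMap ↥(↥K₁)⟮jqNModC ↥K₁ w⟯ ↥(↥K₁)⟮t⟯)) ∧
      ∀ x ∈ 𝒢t, IsIntegral ↥(𝒢t.comap (algebraMap ↥(↥K₁)⟮jqNModC ↥K₁ w⟯ ↥(↥K₁)⟮t⟯)) x)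
    (P Q U V' : (↥(baseRing A K₁))[X]) (hbez : U * P + V' * Q = 1) (hlc : IsUnit P.leadingCoeff)
    (hdegPQ : Q.natDegree < P.natDegree) (hQπ : ¬ C ϖ ∣ Q)
    (hj : jqNModC ↥K₁ w * aeval t (Q.map (algebraMap ↥(baseRing A K₁) ↥K₁)) =
      aeval t (P.map (algebraMap ↥(baseRing A K₁) ↥K₁)))
    (htint : IsIntegral ↥(↥K₁)⟮jqNModC ↥K₁ w⟯ t)
    (h₁ : GaussRes (baseRing A K₁) M
      ((baseResidueMap A K₁).comp (IsLocalRing.residue ↥(baseRing A K₁)))) :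
    ChartSep h₁ (jBase ↥K₁ M)
      (fun Q => jTildeElt (IsLocalRing.ResidueField ↥A) M ∈ Q.toValuationSubring) := by
  letI : Algebra ↥K₁ ℂ :=
    (((IsAlgClosed.lift : Ω →ₐ[ℚ] ℂ) : Ω →+* ℂ).comp (algebraMap ↥K₁ Ω)).toAlgebra
  haveI : IsScalarTower ℚ ↥K₁ ℂ := IsScalarTower.of_algebraMap_eq' (Subsingleton.elim _ _)
  haveI : Module.Finite ↥(↥K₁)⟮jqNModC ↥K₁ w⟯ ↥(keyFw ↥K₁ M w) := finite_keyFw_base hA M w
  haveI := finiteDimensional_fullC_residueField hA M hℓM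
  haveI := isSeparable_fullC_residueField hA M hℓM
  have hσ := hK₁.baseResidueMap_bijective hA
  have hFq : keyFq ↥K₁ M ≤ gaussField ↥(baseRing A K₁) ↥K₁ :=
    laurentBaseChange_full_le_gaussField ↥(baseRing A K₁) ↥K₁ M
  have hmemW : ∀ W : ValuationSubring ↥(keyFq ↥K₁ M),
      (∀ c : ↥(keyFq ↥K₁ M), (c : LaurentSeries ↥K₁) ∈
          (↥K₁)⟮emb ↥(baseRing A K₁) ↥K₁ (jqModC ↥(baseRing A K₁))⟯ →
        (c ∈ W ↔ (c : LaurentSeries ↥K₁) ∈ gaussInt ↥(baseRing A K₁) ↥K₁)) →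
      ∀ z : ↥(keyFq ↥K₁ M), (z : LaurentSeries ↥K₁) ∈ gaussInt ↥(baseRing A K₁) ↥K₁ → z ∈ W :=
    fun W hW z hz => mem_of_mem_gaussInt_baseRing hA M hℓM hK₁ W hW z hz
  refine chartSep_of_geoHyps (baseRing A K₁) M w hϖ hFq hmemW (baseResidueMap A K₁) hσ.2 ?_ ?_ t S
    hgeo hline P Q U V' hbez hlc hdegPQ hQπ hj htint h₁
  · -- (RES)
    exact hRES_baseRing hA M hℓM hK₁
  · -- (LIFT)
    exact hLIFT_baseRing hA M hℓM hK₁

set_option maxHeartbeats 1600000 in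
include hA in
/-- **(SEP-F) at a base, `ℓ ≠ 2`** (Legendre coordinate). -/
theorem chartSep_baseRing_of_ne_two (hℓM : ¬ ℓ ∣ M) (hK₁ : IsBase ℓ K₁) (hℓ2 : ℓ ≠ 2)
    [IsDiscreteValuationRing ↥(baseRing A K₁)]
    (h₁ : GaussRes (baseRing A K₁) M
      ((baseResidueMap A K₁).comp (IsLocalRing.residue ↥(baseRing A K₁)))) :
    ChartSep h₁ (jBase ↥K₁ M)
      (fun Q => jTildeElt (IsLocalRing.ResidueField ↥A) M ∈ Q.toValuationSubring) := by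
  classical
  haveI : CharZero ↥(baseRing A K₁) := charZero_valuationSubring_of_algebraRat _
  obtain ⟨ϖ, hϖ⟩ := IsDiscreteValuationRing.exists_irreducible ↥(baseRing A K₁)
  have hℓ2' : ¬ ℓ ∣ 2 := fun h =>
    hℓ2 ((Nat.prime_dvd_prime_iff_eq (Fact.out : ℓ.Prime) Nat.prime_two).mp h)
  have hℓ256 : ¬ ℓ ∣ 256 := fun h =>
    hℓ2' ((Fact.out : ℓ.Prime).dvd_of_dvd_pow (show ℓ ∣ 2 ^ 8 by norm_num; exact h))
  have h2res : (2 : IsLocalRing.ResidueField ↥(baseRing A K₁)) ≠ 0 := by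
    have := natCast_residueField_baseRing_ne_zero hA (K₁ := K₁) hℓ2'
    exact_mod_cast this
  have h256 : IsUnit (256 : ↥(baseRing A K₁)) := by
    have := isUnit_natCast_baseRing hA (K₁ := K₁) hℓ256
    exact_mod_cast this
  obtain ⟨c, hc⟩ := h256.exists_right_inv
  have hj' : jqNModC ↥K₁ 2 * aeval (legT ↥K₁) (X ^ 2 * (X - 1) ^ 2 : (↥K₁)[X]) =
      aeval (legT ↥K₁) (256 * (X ^ 2 - X + 1) ^ 3 : (↥K₁)[X]) := jqNModC_mul_aeval_legT ↥K₁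
  refine chartSep_baseRing_of_geoHyps hA M hℓM hK₁ 2 hϖ (legT ↥K₁) _
    (geoHyps_legE_baseRing hA M hℓM hK₁ hℓ2 hϖ) ?_ (sepLegP _) (sepLegQ _) _ _
    (sepLeg_bezout c hc) ?_ ?_ (not_C_dvd_of_monic hϖ.not_isUnit monic_sepLegQ) ?_
    (isIntegral_legT ↥K₁) h₁
  · intro 𝒢t h𝒢t
    obtain ⟨h1, h2, -⟩ := Host.legendre_keyEnd_host (jqNModC ↥K₁ 2) (legT ↥K₁)
      (transcendental_legT ↥K₁) hj' hϖ h2res h𝒢t
    exact ⟨h1, h2⟩
  · rw [leadingCoeff_sepLegP]; exact h256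
  · rw [natDegree_sepLegP h256, natDegree_sepLegQ]; norm_num
  · rw [map_sepLegP, map_sepLegQ]
    have hP : sepLegP ↥K₁ = (256 * (X ^ 2 - X + 1) ^ 3 : (↥K₁)[X]) := by
      rw [sepLegP, map_ofNat Polynomial.C 256]
    rw [hP, sepLegQ]
    exact hj'

set_option maxHeartbeats 1600000 in
include hA in
/-- **(SEP-F) at a base, `ℓ ≠ 3`** (Hesse coordinate). -/
theorem chartSep_baseRing_of_ne_three (hℓM : ¬ ℓ ∣ M) (hK₁ : IsBase ℓ K₁) (hℓ3 : ℓ ≠ 3)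
    [IsDiscreteValuationRing ↥(baseRing A K₁)]
    (h₁ : GaussRes (baseRing A K₁) M
      ((baseResidueMap A K₁).comp (IsLocalRing.residue ↥(baseRing A K₁)))) :
    ChartSep h₁ (jBase ↥K₁ M)
      (fun Q => jTildeElt (IsLocalRing.ResidueField ↥A) M ∈ Q.toValuationSubring) := by
  classical
  haveI : CharZero ↥(baseRing A K₁) := charZero_valuationSubring_of_algebraRat _
  obtain ⟨ϖ, hϖ⟩ := IsDiscreteValuationRing.exists_irreducible ↥(baseRing A K₁)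
  have hℓ3' : ¬ ℓ ∣ 3 := fun h =>
    hℓ3 ((Nat.prime_dvd_prime_iff_eq (Fact.out : ℓ.Prime) Nat.prime_three).mp h)
  have hℓ27 : ¬ ℓ ∣ 27 := fun h =>
    hℓ3' ((Fact.out : ℓ.Prime).dvd_of_dvd_pow (show ℓ ∣ 3 ^ 3 by norm_num; exact h))
  have hℓ19683 : ¬ ℓ ∣ 19683 := fun h =>
    hℓ3' ((Fact.out : ℓ.Prime).dvd_of_dvd_pow (show ℓ ∣ 3 ^ 9 by norm_num; exact h))
  have h3res : (3 : IsLocalRing.ResidueField ↥(baseRing A K₁)) ≠ 0 := by
    have := natCast_residueField_baseRing_ne_zero hA (K₁ := K₁) hℓ3'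
    exact_mod_cast this
  have h27 : IsUnit (27 : ↥(baseRing A K₁)) := by
    have := isUnit_natCast_baseRing hA (K₁ := K₁) hℓ27
    exact_mod_cast this
  have h19683 : IsUnit (19683 : ↥(baseRing A K₁)) := by
    have := isUnit_natCast_baseRing hA (K₁ := K₁) hℓ19683
    exact_mod_cast this
  obtain ⟨e, he⟩ := h27.exists_right_inv
  obtain ⟨d, hd⟩ := h19683.exists_right_inv
  obtain ⟨ω, hω, hgeo⟩ := geoHyps_hesE_baseRing hA M hℓM hK₁ hℓ3 hϖ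
  have hj' : jqNModC ↥K₁ 3 * aeval (hesT ↥K₁) ((X ^ 3 - 1) ^ 3 : (↥K₁)[X]) =
      aeval (hesT ↥K₁) (27 * X ^ 3 * (X ^ 3 + 8) ^ 3 : (↥K₁)[X]) := jqNModC_mul_aeval_hesT ↥K₁
  refine chartSep_baseRing_of_geoHyps hA M hℓM hK₁ 3 hϖ (hesT ↥K₁) _ hgeo ?_
    (sepHesP _) (sepHesQ _) _ _ (sepHes_bezout d e hd he) ?_ ?_
    (not_C_dvd_of_monic hϖ.not_isUnit monic_sepHesQ) ?_ (isIntegral_hesT ↥K₁) h₁
  · intro 𝒢t h𝒢t
    obtain ⟨h1, h2, -⟩ := Host.hesse_keyEnd_host (jqNModC ↥K₁ 3) (hesT ↥K₁)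
      (transcendental_hesT ↥K₁) hj' hϖ h3res h𝒢t
    exact ⟨h1, h2⟩
  · rw [leadingCoeff_sepHesP]; exact h27
  · rw [natDegree_sepHesP h27, natDegree_sepHesQ]; norm_num
  · rw [map_sepHesP, map_sepHesQ]
    have hP : sepHesP ↥K₁ = (27 * X ^ 3 * (X ^ 3 + 8) ^ 3 : (↥K₁)[X]) := by
      rw [sepHesP, map_ofNat Polynomial.C 27, mul_assoc]
    rw [hP, sepHesQ]
    exact hj'

include hA in
/-- **(SEP-F) at every base**: reductions of Gauss-integral series over `R₁ = A ∩ K₁` which are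
integral over `R₁[j]` separate the places of `F̃` at which `j̃` is regular. -/
theorem chartSep_baseRing (hℓM : ¬ ℓ ∣ M) (hK₁ : IsBase ℓ K₁)
    [IsDiscreteValuationRing ↥(baseRing A K₁)]
    (h₁ : GaussRes (baseRing A K₁) M
      ((baseResidueMap A K₁).comp (IsLocalRing.residue ↥(baseRing A K₁)))) :
    ChartSep h₁ (jBase ↥K₁ M)
      (fun Q => jTildeElt (IsLocalRing.ResidueField ↥A) M ∈ Q.toValuationSubring) := by
  by_cases hℓ2 : ℓ = 2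
  · exact chartSep_baseRing_of_ne_three hA M hℓM hK₁ (by omega) h₁
  · exact chartSep_baseRing_of_ne_two hA M hℓM hK₁ hℓ2 h₁

end Base

end Fermat.Agent.W1
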