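/-
W1 — helper7 — PORT of `JA/SEP_helper6_Omega` to the field `F₁ M 1` of `X₁(M)` (against `[W1Api M]`);
only the field-specific declarations are restated, the generic ones are imported from the original.
Original header:
-/
/-
J-A — helper6 — package SEP (R2), layer C, part 5: **(SEP-F) over `Ω`**: helper7's `ChartSep` for
the chart of `z = jBar M` over `(Ω, A)` (`A` a valuation subring of `Ω = ℚ̄` over `ℓ ∤ M`), by
transfer from a base `K₁` along `coeffMap (baseIncl A K₁)`.
-/
import Mathlib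
import Fermat.Agent.W1.SEP_helper7_Inst
import Fermat.Agent.JA.SEP_helper6_Inst
import Fermat.Agent.X0N.LD_helper1_Laurent
import Fermat.Agent.W1.API_helper7_Lemmas
import Fermat.Agent.JA.SEP_helper6_Omega

set_option autoImplicit false
set_option linter.unusedSectionVars false
set_option linter.style.haveILetI false
set_option synthInstance.maxHeartbeats 200000

open HahnSeries IntermediateField AlgebraicCurve ModularCurve Fermat.Agent.Igusa Polynomial
  Fermat.Agent.X0N

open Fermat.Agent.JA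

namespace Fermat.Agent.W1

/-- `Ω = AlgebraicClosure ℚ`. -/
local notation "Ω" => AlgebraicClosure ℚ

section Transfer

variable {A : ValuationSubring Ω} (M : ℕ) [NeZero M] [W1Api M] {K₁ : IntermediateField ℚ Ω}

/-- the base change of functions `F_{K₁} → F_Ω`. -/
noncomputable def baseToBar (K₁ : IntermediateField ℚ Ω) :
    ↥(laurentBaseChange ↥K₁ (F₁ M 1)) →+*
      ↥(laurentBaseChange Ω (F₁ M 1)) where
  toFun x := ⟨coeffMap (algebraMap ↥K₁ Ω) (x : LaurentSeries ↥K₁),
    coeffMap_hom_mem_laurentBaseChange _ _ x.2⟩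
  map_one' := Subtype.ext (map_one _)
  map_mul' _ _ := Subtype.ext (map_mul _ _ _)
  map_zero' := Subtype.ext (map_zero _)
  map_add' _ _ := Subtype.ext (map_add _ _ _)

@[simp] theorem coe_baseToBar (x : ↥(laurentBaseChange ↥K₁ (F₁ M 1))) :
    ((baseToBar M K₁ x : ↥(laurentBaseChange Ω (F₁ M 1))) : LaurentSeries Ω) =
      coeffMap (algebraMap ↥K₁ Ω) (x : LaurentSeries ↥K₁) := rfl

theorem baseToBar_jBase : baseToBar M K₁ (jBase ↥K₁ M) = jBar M := by
  apply Subtype.ext
  rw [coe_baseToBar, coe_jBar, coeffEmb_jq_eq_jqModC]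
  exact coeffMap_jqModC _

theorem baseToBar_algebraMap (c : ↥K₁) :
    baseToBar M K₁ (algebraMap ↥K₁ ↥(laurentBaseChange ↥K₁ (F₁ M 1)) c) =
      algebraMap Ω ↥(laurentBaseChange Ω (F₁ M 1)) (algebraMap ↥K₁ Ω c) := by
  apply Subtype.ext
  exact coeffMap_algebraMap' _ c

/-- Gauss-integral series over `R₁` give Gauss-integral series over `A`. -/
theorem coeffMap_baseIncl_mem_gaussRing {y₁ : LaurentSeries ↥(baseRing A K₁)}
    (hy₁ : y₁ ∈ gaussRing (baseRing A K₁) M) :
    coeffMap (baseIncl A K₁) y₁ ∈ gaussRing A M := by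
  rw [mem_gaussRing_iff, coeffMap_subtype_coeffMap_baseIncl]
  exact coeffMap_hom_mem_laurentBaseChange _ _ hy₁

theorem gaussι_coeffMap_baseIncl {y₁ : LaurentSeries ↥(baseRing A K₁)}
    (hy₁ : y₁ ∈ gaussRing (baseRing A K₁) M) :
    gaussι A M ⟨coeffMap (baseIncl A K₁) y₁, coeffMap_baseIncl_mem_gaussRing M hy₁⟩ =
      baseToBar M K₁ (gaussι (baseRing A K₁) M ⟨y₁, hy₁⟩) := by
  apply Subtype.ext
  rw [coe_gaussι, coe_baseToBar, coe_gaussι]
  exact coeffMap_subtype_coeffMap_baseIncl y₁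

/-- `F_{K₁} → F_Ω` maps `R₁[z₁]` into `A[z]`. -/
theorem baseToBar_mem_coeffSubring (z₁ : ↥(laurentBaseChange ↥K₁ (F₁ M 1)))
    {x : ↥(laurentBaseChange ↥K₁ (F₁ M 1))}
    (hx : x ∈ coeffSubring (baseRing A K₁) M z₁) :
    baseToBar M K₁ x ∈ coeffSubring A M (baseToBar M K₁ z₁) := by
  have hle : coeffSubring (baseRing A K₁) M z₁ ≤
      (coeffSubring A M (baseToBar M K₁ z₁)).comap (baseToBar M K₁) := by
    rw [coeffSubring, Subring.closure_le]
    rintro x (⟨a, rfl⟩ | hx)
    · show baseToBar M K₁ (algebraMap ↥K₁ _ ((a : ↥(baseRing A K₁)) : ↥K₁)) ∈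
        coeffSubring A M (baseToBar M K₁ z₁)
      rw [baseToBar_algebraMap]
      exact algebraMap_mem_coeffSubring _ (baseIncl A K₁ a)
    · rw [Set.mem_singleton_iff] at hx
      rw [hx]
      exact self_mem_coeffSubring _
  exact hle hx

/-- chart functions over `R₁` give chart functions over `A`. -/
theorem coeffMap_baseIncl_mem_chartRing
    (z₁ : ↥(laurentBaseChange ↥K₁ (F₁ M 1)))
    {y₁ : LaurentSeries ↥(baseRing A K₁)} (hy₁ : y₁ ∈ chartRing (baseRing A K₁) M z₁) :
    coeffMap (baseIncl A K₁) y₁ ∈ chartRing A M (baseToBar M K₁ z₁) := by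
  obtain ⟨hg, hint⟩ := hy₁
  refine ⟨coeffMap_baseIncl_mem_gaussRing M hg, ?_⟩
  rw [gaussι_coeffMap_baseIncl M hg]
  let φ' : ↥(coeffSubring (baseRing A K₁) M z₁) →+* ↥(coeffSubring A M (baseToBar M K₁ z₁)) :=
    { toFun := fun x => ⟨baseToBar M K₁ x, baseToBar_mem_coeffSubring M z₁ x.2⟩
      map_one' := Subtype.ext (map_one _)
      map_mul' := fun _ _ => Subtype.ext (map_mul _ _ _)
      map_zero' := Subtype.ext (map_zero _)
      map_add' := fun _ _ => Subtype.ext (map_add _ _ _) }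
  refine IsIntegral.map_of_comp_eq φ' (baseToBar M K₁) ?_ hint
  refine RingHom.ext fun x => ?_
  rfl

end Transfer

section Omega

variable {ℓ : ℕ} [Fact ℓ.Prime] {A : ValuationSubring Ω} (hA : A.LiesOverPrime ℓ)
  (M : ℕ) [NeZero M] [W1Api M]

/-- (RES) at a base from (RES) over `Ω`. -/
theorem gaussRes_baseRing {K₁ : IntermediateField ℚ Ω}
    (h : GaussRes A M (IsLocalRing.residue ↥A)) :
    GaussRes (baseRing A K₁) M
      ((baseResidueMap A K₁).comp (IsLocalRing.residue ↥(baseRing A K₁))) := by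
  intro y₁ hy₁
  have h1 := h _ (coeffMap_baseIncl_mem_gaussRing M hy₁)
  rw [coeffMap_coeffMap] at h1
  exact h1

include hA in
/-- **(SEP-F) over `Ω`** = helper7's `ChartSep` (= helper4's `hsep`) for the `j`-chart:
reductions of Gauss-integral series over `A` whose function is integral over `A[j]` separate the
places of `F̃` at which `j̃` is regular. -/
theorem chartSep_jBar (hℓM : ¬ ℓ ∣ M) (h : GaussRes A M (IsLocalRing.residue ↥A)) :
    ChartSep h (jBar M)
      (fun Q => jTildeElt (IsLocalRing.ResidueField ↥A) M ∈ Q.toValuationSubring) := by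
  intro T hT Q₀ hQ₀
  have hK₁ : IsBase ℓ (flatBase ℓ) := isBase_flatBase
  haveI := hK₁.isDiscreteValuationRing hA
  obtain ⟨y₁, h0, hne⟩ := chartSep_baseRing hA M hℓM hK₁ (gaussRes_baseRing M h) T hT Q₀ hQ₀
  have hmem : coeffMap (baseIncl A (flatBase ℓ)) (y₁ : LaurentSeries ↥(baseRing A (flatBase ℓ))) ∈
      chartRing A M (jBar M) := by
    have := coeffMap_baseIncl_mem_chartRing M (jBase ↥(flatBase ℓ) M) y₁.2
    rwa [baseToBar_jBase] at this
  have hρ : chartρF h (jBar M) ⟨_, hmem⟩ =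
      chartρF (gaussRes_baseRing M h) (jBase ↥(flatBase ℓ) M) y₁ := by
    apply Subtype.ext
    rw [coe_chartρF, coe_chartρF, coeffMap_coeffMap]
    rfl
  refine ⟨⟨_, hmem⟩, ?_, ?_⟩
  · rw [hρ]; exact h0
  · intro Q hQ hQne
    rw [hρ]
    exact hne Q hQ hQne

end Omega

end Fermat.Agent.W1
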