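/-
W1 — helper7 — PORT of `JA/SEP_helper6_CuspInst` to the field `F₁ M 1` of `X₁(M)` (against `[W1Api M]`);
only the field-specific declarations are restated, the generic ones are imported from the original.
Original header:
-/
/-
J-A — helper6 — package SEP (R2), cusp chart, part 3: **(SEP-F) for the cusp chart
`z = (j - b)⁻¹`** (`b : ℤ` arbitrary) at a base containing a root `r` of `A - b B`, and over `Ω`:
helper7's `ChartSep h (jInvBar M b) (fun Q => gaussρF h (jInvGauss A M b) ∈ Q.toValuationSubring)`.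
GEO coordinate `t' = (t - r)⁻¹` (helper8's `geoHyps_legE_cusp_baseRing` /
`geoHyps_hesE_cusp_baseRing`), line data from `SEP_helper6_CuspLine`.
-/
import Mathlib
import Fermat.Agent.W1.SEP_helper7_BaseGen
import Fermat.Agent.JA.SEP_helper6_BaseGen
import Fermat.Agent.W1.SEP_helper7_Inst
import Fermat.Agent.JA.SEP_helper6_Inst
import Fermat.Agent.JA.SEP_helper6_CuspLine
import Fermat.Agent.W1.SEP_helper7_Omega
import Fermat.Agent.JA.SEP_helper6_Omega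
import Fermat.Agent.W1.GEOBASE_helper7_CuspBase
import Fermat.Agent.JA.GEOBASE_helper8_CuspBase
import Fermat.Agent.W1.RED_helper7_Coords
import Fermat.Agent.JA.RED_helper7_Coords
import Fermat.Agent.W1.API_helper7_Lemmas
import Fermat.Agent.JA.SEP_helper6_CuspInst

set_option autoImplicit false
set_option linter.unusedSectionVars false
set_option linter.style.haveILetI false
set_option synthInstance.maxHeartbeats 400000

open HahnSeries IntermediateField AlgebraicCurve ModularCurve Fermat.Agent.Igusa Polynomial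
  Fermat.Agent.X0N
open scoped MatrixGroups
open CongruenceSubgroup

open Fermat.Agent.JA

namespace Fermat.Agent.W1

open scoped Fermat.Agent.JA.Host Fermat.Agent.W1.Host

/-- `Ω = AlgebraicClosure ℚ`. -/
local notation "Ω" => AlgebraicClosure ℚ

section HostLine

variable {R : Type*} [CommRing R] [IsDomain R] {H : Type*} [Field H] [Algebra R H]

end HostLine

section GaussElt

variable {K₁ : Type} [Field K₁] [Algebra ℚ K₁] (R : ValuationSubring K₁) (M : ℕ) [NeZero M] [W1Api M]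

/-- `(j - b)⁻¹` as a Gauss-integral series over any valuation subring. -/
noncomputable def jInvGaussR (b : ℤ) : ↥(gaussRing R M) :=
  ⟨coeffMap (Int.castRingHom ↥R) (jInvZ b), by
    rw [mem_gaussRing_iff, coeffMap_intCast_comp_h7, coeffMap_jInv (jInvZ_spec b)]
    exact inv_mem (sub_mem (jqModC_mem_keyFq _ M) (C_mem_intermediateField_h5 _ _))⟩

@[simp] theorem coe_jInvGaussR (b : ℤ) :
    ((jInvGaussR R M b : ↥(gaussRing R M)) : LaurentSeries ↥R) =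
      coeffMap (Int.castRingHom ↥R) (jInvZ b) := rfl

theorem coe_gaussι_jInvGaussR (b : ℤ) :
    ((gaussι R M (jInvGaussR R M b) : ↥(laurentBaseChange K₁ (F₁ M 1))) :
      LaurentSeries K₁) = (jqModC K₁ - HahnSeries.C (b : K₁))⁻¹ := by
  rw [coe_gaussι, coe_jInvGaussR, coeffMap_intCast_comp_h7, coeffMap_jInv (jInvZ_spec b)]

variable {R M} in
theorem gaussρF_jInvGaussR_mul {k : Type*} [Field k] {π : ↥R →+* k} (h : GaussRes R M π) (b : ℤ) :
    gaussρF h (jInvGaussR R M b) *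
      (jTildeElt k M - algebraMap k ↥(F₁C k M 1) (b : k)) = 1 := by
  apply Subtype.ext
  show coeffMap π (coeffMap (Int.castRingHom ↥R) (jInvZ b)) *
    (jqModC k - algebraMap k (LaurentSeries k) (b : k)) = 1
  rw [coeffMap_intCast_comp_h7, coeffMap_jInv (jInvZ_spec b), algebraMap_laurentSeries_eq_single,
    ← HahnSeries.C_apply]
  refine inv_mul_cancel₀ ?_
  intro h0
  have h1 := jInvZ_spec b
  have h2 := congrArg (coeffMap (Int.castRingHom k)) h1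
  rw [map_mul, map_sub, coeffMap_jqModC, coeffMap_C_h5, map_one, eq_intCast, h0, zero_mul] at h2
  exact zero_ne_one h2

end GaussElt

section Base

variable {ℓ : ℕ} [Fact ℓ.Prime] {A : ValuationSubring Ω} (hA : A.LiesOverPrime ℓ)
  (M : ℕ) [NeZero M] [W1Api M] {K₁ : IntermediateField ℚ Ω}

set_option maxHeartbeats 1600000 in
include hA in
/-- **(SEP-F) at a base, generic host coordinate and generic chart coordinate.** -/
theorem chartSep_baseRing_of_geoHyps_gen (hℓM : ¬ ℓ ∣ M) (hK₁ : IsBase ℓ K₁)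
    [IsDiscreteValuationRing ↥(baseRing A K₁)] (w : ℕ) [NeZero w]
    {ϖ : ↥(baseRing A K₁)} (hϖ : Irreducible ϖ) (t : LaurentSeries ↥K₁)
    [Fact ((↥K₁)⟮jqNModC ↥K₁ w⟯ ≤ keyFw ↥K₁ M w)] [Fact ((↥K₁)⟮jqNModC ↥K₁ w⟯ ≤ (↥K₁)⟮t⟯)]
    (S : Finset ↥(baseRing A K₁)) (τ : ↥(↥K₁)⟮t⟯)
    (hgeo : GeoHyps ↥K₁ (K := ↥(↥K₁)⟮t⟯) ϖ τ ↥(Host.Etu (keyFw ↥K₁ M w) t 1) M S)
    (hline : ∀ 𝒢t : ValuationSubring ↥(↥K₁)⟮t⟯,
      IsGaussAt ↥(baseRing A K₁) ϖ τ 𝒢t →
      IsGaussAt ↥(baseRing A K₁) ϖ (AdjoinSimple.gen ↥K₁ (jqNModC ↥K₁ w))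
        (𝒢t.comap (algebraMap ↥(↥K₁)⟮jqNModC ↥K₁ w⟯ ↥(↥K₁)⟮t⟯)) ∧
      ∀ x ∈ 𝒢t, IsIntegral ↥(𝒢t.comap (algebraMap ↥(↥K₁)⟮jqNModC ↥K₁ w⟯ ↥(↥K₁)⟮t⟯)) x)
    (P Q U V' : (↥(baseRing A K₁))[X]) (hbez : U * P + V' * Q = 1) (hlc : IsUnit P.leadingCoeff)
    (hdegPQ : Q.natDegree < P.natDegree) (hQπ : ¬ Polynomial.C ϖ ∣ Q)
    (htint : IsIntegral ↥(↥K₁)⟮jqNModC ↥K₁ w⟯ t)
    (h₁ : GaussRes (baseRing A K₁) M
      ((baseResidueMap A K₁).comp (IsLocalRing.residue ↥(baseRing A K₁))))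
    (zG : ↥(gaussRing (baseRing A K₁) M))
    (hz : qExpand ↥K₁ w (coeffMap (baseRing A K₁).subtype
          (zG : LaurentSeries ↥(baseRing A K₁))) *
        aeval (τ : LaurentSeries ↥K₁) (Q.map (algebraMap ↥(baseRing A K₁) ↥K₁)) =
      aeval (τ : LaurentSeries ↥K₁) (P.map (algebraMap ↥(baseRing A K₁) ↥K₁)))
    (htrz : Transcendental (IsLocalRing.ResidueField ↥A) (gaussρF h₁ zG))
    [FiniteDimensional (IsLocalRing.ResidueField ↥A)⟮gaussρF h₁ zG⟯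
      ↥(F₁C (IsLocalRing.ResidueField ↥A) M 1)]
    [Algebra.IsSeparable (IsLocalRing.ResidueField ↥A)⟮gaussρF h₁ zG⟯
      ↥(F₁C (IsLocalRing.ResidueField ↥A) M 1)] :
    ChartSep h₁ (gaussι (baseRing A K₁) M zG)
      (fun Q => gaussρF h₁ zG ∈ Q.toValuationSubring) := by
  letI : Algebra ↥K₁ ℂ :=
    (((IsAlgClosed.lift : Ω →ₐ[ℚ] ℂ) : Ω →+* ℂ).comp (algebraMap ↥K₁ Ω)).toAlgebra
  haveI : IsScalarTower ℚ ↥K₁ ℂ := IsScalarTower.of_algebraMap_eq' (Subsingleton.elim _ _)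
  haveI : Module.Finite ↥(↥K₁)⟮jqNModC ↥K₁ w⟯ ↥(keyFw ↥K₁ M w) := finite_keyFw_base hA M w
  have hσ := hK₁.baseResidueMap_bijective hA
  have hFq : keyFq ↥K₁ M ≤ gaussField ↥(baseRing A K₁) ↥K₁ :=
    laurentBaseChange_full_le_gaussField ↥(baseRing A K₁) ↥K₁ M
  have hmemW : ∀ W : ValuationSubring ↥(keyFq ↥K₁ M),
      (∀ c : ↥(keyFq ↥K₁ M), (c : LaurentSeries ↥K₁) ∈
          (↥K₁)⟮emb ↥(baseRing A K₁) ↥K₁ (jqModC ↥(baseRing A K₁))⟯ →
        (c ∈ W ↔ (c : LaurentSeries ↥K₁) ∈ gaussInt ↥(baseRing A K₁) ↥K₁)) →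
      ∀ z : ↥(keyFq ↥K₁ M), (z : LaurentSeries ↥K₁) ∈ gaussInt ↥(baseRing A K₁) ↥K₁ → z ∈ W :=
    fun W hW z hz => mem_of_mem_gaussInt_baseRing hA M hℓM hK₁ W hW z hz
  refine chartSep_of_geoHyps_gen (baseRing A K₁) M w hϖ hFq hmemW (baseResidueMap A K₁) hσ.2 ?_ ?_
    t S τ hgeo hline P Q U V' hbez hlc hdegPQ hQπ htint h₁ zG hz htrz
  · -- (RES)
    exact hRES_baseRing hA M hℓM hK₁
  · -- (LIFT)
    exact hLIFT_baseRing hA M hℓM hK₁

set_option maxHeartbeats 1600000 in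
include hA in
/-- **(SEP-F) at a base for the cusp chart, `ℓ ≠ 2`** (Legendre coordinate `(t - r)⁻¹`). -/
theorem chartSep_cusp_baseRing_of_ne_two (hℓM : ¬ ℓ ∣ M) (hK₁ : IsBase ℓ K₁) (hℓ2 : ℓ ≠ 2)
    [IsDiscreteValuationRing ↥(baseRing A K₁)] (b : ℤ) (r : ↥(baseRing A K₁))
    (hroot : 256 * (r ^ 2 - r + 1) ^ 3 = (b : ↥(baseRing A K₁)) * (r ^ 2 * (r - 1) ^ 2))
    (hr0 : IsUnit r) (hr1 : IsUnit (r - 1))
    (h₁ : GaussRes (baseRing A K₁) M
      ((baseResidueMap A K₁).comp (IsLocalRing.residue ↥(baseRing A K₁)))) :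
    ChartSep h₁ (gaussι (baseRing A K₁) M (jInvGaussR (baseRing A K₁) M b))
      (fun Q => gaussρF h₁ (jInvGaussR (baseRing A K₁) M b) ∈ Q.toValuationSubring) := by
  classical
  haveI : CharZero ↥(baseRing A K₁) := charZero_valuationSubring_of_algebraRat _
  obtain ⟨ϖ, hϖ⟩ := IsDiscreteValuationRing.exists_irreducible ↥(baseRing A K₁)
  have hℓ2' : ¬ ℓ ∣ 2 := fun h =>
    hℓ2 ((Nat.prime_dvd_prime_iff_eq (Fact.out : ℓ.Prime) Nat.prime_two).mp h)
  have hℓ256 : ¬ ℓ ∣ 256 := fun h =>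
    hℓ2' ((Fact.out : ℓ.Prime).dvd_of_dvd_pow (show ℓ ∣ 2 ^ 8 by norm_num; exact h))
  have h2res : (2 : IsLocalRing.ResidueField ↥(baseRing A K₁)) ≠ 0 := by
    have := natCast_residueField_baseRing_ne_zero hA (K₁ := K₁) hℓ2'
    exact_mod_cast this
  have h256 : IsUnit (256 : ↥(baseRing A K₁)) := by
    have := isUnit_natCast_baseRing hA (K₁ := K₁) hℓ256
    exact_mod_cast this
  obtain ⟨c, hc⟩ := h256.exists_right_inv
  obtain ⟨S', hgeo⟩ := geoHyps_legE_cusp_baseRing hA M hℓM hK₁ hℓ2 hϖ r hr0 hr1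
  have hj' : jqNModC ↥K₁ 2 * aeval (legT ↥K₁) (X ^ 2 * (X - 1) ^ 2 : (↥K₁)[X]) =
      aeval (legT ↥K₁) (256 * (X ^ 2 - X + 1) ^ 3 : (↥K₁)[X]) := jqNModC_mul_aeval_legT ↥K₁
  -- the residue field side
  have hmul := gaussρF_jInvGaussR_mul h₁ b
  have htrz := transcendental_of_mul_sub_eq_one hmul
    (transcendental_jTildeElt (IsLocalRing.ResidueField ↥A) M)
  have hK := adjoin_simple_eq_of_mul_sub_eq_one hmul
  haveI := finiteDimensional_fullC_residueField hA M hℓM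
  haveI := isSeparable_fullC_residueField hA M hℓM
  haveI := finiteDimensional_of_intermediateField_eq hK.symm
  haveI := isSeparable_of_intermediateField_eq hK.symm
  -- line data
  have hdA : (sepLegP ↥(baseRing A K₁)).natDegree = 6 := natDegree_sepLegP h256
  have hdB : (sepLegQ ↥(baseRing A K₁)).natDegree = 4 := natDegree_sepLegQ
  have hevB : (sepLegQ ↥(baseRing A K₁)).eval r = r ^ 2 * (r - 1) ^ 2 := by
    simp [sepLegQ]
  have hevA : (sepLegP ↥(baseRing A K₁)).eval r = 256 * (r ^ 2 - r + 1) ^ 3 := by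
    simp [sepLegP]
  have hBunit : IsUnit ((sepLegQ ↥(baseRing A K₁)).eval r) := by
    rw [hevB]; exact (hr0.pow 2).mul (hr1.pow 2)
  have hc0 : (cuspLineQ 6 (sepLegP ↥(baseRing A K₁)) (sepLegQ ↥(baseRing A K₁))
      (b : ↥(baseRing A K₁)) r).coeff 0 = 256 := by
    rw [coeff_zero_cuspLineQ 6 _ _ _ _ hdA (by rw [hdB]; norm_num), leadingCoeff_sepLegP]
  obtain ⟨U, V, hbez⟩ := cuspLine_bezout 6 (sepLegP ↥(baseRing A K₁)) (sepLegQ ↥(baseRing A K₁))
    (b : ↥(baseRing A K₁)) r _ _ hdA.le (by rw [hdB]; norm_num) (sepLeg_bezout c hc)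
    (by rw [hc0]; exact h256)
  refine chartSep_baseRing_of_geoHyps_gen hA M hℓM hK₁ 2 hϖ (legT ↥K₁) S' _ hgeo ?_
    (cuspLineP 6 (sepLegQ ↥(baseRing A K₁)) r)
    (cuspLineQ 6 (sepLegP ↥(baseRing A K₁)) (sepLegQ ↥(baseRing A K₁)) (b : ↥(baseRing A K₁)) r)
    U V hbez ?_ ?_ ?_ (isIntegral_legT ↥K₁) h₁ (jInvGaussR (baseRing A K₁) M b) ?_ htrz
  · intro 𝒢t h𝒢t
    have h1 := isGaussAt_inv ϖ hϖ.prime _ 𝒢t h𝒢t
    rw [inv_inv] at h1
    have h2 := isGaussAt_of_sub r h1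
    obtain ⟨h3, h4, -⟩ := Host.legendre_keyEnd_host (jqNModC ↥K₁ 2) (legT ↥K₁)
      (transcendental_legT ↥K₁) hj' hϖ h2res h2
    exact ⟨h3, h4⟩
  · rw [leadingCoeff_cuspLineP 6 _ r (by rw [hdB]; norm_num) hBunit.ne_zero]; exact hBunit
  · rw [natDegree_cuspLineP 6 _ r (by rw [hdB]; norm_num) hBunit.ne_zero]
    exact natDegree_cuspLineQ_lt 6 _ _ _ r (by norm_num) hdA.le (by rw [hdB]; norm_num)
      (by rw [hevA, hevB]; exact hroot)
  · intro hd
    rw [C_dvd_iff_dvd_coeff] at hd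
    have h0 := hd 0
    rw [hc0] at h0
    exact hϖ.not_isUnit (isUnit_of_dvd_unit h0 h256)
  · have hj'' : jqNModC ↥K₁ 2 * aeval (legT ↥K₁) (sepLegQ ↥(baseRing A K₁)) =
        aeval (legT ↥K₁) (sepLegP ↥(baseRing A K₁)) := by
      rw [← aeval_map_algebraMap ↥K₁ (legT ↥K₁) (sepLegQ ↥(baseRing A K₁)),
        ← aeval_map_algebraMap ↥K₁ (legT ↥K₁) (sepLegP ↥(baseRing A K₁)), map_sepLegP, map_sepLegQ]
      have hP : sepLegP ↥K₁ = (256 * (X ^ 2 - X + 1) ^ 3 : (↥K₁)[X]) := by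
        rw [sepLegP, map_ofNat Polynomial.C 256]
      rw [hP, sepLegQ]
      exact hj'
    have hne : legT ↥K₁ - algebraMap ↥(baseRing A K₁) (LaurentSeries ↥K₁) r ≠ 0 := by
      intro h0
      apply transcendental_legT ↥K₁
      rw [sub_eq_zero.mp h0, IsScalarTower.algebraMap_apply ↥(baseRing A K₁) ↥K₁ (LaurentSeries ↥K₁)]
      exact isAlgebraic_algebraMap _
    have hjb : jqNModC ↥K₁ 2 - algebraMap ↥(baseRing A K₁) (LaurentSeries ↥K₁)
        (b : ↥(baseRing A K₁)) ≠ 0 := by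
      intro h0
      apply transcendental_jqNModC (K₁ := ↥K₁) 2
      rw [sub_eq_zero.mp h0, IsScalarTower.algebraMap_apply ↥(baseRing A K₁) ↥K₁ (LaurentSeries ↥K₁)]
      exact isAlgebraic_algebraMap _
    have hline := cuspLine_host 6 (sepLegP ↥(baseRing A K₁)) (sepLegQ ↥(baseRing A K₁)) hdA.le
      (by rw [hdB]; norm_num) (b : ↥(baseRing A K₁)) r (legT ↥K₁) (jqNModC ↥K₁ 2) hj'' hne hjb
    rw [aeval_map_algebraMap, aeval_map_algebraMap, coe_cuspCoord, coe_jInvGaussR,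
      coeffMap_intCast_comp_h7, coeffMap_jInv (jInvZ_spec b), map_inv₀, map_sub, qExpand_C]
    have hb : (HahnSeries.C (b : ↥K₁) : LaurentSeries ↥K₁) =
        algebraMap ↥(baseRing A K₁) (LaurentSeries ↥K₁) (b : ↥(baseRing A K₁)) := by
      rw [map_intCast, map_intCast]
    rw [hb]
    exact hline

set_option maxHeartbeats 1600000 in
include hA in
/-- **(SEP-F) at a base for the cusp chart, `ℓ ≠ 3`** (Hesse coordinate `(t - r)⁻¹`). -/
theorem chartSep_cusp_baseRing_of_ne_three (hℓM : ¬ ℓ ∣ M) (hK₁ : IsBase ℓ K₁) (hℓ3 : ℓ ≠ 3)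
    [IsDiscreteValuationRing ↥(baseRing A K₁)] (b : ℤ) (r : ↥(baseRing A K₁))
    (hroot : 27 * r ^ 3 * (r ^ 3 + 8) ^ 3 = (b : ↥(baseRing A K₁)) * (r ^ 3 - 1) ^ 3)
    (hr : ∀ c : ↥(baseRing A K₁), c ^ 3 = 1 → IsUnit (c - r))
    (h₁ : GaussRes (baseRing A K₁) M
      ((baseResidueMap A K₁).comp (IsLocalRing.residue ↥(baseRing A K₁)))) :
    ChartSep h₁ (gaussι (baseRing A K₁) M (jInvGaussR (baseRing A K₁) M b))
      (fun Q => gaussρF h₁ (jInvGaussR (baseRing A K₁) M b) ∈ Q.toValuationSubring) := by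
  classical
  haveI : CharZero ↥(baseRing A K₁) := charZero_valuationSubring_of_algebraRat _
  obtain ⟨ϖ, hϖ⟩ := IsDiscreteValuationRing.exists_irreducible ↥(baseRing A K₁)
  have hℓ3' : ¬ ℓ ∣ 3 := fun h =>
    hℓ3 ((Nat.prime_dvd_prime_iff_eq (Fact.out : ℓ.Prime) Nat.prime_three).mp h)
  have hℓ27 : ¬ ℓ ∣ 27 := fun h =>
    hℓ3' ((Fact.out : ℓ.Prime).dvd_of_dvd_pow (show ℓ ∣ 3 ^ 3 by norm_num; exact h))
  have hℓ19683 : ¬ ℓ ∣ 19683 := fun h =>
    hℓ3' ((Fact.out : ℓ.Prime).dvd_of_dvd_pow (show ℓ ∣ 3 ^ 9 by norm_num; exact h))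
  have h3res : (3 : IsLocalRing.ResidueField ↥(baseRing A K₁)) ≠ 0 := by
    have := natCast_residueField_baseRing_ne_zero hA (K₁ := K₁) hℓ3'
    exact_mod_cast this
  have h27 : IsUnit (27 : ↥(baseRing A K₁)) := by
    have := isUnit_natCast_baseRing hA (K₁ := K₁) hℓ27
    exact_mod_cast this
  have h19683 : IsUnit (19683 : ↥(baseRing A K₁)) := by
    have := isUnit_natCast_baseRing hA (K₁ := K₁) hℓ19683
    exact_mod_cast this
  obtain ⟨e, he⟩ := h27.exists_right_inv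
  obtain ⟨d, hd⟩ := h19683.exists_right_inv
  obtain ⟨S', hgeo⟩ := geoHyps_hesE_cusp_baseRing hA M hℓM hK₁ hℓ3 hϖ r hr
  obtain ⟨ω, hω⟩ := exists_cubeRoot_baseRing hA hK₁ hℓ3
  have hω3 : ω ^ 3 = 1 := by linear_combination (ω - 1) * hω
  have hr3 : IsUnit (r ^ 3 - 1) := by
    have h1 : r ^ 3 - 1 = -((1 - r) * (ω - r) * (ω ^ 2 - r)) := by
      linear_combination ((r - 1) * (r - ω + 1)) * hω
    rw [h1]
    exact (((hr 1 (one_pow 3)).mul (hr ω hω3)).mul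
      (hr (ω ^ 2) (by rw [← pow_mul, mul_comm, pow_mul, hω3, one_pow]))).neg
  have hj' : jqNModC ↥K₁ 3 * aeval (hesT ↥K₁) ((X ^ 3 - 1) ^ 3 : (↥K₁)[X]) =
      aeval (hesT ↥K₁) (27 * X ^ 3 * (X ^ 3 + 8) ^ 3 : (↥K₁)[X]) := jqNModC_mul_aeval_hesT ↥K₁
  -- the residue field side
  have hmul := gaussρF_jInvGaussR_mul h₁ b
  have htrz := transcendental_of_mul_sub_eq_one hmul
    (transcendental_jTildeElt (IsLocalRing.ResidueField ↥A) M)
  have hK := adjoin_simple_eq_of_mul_sub_eq_one hmul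
  haveI := finiteDimensional_fullC_residueField hA M hℓM
  haveI := isSeparable_fullC_residueField hA M hℓM
  haveI := finiteDimensional_of_intermediateField_eq hK.symm
  haveI := isSeparable_of_intermediateField_eq hK.symm
  -- line data
  have hdA : (sepHesP ↥(baseRing A K₁)).natDegree = 12 := natDegree_sepHesP h27
  have hdB : (sepHesQ ↥(baseRing A K₁)).natDegree = 9 := natDegree_sepHesQ
  have hevB : (sepHesQ ↥(baseRing A K₁)).eval r = (r ^ 3 - 1) ^ 3 := by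
    simp [sepHesQ]
  have hevA : (sepHesP ↥(baseRing A K₁)).eval r = 27 * (r ^ 3 * (r ^ 3 + 8) ^ 3) := by
    simp [sepHesP]
  have hBunit : IsUnit ((sepHesQ ↥(baseRing A K₁)).eval r) := by
    rw [hevB]; exact hr3.pow 3
  have hc0 : (cuspLineQ 12 (sepHesP ↥(baseRing A K₁)) (sepHesQ ↥(baseRing A K₁))
      (b : ↥(baseRing A K₁)) r).coeff 0 = 27 := by
    rw [coeff_zero_cuspLineQ 12 _ _ _ _ hdA (by rw [hdB]; norm_num), leadingCoeff_sepHesP]
  obtain ⟨U, V, hbez⟩ := cuspLine_bezout 12 (sepHesP ↥(baseRing A K₁)) (sepHesQ ↥(baseRing A K₁))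
    (b : ↥(baseRing A K₁)) r _ _ hdA.le (by rw [hdB]; norm_num) (sepHes_bezout d e hd he)
    (by rw [hc0]; exact h27)
  refine chartSep_baseRing_of_geoHyps_gen hA M hℓM hK₁ 3 hϖ (hesT ↥K₁) S' _ hgeo ?_
    (cuspLineP 12 (sepHesQ ↥(baseRing A K₁)) r)
    (cuspLineQ 12 (sepHesP ↥(baseRing A K₁)) (sepHesQ ↥(baseRing A K₁)) (b : ↥(baseRing A K₁)) r)
    U V hbez ?_ ?_ ?_ (isIntegral_hesT ↥K₁) h₁ (jInvGaussR (baseRing A K₁) M b) ?_ htrz
  · intro 𝒢t h𝒢t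
    have h1 := isGaussAt_inv ϖ hϖ.prime _ 𝒢t h𝒢t
    rw [inv_inv] at h1
    have h2 := isGaussAt_of_sub r h1
    obtain ⟨h3, h4, -⟩ := Host.hesse_keyEnd_host (jqNModC ↥K₁ 3) (hesT ↥K₁)
      (transcendental_hesT ↥K₁) hj' hϖ h3res h2
    exact ⟨h3, h4⟩
  · rw [leadingCoeff_cuspLineP 12 _ r (by rw [hdB]; norm_num) hBunit.ne_zero]; exact hBunit
  · rw [natDegree_cuspLineP 12 _ r (by rw [hdB]; norm_num) hBunit.ne_zero]
    exact natDegree_cuspLineQ_lt 12 _ _ _ r (by norm_num) hdA.le (by rw [hdB]; norm_num)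
      (by rw [hevA, hevB, ← hroot]; ring)
  · intro hd'
    rw [C_dvd_iff_dvd_coeff] at hd'
    have h0 := hd' 0
    rw [hc0] at h0
    exact hϖ.not_isUnit (isUnit_of_dvd_unit h0 h27)
  · have hj'' : jqNModC ↥K₁ 3 * aeval (hesT ↥K₁) (sepHesQ ↥(baseRing A K₁)) =
        aeval (hesT ↥K₁) (sepHesP ↥(baseRing A K₁)) := by
      rw [← aeval_map_algebraMap ↥K₁ (hesT ↥K₁) (sepHesQ ↥(baseRing A K₁)),
        ← aeval_map_algebraMap ↥K₁ (hesT ↥K₁) (sepHesP ↥(baseRing A K₁)), map_sepHesP, map_sepHesQ]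
      have hP : sepHesP ↥K₁ = (27 * X ^ 3 * (X ^ 3 + 8) ^ 3 : (↥K₁)[X]) := by
        rw [sepHesP, map_ofNat Polynomial.C 27, mul_assoc]
      rw [hP, sepHesQ]
      exact hj'
    have hne : hesT ↥K₁ - algebraMap ↥(baseRing A K₁) (LaurentSeries ↥K₁) r ≠ 0 := by
      intro h0
      apply transcendental_hesT ↥K₁
      rw [sub_eq_zero.mp h0, IsScalarTower.algebraMap_apply ↥(baseRing A K₁) ↥K₁ (LaurentSeries ↥K₁)]
      exact isAlgebraic_algebraMap _
    have hjb : jqNModC ↥K₁ 3 - algebraMap ↥(baseRing A K₁) (LaurentSeries ↥K₁)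
        (b : ↥(baseRing A K₁)) ≠ 0 := by
      intro h0
      apply transcendental_jqNModC (K₁ := ↥K₁) 3
      rw [sub_eq_zero.mp h0, IsScalarTower.algebraMap_apply ↥(baseRing A K₁) ↥K₁ (LaurentSeries ↥K₁)]
      exact isAlgebraic_algebraMap _
    have hline := cuspLine_host 12 (sepHesP ↥(baseRing A K₁)) (sepHesQ ↥(baseRing A K₁)) hdA.le
      (by rw [hdB]; norm_num) (b : ↥(baseRing A K₁)) r (hesT ↥K₁) (jqNModC ↥K₁ 3) hj'' hne hjb
    rw [aeval_map_algebraMap, aeval_map_algebraMap, coe_cuspCoord, coe_jInvGaussR,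
      coeffMap_intCast_comp_h7, coeffMap_jInv (jInvZ_spec b), map_inv₀, map_sub, qExpand_C]
    have hb : (HahnSeries.C (b : ↥K₁) : LaurentSeries ↥K₁) =
        algebraMap ↥(baseRing A K₁) (LaurentSeries ↥K₁) (b : ↥(baseRing A K₁)) := by
      rw [map_intCast, map_intCast]
    rw [hb]
    exact hline

end Base

section Omega

variable {ℓ : ℕ} [Fact ℓ.Prime] {A : ValuationSubring Ω} (hA : A.LiesOverPrime ℓ)
  (M : ℕ) [NeZero M] [W1Api M]

theorem baseToBar_gaussι_jInvGaussR (K₁ : IntermediateField ℚ Ω) (b : ℤ) :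
    baseToBar M K₁ (gaussι (baseRing A K₁) M (jInvGaussR (baseRing A K₁) M b)) =
      jInvBar M b := by
  apply Subtype.ext
  rw [coe_baseToBar, coe_gaussι, coe_jInvGaussR, coeffMap_intCast_comp_h7,
    coeffMap_intCast_comp_h7, coeffMap_jInv (jInvZ_spec b), coe_jInvBar]

theorem gaussρF_jInvGauss_eq_base (K₁ : IntermediateField ℚ Ω)
    (h : GaussRes A M (IsLocalRing.residue ↥A)) (b : ℤ) :
    gaussρF h (jInvGauss A M b) =
      gaussρF (gaussRes_baseRing (K₁ := K₁) M h) (jInvGaussR (baseRing A K₁) M b) := by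
  apply Subtype.ext
  rw [coe_gaussρF, coe_gaussρF, coe_jInvGauss, coe_jInvGaussR, coeffMap_intCast_comp_h7,
    coeffMap_intCast_comp_h7]

include hA in
/-- **(SEP-F) over `Ω` for the cusp chart** `z = (j - b)⁻¹`, `b : ℤ` arbitrary = helper7's
`hsep₂`. -/
theorem chartSep_jInvBar (hℓM : ¬ ℓ ∣ M) (h : GaussRes A M (IsLocalRing.residue ↥A)) (b : ℤ) :
    ChartSep h (jInvBar M b)
      (fun Q => gaussρF h (jInvGauss A M b) ∈ Q.toValuationSubring) := by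
  have hK₁ : IsBase ℓ (flatBase ℓ) := isBase_flatBase
  have key : ∃ K₂ : IntermediateField ℚ Ω,
      ChartSep (gaussRes_baseRing (K₁ := K₂) M h)
        (gaussι (baseRing A K₂) M (jInvGaussR (baseRing A K₂) M b))
        (fun Q => gaussρF (gaussRes_baseRing (K₁ := K₂) M h)
          (jInvGaussR (baseRing A K₂) M b) ∈ Q.toValuationSubring) := by
    by_cases hℓ2 : ℓ = 2
    · have hℓ3 : ℓ ≠ 3 := by omega
      obtain ⟨K₂, hK₂, -, r, hroot, hr⟩ := exists_isBase_root_hesse hA hK₁ hℓ3 b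
      haveI := hK₂.isDiscreteValuationRing hA
      exact ⟨K₂, chartSep_cusp_baseRing_of_ne_three hA M hℓM hK₂ hℓ3 b r hroot hr _⟩
    · obtain ⟨K₂, hK₂, -, r, hroot, hr0, hr1⟩ := exists_isBase_root_legendre hA hK₁ hℓ2 b
      haveI := hK₂.isDiscreteValuationRing hA
      exact ⟨K₂, chartSep_cusp_baseRing_of_ne_two hA M hℓM hK₂ hℓ2 b r hroot hr0 hr1 _⟩
  obtain ⟨K₂, hsep⟩ := key
  intro T hT Q₀ hQ₀
  have hρeq := gaussρF_jInvGauss_eq_base M K₂ h b
  obtain ⟨y₁, h0, hne⟩ := hsep T (fun Q hQ => by rw [← hρeq]; exact hT Q hQ) Q₀ hQ₀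
  have hmem : coeffMap (baseIncl A K₂) (y₁ : LaurentSeries ↥(baseRing A K₂)) ∈
      chartRing A M (jInvBar M b) := by
    have := coeffMap_baseIncl_mem_chartRing M
      (gaussι (baseRing A K₂) M (jInvGaussR (baseRing A K₂) M b)) y₁.2
    rwa [baseToBar_gaussι_jInvGaussR] at this
  have hρ : chartρF h (jInvBar M b) ⟨_, hmem⟩ =
      chartρF (gaussRes_baseRing M h)
        (gaussι (baseRing A K₂) M (jInvGaussR (baseRing A K₂) M b)) y₁ := by
    apply Subtype.ext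
    rw [coe_chartρF, coe_chartρF, coeffMap_coeffMap]
    rfl
  refine ⟨⟨_, hmem⟩, ?_, ?_⟩
  · rw [hρ]; exact h0
  · intro Q hQ hQne
    rw [hρ]
    exact hne Q hQ hQne

end Omega

end Fermat.Agent.W1
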