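/-
W1 — helper7 — PORT of `JA/O1_helper3_Coords` to the field `F₁ M 1` of `X₁(M)` (against `[W1Api M]`);
only the field-specific declarations are restated, the generic ones are imported from the original.
Original header:
-/
/-
J-A third wave, (O1) piece (P3), part 2 (helper3): the two concrete F-coordinates `z₁ = j` and
`z₂ = (j - b)⁻¹` at a base `R₁ = A ∩ K₁`: the Gauss-integral series `jGaussR`, the cover
property `hcover`, and the concrete `hSEP₁`, `hSEP₂`, `hEVAL₁`, `hEVAL₂` of helper1's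
`geo_mapDomain_eq_ord` (the valuation ring `V` and its residue map `resV` are kept abstract, with
the characterising hypotheses `hVmem`, `hresV` of `o1_hSEP` / `o1_hEVAL`).
-/
import Mathlib
import Fermat.Agent.W1.O1_helper7_SepEval
import Fermat.Agent.JA.O1_helper3_SepEval
import Fermat.Agent.W1.API_helper7_Lemmas
import Fermat.Agent.JA.O1_helper3_Coords

set_option autoImplicit false
set_option linter.unusedSectionVars false
set_option linter.style.haveILetI false
set_option synthInstance.maxHeartbeats 400000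

open HahnSeries IntermediateField AlgebraicCurve ModularCurve Fermat.Agent.Igusa Polynomial
  Fermat.Agent.X0N

open Fermat.Agent.JA

namespace Fermat.Agent.W1

section Generic

variable {K₁ : Type} [Field K₁] [Algebra ℚ K₁] (R : ValuationSubring K₁) (M : ℕ) [NeZero M] [W1Api M]

/-- `j` as a Gauss-integral series over any valuation subring of any field of characteristic
zero. -/
noncomputable def jGaussR : ↥(gaussRing R M) :=
  ⟨jqModC ↥R, by
    rw [mem_gaussRing_iff, coeffMap_jqModC]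
    exact jqModC_mem_keyFq _ M⟩

@[simp] theorem coe_jGaussR :
    ((jGaussR R M : ↥(gaussRing R M)) : LaurentSeries ↥R) = jqModC ↥R := rfl

theorem gaussι_jGaussR : gaussι R M (jGaussR R M) = jBase K₁ M := by
  apply Subtype.ext
  rw [coe_gaussι, coe_jGaussR, coeffMap_jqModC]
  rfl

variable {R M} in
theorem gaussρF_jGaussR {k : Type*} [Field k] {π : ↥R →+* k} (h : GaussRes R M π) :
    gaussρF h (jGaussR R M) = jTildeElt k M := by
  apply Subtype.ext
  rw [coe_gaussρF, coe_jGaussR, coeffMap_jqModC, coe_jTildeElt]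

variable {R M} in
/-- **`hcover`**: every place of `F̃` lies in the domain of the chart of `j̃` or of `(j̃ - b)⁻¹`. -/
theorem jTildeElt_mem_or_gaussρF_jInvGaussR_mem {k : Type*} [Field k] {π : ↥R →+* k}
    (h : GaussRes R M π) (b : ℤ) (Q : Place k ↥(F₁C k M 1)) :
    jTildeElt k M ∈ Q.toValuationSubring ∨
      gaussρF h (jInvGaussR R M b) ∈ Q.toValuationSubring := by
  by_cases hj : jTildeElt k M ∈ Q.toValuationSubring
  · exact Or.inl hj
  · right
    have hmul := gaussρF_jInvGaussR_mul h b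
    set c : ↥(F₁C k M 1) :=
      algebraMap k ↥(F₁C k M 1) (b : k) with hc
    have hcmem : c ∈ Q.toValuationSubring := Q.algebraMap_mem' _
    have hsub : jTildeElt k M - c ∉ Q.toValuationSubring := by
      intro h1
      apply hj
      have := Q.toValuationSubring.add_mem _ _ h1 hcmem
      rwa [sub_add_cancel] at this
    have hinv : (jTildeElt k M - c)⁻¹ ∈ Q.toValuationSubring :=
      (Q.toValuationSubring.mem_or_inv_mem _).resolve_left hsub
    have heq : gaussρF h (jInvGaussR R M b) = (jTildeElt k M - c)⁻¹ :=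
      eq_inv_of_mul_eq_one_left hmul
    rw [heq]
    exact hinv

end Generic

section Base

/-- `Ω = AlgebraicClosure ℚ`. -/
local notation "Ω" => AlgebraicClosure ℚ

variable {ℓ : ℕ} [Fact ℓ.Prime] {A : ValuationSubring Ω} (hA : A.LiesOverPrime ℓ)
  (M : ℕ) [NeZero M] [W1Api M] {K₁ : IntermediateField ℚ Ω} [IsDiscreteValuationRing ↥(baseRing A K₁)]
  (h : GaussRes A M (IsLocalRing.residue ↥A))
  (V : ValuationSubring ↥(laurentBaseChange ↥K₁ (F₁ M 1)))
  (hVmem : ∀ x : ↥(laurentBaseChange ↥K₁ (F₁ M 1)),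
    x ∈ V ↔ (x : LaurentSeries ↥K₁) ∈ gaussInt ↥(baseRing A K₁) ↥K₁)
  (resV : ↥V →+* ↥(F₁C (IsLocalRing.ResidueField ↥A) M 1))
  (hresV : ∀ (y : ↥(gaussRing (baseRing A K₁) M)) (hy : gaussι (baseRing A K₁) M y ∈ V),
    resV ⟨gaussι (baseRing A K₁) M y, hy⟩ = gaussρF (gaussRes_baseRing (K₁ := K₁) M h) y)

include hVmem in
/-- Gauss-integral series over `R₁` give elements of `V`. -/
theorem gaussι_mem_of_hVmem (y : ↥(gaussRing (baseRing A K₁) M)) :
    gaussι (baseRing A K₁) M y ∈ V :=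
  (hVmem _).mpr (emb_mem_gaussInt ↥(baseRing A K₁) ↥K₁ (y : LaurentSeries ↥(baseRing A K₁)))

include hVmem hresV in
/-- **`hcover`** in the shape of `geo_mapDomain_eq_ord`. -/
theorem o1_hcover (b : ℤ) (Q : Place (IsLocalRing.ResidueField ↥A)
      ↥(F₁C (IsLocalRing.ResidueField ↥A) M 1)) :
    resV ⟨gaussι (baseRing A K₁) M (jGaussR (baseRing A K₁) M),
        gaussι_mem_of_hVmem M V hVmem _⟩ ∈ Q.toValuationSubring ∨
      resV ⟨gaussι (baseRing A K₁) M (jInvGaussR (baseRing A K₁) M b),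
        gaussι_mem_of_hVmem M V hVmem _⟩ ∈ Q.toValuationSubring := by
  rw [hresV, hresV, gaussρF_jGaussR]
  exact jTildeElt_mem_or_gaussρF_jInvGaussR_mem _ b Q

include hA hVmem hresV in
/-- **`hSEP₁`**: the chart of `j`. -/
theorem o1_hSEP_j (hℓM : ¬ ℓ ∣ M) (hK₁ : IsBase ℓ K₁) :
    ∀ Q Q' : Place (IsLocalRing.ResidueField ↥A)
        ↥(F₁C (IsLocalRing.ResidueField ↥A) M 1),
      resV ⟨gaussι (baseRing A K₁) M (jGaussR (baseRing A K₁) M),
        gaussι_mem_of_hVmem M V hVmem _⟩ ∈ Q.toValuationSubring →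
      resV ⟨gaussι (baseRing A K₁) M (jGaussR (baseRing A K₁) M),
        gaussι_mem_of_hVmem M V hVmem _⟩ ∈ Q'.toValuationSubring → Q' ≠ Q →
      ∃ v : ↥V, IsIntegral ↥(Subring.closure (Set.range
            ((algebraMap ↥K₁ ↥(laurentBaseChange ↥K₁ (F₁ M 1))).comp
              (baseRing A K₁).subtype) ∪
            {gaussι (baseRing A K₁) M (jGaussR (baseRing A K₁) M)}))
          (v : ↥(laurentBaseChange ↥K₁ (F₁ M 1))) ∧
        HasValueAt Q (resV v) 0 ∧ ¬ HasValueAt Q' (resV v) 0 := by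
  refine o1_hSEP (baseRing A K₁) M (gaussRes_baseRing (K₁ := K₁) M h) V hVmem resV hresV
    (jGaussR (baseRing A K₁) M) _ ?_
  rw [gaussι_jGaussR, gaussρF_jGaussR]
  exact chartSep_baseRing hA M hℓM hK₁ _

include hA hVmem hresV in
/-- **`hSEP₂`**, Legendre case `ℓ ≠ 2`: the chart of `(j - b)⁻¹`. -/
theorem o1_hSEP_jInv_of_ne_two (hℓM : ¬ ℓ ∣ M) (hK₁ : IsBase ℓ K₁) (hℓ2 : ℓ ≠ 2) (b : ℤ)
    (r : ↥(baseRing A K₁))
    (hroot : 256 * (r ^ 2 - r + 1) ^ 3 = (b : ↥(baseRing A K₁)) * (r ^ 2 * (r - 1) ^ 2))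
    (hr0 : IsUnit r) (hr1 : IsUnit (r - 1)) :
    ∀ Q Q' : Place (IsLocalRing.ResidueField ↥A)
        ↥(F₁C (IsLocalRing.ResidueField ↥A) M 1),
      resV ⟨gaussι (baseRing A K₁) M (jInvGaussR (baseRing A K₁) M b),
        gaussι_mem_of_hVmem M V hVmem _⟩ ∈ Q.toValuationSubring →
      resV ⟨gaussι (baseRing A K₁) M (jInvGaussR (baseRing A K₁) M b),
        gaussι_mem_of_hVmem M V hVmem _⟩ ∈ Q'.toValuationSubring → Q' ≠ Q →
      ∃ v : ↥V, IsIntegral ↥(Subring.closure (Set.range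
            ((algebraMap ↥K₁ ↥(laurentBaseChange ↥K₁ (F₁ M 1))).comp
              (baseRing A K₁).subtype) ∪
            {gaussι (baseRing A K₁) M (jInvGaussR (baseRing A K₁) M b)}))
          (v : ↥(laurentBaseChange ↥K₁ (F₁ M 1))) ∧
        HasValueAt Q (resV v) 0 ∧ ¬ HasValueAt Q' (resV v) 0 :=
  o1_hSEP (baseRing A K₁) M (gaussRes_baseRing (K₁ := K₁) M h) V hVmem resV hresV
    (jInvGaussR (baseRing A K₁) M b) _
    (chartSep_cusp_baseRing_of_ne_two hA M hℓM hK₁ hℓ2 b r hroot hr0 hr1 _)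

include hA hVmem hresV in
/-- **`hSEP₂`**, Hesse case `ℓ ≠ 3`: the chart of `(j - b)⁻¹`. -/
theorem o1_hSEP_jInv_of_ne_three (hℓM : ¬ ℓ ∣ M) (hK₁ : IsBase ℓ K₁) (hℓ3 : ℓ ≠ 3) (b : ℤ)
    (r : ↥(baseRing A K₁))
    (hroot : 27 * r ^ 3 * (r ^ 3 + 8) ^ 3 = (b : ↥(baseRing A K₁)) * (r ^ 3 - 1) ^ 3)
    (hr : ∀ c : ↥(baseRing A K₁), c ^ 3 = 1 → IsUnit (c - r)) :
    ∀ Q Q' : Place (IsLocalRing.ResidueField ↥A)
        ↥(F₁C (IsLocalRing.ResidueField ↥A) M 1),
      resV ⟨gaussι (baseRing A K₁) M (jInvGaussR (baseRing A K₁) M b),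
        gaussι_mem_of_hVmem M V hVmem _⟩ ∈ Q.toValuationSubring →
      resV ⟨gaussι (baseRing A K₁) M (jInvGaussR (baseRing A K₁) M b),
        gaussι_mem_of_hVmem M V hVmem _⟩ ∈ Q'.toValuationSubring → Q' ≠ Q →
      ∃ v : ↥V, IsIntegral ↥(Subring.closure (Set.range
            ((algebraMap ↥K₁ ↥(laurentBaseChange ↥K₁ (F₁ M 1))).comp
              (baseRing A K₁).subtype) ∪
            {gaussι (baseRing A K₁) M (jInvGaussR (baseRing A K₁) M b)}))
          (v : ↥(laurentBaseChange ↥K₁ (F₁ M 1))) ∧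
        HasValueAt Q (resV v) 0 ∧ ¬ HasValueAt Q' (resV v) 0 :=
  o1_hSEP (baseRing A K₁) M (gaussRes_baseRing (K₁ := K₁) M h) V hVmem resV hresV
    (jInvGaussR (baseRing A K₁) M b) _
    (chartSep_cusp_baseRing_of_ne_three hA M hℓM hK₁ hℓ3 b r hroot hr _)

variable (r : Place Ω ↥(F₁Bar M 1) →
  Place (IsLocalRing.ResidueField ↥A)
    ↥(F₁C (IsLocalRing.ResidueField ↥A) M 1))

include hVmem hresV in
/-- **`hEVAL₁`**: the chart of `j`. -/
theorem o1_hEVAL_j (hev : ChartEval h (jBar M) r) :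
    ∀ (P_F : Place Ω ↥(F₁Bar M 1)) (c : ↥(baseRing A K₁)),
      HasValueAt P_F (baseToBar M K₁ (gaussι (baseRing A K₁) M (jGaussR (baseRing A K₁) M)))
        (algebraMap ↥K₁ Ω (algebraMap ↥(baseRing A K₁) ↥K₁ c)) →
      resV ⟨gaussι (baseRing A K₁) M (jGaussR (baseRing A K₁) M),
        gaussι_mem_of_hVmem M V hVmem _⟩ ∈ (r P_F).toValuationSubring ∧
      ∀ v : ↥V, IsIntegral ↥(Subring.closure (Set.range
            ((algebraMap ↥K₁ ↥(laurentBaseChange ↥K₁ (F₁ M 1))).comp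
              (baseRing A K₁).subtype) ∪
            {gaussι (baseRing A K₁) M (jGaussR (baseRing A K₁) M)}))
          (v : ↥(laurentBaseChange ↥K₁ (F₁ M 1))) →
        ∀ c' : ↥(baseRing A K₁), HasValueAt P_F
            (baseToBar M K₁ (v : ↥(laurentBaseChange ↥K₁ (F₁ M 1))))
            (algebraMap ↥K₁ Ω (algebraMap ↥(baseRing A K₁) ↥K₁ c')) →
          HasValueAt (r P_F) (resV v)
            (baseResidueMap A K₁ (IsLocalRing.residue ↥(baseRing A K₁) c')) := by
  refine o1_hEVAL M h V hVmem resV hresV r (jGaussR (baseRing A K₁) M) _ ?_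
  rw [gaussι_jGaussR, baseToBar_jBase]
  exact hev

include hVmem hresV in
/-- **`hEVAL₂`**: the chart of `(j - b)⁻¹`. -/
theorem o1_hEVAL_jInv (b : ℤ) (hev : ChartEval h (jInvBar M b) r) :
    ∀ (P_F : Place Ω ↥(F₁Bar M 1)) (c : ↥(baseRing A K₁)),
      HasValueAt P_F
        (baseToBar M K₁ (gaussι (baseRing A K₁) M (jInvGaussR (baseRing A K₁) M b)))
        (algebraMap ↥K₁ Ω (algebraMap ↥(baseRing A K₁) ↥K₁ c)) →
      resV ⟨gaussι (baseRing A K₁) M (jInvGaussR (baseRing A K₁) M b),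
        gaussι_mem_of_hVmem M V hVmem _⟩ ∈ (r P_F).toValuationSubring ∧
      ∀ v : ↥V, IsIntegral ↥(Subring.closure (Set.range
            ((algebraMap ↥K₁ ↥(laurentBaseChange ↥K₁ (F₁ M 1))).comp
              (baseRing A K₁).subtype) ∪
            {gaussι (baseRing A K₁) M (jInvGaussR (baseRing A K₁) M b)}))
          (v : ↥(laurentBaseChange ↥K₁ (F₁ M 1))) →
        ∀ c' : ↥(baseRing A K₁), HasValueAt P_F
            (baseToBar M K₁ (v : ↥(laurentBaseChange ↥K₁ (F₁ M 1))))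
            (algebraMap ↥K₁ Ω (algebraMap ↥(baseRing A K₁) ↥K₁ c')) →
          HasValueAt (r P_F) (resV v)
            (baseResidueMap A K₁ (IsLocalRing.residue ↥(baseRing A K₁) c')) := by
  refine o1_hEVAL M h V hVmem resV hresV r (jInvGaussR (baseRing A K₁) M b) _ ?_
  rw [baseToBar_gaussι_jInvGaussR]
  exact hev

end Base

end Fermat.Agent.W1
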