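/-
W1 — helper7 — PORT of `JA/O1_helper3_BaseInst` to the field `F₁ M 1` of `X₁(M)` (against `[W1Api M]`);
only the field-specific declarations are restated, the generic ones are imported from the original.
Original header:
-/
/-
J-A third wave, (O1) piece (P3), part 3 (helper3): `hcover`, `hSEP₁`, `hSEP₂`, `hEVAL₁`, `hEVAL₂`
of helper1's `geo_mapDomain_eq_ord` for helper6's BASE-PKG (`V = baseV`, `resV = baseResV`,
`cR = baseφ`) at the base `R₁ = A ∩ K₁`, `σ = baseResidueMap A K₁`; the two proofs `hFq`, `hRES`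
are arbitrary (proof irrelevance), so the statements apply to any choice made by the assembly.
-/
import Mathlib
import Fermat.Agent.W1.O1_helper7_Coords
import Fermat.Agent.JA.O1_helper3_Coords
import Fermat.Agent.W1.O1_helper7_BasePkg
import Fermat.Agent.JA.O1_helper6_BasePkg
import Fermat.Agent.W1.API_helper7_Lemmas
import Fermat.Agent.JA.O1_helper3_BaseInst

set_option autoImplicit false
set_option linter.unusedSectionVars false
set_option linter.style.haveILetI false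
set_option synthInstance.maxHeartbeats 400000

open HahnSeries IntermediateField AlgebraicCurve ModularCurve Fermat.Agent.Igusa Polynomial
  Fermat.Agent.X0N

open Fermat.Agent.JA

namespace Fermat.Agent.W1

section BaseInst

/-- `Ω = AlgebraicClosure ℚ`. -/
local notation "Ω" => AlgebraicClosure ℚ

variable {ℓ : ℕ} [Fact ℓ.Prime] {A : ValuationSubring Ω} (hA : A.LiesOverPrime ℓ)
  (M : ℕ) [NeZero M] [W1Api M] {K₁ : IntermediateField ℚ Ω} [IsDiscreteValuationRing ↥(baseRing A K₁)]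
  (h : GaussRes A M (IsLocalRing.residue ↥A))
  (hFq : keyFq ↥K₁ M ≤ gaussField ↥(baseRing A K₁) ↥K₁)
  (hRES : ∀ (z : LaurentSeries ↥K₁) (_ : z ∈ keyFq ↥K₁ M)
    (hzi : z ∈ gaussInt ↥(baseRing A K₁) ↥K₁),
    coeffMap (baseResidueMap A K₁) (gaussRed ↥(baseRing A K₁) ↥K₁ ⟨z, hzi⟩) ∈
      F₁C (IsLocalRing.ResidueField ↥A) M 1)

/-- the F-coordinate `z₁ = j` as an element of `baseV`. -/
noncomputable def baseZj : ↥(baseV (baseRing A K₁) M hFq) :=
  ⟨gaussι (baseRing A K₁) M (jGaussR (baseRing A K₁) M), gaussι_mem_baseV _ M hFq _⟩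

/-- the F-coordinate `z₂ = (j - b)⁻¹` as an element of `baseV`. -/
noncomputable def baseZjInv (b : ℤ) : ↥(baseV (baseRing A K₁) M hFq) :=
  ⟨gaussι (baseRing A K₁) M (jInvGaussR (baseRing A K₁) M b), gaussι_mem_baseV _ M hFq _⟩

@[simp] theorem coe_baseZj :
    ((baseZj M hFq : ↥(baseV (baseRing A K₁) M hFq)) : ↥(keyFq ↥K₁ M)) = jBase ↥K₁ M :=
  gaussι_jGaussR _ M

@[simp] theorem coe_baseZjInv (b : ℤ) :
    ((baseZjInv M hFq b : ↥(baseV (baseRing A K₁) M hFq)) : ↥(keyFq ↥K₁ M)) =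
      gaussι (baseRing A K₁) M (jInvGaussR (baseRing A K₁) M b) := rfl

include h in
theorem baseResV_baseZj :
    baseResV (baseRing A K₁) M hFq (baseResidueMap A K₁) hRES (baseZj M hFq) =
      jTildeElt (IsLocalRing.ResidueField ↥A) M := by
  rw [baseZj, baseResV_gaussι (baseRing A K₁) M hFq (baseResidueMap A K₁) hRES
    (gaussRes_baseRing (K₁ := K₁) M h), gaussρF_jGaussR]

theorem baseResV_baseZjInv (b : ℤ) :
    baseResV (baseRing A K₁) M hFq (baseResidueMap A K₁) hRES (baseZjInv M hFq b) =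
      gaussρF (gaussRes_baseRing (K₁ := K₁) M h) (jInvGaussR (baseRing A K₁) M b) := by
  rw [baseZjInv, baseResV_gaussι (baseRing A K₁) M hFq (baseResidueMap A K₁) hRES
    (gaussRes_baseRing (K₁ := K₁) M h)]

theorem baseToBar_baseZj :
    baseToBar M K₁ ((baseZj M hFq : ↥(baseV (baseRing A K₁) M hFq)) : ↥(keyFq ↥K₁ M)) =
      jBar M := by
  rw [coe_baseZj, baseToBar_jBase]

theorem baseToBar_baseZjInv (b : ℤ) :
    baseToBar M K₁ ((baseZjInv M hFq b : ↥(baseV (baseRing A K₁) M hFq)) : ↥(keyFq ↥K₁ M)) =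
      jInvBar M b := by
  rw [coe_baseZjInv, baseToBar_gaussι_jInvGaussR]

include h in
/-- **`hcover`** for the BASE-PKG. -/
theorem base_hcover (b : ℤ) (Q : Place (IsLocalRing.ResidueField ↥A)
      ↥(F₁C (IsLocalRing.ResidueField ↥A) M 1)) :
    baseResV (baseRing A K₁) M hFq (baseResidueMap A K₁) hRES (baseZj M hFq) ∈
        Q.toValuationSubring ∨
      baseResV (baseRing A K₁) M hFq (baseResidueMap A K₁) hRES (baseZjInv M hFq b) ∈
        Q.toValuationSubring :=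
  o1_hcover M h (baseV (baseRing A K₁) M hFq) (mem_baseV_iff _ M hFq)
    (baseResV (baseRing A K₁) M hFq (baseResidueMap A K₁) hRES)
    (fun y _ => baseResV_gaussι (baseRing A K₁) M hFq (baseResidueMap A K₁) hRES
      (gaussRes_baseRing (K₁ := K₁) M h) y) b Q

include hA h in
/-- **`hSEP₁`** for the BASE-PKG (chart of `j`). -/
theorem base_hSEP_j (hℓM : ¬ ℓ ∣ M) (hK₁ : IsBase ℓ K₁) :
    ∀ Q Q' : Place (IsLocalRing.ResidueField ↥A)
        ↥(F₁C (IsLocalRing.ResidueField ↥A) M 1),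
      baseResV (baseRing A K₁) M hFq (baseResidueMap A K₁) hRES (baseZj M hFq) ∈
        Q.toValuationSubring →
      baseResV (baseRing A K₁) M hFq (baseResidueMap A K₁) hRES (baseZj M hFq) ∈
        Q'.toValuationSubring → Q' ≠ Q →
      ∃ v : ↥(baseV (baseRing A K₁) M hFq),
        IsIntegral ↥(Subring.closure (Set.range (baseφ (baseRing A K₁) M) ∪
            {((baseZj M hFq : ↥(baseV (baseRing A K₁) M hFq)) : ↥(keyFq ↥K₁ M))}))
          (v : ↥(keyFq ↥K₁ M)) ∧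
        HasValueAt Q (baseResV (baseRing A K₁) M hFq (baseResidueMap A K₁) hRES v) 0 ∧
        ¬ HasValueAt Q' (baseResV (baseRing A K₁) M hFq (baseResidueMap A K₁) hRES v) 0 :=
  o1_hSEP_j hA M h (baseV (baseRing A K₁) M hFq) (mem_baseV_iff _ M hFq)
    (baseResV (baseRing A K₁) M hFq (baseResidueMap A K₁) hRES)
    (fun y _ => baseResV_gaussι (baseRing A K₁) M hFq (baseResidueMap A K₁) hRES
      (gaussRes_baseRing (K₁ := K₁) M h) y) hℓM hK₁

include hA h in
/-- **`hSEP₂`** for the BASE-PKG (chart of `(j - b)⁻¹`), Legendre case `ℓ ≠ 2`. -/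
theorem base_hSEP_jInv_of_ne_two (hℓM : ¬ ℓ ∣ M) (hK₁ : IsBase ℓ K₁) (hℓ2 : ℓ ≠ 2) (b : ℤ)
    (r : ↥(baseRing A K₁))
    (hroot : 256 * (r ^ 2 - r + 1) ^ 3 = (b : ↥(baseRing A K₁)) * (r ^ 2 * (r - 1) ^ 2))
    (hr0 : IsUnit r) (hr1 : IsUnit (r - 1)) :
    ∀ Q Q' : Place (IsLocalRing.ResidueField ↥A)
        ↥(F₁C (IsLocalRing.ResidueField ↥A) M 1),
      baseResV (baseRing A K₁) M hFq (baseResidueMap A K₁) hRES (baseZjInv M hFq b) ∈
        Q.toValuationSubring →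
      baseResV (baseRing A K₁) M hFq (baseResidueMap A K₁) hRES (baseZjInv M hFq b) ∈
        Q'.toValuationSubring → Q' ≠ Q →
      ∃ v : ↥(baseV (baseRing A K₁) M hFq),
        IsIntegral ↥(Subring.closure (Set.range (baseφ (baseRing A K₁) M) ∪
            {((baseZjInv M hFq b : ↥(baseV (baseRing A K₁) M hFq)) : ↥(keyFq ↥K₁ M))}))
          (v : ↥(keyFq ↥K₁ M)) ∧
        HasValueAt Q (baseResV (baseRing A K₁) M hFq (baseResidueMap A K₁) hRES v) 0 ∧
        ¬ HasValueAt Q' (baseResV (baseRing A K₁) M hFq (baseResidueMap A K₁) hRES v) 0 :=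
  o1_hSEP_jInv_of_ne_two hA M h (baseV (baseRing A K₁) M hFq) (mem_baseV_iff _ M hFq)
    (baseResV (baseRing A K₁) M hFq (baseResidueMap A K₁) hRES)
    (fun y _ => baseResV_gaussι (baseRing A K₁) M hFq (baseResidueMap A K₁) hRES
      (gaussRes_baseRing (K₁ := K₁) M h) y) hℓM hK₁ hℓ2 b r hroot hr0 hr1

include hA h in
/-- **`hSEP₂`** for the BASE-PKG (chart of `(j - b)⁻¹`), Hesse case `ℓ ≠ 3`. -/
theorem base_hSEP_jInv_of_ne_three (hℓM : ¬ ℓ ∣ M) (hK₁ : IsBase ℓ K₁) (hℓ3 : ℓ ≠ 3) (b : ℤ)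
    (r : ↥(baseRing A K₁))
    (hroot : 27 * r ^ 3 * (r ^ 3 + 8) ^ 3 = (b : ↥(baseRing A K₁)) * (r ^ 3 - 1) ^ 3)
    (hr : ∀ c : ↥(baseRing A K₁), c ^ 3 = 1 → IsUnit (c - r)) :
    ∀ Q Q' : Place (IsLocalRing.ResidueField ↥A)
        ↥(F₁C (IsLocalRing.ResidueField ↥A) M 1),
      baseResV (baseRing A K₁) M hFq (baseResidueMap A K₁) hRES (baseZjInv M hFq b) ∈
        Q.toValuationSubring →
      baseResV (baseRing A K₁) M hFq (baseResidueMap A K₁) hRES (baseZjInv M hFq b) ∈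
        Q'.toValuationSubring → Q' ≠ Q →
      ∃ v : ↥(baseV (baseRing A K₁) M hFq),
        IsIntegral ↥(Subring.closure (Set.range (baseφ (baseRing A K₁) M) ∪
            {((baseZjInv M hFq b : ↥(baseV (baseRing A K₁) M hFq)) : ↥(keyFq ↥K₁ M))}))
          (v : ↥(keyFq ↥K₁ M)) ∧
        HasValueAt Q (baseResV (baseRing A K₁) M hFq (baseResidueMap A K₁) hRES v) 0 ∧
        ¬ HasValueAt Q' (baseResV (baseRing A K₁) M hFq (baseResidueMap A K₁) hRES v) 0 :=
  o1_hSEP_jInv_of_ne_three hA M h (baseV (baseRing A K₁) M hFq) (mem_baseV_iff _ M hFq)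
    (baseResV (baseRing A K₁) M hFq (baseResidueMap A K₁) hRES)
    (fun y _ => baseResV_gaussι (baseRing A K₁) M hFq (baseResidueMap A K₁) hRES
      (gaussRes_baseRing (K₁ := K₁) M h) y) hℓM hK₁ hℓ3 b r hroot hr

variable (r : Place Ω ↥(F₁Bar M 1) →
  Place (IsLocalRing.ResidueField ↥A)
    ↥(F₁C (IsLocalRing.ResidueField ↥A) M 1))

/-- **`hEVAL₁`** for the BASE-PKG (chart of `j`). -/
theorem base_hEVAL_j (hev : ChartEval h (jBar M) r) :
    ∀ (P_F : Place Ω ↥(F₁Bar M 1)) (c : ↥(baseRing A K₁)),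
      HasValueAt P_F
        (baseToBar M K₁ ((baseZj M hFq : ↥(baseV (baseRing A K₁) M hFq)) : ↥(keyFq ↥K₁ M)))
        (algebraMap ↥K₁ Ω (algebraMap ↥(baseRing A K₁) ↥K₁ c)) →
      baseResV (baseRing A K₁) M hFq (baseResidueMap A K₁) hRES (baseZj M hFq) ∈
        (r P_F).toValuationSubring ∧
      ∀ v : ↥(baseV (baseRing A K₁) M hFq),
        IsIntegral ↥(Subring.closure (Set.range (baseφ (baseRing A K₁) M) ∪
            {((baseZj M hFq : ↥(baseV (baseRing A K₁) M hFq)) : ↥(keyFq ↥K₁ M))}))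
          (v : ↥(keyFq ↥K₁ M)) →
        ∀ c' : ↥(baseRing A K₁), HasValueAt P_F (baseToBar M K₁ (v : ↥(keyFq ↥K₁ M)))
            (algebraMap ↥K₁ Ω (algebraMap ↥(baseRing A K₁) ↥K₁ c')) →
          HasValueAt (r P_F) (baseResV (baseRing A K₁) M hFq (baseResidueMap A K₁) hRES v)
            (((baseResidueMap A K₁).comp (IsLocalRing.residue ↥(baseRing A K₁))) c') :=
  o1_hEVAL_j M h (baseV (baseRing A K₁) M hFq) (mem_baseV_iff _ M hFq)
    (baseResV (baseRing A K₁) M hFq (baseResidueMap A K₁) hRES)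
    (fun y _ => baseResV_gaussι (baseRing A K₁) M hFq (baseResidueMap A K₁) hRES
      (gaussRes_baseRing (K₁ := K₁) M h) y) r hev

/-- **`hEVAL₂`** for the BASE-PKG (chart of `(j - b)⁻¹`). -/
theorem base_hEVAL_jInv (b : ℤ) (hev : ChartEval h (jInvBar M b) r) :
    ∀ (P_F : Place Ω ↥(F₁Bar M 1)) (c : ↥(baseRing A K₁)),
      HasValueAt P_F
        (baseToBar M K₁ ((baseZjInv M hFq b : ↥(baseV (baseRing A K₁) M hFq)) : ↥(keyFq ↥K₁ M)))
        (algebraMap ↥K₁ Ω (algebraMap ↥(baseRing A K₁) ↥K₁ c)) →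
      baseResV (baseRing A K₁) M hFq (baseResidueMap A K₁) hRES (baseZjInv M hFq b) ∈
        (r P_F).toValuationSubring ∧
      ∀ v : ↥(baseV (baseRing A K₁) M hFq),
        IsIntegral ↥(Subring.closure (Set.range (baseφ (baseRing A K₁) M) ∪
            {((baseZjInv M hFq b : ↥(baseV (baseRing A K₁) M hFq)) : ↥(keyFq ↥K₁ M))}))
          (v : ↥(keyFq ↥K₁ M)) →
        ∀ c' : ↥(baseRing A K₁), HasValueAt P_F (baseToBar M K₁ (v : ↥(keyFq ↥K₁ M)))
            (algebraMap ↥K₁ Ω (algebraMap ↥(baseRing A K₁) ↥K₁ c')) →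
          HasValueAt (r P_F) (baseResV (baseRing A K₁) M hFq (baseResidueMap A K₁) hRES v)
            (((baseResidueMap A K₁).comp (IsLocalRing.residue ↥(baseRing A K₁))) c') :=
  o1_hEVAL_jInv M h (baseV (baseRing A K₁) M hFq) (mem_baseV_iff _ M hFq)
    (baseResV (baseRing A K₁) M hFq (baseResidueMap A K₁) hRES)
    (fun y _ => baseResV_gaussι (baseRing A K₁) M hFq (baseResidueMap A K₁) hRES
      (gaussRes_baseRing (K₁ := K₁) M h) y) r b hev

end BaseInst

end Fermat.Agent.W1
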