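/-
W1 — helper7 — PORT of `JA/O1_helper6_BaseDown` to the field `F₁ M 1` of `X₁(M)` (against `[W1Api M]`);
only the field-specific declarations are restated, the generic ones are imported from the original.
Original header:
-/
/-
J-A third wave — helper6 — (P1) BASE-PKG for helper1's (O1), part 2: the `K₀ = K₁(j_w)`-level facts
needed by `down_isSeparable` (`Algebra K₀ F_q` through `ρ`, tower, `𝒢j = V ∩ K₀`,
`𝒢t = integral closure of 𝒢j`, finiteness) and the concrete instances of helper1's abstract DOWN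
layer (`down_isScalarTower`, `down_finrank`, `down_isSeparable`) for the base package.
-/
import Mathlib
import Fermat.Agent.W1.O1_helper7_BasePkg
import Fermat.Agent.JA.O1_helper6_BasePkg
import Fermat.Agent.JA.REDO_helper1_DownGeo
import Fermat.Agent.W1.API_helper7_Lemmas
import Fermat.Agent.JA.O1_helper6_BaseDown

set_option autoImplicit false
set_option linter.unusedSectionVars false
set_option linter.style.haveILetI false
set_option synthInstance.maxHeartbeats 200000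

open HahnSeries IntermediateField AlgebraicCurve ModularCurve Fermat.Agent.Igusa Polynomial

open Fermat.Agent.JA

namespace Fermat.Agent.W1

namespace Host

end Host

open scoped Fermat.Agent.JA.Host Fermat.Agent.W1.Host

section BaseDown

variable {K₁ : Type} [Field K₁] [Algebra ℚ K₁] (R : ValuationSubring K₁)
  [IsDiscreteValuationRing ↥R] (M w : ℕ) [NeZero M] [W1Api M] [NeZero w]
  (hFq : keyFq K₁ M ≤ gaussField ↥R K₁)
  (t : LaurentSeries K₁)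
  [Fact (K₁⟮jqNModC K₁ w⟯ ≤ keyFw K₁ M w)] [Fact (K₁⟮jqNModC K₁ w⟯ ≤ K₁⟮t⟯)]

/-- the algebra `K₁(j_w) → F_q` through `ρ` (use with `letI`). -/
@[reducible] noncomputable def baseAlgK₀F : Algebra ↥K₁⟮jqNModC K₁ w⟯ ↥(keyFq K₁ M) :=
  (baseρ M w).toAlgebra

theorem baseAlgK₀F_isScalarTower :
    letI := baseAlgK₀F (K₁ := K₁) M w
    letI := baseAlgFE M w t
    IsScalarTower ↥K₁⟮jqNModC K₁ w⟯ ↥(keyFq K₁ M) ↥(Host.Etu (keyFw K₁ M w) t 1) := by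
  letI := baseAlgK₀F (K₁ := K₁) M w
  letI := baseAlgFE M w t
  exact IsScalarTower.of_algebraMap_eq fun s => (baseAlgFE_baseρ M w t s).symm

variable {ϖ : ↥R} (hϖ : Irreducible ϖ)
  (𝒢t : ValuationSubring ↥K₁⟮t⟯)
  (h𝒢j : IsGaussAt ↥R ϖ (AdjoinSimple.gen K₁ (jqNModC K₁ w))
    (𝒢t.comap (algebraMap ↥K₁⟮jqNModC K₁ w⟯ ↥K₁⟮t⟯)))

include hϖ h𝒢j in
/-- `(h𝒢₀V)`: `𝒢j = V ∩ K₁(j_w)`. -/
theorem mem_comap_iff_mem_baseV (s : ↥K₁⟮jqNModC K₁ w⟯) :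
    letI := baseAlgK₀F (K₁ := K₁) M w
    s ∈ 𝒢t.comap (algebraMap ↥K₁⟮jqNModC K₁ w⟯ ↥K₁⟮t⟯) ↔
      algebraMap ↥K₁⟮jqNModC K₁ w⟯ ↥(keyFq K₁ M) s ∈ baseV R M hFq := by
  letI := baseAlgK₀F (K₁ := K₁) M w
  rw [comap_eq_baseV_comap R M w hFq t hϖ 𝒢t h𝒢j]
  rfl

variable (hintj : ∀ x ∈ 𝒢t, IsIntegral ↥(𝒢t.comap (algebraMap ↥K₁⟮jqNModC K₁ w⟯ ↥K₁⟮t⟯)) x)

section Concrete

variable
  (hmemW : ∀ W : ValuationSubring ↥(keyFq K₁ M),
    (∀ c : ↥(keyFq K₁ M), (c : LaurentSeries K₁) ∈ K₁⟮emb ↥R K₁ (jqModC ↥R)⟯ →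
      (c ∈ W ↔ (c : LaurentSeries K₁) ∈ gaussInt ↥R K₁)) →
    ∀ z : ↥(keyFq K₁ M), (z : LaurentSeries K₁) ∈ gaussInt ↥R K₁ → z ∈ W)
  {k : Type*} [Field k] (σ : IsLocalRing.ResidueField ↥R →+* k) (hσ : Function.Surjective σ)
  (hRES : ∀ (z : LaurentSeries K₁) (_ : z ∈ keyFq K₁ M) (hzi : z ∈ gaussInt ↥R K₁),
    coeffMap σ (gaussRed ↥R K₁ ⟨z, hzi⟩) ∈ F₁C k M 1)
  (hLIFT : ∀ a ∈ F₁C k M 1, ∃ (z : LaurentSeries K₁)
    (hzi : z ∈ gaussInt ↥R K₁), z ∈ keyFq K₁ M ∧ coeffMap σ (gaussRed ↥R K₁ ⟨z, hzi⟩) = a)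
  [Module.Finite ↥K₁⟮jqNModC K₁ w⟯ ↥(keyFw K₁ M w)]
  {S : Finset ↥R} {τ : ↥K₁⟮t⟯}
  (hgeo : GeoHyps K₁ (K := ↥K₁⟮t⟯) ϖ τ ↥(Host.Etu (keyFw K₁ M w) t 1) M S)
  (h𝒢t : IsGaussAt ↥R ϖ τ 𝒢t)

set_option maxHeartbeats 1600000 in
include hσ in
/-- the `k`-tower `k → F̃ → κ(W)` of the base package. -/
theorem base_down_isScalarTower :
    haveI : CharZero ↥R := charZero_valuationSubring_of_algebraRat R
    letI := baseAlgFE M w t
    haveI := hgeo.isLocalRing 𝒢t h𝒢t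
    letI := geoAlgKEt hgeo.irreducible 𝒢t (fun r => h𝒢t.algebraMap_mem r)
      (residue_gaussConst_pi hgeo 𝒢t h𝒢t) (σ.comp (IsLocalRing.residue ↥R))
      (baseRes_surjective R σ hσ)
    letI := downAlg 𝒢t (baseV R M hFq)
      (mem_baseV_iff_isIntegral R M w hFq t hϖ 𝒢t h𝒢j hmemW hgeo h𝒢t)
      (baseResV R M hFq σ hRES) (baseResV_surjective R M hFq σ hRES hLIFT)
    IsScalarTower k ↥(F₁C k M 1)
      (IsLocalRing.ResidueField ↥(integralClosure ↥𝒢t ↥(Host.Etu (keyFw K₁ M w) t 1))) := by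
  haveI : CharZero ↥R := charZero_valuationSubring_of_algebraRat R
  letI := baseAlgFE M w t
  haveI := hgeo.isLocalRing 𝒢t h𝒢t
  exact down_isScalarTower hgeo 𝒢t h𝒢t (σ.comp (IsLocalRing.residue ↥R))
    (baseRes_surjective R σ hσ) (baseV R M hFq)
    (mem_baseV_iff_isIntegral R M w hFq t hϖ 𝒢t h𝒢j hmemW hgeo h𝒢t)
    (baseResV R M hFq σ hRES) (baseResV_surjective R M hFq σ hRES hLIFT) (baseφ R M)
    (baseAlgFE_baseφ R M w t) (baseResV_const R M hFq σ hRES)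

variable (hintj : ∀ x ∈ 𝒢t, IsIntegral ↥(𝒢t.comap (algebraMap ↥K₁⟮jqNModC K₁ w⟯ ↥K₁⟮t⟯)) x)
  (htint : IsIntegral ↥K₁⟮jqNModC K₁ w⟯ t)

set_option maxHeartbeats 1600000 in
include hσ hintj htint in
/-- **(D4a) for the base package**: `[κ(W) : F̃] = [E : F_q]`. -/
theorem base_down_finrank :
    haveI : CharZero ↥R := charZero_valuationSubring_of_algebraRat R
    letI := baseAlgFE M w t
    haveI := hgeo.isLocalRing 𝒢t h𝒢t
    letI := downAlg 𝒢t (baseV R M hFq)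
      (mem_baseV_iff_isIntegral R M w hFq t hϖ 𝒢t h𝒢j hmemW hgeo h𝒢t)
      (baseResV R M hFq σ hRES) (baseResV_surjective R M hFq σ hRES hLIFT)
    Module.finrank ↥(F₁C k M 1)
        (IsLocalRing.ResidueField ↥(integralClosure ↥𝒢t ↥(Host.Etu (keyFw K₁ M w) t 1))) =
      Module.finrank ↥(keyFq K₁ M) ↥(Host.Etu (keyFw K₁ M w) t 1) := by
  haveI : CharZero ↥R := charZero_valuationSubring_of_algebraRat R
  letI := baseAlgFE M w t
  haveI := hgeo.isLocalRing 𝒢t h𝒢t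
  haveI : Module.Finite ↥(keyFq K₁ M) ↥(Host.Etu (keyFw K₁ M w) t 1) :=
    finite_fullToEtu K₁ M w t htint
  haveI : CharZero ↥(keyFq K₁ M) := algebraRat.charZero _
  exact down_finrank hgeo 𝒢t h𝒢t (σ.comp (IsLocalRing.residue ↥R)) (baseV R M hFq)
    (mem_baseV_iff_isIntegral R M w hFq t hϖ 𝒢t h𝒢j hmemW hgeo h𝒢t)
    (baseResV R M hFq σ hRES) (baseResV_surjective R M hFq σ hRES hLIFT) (baseφ R M)
    (baseAlgFE_baseφ R M w t) (baseResV_const R M hFq σ hRES) (baseRes_pi R hϖ σ)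
    (isIntegral_baseV_of_isIntegral R M w hFq t hϖ 𝒢t h𝒢j hintj)

set_option maxHeartbeats 1600000 in
include hintj htint in
/-- **(D4b) for the base package**: `κ(W) / F̃` is finite separable, given that `K₁(t) / K₁(j_w)`
is unramified at the Gauss place (helper2's `legendre/hesse_unr_gauss_host`). -/
theorem base_down_isSeparable
    (hU₀ : Unr (𝒢t.comap (algebraMap ↥K₁⟮jqNModC K₁ w⟯ ↥K₁⟮t⟯)) ↥K₁⟮t⟯) :
    haveI : CharZero ↥R := charZero_valuationSubring_of_algebraRat R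
    letI := baseAlgFE M w t
    haveI := hgeo.isLocalRing 𝒢t h𝒢t
    letI := downAlg 𝒢t (baseV R M hFq)
      (mem_baseV_iff_isIntegral R M w hFq t hϖ 𝒢t h𝒢j hmemW hgeo h𝒢t)
      (baseResV R M hFq σ hRES) (baseResV_surjective R M hFq σ hRES hLIFT)
    Algebra.IsSeparable ↥(F₁C k M 1)
        (IsLocalRing.ResidueField ↥(integralClosure ↥𝒢t ↥(Host.Etu (keyFw K₁ M w) t 1))) ∧
      Module.Finite ↥(F₁C k M 1)
        (IsLocalRing.ResidueField ↥(integralClosure ↥𝒢t ↥(Host.Etu (keyFw K₁ M w) t 1))) := by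
  haveI : CharZero ↥R := charZero_valuationSubring_of_algebraRat R
  letI := baseAlgFE M w t
  letI := baseAlgK₀F (K₁ := K₁) M w
  haveI := baseAlgK₀F_isScalarTower (K₁ := K₁) M w t
  haveI := hgeo.isLocalRing 𝒢t h𝒢t
  haveI : FiniteDimensional ↥K₁⟮jqNModC K₁ w⟯ ↥K₁⟮t⟯ := Host.finite_Kj_Kt _ t htint
  haveI : FiniteDimensional ↥K₁⟮t⟯ ↥(Host.Etu (keyFw K₁ M w) t 1) := hgeo.finite
  haveI : CharZero ↥K₁⟮jqNModC K₁ w⟯ := algebraRat.charZero _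
  have htrj : Transcendental K₁ (AdjoinSimple.gen K₁ (jqNModC K₁ w)) :=
    Host.transcendental_gen (transcendental_jqNModC w)
  have hKj : IntermediateField.adjoin K₁ {AdjoinSimple.gen K₁ (jqNModC K₁ w)} = ⊤ :=
    Host.adjoin_gen_eq_top _
  haveI : IsDiscreteValuationRing ↥(𝒢t.comap (algebraMap ↥K₁⟮jqNModC K₁ w⟯ ↥K₁⟮t⟯)) :=
    isDiscreteValuationRing_of_isGaussAt ϖ hϖ _ htrj hKj h𝒢j
  haveI : IsDiscreteValuationRing ↥𝒢t :=
    isDiscreteValuationRing_of_isGaussAt ϖ hϖ _ hgeo.transcendental hgeo.adjoin_eq_top h𝒢t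
  exact down_isSeparable (𝒢t.comap (algebraMap ↥K₁⟮jqNModC K₁ w⟯ ↥K₁⟮t⟯)) 𝒢t
    (mem_iff_isIntegral_comap w t 𝒢t hintj) hU₀ (hgeo.gauss 𝒢t h𝒢t) (baseV R M hFq)
    (mem_baseV_iff_isIntegral R M w hFq t hϖ 𝒢t h𝒢j hmemW hgeo h𝒢t)
    (mem_comap_iff_mem_baseV R M w hFq t hϖ 𝒢t h𝒢j)
    (baseResV R M hFq σ hRES) (baseResV_surjective R M hFq σ hRES hLIFT)

end Concrete

end BaseDown

end Fermat.Agent.W1
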