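/-
W1 — helper7 — PORT of `JA/O1_helper6_BaseInst` to the field `F₁ M 1` of `X₁(M)` (against `[W1Api M]`);
only the field-specific declarations are restated, the generic ones are imported from the original.
Original header:
-/
/-
J-A third wave — helper6 — (P1) BASE-PKG for helper1's (O1), part 3: the instance at a base
`R = baseRing A K₁` (`IsBase ℓ K₁`, `ℓ ∤ M`): the generic hypotheses `hFq`, `hmemW`, `hσ`, `hRES`,
`hLIFT`, finiteness of `F_w / K₁(j_w)` of the base package, and the Gauss data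
(`𝒢t`, Gauss for `t` and `t⁻¹`, `𝒢j`, integrality, unramifiedness `hU₀`) for the Legendre
(`ℓ ≠ 2`) and Hesse (`ℓ ≠ 3`) coordinates.
-/
import Mathlib
import Fermat.Agent.W1.O1_helper7_BaseDown
import Fermat.Agent.JA.O1_helper6_BaseDown
import Fermat.Agent.W1.SEP_helper7_Inst
import Fermat.Agent.JA.SEP_helper6_Inst
import Fermat.Agent.JA.LINEHYP_helper2_HostUnr
import Fermat.Agent.JA.CHARTADJ_helper6_Adjoin
import Fermat.Agent.W1.API_helper7_Lemmas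
import Fermat.Agent.JA.O1_helper6_BaseInst

set_option autoImplicit false
set_option linter.unusedSectionVars false
set_option linter.style.haveILetI false
set_option synthInstance.maxHeartbeats 400000

open HahnSeries IntermediateField AlgebraicCurve ModularCurve Fermat.Agent.Igusa Polynomial
open scoped MatrixGroups
open CongruenceSubgroup

open Fermat.Agent.JA

namespace Fermat.Agent.W1

open scoped Fermat.Agent.JA.Host Fermat.Agent.W1.Host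

/-- `Ω = AlgebraicClosure ℚ`. -/
local notation "Ω" => AlgebraicClosure ℚ

section BaseInst

variable {ℓ : ℕ} [Fact ℓ.Prime] {A : ValuationSubring Ω} (hA : A.LiesOverPrime ℓ)
  (M : ℕ) [NeZero M] [W1Api M] {K₁ : IntermediateField ℚ Ω}

set_option maxHeartbeats 3200000 in
include hA in
/-- **the DOWN layer at a base** (generic host coordinate `t`, GEO coordinate `τ`): `κ(W) / F̃` is
finite separable of degree `[E : F_{K₁}]` (for the algebra structures `baseAlgFE`, `downAlg`). -/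
theorem base_down_baseRing (hℓM : ¬ ℓ ∣ M) (hK₁ : IsBase ℓ K₁)
    [IsDiscreteValuationRing ↥(baseRing A K₁)] (w : ℕ) [NeZero w]
    {ϖ : ↥(baseRing A K₁)} (hϖ : Irreducible ϖ) (t : LaurentSeries ↥K₁)
    [Fact ((↥K₁)⟮jqNModC ↥K₁ w⟯ ≤ keyFw ↥K₁ M w)] [Fact ((↥K₁)⟮jqNModC ↥K₁ w⟯ ≤ (↥K₁)⟮t⟯)]
    {S : Finset ↥(baseRing A K₁)} {τ : ↥(↥K₁)⟮t⟯}
    (hgeo : GeoHyps ↥K₁ (K := ↥(↥K₁)⟮t⟯) ϖ τ ↥(Host.Etu (keyFw ↥K₁ M w) t 1) M S)
    (𝒢t : ValuationSubring ↥(↥K₁)⟮t⟯)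
    (h𝒢t : IsGaussAt ↥(baseRing A K₁) ϖ τ 𝒢t)
    (h𝒢j : IsGaussAt ↥(baseRing A K₁) ϖ (AdjoinSimple.gen ↥K₁ (jqNModC ↥K₁ w))
      (𝒢t.comap (algebraMap ↥(↥K₁)⟮jqNModC ↥K₁ w⟯ ↥(↥K₁)⟮t⟯)))
    (hintj : ∀ x ∈ 𝒢t,
      IsIntegral ↥(𝒢t.comap (algebraMap ↥(↥K₁)⟮jqNModC ↥K₁ w⟯ ↥(↥K₁)⟮t⟯)) x)
    (htint : IsIntegral ↥(↥K₁)⟮jqNModC ↥K₁ w⟯ t)
    (hU₀ : Unr (𝒢t.comap (algebraMap ↥(↥K₁)⟮jqNModC ↥K₁ w⟯ ↥(↥K₁)⟮t⟯)) ↥(↥K₁)⟮t⟯) :
    haveI : CharZero ↥(baseRing A K₁) := charZero_valuationSubring_of_algebraRat _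
    haveI : Module.Finite ↥(↥K₁)⟮jqNModC ↥K₁ w⟯ ↥(keyFw ↥K₁ M w) := finite_keyFw_base hA M w
    letI := baseAlgFE (K₁ := ↥K₁) M w t
    haveI := hgeo.isLocalRing 𝒢t h𝒢t
    letI := downAlg 𝒢t (baseV (baseRing A K₁) M (hFq_baseRing M))
      (mem_baseV_iff_isIntegral (baseRing A K₁) M w (hFq_baseRing M) t hϖ 𝒢t h𝒢j
        (hmemW_baseRing hA M hℓM hK₁) hgeo h𝒢t)
      (baseResV (baseRing A K₁) M (hFq_baseRing M) (baseResidueMap A K₁)
        (hRES_baseRing hA M hℓM hK₁))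
      (baseResV_surjective (baseRing A K₁) M (hFq_baseRing M) (baseResidueMap A K₁)
        (hRES_baseRing hA M hℓM hK₁) (hLIFT_baseRing hA M hℓM hK₁))
    Algebra.IsSeparable ↥(F₁C (IsLocalRing.ResidueField ↥A) M 1)
        (IsLocalRing.ResidueField ↥(integralClosure ↥𝒢t ↥(Host.Etu (keyFw ↥K₁ M w) t 1))) ∧
      Module.Finite ↥(F₁C (IsLocalRing.ResidueField ↥A) M 1)
        (IsLocalRing.ResidueField ↥(integralClosure ↥𝒢t ↥(Host.Etu (keyFw ↥K₁ M w) t 1))) ∧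
      Module.finrank ↥(F₁C (IsLocalRing.ResidueField ↥A) M 1)
        (IsLocalRing.ResidueField ↥(integralClosure ↥𝒢t ↥(Host.Etu (keyFw ↥K₁ M w) t 1))) =
        Module.finrank ↥(keyFq ↥K₁ M) ↥(Host.Etu (keyFw ↥K₁ M w) t 1) := by
  haveI : CharZero ↥(baseRing A K₁) := charZero_valuationSubring_of_algebraRat _
  haveI : Module.Finite ↥(↥K₁)⟮jqNModC ↥K₁ w⟯ ↥(keyFw ↥K₁ M w) := finite_keyFw_base hA M w
  have hsep := base_down_isSeparable (baseRing A K₁) M w (hFq_baseRing M) t hϖ 𝒢t h𝒢j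
    hintj (hmemW_baseRing hA M hℓM hK₁) (baseResidueMap A K₁) (hRES_baseRing hA M hℓM hK₁)
    (hLIFT_baseRing hA M hℓM hK₁) hgeo h𝒢t htint hU₀
  have hfr := base_down_finrank (baseRing A K₁) M w (hFq_baseRing M) t hϖ 𝒢t h𝒢j
    hintj (hmemW_baseRing hA M hℓM hK₁) (baseResidueMap A K₁)
    (hK₁.baseResidueMap_bijective hA).2 (hRES_baseRing hA M hℓM hK₁)
    (hLIFT_baseRing hA M hℓM hK₁) hgeo h𝒢t htint
  exact ⟨hsep.1, hsep.2, hfr⟩

end BaseInst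

end Fermat.Agent.W1
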