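/-
W1 — helper7 — PORT of `JA/O1_helper8_FChartConc` to the field `F₁ M 1` of `X₁(M)` (against `[W1Api M]`);
only the field-specific declarations are restated, the generic ones are imported from the original.
Original header:
-/
/-
J-A third wave, (O1) package (P2), part 3 — helper8 — the CONCRETE coprime fraction data of
helper1's `geo_mapDomain_eq_ord` in helper6's base package: `F₁ = F_q = keyFq K₁ M`,
`E = Etu (keyFw K₁ M w) t 1` with the algebra `baseAlgFE M w t`, the GEO coordinate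
`τ ∈ K₁(t)`, for the two F-coordinates `z₁ = j` (`jGaussR`) and `z₂ = (j - b)⁻¹` (`jInvGaussR`),
in the two E-charts `τ`, `τ⁻¹`; then the Legendre (`w = 2`, `256` invertible) and Hesse (`w = 3`,
`27` invertible) instances with `τ = t` the canonical coordinate.
-/
import Mathlib
import Fermat.Agent.W1.O1_helper7_BaseDown
import Fermat.Agent.JA.O1_helper6_BaseDown
import Fermat.Agent.W1.O1_helper7_Coords
import Fermat.Agent.JA.O1_helper3_Coords
import Fermat.Agent.JA.O1_helper8_FChartLit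
import Fermat.Agent.W1.API_helper7_Lemmas
import Fermat.Agent.JA.O1_helper8_FChartConc

set_option autoImplicit false
set_option linter.unusedSectionVars false
set_option linter.style.haveILetI false
set_option synthInstance.maxHeartbeats 200000

open HahnSeries IntermediateField AlgebraicCurve ModularCurve Fermat.Agent.Igusa Polynomial

open Fermat.Agent.JA

namespace Fermat.Agent.W1

open scoped Fermat.Agent.JA.Host Fermat.Agent.W1.Host

section Gen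

variable {K₁ : Type} [Field K₁] [Algebra ℚ K₁] (R : ValuationSubring K₁)
  (M w : ℕ) [NeZero M] [W1Api M] [NeZero w] (t : LaurentSeries K₁)
  [Fact (K₁⟮jqNModC K₁ w⟯ ≤ keyFw K₁ M w)] [Fact (K₁⟮jqNModC K₁ w⟯ ≤ K₁⟮t⟯)]

/-- helper6's `coe_baseAlgFE_algebraMap`, restated (cheap for the kernel). -/
theorem coe_baseAlgFE_algebraMap' (x : ↥(keyFq K₁ M)) :
    letI := baseAlgFE M w t
    ((algebraMap ↥(keyFq K₁ M) ↥(Host.Etu (keyFw K₁ M w) t 1) x :
      ↥(Host.Etu (keyFw K₁ M w) t 1)) : LaurentSeries K₁) =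
      qExpand K₁ w (x : LaurentSeries K₁) :=
  coe_baseAlgFE_algebraMap M w t x

/-- **the line relation in `E`** from the line relation in the host (the shape of the hypothesis
`hz` of helper6's `chartSep_of_geoHyps_gen`). -/
theorem o1_line_host (τ : ↥K₁⟮t⟯) (P Q : (↥R)[X]) (zG : ↥(gaussRing R M))
    (hz : qExpand K₁ w (coeffMap R.subtype (zG : LaurentSeries ↥R)) *
        aeval (τ : LaurentSeries K₁) (Q.map (algebraMap ↥R K₁)) =
      aeval (τ : LaurentSeries K₁) (P.map (algebraMap ↥R K₁))) :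
    letI := baseAlgFE M w t
    algebraMap ↥(keyFq K₁ M) ↥(Host.Etu (keyFw K₁ M w) t 1) (gaussι R M zG) *
        algebraMap ↥K₁⟮t⟯ ↥(Host.Etu (keyFw K₁ M w) t 1) (aeval τ Q) =
      algebraMap ↥K₁⟮t⟯ ↥(Host.Etu (keyFw K₁ M w) t 1) (aeval τ P) := by
  letI := baseAlgFE M w t
  have h1 : ((algebraMap ↥(keyFq K₁ M) ↥(Host.Etu (keyFw K₁ M w) t 1) (gaussι R M zG) :
      ↥(Host.Etu (keyFw K₁ M w) t 1)) : LaurentSeries K₁) =
      qExpand K₁ w ((gaussι R M zG : ↥(keyFq K₁ M)) : LaurentSeries K₁) :=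
    coe_baseAlgFE_algebraMap' M w t (gaussι R M zG)
  have h2 : ∀ y : ↥K₁⟮t⟯, ((algebraMap ↥K₁⟮t⟯ ↥(Host.Etu (keyFw K₁ M w) t 1) y :
      ↥(Host.Etu (keyFw K₁ M w) t 1)) : LaurentSeries K₁) = (y : LaurentSeries K₁) :=
    fun y => Host.coe_algebraMap _ _ y
  apply Subtype.ext
  rw [MulMemClass.coe_mul, h1, h2, h2, coe_aeval_adjoinSimple, coe_aeval_adjoinSimple,
    coe_gaussι]
  exact hz

/-- the relation `z₂ · (z₁ - b) = 1` in `E` for `z₁ = j`, `z₂ = (j - b)⁻¹`. -/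
theorem o1_jInv_mul_host (b : ℤ) :
    letI := baseAlgFE M w t
    algebraMap ↥(keyFq K₁ M) ↥(Host.Etu (keyFw K₁ M w) t 1) (gaussι R M (jInvGaussR R M b)) *
      (algebraMap ↥(keyFq K₁ M) ↥(Host.Etu (keyFw K₁ M w) t 1) (gaussι R M (jGaussR R M)) -
        algebraMap ↥R ↥(Host.Etu (keyFw K₁ M w) t 1) (b : ↥R)) = 1 := by
  letI := baseAlgFE M w t
  have hb : algebraMap ↥R ↥(Host.Etu (keyFw K₁ M w) t 1) (b : ↥R) =
      algebraMap ↥(keyFq K₁ M) ↥(Host.Etu (keyFw K₁ M w) t 1)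
        (algebraMap K₁ ↥(keyFq K₁ M) (b : K₁)) := by
    rw [map_intCast, map_intCast, map_intCast]
  have hne : (gaussι R M (jGaussR R M) - algebraMap K₁ ↥(keyFq K₁ M) (b : K₁) :
      ↥(keyFq K₁ M)) ≠ 0 := by
    intro h0
    have h1 : gaussι R M (jGaussR R M) = algebraMap K₁ ↥(keyFq K₁ M) (b : K₁) :=
      sub_eq_zero.mp h0
    have h2 := congrArg (fun x : ↥(keyFq K₁ M) => (x : LaurentSeries K₁)) h1
    simp only [gaussι_jGaussR] at h2
    have h3 : ((jBase K₁ M : ↥(keyFq K₁ M)) : LaurentSeries K₁) = jqModC K₁ := rfl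
    rw [h3] at h2
    exact (transcendental_jqModC K₁) (by
      rw [h2]
      exact isAlgebraic_algebraMap (R := K₁) (A := LaurentSeries K₁) (b : K₁))
  have hinv : gaussι R M (jInvGaussR R M b) =
      (gaussι R M (jGaussR R M) - algebraMap K₁ ↥(keyFq K₁ M) (b : K₁))⁻¹ := by
    apply Subtype.ext
    rw [coe_gaussι_jInvGaussR, IntermediateField.coe_inv, AddSubgroupClass.coe_sub,
      gaussι_jGaussR]
    congr 2
    show HahnSeries.C (b : K₁) = algebraMap K₁ (LaurentSeries K₁) (b : K₁)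
    rw [algebraMap_laurentSeries_eq_single]
    rfl
  rw [hb, ← map_sub, ← map_mul, hinv, inv_mul_cancel₀ hne, map_one]

variable (τ : ↥K₁⟮t⟯) (P Q U V' : (↥R)[X]) (hbez : U * P + V' * Q = 1)
  (hz : qExpand K₁ w (jqModC K₁) * aeval (τ : LaurentSeries K₁) (Q.map (algebraMap ↥R K₁)) =
    aeval (τ : LaurentSeries K₁) (P.map (algebraMap ↥R K₁)))

include hz in
/-- the line relation for `z₁ = j` in `E`. -/
theorem o1_line_j :
    letI := baseAlgFE M w t
    algebraMap ↥(keyFq K₁ M) ↥(Host.Etu (keyFw K₁ M w) t 1) (gaussι R M (jGaussR R M)) *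
        algebraMap ↥K₁⟮t⟯ ↥(Host.Etu (keyFw K₁ M w) t 1) (aeval τ Q) =
      algebraMap ↥K₁⟮t⟯ ↥(Host.Etu (keyFw K₁ M w) t 1) (aeval τ P) := by
  refine o1_line_host R M w t τ P Q (jGaussR R M) ?_
  rw [coe_jGaussR, coeffMap_jqModC]
  exact hz

include hbez hz in
/-- **(z₁ = j, chart `τ`)**. -/
theorem o1_fchart_j :
    letI := baseAlgFE M w t
    ∃ a c : ↥(integralClosure ↥(Algebra.adjoin ↥R {τ}) ↥(Host.Etu (keyFw K₁ M w) t 1)),
      IsCoprime a c ∧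
      algebraMap ↥(keyFq K₁ M) ↥(Host.Etu (keyFw K₁ M w) t 1) (gaussι R M (jGaussR R M)) *
          algebraMap ↥(integralClosure ↥(Algebra.adjoin ↥R {τ})
            ↥(Host.Etu (keyFw K₁ M w) t 1)) ↥(Host.Etu (keyFw K₁ M w) t 1) c =
        algebraMap ↥(integralClosure ↥(Algebra.adjoin ↥R {τ})
            ↥(Host.Etu (keyFw K₁ M w) t 1)) ↥(Host.Etu (keyFw K₁ M w) t 1) a := by
  letI := baseAlgFE M w t
  exact fchart_data τ P Q U V' hbez _ (o1_line_j R M w t τ P Q hz)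

include hbez hz in
/-- **(z₁ = j, chart `τ⁻¹`)**. -/
theorem o1_fchart_j_inv (hτ : τ ≠ 0) (d : ℕ) (hP : P.natDegree ≤ d) (hQ : Q.natDegree ≤ d)
    (hu : IsUnit (P.coeff d) ∨ IsUnit (Q.coeff d)) :
    letI := baseAlgFE M w t
    ∃ a c : ↥(integralClosure ↥(Algebra.adjoin ↥R {τ⁻¹}) ↥(Host.Etu (keyFw K₁ M w) t 1)),
      IsCoprime a c ∧
      algebraMap ↥(keyFq K₁ M) ↥(Host.Etu (keyFw K₁ M w) t 1) (gaussι R M (jGaussR R M)) *
          algebraMap ↥(integralClosure ↥(Algebra.adjoin ↥R {τ⁻¹})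
            ↥(Host.Etu (keyFw K₁ M w) t 1)) ↥(Host.Etu (keyFw K₁ M w) t 1) c =
        algebraMap ↥(integralClosure ↥(Algebra.adjoin ↥R {τ⁻¹})
            ↥(Host.Etu (keyFw K₁ M w) t 1)) ↥(Host.Etu (keyFw K₁ M w) t 1) a := by
  letI := baseAlgFE M w t
  exact fchart_data_inv τ hτ P Q U V' hbez d hP hQ hu _ (o1_line_j R M w t τ P Q hz)

include hbez hz in
/-- **(z₂ = (j - b)⁻¹, chart `τ`)**. -/
theorem o1_fchart_jInv (b : ℤ) :
    letI := baseAlgFE M w t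
    ∃ a c : ↥(integralClosure ↥(Algebra.adjoin ↥R {τ}) ↥(Host.Etu (keyFw K₁ M w) t 1)),
      IsCoprime a c ∧
      algebraMap ↥(keyFq K₁ M) ↥(Host.Etu (keyFw K₁ M w) t 1)
          (gaussι R M (jInvGaussR R M b)) *
          algebraMap ↥(integralClosure ↥(Algebra.adjoin ↥R {τ})
            ↥(Host.Etu (keyFw K₁ M w) t 1)) ↥(Host.Etu (keyFw K₁ M w) t 1) c =
        algebraMap ↥(integralClosure ↥(Algebra.adjoin ↥R {τ})
            ↥(Host.Etu (keyFw K₁ M w) t 1)) ↥(Host.Etu (keyFw K₁ M w) t 1) a := by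
  letI := baseAlgFE M w t
  exact fchart_data_cusp τ P Q U V' hbez _ (o1_line_j R M w t τ P Q hz) (b : ↥R) _
    (o1_jInv_mul_host R M w t b)

include hbez hz in
/-- **(z₂ = (j - b)⁻¹, chart `τ⁻¹`)**, for `deg Q < d` and `P.coeff d` a unit. -/
theorem o1_fchart_jInv_inv (hτ : τ ≠ 0) (d : ℕ) (hP : P.natDegree ≤ d) (hQ : Q.natDegree < d)
    (hu : IsUnit (P.coeff d)) (b : ℤ) :
    letI := baseAlgFE M w t
    ∃ a c : ↥(integralClosure ↥(Algebra.adjoin ↥R {τ⁻¹}) ↥(Host.Etu (keyFw K₁ M w) t 1)),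
      IsCoprime a c ∧
      algebraMap ↥(keyFq K₁ M) ↥(Host.Etu (keyFw K₁ M w) t 1)
          (gaussι R M (jInvGaussR R M b)) *
          algebraMap ↥(integralClosure ↥(Algebra.adjoin ↥R {τ⁻¹})
            ↥(Host.Etu (keyFw K₁ M w) t 1)) ↥(Host.Etu (keyFw K₁ M w) t 1) c =
        algebraMap ↥(integralClosure ↥(Algebra.adjoin ↥R {τ⁻¹})
            ↥(Host.Etu (keyFw K₁ M w) t 1)) ↥(Host.Etu (keyFw K₁ M w) t 1) a := by
  letI := baseAlgFE M w t
  exact fchart_data_cusp_inv_of_lt τ hτ P Q U V' hbez d hP hQ (b : ↥R) hu _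
    (o1_line_j R M w t τ P Q hz) _ (o1_jInv_mul_host R M w t b)

end Gen

section Legendre

variable {K₁ : Type} [Field K₁] [Algebra ℚ K₁] (R : ValuationSubring K₁) (M : ℕ) [NeZero M] [W1Api M]

set_option maxHeartbeats 800000 in
/-- **the four coprime fraction data of `geo_mapDomain_eq_ord` for the Legendre tower**
(`256` invertible in `R`): `(z₁, τ)`, `(z₂, τ)`, `(z₁, τ⁻¹)`, `(z₂, τ⁻¹)` with `z₁ = j`,
`z₂ = (j - b)⁻¹`, `τ = t` the canonical Legendre coordinate. -/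
theorem o1_fchart_legE (c : ↥R) (hc : 256 * c = 1) (b : ℤ) :
    letI := baseAlgFE (K₁ := K₁) M 2 (legT K₁)
    (∃ a c' : ↥(integralClosure ↥(Algebra.adjoin ↥R {AdjoinSimple.gen K₁ (legT K₁)})
        ↥(legE K₁ M)), IsCoprime a c' ∧
      algebraMap ↥(keyFq K₁ M) ↥(legE K₁ M) (gaussι R M (jGaussR R M)) *
          algebraMap _ ↥(legE K₁ M) c' = algebraMap _ ↥(legE K₁ M) a) ∧
    (∃ a c' : ↥(integralClosure ↥(Algebra.adjoin ↥R {AdjoinSimple.gen K₁ (legT K₁)})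
        ↥(legE K₁ M)), IsCoprime a c' ∧
      algebraMap ↥(keyFq K₁ M) ↥(legE K₁ M) (gaussι R M (jInvGaussR R M b)) *
          algebraMap _ ↥(legE K₁ M) c' = algebraMap _ ↥(legE K₁ M) a) ∧
    (∃ a c' : ↥(integralClosure ↥(Algebra.adjoin ↥R {(AdjoinSimple.gen K₁ (legT K₁))⁻¹})
        ↥(legE K₁ M)), IsCoprime a c' ∧
      algebraMap ↥(keyFq K₁ M) ↥(legE K₁ M) (gaussι R M (jGaussR R M)) *
          algebraMap _ ↥(legE K₁ M) c' = algebraMap _ ↥(legE K₁ M) a) ∧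
    (∃ a c' : ↥(integralClosure ↥(Algebra.adjoin ↥R {(AdjoinSimple.gen K₁ (legT K₁))⁻¹})
        ↥(legE K₁ M)), IsCoprime a c' ∧
      algebraMap ↥(keyFq K₁ M) ↥(legE K₁ M) (gaussι R M (jInvGaussR R M b)) *
          algebraMap _ ↥(legE K₁ M) c' = algebraMap _ ↥(legE K₁ M) a) := by
  letI := baseAlgFE (K₁ := K₁) M 2 (legT K₁)
  have h256 : IsUnit (256 : ↥R) := IsUnit.of_mul_eq_one _ hc
  have hdP : (sepLegP ↥R).natDegree = 6 := natDegree_sepLegP h256
  have hdQ : (sepLegQ ↥R).natDegree = 4 := natDegree_sepLegQ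
  have hcoeff : (sepLegP ↥R).coeff 6 = 256 := by
    rw [← hdP, coeff_natDegree, leadingCoeff_sepLegP]
  have hu : IsUnit ((sepLegP ↥R).coeff 6) := by rw [hcoeff]; exact h256
  have hbez := sepLeg_bezout c hc
  have hz := qExpand_jqModC_mul_aeval_legT (K₁ := K₁) R
  refine ⟨?_, ?_, ?_, ?_⟩
  · exact o1_fchart_j R M 2 (legT K₁) _ _ _ _ _ hbez hz
  · exact o1_fchart_jInv R M 2 (legT K₁) _ _ _ _ _ hbez hz b
  · exact o1_fchart_j_inv R M 2 (legT K₁) _ _ _ _ _ hbez hz gen_legT_ne_zero 6 hdP.le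
      (by rw [hdQ]; norm_num) (Or.inl hu)
  · exact o1_fchart_jInv_inv R M 2 (legT K₁) _ _ _ _ _ hbez hz gen_legT_ne_zero 6 hdP.le
      (by rw [hdQ]; norm_num) hu b

end Legendre

section Hesse

variable {K₁ : Type} [Field K₁] [Algebra ℚ K₁] (R : ValuationSubring K₁) (M : ℕ) [NeZero M] [W1Api M]

set_option maxHeartbeats 800000 in
/-- **the four coprime fraction data of `geo_mapDomain_eq_ord` for the Hesse tower**
(`27` invertible in `R`). -/
theorem o1_fchart_hesE (d e : ↥R) (hd : 19683 * d = 1) (he : 27 * e = 1) (b : ℤ) :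
    letI := baseAlgFE (K₁ := K₁) M 3 (hesT K₁)
    (∃ a c' : ↥(integralClosure ↥(Algebra.adjoin ↥R {AdjoinSimple.gen K₁ (hesT K₁)})
        ↥(hesE K₁ M)), IsCoprime a c' ∧
      algebraMap ↥(keyFq K₁ M) ↥(hesE K₁ M) (gaussι R M (jGaussR R M)) *
          algebraMap _ ↥(hesE K₁ M) c' = algebraMap _ ↥(hesE K₁ M) a) ∧
    (∃ a c' : ↥(integralClosure ↥(Algebra.adjoin ↥R {AdjoinSimple.gen K₁ (hesT K₁)})
        ↥(hesE K₁ M)), IsCoprime a c' ∧
      algebraMap ↥(keyFq K₁ M) ↥(hesE K₁ M) (gaussι R M (jInvGaussR R M b)) *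
          algebraMap _ ↥(hesE K₁ M) c' = algebraMap _ ↥(hesE K₁ M) a) ∧
    (∃ a c' : ↥(integralClosure ↥(Algebra.adjoin ↥R {(AdjoinSimple.gen K₁ (hesT K₁))⁻¹})
        ↥(hesE K₁ M)), IsCoprime a c' ∧
      algebraMap ↥(keyFq K₁ M) ↥(hesE K₁ M) (gaussι R M (jGaussR R M)) *
          algebraMap _ ↥(hesE K₁ M) c' = algebraMap _ ↥(hesE K₁ M) a) ∧
    (∃ a c' : ↥(integralClosure ↥(Algebra.adjoin ↥R {(AdjoinSimple.gen K₁ (hesT K₁))⁻¹})
        ↥(hesE K₁ M)), IsCoprime a c' ∧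
      algebraMap ↥(keyFq K₁ M) ↥(hesE K₁ M) (gaussι R M (jInvGaussR R M b)) *
          algebraMap _ ↥(hesE K₁ M) c' = algebraMap _ ↥(hesE K₁ M) a) := by
  letI := baseAlgFE (K₁ := K₁) M 3 (hesT K₁)
  have h27 : IsUnit (27 : ↥R) := IsUnit.of_mul_eq_one _ he
  have hdP : (sepHesP ↥R).natDegree = 12 := natDegree_sepHesP h27
  have hdQ : (sepHesQ ↥R).natDegree = 9 := natDegree_sepHesQ
  have hcoeff : (sepHesP ↥R).coeff 12 = 27 := by
    rw [← hdP, coeff_natDegree, leadingCoeff_sepHesP]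
  have hu : IsUnit ((sepHesP ↥R).coeff 12) := by rw [hcoeff]; exact h27
  have hbez := sepHes_bezout d e hd he
  have hz := qExpand_jqModC_mul_aeval_hesT (K₁ := K₁) R
  refine ⟨?_, ?_, ?_, ?_⟩
  · exact o1_fchart_j R M 3 (hesT K₁) _ _ _ _ _ hbez hz
  · exact o1_fchart_jInv R M 3 (hesT K₁) _ _ _ _ _ hbez hz b
  · exact o1_fchart_j_inv R M 3 (hesT K₁) _ _ _ _ _ hbez hz gen_hesT_ne_zero 12 hdP.le
      (by rw [hdQ]; norm_num) (Or.inl hu)
  · exact o1_fchart_jInv_inv R M 3 (hesT K₁) _ _ _ _ _ hbez hz gen_hesT_ne_zero 12 hdP.le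
      (by rw [hdQ]; norm_num) hu b

end Hesse

end Fermat.Agent.W1
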