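/-
W1 — helper1 — PORT of `JA/O1_helper9_YData` to the field `F₁ M 1` of `X₁(M)` (against `[W1Api M]`);
only the field-specific declarations are restated, the generic ones (`finite_setOf_ord_ne_zero`,
`exists_isBase_root_legendre`, `exists_isBase_root_hesse`, the descent lemmas) are imported from the
originals.  Original header:

J-A third wave, (O1)-(P4) — helper9: **Y-DATA / BASE CHOICE**.

For `y : LaurentSeries ↥A` with `coeffMap A.subtype y ∈ F_Ω` and `b : ℤ`: a base `K₁` containing a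
root `r` of the cusp-chart line data (`A(r) = b B(r)` for the Legendre resp. Hesse `j`-function,
with the branch-point unit conditions), a descent `y₁` of `y` to `baseRing A K₁`, and such that all
places of `E_Ω` in the support of `div (fullToLegE y)` restrict to RATIONAL places of `legE K₁ M`
(same for `hesE`).
-/
import Mathlib
import Fermat.Agent.JA.GEOBASE_helper8_CuspBase
import Fermat.Agent.JA.BC_helper9_DescBase
import Fermat.Agent.W1.BCD_helper7_HostRat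
import Fermat.Agent.W1.UP_helper7_Coord
import Fermat.Agent.JA.O1_helper9_YData

set_option autoImplicit false
set_option linter.unusedSectionVars false
set_option linter.style.haveILetI false
set_option synthInstance.maxHeartbeats 200000

open HahnSeries IntermediateField AlgebraicCurve ModularCurve Fermat.Agent.Igusa Polynomial

open Fermat.Agent.JA

namespace Fermat.Agent.W1

open Fermat.Agent.FF

/-- `Ω = AlgebraicClosure ℚ`. -/
local notation "Ω" => AlgebraicClosure ℚ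

section YData

variable {ℓ : ℕ} [Fact ℓ.Prime] {A : ValuationSubring Ω} (hA : A.LiesOverPrime ℓ)
  (M : ℕ) [NeZero M] [W1Api M]

include hA in
/-- **(O1)-(P4), Legendre tower**, over a given base `K₀` and containing given constants. -/
theorem IsBase.exists_ge_o1_legE {K₀ : IntermediateField ℚ Ω} (hK₀ : IsBase ℓ K₀)
    (t₀ : Finset Ω) (hℓ2 : ℓ ≠ 2) (b : ℤ) {y : LaurentSeries ↥A}
    (hy : coeffMap A.subtype y ∈ laurentBaseChange Ω (F₁ M 1)) :
    ∃ K₁ : IntermediateField ℚ Ω, IsBase ℓ K₁ ∧ K₀ ≤ K₁ ∧ (∀ c ∈ t₀, c ∈ K₁) ∧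
      (∃ r : ↥(baseRing A K₁),
        256 * (r ^ 2 - r + 1) ^ 3 = (b : ↥(baseRing A K₁)) * (r ^ 2 * (r - 1) ^ 2) ∧
        IsUnit r ∧ IsUnit (r - 1)) ∧
      ∃ y₁ : LaurentSeries ↥(baseRing A K₁), coeffMap (baseIncl A K₁) y₁ = y ∧
        coeffMap (baseRing A K₁).subtype y₁ ∈
          laurentBaseChange ↥K₁ (F₁ M 1) ∧
        ∀ P : Place Ω ↥(legE Ω M),
          P.ord (fullToLegE Ω M ⟨coeffMap A.subtype y, hy⟩) ≠ 0 →
          IsRationalPlace (restrictBC (legBC M K₁) (legBC_algebraMap M K₁)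
            (closure_range_legBC M K₁) P) := by
  classical
  haveI : HasPrincipalDivisors Ω ↥(legE Ω M) := up_hasPrincipalDivisors_legE M
  have hfin := finite_setOf_ord_ne_zero (K := Ω)
    (fullToLegE Ω M ⟨coeffMap A.subtype y, hy⟩)
  obtain ⟨s₁, hs₁⟩ := exists_finset_forall_descent_int A (F₁ M 1) hy
  obtain ⟨t, ht⟩ := exists_finset_forall_isRationalPlace_legE M K₀ hfin.toFinset
  obtain ⟨K₀', hK₀', hle₀, hmem₀⟩ := hK₀.exists_ge_forall_mem (s₁ ∪ t ∪ t₀)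
  obtain ⟨K₁, hK₁, hle, r, hroot, hr0, hr1⟩ := exists_isBase_root_legendre hA hK₀' hℓ2 b
  obtain ⟨y₁, hy₁, hy₁', -⟩ := hs₁ K₁ fun c hc =>
    hle (hmem₀ c (Finset.mem_union_left _ (Finset.mem_union_left _ hc)))
  refine ⟨K₁, hK₁, hle₀.trans hle,
    fun c hc => hle (hmem₀ c (Finset.mem_union_right _ hc)),
    ⟨r, hroot, hr0, hr1⟩, y₁, hy₁, hy₁', ?_⟩
  intro P hP
  exact ht K₁ (hle₀.trans hle)
    (fun c hc => hle (hmem₀ c (Finset.mem_union_left _ (Finset.mem_union_right _ hc)))) P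
    (hfin.mem_toFinset.2 hP)

include hA in
/-- **(O1)-(P4), Legendre tower.** -/
theorem exists_isBase_o1_legE (hℓ2 : ℓ ≠ 2) (b : ℤ) {y : LaurentSeries ↥A}
    (hy : coeffMap A.subtype y ∈ laurentBaseChange Ω (F₁ M 1)) :
    ∃ K₁ : IntermediateField ℚ Ω, IsBase ℓ K₁ ∧
      (∃ r : ↥(baseRing A K₁),
        256 * (r ^ 2 - r + 1) ^ 3 = (b : ↥(baseRing A K₁)) * (r ^ 2 * (r - 1) ^ 2) ∧
        IsUnit r ∧ IsUnit (r - 1)) ∧
      ∃ y₁ : LaurentSeries ↥(baseRing A K₁), coeffMap (baseIncl A K₁) y₁ = y ∧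
        coeffMap (baseRing A K₁).subtype y₁ ∈
          laurentBaseChange ↥K₁ (F₁ M 1) ∧
        ∀ P : Place Ω ↥(legE Ω M),
          P.ord (fullToLegE Ω M ⟨coeffMap A.subtype y, hy⟩) ≠ 0 →
          IsRationalPlace (restrictBC (legBC M K₁) (legBC_algebraMap M K₁)
            (closure_range_legBC M K₁) P) := by
  obtain ⟨K₁, h1, -, -, h2, h3⟩ :=
    IsBase.exists_ge_o1_legE hA M (isBase_flatBase (ℓ := ℓ)) ∅ hℓ2 b hy
  exact ⟨K₁, h1, h2, h3⟩

include hA in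
/-- **(O1)-(P4), Hesse tower**, over a given base `K₀` and containing given constants. -/
theorem IsBase.exists_ge_o1_hesE {K₀ : IntermediateField ℚ Ω} (hK₀ : IsBase ℓ K₀)
    (t₀ : Finset Ω) (hℓ3 : ℓ ≠ 3) (b : ℤ) {y : LaurentSeries ↥A}
    (hy : coeffMap A.subtype y ∈ laurentBaseChange Ω (F₁ M 1)) :
    ∃ K₁ : IntermediateField ℚ Ω, IsBase ℓ K₁ ∧ K₀ ≤ K₁ ∧ (∀ c ∈ t₀, c ∈ K₁) ∧
      (∃ r : ↥(baseRing A K₁),
        27 * r ^ 3 * (r ^ 3 + 8) ^ 3 = (b : ↥(baseRing A K₁)) * (r ^ 3 - 1) ^ 3 ∧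
        ∀ c : ↥(baseRing A K₁), c ^ 3 = 1 → IsUnit (c - r)) ∧
      ∃ y₁ : LaurentSeries ↥(baseRing A K₁), coeffMap (baseIncl A K₁) y₁ = y ∧
        coeffMap (baseRing A K₁).subtype y₁ ∈
          laurentBaseChange ↥K₁ (F₁ M 1) ∧
        ∀ P : Place Ω ↥(hesE Ω M),
          P.ord (fullToHesE Ω M ⟨coeffMap A.subtype y, hy⟩) ≠ 0 →
          IsRationalPlace (restrictBC (hesBC M K₁) (hesBC_algebraMap M K₁)
            (closure_range_hesBC M K₁) P) := by
  classical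
  haveI : HasPrincipalDivisors Ω ↥(hesE Ω M) := up_hasPrincipalDivisors_hesE M
  have hfin := finite_setOf_ord_ne_zero (K := Ω)
    (fullToHesE Ω M ⟨coeffMap A.subtype y, hy⟩)
  obtain ⟨s₁, hs₁⟩ := exists_finset_forall_descent_int A (F₁ M 1) hy
  obtain ⟨t, ht⟩ := exists_finset_forall_isRationalPlace_hesE M K₀ hfin.toFinset
  obtain ⟨K₀', hK₀', hle₀, hmem₀⟩ := hK₀.exists_ge_forall_mem (s₁ ∪ t ∪ t₀)
  obtain ⟨K₁, hK₁, hle, r, hroot, hr⟩ := exists_isBase_root_hesse hA hK₀' hℓ3 b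
  obtain ⟨y₁, hy₁, hy₁', -⟩ := hs₁ K₁ fun c hc =>
    hle (hmem₀ c (Finset.mem_union_left _ (Finset.mem_union_left _ hc)))
  refine ⟨K₁, hK₁, hle₀.trans hle,
    fun c hc => hle (hmem₀ c (Finset.mem_union_right _ hc)),
    ⟨r, hroot, hr⟩, y₁, hy₁, hy₁', ?_⟩
  intro P hP
  exact ht K₁ (hle₀.trans hle)
    (fun c hc => hle (hmem₀ c (Finset.mem_union_left _ (Finset.mem_union_right _ hc)))) P
    (hfin.mem_toFinset.2 hP)

include hA in
/-- **(O1)-(P4), Hesse tower.** -/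
theorem exists_isBase_o1_hesE (hℓ3 : ℓ ≠ 3) (b : ℤ) {y : LaurentSeries ↥A}
    (hy : coeffMap A.subtype y ∈ laurentBaseChange Ω (F₁ M 1)) :
    ∃ K₁ : IntermediateField ℚ Ω, IsBase ℓ K₁ ∧
      (∃ r : ↥(baseRing A K₁),
        27 * r ^ 3 * (r ^ 3 + 8) ^ 3 = (b : ↥(baseRing A K₁)) * (r ^ 3 - 1) ^ 3 ∧
        ∀ c : ↥(baseRing A K₁), c ^ 3 = 1 → IsUnit (c - r)) ∧
      ∃ y₁ : LaurentSeries ↥(baseRing A K₁), coeffMap (baseIncl A K₁) y₁ = y ∧
        coeffMap (baseRing A K₁).subtype y₁ ∈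
          laurentBaseChange ↥K₁ (F₁ M 1) ∧
        ∀ P : Place Ω ↥(hesE Ω M),
          P.ord (fullToHesE Ω M ⟨coeffMap A.subtype y, hy⟩) ≠ 0 →
          IsRationalPlace (restrictBC (hesBC M K₁) (hesBC_algebraMap M K₁)
            (closure_range_hesBC M K₁) P) := by
  obtain ⟨K₁, h1, -, -, h2, h3⟩ :=
    IsBase.exists_ge_o1_hesE hA M (isBase_flatBase (ℓ := ℓ)) ∅ hℓ3 b hy
  exact ⟨K₁, h1, h2, h3⟩

end YData

end Fermat.Agent.W1
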