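/-
W1 — helper7 — PORT of `JA/O1_helper6_LegAsm` to the field `F₁ M 1` of `X₁(M)` (against `[W1Api M]`);
only the field-specific declarations are restated, the generic ones are imported from the original.
Original header:
-/
/-
J-A — helper6 — (O1) base-level assembly: helper9's `geo_mapDomain_eq_ord_of_down` instantiated at a
base `K₁` (R = baseRing A K₁) for the Legendre tower (`ℓ ≠ 2`) and the Hesse tower (`ℓ ≠ 3`), with
helper6's BASE-PKG, helper3's coordinates/SEP/EVAL, helper8's fraction data, helper2's compat,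
helper7's (UP) + (BCDEG).
-/
import Mathlib
import Fermat.Agent.W1.O1_helper7_BaseInst6
import Fermat.Agent.JA.O1_helper6_BaseInst
import Fermat.Agent.JA.O1_helper9_HDownPlug
import Fermat.Agent.W1.O1_helper7_BaseInst3
import Fermat.Agent.JA.O1_helper3_BaseInst
import Fermat.Agent.JA.O1_helper8_FChartLit
import Fermat.Agent.W1.O1_helper7_FChartConc
import Fermat.Agent.JA.O1_helper8_FChartConc
import Fermat.Agent.W1.O1_helper7_Compat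
import Fermat.Agent.JA.O1_helper2_Compat
import Fermat.Agent.W1.O1_helper7_YData
import Fermat.Agent.JA.O1_helper9_YData
import Fermat.Agent.W1.UP_helper7_Coord
import Fermat.Agent.JA.UP_helper7_Coord
import Fermat.Agent.W1.BCDEG_helper7
import Fermat.Agent.JA.BCDEG_helper7
import Fermat.Agent.W1.API_helper7_Lemmas
import Fermat.Agent.JA.O1_helper6_LegAsm

set_option autoImplicit false
set_option linter.unusedSectionVars false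
set_option linter.style.haveILetI false
set_option synthInstance.maxHeartbeats 400000

open HahnSeries IntermediateField AlgebraicCurve ModularCurve Fermat.Agent.Igusa Polynomial
  Fermat.Agent.X0N Fermat.Agent.FF
open scoped MatrixGroups
open CongruenceSubgroup

open Fermat.Agent.JA

namespace Fermat.Agent.W1

open scoped Fermat.Agent.JA.Host Fermat.Agent.W1.Host

/-- `Ω = AlgebraicClosure ℚ`. -/
local notation "Ω" => AlgebraicClosure ℚ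

section LegAsm

variable {ℓ : ℕ} [Fact ℓ.Prime] {A : ValuationSubring Ω} (hA : A.LiesOverPrime ℓ)
  (M : ℕ) [NeZero M] [W1Api M] {K₁ : IntermediateField ℚ Ω}

set_option maxHeartbeats 6400000 in
include hA in
theorem legE_base_mapDomain_eq_ord (hℓM : ¬ ℓ ∣ M) (hK₁ : IsBase ℓ K₁) (hℓ2 : ℓ ≠ 2)
    [IsDiscreteValuationRing ↥(baseRing A K₁)]
    (h : GaussRes A M (IsLocalRing.residue ↥A)) (b : ℤ)
    (r₀ : ↥(baseRing A K₁))
    (hroot : 256 * (r₀ ^ 2 - r₀ + 1) ^ 3 = (b : ↥(baseRing A K₁)) * (r₀ ^ 2 * (r₀ - 1) ^ 2))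
    (hr0 : IsUnit r₀) (hr1 : IsUnit (r₀ - 1))
    (r : Place Ω ↥(F₁Bar M 1) →
      Place (IsLocalRing.ResidueField ↥A)
        ↥(F₁C (IsLocalRing.ResidueField ↥A) M 1))
    (hev₁ : ChartEval h (jBar M) r) (hev₂ : ChartEval h (jInvBar M b) r)
    (vy : ↥(baseV (baseRing A K₁) M (hFq_baseRing M)))
    (hvy : baseResV (baseRing A K₁) M (hFq_baseRing M) (baseResidueMap A K₁)
      (hRES_baseRing hA M hℓM hK₁) vy ≠ 0)
    (hrat : ∀ P : Place Ω ↥(legE Ω M),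
      P.ord (fullToLegE Ω M (baseToBar M K₁ (vy : ↥(keyFq ↥K₁ M)))) ≠ 0 →
      IsRationalPlace (restrictBC (legBC M K₁) (legBC_algebraMap M K₁)
        (closure_range_legBC M K₁) P))
    (D : Divisor Ω ↥(F₁Bar M 1))
    (hD : ∀ P, D P = P.ord (baseToBar M K₁ (vy : ↥(keyFq ↥K₁ M))))
    (Q : Place (IsLocalRing.ResidueField ↥A)
      ↥(F₁C (IsLocalRing.ResidueField ↥A) M 1)) :
    Finsupp.mapDomain r D Q =
      Q.ord (baseResV (baseRing A K₁) M (hFq_baseRing M) (baseResidueMap A K₁)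
        (hRES_baseRing hA M hℓM hK₁) vy) := by
  classical
  haveI : CharZero ↥(baseRing A K₁) := charZero_valuationSubring_of_algebraRat _
  haveI : CharZero ↥K₁ := algebraRat.charZero _
  haveI : Module.Finite ↥(↥K₁)⟮jqNModC ↥K₁ 2⟯ ↥(keyFw ↥K₁ M 2) := finite_keyFw_base hA M 2
  obtain ⟨ϖ, hϖ⟩ := IsDiscreteValuationRing.exists_irreducible ↥(baseRing A K₁)
  have hgeo := geoHyps_legE_baseRing hA M hℓM hK₁ hℓ2 hϖ
  obtain ⟨S', hgeo'⟩ := hgeo.inv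
  obtain ⟨𝒢t, h𝒢t, h𝒢t', h𝒢j, hintj, hU₀⟩ := exists_gauss_legE_baseRing hA (K₁ := K₁) hℓ2 hϖ
  letI : Algebra ↥(F₁Bar M 1) ↥(legE Ω M) :=
    (fullToLegE Ω M).toRingHom.toAlgebra
  letI := baseAlgFE (K₁ := ↥K₁) M 2 (legT ↥K₁)
  haveI : HasPrincipalDivisors Ω ↥(legE Ω M) := up_hasPrincipalDivisors_legE M
  haveI : IsScalarTower Ω ↥(F₁Bar M 1) ↥(legE Ω M) :=
    isScalarTower_along (fullToLegE Ω M)
  haveI : Algebra.IsIntegral ↥(F₁Bar M 1) ↥(legE Ω M) :=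
    isIntegral_along (fullToLegE Ω M) (isIntegral_of_finiteAlong _ (finiteAlong_fullToLegE M))
  haveI := hgeo.isLocalRing 𝒢t h𝒢t
  letI := baseAlgK₀F (K₁ := ↥K₁) M 2
  haveI := baseAlgK₀F_isScalarTower (K₁ := ↥K₁) M 2 (legT ↥K₁)
  haveI : FiniteDimensional ↥(↥K₁)⟮jqNModC ↥K₁ 2⟯ ↥(↥K₁)⟮legT ↥K₁⟯ :=
    Host.finite_Kj_Kt _ (legT ↥K₁) (isIntegral_legT ↥K₁)
  haveI : CharZero ↥(↥K₁)⟮jqNModC ↥K₁ 2⟯ := algebraRat.charZero _
  have htrj : Transcendental ↥K₁ (AdjoinSimple.gen ↥K₁ (jqNModC ↥K₁ 2)) :=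
    Host.transcendental_gen (transcendental_jqNModC 2)
  have hKj : IntermediateField.adjoin ↥K₁ {AdjoinSimple.gen ↥K₁ (jqNModC ↥K₁ 2)} = ⊤ :=
    Host.adjoin_gen_eq_top _
  haveI : IsDiscreteValuationRing
      ↥(𝒢t.comap (algebraMap ↥(↥K₁)⟮jqNModC ↥K₁ 2⟯ ↥(↥K₁)⟮legT ↥K₁⟯)) :=
    isDiscreteValuationRing_of_isGaussAt ϖ hϖ _ htrj hKj h𝒢j
  haveI : Module.Finite ↥(keyFq ↥K₁ M) ↥(legE ↥K₁ M) :=
    finite_fullToEtu ↥K₁ M 2 (legT ↥K₁) (isIntegral_legT ↥K₁)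
  haveI : CharZero ↥(keyFq ↥K₁ M) := algebraRat.charZero _
  haveI : IsAlgClosed (IsLocalRing.ResidueField ↥A) := isAlgClosed_residueField A
  haveI := finiteDimensional_fullC_residueField hA M hℓM
  have halg : Algebra.IsAlgebraic
      (IsLocalRing.ResidueField ↥A)⟮jTildeElt (IsLocalRing.ResidueField ↥A) M⟯
      ↥(F₁C (IsLocalRing.ResidueField ↥A) M 1) :=
    Algebra.IsAlgebraic.of_finite _ _
  -- the fraction data (P2)
  have hℓ2' : ¬ ℓ ∣ 2 := fun hd =>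
    hℓ2 ((Nat.prime_dvd_prime_iff_eq (Fact.out : ℓ.Prime) Nat.prime_two).mp hd)
  have hℓ256 : ¬ ℓ ∣ 256 := fun hd =>
    hℓ2' ((Fact.out : ℓ.Prime).dvd_of_dvd_pow (show ℓ ∣ 2 ^ 8 by norm_num; exact hd))
  have h256 : IsUnit (256 : ↥(baseRing A K₁)) := by
    have := isUnit_natCast_baseRing hA (K₁ := K₁) hℓ256
    exact_mod_cast this
  obtain ⟨c256, hc256⟩ := h256.exists_right_inv
  obtain ⟨hf₁₁, hf₂₁, hf₁₂, hf₂₂⟩ := o1_fchart_legE (baseRing A K₁) M c256 hc256 b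
  obtain ⟨a₁₁, b₁₁, hcop₁₁, hz₁₁⟩ := hf₁₁
  obtain ⟨a₂₁, b₂₁, hcop₂₁, hz₂₁⟩ := hf₂₁
  obtain ⟨a₁₂, b₁₂, hcop₁₂, hz₁₂⟩ := hf₁₂
  obtain ⟨a₂₂, b₂₂, hcop₂₂, hz₂₂⟩ := hf₂₂
  have hbcF : ∀ x : ↥(keyFq ↥K₁ M), legBC M K₁ (algebraMap ↥(keyFq ↥K₁ M) ↥(legE ↥K₁ M) x) =
      algebraMap ↥(F₁Bar M 1) ↥(legE Ω M) (baseToBar M K₁ x) :=
    fun x => legBC_fullToLegE M K₁ x
  have hrat' : ∀ P : Place Ω ↥(legE Ω M),
      P.ord (legBC M K₁ (algebraMap ↥(keyFq ↥K₁ M) ↥(legE ↥K₁ M) (vy : ↥(keyFq ↥K₁ M)))) ≠ 0 →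
      IsRationalPlace (restrictBC (legBC M K₁) (legBC_algebraMap M K₁)
        (closure_range_legBC M K₁) P) := by
    intro P hP
    rw [hbcF] at hP
    exact hrat P hP
  have hup : ∀ P : Place Ω ↥(F₁Bar M 1),
      ∑ w ∈ P.fiber ↥(legE Ω M), (w.ramificationIndex ↥(F₁Bar M 1) : ℤ) =
        (Module.finrank ↥(keyFq ↥K₁ M) ↥(legE ↥K₁ M) : ℤ) := by
    intro P
    obtain ⟨_, _, _, _, _, hsum⟩ := upstairs_legE M
    have hdeg := finrank_legE_base M K₁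
    rw [hsum P]
    exact congrArg _ hdeg
  exact geo_mapDomain_eq_ord_of_down hgeo hgeo' 𝒢t h𝒢t h𝒢t'
    ((baseResidueMap A K₁).comp (IsLocalRing.residue ↥(baseRing A K₁)))
    (baseRes_surjective (baseRing A K₁) (baseResidueMap A K₁)
      (hK₁.baseResidueMap_bijective hA).2)
    (baseRes_pi (baseRing A K₁) hϖ (baseResidueMap A K₁))
    (baseV (baseRing A K₁) M (hFq_baseRing M))
    (mem_baseV_iff_isIntegral (baseRing A K₁) M 2 (hFq_baseRing M) (legT ↥K₁) hϖ 𝒢t h𝒢j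
      (hmemW_baseRing hA M hℓM hK₁) hgeo h𝒢t)
    (baseResV (baseRing A K₁) M (hFq_baseRing M) (baseResidueMap A K₁)
      (hRES_baseRing hA M hℓM hK₁))
    (baseResV_surjective (baseRing A K₁) M (hFq_baseRing M) (baseResidueMap A K₁)
      (hRES_baseRing hA M hℓM hK₁) (hLIFT_baseRing hA M hℓM hK₁))
    (baseφ (baseRing A K₁) M) (baseAlgFE_baseφ (baseRing A K₁) M 2 (legT ↥K₁))
    (baseResV_const (baseRing A K₁) M (hFq_baseRing M) (baseResidueMap A K₁)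
      (hRES_baseRing hA M hℓM hK₁))
    (legBC_algebraMap M K₁) (closure_range_legBC M K₁) (baseToBar M K₁) hbcF
    (𝒢t.comap (algebraMap ↥(↥K₁)⟮jqNModC ↥K₁ 2⟯ ↥(↥K₁)⟮legT ↥K₁⟯))
    (mem_iff_isIntegral_comap 2 (legT ↥K₁) 𝒢t hintj) hU₀ (hgeo.gauss 𝒢t h𝒢t)
    (mem_comap_iff_mem_baseV (baseRing A K₁) M 2 (hFq_baseRing M) (legT ↥K₁) hϖ 𝒢t h𝒢j)
    (jTildeElt (IsLocalRing.ResidueField ↥A) M) halg
    (isIntegral_baseV_of_isIntegral (baseRing A K₁) M 2 (hFq_baseRing M) (legT ↥K₁) hϖ 𝒢t h𝒢j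
      hintj)
    r hup (baseZj M (hFq_baseRing M)) (baseZjInv M (hFq_baseRing M) b)
    (base_hcover M h (hFq_baseRing M) (hRES_baseRing hA M hℓM hK₁) b)
    a₁₁ b₁₁ hcop₁₁ hz₁₁ a₂₁ b₂₁ hcop₂₁ hz₂₁ a₁₂ b₁₂ hcop₁₂ hz₁₂ a₂₂ b₂₂ hcop₂₂ hz₂₂
    (base_hSEP_j hA M h (hFq_baseRing M) (hRES_baseRing hA M hℓM hK₁) hℓM hK₁)
    (base_hSEP_jInv_of_ne_two hA M h (hFq_baseRing M) (hRES_baseRing hA M hℓM hK₁) hℓM hK₁ hℓ2 b
      r₀ hroot hr0 hr1)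
    (base_hEVAL_j M h (hFq_baseRing M) (hRES_baseRing hA M hℓM hK₁) r hev₁)
    (base_hEVAL_jInv M h (hFq_baseRing M) (hRES_baseRing hA M hℓM hK₁) r b hev₂)
    vy hvy hrat' D hD Q

end LegAsm

section HesAsm

variable {ℓ : ℕ} [Fact ℓ.Prime] {A : ValuationSubring Ω} (hA : A.LiesOverPrime ℓ)
  (M : ℕ) [NeZero M] [W1Api M] {K₁ : IntermediateField ℚ Ω}

set_option maxHeartbeats 6400000 in
include hA in
theorem hesE_base_mapDomain_eq_ord (hℓM : ¬ ℓ ∣ M) (hK₁ : IsBase ℓ K₁) (hℓ3 : ℓ ≠ 3)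
    [IsDiscreteValuationRing ↥(baseRing A K₁)]
    (h : GaussRes A M (IsLocalRing.residue ↥A)) (b : ℤ)
    (r₀ : ↥(baseRing A K₁))
    (hroot : 27 * r₀ ^ 3 * (r₀ ^ 3 + 8) ^ 3 = (b : ↥(baseRing A K₁)) * (r₀ ^ 3 - 1) ^ 3)
    (hr : ∀ c : ↥(baseRing A K₁), c ^ 3 = 1 → IsUnit (c - r₀))
    (r : Place Ω ↥(F₁Bar M 1) →
      Place (IsLocalRing.ResidueField ↥A)
        ↥(F₁C (IsLocalRing.ResidueField ↥A) M 1))
    (hev₁ : ChartEval h (jBar M) r) (hev₂ : ChartEval h (jInvBar M b) r)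
    (vy : ↥(baseV (baseRing A K₁) M (hFq_baseRing M)))
    (hvy : baseResV (baseRing A K₁) M (hFq_baseRing M) (baseResidueMap A K₁)
      (hRES_baseRing hA M hℓM hK₁) vy ≠ 0)
    (hrat : ∀ P : Place Ω ↥(hesE Ω M),
      P.ord (fullToHesE Ω M (baseToBar M K₁ (vy : ↥(keyFq ↥K₁ M)))) ≠ 0 →
      IsRationalPlace (restrictBC (hesBC M K₁) (hesBC_algebraMap M K₁)
        (closure_range_hesBC M K₁) P))
    (D : Divisor Ω ↥(F₁Bar M 1))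
    (hD : ∀ P, D P = P.ord (baseToBar M K₁ (vy : ↥(keyFq ↥K₁ M))))
    (Q : Place (IsLocalRing.ResidueField ↥A)
      ↥(F₁C (IsLocalRing.ResidueField ↥A) M 1)) :
    Finsupp.mapDomain r D Q =
      Q.ord (baseResV (baseRing A K₁) M (hFq_baseRing M) (baseResidueMap A K₁)
        (hRES_baseRing hA M hℓM hK₁) vy) := by
  classical
  haveI : CharZero ↥(baseRing A K₁) := charZero_valuationSubring_of_algebraRat _
  haveI : CharZero ↥K₁ := algebraRat.charZero _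
  haveI : Module.Finite ↥(↥K₁)⟮jqNModC ↥K₁ 3⟯ ↥(keyFw ↥K₁ M 3) := finite_keyFw_base hA M 3
  obtain ⟨ϖ, hϖ⟩ := IsDiscreteValuationRing.exists_irreducible ↥(baseRing A K₁)
  obtain ⟨ω, hω, hgeo⟩ := geoHyps_hesE_baseRing hA M hℓM hK₁ hℓ3 hϖ
  obtain ⟨S', hgeo'⟩ := hgeo.inv
  obtain ⟨𝒢t, h𝒢t, h𝒢t', h𝒢j, hintj, hU₀⟩ := exists_gauss_hesE_baseRing hA (K₁ := K₁) hℓ3 hϖ
  letI : Algebra ↥(F₁Bar M 1) ↥(hesE Ω M) :=
    (fullToHesE Ω M).toRingHom.toAlgebra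
  letI := baseAlgFE (K₁ := ↥K₁) M 3 (hesT ↥K₁)
  haveI : HasPrincipalDivisors Ω ↥(hesE Ω M) := up_hasPrincipalDivisors_hesE M
  haveI : IsScalarTower Ω ↥(F₁Bar M 1) ↥(hesE Ω M) :=
    isScalarTower_along (fullToHesE Ω M)
  haveI : Algebra.IsIntegral ↥(F₁Bar M 1) ↥(hesE Ω M) :=
    isIntegral_along (fullToHesE Ω M) (isIntegral_of_finiteAlong _ (finiteAlong_fullToHesE M))
  haveI := hgeo.isLocalRing 𝒢t h𝒢t
  letI := baseAlgK₀F (K₁ := ↥K₁) M 3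
  haveI := baseAlgK₀F_isScalarTower (K₁ := ↥K₁) M 3 (hesT ↥K₁)
  haveI : FiniteDimensional ↥(↥K₁)⟮jqNModC ↥K₁ 3⟯ ↥(↥K₁)⟮hesT ↥K₁⟯ :=
    Host.finite_Kj_Kt _ (hesT ↥K₁) (isIntegral_hesT ↥K₁)
  haveI : CharZero ↥(↥K₁)⟮jqNModC ↥K₁ 3⟯ := algebraRat.charZero _
  have htrj : Transcendental ↥K₁ (AdjoinSimple.gen ↥K₁ (jqNModC ↥K₁ 3)) :=
    Host.transcendental_gen (transcendental_jqNModC 3)
  have hKj : IntermediateField.adjoin ↥K₁ {AdjoinSimple.gen ↥K₁ (jqNModC ↥K₁ 3)} = ⊤ :=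
    Host.adjoin_gen_eq_top _
  haveI : IsDiscreteValuationRing
      ↥(𝒢t.comap (algebraMap ↥(↥K₁)⟮jqNModC ↥K₁ 3⟯ ↥(↥K₁)⟮hesT ↥K₁⟯)) :=
    isDiscreteValuationRing_of_isGaussAt ϖ hϖ _ htrj hKj h𝒢j
  haveI : Module.Finite ↥(keyFq ↥K₁ M) ↥(hesE ↥K₁ M) :=
    finite_fullToEtu ↥K₁ M 3 (hesT ↥K₁) (isIntegral_hesT ↥K₁)
  haveI : CharZero ↥(keyFq ↥K₁ M) := algebraRat.charZero _
  haveI : IsAlgClosed (IsLocalRing.ResidueField ↥A) := isAlgClosed_residueField A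
  haveI := finiteDimensional_fullC_residueField hA M hℓM
  have halg : Algebra.IsAlgebraic
      (IsLocalRing.ResidueField ↥A)⟮jTildeElt (IsLocalRing.ResidueField ↥A) M⟯
      ↥(F₁C (IsLocalRing.ResidueField ↥A) M 1) :=
    Algebra.IsAlgebraic.of_finite _ _
  -- the fraction data (P2)
  have hℓ3' : ¬ ℓ ∣ 3 := fun hd =>
    hℓ3 ((Nat.prime_dvd_prime_iff_eq (Fact.out : ℓ.Prime) Nat.prime_three).mp hd)
  have hℓ27 : ¬ ℓ ∣ 27 := fun hd =>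
    hℓ3' ((Fact.out : ℓ.Prime).dvd_of_dvd_pow (show ℓ ∣ 3 ^ 3 by norm_num; exact hd))
  have hℓ19683 : ¬ ℓ ∣ 19683 := fun hd =>
    hℓ3' ((Fact.out : ℓ.Prime).dvd_of_dvd_pow (show ℓ ∣ 3 ^ 9 by norm_num; exact hd))
  have h27 : IsUnit (27 : ↥(baseRing A K₁)) := by
    have := isUnit_natCast_baseRing hA (K₁ := K₁) hℓ27
    exact_mod_cast this
  have h19683 : IsUnit (19683 : ↥(baseRing A K₁)) := by
    have := isUnit_natCast_baseRing hA (K₁ := K₁) hℓ19683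
    exact_mod_cast this
  obtain ⟨e27, he27⟩ := h27.exists_right_inv
  obtain ⟨d19683, hd19683⟩ := h19683.exists_right_inv
  obtain ⟨hf₁₁, hf₂₁, hf₁₂, hf₂₂⟩ :=
    o1_fchart_hesE (baseRing A K₁) M d19683 e27 hd19683 he27 b
  obtain ⟨a₁₁, b₁₁, hcop₁₁, hz₁₁⟩ := hf₁₁
  obtain ⟨a₂₁, b₂₁, hcop₂₁, hz₂₁⟩ := hf₂₁
  obtain ⟨a₁₂, b₁₂, hcop₁₂, hz₁₂⟩ := hf₁₂
  obtain ⟨a₂₂, b₂₂, hcop₂₂, hz₂₂⟩ := hf₂₂
  have hbcF : ∀ x : ↥(keyFq ↥K₁ M), hesBC M K₁ (algebraMap ↥(keyFq ↥K₁ M) ↥(hesE ↥K₁ M) x) =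
      algebraMap ↥(F₁Bar M 1) ↥(hesE Ω M) (baseToBar M K₁ x) :=
    fun x => hesBC_fullToHesE M K₁ x
  have hrat' : ∀ P : Place Ω ↥(hesE Ω M),
      P.ord (hesBC M K₁ (algebraMap ↥(keyFq ↥K₁ M) ↥(hesE ↥K₁ M) (vy : ↥(keyFq ↥K₁ M)))) ≠ 0 →
      IsRationalPlace (restrictBC (hesBC M K₁) (hesBC_algebraMap M K₁)
        (closure_range_hesBC M K₁) P) := by
    intro P hP
    rw [hbcF] at hP
    exact hrat P hP
  have hup : ∀ P : Place Ω ↥(F₁Bar M 1),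
      ∑ w ∈ P.fiber ↥(hesE Ω M), (w.ramificationIndex ↥(F₁Bar M 1) : ℤ) =
        (Module.finrank ↥(keyFq ↥K₁ M) ↥(hesE ↥K₁ M) : ℤ) := by
    intro P
    obtain ⟨_, _, _, _, _, hsum⟩ := upstairs_hesE M
    have hdeg := finrank_hesE_base M K₁
    rw [hsum P]
    exact congrArg _ hdeg
  exact geo_mapDomain_eq_ord_of_down hgeo hgeo' 𝒢t h𝒢t h𝒢t'
    ((baseResidueMap A K₁).comp (IsLocalRing.residue ↥(baseRing A K₁)))
    (baseRes_surjective (baseRing A K₁) (baseResidueMap A K₁)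
      (hK₁.baseResidueMap_bijective hA).2)
    (baseRes_pi (baseRing A K₁) hϖ (baseResidueMap A K₁))
    (baseV (baseRing A K₁) M (hFq_baseRing M))
    (mem_baseV_iff_isIntegral (baseRing A K₁) M 3 (hFq_baseRing M) (hesT ↥K₁) hϖ 𝒢t h𝒢j
      (hmemW_baseRing hA M hℓM hK₁) hgeo h𝒢t)
    (baseResV (baseRing A K₁) M (hFq_baseRing M) (baseResidueMap A K₁)
      (hRES_baseRing hA M hℓM hK₁))
    (baseResV_surjective (baseRing A K₁) M (hFq_baseRing M) (baseResidueMap A K₁)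
      (hRES_baseRing hA M hℓM hK₁) (hLIFT_baseRing hA M hℓM hK₁))
    (baseφ (baseRing A K₁) M) (baseAlgFE_baseφ (baseRing A K₁) M 3 (hesT ↥K₁))
    (baseResV_const (baseRing A K₁) M (hFq_baseRing M) (baseResidueMap A K₁)
      (hRES_baseRing hA M hℓM hK₁))
    (hesBC_algebraMap M K₁) (closure_range_hesBC M K₁) (baseToBar M K₁) hbcF
    (𝒢t.comap (algebraMap ↥(↥K₁)⟮jqNModC ↥K₁ 3⟯ ↥(↥K₁)⟮hesT ↥K₁⟯))
    (mem_iff_isIntegral_comap 3 (hesT ↥K₁) 𝒢t hintj) hU₀ (hgeo.gauss 𝒢t h𝒢t)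
    (mem_comap_iff_mem_baseV (baseRing A K₁) M 3 (hFq_baseRing M) (hesT ↥K₁) hϖ 𝒢t h𝒢j)
    (jTildeElt (IsLocalRing.ResidueField ↥A) M) halg
    (isIntegral_baseV_of_isIntegral (baseRing A K₁) M 3 (hFq_baseRing M) (hesT ↥K₁) hϖ 𝒢t h𝒢j
      hintj)
    r hup (baseZj M (hFq_baseRing M)) (baseZjInv M (hFq_baseRing M) b)
    (base_hcover M h (hFq_baseRing M) (hRES_baseRing hA M hℓM hK₁) b)
    a₁₁ b₁₁ hcop₁₁ hz₁₁ a₂₁ b₂₁ hcop₂₁ hz₂₁ a₁₂ b₁₂ hcop₁₂ hz₁₂ a₂₂ b₂₂ hcop₂₂ hz₂₂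
    (base_hSEP_j hA M h (hFq_baseRing M) (hRES_baseRing hA M hℓM hK₁) hℓM hK₁)
    (base_hSEP_jInv_of_ne_three hA M h (hFq_baseRing M) (hRES_baseRing hA M hℓM hK₁) hℓM hK₁ hℓ3 b
      r₀ hroot hr)
    (base_hEVAL_j M h (hFq_baseRing M) (hRES_baseRing hA M hℓM hK₁) r hev₁)
    (base_hEVAL_jInv M h (hFq_baseRing M) (hRES_baseRing hA M hℓM hK₁) r b hev₂)
    vy hvy hrat' D hD Q

end HesAsm

end Fermat.Agent.W1
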