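/-
W1 — helper7 — PORT of `JA/O1_helper6_Final` to the field `F₁ M 1` of `X₁(M)` (against `[W1Api M]`);
only the field-specific declarations are restated, the generic ones are imported from the original.
Original header:
-/
/-
J-A — helper6 — (O1) FINAL: the Ω-level glue.  From the base-level assemblies
`legE_base_mapDomain_eq_ord` / `hesE_base_mapDomain_eq_ord` (O1_helper6_LegAsm), helper9's (P4)
`exists_isBase_o1_legE/_hesE` and helper2's `deg_eq_of_residue`:
`isPlaceReductionModL_of_chartEval_h6` (every map of places evaluating both charts `j`,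
`(j - b)⁻¹` is a place reduction mod `ℓ`) and hence `placeReductionData_h6`
(`PlaceReductionData M p ℓ _ A` with no hypothesis beyond (RES)).
-/
import Mathlib
import Fermat.Agent.W1.O1_helper7_LegAsm
import Fermat.Agent.JA.O1_helper6_LegAsm
import Fermat.Agent.W1.API_helper7_Lemmas

set_option autoImplicit false
set_option linter.unusedSectionVars false
set_option linter.style.haveILetI false
set_option synthInstance.maxHeartbeats 400000

open HahnSeries IntermediateField AlgebraicCurve ModularCurve Fermat.Agent.Igusa Polynomial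
  Fermat.Agent.X0N Fermat.Agent.FF
open scoped MatrixGroups
open CongruenceSubgroup

open Fermat.Agent.JA

namespace Fermat.Agent.W1

open scoped Fermat.Agent.JA.Host Fermat.Agent.W1.Host

/-- `Ω = AlgebraicClosure ℚ`. -/
local notation "Ω" => AlgebraicClosure ℚ

section Glue

variable {ℓ : ℕ} [Fact ℓ.Prime] {A : ValuationSubring Ω} (hA : A.LiesOverPrime ℓ)
  (M : ℕ) [NeZero M] [W1Api M] {K₁ : IntermediateField ℚ Ω} [IsDiscreteValuationRing ↥(baseRing A K₁)]

/-- the `V`-element attached to a Gauss-integral series over the base ring. -/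
noncomputable def o1Vy (y₁ : LaurentSeries ↥(baseRing A K₁))
    (hy₁ : coeffMap (baseRing A K₁).subtype y₁ ∈
      laurentBaseChange ↥K₁ (F₁ M 1)) :
    ↥(baseV (baseRing A K₁) M (hFq_baseRing M)) :=
  ⟨gaussι (baseRing A K₁) M ⟨y₁, mem_gaussRing_iff.mpr hy₁⟩,
    gaussι_mem_baseV (baseRing A K₁) M (hFq_baseRing M) _⟩

theorem baseToBar_o1Vy (y₁ : LaurentSeries ↥(baseRing A K₁))
    (hy₁ : coeffMap (baseRing A K₁).subtype y₁ ∈
      laurentBaseChange ↥K₁ (F₁ M 1))
    {y : LaurentSeries ↥A} (hy₁y : coeffMap (baseIncl A K₁) y₁ = y)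
    (hy : coeffMap A.subtype y ∈ laurentBaseChange Ω (F₁ M 1)) :
    baseToBar M K₁ ((o1Vy M y₁ hy₁ : ↥(baseV (baseRing A K₁) M (hFq_baseRing M))) :
      ↥(keyFq ↥K₁ M)) = ⟨coeffMap A.subtype y, hy⟩ := by
  apply Subtype.ext
  show coeffMap (algebraMap ↥K₁ Ω) (coeffMap (baseRing A K₁).subtype y₁) = coeffMap A.subtype y
  rw [← hy₁y]
  exact (coeffMap_subtype_coeffMap_baseIncl y₁).symm

include hA in
theorem baseResV_o1Vy (hℓM : ¬ ℓ ∣ M) (hK₁ : IsBase ℓ K₁)
    (h : GaussRes A M (IsLocalRing.residue ↥A))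
    (y₁ : LaurentSeries ↥(baseRing A K₁))
    (hy₁ : coeffMap (baseRing A K₁).subtype y₁ ∈
      laurentBaseChange ↥K₁ (F₁ M 1))
    {y : LaurentSeries ↥A} (hy₁y : coeffMap (baseIncl A K₁) y₁ = y)
    (hyk : coeffMap (IsLocalRing.residue ↥A) y ∈
      F₁C (IsLocalRing.ResidueField ↥A) M 1) :
    baseResV (baseRing A K₁) M (hFq_baseRing M) (baseResidueMap A K₁)
      (hRES_baseRing hA M hℓM hK₁) (o1Vy M y₁ hy₁) = ⟨coeffMap (IsLocalRing.residue ↥A) y, hyk⟩ := by
  unfold o1Vy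
  rw [baseResV_gaussι (baseRing A K₁) M (hFq_baseRing M) (baseResidueMap A K₁)
    (hRES_baseRing hA M hℓM hK₁) (gaussRes_baseRing (K₁ := K₁) M h)]
  apply Subtype.ext
  rw [coe_gaussρF]
  show coeffMap _ y₁ = coeffMap (IsLocalRing.residue ↥A) y
  rw [← hy₁y, coeffMap_coeffMap]
  rfl

end Glue

section Main

variable {ℓ : ℕ} [hℓ : Fact ℓ.Prime] {A : ValuationSubring Ω} (hA : A.LiesOverPrime ℓ)
  (M : ℕ) [NeZero M] [W1Api M]

include hA in
/-- **(O1)**: a map of places which evaluates both charts `j`, `(j - b)⁻¹` is a place reduction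
mod `ℓ`. -/
theorem isPlaceReductionModL_of_chartEval_h6 (hℓM : ¬ ℓ ∣ M)
    (h : GaussRes A M (IsLocalRing.residue ↥A)) (b : ℤ)
    (r : Place Ω ↥(F₁Bar M 1) →
      Place (IsLocalRing.ResidueField ↥A)
        ↥(F₁C (IsLocalRing.ResidueField ↥A) M 1))
    (hev₁ : ChartEval h (jBar M) r) (hev₂ : ChartEval h (jInvBar M b) r) :
    IsPlaceReductionModL A (F₁ M 1) (F₁C _ M 1) r := by
  refine ⟨deg_eq_of_residue hA M hℓM r, ?_⟩
  intro y hy hyk hne D hD Q
  by_cases hℓ2 : ℓ = 2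
  · have hℓ3 : ℓ ≠ 3 := by omega
    obtain ⟨K₁, hK₁, ⟨r₀, hroot, hr⟩, y₁, hy₁y, hy₁, hrat⟩ :=
      exists_isBase_o1_hesE hA M hℓ3 b hy
    haveI := hK₁.isDiscreteValuationRing hA
    have hbar := baseToBar_o1Vy M y₁ hy₁ hy₁y hy
    have hres := baseResV_o1Vy hA M hℓM hK₁ h y₁ hy₁ hy₁y hyk
    have key := hesE_base_mapDomain_eq_ord hA M hℓM hK₁ hℓ3 h b r₀ hroot hr r hev₁ hev₂
      (o1Vy M y₁ hy₁) (by rw [hres]; exact fun h0 => hne (congrArg Subtype.val h0))
      (by rw [hbar]; exact hrat) D (by rw [hbar]; exact hD) Q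
    rw [hres] at key
    exact key
  · obtain ⟨K₁, hK₁, ⟨r₀, hroot, hr0, hr1⟩, y₁, hy₁y, hy₁, hrat⟩ :=
      exists_isBase_o1_legE hA M hℓ2 b hy
    haveI := hK₁.isDiscreteValuationRing hA
    have hbar := baseToBar_o1Vy M y₁ hy₁ hy₁y hy
    have hres := baseResV_o1Vy hA M hℓM hK₁ h y₁ hy₁ hy₁y hyk
    have key := legE_base_mapDomain_eq_ord hA M hℓM hK₁ hℓ2 h b r₀ hroot hr0 hr1 r hev₁ hev₂
      (o1Vy M y₁ hy₁) (by rw [hres]; exact fun h0 => hne (congrArg Subtype.val h0))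
      (by rw [hbar]; exact hrat) D (by rw [hbar]; exact hD) Q
    rw [hres] at key
    exact key

end Main

end Fermat.Agent.W1
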