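/-
W1 — helper7 — PORT of `JA/KEYBASE_helper8_Def` to the field `F₁ M 1` of `X₁(M)` (against `[W1Api M]`);
only the field-specific declarations are restated, the generic ones are imported from the original.
Original header:
-/
/-
J-A — helper8 — (KEY) at a base: the literal statement `KeyBaseStatement` (the target of the
base-change package BC and the output of the geometric assembly), and its formal first step: a
product of integer powers of Gauss units with formal reduction `1` is `1 + ϖ h` with `h` in the
Gauss valuation ring.
-/
import Mathlib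
import Fermat.Agent.JA.S18Asm_helper8_Main
import Fermat.Agent.Igusa.V_helper5_Gauss
import Fermat.Agent.W1.API_helper7_Lemmas
import Fermat.Agent.JA.KEYBASE_helper8_Def

set_option autoImplicit false
set_option linter.unusedSectionVars false

open HahnSeries IntermediateField AlgebraicCurve ModularCurve

open Fermat.Agent.JA

namespace Fermat.Agent.W1

/-- **(KEY) at a base** `K₁` with discrete valuation ring `R ⊂ K₁`: a finite product
`g = ∏ yᵢ^εᵢ` of integer powers of elements of the modular function field `F_{K₁}` with
coefficients in `R` and nonzero coefficientwise reductions, whose formal reduction is `1`, whose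
divisor (over `K₁`) is divisible by `m`, and whose leading coefficient is an `m`-th power in `K₁`,
is an `m`-th power in `F_{K₁}`. -/
def KeyBaseStatement {K₁ : Type*} [Field K₁] [Algebra ℚ K₁] (R : ValuationSubring K₁)
    (M m : ℕ) : Prop :=
  ∀ (ι : Type) [Fintype ι] (y : ι → LaurentSeries ↥R) (ε : ι → ℤ)
    (hy : ∀ i, coeffMap R.subtype (y i) ∈ laurentBaseChange K₁ (F₁ M 1)),
    (∀ i, coeffMap (IsLocalRing.residue ↥R) (y i) ≠ 0) →
    (∏ i, (coeffMap (IsLocalRing.residue ↥R) (y i)) ^ ε i = 1) →
    (∀ P : Place K₁ (laurentBaseChange K₁ (F₁ M 1)),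
      (m : ℤ) ∣ P.ord (∏ i, (⟨coeffMap R.subtype (y i), hy i⟩ :
        laurentBaseChange K₁ (F₁ M 1)) ^ ε i)) →
    (∃ c : K₁, c ^ m = (∏ i, (coeffMap R.subtype (y i)) ^ ε i : LaurentSeries K₁).leadingCoeff) →
    ∃ u : laurentBaseChange K₁ (F₁ M 1),
      u ^ m = ∏ i, (⟨coeffMap R.subtype (y i), hy i⟩ :
        laurentBaseChange K₁ (F₁ M 1)) ^ ε i

section Formal

open Fermat.Agent.Igusa

variable {R : Type*} [CommRing R] [IsDomain R] [IsDiscreteValuationRing R]
variable {L : Type*} [Field L] [Algebra R L] [IsFractionRing R L]

end Formal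

end Fermat.Agent.W1
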