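/-
W1 — helper7 — GENERIC version (in a pair of fields `(F₀, Ft)`) of `JA/LIFT_helper9` (helper9):
(LIFT) every element of the characteristic-`ℓ` function field `Ft ⊂ k((q))` is a quotient
`ỹ₁ / ỹ₂` of reductions of integral elements `y₁, y₂ ∈ A((q))` of the characteristic-zero function
field; it holds as soon as `Ft` is generated by reductions of integral elements.
-/
import Mathlib
import Fermat.Agent.W1.A0_helper7_RedDefs

set_option autoImplicit false
set_option linter.unusedSectionVars false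

open HahnSeries IntermediateField ModularCurve

namespace Fermat.Agent.W1

section Lift

variable {L : Type*} [Field L] [Algebra ℚ L] (A : ValuationSubring L)
variable {k : Type*} [Field k] (π : A →+* k)
variable (F₀ : IntermediateField ℚ (LaurentSeries ℚ)) (Ft : IntermediateField k (LaurentSeries k))

/-- **(LIFT)** for the pair `(F₀, Ft)`: every `h̃ ∈ Ft` is `ỹ₁ / ỹ₂` with `y₁, y₂` integral elements
of `F₀ ⊗ L`, `ỹ₁, ỹ₂ ∈ Ft`, `ỹ₂ ≠ 0`. -/
def HasIntegralLift : Prop :=
  ∀ h : LaurentSeries k, h ∈ Ft →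
    ∃ y₁ y₂ : LaurentSeries A,
      coeffMap A.subtype y₁ ∈ laurentBaseChange L F₀ ∧
      coeffMap A.subtype y₂ ∈ laurentBaseChange L F₀ ∧
      coeffMap π y₁ ∈ Ft ∧
      coeffMap π y₂ ∈ Ft ∧
      coeffMap π y₂ ≠ 0 ∧ h * coeffMap π y₂ = coeffMap π y₁

/-- constants. -/
theorem coeffMap_hahnC_g {R S : Type*} [CommRing R] [CommRing S] (f : R →+* S) (a : R) :
    coeffMap f (HahnSeries.C a : LaurentSeries R) = HahnSeries.C (f a) := by
  show coeffMap f (HahnSeries.single 0 a) = HahnSeries.single 0 (f a)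
  rw [coeffMap_single]

theorem hahnC_eq_algebraMap_g (K : Type*) [Field K] (c : K) :
    (HahnSeries.C c : LaurentSeries K) = algebraMap K (LaurentSeries K) c := by
  rw [algebraMap_laurentSeries_eq_single]
  rfl

variable {π F₀} in
/-- lifting the polynomial ring generated by a set of liftable generators. -/
theorem exists_integral_lift_of_mem_adjoin_gens (hπ : Function.Surjective π)
    (S : Set (LaurentSeries k))
    (hS : ∀ x ∈ S, ∃ y : LaurentSeries A, coeffMap π y = x ∧
      coeffMap A.subtype y ∈ laurentBaseChange L F₀)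
    {x : LaurentSeries k} (hx : x ∈ Algebra.adjoin k S) :
    ∃ y : LaurentSeries A, coeffMap π y = x ∧
      coeffMap A.subtype y ∈ laurentBaseChange L F₀ := by
  induction hx using Algebra.adjoin_induction with
  | mem x hx => exact hS x hx
  | algebraMap c =>
    obtain ⟨a, rfl⟩ := hπ c
    refine ⟨HahnSeries.C a, ?_, ?_⟩
    · rw [coeffMap_hahnC_g, hahnC_eq_algebraMap_g]
    · rw [coeffMap_hahnC_g, hahnC_eq_algebraMap_g]
      exact (laurentBaseChange L F₀).algebraMap_mem _
  | add x y _ _ hx hy =>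
    obtain ⟨y₁, h1, h1'⟩ := hx
    obtain ⟨y₂, h2, h2'⟩ := hy
    exact ⟨y₁ + y₂, by rw [map_add, h1, h2], by rw [map_add]; exact add_mem h1' h2'⟩
  | mul x y _ _ hx hy =>
    obtain ⟨y₁, h1, h1'⟩ := hx
    obtain ⟨y₂, h2, h2'⟩ := hy
    exact ⟨y₁ * y₂, by rw [map_mul, h1, h2], by rw [map_mul]; exact mul_mem h1' h2'⟩

variable {π F₀ Ft} in
/-- **(LIFT) from generators**: if `Ft` is generated over `k` by reductions of integral elements of
`F₀ ⊗ L`, then (LIFT) holds. -/
theorem hasIntegralLift_of_gens (hπ : Function.Surjective π) (S : Set (LaurentSeries k))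
    (hFt : Ft = IntermediateField.adjoin k S)
    (hS : ∀ x ∈ S, ∃ y : LaurentSeries A, coeffMap π y = x ∧
      coeffMap A.subtype y ∈ laurentBaseChange L F₀) :
    HasIntegralLift A π F₀ Ft := by
  intro h hh
  have hle : ∀ {x : LaurentSeries k}, x ∈ Algebra.adjoin k S → x ∈ Ft := fun {x} hx => by
    rw [hFt]
    exact IntermediateField.algebra_adjoin_le_adjoin k _ hx
  rw [hFt] at hh
  obtain ⟨r, hr, s, hs, rfl⟩ := IntermediateField.mem_adjoin_iff_div.1 hh
  by_cases hs0 : s = 0
  · obtain ⟨y₂, h2, h2'⟩ := exists_integral_lift_of_mem_adjoin_gens A hπ S hS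
      (Subalgebra.one_mem (Algebra.adjoin k S))
    refine ⟨0, y₂, ?_, h2', ?_, ?_, ?_, ?_⟩
    · rw [map_zero]; exact zero_mem _
    · rw [map_zero]; exact zero_mem _
    · rw [h2]; exact one_mem _
    · rw [h2]; exact one_ne_zero
    · rw [hs0, div_zero, zero_mul, map_zero]
  · obtain ⟨y₁, h1, h1'⟩ := exists_integral_lift_of_mem_adjoin_gens A hπ S hS hr
    obtain ⟨y₂, h2, h2'⟩ := exists_integral_lift_of_mem_adjoin_gens A hπ S hS hs
    refine ⟨y₁, y₂, h1', h2', ?_, ?_, ?_, ?_⟩
    · rw [h1]; exact hle hr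
    · rw [h2]; exact hle hs
    · rw [h2]; exact hs0
    · rw [h1, h2, div_mul_cancel₀ _ hs0]

end Lift

end Fermat.Agent.W1
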