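/-
W1 — helper7 — GENERIC port (in a pair of fields `(F₀, Ft)`) of `JA/S18Asm_helper8_Main` (helper8):
the literal statement (KEY) and the proof that a class of `Pic⁰` killed by `m` whose reduction
vanishes is zero, from (KEY), (CONST̃) and (LIFT).
-/
import Mathlib
import Fermat.Agent.W1.S18G_helper7_Fam
import Fermat.Agent.W1.LIFTG_helper7

set_option autoImplicit false
set_option linter.unusedSectionVars false

open HahnSeries IntermediateField AlgebraicCurve ModularCurve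

namespace Fermat.Agent.W1

section Key

variable {L : Type*} [Field L] [Algebra ℚ L] (A : ValuationSubring L)
variable {k : Type*} [Field k] (π : A →+* k)
variable (F₀ : IntermediateField ℚ (LaurentSeries ℚ)) (Ft : IntermediateField k (LaurentSeries k))

/-- **(KEY)**, literal form: a finite product `g = ∏ yᵢ^εᵢ` of integer powers of integral elements
of the modular function field (with nonzero formal reductions in the characteristic-`ℓ` function
field) whose formal reduction `∏ ỹᵢ^εᵢ` is `1` and whose divisor is divisible by `m` is an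
`m`-th power. -/
def KeyStatement (m : ℕ) : Prop :=
  ∀ (ι : Type) [Fintype ι] (y : ι → LaurentSeries A) (ε : ι → ℤ)
    (hy : ∀ i, coeffMap A.subtype (y i) ∈ laurentBaseChange L F₀)
    (hyk : ∀ i, coeffMap π (y i) ∈ Ft),
    (∀ i, coeffMap π (y i) ≠ 0) →
    (∏ i, (⟨coeffMap π (y i), hyk i⟩ : Ft) ^ ε i = 1) →
    (∀ P : Place L (laurentBaseChange L F₀),
      (m : ℤ) ∣ P.ord (∏ i, (⟨coeffMap A.subtype (y i), hy i⟩ :
        laurentBaseChange L F₀) ^ ε i)) →
    ∃ u : laurentBaseChange L F₀,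
      u ^ m = ∏ i, (⟨coeffMap A.subtype (y i), hy i⟩ :
        laurentBaseChange L F₀) ^ ε i

variable {A π F₀ Ft}

theorem IsIntPair.single {y : LaurentSeries A}
    (hy : coeffMap A.subtype y ∈ laurentBaseChange L F₀)
    (hyk : coeffMap π y ∈ Ft) (hne : coeffMap π y ≠ 0)
    {D : Divisor L (laurentBaseChange L F₀)}
    (hD : ∀ P, D P = P.ord (⟨coeffMap A.subtype y, hy⟩ :
      laurentBaseChange L F₀)) :
    IsIntPair A π F₀ Ft D ⟨coeffMap A.subtype y, hy⟩ ⟨coeffMap π y, hyk⟩ := by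
  refine ⟨Unit, inferInstance, fun _ => y, fun _ => 1, fun _ => hy, fun _ => hyk,
    fun _ => hne, ⟨fun _ => D, fun _ P => hD P, ?_⟩, ?_, ?_⟩
  · simp
  · simp
  · simp

theorem IsIntPair.exists_pow_eq {m : ℕ} (hkey : KeyStatement A π F₀ Ft m)
    {E : Divisor L (laurentBaseChange L F₀)}
    {g : laurentBaseChange L F₀} {gt : Ft}
    (h : IsIntPair A π F₀ Ft E g gt) (hgt : gt = 1) (hdiv : ∀ P, (m : ℤ) ∣ E P) :
    ∃ u : laurentBaseChange L F₀, u ^ m = g := by
  have hord := h.ord_eq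
  obtain ⟨ι, hι, y, ε, hy, hyk, hne, -, hg, hgt'⟩ := h
  rw [hg]
  refine hkey ι y ε hy hyk hne (hgt' ▸ hgt) fun P => ?_
  rw [← hg, ← hord P]
  exact hdiv P

/-- **S18, abstract form**: from (KEY), (CONST̃) and (LIFT). -/
theorem eq_zero_of_key (hlift : HasIntegralLift A π F₀ Ft) [IsAlgClosed k]
    [HasPrincipalDivisors L (laurentBaseChange L F₀)]
    (hconstC : ∀ x : Ft, x ≠ 0 →
      (∀ Q : Place k Ft, Q.ord x = 0) →
      ∃ c : k, x = algebraMap k Ft c)
    {r : Place L (laurentBaseChange L F₀) →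
      Place k Ft} (hr : IsPlaceReductionAlong A π F₀ Ft r)
    (hgen : PrincipalGeneratedByIntegral A π F₀ Ft) {m : ℕ} (hm0 : m ≠ 0)
    (hkey : KeyStatement A π F₀ Ft m)
    (z : Pic0 L (laurentBaseChange L F₀)) (hmz : m • z = 0)
    (hz : reductionPic0Along r hr hgen z = 0) : z = 0 := by
  obtain ⟨D, rfl⟩ := Pic0.mk_surjective z
  -- `m • D` is principal, generated by integral elements
  have h1 : m • (D : Divisor L (laurentBaseChange L F₀)) ∈
      Divisor.principal (K := L) (F := laurentBaseChange L F₀) := by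
    have h2 : (m • D : Divisor.degZero (K := L)
        (F := laurentBaseChange L F₀)) ∈
        (Divisor.principal (K := L)
          (F := laurentBaseChange L F₀)).addSubgroupOf
          (Divisor.degZero (K := L) (F := laurentBaseChange L F₀)) := by
      rw [← QuotientAddGroup.eq_zero_iff, QuotientAddGroup.mk_nsmul]
      exact hmz
    rw [AddSubgroup.mem_addSubgroupOf, AddSubgroupClass.coe_nsmul] at h2
    exact h2
  obtain ⟨g₀, gt₀, hS₀⟩ := exists_isIntPair_of_mem_closure (hgen h1)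
  -- the reduction of `D` is principal
  have h3 : Finsupp.mapDomain r (D : Divisor L (laurentBaseChange L F₀))
      ∈ Divisor.principal (K := k) (F := Ft) := by
    rw [reductionPic0Along_mk] at hz
    have h4 := (QuotientAddGroup.eq_zero_iff _).mp hz
    rw [AddSubgroup.mem_addSubgroupOf, coe_reductionDegZeroAlong] at h4
    exact h4
  obtain ⟨ht, hht0, hht⟩ := h3
  -- `g̃₀ = c ht^m`
  obtain ⟨hg₀0, hgt₀0⟩ := hS₀.ne_zero
  have hhtm0 : ht ^ m ≠ 0 := pow_ne_zero m hht0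
  have hord0 : ∀ Q : Place k Ft, Q.ord (gt₀ * (ht ^ m)⁻¹) = 0 := by
    intro Q
    rw [Q.ord_mul hgt₀0 (inv_ne_zero hhtm0), Q.ord_inv, ← hS₀.mapDomain_eq hr Q,
      ← Finsupp.mapDomain.addMonoidHom_apply, map_nsmul, Finsupp.mapDomain.addMonoidHom_apply,
      Finsupp.smul_apply, hht Q, ← zpow_natCast, Q.ord_zpow, nsmul_eq_mul]
    ring
  obtain ⟨c, hc⟩ := hconstC _ (mul_ne_zero hgt₀0 (inv_ne_zero hhtm0)) hord0
  obtain ⟨d, hd⟩ := IsAlgClosed.exists_pow_nat_eq c (Nat.pos_of_ne_zero hm0)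
  obtain ⟨ht', hht'⟩ : ∃ ht' : Ft,
      ht' = algebraMap k Ft d * ht := ⟨_, rfl⟩
  have hgt₀ : gt₀ = ht' ^ m := by
    rw [hht', mul_pow, ← map_pow, hd, ← hc, mul_assoc, inv_mul_cancel₀ hhtm0, mul_one]
  have hc0 : c ≠ 0 := by
    rintro rfl
    rw [map_zero] at hc
    exact mul_ne_zero hgt₀0 (inv_ne_zero hhtm0) hc
  have hd0 : d ≠ 0 := by
    rintro rfl
    rw [zero_pow hm0] at hd
    exact hc0 hd.symm
  have hht'0 : ht' ≠ 0 := by
    rw [hht']
    refine mul_ne_zero ?_ hht0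
    rw [Ne, map_eq_zero]
    exact hd0
  -- (LIFT)
  obtain ⟨y₁, y₂, hy₁, hy₂, hyk₁, hyk₂, hne₂, hrel⟩ := hlift _ ht'.2
  have hne₁ : coeffMap π y₁ ≠ 0 := by
    rw [← hrel]
    exact mul_ne_zero (fun h0 => hht'0 (Subtype.ext h0)) hne₂
  have hrel' : ht' * (⟨coeffMap π y₂, hyk₂⟩ : Ft)
      = ⟨coeffMap π y₁, hyk₁⟩ := Subtype.ext hrel
  have hy₁0 : (⟨coeffMap A.subtype y₁, hy₁⟩ :
      laurentBaseChange L F₀) ≠ 0 := fun h0 =>
    coeffMap_subtype_ne_zero A π hne₁ (congrArg Subtype.val h0)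
  have hy₂0 : (⟨coeffMap A.subtype y₂, hy₂⟩ :
      laurentBaseChange L F₀) ≠ 0 := fun h0 =>
    coeffMap_subtype_ne_zero A π hne₂ (congrArg Subtype.val h0)
  obtain ⟨D₁, hD₁, -⟩ := HasPrincipalDivisors.exists_divisor (K := L) _ hy₁0
  obtain ⟨D₂, hD₂, -⟩ := HasPrincipalDivisors.exists_divisor (K := L) _ hy₂0
  have hP₁ := IsIntPair.single (A := A) (π := π) hy₁ hyk₁ hne₁ hD₁
  have hP₂ := IsIntPair.single (A := A) (π := π) hy₂ hyk₂ hne₂ hD₂
  have hS := (hS₀.mul (hP₂.zpow m)).mul (hP₁.zpow (-(m : ℤ)))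
  -- the formal reduction is `1`
  have hy₂k0 : (⟨coeffMap π y₂, hyk₂⟩ : Ft) ≠ 0 := fun h0 =>
    hne₂ (congrArg Subtype.val h0)
  have hred : gt₀ * (⟨coeffMap π y₂, hyk₂⟩ : Ft) ^ (m : ℤ)
      * (⟨coeffMap π y₁, hyk₁⟩ : Ft) ^ (-(m : ℤ)) = 1 := by
    rw [hgt₀, ← hrel', zpow_neg, zpow_natCast, zpow_natCast, mul_pow]
    have h5 : ht' ^ m ≠ 0 := pow_ne_zero m hht'0
    have h6 : (⟨coeffMap π y₂, hyk₂⟩ : Ft) ^ m ≠ 0 :=
      pow_ne_zero m hy₂k0
    field_simp
  -- divisibility of the divisor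
  have hdiv : ∀ P : Place L (laurentBaseChange L F₀),
      (m : ℤ) ∣ (m • (D : Divisor L (laurentBaseChange L F₀))
        + (m : ℤ) • D₂ + (-(m : ℤ)) • D₁) P := by
    intro P
    refine ⟨(D : Divisor L (laurentBaseChange L F₀)) P + D₂ P - D₁ P, ?_⟩
    rw [Finsupp.add_apply, Finsupp.add_apply, Finsupp.smul_apply, Finsupp.smul_apply,
      Finsupp.smul_apply, nsmul_eq_mul, smul_eq_mul, smul_eq_mul]
    ring
  obtain ⟨u, hu⟩ := hS.exists_pow_eq hkey hred hdiv
  have hu0 : u ≠ 0 := by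
    rintro rfl
    rw [zero_pow hm0] at hu
    exact hS.ne_zero.1 hu.symm
  -- `D = div (u y₁ / y₂)`
  have hDprin : (D : Divisor L (laurentBaseChange L F₀)) ∈
      Divisor.principal (K := L) (F := laurentBaseChange L F₀) := by
    refine ⟨u * ⟨coeffMap A.subtype y₁, hy₁⟩ * (⟨coeffMap A.subtype y₂, hy₂⟩ :
      laurentBaseChange L F₀)⁻¹,
      mul_ne_zero (mul_ne_zero hu0 hy₁0) (inv_ne_zero hy₂0), fun P => ?_⟩
    have h7 := hS.ord_eq P
    rw [← hu, ← zpow_natCast, P.ord_zpow, Finsupp.add_apply, Finsupp.add_apply,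
      Finsupp.smul_apply, Finsupp.smul_apply, Finsupp.smul_apply, nsmul_eq_mul, smul_eq_mul,
      smul_eq_mul, hD₁ P, hD₂ P] at h7
    rw [P.ord_mul (mul_ne_zero hu0 hy₁0) (inv_ne_zero hy₂0), P.ord_mul hu0 hy₁0, P.ord_inv]
    have hm' : (m : ℤ) ≠ 0 := by exact_mod_cast hm0
    have h8 : (m : ℤ) * ((D : Divisor L (laurentBaseChange L F₀)) P)
        = (m : ℤ) * (P.ord u + P.ord (⟨coeffMap A.subtype y₁, hy₁⟩ :
          laurentBaseChange L F₀)
          - P.ord (⟨coeffMap A.subtype y₂, hy₂⟩ :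
            laurentBaseChange L F₀)) := by
      linarith
    have h9 := mul_left_cancel₀ hm' h8
    rw [h9]
    ring
  exact (QuotientAddGroup.eq_zero_iff D).mpr (AddSubgroup.mem_addSubgroupOf.mpr hDprin)

end Key

end Fermat.Agent.W1
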