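/-
W1 — helper7 — PORT of `JA/BC_helper9_Main` to the field `F₁ M 1` of `X₁(M)` (against `[W1Api M]`);
only the field-specific declarations are restated, the generic ones are imported from the original.
Original header:
-/
/-
J-A package BC — helper9. **Base change of (KEY)**: the literal statement `KeyStatement` over
`Ω = AlgebraicClosure ℚ` follows from `KeyBaseStatement` at all bases `K₁`.

* `bcHom F₀ : K·F₀ →+* L·F₀` — coefficientwise base change of the function fields;
* `exists_place_ord_bcHom` — (BC2) every place of `K·F₀/K` extends to `L·F₀/L` with the same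
  orders (`L/K` algebraic);
* `keyStatement_of_keyBaseStatement` — the assembly.
-/
import Mathlib
import Fermat.Agent.JA.BC_helper9_Desc
import Fermat.Agent.JA.BC_helper9_Place
import Fermat.Agent.W1.KEYBASE_helper7_Def
import Fermat.Agent.JA.KEYBASE_helper8_Def
import Fermat.Agent.JA.BASE_helper1_Main
import Fermat.Agent.W1.API_helper7_Lemmas
import Fermat.Agent.JA.BC_helper9_Main
import Fermat.Agent.W1.S18G_helper7_Main

set_option autoImplicit false
set_option linter.unusedSectionVars false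
set_option linter.style.haveILetI false

open HahnSeries IntermediateField AlgebraicCurve ModularCurve

open Fermat.Agent.JA

namespace Fermat.Agent.W1

open Fermat.Agent.X0N

section BcHom

variable {K L : Type} [Field K] [Field L] [Algebra ℚ K] [Algebra ℚ L] [Algebra K L]
  [IsScalarTower ℚ K L] (F₀ : IntermediateField ℚ (LaurentSeries ℚ))

end BcHom

section Main

/-- `Ω = AlgebraicClosure ℚ`. -/
local notation "Ω" => AlgebraicClosure ℚ

variable {ℓ : ℕ} [hℓ : Fact ℓ.Prime] {A : ValuationSubring Ω}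

set_option linter.unusedVariables false in
/-- **(BC)**: (KEY) over `Ω` from (KEY) at all bases. -/
theorem keyStatement_of_keyBaseStatement (hA : A.LiesOverPrime ℓ) (M m : ℕ) (hm : 0 < m)
    (H : ∀ K₁ : IntermediateField ℚ Ω, IsBase ℓ K₁ → KeyBaseStatement (baseRing A K₁) M m) :
    KeyStatement A (IsLocalRing.residue ↥A) (F₁ M 1) (F₁C _ M 1) m := by
  classical
  intro ι _ y ε hy hyk hne hred hdiv
  -- descent data
  obtain ⟨s, hs⟩ := exists_finset_forall_descent_family (F₁ M 1) hy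
  obtain ⟨c₀, hc₀⟩ := IsAlgClosed.exists_pow_nat_eq
    (∏ i, (coeffMap A.subtype (y i)) ^ ε i : LaurentSeries Ω).leadingCoeff hm
  obtain ⟨K₁, hK₁, hmem⟩ := exists_isBase_forall_mem ℓ (insert c₀ s)
  have hc₀K : c₀ ∈ K₁ := hmem c₀ (Finset.mem_insert_self _ _)
  choose x₁ hx₁ hx₁y using hs K₁ (fun c hc => hmem c (Finset.mem_insert_of_mem hc))
  -- the coefficients lie in `R₁ = A ∩ K₁`
  have hcoefA : ∀ i n, algebraMap ↥K₁ Ω ((x₁ i).coeff n) = (((y i).coeff n : ↥A) : Ω) := by
    intro i n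
    exact congrArg (fun z => z.coeff n) (hx₁y i)
  have hcoefR : ∀ i n, (x₁ i).coeff n ∈ baseRing A K₁ := by
    intro i n
    rw [baseRing, ValuationSubring.mem_comap, hcoefA]
    exact ((y i).coeff n).2
  choose y₁ hy₁ using fun i => exists_coeffMap_eq_of_forall_mem_range
    (baseRing A K₁).subtype (x₁ i) (fun n => ⟨⟨_, hcoefR i n⟩, rfl⟩)
  have hy₁mem : ∀ i, coeffMap (baseRing A K₁).subtype (y₁ i) ∈
      laurentBaseChange ↥K₁ (F₁ M 1) := fun i => by
    rw [hy₁ i]
    exact hx₁ i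
  have hincl : ∀ i, coeffMap (baseIncl A K₁) (y₁ i) = y i := by
    intro i
    ext n
    rw [coeffMap_coeff, baseIncl_apply, ← hcoefA i n, ← hy₁ i, coeffMap_coeff]
    rfl
  -- reductions
  have hρy : ∀ i, coeffMap (baseResidueMap A K₁)
      (coeffMap (IsLocalRing.residue ↥(baseRing A K₁)) (y₁ i)) =
      coeffMap (IsLocalRing.residue ↥A) (y i) := by
    intro i
    rw [← hincl i, coeffMap_coeffMap, coeffMap_coeffMap]
    exact coeffMap_congr (RingHom.ext fun x => rfl) _
  have hρinj : Function.Injective (coeffMap (baseResidueMap A K₁)) :=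
    RingHom.injective _
  have hne₁ : ∀ i, coeffMap (IsLocalRing.residue ↥(baseRing A K₁)) (y₁ i) ≠ 0 := by
    intro i h
    apply hne i
    rw [← hρy i, h, map_zero]
  have hredΩ : ∏ i, (coeffMap (IsLocalRing.residue ↥A) (y i)) ^ ε i = 1 := by
    have h2 := congrArg (F₁C (IsLocalRing.ResidueField ↥A) M 1).val hred
    rw [map_prod, map_one] at h2
    rw [← h2]
    refine Finset.prod_congr rfl fun i _ => ?_
    rw [map_zpow₀]
    rfl
  have hred₁ : ∏ i, (coeffMap (IsLocalRing.residue ↥(baseRing A K₁)) (y₁ i)) ^ ε i = 1 := by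
    apply hρinj
    rw [map_prod, map_one, ← hredΩ]
    refine Finset.prod_congr rfl fun i _ => ?_
    rw [map_zpow₀, hρy i]
  -- the function-field side
  have hφy : ∀ i, bcHom (L := Ω) (F₁ M 1)
      ⟨coeffMap (baseRing A K₁).subtype (y₁ i), hy₁mem i⟩ =
      ⟨coeffMap A.subtype (y i), hy i⟩ := by
    intro i
    apply Subtype.ext
    rw [coe_bcHom]
    change iota ↥K₁ Ω (coeffMap (baseRing A K₁).subtype (y₁ i)) = coeffMap A.subtype (y i)
    rw [hy₁ i, hx₁y i]
  have hφg : bcHom (L := Ω) (F₁ M 1)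
      (∏ i, (⟨coeffMap (baseRing A K₁).subtype (y₁ i), hy₁mem i⟩ :
        laurentBaseChange ↥K₁ (F₁ M 1)) ^ ε i) =
      ∏ i, (⟨coeffMap A.subtype (y i), hy i⟩ :
        laurentBaseChange Ω (F₁ M 1)) ^ ε i := by
    rw [map_prod]
    refine Finset.prod_congr rfl fun i _ => ?_
    rw [map_zpow₀, hφy i]
  have hdiv₁ : ∀ P₁ : Place ↥K₁ (laurentBaseChange ↥K₁ (F₁ M 1)),
      (m : ℤ) ∣ P₁.ord (∏ i, (⟨coeffMap (baseRing A K₁).subtype (y₁ i), hy₁mem i⟩ :
        laurentBaseChange ↥K₁ (F₁ M 1)) ^ ε i) := by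
    intro P₁
    obtain ⟨P, hP⟩ := exists_place_ord_bcHom (L := Ω) (F₁ M 1) P₁
    rw [← hP, hφg]
    exact hdiv P
  have hlead₁ : ∃ c : ↥K₁, c ^ m =
      (∏ i, (coeffMap (baseRing A K₁).subtype (y₁ i)) ^ ε i : LaurentSeries ↥K₁).leadingCoeff := by
    refine ⟨⟨c₀, hc₀K⟩, ?_⟩
    apply (algebraMap ↥K₁ Ω).injective
    rw [map_pow, ← leadingCoeff_coeffMap_of_injective (algebraMap ↥K₁ Ω).injective]
    have h3 : coeffMap (algebraMap ↥K₁ Ω)
        (∏ i, (coeffMap (baseRing A K₁).subtype (y₁ i)) ^ ε i) =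
        ∏ i, (coeffMap A.subtype (y i)) ^ ε i := by
      rw [map_prod]
      refine Finset.prod_congr rfl fun i _ => ?_
      rw [map_zpow₀, hy₁ i]
      congr 1
      exact hx₁y i
    rw [h3, ← hc₀]
    rfl
  obtain ⟨u₁, hu₁⟩ := H K₁ hK₁ ι y₁ ε hy₁mem hne₁ hred₁ hdiv₁ hlead₁
  refine ⟨bcHom (L := Ω) (F₁ M 1) u₁, ?_⟩
  rw [← map_pow, hu₁, hφg]

end Main

end Fermat.Agent.W1
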