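/-
W1 — helper8 — PORT of `JA/S18Asm_helper8_Wrap` to the field `F₁ M 1` of `X₁(M)` (against
`[W1Api M]`), on helper7's generic `W1/S18G_helper7_Main` (`eq_zero_of_key` in a pair `(F₀, Ft)`)
and `W1/LIFTG_helper7` (`HasIntegralLift`, `hasIntegralLift_of_gens`).  NEW with respect to the
original: `hasIntegralLift_F₁` ((LIFT) for the pair `(F₁ M L, F₁C k M L)`: the generators
`j(q^d)`, `φ_a(q^e)` of `F₁C k M L` are reductions of the integral series `j(q^d)`, `φ_a(q^e)` over
`A`), which the original gets from `JA/LIFT_helper9`.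
Original header:
-/
/-
J-A — helper8 — S18 end assembly, part 3: the statement of S18 from (KEY) and (CONST̃) for the
residue field of a valuation ring `A` of `ℚ̄`.
-/
import Mathlib
import Fermat.Agent.W1.S18G_helper7_Main
import Fermat.Agent.W1.LIFTG_helper7
import Fermat.Agent.JA.BASE_helper1_Res
import Fermat.Agent.W1.API_helper7_Lemmas

set_option autoImplicit false
set_option linter.unusedSectionVars false
set_option linter.style.haveILetI false
set_option synthInstance.maxHeartbeats 400000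

open HahnSeries IntermediateField AlgebraicCurve ModularCurve Fermat.Agent.Igusa

open Fermat.Agent.JA

namespace Fermat.Agent.W1

section Lift

variable {L : Type*} [Field L] [Algebra ℚ L] (A : ValuationSubring L)
variable {k : Type*} [Field k] {π : A →+* k}

/-- **(LIFT) for the pair `(F₁ M L', F₁C k M L')`**: the generators of `F₁C k M L'` are reductions of
integral elements of `F₁ M L' ⊗ L`. -/
theorem hasIntegralLift_F₁ (hπ : Function.Surjective π) (M L' : ℕ) :
    HasIntegralLift A π (F₁ M L') (F₁C k M L') := by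
  refine hasIntegralLift_of_gens A hπ
    (divisorExpansionsC k (M * L') ∪ phiExpansionsC k M L') rfl ?_
  rintro x (⟨d, hd0, hd, rfl⟩ | ⟨e, he0, a, he, ha, rfl⟩)
  · haveI := hd0
    refine ⟨qExpand ↥A d (jqModC ↥A), ?_, ?_⟩
    · rw [coeffMap_qExpand, coeffMap_jqModC]
    · rw [coeffMap_qExpand, coeffMap_jqModC, laurentBaseChange_F₁_eq_F₁C]
      exact jqModCd_mem_F₁C hd
  · haveI := he0
    refine ⟨qExpand ↥A e (phiGen ↥A M a), ?_, ?_⟩
    · rw [coeffMap_qExpand, coeffMap_phiGen]
    · rw [coeffMap_qExpand, coeffMap_phiGen, laurentBaseChange_F₁_eq_F₁C]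
      exact phi_mem_F₁C he ha

end Lift

/-- `Ω = AlgebraicClosure ℚ`. -/
local notation "Ω" => AlgebraicClosure ℚ

/-- **S18 for `X₁(M)` from (KEY) and (CONST̃).** -/
theorem s18_of_key (M : ℕ) [NeZero M] [W1Api M] (A : ValuationSubring Ω)
    (hconstC : ∀ x : F₁C (IsLocalRing.ResidueField A) M 1, x ≠ 0 →
      (∀ Q : Place (IsLocalRing.ResidueField A)
        (F₁C (IsLocalRing.ResidueField A) M 1), Q.ord x = 0) →
      ∃ c : IsLocalRing.ResidueField A,
        x = algebraMap (IsLocalRing.ResidueField A)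
          (F₁C (IsLocalRing.ResidueField A) M 1) c)
    (h : ReductionInputsModL A (F₁ M 1) (F₁C (IsLocalRing.ResidueField A) M 1)) (m : ℕ)
    (hm0 : m ≠ 0)
    (hkey : KeyStatement A (IsLocalRing.residue A) (F₁ M 1)
      (F₁C (IsLocalRing.ResidueField A) M 1) m) (z : J₁ M)
    (hmz : m • z = 0)
    (hz : reductionModL A (F₁ M 1) (F₁C (IsLocalRing.ResidueField A) M 1) z = 0) : z = 0 := by
  haveI : IsAlgClosed (IsLocalRing.ResidueField A) := isAlgClosed_residueField A
  haveI : HasPrincipalDivisors Ω (F₁Bar M 1) := hasPrincipalDivisors_F₁Bar M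
  have hz' : reductionPic0Along h.choose h.choose_spec.1 h.choose_spec.2 z = 0 := by
    rw [← reductionAlong_eq h]
    exact hz
  exact eq_zero_of_key (hasIntegralLift_F₁ A IsLocalRing.residue_surjective M 1) hconstC
    h.choose_spec.1 h.choose_spec.2 hm0 hkey z hmz hz'

/-- **S18 for `X₁(M)` from (KEY) and the separability/finiteness of `F̃₁ / k(j̃)`**. -/
theorem s18_of_key_of_isSeparable (M : ℕ) [NeZero M] [W1Api M] {ℓ : ℕ} [Fact ℓ.Prime]
    (A : ValuationSubring Ω)
    (hsep : Algebra.IsSeparable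
      (IsLocalRing.ResidueField A)⟮jTildeElt (IsLocalRing.ResidueField A) M⟯
      ↥(F₁C (IsLocalRing.ResidueField A) M 1))
    (hfin : FiniteDimensional
      (IsLocalRing.ResidueField A)⟮jTildeElt (IsLocalRing.ResidueField A) M⟯
      ↥(F₁C (IsLocalRing.ResidueField A) M 1))
    (h : ReductionInputsModL A (F₁ M 1) (F₁C (IsLocalRing.ResidueField A) M 1)) (m : ℕ)
    (hm : ¬ ℓ ∣ m)
    (hkey : KeyStatement A (IsLocalRing.residue A) (F₁ M 1)
      (F₁C (IsLocalRing.ResidueField A) M 1) m) (z : J₁ M)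
    (hmz : m • z = 0)
    (hz : reductionModL A (F₁ M 1) (F₁C (IsLocalRing.ResidueField A) M 1) z = 0) : z = 0 := by
  haveI : IsAlgClosed (IsLocalRing.ResidueField A) := isAlgClosed_residueField A
  have hm0 : m ≠ 0 := by
    rintro rfl
    exact hm (dvd_zero ℓ)
  exact s18_of_key M A (fun x hx hord =>
    const_of_ord_eq_zero (IsLocalRing.ResidueField A) M hsep hfin x hx hord) h m hm0 hkey z hmz hz

/-- **S18 for `X₁(M)` from (KEY) alone** (`ℓ ∤ M`, `A ∣ ℓ`): separability and finiteness of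
`F̃₁ / k(j̃)` come from `[W1Api M]`. -/
theorem s18_of_key_residue (M : ℕ) [NeZero M] [W1Api M] {ℓ : ℕ} [Fact ℓ.Prime]
    {A : ValuationSubring Ω} (hA : A.LiesOverPrime ℓ) (hℓM : ¬ ℓ ∣ M)
    (h : ReductionInputsModL A (F₁ M 1) (F₁C (IsLocalRing.ResidueField A) M 1)) (m : ℕ)
    (hm : ¬ ℓ ∣ m)
    (hkey : KeyStatement A (IsLocalRing.residue A) (F₁ M 1)
      (F₁C (IsLocalRing.ResidueField A) M 1) m) (z : J₁ M)
    (hmz : m • z = 0)
    (hz : reductionModL A (F₁ M 1) (F₁C (IsLocalRing.ResidueField A) M 1) z = 0) : z = 0 :=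
  s18_of_key_of_isSeparable M A (isSeparable_fullC_residueField hA M hℓM)
    (finiteDimensional_fullC_residueField hA M hℓM) h m hm hkey z hmz hz

end Fermat.Agent.W1
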