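/-
W1 — helper7 — PORT of `JA/S18Asm_helper8_Wrap`: the same port was landed first by helper8 as
`W1/S18Asm_helper8_Wrap` (`hasIntegralLift_F₁`, `s18_of_key`, `s18_of_key_of_isSeparable`,
`s18_of_key_residue`); this file is now a thin re-export of it, so that every import closure contains
exactly one copy.
-/
import Mathlib
import Fermat.Agent.W1.S18Asm_helper8_Wrap
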