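/-
W1 — helper7 — PORT of `JA/S37Asm_helper7_Top` to the field `F₁ M 1` of `X₁(M)`: the
`(ℓ, A)`-clause for `J₁(M)` (Eichler–Shimura relation with the diamond operator after reduction,
inertia invariance, Frobenius compatibility, injectivity on `p`-power torsion) from the place
reductions, (EQUIV), (ES), (KEY) and (CONST̃).
-/
import Mathlib
import Fermat.Agent.W1.S37Asm_helper7_Red
import Fermat.Agent.W1.S18Asm_helper7_Wrap

set_option autoImplicit false
set_option linter.style.haveILetI false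

open HahnSeries IntermediateField AlgebraicCurve

open Fermat.Agent.JA

namespace Fermat.Agent.W1

open ModularCurve

set_option synthInstance.maxHeartbeats 400000
set_option maxHeartbeats 1600000

/-- the data, for one valuation subring `A | ℓ` of `ℚ̄`, from which the `(ℓ, A)`-clause for
`J₁(M)` follows; `T` is the Hecke operator `T_ℓ` and `D` the diamond operator `⟨ℓ⟩^{±1}` on
`J₁(M)`. -/
structure PlaceReductionData (M p : ℕ) [NeZero M] (ℓ : ℕ)
    (A : ValuationSubring (AlgebraicClosure ℚ)) (T D : J₁ M → J₁ M) : Prop where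
  exists_data : ∃ (r : Place (AlgebraicClosure ℚ) (F₁Bar M 1) →
      Place (IsLocalRing.ResidueField A) (F₁C (IsLocalRing.ResidueField A) M 1))
    (hr : IsPlaceReductionModL A (F₁ M 1) (F₁C (IsLocalRing.ResidueField A) M 1) r)
    (hgen : PrincipalGeneratedByIntegral A (IsLocalRing.residue A) (F₁ M 1)
      (F₁C (IsLocalRing.ResidueField A) M 1)),
    (∀ (σ : A.decompositionSubgroup ℚ)
      (P : Place (AlgebraicClosure ℚ) (F₁Bar M 1)),
      r (arithmeticGalois (F₁ M 1) σ.1 • P)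
        = coeffAutC (IsLocalRing.ResidueField A) M (resAut A σ) • r P) ∧
    (∀ (σ₀ : A.decompositionSubgroup ℚ), A.IsFrobeniusAt σ₀.1 ℓ → ∀ x : J₁ M,
      reductionPic0Along r hr hgen (T x)
        = coeffAutC (IsLocalRing.ResidueField A) M (resAut A σ₀) • reductionPic0Along r hr hgen x
          + ℓ • ((coeffAutC (IsLocalRing.ResidueField A) M (resAut A σ₀))⁻¹ •
              reductionPic0Along r hr hgen (D x)))
  key : ∀ n : ℕ, KeyStatement A (IsLocalRing.residue A) (F₁ M 1)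
    (F₁C (IsLocalRing.ResidueField A) M 1) (p ^ n)
  constC : ∀ x : F₁C (IsLocalRing.ResidueField A) M 1, x ≠ 0 →
      (∀ Q : Place (IsLocalRing.ResidueField A)
        (F₁C (IsLocalRing.ResidueField A) M 1), Q.ord x = 0) →
      ∃ c : IsLocalRing.ResidueField A,
        x = algebraMap (IsLocalRing.ResidueField A)
          (F₁C (IsLocalRing.ResidueField A) M 1) c

/-- **the `(ℓ, A)`-clause for `J₁(M)` from the place reduction data.** -/
theorem clause_of_placeReductionData (M p : ℕ) [NeZero M] [W1Api M] (hp0 : p ≠ 0) {ℓ : ℕ}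
    (hℓ : ℓ.Prime) {A : ValuationSubring (AlgebraicClosure ℚ)} (hA : A.LiesOverPrime ℓ)
    (T D : J₁ M → J₁ M)
    (hD : ∀ (σ : AlgebraicClosure ℚ ≃ₐ[ℚ] AlgebraicClosure ℚ) (x : J₁ M), D (σ • x) = σ • D x)
    (h : PlaceReductionData M p ℓ A T D) :
    ∃ (N : Type) (_ : AddCommGroup N) (red : J₁ M →+ N) (Fr : N →+ N)
      (σ₀ : AlgebraicClosure ℚ ≃ₐ[ℚ] AlgebraicClosure ℚ),
      A.IsFrobeniusAt σ₀ ℓ ∧
      (∀ σ ∈ A.inertiaSubgroupIn ℚ, ∀ x : J₁ M, red (σ • x) = red x) ∧
      (∀ σ : AlgebraicClosure ℚ ≃ₐ[ℚ] AlgebraicClosure ℚ, A.IsFrobeniusAt σ ℓ →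
        ∀ x : J₁ M, red (σ • x) = Fr (red x)) ∧
      (∀ x : J₁ M, red (σ₀ • σ₀ • x - T (σ₀ • x) + ℓ • D x) = 0) ∧
      (∀ x : J₁ M, (∃ n : ℕ, p ^ n • x = 0) → red x = 0 → x = 0) := by
  obtain ⟨⟨r, hr, hgen, hequiv, hES⟩, hkey, hconstC⟩ := h
  haveI : IsAlgClosed (IsLocalRing.ResidueField A) := isAlgClosed_residueField A
  haveI : HasPrincipalDivisors (AlgebraicClosure ℚ) (F₁Bar M 1) := hasPrincipalDivisors_F₁Bar M
  refine exists_red_of_placeReduction hr hgen T D p hℓ hA hequiv hD hES ?_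
  rintro x ⟨n, hn⟩ hx
  exact eq_zero_of_key (hasIntegralLift_F₁ A IsLocalRing.residue_surjective M 1) hconstC hr hgen
    (pow_ne_zero n hp0) (hkey n) x hn hx

end Fermat.Agent.W1
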