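/-
W1 — helper8 — PORT of `JA/S37KEY_helper8` to the field `F₁ M 1` of `X₁(M)` (against `[W1Api M]`):
(KEY) over `Ω` for every `m` prime to `ℓ` and (CONST̃) for the residue field of `A ∣ ℓ`,
unconditionally (these are the fields `key` and `constC` of the original's `PlaceReductionData`;
the original's `placeReductionData_of_exists_data` is these two lemmas put into helper7's
structure, whose `Γ₁(M)`-version is stated with the port of `JA/S37Asm_helper7_Top`).
Original header:
-/
/-
J-A — helper8 — S37: the fields `key` and `constC` of helper7's `PlaceReductionData` are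
unconditional (KEY at every base + BC, and (CONST̃) with G1.DEG); what remains for S37 is the
existence of the place reduction `r` with (O1)–(O4).
-/
import Mathlib
import Fermat.Agent.W1.BC_helper7_Main
import Fermat.Agent.W1.KEYBASE_helper7_Final
import Fermat.Agent.W1.API_helper7_Lemmas
import Fermat.Agent.W1.S18Asm_helper8_Wrap

set_option autoImplicit false
set_option linter.style.haveILetI false

open HahnSeries IntermediateField AlgebraicCurve

open Fermat.Agent.JA

namespace Fermat.Agent.W1

open ModularCurve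

set_option synthInstance.maxHeartbeats 400000
set_option maxHeartbeats 1600000

/-- **(KEY) over `Ω` for `X₁(M)`**, unconditionally, for every `m` prime to `ℓ`. -/
theorem keyStatement_residue {ℓ : ℕ} [Fact ℓ.Prime] {A : ValuationSubring (AlgebraicClosure ℚ)}
    (hA : A.LiesOverPrime ℓ) (M : ℕ) [NeZero M] [W1Api M] (hℓM : ¬ ℓ ∣ M) (m : ℕ)
    (hℓm : ¬ ℓ ∣ m) :
    KeyStatement A (IsLocalRing.residue ↥A) (F₁ M 1) (F₁C (IsLocalRing.ResidueField ↥A) M 1) m := by
  have hm0 : 0 < m := Nat.pos_of_ne_zero (by rintro rfl; exact hℓm (dvd_zero ℓ))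
  exact keyStatement_of_keyBaseStatement hA M m hm0
    (fun _ hK₁ => keyBaseStatement_baseRing hA M m hm0 hℓM hℓm hK₁)

/-- **(CONST̃) for `F̃₁` over the residue field of `A ∣ ℓ`**, unconditionally (`ℓ ∤ M`): a
nonzero function without zeros and poles is constant. -/
theorem constC_residue {ℓ : ℕ} [Fact ℓ.Prime] {A : ValuationSubring (AlgebraicClosure ℚ)}
    (hA : A.LiesOverPrime ℓ) (M : ℕ) [NeZero M] [W1Api M] (hℓM : ¬ ℓ ∣ M)
    (x : F₁C (IsLocalRing.ResidueField A) M 1) (hx : x ≠ 0)
    (hord : ∀ Q : Place (IsLocalRing.ResidueField A) (F₁C (IsLocalRing.ResidueField A) M 1),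
      Q.ord x = 0) :
    ∃ c : IsLocalRing.ResidueField A,
      x = algebraMap (IsLocalRing.ResidueField A) (F₁C (IsLocalRing.ResidueField A) M 1) c := by
  haveI : IsAlgClosed (IsLocalRing.ResidueField A) := isAlgClosed_residueField A
  exact const_of_ord_eq_zero (IsLocalRing.ResidueField A) M
    (isSeparable_fullC_residueField hA M hℓM) (finiteDimensional_fullC_residueField hA M hℓM)
    x hx hord

/-- **injectivity of the reduction on the prime-to-`ℓ` torsion of `J₁(M)`**, unconditionally in
(KEY) and (CONST̃): for every place reduction `r` (with `hgen`), a class killed by `m`, `ℓ ∤ m`,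
with vanishing reduction is zero. -/
theorem eq_zero_of_reductionPic0Along_eq_zero {ℓ : ℕ} [Fact ℓ.Prime]
    {A : ValuationSubring (AlgebraicClosure ℚ)}
    (hA : A.LiesOverPrime ℓ) (M : ℕ) [NeZero M] [W1Api M] (hℓM : ¬ ℓ ∣ M)
    {r : Place (AlgebraicClosure ℚ) (F₁Bar M 1) →
      Place (IsLocalRing.ResidueField A) (F₁C (IsLocalRing.ResidueField A) M 1)}
    (hr : IsPlaceReductionModL A (F₁ M 1) (F₁C (IsLocalRing.ResidueField A) M 1) r)
    (hgen : PrincipalGeneratedByIntegral A (IsLocalRing.residue A) (F₁ M 1)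
      (F₁C (IsLocalRing.ResidueField A) M 1))
    (m : ℕ) (hℓm : ¬ ℓ ∣ m) (z : J₁ M) (hmz : m • z = 0)
    (hz : reductionPic0Along r hr hgen z = 0) : z = 0 := by
  haveI : IsAlgClosed (IsLocalRing.ResidueField A) := isAlgClosed_residueField A
  haveI : HasPrincipalDivisors (AlgebraicClosure ℚ) (F₁Bar M 1) := hasPrincipalDivisors_F₁Bar M
  have hm0 : m ≠ 0 := by
    rintro rfl
    exact hℓm (dvd_zero ℓ)
  exact eq_zero_of_key (hasIntegralLift_F₁ A IsLocalRing.residue_surjective M 1)
    (fun x hx hord => constC_residue hA M hℓM x hx hord) hr hgen hm0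
    (keyStatement_residue hA M hℓM m hℓm) z hmz hz

end Fermat.Agent.W1
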