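/-
W1 — helper7 — PORT of `JA/S37KEY_helper8` (helper8) to the field `F₁ M 1` of `X₁(M)`: the fields
`key` and `constC` of `PlaceReductionData` are unconditional (KEY at every base + BC, and (CONST̃));
what remains is the existence of the place reduction `r` with (EQUIV) and (ES).
(`keyStatement_residue` itself is in helper8's `W1/S37KEY_helper8`, imported here.)
-/
import Mathlib
import Fermat.Agent.W1.S37Asm_helper7_Top
import Fermat.Agent.W1.S37KEY_helper8
import Fermat.Agent.W1.BC_helper7_Main
import Fermat.Agent.W1.KEYBASE_helper7_Final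

set_option autoImplicit false
set_option linter.style.haveILetI false

open HahnSeries IntermediateField AlgebraicCurve

open Fermat.Agent.JA

namespace Fermat.Agent.W1

open ModularCurve

set_option synthInstance.maxHeartbeats 400000
set_option maxHeartbeats 1600000

/-- **`PlaceReductionData` from the place reduction alone**: the fields `key` and `constC` are
discharged. -/
theorem placeReductionData_of_exists_data (M p : ℕ) [NeZero M] [W1Api M] (ℓ : ℕ) (hℓ : ℓ.Prime)
    (hℓMp : ¬ ℓ ∣ M * p) (A : ValuationSubring (AlgebraicClosure ℚ)) (hA : A.LiesOverPrime ℓ)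
    (T D : J₁ M → J₁ M)
    (hdata : ∃ (r : Place (AlgebraicClosure ℚ) (F₁Bar M 1) →
      Place (IsLocalRing.ResidueField A) (F₁C (IsLocalRing.ResidueField A) M 1))
    (hr : IsPlaceReductionModL A (F₁ M 1) (F₁C (IsLocalRing.ResidueField A) M 1) r)
    (hgen : PrincipalGeneratedByIntegral A (IsLocalRing.residue A) (F₁ M 1)
      (F₁C (IsLocalRing.ResidueField A) M 1)),
    (∀ (σ : A.decompositionSubgroup ℚ)
      (P : Place (AlgebraicClosure ℚ) (F₁Bar M 1)),
      r (arithmeticGalois (F₁ M 1) σ.1 • P)
        = coeffAutC (IsLocalRing.ResidueField A) M (resAut A σ) • r P) ∧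
    (∀ (σ₀ : A.decompositionSubgroup ℚ), A.IsFrobeniusAt σ₀.1 ℓ → ∀ x : J₁ M,
      reductionPic0Along r hr hgen (T x)
        = coeffAutC (IsLocalRing.ResidueField A) M (resAut A σ₀) • reductionPic0Along r hr hgen x
          + ℓ • ((coeffAutC (IsLocalRing.ResidueField A) M (resAut A σ₀))⁻¹ •
              reductionPic0Along r hr hgen (D x)))) :
    PlaceReductionData M p ℓ A T D := by
  haveI : Fact ℓ.Prime := ⟨hℓ⟩
  have hℓM : ¬ ℓ ∣ M := fun h => hℓMp (dvd_mul_of_dvd_left h p)
  have hℓp : ¬ ℓ ∣ p := fun h => hℓMp (dvd_mul_of_dvd_right h M)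
  haveI : IsAlgClosed (IsLocalRing.ResidueField A) := isAlgClosed_residueField A
  refine ⟨hdata, fun n => ?_, fun x hx hord => ?_⟩
  · exact keyStatement_residue hA M hℓM (p ^ n) (fun h => hℓp (hℓ.dvd_of_dvd_pow h))
  · exact const_of_ord_eq_zero (IsLocalRing.ResidueField A) M
      (isSeparable_fullC_residueField hA M hℓM) (finiteDimensional_fullC_residueField hA M hℓM)
      x hx hord

end Fermat.Agent.W1
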