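/-
W1 — helper7 — the FINAL GLUE of the arithmetic half: lead's `DS48.ClauseHyp M hM p` (the
Eichler–Shimura clauses for `J₁(M)` at all `ℓ ∤ M p`, in the literal shape of helper9's
`stageIData₁_of`) and `DS48.FixHyp M`, from

* `[W1Api M]` (the facts on the function field of `X₁(M)`: instance by helper2/3/8/9),
* `ESChartsHyp M hM` = the literal of helper4's [A5] deliverable `hES_of_charts` (the
  Eichler–Shimura congruence on `Pic⁰` for a place reduction evaluating the two charts `j`,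
  `(j - b)⁻¹`).

Route (= `JA/S37Asm_helper7_{Final,Final2}`, `JA/SEP_helper6_Plug`, `JA/O1_helper6_Final`,
`GR/ASM_helper8_Done.s37_clause`): the place reduction `r` of `exists_placeReduction_residue` (from
(SEP) for both charts), (O1) `isPlaceReductionModL_of_chartEval_h6`, (PGI), (KEY), (CONST̃), and
`clause_of_placeReductionData`.
-/
import Mathlib
import Fermat.Agent.W1.O1_helper7_Final
import Fermat.Agent.W1.S37KEY_helper7
import Fermat.Agent.W1.FIX_helper3
import Fermat.Agent.DS48.FINAL_lead_Glue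

set_option autoImplicit false
set_option linter.unusedSectionVars false
set_option linter.style.haveILetI false

open HahnSeries IntermediateField AlgebraicCurve

open Fermat.Agent.JA

namespace Fermat.Agent.W1

open ModularCurve

set_option synthInstance.maxHeartbeats 400000
set_option maxHeartbeats 1600000

local notation "Ω" => AlgebraicClosure ℚ

/-- **the Eichler–Shimura congruence on `Pic⁰`** for a place reduction `r` of `X₁(M)` at `A | ℓ`
which evaluates and separates the two charts `j`, `(j - b)⁻¹`: the literal of helper4's [A5]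
theorem `hES_of_charts`; `T'_ℓ = β_* α^*` is `heckeSwapBar M 1 ℓ hM`, the diamond operator is
`diaBar M 1 u⁻¹` with `u ≡ ℓ mod M`. -/
def ESChartsHyp (M : ℕ) [NeZero M] [W1Api M] (hM : M ≠ 1) : Prop :=
  ∀ {ℓ : ℕ} [hℓ : Fact ℓ.Prime] {A : ValuationSubring Ω} (_hA : A.LiesOverPrime ℓ)
    (_hℓM : ¬ ℓ ∣ M) (h : GaussRes A M (IsLocalRing.residue A))
    (r : Place Ω ↥(F₁Bar M 1) →
      Place (IsLocalRing.ResidueField A) ↥(F₁C (IsLocalRing.ResidueField A) M 1))
    (hr : IsPlaceReductionModL A (F₁ M 1) (F₁C (IsLocalRing.ResidueField A) M 1) r)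
    (hgen : PrincipalGeneratedByIntegral A (IsLocalRing.residue A) (F₁ M 1)
      (F₁C (IsLocalRing.ResidueField A) M 1))
    (σ₀ : A.decompositionSubgroup ℚ) (_hσ₀ : A.IsFrobeniusAt σ₀.1 ℓ) (u : (ZMod M)ˣ)
    (_hu : (u : ZMod M) = (ℓ : ZMod M)) (b : ℤ)
    (_hdegk : ∀ Q : Place (IsLocalRing.ResidueField A)
      ↥(F₁C (IsLocalRing.ResidueField A) M 1), Q.deg = 1)
    (_hequiv : ∀ (σ : A.decompositionSubgroup ℚ) (P : Place Ω ↥(F₁Bar M 1)),
      r (arithmeticGalois (F₁ M 1) σ.1 • P)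
        = coeffAutC (IsLocalRing.ResidueField A) M (resAut A σ) • r P)
    (_hev₁ : ChartEval h (jBar M) r)
    (_hsep₁ : ChartSep h (jBar M) (fun Q => gaussρF h (jGauss A M) ∈ Q.toValuationSubring))
    (_hev₂ : ChartEval h (jInvBar M b) r)
    (_hsep₂ : ChartSep h (jInvBar M b)
      (fun Q => gaussρF h (jInvGauss A M b) ∈ Q.toValuationSubring))
    (x : J₁ M),
    haveI : NeZero ℓ := ⟨hℓ.out.ne_zero⟩
    reductionPic0Along r hr hgen (heckeSwapBar M 1 ℓ hM x)
      = coeffAutC (IsLocalRing.ResidueField A) M (resAut A σ₀) • reductionPic0Along r hr hgen x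
        + ℓ • ((coeffAutC (IsLocalRing.ResidueField A) M (resAut A σ₀))⁻¹ •
            reductionPic0Along r hr hgen (diaBar M 1 u⁻¹ x))

section Final

variable (M : ℕ) [NeZero M] [W1Api M] (hM : M ≠ 1)

/-- (SEP) for the `j`-chart in the shape of `exists_placeReduction_residue`. -/
theorem chartSep_jBar_gauss {ℓ : ℕ} [Fact ℓ.Prime] {A : ValuationSubring Ω}
    (hA : A.LiesOverPrime ℓ) (hℓM : ¬ ℓ ∣ M) (h : GaussRes A M (IsLocalRing.residue ↥A)) :
    ChartSep h (jBar M) (fun Q => gaussρF h (jGauss A M) ∈ Q.toValuationSubring) := by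
  rw [gaussρF_jGauss]
  exact chartSep_jBar hA M hℓM h

/-- **`PlaceReductionData` for `A | ℓ`** (`ℓ ∤ M p`) with `T = T'_ℓ = β_* α^*` and
`D = ⟨u⁻¹⟩`, `u ≡ ℓ mod M`, from `[W1Api M]` and helper4's Eichler–Shimura congruence. -/
theorem placeReductionData_of_esCharts (hES : ESChartsHyp M hM) (p : ℕ) {ℓ : ℕ}
    [hℓ : Fact ℓ.Prime] (hℓMp : ¬ ℓ ∣ M * p) {A : ValuationSubring Ω} (hA : A.LiesOverPrime ℓ)
    (u : (ZMod M)ˣ) (hu : (u : ZMod M) = (ℓ : ZMod M)) :
    haveI : NeZero ℓ := ⟨hℓ.out.ne_zero⟩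
    PlaceReductionData M p ℓ A (heckeSwapBar M 1 ℓ hM) (diaBar M 1 u⁻¹) := by
  have hℓM : ¬ ℓ ∣ M := fun hd => hℓMp (dvd_mul_of_dvd_left hd p)
  haveI : NeZero ℓ := ⟨hℓ.out.ne_zero⟩
  have h := gaussRes_residue hA M hℓM
  have hsep₁ := chartSep_jBar_gauss M hA hℓM h
  have hsep₂ := chartSep_jInvBar hA M hℓM h 0
  obtain ⟨r, hev₁, hev₂, -, -, -, hequiv⟩ := exists_placeReduction_residue hA M hℓM 0 hsep₁ hsep₂
  have hr : IsPlaceReductionModL A (F₁ M 1) (F₁C (IsLocalRing.ResidueField A) M 1) r :=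
    isPlaceReductionModL_of_chartEval_h6 hA M hℓM h 0 r hev₁ hev₂
  have hgen : PrincipalGeneratedByIntegral A (IsLocalRing.residue ↥A) (F₁ M 1)
      (F₁C (IsLocalRing.ResidueField A) M 1) :=
    principalGeneratedByIntegral_residue hA M hℓM
  refine placeReductionData_of_exists_data M p ℓ hℓ.out hℓMp A hA _ _
    ⟨r, hr, hgen, hequiv, ?_⟩
  intro σ₀ hσ₀ x
  exact hES hA hℓM h r hr hgen σ₀ hσ₀ u hu 0
    (fun Q => deg_eq_one_fullC_residue hA M hℓM Q) hequiv hev₁ hsep₁ hev₂ hsep₂ x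

/-- **lead's `DS48.ClauseHyp M hM p`** from `[W1Api M]` and helper4's Eichler–Shimura
congruence. -/
theorem clauseHyp_of_esCharts (hES : ESChartsHyp M hM) (p : ℕ) [hp : Fact p.Prime] :
    DS48.ClauseHyp M hM p := by
  intro ℓ hℓ hℓMp A hA
  haveI : Fact ℓ.Prime := ⟨hℓ⟩
  haveI : NeZero ℓ := ⟨hℓ.ne_zero⟩
  have hℓM : ¬ ℓ ∣ M := fun h => hℓMp (Dvd.dvd.mul_right h p)
  have hdata := placeReductionData_of_esCharts M hM hES p hℓMp hA
    (DS48.primeUnit M hℓ hℓM) rfl
  exact clause_of_placeReductionData M p hp.out.ne_zero hℓ hA _ _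
    (fun σ x => diaBar_galois_smul M 1 _ σ x) hdata

/-- **lead's `DS48.FixHyp M`** from `[W1Api M]` (helper3's `jzero_fix`). -/
theorem fixHyp_of_api : DS48.FixHyp M := fun x => jzero_fix M x

end Final

end Fermat.Agent.W1
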