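/-
W1 — helper7 — the FINAL FUNNEL: `DS48.ModRepGamma1` (hence S48, via lead's
`DS48.s48_of_modRep`) from the two remaining inputs of the arithmetic half:

* `hapi : ∀ M, 5 ≤ M → W1Api M` (the instance: helper9's `w1Api_of_unr_of_dec` from (Unr), (DEC)),
* `hES : ∀ M, 5 ≤ M → ESChartsHyp M hM` (helper4's [A5] theorem `hES_of_charts`).
-/
import Mathlib
import Fermat.Agent.W1.FINAL_helper7_Clause
import Fermat.Agent.DS48.FINAL_lead_Lift

set_option autoImplicit false

namespace Fermat.Agent.W1

/-- **`ModRepGamma1` from the `W1Api` instances and the Eichler–Shimura congruences.** -/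
theorem modRepGamma1_of_api_of_esCharts
    (hapi : ∀ (M : ℕ) [NeZero M], 5 ≤ M → W1Api M)
    (hES : ∀ (M : ℕ) [NeZero M] [W1Api M] (hM : M ≠ 1), 5 ≤ M → ESChartsHyp M hM) :
    DS48.ModRepGamma1 := by
  refine DS48.modRepGamma1_of_fix_clause ?_ ?_
  · intro M _ hM5
    haveI : W1Api M := hapi M hM5
    exact fixHyp_of_api M
  · intro M _ hM hM5 p _
    haveI : W1Api M := hapi M hM5
    exact clauseHyp_of_esCharts M hM (hES M hM hM5) p

end Fermat.Agent.W1
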