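/-
W1 = [GRΓ1] (S48), package [A1a] (helper7): the abstract ÉTALE STEP.

Tower of fields `K ⊂ F₀ ⊂ F₁`, `𝒱` a valuation subring of `K`, `B₀`, `B₁` the integral closures of
`𝒱` in `F₀`, `F₁`.  Let `g ∈ F₁` generate `F₁` over `F₀`, with "conjugates" `r i = σ i g`
(`σ i ∈ Aut(F₁/F₀)`, `i ∈ ι` finite, `g = r i₀`), all integral over `𝒱`, such that
`∏ (X - r i)` has coefficients in `F₀` and `D = ∏_{i ≠ j} (r i - r j) ∈ F₀` is a UNIT of `B₀`.  Then

* `B₁ = B₀[g]` (`exists_aeval_eq_of_isIntegral`: Lagrange interpolation at the conjugates);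
* `B₁` is formally unramified over `B₀`;
* `Unr 𝒱 F₀ → Unr 𝒱 F₁` (`unr_of_unr_of_conjugates`).

Application: `F₀ = K₁ · F₀(M)`, `F₁ = K₁ · F₁(M)`, `𝒱` the Gauss valuation subring of `K₁(j)`,
`g = φ_1`, `r d = φ_d` (`d ∈ (ℤ/M)ˣ/±1`): the differences `φ_d - φ_{d'}` are units of `ℤ((q))`
(`W1/SER_helper7_Phi`), so `D` and `D⁻¹` are Gauss-integral elements of `F₀`.
-/
import Mathlib
import Fermat.Agent.JA.GEO_lead_Spec
import Fermat.Agent.JA.G1_helper5_UnrAlg

set_option autoImplicit false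
set_option linter.style.haveILetI false

open Polynomial

namespace Fermat.Agent.W1

open Fermat.Agent.JA

noncomputable section

section Step

variable {K F₀ F₁ : Type*} [Field K] [Field F₀] [Field F₁] [Algebra K F₀] [Algebra K F₁]
  [Algebra F₀ F₁] [IsScalarTower K F₀ F₁] (𝒱 : ValuationSubring K)

/-- the ring homomorphism `B₀ → B₁` between the integral closures. -/
def intClosureMap : ↥(integralClosure ↥𝒱 F₀) →+* ↥(integralClosure ↥𝒱 F₁) :=
  ((algebraMap F₀ F₁).comp (integralClosure ↥𝒱 F₀).val.toRingHom).codRestrict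
    (integralClosure ↥𝒱 F₁).toSubring (fun x => by
      have hx : IsIntegral ↥𝒱 (x : F₀) := x.2
      exact hx.map (IsScalarTower.toAlgHom ↥𝒱 F₀ F₁))

@[simp] theorem coe_intClosureMap (x : ↥(integralClosure ↥𝒱 F₀)) :
    ((intClosureMap (F₁ := F₁) 𝒱 x : ↥(integralClosure ↥𝒱 F₁)) : F₁) =
      algebraMap F₀ F₁ (x : F₀) := rfl

variable {ι : Type*} [Fintype ι] [DecidableEq ι] (r : ι → F₁) (i₀ : ι)

/-- the product of all differences of distinct conjugates. -/
def diffProd : F₁ := ∏ i, ∏ j ∈ Finset.univ.erase i, (r i - r j)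

variable {𝒱 r}

theorem isIntegral_diffProd (hr : ∀ i, IsIntegral ↥𝒱 (r i)) : IsIntegral ↥𝒱 (diffProd r) :=
  IsIntegral.prod _ fun i _ => IsIntegral.prod _ fun j _ => (hr i).sub (hr j)

/-- the inverse of every single difference is integral, if the inverse of the product is. -/
theorem isIntegral_inv_sub (hr : ∀ i, IsIntegral ↥𝒱 (r i)) (hD0 : diffProd r ≠ 0)
    (hDinv : IsIntegral ↥𝒱 (diffProd r)⁻¹) {i j : ι} (hij : i ≠ j) :
    IsIntegral ↥𝒱 (r i - r j)⁻¹ := by
  have h1 : diffProd r = (r i - r j) *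
      ((∏ j' ∈ (Finset.univ.erase i).erase j, (r i - r j')) *
        ∏ i' ∈ Finset.univ.erase i, ∏ j' ∈ Finset.univ.erase i', (r i' - r j')) := by
    rw [diffProd, ← Finset.mul_prod_erase Finset.univ _ (Finset.mem_univ i),
      ← Finset.mul_prod_erase (Finset.univ.erase i) _
        (Finset.mem_erase.mpr ⟨hij.symm, Finset.mem_univ j⟩)]
    ring
  set T := (∏ j' ∈ (Finset.univ.erase i).erase j, (r i - r j')) *
        ∏ i' ∈ Finset.univ.erase i, ∏ j' ∈ Finset.univ.erase i', (r i' - r j') with hT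
  have hTint : IsIntegral ↥𝒱 T :=
    (IsIntegral.prod _ fun j' _ => (hr i).sub (hr j')).mul
      (IsIntegral.prod _ fun i' _ => IsIntegral.prod _ fun j' _ => (hr i').sub (hr j'))
  have hne : r i - r j ≠ 0 := fun h => hD0 (by rw [h1, h, zero_mul])
  have hTne : T ≠ 0 := fun h => hD0 (by rw [h1, h, mul_zero])
  have h2 : (r i - r j)⁻¹ = T * (diffProd r)⁻¹ := by
    rw [h1, mul_inv, mul_comm (r i - r j)⁻¹, ← mul_assoc, mul_inv_cancel₀ hTne, one_mul]
  rw [h2]
  exact hTint.mul hDinv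

theorem injective_of_diffProd_ne_zero (hD0 : diffProd r ≠ 0) : Function.Injective r := by
  intro i j hij
  by_contra hne
  apply hD0
  rw [diffProd]
  refine Finset.prod_eq_zero (Finset.mem_univ i) ?_
  exact Finset.prod_eq_zero (Finset.mem_erase.mpr ⟨Ne.symm hne, Finset.mem_univ j⟩)
    (by rw [hij, sub_self])

/-- a polynomial over `F₁` all of whose coefficients lie in the subring `S`. -/
def CoeffIn (S : Subring F₁) (f : F₁[X]) : Prop := ∀ n, f.coeff n ∈ S

section CoeffIn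

variable {S : Subring F₁}

theorem CoeffIn.add {f h : F₁[X]} (hf : CoeffIn S f) (hh : CoeffIn S h) :
    CoeffIn S (f + h) := fun n => by
  rw [coeff_add]; exact S.add_mem (hf n) (hh n)

theorem CoeffIn.mul {f h : F₁[X]} (hf : CoeffIn S f) (hh : CoeffIn S h) :
    CoeffIn S (f * h) := fun n => by
  rw [coeff_mul]
  exact S.sum_mem fun x _ => S.mul_mem (hf x.1) (hh x.2)

theorem CoeffIn.C {a : F₁} (ha : a ∈ S) : CoeffIn S (C a) := fun n => by
  rw [coeff_C]
  split_ifs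
  · exact ha
  · exact S.zero_mem

theorem CoeffIn.X : CoeffIn S (X : F₁[X]) := fun n => by
  rw [coeff_X]
  split_ifs
  · exact S.one_mem
  · exact S.zero_mem

theorem CoeffIn.sub {f h : F₁[X]} (hf : CoeffIn S f) (hh : CoeffIn S h) :
    CoeffIn S (f - h) := fun n => by
  rw [coeff_sub]; exact S.sub_mem (hf n) (hh n)

theorem CoeffIn.sum {κ : Type*} (s : Finset κ) (f : κ → F₁[X]) (hf : ∀ k ∈ s, CoeffIn S (f k)) :
    CoeffIn S (∑ k ∈ s, f k) := fun n => by
  rw [finsetSum_coeff]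
  exact S.sum_mem fun k hk => hf k hk n

theorem CoeffIn.prod {κ : Type*} (s : Finset κ) (f : κ → F₁[X]) (hf : ∀ k ∈ s, CoeffIn S (f k)) :
    CoeffIn S (∏ k ∈ s, f k) := by
  classical
  induction s using Finset.induction_on with
  | empty =>
    rw [Finset.prod_empty]
    have : (1 : F₁[X]) = Polynomial.C 1 := by simp
    rw [this]
    exact CoeffIn.C S.one_mem
  | insert a s ha ih =>
    rw [Finset.prod_insert ha]
    exact (hf a (Finset.mem_insert_self a s)).mul
      (ih fun k hk => hf k (Finset.mem_insert_of_mem hk))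

/-- **Lagrange step** (pure): a polynomial of degree `< #ι` whose values at the nodes `r i` lie in
a subring `S` containing the nodes and the inverses of their differences has coefficients in
`S`. -/
theorem coeffIn_of_eval_mem (hr : ∀ i, r i ∈ S) (hinv : ∀ i j, i ≠ j → (r i - r j)⁻¹ ∈ S)
    (hinj : Function.Injective r) (f : F₁[X]) (hdeg : f.degree < Fintype.card ι)
    (hval : ∀ i, f.eval (r i) ∈ S) : CoeffIn S f := by
  have hdeg' : f.degree < (Finset.univ : Finset ι).card := by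
    rw [Finset.card_univ]
    exact hdeg
  have heq := Lagrange.eq_interpolate (s := (Finset.univ : Finset ι)) (v := r)
    (hinj.injOn) hdeg'
  rw [heq, Lagrange.interpolate_apply]
  refine CoeffIn.sum _ _ fun i _ => ?_
  refine CoeffIn.mul (CoeffIn.C (hval i)) ?_
  rw [Lagrange.basis]
  refine CoeffIn.prod _ _ fun j hj => ?_
  rw [Lagrange.basisDivisor]
  have hij : i ≠ j := by
    rw [Finset.mem_erase] at hj
    exact fun h => hj.1 h.symm
  exact (CoeffIn.C (hinv i j hij)).mul (CoeffIn.X.sub (CoeffIn.C (hr j)))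

end CoeffIn

/-- a polynomial over `F₁` all of whose coefficients are integral over `𝒱`. -/
abbrev IntCoeff (𝒱 : ValuationSubring K) (f : F₁[X]) : Prop :=
  CoeffIn (integralClosure ↥𝒱 F₁).toSubring f

theorem IntCoeff.C {a : F₁} (ha : IsIntegral ↥𝒱 a) : IntCoeff 𝒱 (Polynomial.C a) :=
  CoeffIn.C (S := (integralClosure ↥𝒱 F₁).toSubring) ha

/-- integrality of coefficients descends from `F₁[X]` to `F₀[X]`. -/
theorem exists_map_eq_of_intCoeff (Q : F₀[X]) (hQ : IntCoeff 𝒱 (Q.map (algebraMap F₀ F₁))) :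
    ∃ Q₀ : (↥(integralClosure ↥𝒱 F₀))[X],
      Q₀.map (integralClosure ↥𝒱 F₀).val.toRingHom = Q := by
  have hmem : ∀ n, Q.coeff n ∈ integralClosure ↥𝒱 F₀ := by
    intro n
    have h1 := hQ n
    rw [coeff_map] at h1
    exact (isIntegral_algHom_iff (IsScalarTower.toAlgHom ↥𝒱 F₀ F₁)
      (algebraMap F₀ F₁).injective).mp h1
  have hl : Q ∈ Polynomial.lifts (integralClosure ↥𝒱 F₀).val.toRingHom := by
    rw [Polynomial.lifts_iff_coeff_lifts]
    intro n
    exact ⟨⟨Q.coeff n, hmem n⟩, rfl⟩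
  exact hl

variable (σ : ι → (F₁ ≃ₐ[F₀] F₁))

/-- **Lagrange step**: an element `z = Q(g)`, `deg Q < #ι`, integral over `𝒱`, has `Q ∈ B₀[X]`. -/
theorem intCoeff_of_isIntegral_aeval (hr : ∀ i, IsIntegral ↥𝒱 (r i)) (hD0 : diffProd r ≠ 0)
    (hDinv : IsIntegral ↥𝒱 (diffProd r)⁻¹) (hσ : ∀ i, σ i (r i₀) = r i)
    (Q : F₀[X]) (hQdeg : Q.degree < Fintype.card ι) (hz : IsIntegral ↥𝒱 (aeval (r i₀) Q)) :
    IntCoeff 𝒱 (Q.map (algebraMap F₀ F₁)) := by
  have hinj := injective_of_diffProd_ne_zero hD0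
  refine coeffIn_of_eval_mem (S := (integralClosure ↥𝒱 F₁).toSubring) hr
    (fun i j hij => isIntegral_inv_sub hr hD0 hDinv hij) hinj _
    (by rw [degree_map]; exact hQdeg) fun i => ?_
  -- the value at `r i` is `σ i z`
  have h1 : (Q.map (algebraMap F₀ F₁)).eval (r i) = σ i (aeval (r i₀) Q) := by
    rw [eval_map_algebraMap, ← hσ i]
    exact Polynomial.aeval_algHom_apply (σ i : F₁ →ₐ[F₀] F₁) (r i₀) Q
  rw [h1]
  have hz' : IsIntegral ↥𝒱 ((σ i : F₁ →ₐ[F₀] F₁).restrictScalars ↥𝒱 (aeval (r i₀) Q)) :=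
    hz.map _
  exact hz'

/-- the derivative of `∏ (X - r i)` at the root `r i₀`. -/
theorem eval_derivative_prod_X_sub_C (i₀ : ι) :
    (derivative (∏ i, (X - C (r i)))).eval (r i₀) = ∏ j ∈ Finset.univ.erase i₀, (r i₀ - r j) := by
  rw [derivative_prod_finset, eval_finsetSum, Finset.sum_eq_single i₀]
  · rw [derivative_sub, derivative_X, derivative_C, sub_zero, mul_one, eval_prod]
    refine Finset.prod_congr rfl fun j _ => ?_
    rw [eval_sub, eval_X, eval_C]
  · intro i _ hi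
    rw [eval_mul, eval_prod, Finset.prod_eq_zero (Finset.mem_erase.mpr ⟨Ne.symm hi, Finset.mem_univ i₀⟩)
      (by rw [eval_sub, eval_X, eval_C, sub_self]), zero_mul]
  · intro h
    exact absurd (Finset.mem_univ _) h

variable (P : F₀[X])

include σ in
/-- **the étale step, monogenicity and unramifiedness**: `B₁ = B₀[g]` is formally unramified over
`B₀`. -/
theorem formallyUnramified_intClosure (hr : ∀ i, IsIntegral ↥𝒱 (r i)) (hD0 : diffProd r ≠ 0)
    (hDinv : IsIntegral ↥𝒱 (diffProd r)⁻¹) (hσ : ∀ i, σ i (r i₀) = r i)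
    (hP : P.map (algebraMap F₀ F₁) = ∏ i, (X - C (r i)))
    (hgen : Algebra.adjoin F₀ {r i₀} = ⊤) :
    letI := (intClosureMap (F₀ := F₀) (F₁ := F₁) 𝒱).toAlgebra
    Algebra.FormallyUnramified ↥(integralClosure ↥𝒱 F₀) ↥(integralClosure ↥𝒱 F₁) := by
  let _ := (intClosureMap (F₀ := F₀) (F₁ := F₁) 𝒱).toAlgebra
  set g : F₁ := r i₀ with hg
  set x : ↥(integralClosure ↥𝒱 F₁) := ⟨g, hr i₀⟩ with hx
  -- evaluation at `x`, in `F₁`
  have hf : (integralClosure ↥𝒱 F₁).val.toRingHom.comp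
      (algebraMap ↥(integralClosure ↥𝒱 F₀) ↥(integralClosure ↥𝒱 F₁)) =
      (algebraMap F₀ F₁).comp (integralClosure ↥𝒱 F₀).val.toRingHom := RingHom.ext fun a => rfl
  have hcoe : ∀ Q₀ : (↥(integralClosure ↥𝒱 F₀))[X],
      ((aeval x Q₀ : ↥(integralClosure ↥𝒱 F₁)) : F₁) =
        aeval g (Q₀.map (integralClosure ↥𝒱 F₀).val.toRingHom) := by
    intro Q₀
    have h1 : ((aeval x Q₀ : ↥(integralClosure ↥𝒱 F₁)) : F₁) =
        (integralClosure ↥𝒱 F₁).val.toRingHom
          (eval₂ (algebraMap ↥(integralClosure ↥𝒱 F₀) ↥(integralClosure ↥𝒱 F₁)) x Q₀) := rfl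
    rw [h1, Polynomial.hom_eval₂, hf, aeval_def, eval₂_map]
    rfl
  -- `P` is monic of degree `#ι`
  have hPmonic : P.Monic := by
    apply Polynomial.monic_of_injective (algebraMap F₀ F₁).injective
    rw [hP]
    exact monic_prod_of_monic _ _ fun i _ => monic_X_sub_C (r i)
  have hPdeg : P.natDegree = Fintype.card ι := by
    rw [← natDegree_map (algebraMap F₀ F₁), hP, natDegree_prod_of_monic _ _
      (fun i _ => monic_X_sub_C (r i))]
    simp
  have hPg : aeval g P = 0 := by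
    rw [← eval_map_algebraMap, hP, eval_prod]
    exact Finset.prod_eq_zero (Finset.mem_univ i₀) (by rw [eval_sub, eval_X, eval_C, sub_self])
  -- `P` lifts to `B₀[X]`
  have hPint : IntCoeff 𝒱 (P.map (algebraMap F₀ F₁)) := by
    rw [hP]
    exact CoeffIn.prod _ _ fun i _ => CoeffIn.X.sub (IntCoeff.C (hr i))
  obtain ⟨P₀, hP₀⟩ := exists_map_eq_of_intCoeff P hPint
  -- surjectivity
  have hsurj : ∀ y : ↥(integralClosure ↥𝒱 F₁), ∃ p : (↥(integralClosure ↥𝒱 F₀))[X],
      aeval x p = y := by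
    intro y
    have hy : (y : F₁) ∈ Algebra.adjoin F₀ {g} := by rw [hgen]; exact Algebra.mem_top
    rw [Algebra.adjoin_singleton_eq_range_aeval] at hy
    obtain ⟨Q', hQ'⟩ := hy
    set Q := Q' %ₘ P with hQ
    have hQg : aeval g Q = (y : F₁) := by
      have hQ'' : (aeval g) Q' = (y : F₁) := hQ'
      rw [← hQ'', hQ]
      exact Polynomial.aeval_modByMonic_eq_self_of_root hPg
    have hQdeg : Q.degree < Fintype.card ι := by
      have := Polynomial.degree_modByMonic_lt Q' hPmonic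
      rw [degree_eq_natDegree hPmonic.ne_zero, hPdeg] at this
      exact this
    have hQint := intCoeff_of_isIntegral_aeval i₀ σ hr hD0 hDinv hσ Q hQdeg
      (by rw [hQg]; exact y.2)
    obtain ⟨Q₀, hQ₀⟩ := exists_map_eq_of_intCoeff Q hQint
    refine ⟨Q₀, Subtype.ext ?_⟩
    rw [hcoe, hQ₀, hQg]
  refine formallyUnramified_of_aeval_surjective x hsurj P₀ ?_ ?_
  · apply Subtype.ext
    rw [hcoe, hP₀, hPg]
    rfl
  · -- `P'(g) = ∏_{j ≠ i₀} (g - r j)` is a unit of `B₁`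
    have hval : ((aeval x (derivative P₀) : ↥(integralClosure ↥𝒱 F₁)) : F₁) =
        ∏ j ∈ Finset.univ.erase i₀, (r i₀ - r j) := by
      rw [hcoe, ← derivative_map, hP₀, ← eval_map_algebraMap, ← derivative_map, hP,
        eval_derivative_prod_X_sub_C]
    have hinvint : IsIntegral ↥𝒱 (∏ j ∈ Finset.univ.erase i₀, (r i₀ - r j)⁻¹) :=
      IsIntegral.prod _ fun j hj => isIntegral_inv_sub hr hD0 hDinv
        (by rw [Finset.mem_erase] at hj; exact fun h => hj.1 h.symm)
    rw [isUnit_iff_exists_inv]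
    refine ⟨⟨_, hinvint⟩, Subtype.ext ?_⟩
    rw [MulMemClass.coe_mul, hval, ← Finset.prod_mul_distrib, OneMemClass.coe_one]
    refine Finset.prod_eq_one fun j hj => ?_
    have hinj := injective_of_diffProd_ne_zero hD0
    have hne : r i₀ - r j ≠ 0 := by
      rw [Finset.mem_erase] at hj
      exact sub_ne_zero.mpr fun h => hj.1 (hinj h).symm
    exact mul_inv_cancel₀ hne

include σ in
/-- **the étale step**: if `F₀ / K` is unramified over `𝒱`, then so is `F₁ / K`. -/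
theorem unr_of_unr_of_conjugates (h₀ : Unr 𝒱 F₀) (hr : ∀ i, IsIntegral ↥𝒱 (r i))
    (hD0 : diffProd r ≠ 0) (hDinv : IsIntegral ↥𝒱 (diffProd r)⁻¹) (hσ : ∀ i, σ i (r i₀) = r i)
    (hP : P.map (algebraMap F₀ F₁) = ∏ i, (X - C (r i)))
    (hgen : Algebra.adjoin F₀ {r i₀} = ⊤) : Unr 𝒱 F₁ := by
  letI := (intClosureMap (F₀ := F₀) (F₁ := F₁) 𝒱).toAlgebra
  haveI : IsScalarTower ↥𝒱 ↥(integralClosure ↥𝒱 F₀) ↥(integralClosure ↥𝒱 F₁) := by
    refine IsScalarTower.of_algebraMap_eq fun a => Subtype.ext ?_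
    exact IsScalarTower.algebraMap_apply ↥𝒱 F₀ F₁ a
  have h1 := formallyUnramified_intClosure i₀ σ P hr hD0 hDinv hσ hP hgen
  haveI : Algebra.FormallyUnramified ↥𝒱 ↥(integralClosure ↥𝒱 F₀) := h₀
  haveI : Algebra.FormallyUnramified ↥(integralClosure ↥𝒱 F₀) ↥(integralClosure ↥𝒱 F₁) := h1
  exact Algebra.FormallyUnramified.comp ↥𝒱 ↥(integralClosure ↥𝒱 F₀) ↥(integralClosure ↥𝒱 F₁)

include σ in
/-- **monogenicity**: every element of `F₁` integral over `𝒱` is `Q(g)`, `Q ∈ B₀[X]`,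
`deg Q < #ι`. -/
theorem exists_aeval_eq_of_isIntegral (hr : ∀ i, IsIntegral ↥𝒱 (r i))
    (hD0 : diffProd r ≠ 0) (hDinv : IsIntegral ↥𝒱 (diffProd r)⁻¹) (hσ : ∀ i, σ i (r i₀) = r i)
    (hP : P.map (algebraMap F₀ F₁) = ∏ i, (X - C (r i)))
    (hgen : Algebra.adjoin F₀ {r i₀} = ⊤) {z : F₁} (hz : IsIntegral ↥𝒱 z) :
    ∃ Q : F₀[X], Q.degree < Fintype.card ι ∧ (∀ n, IsIntegral ↥𝒱 (Q.coeff n)) ∧
      aeval (r i₀) Q = z := by
  have hPmonic : P.Monic := by
    apply Polynomial.monic_of_injective (algebraMap F₀ F₁).injective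
    rw [hP]
    exact monic_prod_of_monic _ _ fun i _ => monic_X_sub_C (r i)
  have hPdeg : P.natDegree = Fintype.card ι := by
    rw [← natDegree_map (algebraMap F₀ F₁), hP, natDegree_prod_of_monic _ _
      (fun i _ => monic_X_sub_C (r i))]
    simp
  have hPg : aeval (r i₀) P = 0 := by
    rw [← eval_map_algebraMap, hP, eval_prod]
    exact Finset.prod_eq_zero (Finset.mem_univ i₀) (by rw [eval_sub, eval_X, eval_C, sub_self])
  have hy : z ∈ Algebra.adjoin F₀ {r i₀} := by rw [hgen]; exact Algebra.mem_top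
  rw [Algebra.adjoin_singleton_eq_range_aeval] at hy
  obtain ⟨Q', hQ'⟩ := hy
  have hQ'' : (aeval (r i₀)) Q' = z := hQ'
  have hQg : aeval (r i₀) (Q' %ₘ P) = z := by
    rw [← hQ'']
    exact Polynomial.aeval_modByMonic_eq_self_of_root hPg
  have hQdeg : (Q' %ₘ P).degree < Fintype.card ι := by
    have := Polynomial.degree_modByMonic_lt Q' hPmonic
    rw [degree_eq_natDegree hPmonic.ne_zero, hPdeg] at this
    exact this
  have hQint := intCoeff_of_isIntegral_aeval i₀ σ hr hD0 hDinv hσ (Q' %ₘ P) hQdeg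
    (by rw [hQg]; exact hz)
  refine ⟨Q' %ₘ P, hQdeg, fun n => ?_, hQg⟩
  have h1 := hQint n
  rw [coeff_map] at h1
  exact (isIntegral_algHom_iff (IsScalarTower.toAlgHom ↥𝒱 F₀ F₁)
    (algebraMap F₀ F₁).injective).mp h1

end Step

end

end Fermat.Agent.W1
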