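/-
W1 — helper9 — [INST1] part 2: the GEO hypotheses for the Legendre / Hesse covers of the function
field `F₁ M 1` of `X₁(M)` at a base, WITHOUT the interface class `W1Api M`: everything is stated
against the preliminary structure `W1Pre M` (finiteness over `K(j)`, the four ramification
statements, unramifiedness of the Gauss place in the host image), which is what is available
BEFORE the uniqueness of the extension of the Gauss valuation (`hmemW`) is known.  The proofs are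
copies of helper7's ports `W1/GM_helper7_JLineHost`, `W1/GEOBASE_helper7_Base` (the Kummer step with
`u = 1` is replaced by a transport along `F(1) = F`).
-/
import Mathlib
import Fermat.Agent.W1.GM_helper7_JLineHost
import Fermat.Agent.W1.KEYBASE_helper7_Main
import Fermat.Agent.JA.GEOBASE_helper8_Base
import Fermat.Agent.JA.O1_helper6_BaseInst

set_option autoImplicit false
set_option linter.unusedSectionVars false
set_option linter.style.haveILetI false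
set_option synthInstance.maxHeartbeats 200000

open HahnSeries IntermediateField AlgebraicCurve ModularCurve Fermat.Agent.Igusa Polynomial

open Fermat.Agent.JA

namespace Fermat.Agent.W1

open scoped Fermat.Agent.JA.Host

/-- `Ω = AlgebraicClosure ℚ`. -/
local notation "Ω" => AlgebraicClosure ℚ

/-- **the preliminary interface**: the fields of `W1Api M` which are available before the
uniqueness of the extension of the Gauss valuation. -/
structure W1Pre (M : ℕ) : Prop where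
  finite_keyFq : ∀ (K : Type) [Field K] [Algebra ℚ K], Module.Finite ↥K⟮jGen K M⟯ ↥(keyFq K M)
  ram0_generic' : ∀ {L : Type} [Field L] [Algebra ℚ L] [Algebra L ℂ],
    (∃ z : L, IsPrimitiveRoot z M) →
    ∀ (P : Place L ↥(keyFq L M)) (p : L[X]), Irreducible p → p.Monic → p ≠ X →
      p ≠ X - Polynomial.C 1728 →
      0 < P.ord (aeval (jGen L M) p) → P.ord (aeval (jGen L M) p) = 1
  ram0_zero_dvd : ∀ {L : Type} [Field L] [Algebra ℚ L] [Algebra L ℂ],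
    (∃ z : L, IsPrimitiveRoot z M) →
    ∀ (P : Place L ↥(keyFq L M)), 0 < P.ord (jGen L M) → P.ord (jGen L M) ∣ 3
  ram0_1728_dvd : ∀ {L : Type} [Field L] [Algebra ℚ L] [Algebra L ℂ],
    (∃ z : L, IsPrimitiveRoot z M) →
    ∀ (P : Place L ↥(keyFq L M)), 0 < P.ord (jGen L M - 1728) → P.ord (jGen L M - 1728) ∣ 2
  ram0_infty_neg : ∀ {L : Type} [Field L] [Algebra ℚ L] [Algebra L ℂ],
    (∃ z : L, IsPrimitiveRoot z M) →
    ∀ (P : Place L ↥(keyFq L M)), P.ord (jGen L M) < 0 → (-P.ord (jGen L M)) ∣ (M : ℤ)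
  unr_hostImage_baseRing_of_isGaussAt : ∀ {ℓ : ℕ} [Fact ℓ.Prime] {A : ValuationSubring Ω},
    A.LiesOverPrime ℓ → ¬ ℓ ∣ M → ∀ (w : ℕ) [NeZero w] {K₁ : IntermediateField ℚ Ω}, IsBase ℓ K₁ →
    ∀ [IsDiscreteValuationRing ↥(baseRing A K₁)]
      [Fact ((↥K₁)⟮jqNModC ↥K₁ w⟯ ≤ hostImage ↥K₁ w (keyFq ↥K₁ M))]
      {π : ↥(baseRing A K₁)}, Irreducible π →
      ∀ 𝒢 : ValuationSubring ↥((↥K₁)⟮jqNModC ↥K₁ w⟯),
        IsGaussAt ↥(baseRing A K₁) π (AdjoinSimple.gen ↥K₁ (jqNModC ↥K₁ w)) 𝒢 →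
        Unr 𝒢 ↥(hostImage ↥K₁ w (keyFq ↥K₁ M))

namespace Inst1

/-- `K(j(x^w)) ≤ F_w` (no interface class needed). -/
scoped instance fact_adjoin_le_keyFw' (K : Type*) [Field K] [Algebra ℚ K] (M w : ℕ)
    [NeZero w] : Fact (K⟮jqNModC K w⟯ ≤ keyFw K M w) := ⟨adjoin_jqNModC_le_hostImage M w⟩

section Host

open Fermat.Agent.FF Fermat.Agent.FF.Gal Fermat.Agent.X0N

variable {K₁ : Type} [Field K₁] [Algebra ℚ K₁] (M : ℕ) [NeZero M] (h : W1Pre M)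
  (w : ℕ) [NeZero w]

include h in
/-- `F_w` is finite over `K₁(j(x^w))`. -/
theorem finite_hostImage_full :
    Module.Finite ↥K₁⟮jqNModC K₁ w⟯ ↥(keyFw K₁ M w) := by
  haveI := h.finite_keyFq K₁
  exact finite_of_algEquiv_intermediateField _
    (hostImageEquiv K₁ w (laurentBaseChange K₁ (F₁ M 1))) (jGen K₁ M)
    (jqNModC K₁ w) (coe_hostImageEquiv_jGen M w)

variable {R : Type*} [CommRing R] [IsDomain R] [IsDiscreteValuationRing R] [CharZero R]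
  [Algebra R K₁] [IsFractionRing R K₁] [Algebra K₁ ℂ]

include h in
/-- **`JLineHyp` for `F_w`** from the ramification statements and the Gauss-place input. -/
theorem jLineHyp_hostImage (hN : ∃ z : K₁, IsPrimitiveRoot z M) (π : R)
    (hgauss : ∀ 𝒢 : ValuationSubring ↥K₁⟮jqNModC K₁ w⟯,
      IsGaussAt R π (AdjoinSimple.gen K₁ (jqNModC K₁ w)) 𝒢 →
      Unr 𝒢 ↥(keyFw K₁ M w)) :
    JLineHyp (K₁ := K₁) π (AdjoinSimple.gen K₁ (jqNModC K₁ w)) ↥(keyFw K₁ M w) M := by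
  haveI : Module.Finite ↥K₁⟮jqNModC K₁ w⟯ ↥(keyFw K₁ M w) := finite_hostImage_full M h w
  set e := hostImageEquiv K₁ w (laurentBaseChange K₁ (F₁ M 1)) with he
  have hj : algebraMap ↥K₁⟮jqNModC K₁ w⟯ ↥(keyFw K₁ M w)
      (AdjoinSimple.gen K₁ (jqNModC K₁ w)) = e (jGen K₁ M) := by
    apply Subtype.ext
    rw [Host.coe_algebraMap, AdjoinSimple.coe_gen, he, coe_hostImageEquiv_jGen]
  have haev : ∀ q : K₁[X], aeval (e (jGen K₁ M)) q = e (aeval (jGen K₁ M) q) := fun q =>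
    Polynomial.aeval_algHom_apply e (jGen K₁ M) q
  refine jLineHyp_of_ram π (AdjoinSimple.gen K₁ (jqNModC K₁ w)) (adjoin_simple_gen_eq_top _) M
    (fun P' q hq hm h0 h1 hpos => ?_) (fun P' hpos => ?_) (fun P' hpos => ?_)
    (fun P' hneg => ?_) hgauss
  · obtain ⟨P, hP⟩ := exists_place_ord_comp_equiv e P'
    rw [hj, haev, ← hP] at hpos ⊢
    exact h.ram0_generic' hN P q hq hm h0 h1 hpos
  · obtain ⟨P, hP⟩ := exists_place_ord_comp_equiv e P'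
    rw [hj, ← hP] at hpos ⊢
    exact h.ram0_zero_dvd hN P hpos
  · obtain ⟨P, hP⟩ := exists_place_ord_comp_equiv e P'
    have h1728 : e (jGen K₁ M) - 1728 = e (jGen K₁ M - 1728) := by
      rw [map_sub, map_ofNat]
    rw [hj, h1728, ← hP] at hpos ⊢
    exact h.ram0_1728_dvd hN P hpos
  · obtain ⟨P, hP⟩ := exists_place_ord_comp_equiv e P'
    rw [hj, ← hP] at hneg ⊢
    exact h.ram0_infty_neg hN P hneg

end Host

section Transport

variable {R : Type*} [CommRing R] [IsDomain R] [IsDiscreteValuationRing R] [CharZero R]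
  {K₁ : Type*} [Field K₁] [Algebra R K₁] [IsFractionRing R K₁]
  {H : Type*} [Field H] [Algebra K₁ H] [Algebra R H] [IsScalarTower R K₁ H]

open Host

/-- `F(1) = F`. -/
theorem Fu_one (F : IntermediateField K₁ H) : Fu F (1 : H) = F := by
  unfold Fu
  rw [sup_eq_left, IntermediateField.adjoin_simple_le_iff]
  exact F.one_mem

/-- transport of the `j`-line hypotheses along an equality of subfields of the host. -/
theorem jLineHyp_congr (j : H) {F F' : IntermediateField K₁ H} (hFF' : F' = F)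
    [Fact (K₁⟮j⟯ ≤ F)] [Fact (K₁⟮j⟯ ≤ F')] (π : R) (n : ℕ)
    (hJ : JLineHyp (K₁ := K₁) π (AdjoinSimple.gen K₁ j) ↥F n) :
    JLineHyp (K₁ := K₁) π (AdjoinSimple.gen K₁ j) ↥F' n := by
  subst hFF'
  exact hJ

/-- the `j`-line hypotheses for `F(1)` from those for `F`. -/
theorem jLineHyp_Fu_one (j : H) (F : IntermediateField K₁ H) [Fact (K₁⟮j⟯ ≤ F)] (π : R) (n : ℕ)
    (hJ : JLineHyp (K₁ := K₁) π (AdjoinSimple.gen K₁ j) ↥F n) :
    JLineHyp (K₁ := K₁) π (AdjoinSimple.gen K₁ j) ↥(Fu F (1 : H)) n :=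
  jLineHyp_congr j (Fu_one F) π n hJ

end Transport

section Base

variable {ℓ : ℕ} [Fact ℓ.Prime] {A : ValuationSubring Ω} (hA : A.LiesOverPrime ℓ)
  (M : ℕ) [NeZero M] (h : W1Pre M) {K₁ : IntermediateField ℚ Ω}

include hA h in
/-- **`JLineHyp` for `F_w` at a base** `R₁ = A ∩ K₁`. -/
theorem jLineHyp_hostImage_baseRing (w : ℕ) [NeZero w] (hℓM : ¬ ℓ ∣ M) (hK₁ : IsBase ℓ K₁)
    [IsDiscreteValuationRing ↥(baseRing A K₁)]
    {π : ↥(baseRing A K₁)} (hπ : Irreducible π) :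
    JLineHyp (K₁ := ↥K₁) π (AdjoinSimple.gen ↥K₁ (jqNModC ↥K₁ w)) ↥(keyFw ↥K₁ M w) M := by
  haveI : CharZero ↥(baseRing A K₁) := by
    haveI : CharZero ↥K₁ := algebraRat.charZero ↥K₁
    exact RingHom.charZero (baseRing A K₁).subtype
  letI : Algebra ↥K₁ ℂ :=
    (((IsAlgClosed.lift : Ω →ₐ[ℚ] ℂ) : Ω →+* ℂ).comp (algebraMap ↥K₁ Ω)).toAlgebra
  have hN : ∃ z : ↥K₁, IsPrimitiveRoot z M :=
    hK₁.exists_isPrimitiveRoot (Nat.pos_of_ne_zero (NeZero.ne M)) hℓM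
  exact jLineHyp_hostImage M h w hN π (fun 𝒢 h𝒢 =>
    h.unr_hostImage_baseRing_of_isGaussAt hA hℓM w hK₁ hπ 𝒢 h𝒢)

/-- the Legendre tower field `E = K(t) · F_2 ⊆ K⸨x⸩`. -/
noncomputable abbrev legE₁ (K : Type*) [Field K] [Algebra ℚ K] (M : ℕ) :
    IntermediateField K (LaurentSeries K) := Host.Etu (keyFw K M 2) (legT K) 1

/-- the Hesse tower field `E = K(t) · F_3 ⊆ K⸨x⸩`. -/
noncomputable abbrev hesE₁ (K : Type*) [Field K] [Algebra ℚ K] (M : ℕ) :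
    IntermediateField K (LaurentSeries K) := Host.Etu (keyFw K M 3) (hesT K) 1

set_option maxHeartbeats 1600000 in
include hA h in
/-- **GEO at a base, Legendre coordinate** (`ℓ ≠ 2`), from `W1Pre M`. -/
theorem geoHyps_legE_baseRing [DecidableEq ↥(baseRing A K₁)] (hℓM : ¬ ℓ ∣ M)
    (hK₁ : IsBase ℓ K₁) (hℓ2 : ℓ ≠ 2) [IsDiscreteValuationRing ↥(baseRing A K₁)]
    {ϖ : ↥(baseRing A K₁)} (hϖ : Irreducible ϖ) :
    GeoHyps ↥K₁ (K := ↥(↥K₁)⟮legT ↥K₁⟯) ϖ (AdjoinSimple.gen ↥K₁ (legT ↥K₁)) ↥(legE₁ ↥K₁ M) M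
      ({0, 1} : Finset ↥(baseRing A K₁)) := by
  haveI : CharZero ↥(baseRing A K₁) := charZero_valuationSubring_of_algebraRat _
  haveI : Module.Finite ↥(↥K₁)⟮jqNModC ↥K₁ 2⟯ ↥(keyFw ↥K₁ M 2) := by
    letI : Algebra ↥K₁ ℂ :=
      (((IsAlgClosed.lift : Ω →ₐ[ℚ] ℂ) : Ω →+* ℂ).comp (algebraMap ↥K₁ Ω)).toAlgebra
    exact finite_hostImage_full M h 2
  have hℓ2' : ¬ ℓ ∣ 2 := fun h =>
    hℓ2 ((Nat.prime_dvd_prime_iff_eq (Fact.out : ℓ.Prime) Nat.prime_two).mp h)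
  have h2res : (2 : IsLocalRing.ResidueField ↥(baseRing A K₁)) ≠ 0 := by
    have := natCast_residueField_baseRing_ne_zero hA (K₁ := K₁) hℓ2'
    exact_mod_cast this
  have hj' : jqNModC ↥K₁ 2 * aeval (legT ↥K₁) (X ^ 2 * (X - 1) ^ 2 : (↥K₁)[X]) =
      aeval (legT ↥K₁) (256 * (X ^ 2 - X + 1) ^ 3 : (↥K₁)[X]) := jqNModC_mul_aeval_legT ↥K₁
  have hL := Host.lineHyp_legendre_host (jqNModC ↥K₁ 2) (legT ↥K₁) (transcendental_legT ↥K₁) hj'
    ϖ hϖ h2res ({0, 1} : Finset ↥(baseRing A K₁)) (by simp) (by simp)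
  obtain ⟨hS, hS0⟩ := legendre_branch_facts ↥(baseRing A K₁)
  exact Host.geoHyps_Etu (keyFw ↥K₁ M 2) (jqNModC ↥K₁ 2) (legT ↥K₁) 1
    (fun x hx => laurentSeries_mem_range_algebraMap_of_isAlgebraic x hx) (transcendental_legT ↥K₁)
    (isIntegral_legT ↥K₁) isIntegral_one ϖ hϖ M (Nat.pos_of_ne_zero (NeZero.ne M))
    (isUnit_natCast_baseRing hA hℓM)
    (hK₁.exists_isPrimitiveRoot_baseRing A (Nat.pos_of_ne_zero (NeZero.ne M)) hℓM)
    _ hS hS0 hL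
    (jLineHyp_Fu_one (jqNModC ↥K₁ 2) (keyFw ↥K₁ M 2) ϖ M
      (jLineHyp_hostImage_baseRing hA M h 2 hℓM hK₁ hϖ))

set_option maxHeartbeats 1600000 in
include hA h in
/-- **GEO at a base, Hesse coordinate** (`ℓ ≠ 3`), from `W1Pre M`. -/
theorem geoHyps_hesE_baseRing [DecidableEq ↥(baseRing A K₁)] (hℓM : ¬ ℓ ∣ M)
    (hK₁ : IsBase ℓ K₁) (hℓ3 : ℓ ≠ 3) [IsDiscreteValuationRing ↥(baseRing A K₁)]
    {ϖ : ↥(baseRing A K₁)} (hϖ : Irreducible ϖ) :
    ∃ ω : ↥(baseRing A K₁), ω ^ 2 + ω + 1 = 0 ∧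
      GeoHyps ↥K₁ (K := ↥(↥K₁)⟮hesT ↥K₁⟯) ϖ (AdjoinSimple.gen ↥K₁ (hesT ↥K₁)) ↥(hesE₁ ↥K₁ M) M
        ({1, ω, ω ^ 2} : Finset ↥(baseRing A K₁)) := by
  haveI : CharZero ↥(baseRing A K₁) := charZero_valuationSubring_of_algebraRat _
  haveI : Module.Finite ↥(↥K₁)⟮jqNModC ↥K₁ 3⟯ ↥(keyFw ↥K₁ M 3) := by
    letI : Algebra ↥K₁ ℂ :=
      (((IsAlgClosed.lift : Ω →ₐ[ℚ] ℂ) : Ω →+* ℂ).comp (algebraMap ↥K₁ Ω)).toAlgebra
    exact finite_hostImage_full M h 3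
  have hℓ3' : ¬ ℓ ∣ 3 := fun h =>
    hℓ3 ((Nat.prime_dvd_prime_iff_eq (Fact.out : ℓ.Prime) Nat.prime_three).mp h)
  have h3res : (3 : IsLocalRing.ResidueField ↥(baseRing A K₁)) ≠ 0 := by
    have := natCast_residueField_baseRing_ne_zero hA (K₁ := K₁) hℓ3'
    exact_mod_cast this
  have h3unit : IsUnit (3 : ↥(baseRing A K₁)) := by
    have := isUnit_natCast_baseRing hA (K₁ := K₁) hℓ3'
    exact_mod_cast this
  obtain ⟨ω, hω⟩ := exists_cubeRoot_baseRing hA hK₁ hℓ3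
  refine ⟨ω, hω, ?_⟩
  have hj' : jqNModC ↥K₁ 3 * aeval (hesT ↥K₁) ((X ^ 3 - 1) ^ 3 : (↥K₁)[X]) =
      aeval (hesT ↥K₁) (27 * X ^ 3 * (X ^ 3 + 8) ^ 3 : (↥K₁)[X]) := jqNModC_mul_aeval_hesT ↥K₁
  have hL := Host.lineHyp_hesse_host (jqNModC ↥K₁ 3) (hesT ↥K₁) (transcendental_hesT ↥K₁) hj'
    ϖ hϖ h3res ω hω ({1, ω, ω ^ 2} : Finset ↥(baseRing A K₁)) (by simp) (by simp) (by simp)
  obtain ⟨hS, hS0⟩ := hesse_branch_facts ↥(baseRing A K₁) h3unit ω hω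
  exact Host.geoHyps_Etu (keyFw ↥K₁ M 3) (jqNModC ↥K₁ 3) (hesT ↥K₁) 1
    (fun x hx => laurentSeries_mem_range_algebraMap_of_isAlgebraic x hx) (transcendental_hesT ↥K₁)
    (isIntegral_hesT ↥K₁) isIntegral_one ϖ hϖ M (Nat.pos_of_ne_zero (NeZero.ne M))
    (isUnit_natCast_baseRing hA hℓM)
    (hK₁.exists_isPrimitiveRoot_baseRing A (Nat.pos_of_ne_zero (NeZero.ne M)) hℓM)
    _ hS hS0 hL
    (jLineHyp_Fu_one (jqNModC ↥K₁ 3) (keyFw ↥K₁ M 3) ϖ M
      (jLineHyp_hostImage_baseRing hA M h 3 hℓM hK₁ hϖ))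

end Base

end Inst1

end Fermat.Agent.W1
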