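/-
W1 — helper9 — [INST1] part 4: **the field `hmemW_baseRing` of the interface class `W1Api M`**
(uniqueness of the extension of the Gauss valuation of `K₁(j)` to the function field of `X₁(M)` at
a base, `ℓ ∤ M`) from the preliminary interface `W1Pre M`: lead's abstract GEO theorem applied to the
Legendre (`ℓ ≠ 2`) resp. Hesse (`ℓ ≠ 3`) cover of `F₁ M 1`.
-/
import Mathlib
import Fermat.Agent.W1.INST1_helper9_Geo
import Fermat.Agent.W1.INST1_helper9_Uniq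

set_option autoImplicit false
set_option linter.unusedSectionVars false
set_option linter.style.haveILetI false
set_option synthInstance.maxHeartbeats 200000

open HahnSeries IntermediateField AlgebraicCurve ModularCurve Fermat.Agent.Igusa Polynomial

open Fermat.Agent.JA Fermat.Agent.SS

namespace Fermat.Agent.W1

open scoped Fermat.Agent.JA.Host Fermat.Agent.W1.Inst1

/-- `Ω = AlgebraicClosure ℚ`. -/
local notation "Ω" => AlgebraicClosure ℚ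

section HmemW

variable {ℓ : ℕ} [Fact ℓ.Prime] {A : ValuationSubring Ω} (hA : A.LiesOverPrime ℓ)
  (M : ℕ) [NeZero M] (h : W1Pre M) {K₁ : IntermediateField ℚ Ω}

set_option maxHeartbeats 1600000 in
include hA h in
/-- **`(hmemW)` at a base for the function field of `X₁(M)`**, from `W1Pre M` (literal of the
field `W1Api.hmemW_baseRing`). -/
theorem hmemW_baseRing_of_pre (hℓM : ¬ ℓ ∣ M) (hK₁ : IsBase ℓ K₁)
    [IsDiscreteValuationRing ↥(baseRing A K₁)] (W : ValuationSubring ↥(keyFq ↥K₁ M))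
    (hW : ∀ c : ↥(keyFq ↥K₁ M), (c : LaurentSeries ↥K₁) ∈
        (↥K₁)⟮emb ↥(baseRing A K₁) ↥K₁ (jqModC ↥(baseRing A K₁))⟯ →
      (c ∈ W ↔ (c : LaurentSeries ↥K₁) ∈ gaussInt ↥(baseRing A K₁) ↥K₁))
    (z : ↥(keyFq ↥K₁ M)) (hz : (z : LaurentSeries ↥K₁) ∈ gaussInt ↥(baseRing A K₁) ↥K₁) :
    z ∈ W := by
  classical
  obtain ⟨ϖ, hϖ⟩ := IsDiscreteValuationRing.exists_irreducible ↥(baseRing A K₁)
  have hFq : keyFq ↥K₁ M ≤ gaussField ↥(baseRing A K₁) ↥K₁ :=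
    laurentBaseChange_F₁_le_gaussField ↥(baseRing A K₁) ↥K₁ M 1
  by_cases hℓ2 : ℓ = 2
  · -- Hesse coordinate
    have hℓ3 : ℓ ≠ 3 := by rw [hℓ2]; norm_num
    have hℓ3' : ¬ ℓ ∣ 3 := fun h =>
      hℓ3 ((Nat.prime_dvd_prime_iff_eq (Fact.out : ℓ.Prime) Nat.prime_three).mp h)
    have h3 : IsUnit (3 : ↥(baseRing A K₁)) := by
      have := isUnit_natCast_baseRing hA (K₁ := K₁) hℓ3'
      exact_mod_cast this
    obtain ⟨ω, -, hgeo⟩ := Inst1.geoHyps_hesE_baseRing hA M h hℓM hK₁ hℓ3 hϖ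
    obtain ⟨ht, htt⟩ := hesT_mem_gaussInt ↥(baseRing A K₁) ↥K₁ h3
    obtain ⟨𝒢t, h𝒢t, -, h𝒢j, hintj, -⟩ := exists_gauss_hesE_baseRing hA (K₁ := K₁) hℓ3 hϖ
    exact Inst1.mem_of_mem_gaussInt_of_geo (baseRing A K₁) (keyFq ↥K₁ M) hFq 3 (hesT ↥K₁) hϖ
      hgeo ht htt 𝒢t h𝒢t h𝒢j hintj W hW z hz
  · -- Legendre coordinate
    have hℓ2' : ¬ ℓ ∣ 2 := fun h =>
      hℓ2 ((Nat.prime_dvd_prime_iff_eq (Fact.out : ℓ.Prime) Nat.prime_two).mp h)
    have h2 : IsUnit (2 : ↥(baseRing A K₁)) := by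
      have := isUnit_natCast_baseRing hA (K₁ := K₁) hℓ2'
      exact_mod_cast this
    have hgeo := Inst1.geoHyps_legE_baseRing hA M h hℓM hK₁ hℓ2 hϖ
    obtain ⟨ht, htt⟩ := legT_mem_gaussInt ↥(baseRing A K₁) ↥K₁ h2
    obtain ⟨𝒢t, h𝒢t, -, h𝒢j, hintj, -⟩ := exists_gauss_legE_baseRing hA (K₁ := K₁) hℓ2 hϖ
    exact Inst1.mem_of_mem_gaussInt_of_geo (baseRing A K₁) (keyFq ↥K₁ M) hFq 2 (legT ↥K₁) hϖ
      hgeo ht htt 𝒢t h𝒢t h𝒢j hintj W hW z hz

end HmemW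

end Fermat.Agent.W1
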