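/-
W1 — helper9 — [INST1] part 5: **Gauss-integral elements of the function field of `X₁(M)` at a
base are integral over every Gauss valuation subring of `K₁(j_w)`** (host form, any `w`), from the
preliminary interface `W1Pre M` — the class-free version of helper7's port
`W1/KEYBASE_helper7_Int.isIntegral_hostImageEquiv_of_mem_gaussInt` (`hmemW` discharged by
`hmemW_baseRing_of_pre`).  This is `V₁ ⊆ B₁`, the input of the monogenicity step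
`exists_aeval_eq_of_isIntegral` of `W1/ETALE_helper7_Step`.
-/
import Mathlib
import Fermat.Agent.W1.INST1_helper9_HmemW
import Fermat.Agent.JA.KEYBASE_helper8_Int

set_option autoImplicit false
set_option linter.unusedSectionVars false
set_option linter.style.haveILetI false
set_option synthInstance.maxHeartbeats 200000

open HahnSeries IntermediateField AlgebraicCurve ModularCurve Fermat.Agent.Igusa

open Fermat.Agent.JA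

namespace Fermat.Agent.W1

open scoped Fermat.Agent.JA.Host Fermat.Agent.W1.Inst1

/-- `Ω = AlgebraicClosure ℚ`. -/
local notation "Ω" => AlgebraicClosure ℚ

namespace Inst1

section Int

variable {ℓ : ℕ} [Fact ℓ.Prime] {A : ValuationSubring Ω} (hA : A.LiesOverPrime ℓ)
  (M : ℕ) [NeZero M] (h : W1Pre M) {K₁ : IntermediateField ℚ Ω}

set_option maxHeartbeats 1600000 in
include hA h in
/-- **Gauss-integral elements of `F_q = K₁ · F₁(M)` are integral over every Gauss valuation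
subring of `K₁(j_w)`** (after transport to the host). -/
theorem isIntegral_hostImageEquiv_of_mem_gaussInt (hℓM : ¬ ℓ ∣ M) (hK₁ : IsBase ℓ K₁)
    [IsDiscreteValuationRing ↥(baseRing A K₁)] (w : ℕ) [NeZero w]
    {ϖ : ↥(baseRing A K₁)} (hϖ : Irreducible ϖ)
    (𝒢 : ValuationSubring ↥(↥K₁)⟮jqNModC ↥K₁ w⟯)
    (h𝒢 : IsGaussAt ↥(baseRing A K₁) ϖ (AdjoinSimple.gen ↥K₁ (jqNModC ↥K₁ w)) 𝒢)
    (z : ↥(keyFq ↥K₁ M)) (hz : (z : LaurentSeries ↥K₁) ∈ gaussInt ↥(baseRing A K₁) ↥K₁) :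
    IsIntegral ↥𝒢 (hostImageEquiv ↥K₁ w (keyFq ↥K₁ M) z) := by
  revert z
  have hFq : keyFq ↥K₁ M ≤ gaussField ↥(baseRing A K₁) ↥K₁ :=
    laurentBaseChange_F₁_le_gaussField ↥(baseRing A K₁) ↥K₁ M 1
  have hmemW : ∀ W : ValuationSubring ↥(keyFq ↥K₁ M),
      (∀ c : ↥(keyFq ↥K₁ M), (c : LaurentSeries ↥K₁) ∈
          (↥K₁)⟮emb ↥(baseRing A K₁) ↥K₁ (jqModC ↥(baseRing A K₁))⟯ →
        (c ∈ W ↔ (c : LaurentSeries ↥K₁) ∈ gaussInt ↥(baseRing A K₁) ↥K₁)) →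
      ∀ z : ↥(keyFq ↥K₁ M), (z : LaurentSeries ↥K₁) ∈ gaussInt ↥(baseRing A K₁) ↥K₁ → z ∈ W :=
    fun W hW z hz => hmemW_baseRing_of_pre hA M h hℓM hK₁ W hW z hz
  haveI : Module.Finite ↥(↥K₁)⟮jqNModC ↥K₁ w⟯ ↥(keyFw ↥K₁ M w) := by
    letI : Algebra ↥K₁ ℂ :=
      (((IsAlgClosed.lift : Ω →ₐ[ℚ] ℂ) : Ω →+* ℂ).comp (algebraMap ↥K₁ Ω)).toAlgebra
    exact finite_hostImage_full M h w
  haveI : CharZero ↥(baseRing A K₁) := charZero_valuationSubring_of_algebraRat _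
  have htr : Transcendental ↥K₁ (AdjoinSimple.gen ↥K₁ (jqNModC ↥K₁ w)) :=
    Host.transcendental_gen (transcendental_jqNModC w)
  have hK : IntermediateField.adjoin ↥K₁ {AdjoinSimple.gen ↥K₁ (jqNModC ↥K₁ w)} = ⊤ :=
    Host.adjoin_gen_eq_top _
  haveI : IsDiscreteValuationRing ↥𝒢 :=
    isDiscreteValuationRing_of_isGaussAt ϖ hϖ _ htr hK h𝒢
  set Fq : IntermediateField ↥K₁ (LaurentSeries ↥K₁) := keyFq ↥K₁ M with hFqdef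
  set Fw : IntermediateField ↥K₁ (LaurentSeries ↥K₁) := keyFw ↥K₁ M w with hFwdef
  set e : ↥Fq ≃ₐ[↥K₁] ↥Fw := hostImageEquiv ↥K₁ w Fq with he
  -- the twisted algebra structure `K₁(j_w) → F_q`
  let ρ : ↥(↥K₁)⟮jqNModC ↥K₁ w⟯ →+* ↥Fq :=
    (e.symm : ↥Fw →+* ↥Fq).comp (algebraMap ↥(↥K₁)⟮jqNModC ↥K₁ w⟯ ↥Fw)
  letI algρ : Algebra ↥(↥K₁)⟮jqNModC ↥K₁ w⟯ ↥Fq := ρ.toAlgebra
  haveI towρ : IsScalarTower ↥K₁ ↥(↥K₁)⟮jqNModC ↥K₁ w⟯ ↥Fq :=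
    IsScalarTower.of_algebraMap_eq fun c => by
      show algebraMap ↥K₁ ↥Fq c =
        e.symm (algebraMap ↥(↥K₁)⟮jqNModC ↥K₁ w⟯ ↥Fw (algebraMap ↥K₁ ↥(↥K₁)⟮jqNModC ↥K₁ w⟯ c))
      rw [← IsScalarTower.algebraMap_apply ↥K₁ ↥(↥K₁)⟮jqNModC ↥K₁ w⟯ ↥Fw, e.symm.commutes]
  have hj₀ : ((algebraMap ↥(↥K₁)⟮jqNModC ↥K₁ w⟯ ↥Fq (AdjoinSimple.gen ↥K₁ (jqNModC ↥K₁ w)) : ↥Fq) :
      LaurentSeries ↥K₁) = emb ↥(baseRing A K₁) ↥K₁ (jqModC ↥(baseRing A K₁)) := by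
    have h1 : e ⟨jqModC ↥K₁, jqModC_mem_keyFq _ M⟩ =
        algebraMap ↥(↥K₁)⟮jqNModC ↥K₁ w⟯ ↥Fw (AdjoinSimple.gen ↥K₁ (jqNModC ↥K₁ w)) :=
      Subtype.ext rfl
    show ((e.symm (algebraMap ↥(↥K₁)⟮jqNModC ↥K₁ w⟯ ↥Fw
      (AdjoinSimple.gen ↥K₁ (jqNModC ↥K₁ w))) : ↥Fq) : LaurentSeries ↥K₁) = _
    rw [← h1, e.symm_apply_apply]
    show jqModC ↥K₁ = coeffMap (algebraMap ↥(baseRing A K₁) ↥K₁) (jqModC ↥(baseRing A K₁))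
    rw [coeffMap_jqModC]
  haveI algFw : Algebra.IsAlgebraic ↥(↥K₁)⟮jqNModC ↥K₁ w⟯ ↥Fw := Algebra.IsAlgebraic.of_finite _ _
  let eK : ↥Fq →ₐ[↥(↥K₁)⟮jqNModC ↥K₁ w⟯] ↥Fw :=
    { (e : ↥Fq →+* ↥Fw) with commutes' := fun r => e.apply_symm_apply _ }
  haveI algFq : Algebra.IsAlgebraic ↥(↥K₁)⟮jqNModC ↥K₁ w⟯ ↥Fq :=
    Algebra.IsAlgebraic.of_injective eK e.injective
  have hst : Transcendental (IsLocalRing.ResidueField ↥(baseRing A K₁))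
      (red ↥(baseRing A K₁) (jqModC ↥(baseRing A K₁))) := by
    have h1 : red ↥(baseRing A K₁) (jqModC ↥(baseRing A K₁)) =
        jqModC (IsLocalRing.ResidueField ↥(baseRing A K₁)) := coeffMap_jqModC _
    rw [h1]
    exact transcendental_jqModC _
  have h𝒢eq : 𝒢 = (gaussValSub ↥(baseRing A K₁) ↥K₁ Fq hFq).comap
      (algebraMap ↥(↥K₁)⟮jqNModC ↥K₁ w⟯ ↥Fq) :=
    isGaussAt_unique ϖ hϖ _ htr hK h𝒢 (isGaussAt_comap_gaussValSub Fq hFq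
      (jqModC ↥(baseRing A K₁)) (AdjoinSimple.gen ↥K₁ (jqNModC ↥K₁ w)) hj₀ hϖ hst)
  intro z hz
  have hzq : IsIntegral ↥𝒢 z :=
    isIntegral_of_mem_gaussInt Fq hFq (jqModC ↥(baseRing A K₁))
      (AdjoinSimple.gen ↥K₁ (jqNModC ↥K₁ w)) hj₀ hmemW 𝒢 h𝒢eq z hz
  refine IsIntegral.map_of_comp_eq (RingHom.id ↥𝒢) (e : ↥Fq →+* ↥Fw) ?_ hzq
  refine RingHom.ext fun r => ?_
  show algebraMap ↥(↥K₁)⟮jqNModC ↥K₁ w⟯ ↥Fw (r : ↥(↥K₁)⟮jqNModC ↥K₁ w⟯) =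
    e (e.symm (algebraMap ↥(↥K₁)⟮jqNModC ↥K₁ w⟯ ↥Fw (r : ↥(↥K₁)⟮jqNModC ↥K₁ w⟯)))
  rw [e.apply_symm_apply]

end Int

end Inst1

end Fermat.Agent.W1
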