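/-
W1 — helper8 — [INST1] (DEC): **the decomposition `V₁ = V₀[φ₁]`** at a base, in helper9's literal
`Inst1.DecHyp` (`W1/INST1_helper9_Res`): every Gauss-integral element `z` of `K₁ · F₁(M)` is
`Σ_{n<N} c n · φ₁ⁿ` with Gauss-integral `c n ∈ K₁ · F₀(M)`, `φ₁ = phiGen K₁ M 1`.

Proof: tower `K₀ = K₁(j) ⊂ F₀ = K₁ · F₀(M) ⊂ F₁ = K₁ · F₁(M)` (all inside `K₁((q))`), `𝒢` the
restriction to `K₀` of the Gauss valuation ring of `F₁`.
* `V₁ ⊆ B₁`: Gauss-integral elements of `F₁` are integral over `𝒢` (`JA/G1INT_helper8` with the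
  uniqueness `hmemW`, which comes from helper9's `hmemW_baseRing_of_pre`);
* monogenicity (helper7's `exists_aeval_eq_of_isIntegral`, with helper9's Galois structure
  `phiQ`, `diaQ` of `F₁ / F₀`): an element integral over `𝒢` is `Q(φ₁)`, `Q ∈ F₀[X]` with
  coefficients integral over `𝒢`;
* `B₀ ⊆ V₀`: elements of `F₀` integral over `𝒢` are Gauss-integral (`JA/G1_helper5_Unr`).
-/
import Mathlib
import Fermat.Agent.W1.INST1_helper9_Int
import Fermat.Agent.W1.INST1_helper9_Res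
import Fermat.Agent.W1.ETALE_helper7_Step
import Fermat.Agent.W1.DEG1_helper9_Galois
import Fermat.Agent.JA.G1_helper5_Unr
import Fermat.Agent.JA.G1INT_helper8

set_option autoImplicit false
set_option linter.unusedSectionVars false
set_option linter.style.haveILetI false
set_option synthInstance.maxHeartbeats 200000

open HahnSeries IntermediateField AlgebraicCurve ModularCurve Fermat.Agent.Igusa Polynomial

open Fermat.Agent.JA

namespace Fermat.Agent.W1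

open scoped Fermat.Agent.JA.Host

namespace Inst1

section Coe

variable {k : Type*} [Field k] [Algebra ℚ k] (M : ℕ) [NeZero M]

/-- the underlying series of the conjugate `phiQ (mk u)` is `φ_u`. -/
theorem coe_phiQ_mk (u : (ZMod M)ˣ) (hM : M ≠ 1) :
    ((phiQ (k := k) M 1 (QuotientGroup.mk u : DiaGrp M) :
      ↥(laurentBaseChange k (F₁ M 1))) : LaurentSeries k) = phiGen k M (u : ZMod M) := by
  haveI : Nontrivial (ZMod M) := ZMod.nontrivial_iff.mpr hM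
  rw [phiQ_mk, coe_phiBarA_of_ne M 1 (Units.ne_zero u), coeffEmb_qExpand_phiGen,
    qExpand_one_apply]

end Coe

section Gen

variable {K₁ : Type} [Field K₁] [Algebra ℚ K₁] [Algebra K₁ ℂ] [IsScalarTower ℚ K₁ ℂ]
  (R : ValuationSubring K₁) [IsDiscreteValuationRing ↥R] (M : ℕ) [NeZero M]

set_option maxHeartbeats 1600000 in
/-- **(DEC), generic form**: over a discrete valuation subring `R` of `K₁`, from the uniqueness
`hmemW` of the extension of the Gauss valuation to `K₁ · F₁(M)` and the finiteness of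
`K₁ · F₁(M)` over `K₁(j)`. -/
theorem decHyp_of_hmemW (hM : M ≠ 1) {ϖ : ↥R} (hϖ : Irreducible ϖ)
    (hmemW : ∀ W : ValuationSubring ↥(keyFq K₁ M),
      (∀ c : ↥(keyFq K₁ M), (c : LaurentSeries K₁) ∈ K₁⟮emb ↥R K₁ (jqModC ↥R)⟯ →
        (c ∈ W ↔ (c : LaurentSeries K₁) ∈ gaussInt ↥R K₁)) →
      ∀ z : ↥(keyFq K₁ M), (z : LaurentSeries K₁) ∈ gaussInt ↥R K₁ → z ∈ W)
    (hfin : Module.Finite ↥K₁⟮jGen K₁ M⟯ ↥(keyFq K₁ M)) :
    DecHyp ↥R K₁ M := by
  classical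
  haveI : CharZero ↥R := charZero_valuationSubring_of_algebraRat R
  have hF1 : laurentBaseChange K₁ (F₁ M 1) ≤ gaussField ↥R K₁ :=
    laurentBaseChange_F₁_le_gaussField ↥R K₁ M 1
  have hF0 : laurentBaseChange K₁ (modularFunctionFieldFull (M * 1)) ≤ gaussField ↥R K₁ :=
    Fermat.Agent.JA.laurentBaseChange_full_le_gaussField ↥R K₁ (M * 1)
  have hle1 : K₁⟮jqModC K₁⟯ ≤ laurentBaseChange K₁ (F₁ M 1) :=
    adjoin_simple_le_iff.mpr (jqModC_mem_keyFq K₁ M)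
  have hle0 : K₁⟮jqModC K₁⟯ ≤ laurentBaseChange K₁ (modularFunctionFieldFull (M * 1)) :=
    adjoin_simple_le_iff.mpr (Fermat.Agent.JA.jqModC_mem_keyFq (M * 1))
  letI alg0 : Algebra ↥K₁⟮jqModC K₁⟯ ↥(laurentBaseChange K₁ (modularFunctionFieldFull (M * 1))) :=
    (IntermediateField.inclusion hle0).toRingHom.toAlgebra
  letI alg1 : Algebra ↥K₁⟮jqModC K₁⟯ ↥(laurentBaseChange K₁ (F₁ M 1)) :=
    (IntermediateField.inclusion hle1).toRingHom.toAlgebra
  haveI tow0 : IsScalarTower K₁ ↥K₁⟮jqModC K₁⟯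
      ↥(laurentBaseChange K₁ (modularFunctionFieldFull (M * 1))) :=
    IsScalarTower.of_algebraMap_eq fun c => rfl
  haveI tow1 : IsScalarTower K₁ ↥K₁⟮jqModC K₁⟯ ↥(laurentBaseChange K₁ (F₁ M 1)) :=
    IsScalarTower.of_algebraMap_eq fun c => rfl
  letI algF := fullAlgebra (k := K₁) M 1
  haveI towF : IsScalarTower ↥K₁⟮jqModC K₁⟯
      ↥(laurentBaseChange K₁ (modularFunctionFieldFull (M * 1)))
      ↥(laurentBaseChange K₁ (F₁ M 1)) :=
    IsScalarTower.of_algebraMap_eq fun c => Subtype.ext rfl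
  -- the generator `j` of `K₀ = K₁(j)`
  have htr : Transcendental K₁ (AdjoinSimple.gen K₁ (jqModC K₁)) :=
    Host.transcendental_gen (transcendental_jqModC K₁)
  have hK : IntermediateField.adjoin K₁ {AdjoinSimple.gen K₁ (jqModC K₁)} = ⊤ :=
    Host.adjoin_gen_eq_top _
  have hemb : emb ↥R K₁ (jqModC ↥R) = jqModC K₁ := coeffMap_jqModC _
  have hj₀1 : ((algebraMap ↥K₁⟮jqModC K₁⟯ ↥(laurentBaseChange K₁ (F₁ M 1))
      (AdjoinSimple.gen K₁ (jqModC K₁)) : ↥(laurentBaseChange K₁ (F₁ M 1))) :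
      LaurentSeries K₁) = emb ↥R K₁ (jqModC ↥R) := by
    rw [hemb]; rfl
  have hj₀0 : ((algebraMap ↥K₁⟮jqModC K₁⟯
      ↥(laurentBaseChange K₁ (modularFunctionFieldFull (M * 1)))
      (AdjoinSimple.gen K₁ (jqModC K₁)) :
      ↥(laurentBaseChange K₁ (modularFunctionFieldFull (M * 1)))) :
      LaurentSeries K₁) = emb ↥R K₁ (jqModC ↥R) := by
    rw [hemb]; rfl
  have hst : Transcendental (IsLocalRing.ResidueField ↥R) (red ↥R (jqModC ↥R)) := by
    have h1 : red ↥R (jqModC ↥R) = jqModC (IsLocalRing.ResidueField ↥R) := coeffMap_jqModC _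
    rw [h1]
    exact transcendental_jqModC _
  -- the Gauss valuation subring of `K₀`
  obtain ⟨𝒢, h𝒢def⟩ : ∃ 𝒢 : ValuationSubring ↥K₁⟮jqModC K₁⟯,
      𝒢 = (gaussValSub ↥R K₁ (laurentBaseChange K₁ (F₁ M 1)) hF1).comap
        (algebraMap ↥K₁⟮jqModC K₁⟯ ↥(laurentBaseChange K₁ (F₁ M 1))) := ⟨_, rfl⟩
  have h𝒢 : IsGaussAt ↥R ϖ (AdjoinSimple.gen K₁ (jqModC K₁)) 𝒢 := by
    rw [h𝒢def]
    exact isGaussAt_comap_gaussValSub (laurentBaseChange K₁ (F₁ M 1)) hF1 (jqModC ↥R)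
      (AdjoinSimple.gen K₁ (jqModC K₁)) hj₀1 hϖ hst
  haveI : IsDiscreteValuationRing ↥𝒢 :=
    isDiscreteValuationRing_of_isGaussAt ϖ hϖ _ htr hK h𝒢
  -- `F₁ / K₀` is algebraic
  haveI halg1 : Algebra.IsAlgebraic ↥K₁⟮jqModC K₁⟯ ↥(laurentBaseChange K₁ (F₁ M 1)) := by
    haveI := hfin
    haveI : Algebra.IsAlgebraic ↥K₁⟮jGen K₁ M⟯ ↥(keyFq K₁ M) := Algebra.IsAlgebraic.of_finite _ _
    have hrange : (IntermediateField.inclusion hle1).fieldRange = K₁⟮jGen K₁ M⟯ := by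
      rw [AlgHom.fieldRange_eq_map, ← hK, IntermediateField.adjoin_map, Set.image_singleton]
      congr 2
      apply Subtype.ext
      show jqModC K₁ = ((jGen K₁ M : ↥(keyFq K₁ M)) : LaurentSeries K₁)
      rw [coe_jGen']
    have hmem : ∀ x : ↥K₁⟮jqModC K₁⟯, IntermediateField.inclusion hle1 x ∈ K₁⟮jGen K₁ M⟯ := by
      intro x
      rw [← hrange]
      exact ⟨x, rfl⟩
    let f : ↥K₁⟮jqModC K₁⟯ →+* ↥K₁⟮jGen K₁ M⟯ :=
      ((IntermediateField.inclusion hle1).toRingHom).codRestrict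
        (K₁⟮jGen K₁ M⟯).toSubfield.toSubring hmem
    have hf : Function.Surjective f := by
      rintro ⟨y, hy⟩
      rw [← hrange] at hy
      obtain ⟨x, hx⟩ := hy
      exact ⟨x, Subtype.ext hx⟩
    exact Algebra.IsAlgebraic.of_ringHom_of_comp_eq f (RingHom.id _) hf Function.injective_id
      (RingHom.ext fun x => rfl)
  -- (a) `V₁ ⊆ B₁`
  have hA : ∀ z : ↥(laurentBaseChange K₁ (F₁ M 1)),
      (z : LaurentSeries K₁) ∈ gaussInt ↥R K₁ → IsIntegral ↥𝒢 z := fun z hz =>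
    isIntegral_of_mem_gaussInt (laurentBaseChange K₁ (F₁ M 1)) hF1 (jqModC ↥R)
      (AdjoinSimple.gen K₁ (jqModC K₁)) hj₀1 hmemW 𝒢 h𝒢def z hz
  -- (b) `B₀ ⊆ V₀`
  have hB : ∀ c : ↥(laurentBaseChange K₁ (modularFunctionFieldFull (M * 1))),
      IsIntegral ↥𝒢 c → (c : LaurentSeries K₁) ∈ gaussInt ↥R K₁ := fun c hc =>
    mem_gaussInt_of_isIntegral (laurentBaseChange K₁ (modularFunctionFieldFull (M * 1))) hF0
      (jqModC ↥R) hst (AdjoinSimple.gen K₁ (jqModC K₁)) hj₀0 htr hK hϖ 𝒢 h𝒢 c hc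
  haveI : Nontrivial (ZMod M) := ZMod.nontrivial_iff.mpr hM
  -- the conjugates are Gauss-integral
  have hrmem : ∀ i : DiaGrp M, ((phiQ (k := K₁) M 1 i : ↥(laurentBaseChange K₁ (F₁ M 1))) :
      LaurentSeries K₁) ∈ gaussInt ↥R K₁ := by
    intro i
    induction i using QuotientGroup.induction_on with
    | H u =>
      rw [coe_phiQ_mk M u hM]
      exact phiGen_mem_gaussInt ↥R K₁ M _
  have hr : ∀ i : DiaGrp M, IsIntegral ↥𝒢 (phiQ (k := K₁) M 1 i) := fun i => hA _ (hrmem i)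
  -- the inverses of the differences are Gauss-integral
  have hinvmem : ∀ i j : DiaGrp M, i ≠ j →
      (((phiQ (k := K₁) M 1 i - phiQ M 1 j)⁻¹ : ↥(laurentBaseChange K₁ (F₁ M 1))) :
        LaurentSeries K₁) ∈ gaussInt ↥R K₁ := by
    intro i j hij
    induction i using QuotientGroup.induction_on with
    | H u =>
      induction j using QuotientGroup.induction_on with
      | H v =>
        rw [IntermediateField.coe_inv, AddSubgroupClass.coe_sub, coe_phiQ_mk M u hM,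
          coe_phiQ_mk M v hM]
        have hne : ¬ (u = v ∨ u = -v) := fun h => hij ((diaGrp_mk_eq_iff u v).mpr h)
        rw [not_or] at hne
        refine inv_phiGen_sub_mem_gaussInt ↥R K₁ M (Units.ne_zero u) (Units.ne_zero v)
          (fun h => hne.1 (Units.ext h)) (fun h => hne.2 (Units.ext ?_))
        rw [h, Units.val_neg]
  have hne : ∀ i j : DiaGrp M, i ≠ j → phiQ (k := K₁) M 1 i - phiQ M 1 j ≠ 0 :=
    fun i j hij => phiQ_sub_ne_zero M 1 hM hij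
  have hD0 : diffProd (phiQ (k := K₁) M 1) ≠ 0 := by
    rw [diffProd]
    refine Finset.prod_ne_zero_iff.mpr fun i _ => Finset.prod_ne_zero_iff.mpr fun j hj => ?_
    rw [Finset.mem_erase] at hj
    exact hne i j (fun h => hj.1 h.symm)
  have hDinv : IsIntegral ↥𝒢 (diffProd (phiQ (k := K₁) M 1))⁻¹ := by
    apply hA
    have h1 : (diffProd (phiQ (k := K₁) M 1))⁻¹ =
        ∏ i, ∏ j ∈ Finset.univ.erase i, (phiQ (k := K₁) M 1 i - phiQ M 1 j)⁻¹ := by
      rw [diffProd, ← Finset.prod_inv_distrib]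
      refine Finset.prod_congr rfl fun i _ => ?_
      rw [Finset.prod_inv_distrib]
    rw [h1]
    have h2 : ∀ x : ↥(laurentBaseChange K₁ (F₁ M 1)),
        x ∈ gaussValSub ↥R K₁ (laurentBaseChange K₁ (F₁ M 1)) hF1 ↔
          (x : LaurentSeries K₁) ∈ gaussInt ↥R K₁ := fun x => mem_gaussValSub_iff
    rw [← h2]
    refine prod_mem fun i _ => prod_mem fun j hj => ?_
    rw [Finset.mem_erase] at hj
    rw [h2]
    exact hinvmem i j (fun h => hj.1 h.symm)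
  obtain ⟨P, hP⟩ := exists_phiPoly_eq_map_algebraMap (k := K₁) M 1
  have hmono : ∀ z : ↥(laurentBaseChange K₁ (F₁ M 1)), IsIntegral ↥𝒢 z →
      ∃ Q : (↥(laurentBaseChange K₁ (modularFunctionFieldFull (M * 1))))[X],
        Q.degree < Fintype.card (DiaGrp M) ∧ (∀ n, IsIntegral ↥𝒢 (Q.coeff n)) ∧
        aeval (phiQ (k := K₁) M 1 1) Q = z := fun z hz =>
    exists_aeval_eq_of_isIntegral (𝒱 := 𝒢) (r := phiQ (k := K₁) M 1) 1 (diaQ (k := K₁) M 1) P
      hr hD0 hDinv (fun i => diaQ_phiQ_one M 1 i) hP (adjoin_phiQ_one_eq_top M 1 hM) hz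
  have hphi1 : ((phiQ (k := K₁) M 1 1 : ↥(laurentBaseChange K₁ (F₁ M 1))) : LaurentSeries K₁) =
      phiGen K₁ M 1 := by
    have h := coe_phiQ_mk (k := K₁) M 1 hM
    rwa [Units.val_one] at h
  have hkey : ∀ x : LaurentSeries K₁,
      x ∈ laurentBaseChange K₁ (modularFunctionFieldFull (M * 1)) → x ∈ keyFq₀ K₁ M := by
    intro x hx
    rw [Nat.mul_one] at hx
    exact hx
  intro z hz hzi
  obtain ⟨Q, -, hQint, hQz⟩ := hmono ⟨z, hz⟩ (hA ⟨z, hz⟩ hzi)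
  refine ⟨Q.natDegree + 1,
    fun n => ((Q.coeff n : ↥(laurentBaseChange K₁ (modularFunctionFieldFull (M * 1)))) :
      LaurentSeries K₁),
    fun n => hkey _ (Q.coeff n).2, fun n => hB _ (hQint n), ?_⟩
  have h1 := congrArg (fun y : ↥(laurentBaseChange K₁ (F₁ M 1)) => (y : LaurentSeries K₁)) hQz
  simp only at h1
  rw [← h1, aeval_eq_sum_range, AddSubmonoidClass.coe_finsetSum]
  refine Finset.sum_congr rfl fun n _ => ?_
  rw [Algebra.smul_def, MulMemClass.coe_mul, SubmonoidClass.coe_pow, hphi1]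
  rfl

end Gen

/-- `Ω = AlgebraicClosure ℚ`. -/
local notation "Ω" => AlgebraicClosure ℚ

section Base

variable {ℓ : ℕ} [Fact ℓ.Prime] {A : ValuationSubring Ω} (hA : A.LiesOverPrime ℓ)
  (M : ℕ) [NeZero M] (h : W1Pre M) {K₁ : IntermediateField ℚ Ω}

include hA h in
/-- **(DEC) at a base** `R₁ = A ∩ K₁`, from the preliminary interface `W1Pre M`: helper9's
`DecHyp` literal. -/
theorem decHyp_baseRing (hM : M ≠ 1) (hℓM : ¬ ℓ ∣ M) (hK₁ : IsBase ℓ K₁)
    [IsDiscreteValuationRing ↥(baseRing A K₁)] : DecHyp ↥(baseRing A K₁) ↥K₁ M := by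
  letI : Algebra ↥K₁ ℂ :=
    (((IsAlgClosed.lift : Ω →ₐ[ℚ] ℂ) : Ω →+* ℂ).comp (algebraMap ↥K₁ Ω)).toAlgebra
  haveI : IsScalarTower ℚ ↥K₁ ℂ := IsScalarTower.of_algebraMap_eq' (Subsingleton.elim _ _)
  obtain ⟨ϖ, hϖ⟩ := IsDiscreteValuationRing.exists_irreducible ↥(baseRing A K₁)
  exact decHyp_of_hmemW (baseRing A K₁) M hM hϖ
    (fun W hW z hz => hmemW_baseRing_of_pre hA M h hℓM hK₁ W hW z hz) (h.finite_keyFq ↥K₁)

include hA h in
/-- **the field `hRES_baseRing` of `W1Api M` from `W1Pre M`** (literal shape of the class field;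
helper9's `hRES_baseRing_of_dec` + (DEC)). -/
theorem hRES_baseRing_of_pre (hM : M ≠ 1) (hℓM : ¬ ℓ ∣ M) (hK₁ : IsBase ℓ K₁)
    [IsDiscreteValuationRing ↥(baseRing A K₁)] :
    ∀ (z : LaurentSeries ↥K₁) (_ : z ∈ keyFq ↥K₁ M)
      (hzi : z ∈ gaussInt ↥(baseRing A K₁) ↥K₁),
      coeffMap (baseResidueMap A K₁) (gaussRed ↥(baseRing A K₁) ↥K₁ ⟨z, hzi⟩) ∈
        F₁C (IsLocalRing.ResidueField ↥A) M 1 :=
  hRES_baseRing_of_dec hA M hM hℓM hK₁ (decHyp_baseRing hA M h hM hℓM hK₁)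

include hA h in
/-- **the field `exists_pgi_baseRing` of `W1Api M` from `W1Pre M`** (literal shape of the class
field; helper9's `exists_pgi_baseRing_of_dec` + (DEC)). -/
theorem exists_pgi_baseRing_of_pre (hM : M ≠ 1) (hℓM : ¬ ℓ ∣ M) (hK₁ : IsBase ℓ K₁)
    [IsDiscreteValuationRing ↥(baseRing A K₁)]
    {ϖ : ↥(baseRing A K₁)} (hϖ : Irreducible ϖ)
    {f : LaurentSeries ↥K₁} (hf : f ∈ keyFq ↥K₁ M) (hf0 : f ≠ 0) :
    ∃ (m : ℤ) (y₁ y₂ : LaurentSeries ↥(baseRing A K₁)),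
      emb ↥(baseRing A K₁) ↥K₁ y₁ ∈ keyFq ↥K₁ M ∧ emb ↥(baseRing A K₁) ↥K₁ y₂ ∈ keyFq ↥K₁ M ∧
      red ↥(baseRing A K₁) y₁ ≠ 0 ∧ red ↥(baseRing A K₁) y₂ ≠ 0 ∧
      f = HahnSeries.C (algebraMap ↥(baseRing A K₁) ↥K₁ ϖ) ^ m *
        emb ↥(baseRing A K₁) ↥K₁ y₁ / emb ↥(baseRing A K₁) ↥K₁ y₂ :=
  exists_pgi_baseRing_of_dec hA M hℓM hK₁ (decHyp_baseRing hA M h hM hℓM hK₁) hϖ hf hf0

end Base

end Inst1

end Fermat.Agent.W1
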