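/-
W1 — helper9 — [INST1] part 6: **the field `hLIFT_baseRing` of `W1Api M`, unconditionally**: every
element of the function field `F̃₁ = F₁C k M 1` of `X₁(M)` in characteristic `ℓ` is the reduction of
a Gauss-integral element of `K₁ · F₁(M)`.  Proof: the reductions of the Gauss-integral elements of
`K₁ · F₁` form a subFIELD of `k⸨q⸩` (the residue field of the Gauss valuation ring), which contains
`k` and the generators `j(q^d)`, `φ_a(q^e)`.
-/
import Mathlib
import Fermat.Agent.W1.API_helper7_Class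
import Fermat.Agent.SS.VAL2_helper7_HostGauss

set_option autoImplicit false
set_option linter.unusedSectionVars false
set_option linter.style.haveILetI false

open HahnSeries IntermediateField AlgebraicCurve ModularCurve Fermat.Agent.Igusa Polynomial

open Fermat.Agent.JA Fermat.Agent.SS

namespace Fermat.Agent.W1

namespace Inst1

section Lift

variable {R : Type*} [CommRing R] [IsDomain R] [IsDiscreteValuationRing R]
  {L : Type*} [Field L] [Algebra R L] [IsFractionRing R L] [Algebra ℚ L]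
  {k : Type*} [Field k] (σ : IsLocalRing.ResidueField R →+* k)
  (M Lv : ℕ) [NeZero M]

/-- the reductions (pushed to `k` along `σ`) of the Gauss-integral elements of `L · F₁(M, Lv)`:
a subfield of `k⸨q⸩`. -/
def liftField : Subfield (LaurentSeries k) where
  carrier := {a | ∃ (z : LaurentSeries L) (hzi : z ∈ gaussInt R L),
    z ∈ laurentBaseChange L (F₁ M Lv) ∧ coeffMap σ (gaussRed R L ⟨z, hzi⟩) = a}
  mul_mem' := by
    rintro a b ⟨z, hzi, hz, rfl⟩ ⟨w, hwi, hw, rfl⟩
    refine ⟨z * w, (gaussInt R L).mul_mem hzi hwi, mul_mem hz hw, ?_⟩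
    have : (⟨z * w, (gaussInt R L).mul_mem hzi hwi⟩ : gaussInt R L) = ⟨z, hzi⟩ * ⟨w, hwi⟩ := rfl
    rw [this, map_mul, map_mul]
  one_mem' := by
    refine ⟨1, (gaussInt R L).one_mem, one_mem _, ?_⟩
    have : (⟨1, (gaussInt R L).one_mem⟩ : gaussInt R L) = 1 := rfl
    rw [this, map_one, map_one]
  add_mem' := by
    rintro a b ⟨z, hzi, hz, rfl⟩ ⟨w, hwi, hw, rfl⟩
    refine ⟨z + w, (gaussInt R L).add_mem hzi hwi, add_mem hz hw, ?_⟩
    have : (⟨z + w, (gaussInt R L).add_mem hzi hwi⟩ : gaussInt R L) = ⟨z, hzi⟩ + ⟨w, hwi⟩ := rfl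
    rw [this, map_add, map_add]
  zero_mem' := by
    refine ⟨0, (gaussInt R L).zero_mem, zero_mem _, ?_⟩
    have : (⟨0, (gaussInt R L).zero_mem⟩ : gaussInt R L) = 0 := rfl
    rw [this, map_zero, map_zero]
  neg_mem' := by
    rintro a ⟨z, hzi, hz, rfl⟩
    refine ⟨-z, (gaussInt R L).neg_mem hzi, neg_mem hz, ?_⟩
    have : (⟨-z, (gaussInt R L).neg_mem hzi⟩ : gaussInt R L) = -⟨z, hzi⟩ := rfl
    rw [this, map_neg, map_neg]
  inv_mem' := by
    rintro a ⟨z, hzi, hz, rfl⟩
    by_cases h0 : coeffMap σ (gaussRed R L ⟨z, hzi⟩) = 0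
    · rw [h0, inv_zero]
      refine ⟨0, (gaussInt R L).zero_mem, zero_mem _, ?_⟩
      have : (⟨0, (gaussInt R L).zero_mem⟩ : gaussInt R L) = 0 := rfl
      rw [this, map_zero, map_zero]
    · have hred : gaussRed R L ⟨z, hzi⟩ ≠ 0 := by
        intro h
        apply h0
        rw [h, map_zero]
      have hinv : z⁻¹ ∈ gaussInt R L := inv_mem_gaussInt_of_gaussRed_ne_zero ⟨z, hzi⟩ hred
      refine ⟨z⁻¹, hinv, inv_mem hz, ?_⟩
      have hz0 : z ≠ 0 := by
        rintro rfl
        apply hred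
        have : (⟨0, hzi⟩ : gaussInt R L) = 0 := rfl
        rw [this, map_zero]
      have hmul : (⟨z⁻¹, hinv⟩ : gaussInt R L) * ⟨z, hzi⟩ = 1 :=
        Subtype.ext (inv_mul_cancel₀ hz0)
      have h1 : coeffMap σ (gaussRed R L ⟨z⁻¹, hinv⟩) * coeffMap σ (gaussRed R L ⟨z, hzi⟩) = 1 := by
        rw [← map_mul, ← map_mul, hmul, map_one, map_one]
      exact eq_inv_of_mul_eq_one_left h1

theorem mem_liftField_iff (a : LaurentSeries k) :
    a ∈ liftField (R := R) (L := L) σ M Lv ↔ ∃ (z : LaurentSeries L) (hzi : z ∈ gaussInt R L),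
      z ∈ laurentBaseChange L (F₁ M Lv) ∧ coeffMap σ (gaussRed R L ⟨z, hzi⟩) = a := Iff.rfl

/-- **(LIFT)**: every element of `F₁C k M Lv` is the reduction of a Gauss-integral element of
`L · F₁(M, Lv)`, if `σ` is surjective. -/
theorem F₁C_le_liftField (hσ : Function.Surjective σ) {a : LaurentSeries k}
    (ha : a ∈ F₁C k M Lv) : a ∈ liftField (R := R) (L := L) σ M Lv := by
  -- the subfield contains the constants
  have hC : ∀ c : k, algebraMap k (LaurentSeries k) c ∈ liftField (R := R) (L := L) σ M Lv := by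
    intro c
    obtain ⟨c', rfl⟩ := hσ c
    obtain ⟨r, rfl⟩ := IsLocalRing.residue_surjective c'
    refine ⟨HahnSeries.C (algebraMap R L r), C_algebraMap_mem_gaussInt r, ?_, ?_⟩
    · have : (HahnSeries.C (algebraMap R L r) : LaurentSeries L) =
          algebraMap L (LaurentSeries L) (algebraMap R L r) := by
        rw [algebraMap_laurentSeries_eq_single]; rfl
      rw [this]
      exact IntermediateField.algebraMap_mem _ _
    · have h1 : (⟨HahnSeries.C (algebraMap R L r), C_algebraMap_mem_gaussInt r⟩ :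
          gaussInt R L) = gaussIntC r := rfl
      rw [h1, gaussRed_gaussIntC, coeffMapV_C, algebraMap_laurentSeries_eq_single]
      rfl
  -- the subfield as an intermediate field
  let T : IntermediateField k (LaurentSeries k) :=
    { toSubalgebra :=
        { carrier := (liftField (R := R) (L := L) σ M Lv : Set (LaurentSeries k))
          mul_mem' := fun {a b} ha hb => (liftField (R := R) (L := L) σ M Lv).mul_mem ha hb
          add_mem' := fun {a b} ha hb => (liftField (R := R) (L := L) σ M Lv).add_mem ha hb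
          algebraMap_mem' := hC }
      inv_mem' := fun a ha => (liftField (R := R) (L := L) σ M Lv).inv_mem ha }
  have hle : F₁C k M Lv ≤ T := by
    rw [F₁C, IntermediateField.adjoin_le_iff]
    rintro x (⟨d, hd0, hd, rfl⟩ | ⟨e, he0, a', he, ha', rfl⟩)
    · haveI := hd0
      refine ⟨qExpand L d (jqModC L), qExpand_jqModC_mem_gaussInt R L d, ?_, ?_⟩
      · rw [laurentBaseChange_F₁_eq_F₁C]
        exact jqModCd_mem_F₁C hd
      · rw [gaussRed_qExpand_jqModC, coeffMap_qExpand, coeffMap_jqModC]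
    · haveI := he0
      refine ⟨qExpand L e (phiGen L M a'), qExpand_phiGen_mem_gaussInt R L M e a', ?_, ?_⟩
      · rw [laurentBaseChange_F₁_eq_F₁C]
        exact phi_mem_F₁C he ha'
      · rw [gaussRed_qExpand_phiGen, coeffMap_qExpand, coeffMap_phiGen]
  exact hle ha

end Lift

/-- `Ω = AlgebraicClosure ℚ`. -/
local notation "Ω" => AlgebraicClosure ℚ

/-- **the field `hLIFT_baseRing` of `W1Api M`, unconditionally** (literal shape of the class
field). -/
theorem hLIFT_baseRing_uncond {ℓ : ℕ} [Fact ℓ.Prime] {A : ValuationSubring Ω}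
    (hA : A.LiesOverPrime ℓ) (M : ℕ) [NeZero M] {K₁ : IntermediateField ℚ Ω} (hK₁ : IsBase ℓ K₁)
    [IsDiscreteValuationRing ↥(baseRing A K₁)] :
    ∀ a ∈ F₁C (IsLocalRing.ResidueField ↥A) M 1,
      ∃ (z : LaurentSeries ↥K₁) (hzi : z ∈ gaussInt ↥(baseRing A K₁) ↥K₁), z ∈ keyFq ↥K₁ M ∧
        coeffMap (baseResidueMap A K₁) (gaussRed ↥(baseRing A K₁) ↥K₁ ⟨z, hzi⟩) = a := by
  intro a ha
  exact F₁C_le_liftField (R := ↥(baseRing A K₁)) (L := ↥K₁) (baseResidueMap A K₁) M 1
    (hK₁.baseResidueMap_bijective hA).surjective ha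

end Inst1

end Fermat.Agent.W1
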