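/-
W1 — helper3 — [INST] part 2a: the orbit polynomial `∏_{b ∈ a·(ℤ/M)ˣ / ±1} (X - φ_b)` over an
arbitrary commutative ring `R` (the minimal polynomial of `φ_a` over the function field of
`X₀(M)`), functorial in `R`, monic, with the root `φ_a`, and separable over a field (by helper7's
`phiGen_ne_phiGen`: the `φ_b`, `b` modulo `±1`, are pairwise distinct over every nontrivial ring).
-/
import Mathlib
import Fermat.Agent.W1.SER_helper7_Phi

set_option autoImplicit false
set_option linter.unusedSectionVars false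

open Polynomial ModularCurve

namespace Fermat.Agent.W1

noncomputable section

section Orbit

variable (M : ℕ) [NeZero M]

/-- the orbit `a · (ℤ/M)ˣ` of `a : ZMod M`. -/
def unitOrbit (a : ZMod M) : Finset (ZMod M) :=
  Finset.univ.image (fun u : (ZMod M)ˣ => a * (u : ZMod M))

variable {M}

theorem mem_unitOrbit {a b : ZMod M} : b ∈ unitOrbit M a ↔ ∃ u : (ZMod M)ˣ, a * (u : ZMod M) = b := by
  simp [unitOrbit]

theorem self_mem_unitOrbit (a : ZMod M) : a ∈ unitOrbit M a :=
  mem_unitOrbit.mpr ⟨1, by rw [Units.val_one, mul_one]⟩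

theorem ne_zero_of_mem_unitOrbit {a b : ZMod M} (ha : a ≠ 0) (hb : b ∈ unitOrbit M a) : b ≠ 0 := by
  obtain ⟨u, rfl⟩ := mem_unitOrbit.mp hb
  exact fun h => ha ((Units.mul_left_eq_zero u).mp h)

theorem image_mul_unitOrbit (a : ZMod M) (u : (ZMod M)ˣ) :
    (unitOrbit M a).image (fun b => b * (u : ZMod M)) = unitOrbit M a := by
  ext b
  simp only [Finset.mem_image, mem_unitOrbit]
  constructor
  · rintro ⟨_, ⟨v, rfl⟩, rfl⟩
    exact ⟨v * u, by rw [Units.val_mul, mul_assoc]⟩
  · rintro ⟨v, rfl⟩
    refine ⟨a * ((v * u⁻¹ : (ZMod M)ˣ) : ZMod M), ⟨v * u⁻¹, rfl⟩, ?_⟩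
    rw [mul_assoc, ← Units.val_mul, inv_mul_cancel_right]

end Orbit

section Ring

variable (M : ℕ) [NeZero M] (R : Type*) [CommRing R] {S : Type*} [CommRing S]

open scoped Classical in
/-- the set of values `φ_b`, `b ∈ a · (ℤ/M)ˣ`. -/
def phiRoots (a : ZMod M) : Finset (LaurentSeries R) := (unitOrbit M a).image (phiGen R M)

open scoped Classical in
/-- **the orbit polynomial** `∏ (X - φ_b)` over the distinct values `φ_b`, `b ∈ a · (ℤ/M)ˣ`. -/
def phiOrbPoly (a : ZMod M) : (LaurentSeries R)[X] := ∏ y ∈ phiRoots M R a, (X - C y)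

theorem phiGen_mem_phiRoots (a : ZMod M) : phiGen R M a ∈ phiRoots M R a := by
  classical
  exact Finset.mem_image.mpr ⟨a, self_mem_unitOrbit a, rfl⟩

theorem phiOrbPoly_monic (a : ZMod M) : (phiOrbPoly M R a).Monic :=
  monic_prod_of_monic _ _ fun y _ => monic_X_sub_C y

theorem eval_phiGen_phiOrbPoly (a : ZMod M) : (phiOrbPoly M R a).eval (phiGen R M a) = 0 := by
  rw [phiOrbPoly, eval_prod]
  apply Finset.prod_eq_zero (phiGen_mem_phiRoots M R a)
  rw [eval_sub, eval_X, eval_C, sub_self]

variable {R}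

/-- **functoriality of the orbit polynomial** in the coefficient ring. -/
theorem phiOrbPoly_map [Nontrivial S] (σ : R →+* S) {a : ZMod M} (ha : a ≠ 0) :
    (phiOrbPoly M R a).map (coeffMap σ) = phiOrbPoly M S a := by
  classical
  have himg : phiRoots M S a = (phiRoots M R a).image (coeffMap σ) := by
    rw [phiRoots, phiRoots, Finset.image_image]
    apply Finset.image_congr
    intro b _
    exact (coeffMap_phiGen M σ b).symm
  rw [phiOrbPoly, phiOrbPoly, Polynomial.map_prod, himg, Finset.prod_image]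
  · apply Finset.prod_congr rfl
    intro y _
    rw [Polynomial.map_sub, Polynomial.map_X, Polynomial.map_C]
  · intro y hy y' hy' h
    obtain ⟨b, hb, rfl⟩ := Finset.mem_image.mp hy
    obtain ⟨b', hb', rfl⟩ := Finset.mem_image.mp hy'
    rw [coeffMap_phiGen, coeffMap_phiGen] at h
    by_cases h1 : b = b'
    · rw [h1]
    by_cases h2 : b = -b'
    · rw [h2, phiGen_neg]
    exact absurd h (phiGen_ne_phiGen S M (ne_zero_of_mem_unitOrbit ha hb)
      (ne_zero_of_mem_unitOrbit ha hb') h1 h2)

end Ring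

section Field

variable (M : ℕ) [NeZero M] (k : Type*) [Field k]

/-- over a field the orbit polynomial is separable. -/
theorem phiOrbPoly_separable (a : ZMod M) : (phiOrbPoly M k a).Separable := by
  rw [phiOrbPoly]
  exact (separable_prod_X_sub_C_iff' (f := fun y : LaurentSeries k => y)).mpr
    (fun x _ y _ h => h)

end Field

end

end Fermat.Agent.W1
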