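/-
W1 — helper3 — [INST] part 2b: over every field `ℚ ⊆ K ⊆ ℂ` the coefficients of the orbit
polynomial `∏_{b ∈ a·(ℤ/M)ˣ/±1} (X - φ_b)` lie in the function field `K · F₀(M)` of `X₀(M)`
(they are fixed by the diamond automorphisms; helper9's fixed-field theorem `mem_full_of_fixed`).
-/
import Mathlib
import Fermat.Agent.W1.INST_helper3_Orbit
import Fermat.Agent.W1.DEG1_helper9_Galois
import Fermat.Agent.W1.BASE_helper7_Field

set_option autoImplicit false
set_option linter.unusedSectionVars false

open Polynomial ModularCurve CongruenceSubgroup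
open scoped MatrixGroups

namespace Fermat.Agent.W1

noncomputable section

section Descent

variable (K : Type*) [Field K] [Algebra ℚ K] (M : ℕ) [NeZero M]

open scoped Classical in
/-- the values `φ_b`, `b ∈ a · (ℤ/M)ˣ`, as elements of `K · F₁(M)`. -/
def phiRootsT (a : ZMod M) : Finset ↥(laurentBaseChange K (F₁ M 1)) :=
  (unitOrbit M a).image (phiBarA (k := K) M 1)

open scoped Classical in
/-- the orbit polynomial with coefficients in `K · F₁(M)`. -/
def phiOrbPolyT (a : ZMod M) : (↥(laurentBaseChange K (F₁ M 1)))[X] :=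
  ∏ y ∈ phiRootsT K M a, (X - C y)

theorem coe_phiBarA_eq_phiGen {a : ZMod M} (ha : a ≠ 0) :
    ((phiBarA (k := K) M 1 a : ↥(laurentBaseChange K (F₁ M 1))) : LaurentSeries K) =
      phiGen K M a := by
  rw [coe_phiBarA_of_ne M 1 ha, coeffEmb_qExpand_phiGen, qExpand_one_apply]

/-- the typed orbit polynomial maps to the orbit polynomial in `K((q))`. -/
theorem phiOrbPolyT_map_val {a : ZMod M} (ha : a ≠ 0) :
    (phiOrbPolyT K M a).map (algebraMap ↥(laurentBaseChange K (F₁ M 1)) (LaurentSeries K)) =
      phiOrbPoly M K a := by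
  classical
  have himg : phiRoots M K a = (phiRootsT K M a).image
      (algebraMap ↥(laurentBaseChange K (F₁ M 1)) (LaurentSeries K)) := by
    rw [phiRoots, phiRootsT, Finset.image_image]
    apply Finset.image_congr
    intro b hb
    exact (coe_phiBarA_eq_phiGen K M (ne_zero_of_mem_unitOrbit ha hb)).symm
  rw [phiOrbPolyT, phiOrbPoly, Polynomial.map_prod, himg, Finset.prod_image]
  · apply Finset.prod_congr rfl
    intro y _
    rw [Polynomial.map_sub, Polynomial.map_X, Polynomial.map_C]
  · intro y _ y' _ h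
    exact Subtype.ext h

variable {K}

/-- the typed orbit polynomial is fixed by the diamond automorphisms. -/
theorem phiOrbPolyT_map_diaHom (ι : K →+* ℂ) {σ : SL(2, ℤ)} (hσ : σ ∈ Gamma0 (M * 1))
    (a : ZMod M) : (phiOrbPolyT K M a).map (diaHom ι hσ) = phiOrbPolyT K M a := by
  classical
  have himg : (phiRootsT K M a).image (diaHom ι hσ) = phiRootsT K M a := by
    rw [phiRootsT, Finset.image_image]
    have h1 : (⇑(diaHom ι hσ) ∘ phiBarA (k := K) M 1) =
        phiBarA (k := K) M 1 ∘
          (fun b : ZMod M => b * ((unitOf (mem_Gamma0_of_mem_Gamma0_mul hσ) : (ZMod M)ˣ) : ZMod M)) := by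
      funext b
      simp only [Function.comp_apply]
      rw [diaHom_phiBarA, coe_unitOf]
    rw [h1, ← Finset.image_image, image_mul_unitOrbit]
  rw [phiOrbPolyT, Polynomial.map_prod]
  conv_rhs => rw [← himg]
  rw [Finset.prod_image]
  · apply Finset.prod_congr rfl
    intro y _
    rw [Polynomial.map_sub, Polynomial.map_X, Polynomial.map_C]
  · intro y _ y' _ h
    exact (diaHom ι hσ).injective h

variable (K)
variable [Algebra K ℂ] [IsScalarTower ℚ K ℂ]

/-- **the coefficients of the orbit polynomial lie in the function field of `X₀(M)`.** -/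
theorem coeff_phiOrbPoly_mem_keyFq₀ {a : ZMod M} (ha : a ≠ 0) (n : ℕ) :
    (phiOrbPoly M K a).coeff n ∈ laurentBaseChange K (modularFunctionFieldFull M) := by
  have h1 := mem_full_of_fixed (k := K) M 1 ((phiOrbPolyT K M a).coeff n) (by
    intro σ hσ
    conv_rhs => rw [← phiOrbPolyT_map_diaHom M (algebraMap K ℂ) hσ a]
    rw [coeff_map])
  rw [Nat.mul_one] at h1
  rw [← phiOrbPolyT_map_val K M ha, coeff_map]
  exact h1

end Descent

end

end Fermat.Agent.W1
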