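/-
W1 — helper3 — [INST] part 2c: the fields `finiteDimensional_F₁C_residueField` and
`isSeparable_F₁C_residueField` of the interface class `W1Api M`: for the residue field `k` of a
valuation ring `A ∣ ℓ` of `ℚ̄`, `ℓ ∤ M`, the function field `F̃₁ = F₁C k M 1` of `X₁(M)` mod `ℓ` is
finite and separable over `k(j̃)`.

`F̃₁ = F̃₀(φ̃_a : a ≠ 0)`, `F̃₀ / k(j̃)` is finite separable (`Γ₀`-case, `JA/G1_helper5_Unram`), and
`φ̃_a` is a root of the orbit polynomial `∏_{b ∈ a(ℤ/M)ˣ/±1} (X - φ̃_b)`, which is separable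
(`phiGen_ne_phiGen`) and has coefficients in `F̃₀`: in characteristic zero the coefficients are
fixed by the diamond automorphisms (`coeff_phiOrbPoly_mem_keyFq₀`), they are Gauss-integral, and
reductions of Gauss-integral elements of `K₁ · F₀(M)` lie in `F̃₀` (`JA.hRES_baseRing`).
-/
import Mathlib
import Fermat.Agent.W1.INST_helper3_Descent
import Fermat.Agent.W1.API_helper7_Class
import Fermat.Agent.JA.O1_helper6_BaseInst

set_option autoImplicit false
set_option linter.unusedSectionVars false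
set_option linter.style.haveILetI false

open Polynomial ModularCurve IntermediateField Fermat.Agent.Igusa Fermat.Agent.JA

namespace Fermat.Agent.W1

local notation "Ω" => AlgebraicClosure ℚ

noncomputable section

/-! ### the coefficients of the orbit polynomial modulo `ℓ` -/

section Coeff

variable {ℓ : ℕ} [Fact ℓ.Prime] {A : ValuationSubring Ω} (hA : A.LiesOverPrime ℓ)
  (M : ℕ) [NeZero M]

include hA in
/-- **the coefficients of the orbit polynomial over the residue field of `A ∣ ℓ ∤ M` lie in the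
function field `F̃₀` of `X₀(M)` mod `ℓ`.** -/
theorem coeff_phiOrbPoly_mem_fullC (hℓM : ¬ ℓ ∣ M) {a : ZMod M} (ha : a ≠ 0) (n : ℕ) :
    (phiOrbPoly M (IsLocalRing.ResidueField ↥A) a).coeff n ∈
      modularFunctionFieldFullC (IsLocalRing.ResidueField ↥A) M := by
  haveI := isDiscreteValuationRing_flatBase hA
  letI : Algebra ↥(flatBase ℓ) ℂ :=
    (((IsAlgClosed.lift : Ω →ₐ[ℚ] ℂ) : Ω →+* ℂ).comp (algebraMap ↥(flatBase ℓ) Ω)).toAlgebra
  haveI : IsScalarTower ℚ ↥(flatBase ℓ) ℂ :=
    IsScalarTower.of_algebraMap_eq' (Subsingleton.elim _ _)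
  set R := ↥(baseRing A (flatBase ℓ)) with hR
  set c : LaurentSeries R := (phiOrbPoly M R a).coeff n with hc
  have h1 : emb R ↥(flatBase ℓ) c = (phiOrbPoly M ↥(flatBase ℓ) a).coeff n := by
    rw [← phiOrbPoly_map M (algebraMap R ↥(flatBase ℓ)) ha, coeff_map]
    rfl
  have h2 : emb R ↥(flatBase ℓ) c ∈ Fermat.Agent.JA.keyFq ↥(flatBase ℓ) M := by
    rw [h1]
    exact coeff_phiOrbPoly_mem_keyFq₀ ↥(flatBase ℓ) M ha n
  have h3 := Fermat.Agent.JA.hRES_baseRing hA M hℓM isBase_flatBase _ h2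
    (emb_mem_gaussInt R ↥(flatBase ℓ) c)
  rw [gaussRed_emb, red, coeffMap_coeffMap, hc, ← coeff_map, phiOrbPoly_map M _ ha] at h3
  exact h3

end Coeff

/-! ### transfer of separability along commutative squares -/

section Transfer

variable {A₁ B₁ A₂ B₂ : Type*} [Field A₁] [Field A₂] [Ring B₁] [Ring B₂] [Algebra A₁ B₁]
  [Algebra A₂ B₂]

/-- separability transfers along a commutative square of ring homomorphisms. -/
theorem isSeparable_map_of_comp_eq (e : A₁ →+* A₂) (f : B₁ →+* B₂)
    (h : (algebraMap A₂ B₂).comp e = f.comp (algebraMap A₁ B₁)) {x : B₁}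
    (hx : IsSeparable A₁ x) : IsSeparable A₂ (f x) := by
  have hsep : ((minpoly A₁ x).map e).Separable := Separable.map hx
  have h0 : aeval (f x) ((minpoly A₁ x).map e) = 0 := by
    rw [aeval_def, eval₂_map, h, ← hom_eval₂, ← aeval_def, minpoly.aeval, map_zero]
  exact hsep.of_dvd (minpoly.dvd A₂ (f x) h0)

/-- separability descends along a commutative square with an injective map of the top rings. -/
theorem isSeparable_of_map_of_comp_eq (g : A₂ →+* A₁) (f : B₁ →+* B₂)
    (hf : Function.Injective f)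
    (h : (f.comp (algebraMap A₁ B₁)).comp g = algebraMap A₂ B₂) {x : B₁}
    (hx : IsSeparable A₂ (f x)) : IsSeparable A₁ x := by
  have hsep : ((minpoly A₂ (f x)).map g).Separable := Separable.map hx
  have h0 : aeval x ((minpoly A₂ (f x)).map g) = 0 := by
    apply hf
    rw [aeval_def, eval₂_map, hom_eval₂, ← RingHom.comp_assoc, h, ← aeval_def, minpoly.aeval,
      map_zero]
  exact hsep.of_dvd (minpoly.dvd A₁ x h0)

end Transfer

/-! ### the generic field theory -/

section Generic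

variable (k : Type*) [Field k] (M : ℕ) [NeZero M]

/-- (Step 1) elements of `F̃₀` are separable over `k(j̃)` inside `k((q))`. -/
theorem isSeparable_of_mem_fullC
    (h0 : Algebra.IsSeparable k⟮Fermat.Agent.JA.jTildeElt k M⟯ ↥(modularFunctionFieldFullC k M))
    {x : LaurentSeries k} (hx : x ∈ modularFunctionFieldFullC k M) :
    IsSeparable k⟮jqModC k⟯ x := by
  have hmem : ∀ r : k⟮Fermat.Agent.JA.jTildeElt k M⟯,
      ((r : ↥(modularFunctionFieldFullC k M)) : LaurentSeries k) ∈ k⟮jqModC k⟯ :=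
    fun r => (Fermat.Agent.JA.mem_adjoin_jTildeElt_iff M _).mp r.2
  let e : k⟮Fermat.Agent.JA.jTildeElt k M⟯ →+* k⟮jqModC k⟯ :=
    RingHom.codRestrict ((algebraMap ↥(modularFunctionFieldFullC k M) (LaurentSeries k)).comp
      (algebraMap k⟮Fermat.Agent.JA.jTildeElt k M⟯ ↥(modularFunctionFieldFullC k M)))
      k⟮jqModC k⟯ hmem
  have hcomp : (algebraMap k⟮jqModC k⟯ (LaurentSeries k)).comp e =
      (algebraMap ↥(modularFunctionFieldFullC k M) (LaurentSeries k)).comp
        (algebraMap k⟮Fermat.Agent.JA.jTildeElt k M⟯ ↥(modularFunctionFieldFullC k M)) := by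
    apply RingHom.ext
    intro r
    rfl
  have hx' : IsSeparable k⟮Fermat.Agent.JA.jTildeElt k M⟯
      (⟨x, hx⟩ : ↥(modularFunctionFieldFullC k M)) :=
    Algebra.IsSeparable.isSeparable _ _
  have h2 := isSeparable_map_of_comp_eq e
    (algebraMap ↥(modularFunctionFieldFullC k M) (LaurentSeries k)) hcomp hx'
  exact h2

/-- (Step 2) `φ̃_a` is separable over `k(j̃)` inside `k((q))`. -/
theorem isSeparable_phiGen
    (h0 : Algebra.IsSeparable k⟮Fermat.Agent.JA.jTildeElt k M⟯ ↥(modularFunctionFieldFullC k M))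
    {a : ZMod M} (h1 : ∀ n, (phiOrbPoly M k a).coeff n ∈ modularFunctionFieldFullC k M) :
    IsSeparable k⟮jqModC k⟯ (phiGen k M a) := by
  have hl : phiOrbPoly M k a ∈ Polynomial.lifts
      (algebraMap ↥(separableClosure k⟮jqModC k⟯ (LaurentSeries k)) (LaurentSeries k)) := by
    rw [lifts_iff_coeff_lifts]
    intro n
    have := isSeparable_of_mem_fullC k M h0 (h1 n)
    exact ⟨⟨_, mem_separableClosure_iff.mpr this⟩, rfl⟩
  obtain ⟨P, hP⟩ := (mem_lifts _).mp hl
  have hPsep : P.Separable := by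
    rw [← separable_map (algebraMap ↥(separableClosure k⟮jqModC k⟯ (LaurentSeries k))
      (LaurentSeries k)), hP]
    exact phiOrbPoly_separable M k a
  have h0' : aeval (phiGen k M a) P = 0 := by
    rw [aeval_def, eval₂_eq_eval_map, hP, eval_phiGen_phiOrbPoly]
  have hs : IsSeparable ↥(separableClosure k⟮jqModC k⟯ (LaurentSeries k)) (phiGen k M a) :=
    hPsep.of_dvd (minpoly.dvd _ _ h0')
  exact IsSeparable.of_algebra_isSeparable_of_isSeparable k⟮jqModC k⟯ hs

/-- (Step 3) every element of `F̃₁` is separable over `k(j̃)` inside `k((q))`. -/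
theorem isSeparable_of_mem_F₁C
    (h0 : Algebra.IsSeparable k⟮Fermat.Agent.JA.jTildeElt k M⟯ ↥(modularFunctionFieldFullC k M))
    (h1 : ∀ a : ZMod M, a ≠ 0 → ∀ n,
      (phiOrbPoly M k a).coeff n ∈ modularFunctionFieldFullC k M)
    {x : LaurentSeries k} (hx : x ∈ F₁C k M 1) : IsSeparable k⟮jqModC k⟯ x := by
  have hle : F₁C k M 1 ≤
      (separableClosure k⟮jqModC k⟯ (LaurentSeries k)).restrictScalars k := by
    rw [F₁C, adjoin_le_iff]
    rintro y (⟨d, hd0, hd, rfl⟩ | ⟨e, he0, a, he, ha, rfl⟩)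
    · have := hd0
      rw [Nat.mul_one] at hd
      exact mem_separableClosure_iff.mpr
        (isSeparable_of_mem_fullC k M h0 (jqModCd_mem_full k M hd))
    · have := he0
      obtain rfl : e = 1 := Nat.dvd_one.mp he
      rw [qExpand_one_apply]
      exact mem_separableClosure_iff.mpr (isSeparable_phiGen k M h0 (h1 a ha))
  exact mem_separableClosure_iff.mp (hle hx)

end Generic

/-! ### the typed statements -/

section Typed

variable (k : Type*) [Field k] (M : ℕ) [NeZero M]

theorem mem_adjoin_jTildeElt_iff' (r : ↥(F₁C k M 1)) :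
    r ∈ k⟮jTildeElt k M⟯ ↔ (r : LaurentSeries k) ∈ k⟮jqModC k⟯ := by
  rw [← coe_jTildeElt k M, ← IntermediateField.lift_adjoin_simple, IntermediateField.mem_lift]

/-- (Step 4) **`F̃₁ / k(j̃)` is separable** as soon as `F̃₀ / k(j̃)` is and the orbit polynomials have
coefficients in `F̃₀`. -/
theorem isSeparable_F₁C_of_coeff
    (h0 : Algebra.IsSeparable k⟮Fermat.Agent.JA.jTildeElt k M⟯ ↥(modularFunctionFieldFullC k M))
    (h1 : ∀ a : ZMod M, a ≠ 0 → ∀ n,
      (phiOrbPoly M k a).coeff n ∈ modularFunctionFieldFullC k M) :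
    Algebra.IsSeparable k⟮jTildeElt k M⟯ ↥(F₁C k M 1) := by
  have hle : k⟮jqModC k⟯ ≤ F₁C k M 1 := adjoin_simple_le_iff.mpr (jqModC_mem_F₁C k M 1)
  let g : k⟮jqModC k⟯ →+* k⟮jTildeElt k M⟯ :=
    { toFun := fun r => ⟨⟨(r : LaurentSeries k), hle r.2⟩, (mem_adjoin_jTildeElt_iff' k M _).mpr r.2⟩
      map_one' := rfl
      map_mul' := fun _ _ => rfl
      map_zero' := rfl
      map_add' := fun _ _ => rfl }
  have hcomp : ((algebraMap ↥(F₁C k M 1) (LaurentSeries k)).comp
      (algebraMap k⟮jTildeElt k M⟯ ↥(F₁C k M 1))).comp g =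
      algebraMap k⟮jqModC k⟯ (LaurentSeries k) := by
    apply RingHom.ext
    intro r
    rfl
  refine ⟨fun x => ?_⟩
  have hx : IsSeparable k⟮jqModC k⟯
      (algebraMap ↥(F₁C k M 1) (LaurentSeries k) x) := isSeparable_of_mem_F₁C k M h0 h1 x.2
  exact isSeparable_of_map_of_comp_eq g (algebraMap ↥(F₁C k M 1) (LaurentSeries k))
    Subtype.val_injective hcomp hx

theorem finite_divisorExpansionsC (N : ℕ) [NeZero N] : (divisorExpansionsC k N).Finite := by
  classical
  let f : ℕ → LaurentSeries k :=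
    fun d => if h : d = 0 then 0 else @qExpand k _ d ⟨h⟩ (jqModC k)
  apply ((Nat.divisors N).finite_toSet.image f).subset
  rintro x ⟨d, hd0, hd, rfl⟩
  refine ⟨d, Finset.mem_coe.mpr (Nat.mem_divisors.mpr ⟨hd, NeZero.ne N⟩), ?_⟩
  show (if h : d = 0 then 0 else @qExpand k _ d ⟨h⟩ (jqModC k)) = _
  rw [dif_neg (NeZero.ne d)]

theorem finite_phiExpansionsC_one : (phiExpansionsC k M 1).Finite := by
  apply (Set.finite_range (fun a : ZMod M => phiGen k M a)).subset
  rintro x ⟨e, he0, a, he, -, rfl⟩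
  have := he0
  obtain rfl : e = 1 := Nat.dvd_one.mp he
  exact ⟨a, (qExpand_one_apply _).symm⟩

/-- **`F̃₁ / k(j̃)` is finite** as soon as it is separable (it is finitely generated). -/
theorem finiteDimensional_F₁C_of_isSeparable
    (hsep : Algebra.IsSeparable k⟮jTildeElt k M⟯ ↥(F₁C k M 1)) :
    FiniteDimensional k⟮jTildeElt k M⟯ ↥(F₁C k M 1) := by
  set T : Set ↥(F₁C k M 1) :=
    Subtype.val ⁻¹' (divisorExpansionsC k (M * 1) ∪ phiExpansionsC k M 1) with hT
  have hTfin : T.Finite :=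
    Set.Finite.preimage (Subtype.val_injective.injOn)
      ((finite_divisorExpansionsC k (M * 1)).union (finite_phiExpansionsC_one k M))
  have h1 : adjoin k T = ⊤ := by
    apply IntermediateField.lift_injective
    rw [lift_adjoin, lift_top]
    show adjoin k (Subtype.val '' T) = adjoin k (divisorExpansionsC k (M * 1) ∪ phiExpansionsC k M 1)
    congr 1
    ext y
    constructor
    · rintro ⟨z, hz, rfl⟩
      exact hz
    · intro hy
      exact ⟨⟨y, subset_adjoin k _ hy⟩, hy, rfl⟩
  have h2 : adjoin k⟮jTildeElt k M⟯ T = ⊤ := by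
    apply restrictScalars_injective k
    rw [adjoin_adjoin_left, restrictScalars_top, eq_top_iff, ← h1]
    exact adjoin.mono k _ _ Set.subset_union_right
  haveI : Finite T := hTfin.to_subtype
  have h3 : FiniteDimensional k⟮jTildeElt k M⟯ ↥(adjoin k⟮jTildeElt k M⟯ T) :=
    finiteDimensional_adjoin
      (fun x _ => (Algebra.IsSeparable.isSeparable k⟮jTildeElt k M⟯ x).isIntegral)
  rw [h2] at h3
  exact Module.Finite.equiv
    (topEquiv (F := k⟮jTildeElt k M⟯) (E := ↥(F₁C k M 1))).toLinearEquiv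

end Typed

/-! ### the two fields of `W1Api M` -/

section Final

variable (M : ℕ) [NeZero M] {ℓ : ℕ} [Fact ℓ.Prime] {A : ValuationSubring Ω}

/-- **`W1Api.isSeparable_F₁C_residueField`.** -/
theorem w1_isSeparable_F₁C_residueField (hA : A.LiesOverPrime ℓ) (hℓM : ¬ ℓ ∣ M) :
    Algebra.IsSeparable
      ↥(IsLocalRing.ResidueField ↥A)⟮jTildeElt (IsLocalRing.ResidueField ↥A) M⟯
      ↥(F₁C (IsLocalRing.ResidueField ↥A) M 1) :=
  isSeparable_F₁C_of_coeff _ M (Fermat.Agent.JA.isSeparable_fullC_residueField hA M hℓM)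
    (fun _ ha n => coeff_phiOrbPoly_mem_fullC hA M hℓM ha n)

/-- **`W1Api.finiteDimensional_F₁C_residueField`.** -/
theorem w1_finiteDimensional_F₁C_residueField (hA : A.LiesOverPrime ℓ) (hℓM : ¬ ℓ ∣ M) :
    FiniteDimensional
      ↥(IsLocalRing.ResidueField ↥A)⟮jTildeElt (IsLocalRing.ResidueField ↥A) M⟯
      ↥(F₁C (IsLocalRing.ResidueField ↥A) M 1) :=
  finiteDimensional_F₁C_of_isSeparable _ M (w1_isSeparable_F₁C_residueField M hA hℓM)

end Final

end

end Fermat.Agent.W1
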