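/-
W1 — helper8 — [INST1] assembly: **`W1Api M` from the preliminary interface `W1Pre M`** (`M ≠ 1`).

The twelve fields of the class: `finite_keyFq`, `ram0_*` (×4), `unr_hostImage_baseRing_of_isGaussAt`
are the fields of `W1Pre M` verbatim; `hmemW_baseRing` = helper9's `hmemW_baseRing_of_pre` (UNIQ₁);
`hRES_baseRing`, `exists_pgi_baseRing` = helper9's `…_of_dec` + (DEC) (`W1/INST1_helper8_Dec`);
`hLIFT_baseRing` = helper9's `hLIFT_baseRing_uncond`; the two residue-field statements = helper3's
`w1_finiteDimensional_F₁C_residueField`, `w1_isSeparable_F₁C_residueField`.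
-/
import Mathlib
import Fermat.Agent.W1.INST1_helper8_Dec
import Fermat.Agent.W1.INST1_helper9_Lift
import Fermat.Agent.W1.INST_helper3_Residue

set_option autoImplicit false
set_option linter.unusedSectionVars false
set_option linter.style.haveILetI false
set_option synthInstance.maxHeartbeats 200000

open HahnSeries IntermediateField AlgebraicCurve ModularCurve Fermat.Agent.Igusa Polynomial

open Fermat.Agent.JA

namespace Fermat.Agent.W1

open scoped Fermat.Agent.JA.Host

namespace Inst1

/-- **the interface class from the preliminary interface.** -/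
theorem w1Api_of_pre (M : ℕ) [NeZero M] (hM : M ≠ 1) (h : W1Pre M) : W1Api M where
  finite_keyFq := h.finite_keyFq
  ram0_generic' := h.ram0_generic'
  ram0_zero_dvd := h.ram0_zero_dvd
  ram0_1728_dvd := h.ram0_1728_dvd
  ram0_infty_neg := h.ram0_infty_neg
  hmemW_baseRing := fun hA hℓM _ hK₁ _ W hW z hz =>
    hmemW_baseRing_of_pre hA M h hℓM hK₁ W hW z hz
  hRES_baseRing := fun hA hℓM _ hK₁ _ z hz hzi =>
    hRES_baseRing_of_pre hA M h hM hℓM hK₁ z hz hzi
  hLIFT_baseRing := fun hA _ _ hK₁ _ => hLIFT_baseRing_uncond hA M hK₁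
  exists_pgi_baseRing := fun hA hℓM _ hK₁ _ _ hϖ _ hf hf0 =>
    exists_pgi_baseRing_of_pre hA M h hM hℓM hK₁ hϖ hf hf0
  unr_hostImage_baseRing_of_isGaussAt := h.unr_hostImage_baseRing_of_isGaussAt
  finiteDimensional_F₁C_residueField := fun hA hℓM =>
    w1_finiteDimensional_F₁C_residueField M hA hℓM
  isSeparable_F₁C_residueField := fun hA hℓM => w1_isSeparable_F₁C_residueField M hA hℓM

end Inst1

end Fermat.Agent.W1
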