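/-
W1 — helper9 — [INST1] part 1: `K · F₁(M)` is finite over `K(j)` for EVERY field `K ⊇ ℚ`
(the field `finite_keyFq` of helper7's interface class `W1Api`), from the degree computation over
`ℚ` (`finrank_F₁_baseChange_eq`) by coefficientwise base change.
-/
import Mathlib
import Fermat.Agent.W1.API_helper7_Class
import Fermat.Agent.W1.DEG1_helper9_Transfer
import Fermat.Agent.JA.BC_helper9_Main

set_option autoImplicit false
set_option linter.unusedSectionVars false
set_option linter.style.haveILetI false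

open HahnSeries IntermediateField AlgebraicCurve ModularCurve Polynomial

open Fermat.Agent.JA Fermat.Agent.X0N

namespace Fermat.Agent.W1

noncomputable section

section Generic

variable {K₀ K : Type*} [Field K₀] [Field K] [Algebra ℚ K₀] [Algebra ℚ K] [Algebra K₀ K]
  [IsScalarTower ℚ K₀ K] (F₀ : IntermediateField ℚ (LaurentSeries ℚ))
  {x : LaurentSeries ℚ} (hx : x ∈ F₀)

theorem bcHom_gen :
    bcHom (K := K₀) (L := K) F₀ ⟨coeffEmb K₀ x, coeffEmb_mem_laurentBaseChange K₀ hx⟩ =
      ⟨coeffEmb K x, coeffEmb_mem_laurentBaseChange K hx⟩ := by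
  apply Subtype.ext
  rw [coe_bcHom]
  exact iota_coeffEmb x

include hx in
/-- the base change maps `K₀(x)` into `K(x)`. -/
theorem bcHom_mem_adjoin (c : ↥(laurentBaseChange K₀ F₀))
    (hc : c ∈ K₀⟮(⟨coeffEmb K₀ x, coeffEmb_mem_laurentBaseChange K₀ hx⟩ :
      ↥(laurentBaseChange K₀ F₀))⟯) :
    bcHom (K := K₀) (L := K) F₀ c ∈
      K⟮(⟨coeffEmb K x, coeffEmb_mem_laurentBaseChange K hx⟩ : ↥(laurentBaseChange K F₀))⟯ := by
  induction hc using IntermediateField.adjoin_induction with
  | mem y hy =>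
    rw [Set.mem_singleton_iff] at hy
    subst hy
    rw [bcHom_gen F₀ hx]
    exact IntermediateField.mem_adjoin_simple_self K _
  | algebraMap r =>
    rw [bcHom_algebraMap]
    exact IntermediateField.algebraMap_mem _ _
  | add a b _ _ ha hb => rw [map_add]; exact add_mem ha hb
  | mul a b _ _ ha hb => rw [map_mul]; exact mul_mem ha hb
  | inv a _ ha => rw [map_inv₀]; exact inv_mem ha

include hx in
/-- **finiteness is preserved by coefficientwise base change**: if `K₀·F₀` is finite over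
`K₀(x)`, then `K·F₀` is finite over `K(x)`, for every field extension `K / K₀`. -/
theorem finite_bc_of_finite
    (hfin : Module.Finite
      K₀⟮(⟨coeffEmb K₀ x, coeffEmb_mem_laurentBaseChange K₀ hx⟩ : ↥(laurentBaseChange K₀ F₀))⟯
      ↥(laurentBaseChange K₀ F₀)) :
    Module.Finite
      K⟮(⟨coeffEmb K x, coeffEmb_mem_laurentBaseChange K hx⟩ : ↥(laurentBaseChange K F₀))⟯
      ↥(laurentBaseChange K F₀) := by
  classical
  set x₀ : ↥(laurentBaseChange K₀ F₀) := ⟨coeffEmb K₀ x, coeffEmb_mem_laurentBaseChange K₀ hx⟩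
    with hx₀
  set xK : ↥(laurentBaseChange K F₀) := ⟨coeffEmb K x, coeffEmb_mem_laurentBaseChange K hx⟩
    with hxK
  set ψ := bcHom (K := K₀) (L := K) F₀ with hψ
  -- the restriction `K₀(x) → K(x)`
  let φ : ↥K₀⟮x₀⟯ →+* ↥K⟮xK⟯ :=
    { toFun := fun c => ⟨ψ (c : ↥(laurentBaseChange K₀ F₀)), bcHom_mem_adjoin F₀ hx _ c.2⟩
      map_one' := Subtype.ext (by simp)
      map_mul' := fun a b => Subtype.ext (by simp)
      map_zero' := Subtype.ext (by simp)
      map_add' := fun a b => Subtype.ext (by simp) }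
  have hcomp : (algebraMap ↥K⟮xK⟯ ↥(laurentBaseChange K F₀)).comp φ =
      ψ.comp (algebraMap ↥K₀⟮x₀⟯ ↥(laurentBaseChange K₀ F₀)) := RingHom.ext fun c => rfl
  have hint : ∀ y : ↥(laurentBaseChange K₀ F₀), IsIntegral ↥K⟮xK⟯ (ψ y) := fun y =>
    IsIntegral.map_of_comp_eq φ ψ hcomp (Algebra.IsIntegral.isIntegral (R := ↥K₀⟮x₀⟯) y)
  -- a finite basis over `K₀(x)`
  let b := Module.finBasis ↥K₀⟮x₀⟯ ↥(laurentBaseChange K₀ F₀)
  set S : Set ↥(laurentBaseChange K F₀) := Set.range fun i => ψ (b i) with hS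
  haveI : Finite S := Set.finite_range _
  have hSint : ∀ s ∈ S, IsIntegral ↥K⟮xK⟯ s := by
    rintro _ ⟨i, rfl⟩
    exact hint _
  haveI hfd : FiniteDimensional ↥K⟮xK⟯ ↥(IntermediateField.adjoin ↥K⟮xK⟯ S) :=
    IntermediateField.finiteDimensional_adjoin hSint
  -- the adjunction is everything
  have htop : IntermediateField.adjoin ↥K⟮xK⟯ S = ⊤ := by
    rw [eq_top_iff]
    intro z _
    have hz : z ∈ Subfield.closure (Set.range ψ ∪
        Set.range (algebraMap K ↥(laurentBaseChange K F₀))) := by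
      rw [closure_range_bcHom]; trivial
    have hcl : Subfield.closure (Set.range ψ ∪
        Set.range (algebraMap K ↥(laurentBaseChange K F₀))) ≤
        (IntermediateField.adjoin ↥K⟮xK⟯ S).toSubfield := by
      rw [Subfield.closure_le]
      rintro _ (⟨y, rfl⟩ | ⟨c, rfl⟩)
      · -- `y = Σ cᵢ bᵢ`
        have hy := b.sum_repr y
        rw [← hy, map_sum]
        refine Subfield.sum_mem _ fun i _ => ?_
        rw [Algebra.smul_def, map_mul]
        refine Subfield.mul_mem _ ?_ ?_
        · have : ψ (algebraMap ↥K₀⟮x₀⟯ ↥(laurentBaseChange K₀ F₀) (b.repr y i)) =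
              algebraMap ↥K⟮xK⟯ ↥(laurentBaseChange K F₀) (φ (b.repr y i)) := rfl
          rw [this]
          exact IntermediateField.algebraMap_mem _ _
        · exact IntermediateField.subset_adjoin _ _ ⟨i, rfl⟩
      · have : algebraMap K ↥(laurentBaseChange K F₀) c =
            algebraMap ↥K⟮xK⟯ ↥(laurentBaseChange K F₀) (algebraMap K ↥K⟮xK⟯ c) := rfl
        rw [this]
        exact IntermediateField.algebraMap_mem _ _
    exact hcl hz
  rw [htop] at hfd
  exact Module.Finite.equiv (IntermediateField.topEquiv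
    (F := ↥K⟮xK⟯) (E := ↥(laurentBaseChange K F₀))).toLinearEquiv

end Generic

/-- **`K · F₁(M)` is finite over `K(j)`, for every field `K ⊇ ℚ`** (the field `finite_keyFq` of
`W1Api`). -/
theorem finite_keyFq_of_ne_one (M : ℕ) [NeZero M] (hM : M ≠ 1) (K : Type*) [Field K]
    [Algebra ℚ K] : Module.Finite ↥K⟮jGen K M⟯ ↥(keyFq K M) :=

  finite_bc_of_finite (K₀ := ℚ) (F₁ M 1) (jq_mem_F₁ M 1)
    (finrank_F₁_baseChange_eq M 1 ℚ hM).1

end

end Fermat.Agent.W1
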