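/-
W1 — helper9 — [INST1] part 7: **the fields `hRES_baseRing` and `exists_pgi_baseRing` of `W1Api M`
from the decomposition (DEC)** `V₁ = V₀[φ₁]`:

`DecHyp R K M`: every Gauss-integral element `z` of `K · F₁(M)` is `Σ_{n<N} c n · φ₁ⁿ` with
Gauss-integral `c n ∈ K · F₀(M)`, `φ₁ = phiGen K M 1`.

* (RES): the reduction of `z` is `Σ c̃ n · φ̃₁ⁿ ∈ F̃₁`, by the `Γ₀(M)`-(RES) of
  `JA/O1_helper6_BaseInst`;
* (PGI): bounded denominators, by the `Γ₀(M)`-(PGI) of `JA/G1OMEGA_helper5_PGI` — the elements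
  having a denominator `emb y₂`, `y₂ ∈ R((q))` of nonzero reduction with `emb y₂ ∈ K · F₀(M)`, form a
  subring.
-/
import Mathlib
import Fermat.Agent.W1.API_helper7_Class
import Fermat.Agent.JA.O1_helper6_BaseInst
import Fermat.Agent.JA.G1OMEGA_helper5_PGI

set_option autoImplicit false
set_option linter.unusedSectionVars false
set_option linter.style.haveILetI false

open HahnSeries IntermediateField AlgebraicCurve ModularCurve Fermat.Agent.Igusa Polynomial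

open Fermat.Agent.JA

namespace Fermat.Agent.W1

namespace Inst1

section Dec

variable (R : Type*) [CommRing R] [IsDomain R] [IsDiscreteValuationRing R]
  (K : Type*) [Field K] [Algebra R K] [IsFractionRing R K] [Algebra ℚ K]
  (M : ℕ) [NeZero M]

/-- **(DEC)**: `V₁ = V₀[φ₁]` — every Gauss-integral element of `K · F₁(M)` is a polynomial in
`φ₁ = phiGen K M 1` with Gauss-integral coefficients in `K · F₀(M)`. -/
def DecHyp : Prop :=
  ∀ z : LaurentSeries K, z ∈ keyFq K M → z ∈ gaussInt R K →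
    ∃ (N : ℕ) (c : ℕ → LaurentSeries K), (∀ n, c n ∈ keyFq₀ K M) ∧ (∀ n, c n ∈ gaussInt R K) ∧
      z = ∑ n ∈ Finset.range N, c n * phiGen K M 1 ^ n

variable {R K M}

theorem one_ne_zero_zmod (hM : M ≠ 1) : (1 : ZMod M) ≠ 0 := by
  haveI : Nontrivial (ZMod M) := ZMod.nontrivial_iff.mpr hM
  exact one_ne_zero

/-- the reduction of `φ₁`. -/
theorem gaussRed_phiGen (a : ZMod M) :
    gaussRed R K ⟨phiGen K M a, phiGen_mem_gaussInt R K M a⟩ =
      phiGen (IsLocalRing.ResidueField R) M a := by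
  have h : (⟨phiGen K M a, phiGen_mem_gaussInt R K M a⟩ : gaussInt R K) =
      ⟨emb R K (phiGen R M a), emb_mem_gaussInt R K _⟩ := by
    apply Subtype.ext
    show phiGen K M a = emb R K (phiGen R M a)
    rw [emb_phiGen]
  rw [h, gaussRed_emb, red_phiGen]

/-- **(RES) from (DEC)**. -/
theorem hRES_of_dec {k : Type*} [Field k] (σ : IsLocalRing.ResidueField R →+* k) (hM : M ≠ 1)
    (hdec : DecHyp R K M)
    (hres₀ : ∀ (z : LaurentSeries K) (_ : z ∈ keyFq₀ K M) (hzi : z ∈ gaussInt R K),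
      coeffMap σ (gaussRed R K ⟨z, hzi⟩) ∈ modularFunctionFieldFullC k M)
    (z : LaurentSeries K) (hz : z ∈ keyFq K M) (hzi : z ∈ gaussInt R K) :
    coeffMap σ (gaussRed R K ⟨z, hzi⟩) ∈ F₁C k M 1 := by
  obtain ⟨N, c, hc, hci, hzc⟩ := hdec z hz hzi
  have hle : modularFunctionFieldFullC k M ≤ F₁C k M 1 := by
    have h := fullC_le_F₁C k M 1
    rwa [Nat.mul_one] at h
  have hsum : (⟨z, hzi⟩ : gaussInt R K) =
      ∑ n ∈ Finset.range N, (⟨c n, hci n⟩ : gaussInt R K) *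
        (⟨phiGen K M 1, phiGen_mem_gaussInt R K M 1⟩ : gaussInt R K) ^ n := by
    apply Subtype.ext
    rw [AddSubmonoidClass.coe_finsetSum]
    show z = _
    rw [hzc]
    refine Finset.sum_congr rfl fun n _ => ?_
    rw [Subring.coe_mul, Subring.coe_pow]
  rw [hsum, map_sum, map_sum]
  refine sum_mem fun n _ => ?_
  rw [map_mul, map_mul, map_pow, map_pow, gaussRed_phiGen, coeffMap_phiGen]
  exact mul_mem (hle (hres₀ (c n) (hc n) (hci n)))
    (pow_mem (phiGen_mem_F₁C k 1 (one_ne_zero_zmod hM)) n)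

/-- having a denominator in `K · F₀(M)`. -/
def HasDen (u : LaurentSeries K) : Prop :=
  ∃ y y₂ : LaurentSeries R, emb R K y₂ ∈ keyFq₀ K M ∧ red R y₂ ≠ 0 ∧ u * emb R K y₂ = emb R K y

theorem HasDen.add {u v : LaurentSeries K} (hu : HasDen (R := R) (M := M) u)
    (hv : HasDen (R := R) (M := M) v) : HasDen (R := R) (M := M) (u + v) := by
  obtain ⟨y, y₂, h1, h2, h3⟩ := hu
  obtain ⟨y', y₂', h1', h2', h3'⟩ := hv
  refine ⟨y * y₂' + y' * y₂, y₂ * y₂', ?_, ?_, ?_⟩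
  · rw [map_mul]; exact mul_mem h1 h1'
  · rw [map_mul]; exact mul_ne_zero h2 h2'
  · rw [map_add, map_mul, map_mul, map_mul, ← h3, ← h3']; ring

theorem HasDen.mul {u v : LaurentSeries K} (hu : HasDen (R := R) (M := M) u)
    (hv : HasDen (R := R) (M := M) v) : HasDen (R := R) (M := M) (u * v) := by
  obtain ⟨y, y₂, h1, h2, h3⟩ := hu
  obtain ⟨y', y₂', h1', h2', h3'⟩ := hv
  refine ⟨y * y', y₂ * y₂', ?_, ?_, ?_⟩
  · rw [map_mul]; exact mul_mem h1 h1'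
  · rw [map_mul]; exact mul_ne_zero h2 h2'
  · rw [map_mul, map_mul, ← h3, ← h3']; ring

theorem HasDen.emb (y : LaurentSeries R) : HasDen (R := R) (M := M) (emb R K y) :=
  ⟨y, 1, by rw [map_one]; exact one_mem _, by rw [map_one]; exact one_ne_zero,
    by rw [map_one, mul_one]⟩

theorem HasDen.zero : HasDen (R := R) (K := K) (M := M) 0 := by
  have h := HasDen.emb (R := R) (K := K) (M := M) 0
  rwa [map_zero] at h

theorem HasDen.one : HasDen (R := R) (K := K) (M := M) 1 := by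
  have h := HasDen.emb (R := R) (K := K) (M := M) 1
  rwa [map_one] at h

theorem HasDen.pow {u : LaurentSeries K} (hu : HasDen (R := R) (M := M) u) (n : ℕ) :
    HasDen (R := R) (M := M) (u ^ n) := by
  induction n with
  | zero => rw [pow_zero]; exact HasDen.one
  | succ n ih => rw [pow_succ]; exact ih.mul hu

/-- the `Γ₀(M)`-(PGI) statement at the uniformizer `ϖ`. -/
def PgiHyp₀ (ϖ : R) : Prop :=
  ∀ {f : LaurentSeries K}, f ∈ keyFq₀ K M → f ≠ 0 →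
    ∃ (m : ℤ) (y₁ y₂ : LaurentSeries R), emb R K y₁ ∈ keyFq₀ K M ∧ emb R K y₂ ∈ keyFq₀ K M ∧
      red R y₁ ≠ 0 ∧ red R y₂ ≠ 0 ∧
      f = HahnSeries.C (algebraMap R K ϖ) ^ m * emb R K y₁ / emb R K y₂

/-- Gauss-integral elements of `K · F₀(M)` have a denominator. -/
theorem hasDen_of_mem_keyFq₀ {ϖ : R} (hϖ : Irreducible ϖ) (hpgi : PgiHyp₀ (K := K) (M := M) ϖ)
    {c : LaurentSeries K} (hc : c ∈ keyFq₀ K M) (hci : c ∈ gaussInt R K) :
    HasDen (R := R) (M := M) c := by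
  by_cases hc0 : c = 0
  · rw [hc0]; exact HasDen.zero
  obtain ⟨m, a, b, -, hb, ha0, hb0, hcab⟩ := hpgi hc hc0
  have hea := emb_ne_zero_of_red_ne_zero (L := K) ha0
  have heb := emb_ne_zero_of_red_ne_zero (L := K) hb0
  have hu : emb R K a / emb R K b ∈ gaussInt R K := ⟨a, b, hb0, div_mul_cancel₀ _ heb⟩
  have hu' : (emb R K a / emb R K b)⁻¹ ∈ gaussInt R K :=
    ⟨b, a, ha0, by rw [inv_div, div_mul_cancel₀ _ hea]⟩
  have hu0 : emb R K a / emb R K b ≠ 0 := div_ne_zero hea heb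
  have hcab' : c = HahnSeries.C (algebraMap R K ϖ) ^ m * (emb R K a / emb R K b) := by
    rw [hcab, mul_div_assoc]
  have hm : 0 ≤ m := zpow_nonneg_of_mem hϖ hu hu' hu0 (hcab' ▸ hci)
  obtain ⟨k, rfl⟩ := Int.eq_ofNat_of_zero_le hm
  refine ⟨HahnSeries.C ϖ ^ k * a, b, hb, hb0, ?_⟩
  rw [hcab', zpow_natCast, map_mul, map_pow, emb_C, mul_assoc, div_mul_cancel₀ _ heb]

/-- **(PGI) from (DEC)**. -/
theorem exists_pgi_of_dec (hdec : DecHyp R K M) {ϖ : R} (hϖ : Irreducible ϖ)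
    (hpgi : PgiHyp₀ (K := K) (M := M) ϖ) {f : LaurentSeries K} (hf : f ∈ keyFq K M)
    (hf0 : f ≠ 0) :
    ∃ (m : ℤ) (y₁ y₂ : LaurentSeries R), emb R K y₁ ∈ keyFq K M ∧ emb R K y₂ ∈ keyFq K M ∧
      red R y₁ ≠ 0 ∧ red R y₂ ≠ 0 ∧
      f = HahnSeries.C (algebraMap R K ϖ) ^ m * emb R K y₁ / emb R K y₂ := by
  have hFle : keyFq K M ≤ gaussField R K := laurentBaseChange_F₁_le_gaussField R K M 1
  obtain ⟨m, u, hu, hu', hfu⟩ := exists_zpow_mul_unit hϖ (hFle hf) hf0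
  have hC := C_algebraMap_ne_zero (L := K) hϖ.ne_zero
  have hCF : (HahnSeries.C (algebraMap R K ϖ) : LaurentSeries K) ∈ keyFq K M :=
    C_algebraMap_mem (keyFq K M) ϖ
  have huF : u ∈ keyFq K M := by
    have : u = (HahnSeries.C (algebraMap R K ϖ) ^ m)⁻¹ * f := by
      rw [hfu, inv_mul_cancel_left₀ (zpow_ne_zero m hC)]
    rw [this]
    exact (keyFq K M).mul_mem ((keyFq K M).inv_mem (zpow_mem hCF m)) hf
  have hu0 : u ≠ 0 := by
    rintro rfl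
    exact hf0 (by rw [hfu, mul_zero])
  -- the denominator of `u`
  obtain ⟨N, c, hc, hci, huc⟩ := hdec u huF hu
  have hden : HasDen (R := R) (M := M) u := by
    rw [huc]
    refine Finset.sum_induction _ (HasDen (R := R) (M := M)) (fun _ _ => HasDen.add)
      HasDen.zero fun n _ => ?_
    refine (hasDen_of_mem_keyFq₀ hϖ hpgi (hc n) (hci n)).mul (HasDen.pow ?_ n)
    have h := HasDen.emb (R := R) (K := K) (M := M) (phiGen R M 1)
    rwa [emb_phiGen] at h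
  obtain ⟨y, y₂, hy₂, hy₂0, huy⟩ := hden
  have hey₂ := emb_ne_zero_of_red_ne_zero (L := K) hy₂0
  have hy₂F : emb R K y₂ ∈ keyFq K M := keyFq₀_le_keyFq K M hy₂
  have hyF : emb R K y ∈ keyFq K M := by
    rw [← huy]; exact mul_mem huF hy₂F
  refine ⟨m, y, y₂, hyF, hy₂F, ?_, hy₂0, ?_⟩
  · -- `red y = ũ · red y₂ ≠ 0`
    have hunit : IsUnit (⟨u, hu⟩ : gaussInt R K) :=
      IsUnit.of_mul_eq_one ⟨u⁻¹, hu'⟩ (Subtype.ext (mul_inv_cancel₀ hu0))
    have h1 := (isUnit_gaussInt_iff _).1 hunit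
    have h2 : gaussRed R K ⟨u, hu⟩ = red R y / red R y₂ := gaussRed_eq _ y y₂ hy₂0 huy
    intro h0
    apply h1
    rw [h2, h0, zero_div]
  · rw [hfu, mul_div_assoc, ← huy, mul_div_assoc, div_self hey₂, mul_one]

end Dec

/-- `Ω = AlgebraicClosure ℚ`. -/
local notation "Ω" => AlgebraicClosure ℚ

section Base

variable {ℓ : ℕ} [Fact ℓ.Prime] {A : ValuationSubring Ω} (hA : A.LiesOverPrime ℓ)
  (M : ℕ) [NeZero M] {K₁ : IntermediateField ℚ Ω}

include hA in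
/-- the `Γ₀(M)`-(PGI) at a base. -/
theorem pgiHyp₀_baseRing (hℓM : ¬ ℓ ∣ M) (hK₁ : IsBase ℓ K₁)
    [IsDiscreteValuationRing ↥(baseRing A K₁)] {ϖ : ↥(baseRing A K₁)} (hϖ : Irreducible ϖ) :
    PgiHyp₀ (R := ↥(baseRing A K₁)) (K := ↥K₁) (M := M) ϖ := by
  letI : Algebra ↥K₁ ℂ :=
    (((IsAlgClosed.lift : Ω →ₐ[ℚ] ℂ) : Ω →+* ℂ).comp (algebraMap ↥K₁ Ω)).toAlgebra
  haveI : IsScalarTower ℚ ↥K₁ ℂ := IsScalarTower.of_algebraMap_eq' (Subsingleton.elim _ _)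
  intro f hf hf0
  obtain ⟨m, y₁, y₂, h1, h2, h3, h4, -, -, h5⟩ :=
    exists_pgi_of_eq_fullC ↥(baseRing A K₁) ↥K₁ M (keyFq₀ ↥K₁ M)
      (laurentBaseChange_full_eq_fullC ↥K₁ M) (hdeg_baseRing hA M hℓM hK₁.flatBase_le) hϖ hf hf0
  exact ⟨m, y₁, y₂, h1, h2, h3, h4, h5⟩

include hA in
/-- **the field `hRES_baseRing` of `W1Api M` from (DEC)** (literal shape of the class field). -/
theorem hRES_baseRing_of_dec (hM : M ≠ 1) (hℓM : ¬ ℓ ∣ M) (hK₁ : IsBase ℓ K₁)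
    [IsDiscreteValuationRing ↥(baseRing A K₁)] (hdec : DecHyp ↥(baseRing A K₁) ↥K₁ M) :
    ∀ (z : LaurentSeries ↥K₁) (_ : z ∈ keyFq ↥K₁ M)
      (hzi : z ∈ gaussInt ↥(baseRing A K₁) ↥K₁),
      coeffMap (baseResidueMap A K₁) (gaussRed ↥(baseRing A K₁) ↥K₁ ⟨z, hzi⟩) ∈
        F₁C (IsLocalRing.ResidueField ↥A) M 1 :=
  hRES_of_dec (baseResidueMap A K₁) hM hdec (Fermat.Agent.JA.hRES_baseRing hA M hℓM hK₁)

include hA in
/-- **the field `exists_pgi_baseRing` of `W1Api M` from (DEC)** (literal shape of the class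
field). -/
theorem exists_pgi_baseRing_of_dec (hℓM : ¬ ℓ ∣ M) (hK₁ : IsBase ℓ K₁)
    [IsDiscreteValuationRing ↥(baseRing A K₁)] (hdec : DecHyp ↥(baseRing A K₁) ↥K₁ M)
    {ϖ : ↥(baseRing A K₁)} (hϖ : Irreducible ϖ)
    {f : LaurentSeries ↥K₁} (hf : f ∈ keyFq ↥K₁ M) (hf0 : f ≠ 0) :
    ∃ (m : ℤ) (y₁ y₂ : LaurentSeries ↥(baseRing A K₁)),
      emb ↥(baseRing A K₁) ↥K₁ y₁ ∈ keyFq ↥K₁ M ∧ emb ↥(baseRing A K₁) ↥K₁ y₂ ∈ keyFq ↥K₁ M ∧
      red ↥(baseRing A K₁) y₁ ≠ 0 ∧ red ↥(baseRing A K₁) y₂ ≠ 0 ∧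
      f = HahnSeries.C (algebraMap ↥(baseRing A K₁) ↥K₁ ϖ) ^ m *
        emb ↥(baseRing A K₁) ↥K₁ y₁ / emb ↥(baseRing A K₁) ↥K₁ y₂ :=
  exists_pgi_of_dec hdec hϖ (pgiHyp₀_baseRing hA M hℓM hK₁ hϖ) hf hf0

end Base

end Inst1

end Fermat.Agent.W1
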