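/-
W1 = [GRΓ1] (S48), package [RAM1] (helper3), part 3: the four ramification statements in the
LITERAL shapes of the fields `ram0_generic'`, `ram0_zero_dvd`, `ram0_1728_dvd`, `ram0_infty_neg` of
helper7's interface class `W1Api M` (`W1/API_helper7_Class`), for `keyFq L M = L · F₁(M, 1)`,
`jGen L M`, over ANY field `L ⊆ ℂ` (the root of unity hypothesis is not needed), `M ≠ 1`.
-/
import Mathlib
import Fermat.Agent.W1.RAM1_helper3_Main
import Fermat.Agent.W1.API_helper7_Class

set_option autoImplicit false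
set_option linter.unusedSectionVars false
set_option linter.style.haveILetI false

open Polynomial AlgebraicCurve IntermediateField ModularCurve

namespace Fermat.Agent.W1

section

variable (M : ℕ) [NeZero M] (hM : M ≠ 1) {L : Type} [Field L] [Algebra ℚ L] [Algebra L ℂ]

theorem jGen_eq_jK : jGen L M = jK L M 1 := rfl

include hM

/-- (RAM0.i) for `W1Api`. -/
theorem w1_ram0_generic' (P : Place L ↥(keyFq L M)) (p : L[X]) (hp : Irreducible p)
    (hmon : p.Monic) (hX : p ≠ X) (h1728 : p ≠ X - Polynomial.C 1728)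
    (hP : 0 < P.ord (aeval (jGen L M) p)) : P.ord (aeval (jGen L M) p) = 1 := by
  haveI : IsScalarTower ℚ L ℂ := IsScalarTower.of_algebraMap_eq' (Subsingleton.elim _ _)
  have key : ∀ a : L, p.eval a = 0 → p = X - Polynomial.C a := by
    intro a ha
    have hdeg : p.degree = 1 := degree_eq_one_of_irreducible_of_root hp ha
    have h1 := eq_X_add_C_of_degree_eq_one hdeg
    rw [hmon.leadingCoeff, Polynomial.C_1, one_mul] at h1
    have h2 : a + p.coeff 0 = 0 := by
      have := ha
      rw [h1, eval_add, eval_X, eval_C] at this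
      exact this
    rw [h1, sub_eq_add_neg, ← Polynomial.C_neg]
    congr 2
    linear_combination h2
  refine ram1_generic M 1 hM P p hp (fun h0 => hX ?_) (fun h1 => h1728 (key 1728 h1)) hP
  have := key 0 h0
  rwa [Polynomial.C_0, sub_zero] at this

/-- (RAM0.ii) for `W1Api`. -/
theorem w1_ram0_zero_dvd (P : Place L ↥(keyFq L M)) (hP : 0 < P.ord (jGen L M)) :
    P.ord (jGen L M) ∣ 3 := by
  haveI : IsScalarTower ℚ L ℂ := IsScalarTower.of_algebraMap_eq' (Subsingleton.elim _ _)
  exact ram1_zero_dvd M 1 hM P hP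

/-- (RAM0.iii) for `W1Api`. -/
theorem w1_ram0_1728_dvd (P : Place L ↥(keyFq L M)) (hP : 0 < P.ord (jGen L M - 1728)) :
    P.ord (jGen L M - 1728) ∣ 2 := by
  haveI : IsScalarTower ℚ L ℂ := IsScalarTower.of_algebraMap_eq' (Subsingleton.elim _ _)
  exact ram1_1728_dvd M 1 hM P hP

/-- (RAM0.iv) for `W1Api`. -/
theorem w1_ram0_infty_neg (P : Place L ↥(keyFq L M)) (hP : P.ord (jGen L M) < 0) :
    (-P.ord (jGen L M)) ∣ (M : ℤ) := by
  haveI : IsScalarTower ℚ L ℂ := IsScalarTower.of_algebraMap_eq' (Subsingleton.elim _ _)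
  have := ram1_infty_dvd M 1 hM P hP
  rwa [mul_one] at this

end

end Fermat.Agent.W1
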