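/-
W1 — helper9 — [INST1] part 8: **assembly of the interface class `W1Api M`** from the two remaining
inputs of the tower step `F₀(M) ⊂ F₁(M)`:

* `Inst1.UnrHyp M`: the Gauss place of `K₁(j(x^w))` is unramified in the host image of `K₁ · F₁(M)`
  (the literal of the class field `unr_hostImage_baseRing_of_isGaussAt`);
* `Inst1.DecAll M`: (DEC) `V₁ = V₀[φ₁]` at every base (`Inst1.DecHyp` of `W1/INST1_helper9_Res`).

All the other fields are landed: `finite_keyFq` (`W1/INST1_helper9_Finite`), `ram0_*`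
(`W1/RAM1_helper3_Api`), `hmemW_baseRing` (`W1/INST1_helper9_HmemW`), `hLIFT_baseRing`
(`W1/INST1_helper9_Lift`), `hRES_baseRing`/`exists_pgi_baseRing` (`W1/INST1_helper9_Res`),
the two residue-field statements (`W1/INST_helper3_Residue`).
-/
import Mathlib
import Fermat.Agent.W1.INST1_helper9_Finite
import Fermat.Agent.W1.INST1_helper9_HmemW
import Fermat.Agent.W1.INST1_helper9_Lift
import Fermat.Agent.W1.INST1_helper9_Res
import Fermat.Agent.W1.INST_helper3_Residue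
import Fermat.Agent.W1.RAM1_helper3_Api

set_option autoImplicit false
set_option linter.unusedSectionVars false
set_option linter.style.haveILetI false

open HahnSeries IntermediateField AlgebraicCurve ModularCurve Fermat.Agent.Igusa Polynomial

open Fermat.Agent.JA

namespace Fermat.Agent.W1

open scoped Fermat.Agent.JA.Host

/-- `Ω = AlgebraicClosure ℚ`. -/
local notation "Ω" => AlgebraicClosure ℚ

namespace Inst1

/-- the literal of the class field `unr_hostImage_baseRing_of_isGaussAt`. -/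
def UnrHyp (M : ℕ) : Prop :=
  ∀ {ℓ : ℕ} [Fact ℓ.Prime] {A : ValuationSubring Ω},
    A.LiesOverPrime ℓ → ¬ ℓ ∣ M → ∀ (w : ℕ) [NeZero w] {K₁ : IntermediateField ℚ Ω}, IsBase ℓ K₁ →
    ∀ [IsDiscreteValuationRing ↥(baseRing A K₁)]
      [Fact ((↥K₁)⟮jqNModC ↥K₁ w⟯ ≤ hostImage ↥K₁ w (keyFq ↥K₁ M))]
      {π : ↥(baseRing A K₁)}, Irreducible π →
      ∀ 𝒢 : ValuationSubring ↥((↥K₁)⟮jqNModC ↥K₁ w⟯),
        IsGaussAt ↥(baseRing A K₁) π (AdjoinSimple.gen ↥K₁ (jqNModC ↥K₁ w)) 𝒢 →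
        Unr 𝒢 ↥(hostImage ↥K₁ w (keyFq ↥K₁ M))

/-- (DEC) at every base. -/
def DecAll (M : ℕ) [NeZero M] : Prop :=
  ∀ {ℓ : ℕ} [Fact ℓ.Prime] {A : ValuationSubring Ω}, A.LiesOverPrime ℓ → ¬ ℓ ∣ M →
    ∀ {K₁ : IntermediateField ℚ Ω}, IsBase ℓ K₁ →
    ∀ [IsDiscreteValuationRing ↥(baseRing A K₁)], DecHyp ↥(baseRing A K₁) ↥K₁ M

end Inst1

/-- **the preliminary interface from (Unr)**. -/
theorem w1Pre_of_unr (M : ℕ) [NeZero M] (hM : M ≠ 1) (hunr : Inst1.UnrHyp M) : W1Pre M where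
  finite_keyFq := fun K _ _ => finite_keyFq_of_ne_one M hM K
  ram0_generic' := fun _ P p hp hmon hX h1728 hP => w1_ram0_generic' M hM P p hp hmon hX h1728 hP
  ram0_zero_dvd := fun _ P hP => w1_ram0_zero_dvd M hM P hP
  ram0_1728_dvd := fun _ P hP => w1_ram0_1728_dvd M hM P hP
  ram0_infty_neg := fun _ P hP => w1_ram0_infty_neg M hM P hP
  unr_hostImage_baseRing_of_isGaussAt := fun hA hℓM w _ _ hK₁ _ _ _ hπ 𝒢 h𝒢 =>
    hunr hA hℓM w hK₁ hπ 𝒢 h𝒢

/-- **the interface class `W1Api M`** from the preliminary interface and (DEC). -/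
theorem w1Api_of_pre_of_dec (M : ℕ) [NeZero M] (hM : M ≠ 1) (h : W1Pre M)
    (hdec : Inst1.DecAll M) : W1Api M where
  finite_keyFq := h.finite_keyFq
  ram0_generic' := h.ram0_generic'
  ram0_zero_dvd := h.ram0_zero_dvd
  ram0_1728_dvd := h.ram0_1728_dvd
  ram0_infty_neg := h.ram0_infty_neg
  hmemW_baseRing := fun hA hℓM _ hK₁ _ W hW z hz => hmemW_baseRing_of_pre hA M h hℓM hK₁ W hW z hz
  hRES_baseRing := fun hA hℓM _ hK₁ _ =>
    Inst1.hRES_baseRing_of_dec hA M hM hℓM hK₁ (hdec hA hℓM hK₁)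
  hLIFT_baseRing := fun hA _ _ hK₁ _ => Inst1.hLIFT_baseRing_uncond hA M hK₁
  exists_pgi_baseRing := fun hA hℓM _ hK₁ _ _ hϖ _ hf hf0 =>
    Inst1.exists_pgi_baseRing_of_dec hA M hℓM hK₁ (hdec hA hℓM hK₁) hϖ hf hf0
  unr_hostImage_baseRing_of_isGaussAt := h.unr_hostImage_baseRing_of_isGaussAt
  finiteDimensional_F₁C_residueField := fun hA hℓM =>
    w1_finiteDimensional_F₁C_residueField M hA hℓM
  isSeparable_F₁C_residueField := fun hA hℓM => w1_isSeparable_F₁C_residueField M hA hℓM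

/-- **the interface class `W1Api M`** from (Unr) and (DEC). -/
theorem w1Api_of_unr_of_dec (M : ℕ) [NeZero M] (hM : M ≠ 1) (hunr : Inst1.UnrHyp M)
    (hdec : Inst1.DecAll M) : W1Api M :=
  w1Api_of_pre_of_dec M hM (w1Pre_of_unr M hM hunr) hdec

end Fermat.Agent.W1
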