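/-
W1 — helper8 — [INST1] assembly, final form: **`W1Api M` from (Unr) alone** (`M ≠ 1`): helper9's
`w1Pre_of_unr` (`W1/INST1_helper9_Assemble`) + `Inst1.w1Api_of_pre` (`W1/INST1_helper8_Api`, which
contains (DEC)).  Also (DEC) at every base, in helper9's `Inst1.DecAll` form.
-/
import Mathlib
import Fermat.Agent.W1.INST1_helper8_Api
import Fermat.Agent.W1.INST1_helper9_Assemble

set_option autoImplicit false
set_option linter.unusedSectionVars false
set_option linter.style.haveILetI false

open HahnSeries IntermediateField AlgebraicCurve ModularCurve Fermat.Agent.Igusa Polynomial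

open Fermat.Agent.JA

namespace Fermat.Agent.W1

open scoped Fermat.Agent.JA.Host

namespace Inst1

/-- **(DEC) at every base from the preliminary interface.** -/
theorem decAll_of_pre (M : ℕ) [NeZero M] (hM : M ≠ 1) (h : W1Pre M) : DecAll M :=
  fun hA hℓM _ hK₁ _ => decHyp_baseRing hA M h hM hℓM hK₁

/-- **(DEC) at every base from (Unr).** -/
theorem decAll_of_unr (M : ℕ) [NeZero M] (hM : M ≠ 1) (hunr : UnrHyp M) : DecAll M :=
  decAll_of_pre M hM (w1Pre_of_unr M hM hunr)

/-- **the interface class `W1Api M` from (Unr) alone.** -/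
theorem w1Api_of_unr (M : ℕ) [NeZero M] (hM : M ≠ 1) (hunr : UnrHyp M) : W1Api M :=
  w1Api_of_pre M hM (w1Pre_of_unr M hM hunr)

end Inst1

end Fermat.Agent.W1
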