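/-
W1 = [GRΓ1] (S48), the INSTANCE of `W1Api M` (helper2), part 1: **the étale step at a base**:
the Gauss place of `K₁(j(x^w))` is unramified in the host image of `K₁ · F₁(M)`
(field `unr_hostImage_baseRing_of_isGaussAt` of `W1Api`), from the same statement for
`K₁ · F₀(M)` (`JA/G1_helper5_UnrHost`, level `N = M * 1`), helper7's abstract étale step
(`W1/ETALE_helper7_Step`) and helper9's Galois structure of `K₁F₁ / K₁F₀`
(`W1/DEG1_helper9_Galois`): the conjugates `φ_d` of `φ_1` have `R₁`-integral `q`-expansions and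
their differences are units of `R₁((q))`.
-/
import Mathlib
import Fermat.Agent.W1.ETALE_helper7_Step
import Fermat.Agent.W1.DEG1_helper9_Galois
import Fermat.Agent.W1.BASE_helper7_Field
import Fermat.Agent.W1.SER_helper7_Phi
import Fermat.Agent.JA.O1_helper6_BaseInst
import Fermat.Agent.JA.KEYBASE_helper8_Int
import Fermat.Agent.JA.G1_helper5_UnrHost

set_option autoImplicit false
set_option linter.unusedSectionVars false
set_option linter.style.haveILetI false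

open HahnSeries IntermediateField AlgebraicCurve ModularCurve Polynomial Fermat.Agent.Igusa
  Fermat.Agent.JA

namespace Fermat.Agent.W1.Inst

open Fermat.Agent.W1 Fermat.Agent.X0N
open scoped MatrixGroups

noncomputable section

/-! ### a root of a monic polynomial with integral coefficients is integral -/

theorem isIntegral_of_monic_root {R B : Type*} [CommRing R] [CommRing B] [Algebra R B]
    (Q : B[X]) (hQ : Q.Monic) (hc : ∀ n, IsIntegral R (Q.coeff n)) {x : B}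
    (hx : Q.eval x = 0) : IsIntegral R x := by
  have hl : Q ∈ Polynomial.lifts (integralClosure R B).val.toRingHom := by
    rw [Polynomial.lifts_iff_coeff_lifts]
    intro n
    exact ⟨⟨Q.coeff n, hc n⟩, rfl⟩
  obtain ⟨Q₀, hQ₀, -, hmon⟩ := Polynomial.lifts_and_natDegree_eq_and_monic hl hQ
  have h1 : IsIntegral ↥(integralClosure R B) x := by
    refine ⟨Q₀, hmon, ?_⟩
    have : Q₀.eval₂ (algebraMap ↥(integralClosure R B) B) x = (Q₀.map (integralClosure R B).val.toRingHom).eval x := by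
      rw [Polynomial.eval_map]
      rfl
    rw [this, hQ₀, hx]
  exact isIntegral_trans x h1


/-! ### generalities on `diffProd` -/

section DiffProd

variable {F F' : Type*} [Field F] [Field F'] {ι : Type*} [Fintype ι] [DecidableEq ι]

theorem diffProd_eq_prod_ite (r : ι → F) :
    diffProd r = ∏ i, ∏ j, if i = j then 1 else (r i - r j) := by
  unfold diffProd
  refine Finset.prod_congr rfl fun i _ => ?_
  rw [← Finset.prod_erase_mul _ _ (Finset.mem_univ i), if_pos rfl, mul_one]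
  refine Finset.prod_congr rfl fun j hj => ?_
  rw [if_neg (Finset.ne_of_mem_erase hj).symm]

theorem diffProd_comp_equiv (r : ι → F) (e : ι ≃ ι) : diffProd (fun i => r (e i)) = diffProd r := by
  rw [diffProd_eq_prod_ite, diffProd_eq_prod_ite]
  rw [← Equiv.prod_comp e (fun i => ∏ j, if i = j then 1 else (r i - r j))]
  refine Finset.prod_congr rfl fun i _ => ?_
  rw [← Equiv.prod_comp e (fun j => if e i = j then 1 else (r (e i) - r j))]
  refine Finset.prod_congr rfl fun j _ => ?_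
  by_cases h : i = j
  · rw [if_pos h, if_pos (congrArg e h)]
  · rw [if_neg h, if_neg (fun h' => h (e.injective h'))]

theorem map_diffProd (f : F →+* F') (r : ι → F) : f (diffProd r) = diffProd (fun i => f (r i)) := by
  unfold diffProd
  rw [map_prod]
  refine Finset.prod_congr rfl fun i _ => ?_
  rw [map_prod]
  refine Finset.prod_congr rfl fun j _ => ?_
  rw [map_sub]

theorem diffProd_ne_zero {r : ι → F} (hr : Function.Injective r) : diffProd r ≠ 0 := by
  unfold diffProd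
  refine Finset.prod_ne_zero_iff.mpr fun i _ => Finset.prod_ne_zero_iff.mpr fun j hj => ?_
  exact sub_ne_zero.mpr fun h => (Finset.ne_of_mem_erase hj).symm (hr h)

/-- the inverse of `diffProd` lies in every subring containing the inverses of the
differences. -/
theorem inv_diffProd_mem {A : Type*} [Field A] (S : Subring A) (r : ι → A)
    (h : ∀ i j, i ≠ j → (r i - r j)⁻¹ ∈ S) : (diffProd r)⁻¹ ∈ S := by
  unfold diffProd
  rw [← Finset.prod_inv_distrib]
  refine Subring.prod_mem _ fun i _ => ?_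
  rw [← Finset.prod_inv_distrib]
  exact Subring.prod_mem _ fun j hj => h i j (Finset.ne_of_mem_erase hj).symm

end DiffProd

/-! ### the `q`-expansions of the conjugates `φ_d` -/

section Series

variable (R : Type*) [CommRing R] [IsDomain R] [IsDiscreteValuationRing R]
  (L : Type*) [Field L] [Algebra R L] [IsFractionRing R L] [Algebra ℚ L]
  (M : ℕ) [NeZero M]

theorem coe_phiBarA_eq_emb {a : ZMod M} (ha : a ≠ 0) :
    ((phiBarA (k := L) M 1 a : ↥(laurentBaseChange L (F₁ M 1))) : LaurentSeries L) =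
      emb R L (phiGen R M a) := by
  rw [coe_phiBarA_of_ne M 1 ha, qExpand_one_apply]
  show coeffMap (algebraMap ℚ L) (phiGen ℚ M a) = coeffMap (algebraMap R L) (phiGen R M a)
  rw [coeffMap_phiGen, coeffMap_phiGen]

theorem coe_phiQ_mem_gaussInt (hM : M ≠ 1) (i : DiaGrp M) :
    ((phiQ (k := L) M 1 i : ↥(laurentBaseChange L (F₁ M 1))) : LaurentSeries L) ∈
      gaussInt R L := by
  have : Nontrivial (ZMod M) := ZMod.nontrivial_iff.mpr hM
  induction i using QuotientGroup.induction_on with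
  | H u =>
    rw [phiQ_mk, coe_phiBarA_eq_emb R L M (Units.ne_zero u)]
    exact emb_mem_gaussInt R L _

theorem inv_coe_phiQ_sub_mem_gaussInt (hM : M ≠ 1) {i j : DiaGrp M} (hij : i ≠ j) :
    (((phiQ (k := L) M 1 i : ↥(laurentBaseChange L (F₁ M 1))) : LaurentSeries L) -
      ((phiQ (k := L) M 1 j : ↥(laurentBaseChange L (F₁ M 1))) : LaurentSeries L))⁻¹ ∈
      gaussInt R L := by
  have : Nontrivial (ZMod M) := ZMod.nontrivial_iff.mpr hM
  induction i using QuotientGroup.induction_on with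
  | H u =>
    induction j using QuotientGroup.induction_on with
    | H v =>
      have huv : ¬ (u = v ∨ u = -v) := fun h => hij ((diaGrp_mk_eq_iff u v).mpr h)
      rw [not_or] at huv
      have h1 : (u : ZMod M) ≠ (v : ZMod M) := fun h => huv.1 (Units.ext h)
      have h2 : (u : ZMod M) ≠ -(v : ZMod M) := fun h =>
        huv.2 (Units.ext (by rw [h, Units.val_neg]))
      obtain ⟨y, hy⟩ := (isUnit_phiGen_sub (R := R) (M := M) (Units.ne_zero u) (Units.ne_zero v)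
        h1 h2).exists_right_inv
      rw [phiQ_mk, phiQ_mk, coe_phiBarA_eq_emb R L M (Units.ne_zero u),
        coe_phiBarA_eq_emb R L M (Units.ne_zero v), ← map_sub]
      have h3 : emb R L (phiGen R M (u : ZMod M) - phiGen R M (v : ZMod M)) * emb R L y = 1 := by
        rw [← map_mul, hy, map_one]
      rw [inv_eq_of_mul_eq_one_right h3]
      exact emb_mem_gaussInt R L _

end Series

/-! ### the étale step for `k·F₀(M) ⊂ k·F₁(M)` with a twisted base -/

section Twisted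

variable {k : Type*} [Field k] [Algebra ℚ k] [Algebra k ℂ] [IsScalarTower ℚ k ℂ]
  (M : ℕ) [NeZero M]

attribute [local instance] fullAlgebra

/-- the coefficients of `∏ (X - φ_d)` lie in every subring containing the `φ_d`. -/
theorem coeff_phiPoly_mem (S : Subring (LaurentSeries k))
    (hS : ∀ i : DiaGrp M, ((phiQ (k := k) M 1 i : ↥(laurentBaseChange k (F₁ M 1))) :
      LaurentSeries k) ∈ S) (n : ℕ) :
    (((∏ i : DiaGrp M, (X - Polynomial.C (phiQ (k := k) M 1 i))).coeff n :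
      ↥(laurentBaseChange k (F₁ M 1))) : LaurentSeries k) ∈ S := by
  classical
  set T : Subring ↥(laurentBaseChange k (F₁ M 1)) :=
    S.comap (laurentBaseChange k (F₁ M 1)).val.toRingHom with hT
  have h1 : CoeffIn T (∏ i : DiaGrp M, (X - Polynomial.C (phiQ (k := k) M 1 i))) :=
    CoeffIn.prod _ _ fun i _ => CoeffIn.X.sub (CoeffIn.C (hS i))
  exact h1 n

/-- **the étale step** for `k·F₀(M) ⊂ k·F₁(M)` over a base field `K` acting through
`ρ₀ : K → k·F₀(M)`. -/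
theorem unr_F₁_of_unr_full {K : Type*} [Field K] (𝒢 : ValuationSubring K)
    (ρ₀ : K →+* ↥(laurentBaseChange k (modularFunctionFieldFull (M * 1))))
    (S : Subring (LaurentSeries k))
    (hS : ∀ i : DiaGrp M, ((phiQ (k := k) M 1 i : ↥(laurentBaseChange k (F₁ M 1))) :
      LaurentSeries k) ∈ S)
    (hSinv : ∀ i j : DiaGrp M, i ≠ j →
      (((phiQ (k := k) M 1 i : ↥(laurentBaseChange k (F₁ M 1))) : LaurentSeries k) -
        ((phiQ (k := k) M 1 j : ↥(laurentBaseChange k (F₁ M 1))) : LaurentSeries k))⁻¹ ∈ S)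
    (hint : letI := ρ₀.toAlgebra
      ∀ z : ↥(laurentBaseChange k (modularFunctionFieldFull (M * 1))),
        (z : LaurentSeries k) ∈ S → IsIntegral ↥𝒢 z)
    (h₀ : letI := ρ₀.toAlgebra
      Unr 𝒢 ↥(laurentBaseChange k (modularFunctionFieldFull (M * 1))))
    (hM : M ≠ 1) :
    letI := ((fullIncl (k := k) M 1).toRingHom.comp ρ₀).toAlgebra
    Unr 𝒢 ↥(laurentBaseChange k (F₁ M 1)) := by
  classical
  letI alg0 : Algebra K ↥(laurentBaseChange k (modularFunctionFieldFull (M * 1))) := ρ₀.toAlgebra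
  letI alg1 : Algebra K ↥(laurentBaseChange k (F₁ M 1)) :=
    ((fullIncl (k := k) M 1).toRingHom.comp ρ₀).toAlgebra
  haveI tow : IsScalarTower K ↥(laurentBaseChange k (modularFunctionFieldFull (M * 1)))
      ↥(laurentBaseChange k (F₁ M 1)) := IsScalarTower.of_algebraMap_eq fun _ => rfl
  obtain ⟨P, hP⟩ := exists_phiPoly_eq_map_algebraMap (k := k) M 1
  -- the coefficients of `P` are integral over `𝒢`
  have hPc' : ∀ n, ((P.coeff n : ↥(laurentBaseChange k (modularFunctionFieldFull (M * 1)))) :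
      LaurentSeries k) ∈ S := by
    intro n
    have h1 := coeff_phiPoly_mem M S hS n
    have h2 := congrArg (fun Q => Polynomial.coeff Q n) hP
    simp only [coeff_map] at h2
    have h3 : ((algebraMap ↥(laurentBaseChange k (modularFunctionFieldFull (M * 1)))
        ↥(laurentBaseChange k (F₁ M 1)) (P.coeff n) : ↥(laurentBaseChange k (F₁ M 1))) :
        LaurentSeries k) ∈ S := by
      rw [h2]
      exact h1
    rw [algebraMap_full_eq, coe_fullIncl] at h3
    exact h3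
  have hPc : ∀ n, IsIntegral ↥𝒢 (P.coeff n) := fun n => hint _ (hPc' n)
  have hPmonic : (P.map (algebraMap ↥(laurentBaseChange k (modularFunctionFieldFull (M * 1)))
      ↥(laurentBaseChange k (F₁ M 1)))).Monic := by
    rw [hP]
    exact monic_prod_of_monic _ _ fun i _ => monic_X_sub_C _
  -- the conjugates are integral
  have hr : ∀ i : DiaGrp M, IsIntegral ↥𝒢 (phiQ (k := k) M 1 i) := by
    intro i
    refine isIntegral_of_monic_root _ hPmonic (fun n => ?_) ?_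
    · rw [coeff_map]
      exact (hPc n).map (IsScalarTower.toAlgHom ↥𝒢
        ↥(laurentBaseChange k (modularFunctionFieldFull (M * 1))) ↥(laurentBaseChange k (F₁ M 1)))
    · rw [hP, eval_prod]
      exact Finset.prod_eq_zero (Finset.mem_univ i) (by rw [eval_sub, eval_X, eval_C, sub_self])
  -- the product of the differences
  have hD0 : diffProd (phiQ (k := k) M 1) ≠ 0 := diffProd_ne_zero (phiQ_injective M 1 hM)
  have hfix : ∀ (σ : SL(2, ℤ)) (hσ : σ ∈ CongruenceSubgroup.Gamma0 (M * 1)),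
      diaHom (algebraMap k ℂ) hσ (diffProd (phiQ (k := k) M 1)) = diffProd (phiQ (k := k) M 1) := by
    intro σ hσ
    rw [map_diffProd]
    simp only [diaHom_phiQ]
    exact diffProd_comp_equiv (phiQ (k := k) M 1)
      (Equiv.mulRight (QuotientGroup.mk (unitOf (mem_Gamma0_of_mem_Gamma0_mul hσ)) : DiaGrp M))
  obtain ⟨y, hy⟩ := exists_fullIncl_eq_of_fixed M 1 _ hfix
  have hyS : ((y⁻¹ : ↥(laurentBaseChange k (modularFunctionFieldFull (M * 1)))) :
      LaurentSeries k) ∈ S := by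
    have h1 : ((y : ↥(laurentBaseChange k (modularFunctionFieldFull (M * 1)))) :
        LaurentSeries k) = diffProd (fun i : DiaGrp M =>
          ((phiQ (k := k) M 1 i : ↥(laurentBaseChange k (F₁ M 1))) : LaurentSeries k)) := by
      rw [← coe_fullIncl M 1 y, hy]
      exact map_diffProd (laurentBaseChange k (F₁ M 1)).val.toRingHom (phiQ (k := k) M 1)
    rw [IntermediateField.coe_inv, h1]
    exact inv_diffProd_mem S _ hSinv
  have hDinv : IsIntegral ↥𝒢 (diffProd (phiQ (k := k) M 1))⁻¹ := by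
    have h1 : IsIntegral ↥𝒢 (y⁻¹ : ↥(laurentBaseChange k (modularFunctionFieldFull (M * 1)))) :=
      hint _ hyS
    have h2 := h1.map (IsScalarTower.toAlgHom ↥𝒢
        ↥(laurentBaseChange k (modularFunctionFieldFull (M * 1))) ↥(laurentBaseChange k (F₁ M 1)))
    have h3 : (IsScalarTower.toAlgHom ↥𝒢
        ↥(laurentBaseChange k (modularFunctionFieldFull (M * 1))) ↥(laurentBaseChange k (F₁ M 1)))
        (y⁻¹) = (diffProd (phiQ (k := k) M 1))⁻¹ := by
      rw [IsScalarTower.coe_toAlgHom', map_inv₀, algebraMap_full_eq, hy]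
    rw [h3] at h2
    exact h2
  exact unr_of_unr_of_conjugates (𝒱 := 𝒢) (r := phiQ (k := k) M 1) 1 (diaQ (k := k) M 1) P h₀ hr
    hD0 hDinv (diaQ_phiQ_one M 1) hP (adjoin_phiQ_one_eq_top M 1 hM)

end Twisted

/-! ### the field `unr_hostImage_baseRing_of_isGaussAt` of `W1Api` -/

section Base

open scoped Fermat.Agent.JA.Host

/-- `Ω = AlgebraicClosure ℚ`. -/
local notation "Ω" => AlgebraicClosure ℚ

variable {ℓ : ℕ} [Fact ℓ.Prime] {A : ValuationSubring Ω} (hA : A.LiesOverPrime ℓ)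
  (M : ℕ) [NeZero M] (w : ℕ) [NeZero w] {K₁ : IntermediateField ℚ Ω}

set_option maxHeartbeats 1600000 in
set_option synthInstance.maxHeartbeats 400000 in
include hA in
/-- **(R-b) in the host at a base, for `X₁(M)`**: the Gauss place of `K₁(j(x^w))` is unramified in
the image of `K₁ · F₁(M)` in `K₁((x))`, `q = x^w`. -/
theorem unr_hostImage_F₁_baseRing_of_isGaussAt (hM : M ≠ 1) (hℓM : ¬ ℓ ∣ M) (hK₁ : IsBase ℓ K₁)
    [IsDiscreteValuationRing ↥(baseRing A K₁)]
    [hle : Fact ((↥K₁)⟮jqNModC ↥K₁ w⟯ ≤ hostImage ↥K₁ w (keyFq ↥K₁ M))]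
    {π : ↥(baseRing A K₁)} (hπ : Irreducible π)
    (𝒢 : ValuationSubring ↥((↥K₁)⟮jqNModC ↥K₁ w⟯))
    (h𝒢 : IsGaussAt ↥(baseRing A K₁) π (AdjoinSimple.gen ↥K₁ (jqNModC ↥K₁ w)) 𝒢) :
    Unr 𝒢 ↥(hostImage ↥K₁ w (keyFq ↥K₁ M)) := by
  letI : Algebra ↥K₁ ℂ :=
    (((IsAlgClosed.lift : Ω →ₐ[ℚ] ℂ) : Ω →+* ℂ).comp (algebraMap ↥K₁ Ω)).toAlgebra
  haveI : IsScalarTower ℚ ↥K₁ ℂ := IsScalarTower.of_algebraMap_eq' (Subsingleton.elim _ _)
  have hℓN : ¬ ℓ ∣ M * 1 := by rwa [Nat.mul_one]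
  haveI : Module.Finite ↥(↥K₁)⟮jqNModC ↥K₁ w⟯ ↥(JA.keyFw ↥K₁ (M * 1) w) :=
    JA.finite_keyFw_base hA (M * 1) w
  set Fq₀ : IntermediateField ↥K₁ (LaurentSeries ↥K₁) := JA.keyFq ↥K₁ (M * 1) with hFq₀
  set Fw₀ : IntermediateField ↥K₁ (LaurentSeries ↥K₁) := JA.keyFw ↥K₁ (M * 1) w with hFw₀
  set e₀ : ↥Fq₀ ≃ₐ[↥K₁] ↥Fw₀ := hostImageEquiv ↥K₁ w Fq₀ with he₀
  -- the twisted algebra structure `K₁(j_w) → K₁F₀`
  let ρ₀ : ↥(↥K₁)⟮jqNModC ↥K₁ w⟯ →+* ↥Fq₀ :=
    (e₀.symm : ↥Fw₀ →+* ↥Fq₀).comp (algebraMap ↥(↥K₁)⟮jqNModC ↥K₁ w⟯ ↥Fw₀)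
  -- the Γ₀-inputs
  have hunr₀ : Unr 𝒢 ↥Fw₀ :=
    JA.unr_hostImage_baseRing_of_isGaussAt hA (M * 1) w hℓN hK₁.flatBase_le hπ 𝒢 h𝒢
  have hint₀ : ∀ z : ↥Fq₀, (z : LaurentSeries ↥K₁) ∈ gaussInt ↥(baseRing A K₁) ↥K₁ →
      IsIntegral ↥𝒢 (e₀ z) := fun z hz =>
    JA.isIntegral_hostImageEquiv_of_mem_gaussInt (baseRing A K₁) (M * 1) w hπ
      (JA.hFq_baseRing (M * 1)) (JA.hmemW_baseRing hA (M * 1) hℓN hK₁) 𝒢 h𝒢 z hz
  letI algρ : Algebra ↥(↥K₁)⟮jqNModC ↥K₁ w⟯ ↥Fq₀ := ρ₀.toAlgebra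
  let eK₀ : ↥Fq₀ ≃ₐ[↥(↥K₁)⟮jqNModC ↥K₁ w⟯] ↥Fw₀ :=
    { (e₀ : ↥Fq₀ ≃+* ↥Fw₀) with commutes' := fun r => e₀.apply_symm_apply _ }
  have h₀ : Unr 𝒢 ↥Fq₀ := JA.unr_of_algEquiv 𝒢 eK₀.symm hunr₀
  have hint : ∀ z : ↥Fq₀, (z : LaurentSeries ↥K₁) ∈ gaussInt ↥(baseRing A K₁) ↥K₁ →
      IsIntegral ↥𝒢 z := by
    intro z hz
    have h1 := hint₀ z hz
    have hcomp : (algebraMap ↥𝒢 ↥Fq₀).comp (RingHom.id ↥𝒢) =
        (eK₀.symm : ↥Fw₀ →+* ↥Fq₀).comp (algebraMap ↥𝒢 ↥Fw₀) := by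
      refine RingHom.ext fun a => ?_
      exact (eK₀.symm.commutes (a : ↥(↥K₁)⟮jqNModC ↥K₁ w⟯)).symm
    have h2 := IsIntegral.map_of_comp_eq (RingHom.id ↥𝒢) (eK₀.symm : ↥Fw₀ →+* ↥Fq₀) hcomp h1
    have h3 : (eK₀.symm : ↥Fw₀ →+* ↥Fq₀) (e₀ z) = z := e₀.symm_apply_apply z
    rw [h3] at h2
    exact h2
  have hmain := unr_F₁_of_unr_full (k := ↥K₁) M 𝒢 ρ₀ (gaussInt ↥(baseRing A K₁) ↥K₁)
    (coe_phiQ_mem_gaussInt ↥(baseRing A K₁) ↥K₁ M hM)
    (fun i j hij => inv_coe_phiQ_sub_mem_gaussInt ↥(baseRing A K₁) ↥K₁ M hM hij) hint h₀ hM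
  -- transport to the host
  letI alg1 : Algebra ↥(↥K₁)⟮jqNModC ↥K₁ w⟯ ↥(keyFq ↥K₁ M) :=
    ((fullIncl (k := ↥K₁) M 1).toRingHom.comp ρ₀).toAlgebra
  set e₁ : ↥(keyFq ↥K₁ M) ≃ₐ[↥K₁] ↥(hostImage ↥K₁ w (keyFq ↥K₁ M)) :=
    hostImageEquiv ↥K₁ w (keyFq ↥K₁ M) with he₁
  let eK₁ : ↥(keyFq ↥K₁ M) ≃ₐ[↥(↥K₁)⟮jqNModC ↥K₁ w⟯] ↥(hostImage ↥K₁ w (keyFq ↥K₁ M)) :=
    { (e₁ : ↥(keyFq ↥K₁ M) ≃+* ↥(hostImage ↥K₁ w (keyFq ↥K₁ M))) with
      commutes' := fun r => by
        apply Subtype.ext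
        show ((e₁ (fullIncl (k := ↥K₁) M 1 (ρ₀ r)) : ↥(hostImage ↥K₁ w (keyFq ↥K₁ M))) :
          LaurentSeries ↥K₁) = ((r : ↥(↥K₁)⟮jqNModC ↥K₁ w⟯) : LaurentSeries ↥K₁)
        rw [he₁, coe_hostImageEquiv, coe_fullIncl]
        have h1 : ModularCurve.qExpand ↥K₁ w ((ρ₀ r : ↥Fq₀) : LaurentSeries ↥K₁) =
            ((e₀ (ρ₀ r) : ↥Fw₀) : LaurentSeries ↥K₁) := (coe_hostImageEquiv Fq₀ (ρ₀ r)).symm
        rw [h1]
        have h2 : e₀ (ρ₀ r) = algebraMap ↥(↥K₁)⟮jqNModC ↥K₁ w⟯ ↥Fw₀ r := e₀.apply_symm_apply _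
        rw [h2]
        rfl }
  exact JA.unr_of_algEquiv 𝒢 eK₁ hmain

end Base

end

end Fermat.Agent.W1.Inst
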