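/-
W1 [INST] FINAL (helper2): the class `W1Api M` holds for every level `M ≠ 1`.

Assembly: helper8's `Inst1.w1Api_of_unr` (all class fields from the one hypothesis `Inst1.UnrHyp M`:
helper9's W1Pre/hmemW/hLIFT/hRES/PGI, helper3's ram0/residue fields, helper8's DEC) applied to
helper2's `Inst.unr_hostImage_F₁_baseRing_of_isGaussAt` (the étale step at a base).
-/
import Mathlib
import Fermat.Agent.W1.INST1_helper8_Final
import Fermat.Agent.W1.INST_helper2_Unr

namespace Fermat.Agent.W1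

open Fermat.Agent.JA

/-- `Inst1.UnrHyp M` (the class field `unr_hostImage_baseRing_of_isGaussAt` of `W1Api M`), for
`M ≠ 1`, from helper2's étale step. -/
theorem Inst.unrHyp_of_ne_one' (M : ℕ) [NeZero M] (hM : M ≠ 1) : Inst1.UnrHyp M :=
  fun hA hℓM w _ _ hK₁ _ _ _ hπ 𝒢 h𝒢 =>
    Inst.unr_hostImage_F₁_baseRing_of_isGaussAt hA M w hM hℓM hK₁ hπ 𝒢 h𝒢

/-- **The instance**: `W1Api M` for every level `M ≠ 1` (unconditional). Not registered as a global
`instance` (it needs `hM`); consumers write `haveI : W1Api M := w1Api_of_ne_one_h2 M hM`. -/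
theorem w1Api_of_ne_one_h2 (M : ℕ) [NeZero M] (hM : M ≠ 1) : W1Api M :=
  Inst1.w1Api_of_unr M hM (Inst.unrHyp_of_ne_one' M hM)

/-- Variant with the hypothesis `5 ≤ M` used by `DS48`. -/
theorem w1Api_of_five_le (M : ℕ) [NeZero M] (hM : 5 ≤ M) : W1Api M :=
  w1Api_of_ne_one_h2 M (by omega)

end Fermat.Agent.W1
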