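/-
W1 — helper7 — **`DS48.ModRepGamma1`, unconditionally**: the final assembly of project W1
(= [GRΓ1]): the `W1Api M` instance (helper2/3/8/9: `w1Api_of_five_le`), helper4's
Eichler–Shimura congruence `hES_of_charts`, and the final glue `modRepGamma1_of_api_of_esCharts`.
-/
import Mathlib
import Fermat.Agent.W1.FINAL_helper7_S48
import Fermat.Agent.W1.INST_helper2_Final
import Fermat.Agent.W1.ES_helper4_Top

set_option autoImplicit false

namespace Fermat.Agent.W1

/-- helper4's [A5] theorem in the packaged form `ESChartsHyp`. -/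
theorem esChartsHyp (M : ℕ) [NeZero M] [W1Api M] (hM : M ≠ 1) : ESChartsHyp M hM :=
  fun hA hℓM h _ hr hgen σ₀ hσ₀ u hu b hdegk hequiv hev₁ hsep₁ hev₂ hsep₂ x =>
    hES_of_charts hA hM hℓM h hr hgen σ₀ hσ₀ u hu b hdegk hequiv hev₁ hsep₁ hev₂ hsep₂ x

/-- **the mod `ℓ` Galois representations attached to Hecke eigensystems of weight 2 on `Γ₁(M)`**
(the input `ModRepGamma1` of lead's `DS48.s48_of_modRep`). -/
theorem modRepGamma1 : DS48.ModRepGamma1 :=
  modRepGamma1_of_api_of_esCharts (fun M _ hM5 => w1Api_of_five_le M hM5)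
    (fun M _ _ hM _ => esChartsHyp M hM)

end Fermat.Agent.W1
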