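/-
W1 = [GRΓ1] (S48), package [MULT1₁] (helper2), part 6: **the Eichler–Shimura hypothesis `ESHyp M`
holds for every `M ≠ 1`** — helper9's `eichlerShimura_Gpm` fed with helper3's [DICT1]
(`isGenusOf_genus`, `IsGenusOf.le_finrank_cuspForm_Gpm`).  Consumers write
`haveI := esHyp_of_ne_one M hM` and get `mult1_field`, `exists_eigenPar_of_character`, …
unconditionally.
-/
import Mathlib
import Fermat.Agent.W1.MULT1_helper2_Complex
import Fermat.Agent.W1.DICT1_helper3_Genus

set_option autoImplicit false

namespace Fermat.Agent.W1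

open CongruenceSubgroup ModularCurve.Period
open Fermat.Agent.W1.ES

/-- **Eichler–Shimura for `±Γ₁(M)`, `M ≠ 1`**: the period map `periodHomPair₁ M` is onto the
parabolic homomorphisms. -/
theorem esHyp_of_ne_one (M : ℕ) [NeZero M] (hM : M ≠ 1) : ESHyp M := by
  haveI := hasCanonicalDivisor_laurentBaseChange_F₁ ℂ M 1 hM
  have hg := isGenusOf_genus ℂ M 1 hM
  exact ESHyp.of_genus M hg (hg.le_finrank_cuspForm_Gpm M 1 hM)

end Fermat.Agent.W1
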