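/-
W1 = [GRΓ1], package [DETχ], lead: the determinant of a two-dimensional `p`-adic representation
with Eichler–Shimura relations WITH NEBENTYPUS.

For a continuous two-dimensional representation `ρ` of `G_ℚ` over a noetherian local domain `R` of
characteristic zero with `p ∈ 𝔪`, and a character `ε : (ℤ/M)ˣ →* R`, such that every Frobenius
element `φ` at every prime `q ∉ T` satisfies `ρ(φ)² - a_q ρ(φ) + q ε(cyc_M φ) = 0`, and such that
SOME element of `G_ℚ` acts non-scalarly:

* `det ρ (g) ≡ cycVal p n g * ε (cyc_M g)` modulo `p ^ n` for all `g`, `n`;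
* the characteristic polynomial of `ρ(φ)` is `X² - a_q X + q ε(cyc_M φ)` for EVERY Frobenius
  element `φ` at every prime `q ∉ T` (also when `ρ(φ)` is scalar).

Port of `GR/DET_lead_Main.lean` (which is the case `ε = 1`).
-/
import Mathlib
import Fermat.Agent.GR.DET_lead_Main

set_option autoImplicit false
set_option linter.unusedSectionVars false
set_option linter.unusedVariables false
set_option linter.style.haveILetI false

namespace Fermat.Agent.W1

open Polynomial Fermat.Agent.TW.Kill IsLocalRing Fermat.Agent.GR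

/-- `Ω = AlgebraicClosure ℚ`. -/
local notation "Ω" => AlgebraicClosure ℚ
/-- `GQ = Gal(Ω/ℚ)`. -/
local notation "GQ" => (AlgebraicClosure ℚ ≃ₐ[ℚ] AlgebraicClosure ℚ)

/-- the value of the mod `M` cyclotomic character at a Frobenius element at `q ∤ M` is `q`. -/
theorem cyc_frobenius (M : ℕ) [NeZero M] {q : ℕ} (hq : q.Prime) (hqM : ¬ q ∣ M)
    {P : ValuationSubring Ω} (hP : P.LiesOverPrime q) {φ : GQ} (hφ : P.IsFrobeniusAt φ q) :
    ((cyc M φ : (ZMod M)ˣ) : ZMod M) = (q : ZMod M) := by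
  refine cyc_unique M φ fun t ht => ?_
  rw [ZMod.val_natCast, pow_mod_of_pow_eq_one ht]
  exact frobenius_apply_rootOfUnity hq hqM hP hφ ht

variable {R : Type} [CommRing R]

section ChiVal

variable (p : ℕ) [Fact p.Prime] (M : ℕ) [NeZero M] (ε : (ZMod M)ˣ →* R)

/-- the twisted cyclotomic value `cycVal p n g * ε (cyc_M g)` -/
noncomputable def chiVal (n : ℕ) (g : GQ) : R := (cycVal p n g : R) * ε (cyc M g)

theorem eps_mul_eps_inv (d : (ZMod M)ˣ) : ε d * ε d⁻¹ = 1 := by
  rw [← map_mul, mul_inv_cancel, map_one]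

theorem chiVal_one_sub (n : ℕ) :
    chiVal p M ε n 1 - 1 ∈ Ideal.span {((p ^ n : ℕ) : R)} := by
  have := natCast_sub_natCast_mem_span (R := R) (cycVal_one p n)
  rw [Nat.cast_one] at this
  rw [chiVal, map_one, map_one, mul_one]
  exact this

theorem chiVal_mul_sub (n : ℕ) (g h : GQ) :
    chiVal p M ε n (g * h) - chiVal p M ε n g * chiVal p M ε n h ∈
      Ideal.span {((p ^ n : ℕ) : R)} := by
  have h1 := natCast_sub_natCast_mem_span (R := R) (cycVal_mul p n g h)
  rw [Nat.cast_mul] at h1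
  have : chiVal p M ε n (g * h) - chiVal p M ε n g * chiVal p M ε n h =
      ((cycVal p n (g * h) : R) - (cycVal p n g : R) * (cycVal p n h : R)) *
        (ε (cyc M g) * ε (cyc M h)) := by
    rw [chiVal, chiVal, chiVal, map_mul, map_mul]; ring
  rw [this]
  exact Ideal.mul_mem_right _ _ h1

theorem chiVal_le_sub {n m : ℕ} (hnm : n ≤ m) (g : GQ) :
    chiVal p M ε m g - chiVal p M ε n g ∈ Ideal.span {((p ^ n : ℕ) : R)} := by
  have h1 := natCast_sub_natCast_mem_span (R := R) (cycVal_modEq_of_le p hnm g)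
  have : chiVal p M ε m g - chiVal p M ε n g =
      ((cycVal p m g : R) - (cycVal p n g : R)) * ε (cyc M g) := by
    rw [chiVal, chiVal]; ring
  rw [this]
  exact Ideal.mul_mem_right _ _ h1

theorem chiVal_conj_sub (n : ℕ) (τ g : GQ) :
    chiVal p M ε n g - chiVal p M ε n (τ * g * τ⁻¹) ∈ Ideal.span {((p ^ n : ℕ) : R)} := by
  have h1 := natCast_sub_natCast_mem_span (R := R) (cycVal_conj p n τ g)
  have h2 : cyc M (τ * g * τ⁻¹) = cyc M g := by
    rw [map_mul, map_mul, map_inv, mul_comm (cyc M τ), mul_assoc, mul_inv_cancel, mul_one]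
  have : chiVal p M ε n g - chiVal p M ε n (τ * g * τ⁻¹) =
      ((cycVal p n g : R) - (cycVal p n (τ * g * τ⁻¹) : R)) * ε (cyc M g) := by
    rw [chiVal, chiVal, h2]; ring
  rw [this]
  exact Ideal.mul_mem_right _ _ h1

theorem chiVal_sub_one_of_cyc_eq_one (n : ℕ) {g : GQ} (hg : cyc (p ^ n) g = 1)
    (hg' : cyc M g = 1) : chiVal p M ε n g - 1 ∈ Ideal.span {((p ^ n : ℕ) : R)} := by
  have := natCast_sub_natCast_mem_span (R := R) (cycVal_of_cyc_eq_one p n hg)
  rw [Nat.cast_one] at this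
  rw [chiVal, hg', map_one, mul_one]
  exact this

theorem chiVal_frobenius_sub (n : ℕ) {q : ℕ} (hq : q.Prime) (hqp : q ≠ p)
    {P : ValuationSubring Ω} (hP : P.LiesOverPrime q) {φ : GQ} (hφ : P.IsFrobeniusAt φ q) :
    (q : R) * ε (cyc M φ) - chiVal p M ε n φ ∈ Ideal.span {((p ^ n : ℕ) : R)} := by
  have h1 := natCast_sub_natCast_mem_span (R := R) (cycVal_frobenius p n hq hqp hP hφ)
  have : (q : R) * ε (cyc M φ) - chiVal p M ε n φ =
      ((q : R) - (cycVal p n φ : R)) * ε (cyc M φ) := by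
    rw [chiVal]; ring
  rw [this]
  exact Ideal.mul_mem_right _ _ h1

end ChiVal

variable [IsLocalRing R]

section Subgroup

variable (ρ : GaloisRepAdic R) (p : ℕ) [Fact p.Prime] (M : ℕ) [NeZero M] (ε : (ZMod M)ˣ →* R)

/-- the subgroup of `G_ℚ` on which `det ρ` agrees with the twisted cyclotomic character -/
noncomputable def detChiSubgroup : Subgroup GQ where
  carrier := {g | ∀ n : ℕ, LinearMap.det (ρ.ρ g) - chiVal p M ε n g ∈
    Ideal.span {((p ^ n : ℕ) : R)}}
  one_mem' := by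
    intro n
    rw [map_one, map_one, ← neg_sub, neg_mem_iff]
    exact chiVal_one_sub p M ε n
  mul_mem' := by
    intro g h hg hh n
    rw [map_mul, map_mul]
    have h1 := chiVal_mul_sub p M ε n g h
    set I := Ideal.span {((p ^ n : ℕ) : R)}
    have h2 : LinearMap.det (ρ.ρ g) * LinearMap.det (ρ.ρ h) -
        chiVal p M ε n g * chiVal p M ε n h ∈ I := by
      have : LinearMap.det (ρ.ρ g) * LinearMap.det (ρ.ρ h) -
          chiVal p M ε n g * chiVal p M ε n h =
          LinearMap.det (ρ.ρ g) * (LinearMap.det (ρ.ρ h) - chiVal p M ε n h) +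
            (LinearMap.det (ρ.ρ g) - chiVal p M ε n g) * chiVal p M ε n h := by ring
      rw [this]
      exact I.add_mem (I.mul_mem_left _ (hh n)) (I.mul_mem_right _ (hg n))
    have : LinearMap.det (ρ.ρ g) * LinearMap.det (ρ.ρ h) - chiVal p M ε n (g * h) =
        (LinearMap.det (ρ.ρ g) * LinearMap.det (ρ.ρ h) -
          chiVal p M ε n g * chiVal p M ε n h) -
        (chiVal p M ε n (g * h) - chiVal p M ε n g * chiVal p M ε n h) := by ring
    rw [this]
    exact I.sub_mem h2 h1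
  inv_mem' := by
    intro g hg n
    set I := Ideal.span {((p ^ n : ℕ) : R)}
    set x := LinearMap.det (ρ.ρ g) with hx
    set x' := LinearMap.det (ρ.ρ g⁻¹) with hx'
    have hxx' : x * x' = 1 := by
      rw [hx, hx', ← map_mul, ← map_mul, mul_inv_cancel, map_one, map_one]
    have h1 : chiVal p M ε n g * chiVal p M ε n g⁻¹ - 1 ∈ I := by
      have h2 := chiVal_mul_sub p M ε n g g⁻¹
      have h3 := chiVal_one_sub p M ε n
      rw [mul_inv_cancel] at h2
      have : chiVal p M ε n g * chiVal p M ε n g⁻¹ - 1 =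
          chiVal p M ε n 1 - 1 -
            (chiVal p M ε n 1 - chiVal p M ε n g * chiVal p M ε n g⁻¹) := by
        ring
      rw [this]
      exact I.sub_mem h3 h2
    have : x' - chiVal p M ε n g⁻¹ =
        -(chiVal p M ε n g⁻¹ * x' * (x - chiVal p M ε n g)) -
          x' * (chiVal p M ε n g * chiVal p M ε n g⁻¹ - 1) +
          chiVal p M ε n g⁻¹ * (x * x' - 1) := by ring
    rw [this, hxx', sub_self, mul_zero, add_zero]
    exact I.sub_mem (I.neg_mem (I.mul_mem_left _ (hg n))) (I.mul_mem_left _ h1)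

theorem mem_detChiSubgroup {g : GQ} : g ∈ detChiSubgroup ρ p M ε ↔
    ∀ n : ℕ, LinearMap.det (ρ.ρ g) - chiVal p M ε n g ∈ Ideal.span {((p ^ n : ℕ) : R)} :=
  Iff.rfl

end Subgroup

section Level

variable (ρ : GaloisRepAdic R) (p : ℕ) [Fact p.Prime] (M : ℕ) [NeZero M]

/-- the open normal subgroup of level `n`, inside the kernel of the mod `M` cyclotomic character -/
noncomputable def levelChiSubgroup (n : ℕ) : Subgroup GQ :=
  levelSubgroup ρ p n ⊓ (cyc M).ker

instance levelChiSubgroup_normal (n : ℕ) : (levelChiSubgroup ρ p M n).Normal := by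
  unfold levelChiSubgroup
  infer_instance

theorem mem_levelChiSubgroup {n : ℕ} {g : GQ} :
    g ∈ levelChiSubgroup ρ p M n ↔ g ∈ levelSubgroup ρ p n ∧ cyc M g = 1 := by
  rw [levelChiSubgroup, Subgroup.mem_inf, MonoidHom.mem_ker]

theorem levelChiSubgroup_isOpen (n : ℕ) : IsOpen (levelChiSubgroup ρ p M n : Set GQ) := by
  obtain ⟨L', hL', h2⟩ := exists_finiteDimensional_cyc_eq_one M
  haveI : FiniteDimensional ℚ L' := hL'
  have h1 : IsOpen ((cyc M).ker : Set GQ) := by
    refine Subgroup.isOpen_mono ?_ (IntermediateField.fixingSubgroup_isOpen L')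
    intro σ hσ
    rw [MonoidHom.mem_ker]
    exact h2 σ hσ
  have : (levelChiSubgroup ρ p M n : Set GQ) =
      (levelSubgroup ρ p n : Set GQ) ∩ ((cyc M).ker : Set GQ) := by
    rw [levelChiSubgroup, Subgroup.coe_inf]
  rw [this]
  exact (levelSubgroup_isOpen ρ p n).inter h1

end Level

section Main

variable [IsDomain R] [IsNoetherianRing R]
variable (ρ : GaloisRepAdic R) (p : ℕ) [Fact p.Prime] (M : ℕ) [NeZero M] (ε : (ZMod M)ˣ →* R)
variable (T : Finset ℕ) (a : ℕ → R)

/-- the hypothesis: quadratic relation with nebentypus for all Frobenius elements outside `T` -/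
def FrobeniusQuadraticChiOutside : Prop :=
  ∀ q : ℕ, q.Prime → q ∉ T → ∀ P : ValuationSubring Ω, P.LiesOverPrime q →
    ∀ φ : GQ, P.IsFrobeniusAt φ q →
      ρ.ρ φ * ρ.ρ φ - a q • ρ.ρ φ + ((q : R) * ε (cyc M φ)) • (1 : Module.End R ρ.V) = 0

variable {ρ p M ε T a}

theorem charpoly_chi_of_not_isScalarEnd (hquad : FrobeniusQuadraticChiOutside ρ M ε T a) {q : ℕ}
    (hq : q.Prime) (hqT : q ∉ T) {P : ValuationSubring Ω} (hP : P.LiesOverPrime q) {φ : GQ}
    (hφ : P.IsFrobeniusAt φ q) (hns : ¬ IsScalarEnd (ρ.ρ φ)) :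
    (ρ.ρ φ).charpoly = X ^ 2 - C (a q) * X + C ((q : R) * ε (cyc M φ)) :=
  charpoly_eq_of_quadratic ρ.finrank_eq (hquad q hq hqT P hP φ hφ) hns

theorem frobenius_mem_detChiSubgroup (hpT : p ∈ T)
    (hquad : FrobeniusQuadraticChiOutside ρ M ε T a)
    {q : ℕ} (hq : q.Prime) (hqT : q ∉ T) {P : ValuationSubring Ω} (hP : P.LiesOverPrime q)
    {φ : GQ} (hφ : P.IsFrobeniusAt φ q) (hns : ¬ IsScalarEnd (ρ.ρ φ)) :
    φ ∈ detChiSubgroup ρ p M ε := by
  intro n
  have hqp : q ≠ p := fun h => hqT (h ▸ hpT)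
  rw [det_of_charpoly (charpoly_chi_of_not_isScalarEnd hquad hq hqT hP hφ hns)]
  exact chiVal_frobenius_sub p M ε n hq hqp hP hφ

/-- **density step**: every element acting non-scalarly has `det = cyc · ε`. -/
theorem mem_detChiSubgroup_of_not_isScalarEnd (hp : (p : R) ∈ maximalIdeal R) (hpT : p ∈ T)
    (hquad : FrobeniusQuadraticChiOutside ρ M ε T a) {g : GQ} (hg : ¬ IsScalarEnd (ρ.ρ g)) :
    g ∈ detChiSubgroup ρ p M ε := by
  intro n
  obtain ⟨n₀, hn₀⟩ := exists_forall_not_isScalarMod ρ hg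
  refine mem_span_of_forall_mem_sup (max n n₀) fun m hm => ?_
  have hnm : n ≤ m := le_trans (le_max_left _ _) hm
  have hn₀m : n₀ ≤ m := le_trans (le_max_right _ _) hm
  set N := levelChiSubgroup ρ p M m with hN
  have hopen := levelChiSubgroup_isOpen ρ p M m
  obtain ⟨q, hq, hqT, hall⟩ :=
    Fermat.Agent.Density.exists_prime_frobenius_conj_algClosure N hopen g T
  haveI : Fact q.Prime := ⟨hq⟩
  have hP₀ : (padicPlace q).LiesOverPrime q := padicPlace_liesOverPrime q
  obtain ⟨φ₀, hφ₀⟩ := exists_isFrobeniusAt (padicPlace q) hq hP₀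
  obtain ⟨τ, hτ⟩ := (hall _ hP₀).2 φ₀ hφ₀
  haveI : IsGalois ℚ Ω := IsAlgClosure.isGalois ℚ Ω
  haveI : Finite (GQ ⧸ N) := Subgroup.quotient_finite_of_isOpen N hopen
  obtain ⟨k, -, hk⟩ := Fermat.Agent.Density.exists_coprime_pow_eq_of_zpowers_eq
    (a := QuotientGroup.mk' N (τ * g * τ⁻¹)) (b := QuotientGroup.mk' N φ₀)
    (isOfFinOrder_of_finite _) hτ.symm
  rw [← map_pow] at hk
  set ν : GQ := (φ₀ ^ k)⁻¹ * (τ * g * τ⁻¹) with hν
  have hνN : ν ∈ N := by
    have := hk.symm
    rw [QuotientGroup.mk'_apply, QuotientGroup.mk'_apply, QuotientGroup.eq] at this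
    exact this
  have hνL : ν ∈ levelSubgroup ρ p m := ((mem_levelChiSubgroup ρ p M).1 hνN).1
  have hνM : cyc M ν = 1 := ((mem_levelChiSubgroup ρ p M).1 hνN).2
  have hdecomp : τ * g * τ⁻¹ = φ₀ ^ k * ν := by rw [hν, mul_inv_cancel_left]
  have hmat : matModHom ρ m (φ₀ ^ k) = matModHom ρ m (τ * g * τ⁻¹) := by
    rw [hdecomp, map_mul, ((mem_levelSubgroup ρ p).1 hνL).1, mul_one]
  -- `ρ(φ₀)` is not scalar
  have hns : ¬ IsScalarEnd (ρ.ρ φ₀) := by
    intro hsc
    exact hn₀ m hn₀m (isScalarMod_of_conj ρ τ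
      (((isScalarMod_of_isScalarEnd ρ hsc m).pow ρ k).of_eq ρ hmat))
  have hφk : φ₀ ^ k ∈ detChiSubgroup ρ p M ε :=
    Subgroup.pow_mem _ (frobenius_mem_detChiSubgroup hpT hquad hq hqT hP₀ hφ₀ hns) k
  -- the computation modulo `𝔪 ^ m`
  set J := maximalIdeal R ^ m with hJ
  have hspanJ : Ideal.span {((p ^ m : ℕ) : R)} ≤ J := span_pow_le_maximalIdeal_pow p hp m
  set X' := LinearMap.det (ρ.ρ (φ₀ ^ k)) with hX'
  set Y' := LinearMap.det (ρ.ρ ν) with hY'
  have hD : LinearMap.det (ρ.ρ g) = X' * Y' := by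
    have h1 : LinearMap.det (ρ.ρ (τ * g * τ⁻¹)) = LinearMap.det (ρ.ρ g) := by
      have e : ρ.ρ (τ * g * τ⁻¹) = ρ.ρ τ * ρ.ρ g * ρ.ρ τ⁻¹ := by rw [map_mul, map_mul]
      have e2 : LinearMap.det (ρ.ρ τ) * LinearMap.det (ρ.ρ τ⁻¹) = 1 := by
        rw [← map_mul, ← map_mul, mul_inv_cancel, map_one, map_one]
      rw [e, map_mul, map_mul, mul_right_comm, e2, one_mul]
    rw [← h1, hdecomp, map_mul, map_mul]
  have hY : Y' - 1 ∈ J := det_sub_one_mem_of_mem_levelSubgroup ρ p hνL
  have hX : X' - chiVal p M ε m (φ₀ ^ k) ∈ J := hspanJ (hφk m)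
  have hcν : chiVal p M ε m ν - 1 ∈ J :=
    hspanJ (chiVal_sub_one_of_cyc_eq_one p M ε m ((mem_levelSubgroup ρ p).1 hνL).2 hνM)
  have hcg : chiVal p M ε m g - chiVal p M ε m (φ₀ ^ k) * chiVal p M ε m ν ∈ J := by
    have h1 := chiVal_conj_sub p M ε m τ g
    have h2 := chiVal_mul_sub p M ε m (φ₀ ^ k) ν
    rw [← hdecomp] at h2
    have : chiVal p M ε m g - chiVal p M ε m (φ₀ ^ k) * chiVal p M ε m ν =
        (chiVal p M ε m g - chiVal p M ε m (τ * g * τ⁻¹)) +
          (chiVal p M ε m (τ * g * τ⁻¹) -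
            chiVal p M ε m (φ₀ ^ k) * chiVal p M ε m ν) := by ring
    rw [this]
    exact hspanJ (Ideal.add_mem _ h1 h2)
  have hmain : LinearMap.det (ρ.ρ g) - chiVal p M ε m g ∈ J := by
    have : LinearMap.det (ρ.ρ g) - chiVal p M ε m g =
        X' * (Y' - 1) + (X' - chiVal p M ε m (φ₀ ^ k)) -
          chiVal p M ε m (φ₀ ^ k) * (chiVal p M ε m ν - 1) -
          (chiVal p M ε m g - chiVal p M ε m (φ₀ ^ k) * chiVal p M ε m ν) := by
      rw [hD]; ring
    rw [this]
    exact J.sub_mem (J.sub_mem (J.add_mem (J.mul_mem_left _ hY) hX) (J.mul_mem_left _ hcν)) hcg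
  have hlast : chiVal p M ε m g - chiVal p M ε n g ∈ Ideal.span {((p ^ n : ℕ) : R)} :=
    chiVal_le_sub p M ε hnm g
  have : LinearMap.det (ρ.ρ g) - chiVal p M ε n g =
      (LinearMap.det (ρ.ρ g) - chiVal p M ε m g) +
        (chiVal p M ε m g - chiVal p M ε n g) := by ring
  rw [this]
  exact Submodule.add_mem_sup hmain hlast

/-- **`det ρ = cyc · ε` on all of `G_ℚ`.** -/
theorem detChiSubgroup_eq_top (hp : (p : R) ∈ maximalIdeal R) (hpT : p ∈ T)
    (hquad : FrobeniusQuadraticChiOutside ρ M ε T a) {c : GQ} (hc : ¬ IsScalarEnd (ρ.ρ c)) :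
    detChiSubgroup ρ p M ε = ⊤ := by
  rw [eq_top_iff]
  intro g _
  by_cases hg : IsScalarEnd (ρ.ρ g)
  · have h1 : ¬ IsScalarEnd (ρ.ρ (g * c)) := by
      intro h
      apply hc
      have : ρ.ρ c = ρ.ρ g⁻¹ * ρ.ρ (g * c) := by
        rw [← map_mul, inv_mul_cancel_left]
      rw [this]
      exact (isScalarEnd_inv ρ hg).mul h
    have h2 : ¬ IsScalarEnd (ρ.ρ c⁻¹) := by
      intro h
      apply hc
      have := isScalarEnd_inv ρ h
      rwa [inv_inv] at this
    have : g = (g * c) * c⁻¹ := by rw [mul_inv_cancel_right]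
    rw [this]
    exact Subgroup.mul_mem _ (mem_detChiSubgroup_of_not_isScalarEnd hp hpT hquad h1)
      (mem_detChiSubgroup_of_not_isScalarEnd hp hpT hquad h2)
  · exact mem_detChiSubgroup_of_not_isScalarEnd hp hpT hquad hg

/-- **the determinant is the twisted cyclotomic character.** -/
theorem det_sub_chiVal_mem (hp : (p : R) ∈ maximalIdeal R) (hpT : p ∈ T)
    (hquad : FrobeniusQuadraticChiOutside ρ M ε T a) {c : GQ} (hc : ¬ IsScalarEnd (ρ.ρ c))
    (g : GQ) (n : ℕ) :
    LinearMap.det (ρ.ρ g) - chiVal p M ε n g ∈ Ideal.span {((p ^ n : ℕ) : R)} := by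
  have hσ : g ∈ detChiSubgroup ρ p M ε := by
    rw [detChiSubgroup_eq_top hp hpT hquad hc]; exact Subgroup.mem_top g
  exact hσ n

/-- **the characteristic polynomial of EVERY Frobenius element outside `T`** (also the scalar
ones) is `X² - a_q X + q ε(q)`. -/
theorem charpoly_frobenius_of_frobeniusQuadraticChi [CharZero R] (hp : (p : R) ∈ maximalIdeal R)
    (hpT : p ∈ T) (hquad : FrobeniusQuadraticChiOutside ρ M ε T a) {c : GQ}
    (hc : ¬ IsScalarEnd (ρ.ρ c)) {q : ℕ} (hq : q.Prime) (hqT : q ∉ T)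
    {P : ValuationSubring Ω} (hP : P.LiesOverPrime q) {φ : GQ} (hφ : P.IsFrobeniusAt φ q) :
    (ρ.ρ φ).charpoly = X ^ 2 - C (a q) * X + C ((q : R) * ε (cyc M φ)) := by
  by_cases hns : IsScalarEnd (ρ.ρ φ)
  swap
  · exact charpoly_chi_of_not_isScalarEnd hquad hq hqT hP hφ hns
  obtain ⟨r, hr⟩ := hns
  have hqp : q ≠ p := fun h => hqT (h ▸ hpT)
  have hV : Nontrivial ρ.V :=
    Module.nontrivial_of_finrank_pos (R := R) (by rw [ρ.finrank_eq]; norm_num)
  set e : R := ε (cyc M φ) with he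
  -- the determinant is `q e`
  have hdet : LinearMap.det (ρ.ρ φ) = (q : R) * e := by
    rw [← sub_eq_zero]
    refine eq_zero_of_forall_exists_mem_pow fun n₀ => ⟨n₀, le_rfl, ?_⟩
    have h1 := det_sub_chiVal_mem hp hpT hquad hc φ n₀
    have h2 := chiVal_frobenius_sub p M ε n₀ hq hqp hP hφ
    have : LinearMap.det (ρ.ρ φ) - (q : R) * e =
        (LinearMap.det (ρ.ρ φ) - chiVal p M ε n₀ φ) -
          ((q : R) * e - chiVal p M ε n₀ φ) := by ring
    rw [this]
    exact span_pow_le_maximalIdeal_pow p hp n₀ (Ideal.sub_mem _ h1 h2)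
  have hr2 : r ^ 2 = (q : R) * e := by
    rw [← hdet, hr, LinearMap.det_smul, ρ.finrank_eq, map_one, mul_one]
  -- the quadratic relation on scalars
  have hrel : r * r - a q * r + (q : R) * e = 0 := by
    have h1 := hquad q hq hqT P hP φ hφ
    rw [hr] at h1
    have h2 : (r * r - a q * r + (q : R) * e) • (1 : Module.End R ρ.V) = 0 := by
      rw [← h1, add_smul, sub_smul, smul_mul_smul_comm, mul_one, smul_smul]
    exact eq_zero_of_smul_one_eq_zero h2
  have hq0 : (q : R) ≠ 0 := Nat.cast_ne_zero.2 hq.ne_zero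
  have he0 : e ≠ 0 := by
    intro h0
    have := eps_mul_eps_inv M ε (cyc M φ)
    rw [← he, h0, zero_mul] at this
    exact zero_ne_one this
  have hr0 : r ≠ 0 := by
    rintro rfl
    rw [zero_pow two_ne_zero] at hr2
    exact mul_ne_zero hq0 he0 hr2.symm
  have ha : a q = 2 * r := by
    have h3 : r * (2 * r - a q) = 0 := by
      have : r * (2 * r - a q) = (r * r - a q * r + (q : R) * e) + (r ^ 2 - (q : R) * e) := by
        ring
      rw [this, hrel, hr2, sub_self, add_zero]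
    rcases mul_eq_zero.1 h3 with h | h
    · exact absurd h hr0
    · exact (sub_eq_zero.1 h).symm
  -- the characteristic polynomial of a scalar matrix
  have hmat : matHom ρ φ = r • (1 : Matrix (Fin 2) (Fin 2) R) := by
    obtain ⟨r', hr'⟩ := (isScalarEnd_iff_matHom ρ φ).1 ⟨r, hr⟩
    have : r' = r := by
      have h4 : (r' - r) • (1 : Module.End R ρ.V) = 0 := by
        rw [sub_smul, ← hr, sub_eq_zero]
        apply (LinearMap.toMatrix (gBasis ρ) (gBasis ρ)).injective
        rw [map_smul, ← matHom_apply, hr']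
        congr 1
        exact LinearMap.toMatrix_one (gBasis ρ)
      exact sub_eq_zero.1 (eq_zero_of_smul_one_eq_zero h4)
    rw [hr', this]
  rw [← charpoly_matHom, Matrix.charpoly_fin_two, hmat, Matrix.trace_smul, Matrix.trace_one,
    Matrix.det_smul, Matrix.det_one, Fintype.card_fin, mul_one, smul_eq_mul, ha, hr2]
  rw [Nat.cast_ofNat, mul_comm r 2]

end Main

end Fermat.Agent.W1
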