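/-
W1 [TOP1] (lead) — twisting a `GaloisRepAdic` by a Dirichlet character composed with the mod `M`
cyclotomic character:

* `cyc_eq_one_of_mem_inertia`: the mod `M` cyclotomic character is trivial on inertia at `q ∤ M`;
* `twistRep ρ M ε`, `σ ↦ ε (cyc_M σ) • ρ(σ)`, with the transfer of unramifiedness, non-scalarity
  and quadratic relations.
-/
import Mathlib
import Fermat.Agent.W1.DETCHI_lead_Main

set_option autoImplicit false
set_option linter.unusedSectionVars false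
set_option linter.unusedVariables false
set_option linter.style.haveILetI false

namespace Fermat.Agent.W1

open Polynomial Fermat.Agent.TW.Kill IsLocalRing Fermat.Agent.GR

/-- `Ω = AlgebraicClosure ℚ`. -/
local notation "Ω" => AlgebraicClosure ℚ
/-- `GQ = Gal(Ω/ℚ)`. -/
local notation "GQ" => (AlgebraicClosure ℚ ≃ₐ[ℚ] AlgebraicClosure ℚ)

/-- **the mod `M` cyclotomic character is unramified at `q ∤ M`.** -/
theorem cyc_eq_one_of_mem_inertia (M : ℕ) [NeZero M] {q : ℕ} (hq : q.Prime) (hqM : ¬ q ∣ M)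
    {P : ValuationSubring Ω} (hP : P.LiesOverPrime q) {σ : GQ}
    (hσ : σ ∈ P.inertiaSubgroupIn ℚ) : cyc M σ = 1 := by
  obtain ⟨ζ, hζ⟩ := exists_primitiveRoot M
  refine cyc_eq_one_of_fix hζ ?_
  have hM0 : M ≠ 0 := NeZero.ne M
  obtain ⟨τ, hτ, rfl⟩ := hσ
  have hζP : ζ ∈ P := mem_of_isIntegral_int P (hζ.isIntegral (Nat.pos_of_ne_zero hM0))
  have hmv : P.valuation (M : Ω) = 1 := valuation_natCast_eq_one hq hqM hP
  set z : P := ⟨ζ, hζP⟩ with hz
  have h1 : τ • IsLocalRing.residue P z = IsLocalRing.residue P z := by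
    have h2 : MulSemiringAction.toRingAut (P.decompositionSubgroup ℚ)
        (IsLocalRing.ResidueField P) τ = 1 := hτ
    have h3 := congrArg (fun f : RingAut (IsLocalRing.ResidueField P) =>
      f (IsLocalRing.residue P z)) h2
    exact h3
  rw [← IsLocalRing.ResidueField.residue_smul, ← sub_eq_zero, ← map_sub,
    IsLocalRing.residue_eq_zero_iff, P.valuation_lt_one_iff] at h1
  have h2 : P.valuation ((τ : GQ) ζ - ζ) < 1 := h1
  -- `τ ζ` is a power of `ζ`
  have hφζ : ((τ : GQ) ζ) ^ M = 1 := by rw [← map_pow, hζ.pow_eq_one, map_one]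
  obtain ⟨j, hj, hjζ⟩ := hζ.eq_pow_of_pow_eq_one hφζ
  show (τ : GQ) ζ = ζ
  by_cases hM1 : M = 1
  · subst hM1
    have : ζ = 1 := by simpa using hζ
    rw [this, map_one]
  have h1M : 1 < M := by omega
  rw [← hjζ] at h2 ⊢
  rcases lt_trichotomy j 1 with h | h | h
  · exfalso
    have := valuation_pow_sub_pow_eq_one (P := P) hζ hmv h
      (fun hd => by have := Nat.le_of_dvd (by omega) hd; omega)
    rw [pow_one] at this
    rw [this] at h2
    exact lt_irrefl _ h2
  · rw [h, pow_one]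
  · exfalso
    have := valuation_pow_sub_pow_eq_one (P := P) hζ hmv h
      (fun hd => by have := Nat.le_of_dvd (by omega) hd; omega)
    rw [pow_one] at this
    rw [← Valuation.map_neg, neg_sub, this] at h2
    exact lt_irrefl _ h2

variable {R : Type} [CommRing R] [IsLocalRing R]

section Twist

variable (ρ : GaloisRepAdic R) (M : ℕ) [NeZero M] (ε : (ZMod M)ˣ →* R)

/-- **the twist of `ρ` by `ε ∘ cyc_M`.** -/
noncomputable def twistRep : GaloisRepAdic R where
  V := ρ.V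
  finrank_eq := ρ.finrank_eq
  ρ :=
    { toFun := fun σ => ε (cyc M σ) • ρ.ρ σ
      map_one' := by rw [map_one, map_one, map_one, one_smul]
      map_mul' := fun σ τ => by
        rw [map_mul, map_mul, map_mul, smul_mul_smul_comm] }
  isAdicContinuous := by
    intro n
    obtain ⟨L, hL, h1⟩ := ρ.isAdicContinuous n
    obtain ⟨L', hL', h2⟩ := exists_finiteDimensional_cyc_eq_one M
    haveI : FiniteDimensional ℚ L := hL
    haveI : FiniteDimensional ℚ L' := hL'
    refine ⟨L ⊔ L', IntermediateField.finiteDimensional_sup L L', fun σ hσ v => ?_⟩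
    have hc : cyc M σ = 1 := by
      refine h2 σ ?_
      rw [IntermediateField.mem_fixingSubgroup_iff]
      intro x hx
      exact hσ x ((le_sup_right : L' ≤ L ⊔ L') hx)
    show (ε (cyc M σ) • ρ.ρ σ) v - v ∈ _
    rw [hc, map_one, one_smul]
    exact h1 σ (fun x hx => hσ x ((le_sup_left : L ≤ L ⊔ L') hx)) v

theorem twistRep_ρ (σ : GQ) : (twistRep ρ M ε).ρ σ = ε (cyc M σ) • ρ.ρ σ := rfl

theorem twistRep_isUnramifiedAt {q : ℕ} (hq : q.Prime) (hqM : ¬ q ∣ M)
    (h : ρ.IsUnramifiedAt q) : (twistRep ρ M ε).IsUnramifiedAt q := by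
  intro P hP σ hσ
  rw [twistRep_ρ, cyc_eq_one_of_mem_inertia M hq hqM hP hσ, map_one, one_smul]
  exact h P hP σ hσ

theorem twistRep_not_isScalarEnd {c : GQ} (hc : ¬ IsScalarEnd (ρ.ρ c)) :
    ¬ IsScalarEnd ((twistRep ρ M ε).ρ c) := by
  rintro ⟨r, hr⟩
  apply hc
  refine ⟨ε (cyc M c)⁻¹ * r, ?_⟩
  have hr' : ε (cyc M c) • ρ.ρ c = r • (1 : Module.End R ρ.V) := hr
  have h1 : ε (cyc M c)⁻¹ • (ε (cyc M c) • ρ.ρ c) = ρ.ρ c := by
    rw [smul_smul, mul_comm, eps_mul_eps_inv, one_smul]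
  rw [← h1, hr', smul_smul]

/-- transfer of a quadratic relation: `ρ(φ)² - α ρ(φ) + β = 0` gives
`ρ'(φ)² - (e α) ρ'(φ) + e² β = 0`, `e = ε (cyc_M φ)`. -/
theorem twistRep_quadratic {φ : GQ} {α β : R}
    (h : ρ.ρ φ * ρ.ρ φ - α • ρ.ρ φ + β • (1 : Module.End R ρ.V) = 0) :
    (twistRep ρ M ε).ρ φ * (twistRep ρ M ε).ρ φ - (ε (cyc M φ) * α) • (twistRep ρ M ε).ρ φ +
      (ε (cyc M φ) * ε (cyc M φ) * β) • (1 : Module.End R (twistRep ρ M ε).V) = 0 := by
  rw [twistRep_ρ]
  have h1 : (ε (cyc M φ) • ρ.ρ φ) * (ε (cyc M φ) • ρ.ρ φ) -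
      (ε (cyc M φ) * α) • (ε (cyc M φ) • ρ.ρ φ) +
      (ε (cyc M φ) * ε (cyc M φ) * β) • (1 : Module.End R ρ.V) =
      (ε (cyc M φ) * ε (cyc M φ)) •
        (ρ.ρ φ * ρ.ρ φ - α • ρ.ρ φ + β • (1 : Module.End R ρ.V)) := by
    rw [smul_mul_smul_comm, smul_add, smul_sub, smul_smul, smul_smul, smul_smul]
    congr 2
    congr 1
    ring
  exact h1.trans (by rw [h, smul_zero]; rfl)

end Twist

end Fermat.Agent.W1
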