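/-
W1 = [GRΓ1] (S48), package [MULT1₁] (helper2), part 4 (port of `GR/MULT1_helper2_Extra`, sections
(DESC) and (FIN)).
* (DESC) `eigenPar_ne_bot_of_map`, `eigenPar_ne_bot_map`: occurrence of a system of eigenvalues
  descends and ascends along field extensions;
* (FIN) `exists_finset_eigenParOn_eq`, `exists_finset_forall_mem_adjoin`,
  `finiteDimensional_adjoin_range`: the field generated by a system of eigenvalues occurring in
  `Hom_par(±Γ₁(M), F)` is a number field, generated by finitely many of the eigenvalues.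
-/
import Mathlib
import Fermat.Agent.W1.MULT1_helper2_Occur

set_option autoImplicit false
set_option linter.unusedSectionVars false
set_option linter.style.haveILetI false

namespace Fermat.Agent.W1

open TensorProduct CongruenceSubgroup ModularCurve.Period ModularFormClass
open scoped MatrixGroups
open Fermat.Agent.GR Fermat.Agent.W1.ES

section Desc

variable {M : ℕ} [NeZero M] (K F : Type*) [Field K] [Field F] [CharZero K] [Algebra K F]

/-- **(DESC)**: a system of eigenvalues with values in `K` which occurs over an extension `F`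
of `K` occurs over `K`. -/
theorem eigenPar_ne_bot_of_map (a : HIdx M → K)
    (h : eigenPar M F (fun ℓ => algebraMap K F (a ℓ)) ≠ ⊥) : eigenPar M K a ≠ ⊥ := by
  haveI : CharZero F := charZero_of_injective_algebraMap (algebraMap K F).injective
  have h1 := finrank_eigenPar_map K F (M := M) a
  intro hbot
  rw [hbot, finrank_bot] at h1
  exact h (Submodule.finrank_eq_zero.1 h1)

theorem eigenParOn_ne_bot_of_map (σ : Set (HIdx M)) (a : HIdx M → K)
    (h : eigenParOn M F σ (fun ℓ => algebraMap K F (a ℓ)) ≠ ⊥) : eigenParOn M K σ a ≠ ⊥ := by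
  haveI : CharZero F := charZero_of_injective_algebraMap (algebraMap K F).injective
  have h1 := finrank_eigenParOn_map K F (M := M) σ a
  intro hbot
  rw [hbot, finrank_bot] at h1
  exact h (Submodule.finrank_eq_zero.1 h1)

/-- a system of eigenvalues which occurs over `K` occurs over every extension of `K`. -/
theorem eigenPar_ne_bot_map (a : HIdx M → K) (h : eigenPar M K a ≠ ⊥) :
    eigenPar M F (fun ℓ => algebraMap K F (a ℓ)) ≠ ⊥ := by
  haveI : CharZero F := charZero_of_injective_algebraMap (algebraMap K F).injective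
  have h1 := finrank_eigenPar_map K F (M := M) a
  intro hbot
  rw [hbot, finrank_bot] at h1
  exact h (Submodule.finrank_eq_zero.1 h1.symm)

end Desc

section Fin

variable {M : ℕ} [NeZero M] {F : Type*} [Field F] [CharZero F]

theorem eigenParOn_anti {σ τ : Set (HIdx M)} (h : σ ⊆ τ) (a : HIdx M → F) :
    eigenParOn M F τ a ≤ eigenParOn M F σ a :=
  fun _ hψ => ⟨hψ.1, fun ℓ hℓ => hψ.2 ℓ (h hℓ)⟩

/-- finitely many primes suffice to cut out `E_a`. -/
theorem exists_finset_eigenParOn_eq (a : HIdx M → F) :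
    ∃ s : Finset (HIdx M), eigenParOn M F (↑s) a = eigenPar M F a := by
  classical
  obtain ⟨d, ⟨s₀, hs₀⟩, hmin⟩ := wellFounded_lt.has_min
    (Set.range fun s : Finset (HIdx M) => Module.finrank F ↥(eigenParOn M F (↑s) a))
    ⟨_, ⟨∅, rfl⟩⟩
  refine ⟨s₀, le_antisymm ?_ (eigenPar_le_eigenParOn _ a)⟩
  intro ψ hψ
  refine ⟨hψ.1, fun q => ?_⟩
  have hle : eigenParOn M F (↑(insert q s₀)) a ≤ eigenParOn M F (↑s₀) a :=
    eigenParOn_anti (by rw [Finset.coe_insert]; exact Set.subset_insert _ _) a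
  have hfin : Module.finrank F ↥(eigenParOn M F (↑s₀) a) ≤
      Module.finrank F ↥(eigenParOn M F (↑(insert q s₀)) a) := by
    have h1 : ¬ Module.finrank F ↥(eigenParOn M F (↑(insert q s₀)) a) < d :=
      hmin _ ⟨insert q s₀, rfl⟩
    have h2 : Module.finrank F ↥(eigenParOn M F (↑s₀) a) = d := hs₀
    omega
  have heq := Submodule.eq_of_le_of_finrank_le hle hfin
  have hψ' : ψ ∈ eigenParOn M F (↑(insert q s₀)) a := heq ▸ hψ
  exact hψ'.2 q (by rw [Finset.coe_insert]; exact Set.mem_insert _ _)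

/-- **(FIN)**: the field generated over `ℚ` by a system of eigenvalues occurring in
`Hom_par(±Γ₁(M), F)` is generated by finitely many of them. -/
theorem exists_finset_forall_mem_adjoin {a : HIdx M → F} (h : eigenPar M F a ≠ ⊥) :
    ∃ s : Finset (HIdx M), ∀ ℓ, a ℓ ∈ IntermediateField.adjoin ℚ (a '' (s : Set (HIdx M))) := by
  classical
  obtain ⟨s, hs⟩ := exists_finset_eigenParOn_eq (M := M) a
  refine ⟨s, ?_⟩
  let a₀ : HIdx M → IntermediateField.adjoin ℚ (a '' (s : Set (HIdx M))) := fun ℓ =>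
    if h : a ℓ ∈ IntermediateField.adjoin ℚ (a '' (s : Set (HIdx M))) then ⟨a ℓ, h⟩ else 0
  have ha₀ : ∀ ℓ ∈ (s : Set (HIdx M)),
      algebraMap (IntermediateField.adjoin ℚ (a '' (s : Set (HIdx M)))) F (a₀ ℓ) = a ℓ := by
    intro ℓ hℓ
    have hmem : a ℓ ∈ IntermediateField.adjoin ℚ (a '' (s : Set (HIdx M))) :=
      IntermediateField.subset_adjoin ℚ _ ⟨ℓ, hℓ, rfl⟩
    show algebraMap _ F (dite _ _ _) = _
    rw [dif_pos hmem]
    rfl
  have h1 : eigenParOn M F (↑s)
      (fun ℓ => algebraMap (IntermediateField.adjoin ℚ (a '' (s : Set (HIdx M)))) F (a₀ ℓ)) =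
      eigenPar M F a := by
    rw [← hs]
    exact eigenParOn_congr ha₀
  have h2 : eigenParOn M (IntermediateField.adjoin ℚ (a '' (s : Set (HIdx M)))) (↑s) a₀ ≠ ⊥ := by
    apply eigenParOn_ne_bot_of_map _ F
    rw [h1]
    exact h
  obtain ⟨ψ₀, hψ₀, hψ₀0⟩ := (Submodule.ne_bot_iff _).1 h2
  obtain ⟨γ, hγ⟩ : ∃ γ, ψ₀ γ ≠ 0 := by
    by_contra hcon
    push Not at hcon
    exact hψ₀0 (AddMonoidHom.ext hcon)
  intro q
  -- `algebraMap ∘ ψ₀ ∈ E_a(F)`
  have hmem : (algebraMap (IntermediateField.adjoin ℚ (a '' (s : Set (HIdx M)))) F :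
      _ →+ F).comp ψ₀ ∈ eigenPar M F a := by
    rw [← h1]
    refine ⟨comp_mem_parabolicHoms _ hψ₀.1, fun ℓ hℓ => ?_⟩
    rw [heckeGrpI_comp, hψ₀.2 ℓ hℓ, comp_smul_algebraMap]
  have h3 := hmem.2 q
  rw [heckeGrpI_comp] at h3
  have h4 := DFunLike.congr_fun h3 γ
  have h5 : algebraMap (IntermediateField.adjoin ℚ (a '' (s : Set (HIdx M)))) F
      (heckeGrpI M q _ ψ₀ γ) = a q * algebraMap _ F (ψ₀ γ) := h4
  have hne : algebraMap (IntermediateField.adjoin ℚ (a '' (s : Set (HIdx M)))) F (ψ₀ γ) ≠ 0 :=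
    fun h0 => hγ ((map_eq_zero _).1 h0)
  have h6 : a q = algebraMap (IntermediateField.adjoin ℚ (a '' (s : Set (HIdx M)))) F
      (heckeGrpI M q _ ψ₀ γ / ψ₀ γ) := by
    rw [map_div₀, h5, mul_div_assoc, div_self hne, mul_one]
  rw [h6]
  exact (heckeGrpI M q _ ψ₀ γ / ψ₀ γ).2

/-- **(FIN)**: the field generated over `ℚ` by a system of eigenvalues occurring in
`Hom_par(±Γ₁(M), F)` is a number field. -/
theorem finiteDimensional_adjoin_range {a : HIdx M → F} (h : eigenPar M F a ≠ ⊥) :
    FiniteDimensional ℚ ↥(IntermediateField.adjoin ℚ (Set.range a)) := by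
  obtain ⟨s, hs⟩ := exists_finset_forall_mem_adjoin h
  have heq : IntermediateField.adjoin ℚ (Set.range a) =
      IntermediateField.adjoin ℚ (a '' (s : Set (HIdx M))) := by
    apply le_antisymm
    · rw [IntermediateField.adjoin_le_iff]
      rintro _ ⟨ℓ, rfl⟩
      exact hs ℓ
    · exact IntermediateField.adjoin.mono ℚ _ _ (Set.image_subset_range _ _)
  rw [heq]
  haveI : Finite ↑(a '' (s : Set (HIdx M))) := (s.finite_toSet.image a).to_subtype
  exact IntermediateField.finiteDimensional_adjoin fun x hx => by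
    obtain ⟨ℓ, -, rfl⟩ := hx
    exact (isIntegral_of_eigenPar_ne_bot h ℓ).tower_top

/-- the subalgebra version of (FIN). -/
theorem exists_finset_forall_mem_algebra_adjoin {a : HIdx M → F} (h : eigenPar M F a ≠ ⊥) :
    ∃ s : Finset (HIdx M), ∀ ℓ, a ℓ ∈ Algebra.adjoin ℚ (a '' (s : Set (HIdx M))) := by
  obtain ⟨s, hs⟩ := exists_finset_forall_mem_adjoin h
  refine ⟨s, fun ℓ => ?_⟩
  have halg : ∀ x ∈ a '' (s : Set (HIdx M)), IsAlgebraic ℚ x := by
    rintro _ ⟨q, -, rfl⟩
    exact ((isIntegral_of_eigenPar_ne_bot h q).tower_top (A := ℚ)).isAlgebraic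
  rw [← IntermediateField.adjoin_toSubalgebra_of_isAlgebraic halg]
  exact hs ℓ

end Fin

end Fermat.Agent.W1
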