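/-
W1 [TOP1] (lead), port of `GR/LATTICE_lead_Gal.lean` to `±Γ₁(M)` — part B: from a representation `ρP` of `G_ℚ` on
`P = parabolicHoms ℤ_[p] Γ ℤ_[p]` commuting with all Hecke operators, the representation on the
eigenlattice `Λ ⊆ parabolicHoms 𝒪 Γ 𝒪` of a system of eigenvalues `a : HIdx M → 𝒪`, as a
`GaloisRepAdic 𝒪`, with the transfer of triviality, quadratic relations and non-scalarity.
-/
import Fermat.Agent.W1.TOP1_lead_LatRank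
import Fermat.Agent.GR.DET_lead_Linear
import Fermat.Prelude.Def_GaloisRep_Adic

set_option autoImplicit false
set_option linter.unusedSectionVars false
set_option linter.unusedVariables false
set_option linter.style.haveILetI false

namespace Fermat.Agent.W1

open CongruenceSubgroup ModularCurve.Period TensorProduct Fermat.Agent.GR Fermat.Agent.W1.ES

open scoped MatrixGroups

/-- shortcut instance (instance search through the `Submodule` coercion is fragile inside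
unification problems) -/
instance instAddCommGroupParabolicHoms (M : ℕ) (R : Type*) [CommRing R] :
    AddCommGroup ↥(parabolicHoms R (Gpm M 1) R) := inferInstance

section Ext

variable (M : ℕ) [NeZero M] (R R' : Type*) [CommRing R] [CommRing R'] [Algebra R R']
  [IsAddTorsionFree R] [IsAddTorsionFree R']

/-- the involution `ι` on the parabolic homs -/
def charInvPar (R : Type*) [CommRing R] :
    ↥(parabolicHoms R (Gpm M 1) R) →ₗ[R] ↥(parabolicHoms R (Gpm M 1) R) :=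
  (charInvolutionΓ (Gpm M 1) R R).restrict (fun _ hψ => charInvolutionΓ_mem_parabolicHoms (Gpm M 1) R R hψ)

@[simp] theorem coe_charInvPar (R : Type*) [CommRing R] (ψ : ↥(parabolicHoms R (Gpm M 1) R)) :
    (charInvPar M R ψ).1 = charInvolutionΓ (Gpm M 1) R R ψ.1 := rfl

theorem parExt_heckeParI (ℓ : HIdx M) :
    parExt R R' (Gpm M 1) (heckeParI M ℓ R R) = heckeParI M ℓ R' R' := by
  symm
  apply eq_parExt_of_parMapAlg
  intro ψ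
  apply Subtype.ext
  show heckeGrpI M ℓ R' ((algebraMap R R').toAddMonoidHom.comp ψ.1) =
    (algebraMap R R').toAddMonoidHom.comp (heckeGrpI M ℓ R ψ.1)
  exact heckeGrpI_comp M ℓ _ _

theorem parExt_charInvPar :
    parExt R R' (Gpm M 1) (charInvPar M R) = charInvPar M R' := by
  symm
  apply eq_parExt_of_parMapAlg
  intro ψ
  apply Subtype.ext
  rfl

end Ext

section Lattice

variable (M : ℕ) [NeZero M] (p : ℕ) [hp : Fact p.Prime]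
  (𝒪 : Type) [CommRing 𝒪] [IsDomain 𝒪] [IsDiscreteValuationRing 𝒪] [CharZero 𝒪]
  [Algebra ℤ_[p] 𝒪] (a : HIdx M → 𝒪)
  {G : Type*} [Group G]
  (ρP : G →* Module.End ℤ_[p] ↥(parabolicHoms ℤ_[p] (Gpm M 1) ℤ_[p]))

/-- the representation on `M = parabolicHoms 𝒪 Γ 𝒪` -/
noncomputable def rhoM : G →* Module.End 𝒪 ↥(parabolicHoms 𝒪 (Gpm M 1) 𝒪) :=
  (parExt ℤ_[p] 𝒪 (Gpm M 1) : _ →* _).comp ρP

/-- the eigenlattice as a submodule of `M` -/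
def eigenLattice : Submodule 𝒪 ↥(parabolicHoms 𝒪 (Gpm M 1) 𝒪) :=
  (eigenPar M 𝒪 a).comap (parabolicHoms 𝒪 (Gpm M 1) 𝒪).subtype

/-- shortcut instance (instance search through two nested `Submodule` coercions is fragile) -/
instance instAddCommGroupEigenLattice : AddCommGroup ↥(eigenLattice M 𝒪 a) := inferInstance

variable {M 𝒪 a} in
theorem mem_eigenLattice {m : ↥(parabolicHoms 𝒪 (Gpm M 1) 𝒪)} :
    m ∈ eigenLattice M 𝒪 a ↔ ∀ ℓ : HIdx M, heckeParI M ℓ 𝒪 𝒪 m = a ℓ • m := by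
  constructor
  · intro h ℓ
    apply Subtype.ext
    exact h.2 ℓ
  · intro h
    refine ⟨m.2, fun ℓ => ?_⟩
    exact congrArg Subtype.val (h ℓ)

/-- `Λ ≃ eigenPar M 𝒪 a` -/
def eigenLatticeEquiv : ↥(eigenLattice M 𝒪 a) ≃ₗ[𝒪] ↥(eigenPar M 𝒪 a) where
  toFun m := ⟨m.1.1, m.2⟩
  invFun ψ := ⟨⟨ψ.1, ψ.2.1⟩, ψ.2⟩
  left_inv _ := rfl
  right_inv _ := rfl
  map_add' _ _ := rfl
  map_smul' _ _ := rfl

instance eigenLattice_finite : Module.Finite 𝒪 ↥(eigenLattice M 𝒪 a) :=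
  Module.Finite.equiv (eigenLatticeEquiv M 𝒪 a).symm

instance eigenLattice_free : Module.Free 𝒪 ↥(eigenLattice M 𝒪 a) :=
  Module.Free.of_equiv (eigenLatticeEquiv M 𝒪 a).symm

theorem finrank_eigenLattice (K : Type*) [Field K] [Algebra 𝒪 K] [IsFractionRing 𝒪 K] :
    Module.finrank 𝒪 ↥(eigenLattice M 𝒪 a) =
      Module.finrank K ↥(eigenPar M K (mapSys M 𝒪 K a)) := by
  rw [(eigenLatticeEquiv M 𝒪 a).finrank_eq]
  exact finrank_eigenPar_eq M 𝒪 K a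

/-- saturation inside `M` -/
theorem mem_eigenLattice_of_smul_mem {r : 𝒪} (hr : r ≠ 0)
    {m : ↥(parabolicHoms 𝒪 (Gpm M 1) 𝒪)} (h : r • m ∈ eigenLattice M 𝒪 a) :
    m ∈ eigenLattice M 𝒪 a :=
  mem_eigenPar_of_smul_mem M 𝒪 a hr h

variable (hcomm : ∀ (σ : G) (ℓ : HIdx M),
  ρP σ * heckeParI M ℓ ℤ_[p] ℤ_[p] = heckeParI M ℓ ℤ_[p] ℤ_[p] * ρP σ)

include hcomm in
theorem rhoM_comm (σ : G) (ℓ : HIdx M) :
    rhoM M p 𝒪 ρP σ * heckeParI M ℓ 𝒪 𝒪 = heckeParI M ℓ 𝒪 𝒪 * rhoM M p 𝒪 ρP σ := by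
  have h := congrArg (parExt ℤ_[p] 𝒪 (Gpm M 1)) (hcomm σ ℓ)
  rw [map_mul, map_mul, parExt_heckeParI] at h
  exact h

include hcomm in
theorem rhoM_mem (σ : G) {m : ↥(parabolicHoms 𝒪 (Gpm M 1) 𝒪)}
    (hm : m ∈ eigenLattice M 𝒪 a) : rhoM M p 𝒪 ρP σ m ∈ eigenLattice M 𝒪 a := by
  rw [mem_eigenLattice] at hm ⊢
  intro ℓ
  have h := LinearMap.congr_fun (rhoM_comm M p 𝒪 ρP hcomm σ ℓ) m
  rw [Module.End.mul_apply, Module.End.mul_apply, hm ℓ, map_smul] at h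
  exact h.symm

/-- **the representation on the eigenlattice** -/
noncomputable def rhoLattice : G →* Module.End 𝒪 ↥(eigenLattice M 𝒪 a) where
  toFun σ := (rhoM M p 𝒪 ρP σ).restrict (fun m hm => rhoM_mem M p 𝒪 a ρP hcomm σ hm)
  map_one' := by
    apply LinearMap.ext; intro m; apply Subtype.ext
    show rhoM M p 𝒪 ρP 1 m.1 = m.1
    rw [map_one]; rfl
  map_mul' σ τ := by
    apply LinearMap.ext; intro m; apply Subtype.ext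
    show rhoM M p 𝒪 ρP (σ * τ) m.1 = rhoM M p 𝒪 ρP σ (rhoM M p 𝒪 ρP τ m.1)
    rw [map_mul]; rfl

@[simp] theorem coe_rhoLattice (σ : G) (m : ↥(eigenLattice M 𝒪 a)) :
    (rhoLattice M p 𝒪 a ρP hcomm σ m).1 = rhoM M p 𝒪 ρP σ m.1 := rfl

/-- transfer of triviality -/
theorem rhoLattice_eq_one {σ : G} (h : ρP σ = 1) : rhoLattice M p 𝒪 a ρP hcomm σ = 1 := by
  apply LinearMap.ext; intro m; apply Subtype.ext
  show rhoM M p 𝒪 ρP σ m.1 = m.1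
  show parExt ℤ_[p] 𝒪 (Gpm M 1) (ρP σ) m.1 = m.1
  rw [h, map_one]; rfl

set_option maxHeartbeats 1600000 in
/-- transfer of the quadratic relation (with nebentypus: `ℓ`, `d` are ANY two indices) -/
theorem rhoLattice_quadratic {σ : G} (ℓ d : HIdx M) (q : ℕ)
    (h : ρP σ * ρP σ - heckeParI M ℓ ℤ_[p] ℤ_[p] * ρP σ +
      (q : Module.End ℤ_[p] ↥(parabolicHoms ℤ_[p] (Gpm M 1) ℤ_[p])) *
        heckeParI M d ℤ_[p] ℤ_[p] = 0) :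
    rhoLattice M p 𝒪 a ρP hcomm σ * rhoLattice M p 𝒪 a ρP hcomm σ -
      a ℓ • rhoLattice M p 𝒪 a ρP hcomm σ +
      ((q : 𝒪) * a d) • (1 : Module.End 𝒪 ↥(eigenLattice M 𝒪 a)) = 0 := by
  have h' : ρP σ * ρP σ + (q : Module.End ℤ_[p] ↥(parabolicHoms ℤ_[p] (Gpm M 1) ℤ_[p])) *
        heckeParI M d ℤ_[p] ℤ_[p] =
      heckeParI M ℓ ℤ_[p] ℤ_[p] * ρP σ := by
    rw [← sub_eq_zero, ← h]; abel
  have h1 := congrArg (parExt ℤ_[p] 𝒪 (Gpm M 1)) h'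
  rw [map_add, map_mul, map_mul, map_mul, map_natCast, parExt_heckeParI, parExt_heckeParI] at h1
  apply LinearMap.ext; intro m; apply Subtype.ext
  have h2 := LinearMap.congr_fun h1 m.1
  have hm := rhoM_mem M p 𝒪 a ρP hcomm σ m.2
  rw [mem_eigenLattice] at hm
  have hm0 := m.2
  rw [mem_eigenLattice] at hm0
  simp only [LinearMap.add_apply, Module.End.mul_apply] at h2
  have h3 : heckeParI M ℓ 𝒪 𝒪 (parExt ℤ_[p] 𝒪 (Gpm M 1) (ρP σ) m.1) =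
      a ℓ • parExt ℤ_[p] 𝒪 (Gpm M 1) (ρP σ) m.1 := hm ℓ
  rw [h3] at h2
  have h4' : ∀ x : ↥(parabolicHoms 𝒪 (Gpm M 1) 𝒪),
      (q : Module.End 𝒪 ↥(parabolicHoms 𝒪 (Gpm M 1) 𝒪)) x = (q : 𝒪) • x := fun x => by
    rw [Module.End.natCast_apply, Nat.cast_smul_eq_nsmul]
  have h5 : heckeParI M d 𝒪 𝒪 m.1 = a d • m.1 := hm0 d
  have h4 : (q : Module.End 𝒪 ↥(parabolicHoms 𝒪 (Gpm M 1) 𝒪)) (heckeParI M d 𝒪 𝒪 m.1) =
      ((q : 𝒪) * a d) • m.1 := by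
    rw [h4', h5, mul_smul]
  show parExt ℤ_[p] 𝒪 (Gpm M 1) (ρP σ) (parExt ℤ_[p] 𝒪 (Gpm M 1) (ρP σ) m.1) -
    a ℓ • parExt ℤ_[p] 𝒪 (Gpm M 1) (ρP σ) m.1 + ((q : 𝒪) * a d) • m.1 = 0
  rw [← h4, sub_add_eq_add_sub, h2, sub_self]

set_option maxHeartbeats 1600000 in
/-- transfer of a general quadratic relation `ρ² - A ρ + q B = 0`, where the extensions of `A`, `B`
act on the eigenlattice by the scalars `α`, `β`. -/
theorem rhoLattice_quadratic_gen {σ : G}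
    (A B : Module.End ℤ_[p] ↥(parabolicHoms ℤ_[p] (Gpm M 1) ℤ_[p])) (α β : 𝒪)
    (hA : ∀ m : ↥(parabolicHoms 𝒪 (Gpm M 1) 𝒪), m ∈ eigenLattice M 𝒪 a →
      parExt ℤ_[p] 𝒪 (Gpm M 1) A m = α • m)
    (hB : ∀ m : ↥(parabolicHoms 𝒪 (Gpm M 1) 𝒪), m ∈ eigenLattice M 𝒪 a →
      parExt ℤ_[p] 𝒪 (Gpm M 1) B m = β • m) (q : ℕ)
    (h : ρP σ * ρP σ - A * ρP σ +
      (q : Module.End ℤ_[p] ↥(parabolicHoms ℤ_[p] (Gpm M 1) ℤ_[p])) * B = 0) :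
    rhoLattice M p 𝒪 a ρP hcomm σ * rhoLattice M p 𝒪 a ρP hcomm σ -
      α • rhoLattice M p 𝒪 a ρP hcomm σ +
      ((q : 𝒪) * β) • (1 : Module.End 𝒪 ↥(eigenLattice M 𝒪 a)) = 0 := by
  have h' : ρP σ * ρP σ + (q : Module.End ℤ_[p] ↥(parabolicHoms ℤ_[p] (Gpm M 1) ℤ_[p])) * B =
      A * ρP σ := by
    rw [← sub_eq_zero, ← h]; abel
  have h1 := congrArg (parExt ℤ_[p] 𝒪 (Gpm M 1)) h'
  rw [map_add, map_mul, map_mul, map_mul, map_natCast] at h1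
  apply LinearMap.ext; intro m; apply Subtype.ext
  have h2 := LinearMap.congr_fun h1 m.1
  have hm := rhoM_mem M p 𝒪 a ρP hcomm σ m.2
  simp only [LinearMap.add_apply, Module.End.mul_apply] at h2
  have h3 : parExt ℤ_[p] 𝒪 (Gpm M 1) A (parExt ℤ_[p] 𝒪 (Gpm M 1) (ρP σ) m.1) =
      α • parExt ℤ_[p] 𝒪 (Gpm M 1) (ρP σ) m.1 := hA _ hm
  rw [h3] at h2
  have h4' : ∀ x : ↥(parabolicHoms 𝒪 (Gpm M 1) 𝒪),
      (q : Module.End 𝒪 ↥(parabolicHoms 𝒪 (Gpm M 1) 𝒪)) x = (q : 𝒪) • x := fun x => by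
    rw [Module.End.natCast_apply, Nat.cast_smul_eq_nsmul]
  have h5 : parExt ℤ_[p] 𝒪 (Gpm M 1) B m.1 = β • m.1 := hB _ m.2
  have h4 : (q : Module.End 𝒪 ↥(parabolicHoms 𝒪 (Gpm M 1) 𝒪))
      (parExt ℤ_[p] 𝒪 (Gpm M 1) B m.1) = ((q : 𝒪) * β) • m.1 := by
    rw [h4', h5, mul_smul]
  show parExt ℤ_[p] 𝒪 (Gpm M 1) (ρP σ) (parExt ℤ_[p] 𝒪 (Gpm M 1) (ρP σ) m.1) -
    α • parExt ℤ_[p] 𝒪 (Gpm M 1) (ρP σ) m.1 + ((q : 𝒪) * β) • m.1 = 0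
  rw [← h4, sub_add_eq_add_sub, h2, sub_self]

/-- the operator at the index `i` acts on the eigenlattice by `a i` -/
theorem parExt_heckeParI_apply_of_mem (i : HIdx M) {m : ↥(parabolicHoms 𝒪 (Gpm M 1) 𝒪)}
    (hm : m ∈ eigenLattice M 𝒪 a) :
    parExt ℤ_[p] 𝒪 (Gpm M 1) (heckeParI M i ℤ_[p] ℤ_[p]) m = a i • m := by
  rw [parExt_heckeParI]
  exact (mem_eigenLattice.1 hm) i

/-- the composite of the operators at `d` and `ℓ` acts on the eigenlattice by `a d * a ℓ` -/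
theorem parExt_heckeParI_mul_apply_of_mem (d ℓ : HIdx M) {m : ↥(parabolicHoms 𝒪 (Gpm M 1) 𝒪)}
    (hm : m ∈ eigenLattice M 𝒪 a) :
    parExt ℤ_[p] 𝒪 (Gpm M 1) (heckeParI M d ℤ_[p] ℤ_[p] * heckeParI M ℓ ℤ_[p] ℤ_[p]) m =
      (a d * a ℓ) • m := by
  rw [map_mul, parExt_heckeParI, parExt_heckeParI, Module.End.mul_apply,
    (mem_eigenLattice.1 hm) ℓ, map_smul, (mem_eigenLattice.1 hm) d, smul_smul, mul_comm]

/-- congruence on `M`: if `ρP σ ≡ 1 mod p^k` on `P` then `ρM σ ≡ 1 mod p^k` on `M` -/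
theorem rhoM_sub_eq_smul {σ : G} (k : ℕ)
    (h : ∀ ψ : ↥(parabolicHoms ℤ_[p] (Gpm M 1) ℤ_[p]),
      ∃ ψ' : ↥(parabolicHoms ℤ_[p] (Gpm M 1) ℤ_[p]), ρP σ ψ - ψ = (p : ℤ_[p]) ^ k • ψ')
    (m : ↥(parabolicHoms 𝒪 (Gpm M 1) 𝒪)) :
    ∃ m' : ↥(parabolicHoms 𝒪 (Gpm M 1) 𝒪), rhoM M p 𝒪 ρP σ m - m = (p : 𝒪) ^ k • m' := by
  obtain ⟨x, rfl⟩ := (parBC ℤ_[p] 𝒪 (Gpm M 1)).surjective m
  induction x using TensorProduct.induction_on with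
  | zero =>
    refine ⟨0, ?_⟩
    rw [LinearEquiv.map_zero (parBC ℤ_[p] 𝒪 (Gpm M 1)), map_zero, sub_zero, smul_zero]
  | add x y hx hy =>
    obtain ⟨m1, h1⟩ := hx
    obtain ⟨m2, h2⟩ := hy
    refine ⟨m1 + m2, ?_⟩
    rw [LinearEquiv.map_add (parBC ℤ_[p] 𝒪 (Gpm M 1)), map_add, smul_add, ← h1, ← h2]
    abel
  | tmul c ψ =>
    obtain ⟨ψ', hψ'⟩ := h ψ
    refine ⟨c • parMapAlg ℤ_[p] 𝒪 (Gpm M 1) ψ', ?_⟩
    have h1 : rhoM M p 𝒪 ρP σ (parBC ℤ_[p] 𝒪 (Gpm M 1) (c ⊗ₜ ψ)) =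
        c • parMapAlg ℤ_[p] 𝒪 (Gpm M 1) (ρP σ ψ) := by
      rw [parBC_tmul]
      exact parExt_smul_parMapAlg ℤ_[p] 𝒪 (Gpm M 1) (ρP σ) c ψ
    rw [h1, parBC_tmul, ← smul_sub, ← map_sub, hψ', map_smul, smul_comm c,
      ← algebraMap_smul 𝒪 ((p : ℤ_[p]) ^ k), map_pow, map_natCast]

variable (hp𝒪 : (p : 𝒪) ∈ IsLocalRing.maximalIdeal 𝒪)

include hp𝒪 in
/-- congruence on the lattice -/
theorem rhoLattice_sub_mem {σ : G} (k : ℕ)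
    (h : ∀ ψ : ↥(parabolicHoms ℤ_[p] (Gpm M 1) ℤ_[p]),
      ∃ ψ' : ↥(parabolicHoms ℤ_[p] (Gpm M 1) ℤ_[p]), ρP σ ψ - ψ = (p : ℤ_[p]) ^ k • ψ')
    (v : ↥(eigenLattice M 𝒪 a)) :
    rhoLattice M p 𝒪 a ρP hcomm σ v - v ∈
      (IsLocalRing.maximalIdeal 𝒪 ^ k) • (⊤ : Submodule 𝒪 ↥(eigenLattice M 𝒪 a)) := by
  obtain ⟨m', hm'⟩ := rhoM_sub_eq_smul M p 𝒪 ρP k h v.1
  have hp0 : ((p : 𝒪) ^ k) ≠ 0 := pow_ne_zero _ (Nat.cast_ne_zero.2 hp.out.ne_zero)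
  have hmem : (p : 𝒪) ^ k • m' ∈ eigenLattice M 𝒪 a := by
    rw [← hm']
    exact (eigenLattice M 𝒪 a).sub_mem (rhoM_mem M p 𝒪 a ρP hcomm σ v.2) v.2
  have hm'mem : m' ∈ eigenLattice M 𝒪 a := mem_eigenLattice_of_smul_mem M 𝒪 a hp0 hmem
  have heq : rhoLattice M p 𝒪 a ρP hcomm σ v - v =
      (p : 𝒪) ^ k • (⟨m', hm'mem⟩ : ↥(eigenLattice M 𝒪 a)) := by
    apply Subtype.ext
    exact hm'
  rw [heq]
  exact Submodule.smul_mem_smul (Ideal.pow_mem_pow hp𝒪 k) Submodule.mem_top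

end Lattice

end Fermat.Agent.W1
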