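/-
W1 [TOP1] (lead), port of `GR/TOP_lead_Rep.lean` to `±Γ₁(M)` — part 2: **the Galois representation
attached to a system of eigenvalues** `a : HIdx M → 𝒪` (from `StageIData₁` + multiplicity one).

`rep` is the representation on the eigenlattice (Eichler–Shimura for the `μ_M`-model of `X₁(M)`:
`F² - T'_q F + q ⟨q⟩ = 0`, helper9's `StageIData₁`):
`charpoly (rep φ_q) = X² - a_q X + q ε(q)` for ALL Frobenius elements at `q ∤ M p`.
-/
import Fermat.Agent.W1.TOP1_helper9_System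
import Fermat.Agent.W1.TOP1_lead_LatRep
import Fermat.Agent.W1.DETCHI_lead_Main

set_option autoImplicit false
set_option linter.unusedSectionVars false
set_option linter.unusedVariables false
set_option linter.style.haveILetI false

namespace Fermat.Agent.W1

open CongruenceSubgroup ModularCurve ModularCurve.Period Polynomial Fermat.Agent.GR
  Fermat.Agent.W1.ES Fermat.Agent.TW.Kill

open scoped MatrixGroups

local notation "Ω" => AlgebraicClosure ℚ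
local notation "GQ" => (AlgebraicClosure ℚ ≃ₐ[ℚ] AlgebraicClosure ℚ)

section Eps

variable {M : ℕ} [NeZero M] (𝒪 : Type) [CommRing 𝒪] [IsDomain 𝒪] (a : HIdx M → 𝒪)
  (K : Type*) [Field K] [Algebra 𝒪 K] [IsFractionRing 𝒪 K]

theorem sys_inr_one (hocc : eigenPar M K (mapSys M 𝒪 K a) ≠ ⊥) :
    a (Sum.inr 1) = 1 := by
  obtain ⟨ψ, hψ, h0⟩ := (Submodule.ne_bot_iff _).1 hocc
  obtain ⟨γ, hγ⟩ := DFunLike.ne_iff.1 h0
  have h1 := hψ.2 (Sum.inr 1)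
  rw [heckeGrpI_inr, diamondGrp_one] at h1
  have h2 := DFunLike.congr_fun h1 γ
  have h3 : ψ γ = algebraMap 𝒪 K (a (Sum.inr 1)) * ψ γ := h2
  have h4 : algebraMap 𝒪 K (a (Sum.inr 1)) = 1 := by
    have h5 : (algebraMap 𝒪 K (a (Sum.inr 1)) - 1) * ψ γ = 0 := by
      rw [sub_mul, one_mul, ← h3, sub_self]
    rcases mul_eq_zero.1 h5 with h | h
    · exact sub_eq_zero.1 h
    · exact absurd h hγ
  apply IsFractionRing.injective 𝒪 K
  rw [h4, map_one]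

theorem sys_inr_mul (hocc : eigenPar M K (mapSys M 𝒪 K a) ≠ ⊥) (d d' : (ZMod M)ˣ) :
    a (Sum.inr (d * d')) = a (Sum.inr d) * a (Sum.inr d') := by
  obtain ⟨ψ, hψ, h0⟩ := (Submodule.ne_bot_iff _).1 hocc
  obtain ⟨γ, hγ⟩ := DFunLike.ne_iff.1 h0
  have h1 := hψ.2 (Sum.inr (d * d'))
  have hd := hψ.2 (Sum.inr d)
  have hd' := hψ.2 (Sum.inr d')
  rw [heckeGrpI_inr] at h1 hd hd'
  rw [diamondGrp_mul, AddMonoidHom.comp_apply, hd] at h1
  have h6 : diamondGrp M K d' (mapSys M 𝒪 K a (Sum.inr d) • ψ) =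
      mapSys M 𝒪 K a (Sum.inr d) • diamondGrp M K d' ψ :=
    (diamondGrpₗ M K K d').map_smul _ ψ
  rw [h6, hd'] at h1
  have h2 := DFunLike.congr_fun h1 γ
  have h3 : algebraMap 𝒪 K (a (Sum.inr d)) * (algebraMap 𝒪 K (a (Sum.inr d')) * ψ γ) =
      algebraMap 𝒪 K (a (Sum.inr (d * d'))) * ψ γ := h2
  apply IsFractionRing.injective 𝒪 K
  rw [map_mul]
  have h5 : (algebraMap 𝒪 K (a (Sum.inr (d * d'))) -
      algebraMap 𝒪 K (a (Sum.inr d)) * algebraMap 𝒪 K (a (Sum.inr d'))) * ψ γ = 0 := by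
    rw [sub_mul, ← h3]; ring
  rcases mul_eq_zero.1 h5 with h | h
  · exact sub_eq_zero.1 h
  · exact absurd h hγ

/-- **the nebentypus character of a system of eigenvalues occurring in the parabolic homs** -/
noncomputable def epsHom (hocc : eigenPar M K (mapSys M 𝒪 K a) ≠ ⊥) : (ZMod M)ˣ →* 𝒪 where
  toFun d := a (Sum.inr d)
  map_one' := sys_inr_one 𝒪 a K hocc
  map_mul' := sys_inr_mul 𝒪 a K hocc

@[simp] theorem epsHom_apply (hocc : eigenPar M K (mapSys M 𝒪 K a) ≠ ⊥) (d : (ZMod M)ˣ) :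
    epsHom 𝒪 a K hocc d = a (Sum.inr d) := rfl

end Eps

namespace StageIData₁

variable {M : ℕ} [NeZero M] {p : ℕ} [hp : Fact p.Prime] (I : StageIData₁ M p)
  (𝒪 : Type) [CommRing 𝒪] [IsDomain 𝒪] [IsDiscreteValuationRing 𝒪] [CharZero 𝒪]
  [Algebra ℤ_[p] 𝒪] (hp𝒪 : (p : 𝒪) ∈ IsLocalRing.maximalIdeal 𝒪) (a : HIdx M → 𝒪)
  (K : Type*) [Field K] [Algebra 𝒪 K] [IsFractionRing 𝒪 K]
  (hrank : Module.finrank K ↥(eigenPar M K (mapSys M 𝒪 K a)) = 2)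

theorem rhoP_c0 : I.rhoP I.c0 + charInvPar M ℤ_[p] = 0 := by
  apply LinearMap.ext
  intro ψ
  apply Subtype.ext
  show (I.rhoP I.c0 ψ).1 + charInvolutionΓ (Gpm M 1) ℤ_[p] ℤ_[p] ψ.1 = 0
  rw [I.rhoP_c0_apply]
  exact neg_add_cancel _

/-- the representation on the eigenlattice of the system `a` -/
noncomputable def rep : GaloisRepAdic 𝒪 :=
  latticeRep M p 𝒪 a K I.rhoP I.rhoP_comm hp𝒪 hrank I.rhoP_continuous

theorem rep_ρ : (I.rep 𝒪 hp𝒪 a K hrank).ρ = rhoLattice M p 𝒪 a I.rhoP I.rhoP_comm := rfl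

theorem rep_isUnramifiedAt {q : ℕ} (hq : q.Prime) (hqMp : ¬ q ∣ M * p) :
    (I.rep 𝒪 hp𝒪 a K hrank).IsUnramifiedAt q := by
  intro A hA σ hσ
  rw [rep_ρ]
  exact rhoLattice_eq_one M p 𝒪 a I.rhoP I.rhoP_comm (I.rhoP_inertia hq hqMp hA hσ)

theorem rep_quadratic {q : ℕ} (hq : q.Prime) (hqMp : ¬ q ∣ M * p)
    {A : ValuationSubring Ω} (hA : A.LiesOverPrime q) {σ : GQ} (hσ : A.IsFrobeniusAt σ q) :
    (I.rep 𝒪 hp𝒪 a K hrank).ρ σ * (I.rep 𝒪 hp𝒪 a K hrank).ρ σ -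
      a (Sum.inl ⟨q, hq⟩) • (I.rep 𝒪 hp𝒪 a K hrank).ρ σ +
      ((q : 𝒪) * a (Sum.inr (DS48.primeUnit M hq (fun h => hqMp (Dvd.dvd.mul_right h p))))) •
        (1 : Module.End 𝒪 (I.rep 𝒪 hp𝒪 a K hrank).V) = 0 := by
  rw [rep_ρ]
  exact rhoLattice_quadratic M p 𝒪 a I.rhoP I.rhoP_comm _ _ q
    (I.rhoP_quadratic hq hqMp hA hσ)

variable
  (hplus : ∃ e : Additive (Gpm M 1) →+ K, e ∈ eigenPar M K (mapSys M 𝒪 K a) ∧ e ≠ 0 ∧
      charInvolutionΓ (Gpm M 1) K K e = e)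
  (hminus : ∃ e : Additive (Gpm M 1) →+ K, e ∈ eigenPar M K (mapSys M 𝒪 K a) ∧ e ≠ 0 ∧
      charInvolutionΓ (Gpm M 1) K K e = -e)

include hplus hminus in
theorem rep_c0_not_isScalarEnd :
    ¬ IsScalarEnd ((I.rep 𝒪 hp𝒪 a K hrank).ρ I.c0) := by
  rw [rep_ρ]
  exact rhoLattice_not_isScalarEnd M p 𝒪 a K I.rhoP I.rhoP_comm I.rhoP_c0 hplus hminus

variable (hocc : eigenPar M K (mapSys M 𝒪 K a) ≠ ⊥)

/-- the eigenvalues at the primes, indexed by `ℕ` -/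
noncomputable def natSys : ℕ → 𝒪 := fun q => if h : q.Prime then a (Sum.inl ⟨q, h⟩) else 0

theorem natSys_prime {q : ℕ} (hq : q.Prime) : natSys 𝒪 a q = a (Sum.inl ⟨q, hq⟩) := dif_pos hq

theorem cyc_frobenius_eq_primeUnit {q : ℕ} (hq : q.Prime) (hqM : ¬ q ∣ M)
    {A : ValuationSubring Ω} (hA : A.LiesOverPrime q) {σ : GQ} (hσ : A.IsFrobeniusAt σ q) :
    cyc M σ = DS48.primeUnit M hq hqM := by
  apply Units.ext
  rw [cyc_frobenius M hq hqM hA hσ, DS48.coe_primeUnit]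

theorem rep_frobeniusQuadraticChiOutside :
    FrobeniusQuadraticChiOutside (I.rep 𝒪 hp𝒪 a K hrank) M (epsHom 𝒪 a K hocc)
      (M * p).primeFactors (natSys 𝒪 a) := by
  intro q hq hqT A hA φ hφ
  have hMp : M * p ≠ 0 := Nat.mul_ne_zero (NeZero.ne M) hp.out.ne_zero
  have hqMp : ¬ q ∣ M * p := fun h => hqT (Nat.mem_primeFactors.2 ⟨hq, h, hMp⟩)
  have hqM : ¬ q ∣ M := fun h => hqMp (Dvd.dvd.mul_right h p)
  rw [natSys_prime 𝒪 a hq, cyc_frobenius_eq_primeUnit hq hqM hA hφ, epsHom_apply]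
  exact I.rep_quadratic 𝒪 hp𝒪 a K hrank hq hqMp hA hφ

theorem mem_primeFactors_self : p ∈ (M * p).primeFactors :=
  Nat.mem_primeFactors.2 ⟨hp.out, Dvd.intro_left M rfl,
    Nat.mul_ne_zero (NeZero.ne M) hp.out.ne_zero⟩

include hplus hminus hocc in
/-- **Eichler–Shimura + multiplicity one + Chebotarev**: the characteristic polynomial of every
Frobenius element at `q ∤ Mp`. -/
theorem rep_charpoly_frobenius {q : ℕ} (hq : q.Prime) (hqM : ¬ q ∣ M) (hqp : q ≠ p)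
    {A : ValuationSubring Ω} (hA : A.LiesOverPrime q) {σ : GQ} (hσ : A.IsFrobeniusAt σ q) :
    LinearMap.charpoly ((I.rep 𝒪 hp𝒪 a K hrank).ρ σ) =
      X ^ 2 - C (a (Sum.inl ⟨q, hq⟩)) * X +
        C ((q : 𝒪) * a (Sum.inr (DS48.primeUnit M hq hqM))) := by
  have hqT : q ∉ (M * p).primeFactors := by
    intro h
    rcases (Nat.Prime.dvd_mul hq).1 (Nat.mem_primeFactors.1 h).2.1 with h | h
    · exact hqM h
    · exact hqp ((Nat.prime_dvd_prime_iff_eq hq hp.out).1 h)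
  have h := charpoly_frobenius_of_frobeniusQuadraticChi hp𝒪 mem_primeFactors_self
    (I.rep_frobeniusQuadraticChiOutside 𝒪 hp𝒪 a K hrank hocc)
    (I.rep_c0_not_isScalarEnd 𝒪 hp𝒪 a K hrank hplus hminus) hq hqT hA hσ
  rw [natSys_prime 𝒪 a hq, cyc_frobenius_eq_primeUnit hq hqM hA hσ, epsHom_apply] at h
  exact h

end StageIData₁

end Fermat.Agent.W1
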