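/-
W1 [TOP1] (lead), port of `GR/S30TOP_lead.lean` to `±Γ₁(M)`: **`AdicRepGamma1` from
`StageIData₁`** — uses helper2's multiplicity one over fields, occurrence of characters of the
Hecke algebra `hecke1Alg M`, integrality and descent.
-/
import Fermat.Agent.W1.TOP1_lead_Rep
import Fermat.Agent.GR.PADICALG_lead
import Fermat.Agent.GR.S30TOP_lead
import Fermat.Agent.W1.MULT1_helper2_Extra
import Fermat.Agent.W1.MULT1_helper2_ESInst
import Fermat.Agent.CFT.Local.IntClosure
import Fermat.Agent.DS48.RED_lead_Defs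

set_option autoImplicit false
set_option linter.unusedSectionVars false
set_option linter.unusedVariables false
set_option linter.style.haveILetI false

namespace Fermat.Agent.W1

open CongruenceSubgroup ModularCurve ModularCurve.Period Polynomial IsLocalRing Fermat.Agent.GR
  Fermat.Agent.W1.ES

open scoped MatrixGroups

local notation "Ω" => AlgebraicClosure ℚ
local notation "GQ" => (AlgebraicClosure ℚ ≃ₐ[ℚ] AlgebraicClosure ℚ)

section Parts

variable {M : ℕ} [NeZero M]

/-- nonzero elements of the `±`-parts from multiplicity one -/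
theorem exists_plus_minus_of_occ [ESHyp M] (F : Type) [Field F] [CharZero F]
    (a : HIdx M → F) (h : eigenPar M F a ≠ ⊥) :
    (∃ e : Additive (Gpm M 1) →+ F, e ∈ eigenPar M F a ∧ e ≠ 0 ∧
      charInvolutionΓ (Gpm M 1) F F e = e) ∧
    (∃ e : Additive (Gpm M 1) →+ F, e ∈ eigenPar M F a ∧ e ≠ 0 ∧
      charInvolutionΓ (Gpm M 1) F F e = -e) := by
  obtain ⟨h1, h2, _⟩ := mult1_field h
  constructor
  · have hpos : 0 < Module.finrank F ↥(eigenParPlus M F a) := by rw [h1]; exact one_pos
    haveI := Module.nontrivial_of_finrank_pos hpos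
    obtain ⟨e, he⟩ := exists_ne (0 : ↥(eigenParPlus M F a))
    have hmem := mem_eigenParPlus.1 e.2
    exact ⟨e.1, hmem.1, fun h0 => he (Subtype.ext h0), hmem.2⟩
  · have hpos : 0 < Module.finrank F ↥(eigenParMinus M F a) := by rw [h2]; exact one_pos
    haveI := Module.nontrivial_of_finrank_pos hpos
    obtain ⟨e, he⟩ := exists_ne (0 : ↥(eigenParMinus M F a))
    have hmem := mem_eigenParMinus.1 e.2
    exact ⟨e.1, hmem.1, fun h0 => he (Subtype.ext h0), hmem.2⟩

/-- (DESC) occurrence descends to subfields containing the eigenvalues (and ascends) -/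
theorem eigenPar_ne_bot_map_iff (K F : Type) [Field K] [Field F] [CharZero K] [Algebra K F]
    (a : HIdx M → K) :
    eigenPar M F (fun ℓ => algebraMap K F (a ℓ)) ≠ ⊥ ↔ eigenPar M K a ≠ ⊥ := by
  haveI : CharZero F := charZero_of_injective_algebraMap (algebraMap K F).injective
  have h := finrank_eigenPar_map (M := M) K F a
  rw [← Submodule.one_le_finrank_iff, ← Submodule.one_le_finrank_iff, h]

end Parts

section Main

variable {M : ℕ} [NeZero M] {p : ℕ} [hp : Fact p.Prime]

/-- the core: a complete DVR `B` with fraction field `L`, a system `a : HIdx M → B` occurring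
over `L` ⇒ the conclusions of `AdicRepGamma1` for `B`. -/
theorem exists_rep_of_system [ESHyp M] (I : StageIData₁ M p)
    (B : Type) [CommRing B] [IsDomain B] [IsDiscreteValuationRing B] [CharZero B]
    [IsAdicComplete (maximalIdeal B) B] (hpB : (p : B) ∈ maximalIdeal B)
    (L : Type) [Field L] [Algebra B L] [IsFractionRing B L]
    (a : HIdx M → B) (hocc : eigenPar M L (mapSys M B L a) ≠ ⊥) :
    ∃ ρ : GaloisRepAdic B,
      (∀ (q : ℕ) (hq : q.Prime) (hqM : ¬ q ∣ M), q ≠ p →
        ∀ A : ValuationSubring Ω, A.LiesOverPrime q → ∀ σ : GQ, A.IsFrobeniusAt σ q →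
          LinearMap.charpoly (ρ.ρ σ) = X ^ 2 - C (a (Sum.inl ⟨q, hq⟩)) * X +
            C ((q : B) * a (Sum.inr (DS48.primeUnit M hq hqM)))) ∧
      (∀ q : ℕ, q.Prime → ¬ q ∣ M → q ≠ p → ρ.IsUnramifiedAt q) := by
  letI : Algebra ℤ_[p] B := (padicToComplete p (maximalIdeal B) hpB).toAlgebra
  haveI : CharZero L := charZero_of_injective_algebraMap (IsFractionRing.injective B L)
  obtain ⟨_, _, hrank⟩ := mult1_field hocc
  obtain ⟨hplus, hminus⟩ := exists_plus_minus_of_occ L (mapSys M B L a) hocc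
  refine ⟨I.rep B hpB a L hrank, ?_, ?_⟩
  · intro q hq hqM hqp A hA σ hσ
    exact I.rep_charpoly_frobenius B hpB a L hrank hplus hminus hocc hq hqM hqp hA hσ
  · intro q hq hqM hqp
    refine I.rep_isUnramifiedAt B hpB a L hrank hq ?_
    intro h
    rcases (Nat.Prime.dvd_mul hq).1 h with h | h
    · exact hqM h
    · exact hqp ((Nat.prime_dvd_prime_iff_eq hq hp.out).1 h)

/-- Stage A: a finite extension `L` of the fraction field of a complete DVR `A` over which a
system of integral eigenvalues occurs ⇒ the data for `B := integralClosure A L`. -/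
theorem exists_ext_rep_of_finite [ESHyp M] (I : StageIData₁ M p)
    (A : Type) [CommRing A] [IsDomain A] [IsDiscreteValuationRing A]
    [IsAdicComplete (maximalIdeal A) A] [Finite (ResidueField A)] [CharZero A]
    (hpA : (p : A) ∈ maximalIdeal A)
    (K : Type) [Field K] [Algebra A K] [IsFractionRing A K]
    (L : Type) [Field L] [Algebra K L] [FiniteDimensional K L] [Algebra A L] [IsScalarTower A K L]
    (aL : HIdx M → L) (hint : ∀ ℓ, IsIntegral A (aL ℓ)) (hocc : eigenPar M L aL ≠ ⊥) :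
    ∃ (B : Type) (_ : CommRing B) (_ : IsDomain B) (_ : IsDiscreteValuationRing B)
      (_ : IsAdicComplete (maximalIdeal B) B) (_ : Finite (ResidueField B)) (_ : CharZero B)
      (_ : Algebra A B) (_ : Module.Finite A B) (_ : IsLocalHom (algebraMap A B)),
      Function.Injective (algebraMap A B) ∧
      ∃ ρ : GaloisRepAdic B,
        (∀ (q : ℕ) (hq : q.Prime) (hqM : ¬ q ∣ M), q ≠ p → ∀ x y : A,
          algebraMap A L x = aL (Sum.inl ⟨q, hq⟩) →
          algebraMap A L y = aL (Sum.inr (DS48.primeUnit M hq hqM)) →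
          ∀ V : ValuationSubring Ω, V.LiesOverPrime q → ∀ σ : GQ, V.IsFrobeniusAt σ q →
            LinearMap.charpoly (ρ.ρ σ) = X ^ 2 - C (algebraMap A B x) * X +
              C ((q : B) * algebraMap A B y)) ∧
        (∀ q : ℕ, q.Prime → ¬ q ∣ M → q ≠ p → ρ.IsUnramifiedAt q) := by
  haveI : CharZero K := charZero_of_injective_algebraMap (IsFractionRing.injective A K)
  haveI : Algebra.IsSeparable K L := Algebra.IsAlgebraic.isSeparable_of_perfectField
  obtain ⟨i1, i2, i3, i4, i5, i6, i7⟩ :=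
    Fermat.Agent.CFT.Local.exists_localExt_instances A K L ↥(integralClosure A L)
  haveI := i1
  haveI := i2
  haveI := i3
  haveI := i4
  haveI := i5
  haveI := i6
  haveI hfinres : Finite (ResidueField ↥(integralClosure A L)) := i7 inferInstance
  have hinjL : Function.Injective (algebraMap A L) := by
    rw [IsScalarTower.algebraMap_eq A K L]
    exact (algebraMap K L).injective.comp (IsFractionRing.injective A K)
  have hinj : Function.Injective (algebraMap A ↥(integralClosure A L)) := by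
    intro x y hxy
    apply hinjL
    exact congrArg Subtype.val hxy
  haveI : CharZero ↥(integralClosure A L) := charZero_of_injective_algebraMap hinj
  have hpB : (p : ↥(integralClosure A L)) ∈ maximalIdeal ↥(integralClosure A L) := by
    have h1 : (p : ↥(integralClosure A L)) = algebraMap A ↥(integralClosure A L) (p : A) := by
      rw [map_natCast]
    rw [h1]
    exact map_nonunit (algebraMap A ↥(integralClosure A L)) _ hpA
  let a'' : HIdx M → ↥(integralClosure A L) := fun ℓ => ⟨aL ℓ, hint ℓ⟩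
  have hsys : mapSys M ↥(integralClosure A L) L a'' = aL := rfl
  obtain ⟨ρ, h1, h2⟩ := exists_rep_of_system I ↥(integralClosure A L) hpB L a''
    (by rw [hsys]; exact hocc)
  refine ⟨↥(integralClosure A L), inferInstance, inferInstance, inferInstance, inferInstance,
    hfinres, inferInstance, inferInstance, inferInstance, inferInstance, hinj, ρ, ?_, h2⟩
  intro q hq hqM hqp x y hx hy V hV σ hσ
  rw [h1 q hq hqM hqp V hV σ hσ]
  have e1 : a'' (Sum.inl ⟨q, hq⟩) = algebraMap A ↥(integralClosure A L) x :=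
    Subtype.ext hx.symm
  have e2 : a'' (Sum.inr (DS48.primeUnit M hq hqM)) = algebraMap A ↥(integralClosure A L) y :=
    Subtype.ext hy.symm
  rw [e1, e2]

/-- elements of the `ℚ`-subalgebra generated by a set lie in every subfield containing the set -/
theorem mem_adjoin_of_mem_algebra_adjoin_rat {K F : Type*} [Field K] [Field F] [CharZero F]
    [Algebra K F] {S : Set F} {x : F} (hx : x ∈ Algebra.adjoin ℚ S) :
    x ∈ IntermediateField.adjoin K S := by
  induction hx using Algebra.adjoin_induction with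
  | mem y hy => exact IntermediateField.subset_adjoin K S hy
  | algebraMap r =>
    rw [eq_ratCast]
    exact SubfieldClass.ratCast_mem _ r
  | add y z _ _ hy hz => exact add_mem hy hz
  | mul y z _ _ hy hz => exact mul_mem hy hz

/-- Stage B: **`AdicRepGamma1` at `(M, p)` from a term of `StageIData₁ M p`.** -/
theorem adicRep_of_stageIData₁ (hM : M ≠ 1) (I : StageIData₁ M p)
    (𝒪' : Type) [CommRing 𝒪'] [IsDomain 𝒪'] [IsDiscreteValuationRing 𝒪']
    [IsAdicComplete (IsLocalRing.maximalIdeal 𝒪') 𝒪'] [Finite (IsLocalRing.ResidueField 𝒪')]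
    [CharZero 𝒪'] (hp𝒪' : (p : 𝒪') ∈ IsLocalRing.maximalIdeal 𝒪')
    (χ : ↥(DS48.hecke1Alg M) →+* 𝒪') :
    ∃ (𝒪'' : Type) (_ : CommRing 𝒪'') (_ : IsDomain 𝒪'') (_ : IsDiscreteValuationRing 𝒪'')
      (_ : IsAdicComplete (IsLocalRing.maximalIdeal 𝒪'') 𝒪'')
      (_ : Finite (IsLocalRing.ResidueField 𝒪'')) (_ : CharZero 𝒪'')
      (_ : Algebra 𝒪' 𝒪'') (_ : Module.Finite 𝒪' 𝒪'') (_ : IsLocalHom (algebraMap 𝒪' 𝒪'')),
    Function.Injective (algebraMap 𝒪' 𝒪'') ∧
    ∃ ρ : GaloisRepAdic 𝒪'',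
      (∀ (q : ℕ) (hq : q.Prime) (hqM : ¬ q ∣ M), q ≠ p →
        ∀ A : ValuationSubring Ω, A.LiesOverPrime q → ∀ σ : GQ, A.IsFrobeniusAt σ q →
          LinearMap.charpoly (ρ.ρ σ) =
            X ^ 2 - C (algebraMap 𝒪' 𝒪''
              (χ ⟨DS48.heckeT1 2 hq hqM, DS48.heckeT1_mem_hecke1Alg M hq hqM⟩)) * X +
            C ((q : 𝒪'') * algebraMap 𝒪' 𝒪''
              (χ ⟨DS48.diamond 2 (DS48.primeUnit M hq hqM), DS48.diamond_mem_hecke1Alg M _⟩))) ∧
      (∀ q : ℕ, q.Prime → ¬ q ∣ M → q ≠ p → ρ.IsUnramifiedAt q) := by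
  haveI : ESHyp M := esHyp_of_ne_one M hM
  haveI : CharZero (FractionRing 𝒪') :=
    charZero_of_injective_algebraMap (IsFractionRing.injective 𝒪' (FractionRing 𝒪'))
  -- the character over an algebraic closure
  obtain ⟨aF, hoccF, haT, haD⟩ := exists_eigenPar_of_character (M := M)
    (F := AlgebraicClosure (FractionRing 𝒪'))
    ((algebraMap 𝒪' (AlgebraicClosure (FractionRing 𝒪'))).comp χ)
  have hint𝒪 : ∀ ℓ, IsIntegral 𝒪' (aF ℓ) := fun ℓ =>
    isIntegral_of_isIntegral_int (isIntegral_of_eigenPar_ne_bot hoccF ℓ)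
  have hintK : ∀ ℓ, IsIntegral (FractionRing 𝒪') (aF ℓ) := fun ℓ =>
    isIntegral_of_isIntegral_int (isIntegral_of_eigenPar_ne_bot hoccF ℓ)
  -- the finite extension generated by finitely many eigenvalues
  obtain ⟨s, hs⟩ := exists_finset_forall_mem_algebra_adjoin hoccF
  haveI : Finite ↑(aF '' (s : Set (HIdx M))) := (s.finite_toSet.image aF).to_subtype
  haveI hfd : FiniteDimensional (FractionRing 𝒪')
      ↥(IntermediateField.adjoin (FractionRing 𝒪') (aF '' (s : Set (HIdx M)))) :=
    IntermediateField.finiteDimensional_adjoin (by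
      rintro _ ⟨ℓ, _, rfl⟩
      exact hintK ℓ)
  haveI : IsScalarTower 𝒪' (FractionRing 𝒪')
      ↥(IntermediateField.adjoin (FractionRing 𝒪') (aF '' (s : Set (HIdx M)))) :=
    IsScalarTower.of_algebraMap_eq fun x => Subtype.ext (by
      show algebraMap 𝒪' (AlgebraicClosure (FractionRing 𝒪')) x = _
      rw [IsScalarTower.algebraMap_apply 𝒪' (FractionRing 𝒪') (AlgebraicClosure (FractionRing 𝒪'))]
      rfl)
  have hmem : ∀ ℓ : HIdx M, aF ℓ ∈
      IntermediateField.adjoin (FractionRing 𝒪') (aF '' (s : Set (HIdx M))) := fun ℓ =>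
    mem_adjoin_of_mem_algebra_adjoin_rat (hs ℓ)
  let aL : HIdx M →
      ↥(IntermediateField.adjoin (FractionRing 𝒪') (aF '' (s : Set (HIdx M)))) :=
    fun ℓ => ⟨aF ℓ, hmem ℓ⟩
  haveI : IsScalarTower 𝒪'
      ↥(IntermediateField.adjoin (FractionRing 𝒪') (aF '' (s : Set (HIdx M))))
      (AlgebraicClosure (FractionRing 𝒪')) :=
    IsScalarTower.of_algebraMap_eq fun x => rfl
  have hintL : ∀ ℓ, IsIntegral 𝒪' (aL ℓ) := by
    intro ℓ
    have h := hint𝒪 ℓ
    have h2 : aF ℓ = algebraMap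
      ↥(IntermediateField.adjoin (FractionRing 𝒪') (aF '' (s : Set (HIdx M))))
      (AlgebraicClosure (FractionRing 𝒪')) (aL ℓ) := rfl
    rw [h2] at h
    exact (isIntegral_algebraMap_iff (RingHom.injective _)).1 h
  have hoccL : eigenPar M
      ↥(IntermediateField.adjoin (FractionRing 𝒪') (aF '' (s : Set (HIdx M)))) aL ≠ ⊥ := by
    rw [← eigenPar_ne_bot_map_iff _ (AlgebraicClosure (FractionRing 𝒪'))]
    exact hoccF
  obtain ⟨B, i1, i2, i3, i4, i5, i6, i7, i8, i9, hinj, ρ, h1, h2⟩ :=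
    exists_ext_rep_of_finite I 𝒪' hp𝒪' (FractionRing 𝒪')
      ↥(IntermediateField.adjoin (FractionRing 𝒪') (aF '' (s : Set (HIdx M))))
      aL hintL hoccL
  refine ⟨B, i1, i2, i3, i4, i5, i6, i7, i8, i9, hinj, ρ, ?_, h2⟩
  intro q hq hqM hqp A hA σ hσ
  refine h1 q hq hqM hqp
    (χ ⟨DS48.heckeT1 2 hq hqM, DS48.heckeT1_mem_hecke1Alg M hq hqM⟩)
    (χ ⟨DS48.diamond 2 (DS48.primeUnit M hq hqM), DS48.diamond_mem_hecke1Alg M _⟩)
    ?_ ?_ A hA σ hσ
  · apply Subtype.ext
    show algebraMap 𝒪' (AlgebraicClosure (FractionRing 𝒪')) _ = aF (Sum.inl ⟨q, hq⟩)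
    rw [haT q hq hqM]
    rfl
  · apply Subtype.ext
    show algebraMap 𝒪' (AlgebraicClosure (FractionRing 𝒪')) _ =
      aF (Sum.inr (DS48.primeUnit M hq hqM))
    rw [haD]
    rfl

/-- **`AdicRepGamma1` from the stage-(I) data at all levels `M ≥ 5` and all primes `p`.** -/
theorem adicRepGamma1_of_stageIData₁
    (hI : ∀ (M : ℕ) [NeZero M], 5 ≤ M → ∀ (p : ℕ) [Fact p.Prime], Nonempty (StageIData₁ M p)) :
    DS48.AdicRepGamma1 := by
  intro M _ hM p _ 𝒪' _ _ _ _ _ _ hp𝒪' χ
  obtain ⟨I⟩ := hI M hM p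
  exact adicRep_of_stageIData₁ (by omega) I 𝒪' hp𝒪' χ

end Main

end Fermat.Agent.W1
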