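/-
W1 = [GRΓ1] (S48), package [WEB4] (helper9), part 2: **the `q`-expansion of `gFun M a`**, `a ≠ 0`:
`gFun M a τ = (8π⁴/3) ∑_{n ≥ 1} yCoef M a n qⁿ` (`hasSum_gFun`), i.e.
`qExpansion 1 (gFun M a) = c4 • yPart M ℂ a` (`qExpansion_gFun`), helper7's formal series.
Proof: rows of the lattice sum by Mathlib's Lipschitz formula
(`EisensteinSeries.qExpansion_identity_pnat`), then a weighted version of Mathlib's
`tsum_prod_pow_eq_tsum_sigma`.
-/
import Fermat.Agent.W1.WEB4_helper9_Fun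

set_option autoImplicit false

open UpperHalfPlane hiding I
open EisensteinSeries ModularForm Complex Filter Matrix ModularGroup Topology
  CongruenceSubgroup Nat
open scoped MatrixGroups Manifold Real

namespace Fermat.Agent.W1

open Fermat.Agent.GR Fermat.Agent.RatStr

noncomputable section

local notation "𝕢" => Function.Periodic.qParam

/-- the constant `(-2πi)⁴ / 3! = 8π⁴/3`. -/
def c4 : ℂ := (-2 * π * I) ^ (3 + 1) / (3 : ℕ).factorial

theorem c4_ne_zero : c4 ≠ 0 := by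
  unfold c4
  have h1 : (-2 * (π : ℂ) * I) ≠ 0 := by
    simp [Real.pi_ne_zero]
  have h2 : (((3 : ℕ).factorial : ℕ) : ℂ) ≠ 0 := by
    exact_mod_cast Nat.factorial_ne_zero 3
  exact div_ne_zero (pow_ne_zero _ h1) h2

/-! ### a weighted version of Mathlib's `tsum_prod_pow_eq_tsum_sigma` -/

/-- summability of the weighted double series. -/
theorem summable_prod_weighted (u : ℕ → ℂ) (hu : ∀ n, ‖u n‖ ≤ 2) {r : ℂ} (hr : ‖r‖ < 1) (k : ℕ) :
    Summable fun c : ℕ+ × ℕ+ => u c.1 * ((c.2 : ℕ) : ℂ) ^ k * r ^ (c.1 * c.2 : ℕ) := by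
  have h0 := summable_prod_mul_pow (𝕜 := ℂ) k hr
  have h1 := (summable_norm_iff.mpr h0).mul_left 2
  refine Summable.of_norm_bounded h1 fun c => ?_
  rw [mul_assoc, norm_mul]
  have := hu c.1
  have hn : 0 ≤ ‖((c.2 : ℕ) : ℂ) ^ k * r ^ (c.1 * c.2 : ℕ)‖ := norm_nonneg _
  have e : ‖((c.2 : ℕ) : ℂ) ^ k * r ^ (c.1 * c.2 : ℕ)‖ = ‖((c.2 : ℂ)) ^ k * r ^ (c.1 * c.2 : ℕ)‖ := by
    simp
  rw [← e]
  nlinarith

theorem summable_sigma_weighted (u : ℕ → ℂ) (hu : ∀ n, ‖u n‖ ≤ 2) {r : ℂ} (hr : ‖r‖ < 1) (k : ℕ) :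
    Summable fun c : (n : ℕ+) × ↥((n : ℕ).divisorsAntidiagonal) =>
      u ↑(sigmaAntidiagonalEquivProd c).1 * ((↑(sigmaAntidiagonalEquivProd c).2 : ℕ) : ℂ) ^ k *
        r ^ (↑(sigmaAntidiagonalEquivProd c).1 * ↑(sigmaAntidiagonalEquivProd c).2 : ℕ) :=
  (sigmaAntidiagonalEquivProd.summable_iff).mpr (summable_prod_weighted u hu hr k)

theorem tsum_fibre_weighted (u : ℕ → ℂ) (r : ℂ) (k : ℕ) (n : ℕ+) :
    ∑' x : ↥((n : ℕ).divisorsAntidiagonal),
      u ↑(sigmaAntidiagonalEquivProd ⟨n, x⟩).1 *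
        ((↑(sigmaAntidiagonalEquivProd ⟨n, x⟩).2 : ℕ) : ℂ) ^ k *
        r ^ (↑(sigmaAntidiagonalEquivProd ⟨n, x⟩).1 * ↑(sigmaAntidiagonalEquivProd ⟨n, x⟩).2 : ℕ) =
      (∑ x ∈ (n : ℕ).divisorsAntidiagonal, u x.1 * (x.2 : ℂ) ^ k) * r ^ (n : ℕ) := by
  rw [tsum_fintype, Finset.sum_mul]
  rw [Finset.univ_eq_attach]
  rw [← Finset.sum_attach ((n : ℕ).divisorsAntidiagonal) (fun x => u x.1 * (x.2 : ℂ) ^ k * r ^ (n : ℕ))]
  refine Finset.sum_congr rfl fun x _ => ?_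
  have hx := (Nat.mem_divisorsAntidiagonal.mp x.2).1
  simp only [sigmaAntidiagonalEquivProd, divisorsAntidiagonalFactors, Equiv.coe_fn_mk,
    PNat.mk_coe]
  rw [hx]

/-- rearranging the weighted double series by the product of the indices. -/
theorem tsum_prod_weighted (u : ℕ → ℂ) (hu : ∀ n, ‖u n‖ ≤ 2) {r : ℂ} (hr : ‖r‖ < 1) (k : ℕ) :
    ∑' c : ℕ+ × ℕ+, u c.1 * ((c.2 : ℕ) : ℂ) ^ k * r ^ (c.1 * c.2 : ℕ) =
      ∑' e : ℕ+, (∑ x ∈ (e : ℕ).divisorsAntidiagonal, u x.1 * (x.2 : ℂ) ^ k) * r ^ (e : ℕ) := by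
  rw [← sigmaAntidiagonalEquivProd.tsum_eq]
  rw [Summable.tsum_sigma (summable_sigma_weighted u hu hr k)]
  exact tsum_congr fun n => tsum_fibre_weighted u r k n

theorem summable_fibre_weighted (u : ℕ → ℂ) (hu : ∀ n, ‖u n‖ ≤ 2) {r : ℂ} (hr : ‖r‖ < 1) (k : ℕ) :
    Summable fun e : ℕ+ =>
      (∑ x ∈ (e : ℕ).divisorsAntidiagonal, u x.1 * (x.2 : ℂ) ^ k) * r ^ (e : ℕ) := by
  have h := (summable_sigma_weighted u hu hr k).sigma
  refine h.congr fun n => ?_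
  exact tsum_fibre_weighted u r k n

/-- the weighted summands in product form are summable. -/
theorem summable_prod_wA (M : ℕ) (a : ZMod M) (z : ℍ) :
    Summable fun x : ℤ × ℤ => wA M a ![x.1, x.2] * eisSummand 4 ![x.1, x.2] z := by
  have h := (summable_norm_eisW (w := wA M a) (k := 4) (norm_wA_le M a) (by norm_num) z).of_norm
  refine (finTwoArrowEquiv ℤ).summable_iff.mp <| h.congr (fun v ↦ ?_)
  simp [show ![v 0, v 1] = v from List.ofFn_inj.mp rfl]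

theorem gFun_eq_tsum_tsum (M : ℕ) (a : ZMod M) (z : ℍ) :
    gFun M a z = ∑' c : ℤ, ∑' d : ℤ, wA M a ![c, d] * eisSummand 4 ![c, d] z := by
  rw [gFun, eisW, ← (finTwoArrowEquiv ℤ).symm.tsum_eq]
  simp only [finTwoArrowEquiv_symm_apply]
  exact Summable.tsum_prod (summable_prod_wA M a z)

theorem wA_cons (M : ℕ) (a : ZMod M) (c d : ℤ) :
    wA M a ![c, d] = if ((c : ℤ) : ZMod M) = a then 1 else 0 := by
  simp [wA]

/-- the row sum for a positive first coordinate. -/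
theorem rowSum_pos (n : ℕ+) (z : ℍ) :
    ∑' d : ℤ, eisSummand 4 ![(n : ℤ), d] z =
      c4 * ∑' m : ℕ+, ((m : ℕ) : ℂ) ^ 3 * cexp (2 * π * I * z) ^ ((n : ℕ) * (m : ℕ)) := by
  have hz : 0 < ((n : ℂ) * (z : ℂ)).im := by
    simpa using z.2
  have H := EisensteinSeries.qExpansion_identity_pnat (k := 3) (by norm_num) ⟨(n : ℂ) * z, hz⟩
  have e1 : ∀ d : ℤ, eisSummand 4 ![(n : ℤ), d] z = 1 / (((n : ℂ) * (z : ℂ)) + d) ^ (3 + 1) := by
    intro d
    simp [eisSummand]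
  simp_rw [e1]
  rw [show ((⟨(n : ℂ) * z, hz⟩ : ℍ) : ℂ) = (n : ℂ) * z from rfl] at H
  rw [H, c4]
  congr 1
  refine tsum_congr fun m => ?_
  congr 1
  rw [← Complex.exp_nat_mul, ← Complex.exp_nat_mul]
  congr 1
  push_cast
  ring

/-- the row sum for a negative first coordinate. -/
theorem rowSum_neg (n : ℕ+) (z : ℍ) :
    ∑' d : ℤ, eisSummand 4 ![-(n : ℤ), d] z = ∑' d : ℤ, eisSummand 4 ![(n : ℤ), d] z := by
  rw [← (Equiv.neg ℤ).tsum_eq]
  refine tsum_congr fun d => ?_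
  simp only [eisSummand, Equiv.neg_apply, Matrix.cons_val_zero, Matrix.cons_val_one,
    Matrix.cons_val_fin_one, Int.cast_neg]
  have : -((n : ℕ) : ℂ) * (z : ℂ) + -(d : ℂ) = -(((n : ℕ) : ℂ) * (z : ℂ) + (d : ℂ)) := by ring
  push_cast
  rw [this]
  have h4 : Even (-4 : ℤ) := ⟨-2, by norm_num⟩
  exact h4.neg_zpow _


/-! ### the `q`-expansion of `gFun` -/

/-- the multiplicity weight `[n ≡ a] + [n ≡ -a]`. -/
def uA (M : ℕ) (a : ZMod M) (n : ℕ) : ℂ :=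
  (if ((n : ℕ) : ZMod M) = a then 1 else 0) + (if ((n : ℕ) : ZMod M) = -a then 1 else 0)

theorem norm_uA_le (M : ℕ) (a : ZMod M) (n : ℕ) : ‖uA M a n‖ ≤ 2 := by
  unfold uA
  split_ifs <;> norm_num

/-- the two rows `c = ± n` together. -/
theorem rowPair (M : ℕ) (a : ZMod M) (n : ℕ+) (z : ℍ) :
    (∑' d : ℤ, wA M a ![(n : ℤ), d] * eisSummand 4 ![(n : ℤ), d] z) +
      (∑' d : ℤ, wA M a ![-(n : ℤ), d] * eisSummand 4 ![-(n : ℤ), d] z) =
    c4 * ∑' m : ℕ+, uA M a n * ((m : ℕ) : ℂ) ^ 3 *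
      cexp (2 * π * I * z) ^ ((n : ℕ) * (m : ℕ)) := by
  simp_rw [wA_cons, tsum_mul_left, rowSum_neg, rowSum_pos]
  have e1 : ((((n : ℕ) : ℤ) : ℤ) : ZMod M) = ((n : ℕ) : ZMod M) := by push_cast; rfl
  have e2 : ((-((n : ℕ) : ℤ) : ℤ) : ZMod M) = a ↔ ((n : ℕ) : ZMod M) = -a := by
    push_cast
    constructor
    · intro h; rw [← h, neg_neg]
    · intro h; rw [h, neg_neg]
  rw [e1, if_congr e2 rfl rfl]
  unfold uA
  simp_rw [mul_assoc]
  rw [tsum_mul_left]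
  ring

theorem summable_rows (M : ℕ) (a : ZMod M) (z : ℍ) :
    Summable fun c : ℤ => ∑' d : ℤ, wA M a ![c, d] * eisSummand 4 ![c, d] z :=
  (summable_prod_wA M a z).prod

theorem norm_cexp_lt_one (z : ℍ) : ‖cexp (2 * π * I * z)‖ < 1 := by
  simpa using UpperHalfPlane.norm_exp_two_pi_I_lt_one z

/-- **the `q`-expansion of `gFun M a`, `a ≠ 0`**, as a sum over `ℕ+`. -/
theorem gFun_eq_tsum_pnat {M : ℕ} {a : ZMod M} (ha : a ≠ 0) (z : ℍ) :
    gFun M a z = c4 * ∑' e : ℕ+,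
      (∑ x ∈ (e : ℕ).divisorsAntidiagonal, uA M a x.1 * (x.2 : ℂ) ^ 3) *
        cexp (2 * π * I * z) ^ (e : ℕ) := by
  rw [gFun_eq_tsum_tsum, tsum_int_eq_zero_add_tsum_pnat (summable_rows M a z)]
  have h0 : (∑' d : ℤ, wA M a ![(0 : ℤ), d] * eisSummand 4 ![(0 : ℤ), d] z) = 0 := by
    have : ∀ d : ℤ, wA M a ![(0 : ℤ), d] = 0 := by
      intro d
      rw [wA_cons, if_neg]
      intro h
      exact ha (by rw [← h]; simp)
    simp_rw [this, zero_mul, tsum_zero]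
  rw [h0, zero_add]
  have hs1 : Summable fun n : ℕ+ =>
      ∑' d : ℤ, wA M a ![((n : ℕ) : ℤ), d] * eisSummand 4 ![((n : ℕ) : ℤ), d] z := by
    have := (summable_int_iff_summable_nat_and_neg.mp (summable_rows M a z)).1
    exact (summable_pnat_iff_summable_nat
      (f := fun n : ℕ => ∑' d : ℤ, wA M a ![(n : ℤ), d] * eisSummand 4 ![(n : ℤ), d] z)).mpr this
  have hs2 : Summable fun n : ℕ+ =>
      ∑' d : ℤ, wA M a ![-((n : ℕ) : ℤ), d] * eisSummand 4 ![-((n : ℕ) : ℤ), d] z := by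
    have := (summable_int_iff_summable_nat_and_neg.mp (summable_rows M a z)).2
    exact (summable_pnat_iff_summable_nat
      (f := fun n : ℕ => ∑' d : ℤ, wA M a ![-(n : ℤ), d] * eisSummand 4 ![-(n : ℤ), d] z)).mpr this
  rw [← hs1.tsum_add hs2]
  simp_rw [rowPair]
  rw [tsum_mul_left]
  congr 1
  have hr := norm_cexp_lt_one z
  rw [← tsum_prod_weighted (uA M a) (norm_uA_le M a) hr 3]
  exact ((summable_prod_weighted (uA M a) (norm_uA_le M a) hr 3).tsum_prod).symm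


theorem sum_antidiagonal_uA (M : ℕ) (a : ZMod M) (n : ℕ) :
    (∑ x ∈ n.divisorsAntidiagonal, uA M a x.1 * (x.2 : ℂ) ^ 3) = (yCoef M a n : ℂ) := by
  rw [Nat.sum_divisorsAntidiagonal (fun c m => uA M a c * (m : ℂ) ^ 3)]
  unfold uA yCoef yCoefHalf
  rw [Nat.cast_add, Nat.cast_sum, Nat.cast_sum, Finset.sum_filter, Finset.sum_filter,
    ← Finset.sum_add_distrib]
  refine Finset.sum_congr rfl fun c _ => ?_
  push_cast
  split_ifs <;> ring

/-- **the `q`-expansion of `gFun M a`, `a ≠ 0`.** -/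
theorem hasSum_gFun {M : ℕ} {a : ZMod M} (ha : a ≠ 0) (z : ℍ) :
    HasSum (fun m : ℕ => (c4 * (yCoef M a m : ℂ)) • 𝕢 1 z ^ m) (gFun M a z) := by
  have hq : 𝕢 1 z = cexp (2 * π * I * z) := by
    simp [Function.Periodic.qParam]
  rw [hq]
  have hr := norm_cexp_lt_one z
  have hs := summable_fibre_weighted (uA M a) (norm_uA_le M a) hr 3
  simp_rw [sum_antidiagonal_uA] at hs
  have hs' : Summable fun m : ℕ => (yCoef M a m : ℂ) * cexp (2 * π * I * z) ^ m :=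
    (summable_pnat_iff_summable_nat
      (f := fun m : ℕ => (yCoef M a m : ℂ) * cexp (2 * π * I * z) ^ m)).mp hs
  have h1 := gFun_eq_tsum_pnat ha z
  simp_rw [sum_antidiagonal_uA] at h1
  have h2 := tsum_zero_pnat_eq_tsum_nat hs'
  rw [yCoef_zero, Nat.cast_zero, zero_mul, zero_add] at h2
  rw [h2] at h1
  rw [h1]
  have h3 := hs'.hasSum.mul_left c4
  have e : (fun m : ℕ => (c4 * (yCoef M a m : ℂ)) • cexp (2 * π * I * z) ^ m) =
      fun i => c4 * ((yCoef M a i : ℂ) * cexp (2 * π * I * z) ^ i) := by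
    funext m
    rw [smul_eq_mul, mul_assoc]
  rw [e]
  exact h3
  

/-- **`qExpansion 1 (gFun M a) = (8π⁴/3) · yPart M ℂ a`** for `a ≠ 0`. -/
theorem qExpansion_gFun {M : ℕ} {a : ZMod M} (ha : a ≠ 0) :
    qExpansion 1 (gFun M a) = c4 • yPart M ℂ a := by
  ext m
  let _inst : FunLike (ℍ → ℂ) ℍ ℂ := { coe := id, coe_injective := fun _ _ h => h }
  have h1 := qExpansion_coeff_unique (F := ℍ → ℂ) (gFun M a)
    (c := fun m => c4 * (yCoef M a m : ℂ)) one_pos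
    ((isHolBdd_gFun M a).analyticAt one_pos) (fun τ => hasSum_gFun ha τ) m
  have h2 : (PowerSeries.coeff m) (qExpansion 1 (gFun M a)) = c4 * (yCoef M a m : ℂ) := h1.symm
  rw [h2, map_smul, coeff_yPart, smul_eq_mul]

end

end Fermat.Agent.W1

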