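/-
W1 = [GRΓ1] (S48), package [WEB4] (helper9), part 3: **the analytic generators**
`phiFun M a τ = (E₄²/Δ)(τ) · gFun M a τ / c4` of the function field of `X₁(M)`:
holomorphic on `ℍ`, meromorphic at `i∞` with Laurent expansion helper7's formal series
`phiGen ℂ M a` (`laurent_phiFun`), invariant under `± Γ₁(M)`, permuted by `Γ₀(M)`
(`phiFun_smul_of_mem_Gamma0`); and their dilates `phiFunE M a e τ = phiFun M a (e τ)`, invariant
under `Gpm M L` for `e ∣ L`, with expansion `qExpand e (phiGen …)`.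
-/
import Fermat.Agent.W1.WEB4_helper9_QExp
import Fermat.Agent.X0N.J_helper8_Dilate
import Fermat.Agent.X0N.Mer_helper6_RealN

set_option autoImplicit false

open UpperHalfPlane hiding I
open EisensteinSeries ModularForm Complex Filter Matrix ModularGroup Topology
  CongruenceSubgroup
open scoped MatrixGroups Manifold Real

namespace Fermat.Agent.W1

open Fermat.Agent.GR Fermat.Agent.RatStr Fermat.Agent.X0N ModularCurve

noncomputable section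

local notation "Δ" => ModularForm.discriminant

/-- `φ_a(τ) = (E₄²/Δ)(τ) · (3/(8π⁴)) ∑_{(c,d), c ≡ a (M)} (cτ + d)⁻⁴`. -/
def phiFun (M : ℕ) (a : ZMod M) : ℍ → ℂ := fun z => E₄ z ^ 2 / Δ z * (gFun M a z / c4)

theorem phiFun_mul_qf (M : ℕ) (a : ZMod M) :
    phiFun M a * qf 1 = (⇑E₄) ^ 2 * etaInv24 * (c4⁻¹ • gFun M a) := by
  ext z
  simp only [Pi.mul_apply, phiFun, Pi.pow_apply, etaInv24, discriminant_eq_qf_mul, Pi.smul_apply,
    smul_eq_mul]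
  have h1 := qf_ne_zero 1 z
  have h2 := etaProdFun_ne_zero z
  have h3 := c4_ne_zero
  field_simp

theorem isHolBdd_phiFun_mul_qf (M : ℕ) (a : ZMod M) : IsHolBdd 1 (phiFun M a * qf 1 ^ 1) := by
  rw [pow_one, phiFun_mul_qf]
  exact ((isHolBdd_E₄.pow 2).mul isHolBdd_etaInv24).mul ((isHolBdd_gFun M a).smul _)

theorem isMeroInfty_phiFun (M : ℕ) (a : ZMod M) : IsMeroInfty 1 (phiFun M a) :=
  ⟨1, isHolBdd_phiFun_mul_qf M a⟩

theorem mdiff_phiFun (M : ℕ) (a : ZMod M) : MDiff (phiFun M a) := (isMeroInfty_phiFun M a).hol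

/-- **the Laurent expansion of `φ_a` at `i∞` is helper7's formal series.** -/
theorem laurent_phiFun {M : ℕ} {a : ZMod M} (ha : a ≠ 0) :
    laurent 1 (phiFun M a) = phiGen ℂ M a := by
  rw [laurent_eq one_pos (isHolBdd_phiFun_mul_qf M a), pow_one, phiFun_mul_qf,
    qExpansion_mul' one_pos ((isHolBdd_E₄.pow 2).mul isHolBdd_etaInv24)
      ((isHolBdd_gFun M a).smul _),
    qExpansion_mul' one_pos (isHolBdd_E₄.pow 2) isHolBdd_etaInv24, qExpansion_etaInv24]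
  have h2 : qExpansion 1 ((⇑E₄) ^ 2) = (qExpansion 1 E₄) ^ 2 := by
    rw [pow_succ, pow_one, qExpansion_mul' one_pos isHolBdd_E₄ isHolBdd_E₄]
    ring
  have h3 : qExpansion 1 (c4⁻¹ • gFun M a) = yPart M ℂ a := by
    rw [qExpansion_smul ((isHolBdd_gFun M a).analyticAt one_pos), qExpansion_gFun ha, smul_smul,
      inv_mul_cancel₀ c4_ne_zero, one_smul]
  rw [h2, h3, Fermat.Agent.S16.qExpansion_E₄_eq, phiGen, phiMult_eq_single_mul, e4sqZ, map_mul,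
    map_mul, map_mul, map_pow, map_pow]
  rw [map_mul (HahnSeries.ofPowerSeries ℤ ℂ), map_pow (HahnSeries.ofPowerSeries ℤ ℂ)]
  simp only [Nat.cast_one]
  ring

theorem laurent_phiFun_eq_coeffEmb {M : ℕ} {a : ZMod M} (ha : a ≠ 0) :
    laurent 1 (phiFun M a) = coeffEmb ℂ (phiGen ℚ M a) := by
  rw [laurent_phiFun ha, coeffEmb, coeffMap_phiGen]

/-! ### modular invariance -/

theorem phiFun_smul_of_mem_Gamma0 {M : ℕ} (a : ZMod M) {σ : SL(2, ℤ)} (hσ : σ ∈ Gamma0 M)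
    (z : ℍ) : phiFun M a (σ • z) = phiFun M (a * ((σ 0 0 : ℤ) : ZMod M)) z := by
  have h := congrFun (gFun_slash a hσ) z
  rw [SL_slash_apply] at h
  have hne : denom σ z ≠ 0 := denom_ne_zero σ z
  rw [_root_.zpow_neg, mul_inv_eq_iff_eq_mul₀ (zpow_ne_zero _ hne)] at h
  unfold phiFun
  rw [h, modularForm_SL_smul, discriminant_SL_smul']
  have h2 := discriminant_ne_zero z
  have h3 := c4_ne_zero
  have e4 : denom σ z ^ (4 : ℤ) = denom σ z ^ 4 := by norm_cast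
  have e12 : denom σ z ^ (12 : ℤ) = denom σ z ^ 12 := by norm_cast
  rw [e4, e12]
  field_simp

theorem phiFun_neg (M : ℕ) (a : ZMod M) : phiFun M (-a) = phiFun M a := by
  unfold phiFun
  rw [gFun_neg]

theorem phiFun_smul_of_mem_Gamma1 {M : ℕ} (a : ZMod M) {σ : SL(2, ℤ)} (hσ : σ ∈ Gamma1 M)
    (z : ℍ) : phiFun M a (σ • z) = phiFun M a z := by
  have h0 : σ ∈ Gamma0 M := by
    rw [Gamma1_mem] at hσ
    rw [Gamma0_mem]
    exact hσ.2.2
  rw [phiFun_smul_of_mem_Gamma0 a h0]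
  rw [Gamma1_mem] at hσ
  rw [hσ.1, mul_one]

theorem neg_smul_UHP (σ : SL(2, ℤ)) (z : ℍ) : (-σ) • z = σ • z := ModularGroup.SL_neg_smul σ z

theorem phiFun_smul_of_mem_Gpm {M L : ℕ} (a : ZMod M) {σ : SL(2, ℤ)} (hσ : σ ∈ Gpm M L)
    (z : ℍ) : phiFun M a (σ • z) = phiFun M a z := by
  rcases hσ with h | h
  · exact phiFun_smul_of_mem_Gamma1 a (mem_GammaML.mp h).1 z
  · rw [← neg_smul_UHP σ z]
    exact phiFun_smul_of_mem_Gamma1 a (mem_GammaML.mp h).1 z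

/-! ### the dilates -/

/-- `φ_a(e τ)`. -/
def phiFunE (M : ℕ) (a : ZMod M) (e : ℕ) : ℍ → ℂ := dilate e (phiFun M a)

theorem isMeroInfty_phiFunE (M : ℕ) (a : ZMod M) {e : ℕ} (he : e ≠ 0) :
    IsMeroInfty 1 (phiFunE M a e) :=
  isMeroInfty_dilate he (isMeroInfty_phiFun M a)

theorem laurent_phiFunE {M : ℕ} {a : ZMod M} (ha : a ≠ 0) (e : ℕ) [NeZero e] :
    laurent 1 (phiFunE M a e) = coeffEmb ℂ (qExpand ℚ e (phiGen ℚ M a)) := by
  rw [phiFunE, laurent_dilate e (isMeroInfty_phiFun M a), laurent_phiFun_eq_coeffEmb ha,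
    qExpand_coeffEmb]

/-- a version of `exists_SL_heckeDiagMatrix_smul` which remembers the entries. -/
theorem exists_SL_heckeDiagMatrix_smul_entries {d : ℕ} (hd : d ≠ 0) {γ : SL(2, ℤ)}
    (hγ : γ ∈ CongruenceSubgroup.Gamma0 d) :
    ∃ γ' : SL(2, ℤ), γ' 0 0 = γ 0 0 ∧ γ' 1 1 = γ 1 1 ∧ γ 1 0 = d * γ' 1 0 ∧ ∀ z : ℍ,
      ModularForm.heckeDiagMatrix d • (γ • z) = γ' • (ModularForm.heckeDiagMatrix d • z) := by
  rw [CongruenceSubgroup.Gamma0_mem, ZMod.intCast_zmod_eq_zero_iff_dvd] at hγ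
  obtain ⟨e, he⟩ := hγ
  have hdet : γ 0 0 * γ 1 1 - γ 0 1 * γ 1 0 = 1 := by
    have := γ.det_coe
    rwa [Matrix.det_fin_two] at this
  let g' : SL(2, ℤ) := ⟨!![γ 0 0, d * γ 0 1; e, γ 1 1], by
    rw [Matrix.det_fin_two_of]
    rw [he] at hdet
    linear_combination hdet⟩
  have hH : ModularForm.heckeDiagMatrix d * (Matrix.SpecialLinearGroup.mapGL ℝ γ : GL (Fin 2) ℝ) =
      (Matrix.SpecialLinearGroup.mapGL ℝ g' : GL (Fin 2) ℝ) * ModularForm.heckeDiagMatrix d := by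
    apply Matrix.GeneralLinearGroup.ext
    intro i j
    simp only [Matrix.GeneralLinearGroup.coe_mul, ModularForm.val_heckeDiagMatrix hd,
      Matrix.mul_apply, Fin.sum_univ_two]
    have e00 : ((Matrix.SpecialLinearGroup.mapGL ℝ g' : GL (Fin 2) ℝ) :
        Matrix (Fin 2) (Fin 2) ℝ) 0 0 = ((γ 0 0 : ℤ) : ℝ) := by
      rw [RatStr.mapGL_apply_val]; rfl
    have e01 : ((Matrix.SpecialLinearGroup.mapGL ℝ g' : GL (Fin 2) ℝ) :
        Matrix (Fin 2) (Fin 2) ℝ) 0 1 = (d : ℝ) * ((γ 0 1 : ℤ) : ℝ) := by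
      rw [RatStr.mapGL_apply_val]
      have : g' 0 1 = d * γ 0 1 := rfl
      rw [this]; push_cast; ring
    have e10 : ((Matrix.SpecialLinearGroup.mapGL ℝ g' : GL (Fin 2) ℝ) :
        Matrix (Fin 2) (Fin 2) ℝ) 1 0 = (e : ℝ) := by
      rw [RatStr.mapGL_apply_val]; rfl
    have e11 : ((Matrix.SpecialLinearGroup.mapGL ℝ g' : GL (Fin 2) ℝ) :
        Matrix (Fin 2) (Fin 2) ℝ) 1 1 = ((γ 1 1 : ℤ) : ℝ) := by
      rw [RatStr.mapGL_apply_val]; rfl
    have f10 : ((Matrix.SpecialLinearGroup.mapGL ℝ γ : GL (Fin 2) ℝ) :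
        Matrix (Fin 2) (Fin 2) ℝ) 1 0 = (d : ℝ) * (e : ℝ) := by
      rw [RatStr.mapGL_apply_val, he]
      push_cast
      ring
    fin_cases i <;> fin_cases j
    · simp only [Fin.zero_eta, Fin.isValue, e00, RatStr.mapGL_apply_val]
      simp [mul_comm]
    · simp only [Fin.zero_eta, Fin.mk_one, Fin.isValue, e00, e01, RatStr.mapGL_apply_val]
      simp
    · simp only [Fin.zero_eta, Fin.mk_one, Fin.isValue, e10, e11, f10]
      simp [mul_comm]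
    · simp only [Fin.mk_one, Fin.isValue, e10, e11, RatStr.mapGL_apply_val]
      simp
  refine ⟨g', rfl, rfl, he, fun z => ?_⟩
  rw [ModularGroup.sl_moeb, ModularGroup.sl_moeb, ← mul_smul, ← mul_smul]
  exact congrArg (· • z) hH

/-- the conjugate of `Γ₁(M) ∩ Γ₀(M L)` by `diag(e, 1)`, `e ∣ L`, lies in `Γ₁(M)`. -/
theorem exists_Gamma1_heckeDiagMatrix_smul {M L e : ℕ} (he0 : e ≠ 0) (he : e ∣ L) {γ : SL(2, ℤ)}
    (hγ : γ ∈ GammaML M L) :
    ∃ γ' : SL(2, ℤ), γ' ∈ Gamma1 M ∧ ∀ z : ℍ,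
      ModularForm.heckeDiagMatrix e • (γ • z) = γ' • (ModularForm.heckeDiagMatrix e • z) := by
  obtain ⟨h1, h0⟩ := mem_GammaML.mp hγ
  have hγe : γ ∈ Gamma0 e :=
    Gamma0_le_of_dvd (he.trans (Dvd.intro_left M rfl)) h0
  obtain ⟨γ', h00, h11, h10, hz⟩ := exists_SL_heckeDiagMatrix_smul_entries he0 hγe
  refine ⟨γ', ?_, hz⟩
  rw [Gamma1_mem] at h1 ⊢
  refine ⟨by rw [h00]; exact h1.1, by rw [h11]; exact h1.2.1, ?_⟩
  -- `M L ∣ e γ'₁₀`, `e ∣ L` ⇒ `M ∣ γ'₁₀`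
  rw [Gamma0_mem, ZMod.intCast_zmod_eq_zero_iff_dvd] at h0
  rw [ZMod.intCast_zmod_eq_zero_iff_dvd]
  obtain ⟨f, rfl⟩ := he
  rw [h10] at h0
  have he' : (e : ℤ) ≠ 0 := by exact_mod_cast he0
  have h2 : ((e : ℤ) * (M : ℤ)) ∣ (e : ℤ) * γ' 1 0 := by
    refine dvd_trans ?_ h0
    push_cast
    exact ⟨f, by ring⟩
  exact (mul_dvd_mul_iff_left he').mp h2

theorem phiFunE_smul_of_mem_Gpm {M L e : ℕ} (he0 : e ≠ 0) (he : e ∣ L) (a : ZMod M)
    {σ : SL(2, ℤ)} (hσ : σ ∈ Gpm M L) (z : ℍ) : phiFunE M a e (σ • z) = phiFunE M a e z := by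
  rcases hσ with h | h
  · obtain ⟨γ', h1, hz⟩ := exists_Gamma1_heckeDiagMatrix_smul he0 he h
    rw [phiFunE, dilate_apply, dilate_apply, hz z, phiFun_smul_of_mem_Gamma1 a h1]
  · obtain ⟨γ', h1, hz⟩ := exists_Gamma1_heckeDiagMatrix_smul he0 he h
    rw [← neg_smul_UHP σ z, phiFunE, dilate_apply, dilate_apply, hz z,
      phiFun_smul_of_mem_Gamma1 a h1]

/-- `φ_a(e τ)` as a holomorphic function. -/
def phiHolE (M : ℕ) (a : ZMod M) (e : ℕ) [NeZero e] : HolH :=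
  ⟨phiFunE M a e, (isMeroInfty_phiFunE M a (NeZero.ne e)).hol⟩

@[simp] theorem phiHolE_apply (M : ℕ) (a : ZMod M) (e : ℕ) [NeZero e] (τ : ℍ) :
    (phiHolE M a e : ℍ → ℂ) τ = phiFunE M a e τ := rfl

theorem comp_phiHolE_of_mem_Gpm {M L e : ℕ} [NeZero e] (he : e ∣ L) (a : ZMod M)
    {σ : SL(2, ℤ)} (hσ : σ ∈ Gpm M L) : HolH.comp σ (phiHolE M a e) = phiHolE M a e := by
  ext z
  exact phiFunE_smul_of_mem_Gpm (NeZero.ne e) he a hσ z

end

end Fermat.Agent.W1
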