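/-
W1 = [GRΓ1] (S48), package [ANORM1] (helper9), part 2: **the degree of `β`**:
`[k·F₁ M (L ℓ) : β (k·F₁ M L)] = ℓ` or `ℓ + 1` (`ℓ ∣ M L` or not), for every prime `ℓ` and every
field `k ⊆ ℂ`, by multiplicativity of degrees in the two towers
`k·F₀(M L) ⊆ k·F₁ M L ⊆_β k·F₁ M (L ℓ)` and `k·F₀(M L) ⊆_β k·F₀(M L ℓ) ⊆ k·F₁ M (L ℓ)`,
from helper5's degree of `β` for `Γ₀` (`GR/ANORM_helper5_Fricke`) and `finrank_full_F₁`.
-/
import Mathlib
import Fermat.Agent.GR.ANORM_helper5_Main
import Fermat.Agent.W1.ANORM1_helper9_Galois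
import Fermat.Agent.W1.HECKEF_helper4_Dia

set_option autoImplicit false
set_option linter.unusedSectionVars false
set_option linter.style.haveILetI false

open Polynomial IntermediateField AlgebraicCurve
open scoped MatrixGroups

namespace Fermat.Agent.W1

open ModularCurve Fermat.Agent.X0N

noncomputable section

variable {k : Type*} [Field k] [Algebra ℚ k] [Algebra k ℂ] [IsScalarTower ℚ k ℂ]
  (M L ℓ : ℕ) [NeZero M] [NeZero L] [NeZero ℓ]

/-- the function field of level `Γ₀(M L ℓ)` inside that of level `Gpm M (L ℓ)`. -/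
def fullInclMul : ↥(laurentBaseChange k (modularFunctionFieldFull (M * L * ℓ))) →ₐ[k]
    ↥(laurentBaseChange k (F₁ M (L * ℓ))) :=
  IntermediateField.inclusion (by
    have h := full_le_F₁_baseChange (k := k) M (L * ℓ)
    rwa [← mul_assoc] at h)

@[simp] theorem coe_fullInclMul
    (x : ↥(laurentBaseChange k (modularFunctionFieldFull (M * L * ℓ)))) :
    ((fullInclMul M L ℓ x : ↥(laurentBaseChange k (F₁ M (L * ℓ)))) : LaurentSeries k) =
      (x : LaurentSeries k) := IntermediateField.coe_inclusion _ x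

/-- the commutative square `β ∘ incl = incl ∘ β`. -/
theorem heckeBetaBar_fullIncl (x : ↥(laurentBaseChange k (modularFunctionFieldFull (M * L)))) :
    heckeBetaBar k M L ℓ (fullIncl M L x) =
      fullInclMul M L ℓ (ModularCurve.heckeBetaBar k (M * L) ℓ x) := by
  apply Subtype.ext
  rw [coe_heckeBetaBar, coe_fullIncl, coe_fullInclMul, ModularCurve.coe_heckeBetaBar]

/-- `finrank_full_F₁` for a level `N = M L` written differently. -/
theorem finrank_full_F₁_of_eq (hM : M ≠ 1) {N : ℕ} (hN : N = M * L)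
    (h : laurentBaseChange k (modularFunctionFieldFull N) ≤ laurentBaseChange k (F₁ M L)) :
    letI := (IntermediateField.inclusion h).toRingHom.toAlgebra
    Module.Finite ↥(laurentBaseChange k (modularFunctionFieldFull N))
        ↥(laurentBaseChange k (F₁ M L)) ∧
      Module.finrank ↥(laurentBaseChange k (modularFunctionFieldFull N))
        ↥(laurentBaseChange k (F₁ M L)) = Fintype.card (DiaGrp M) := by
  subst hN
  exact finrank_full_F₁ M L hM

set_option quotPrecheck false in
local notation "AA" => ↥(laurentBaseChange k (modularFunctionFieldFull (M * L)))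
set_option quotPrecheck false in
local notation "AA'" => ↥(laurentBaseChange k (F₁ M L))
set_option quotPrecheck false in
local notation "BB" => ↥(laurentBaseChange k (modularFunctionFieldFull (M * L * ℓ)))
set_option quotPrecheck false in
local notation "CC" => ↥(laurentBaseChange k (F₁ M (L * ℓ)))

set_option maxHeartbeats 1600000 in
set_option synthInstance.maxHeartbeats 400000 in
/-- **`[k·F₁ M (L ℓ) : β (k·F₁ M L)] = ℓ` or `ℓ + 1`.** -/
theorem finrankAlong_heckeBetaBar_ML (hM : M ≠ 1) (hℓ : ℓ.Prime) :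
    FiniteAlong k (heckeBetaBar k M L ℓ) ∧
      finrankAlong k (heckeBetaBar k M L ℓ) = if ℓ ∣ M * L then ℓ else ℓ + 1 := by
  have hleB : laurentBaseChange k (modularFunctionFieldFull (M * L * ℓ)) ≤
      laurentBaseChange k (F₁ M (L * ℓ)) := by
    have h := full_le_F₁_baseChange (k := k) M (L * ℓ)
    rwa [← mul_assoc] at h
  -- the algebra structures
  letI algAA' : Algebra AA AA' := fullAlgebra M L
  letI algA'C : Algebra AA' CC := algebraAlong (heckeBetaBar k M L ℓ)
  letI algAB : Algebra AA BB := algebraAlong (ModularCurve.heckeBetaBar k (M * L) ℓ)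
  letI algBC : Algebra BB CC := (IntermediateField.inclusion hleB).toRingHom.toAlgebra
  letI algAC : Algebra AA CC :=
    ((heckeBetaBar k M L ℓ).toRingHom.comp (fullIncl (k := k) M L).toRingHom).toAlgebra
  haveI t2 : IsScalarTower AA AA' CC := IsScalarTower.of_algebraMap_eq (fun _ => rfl)
  haveI t1 : IsScalarTower AA BB CC := IsScalarTower.of_algebraMap_eq (fun x =>
    heckeBetaBar_fullIncl M L ℓ x)
  -- the degrees
  obtain ⟨hfinAA', hdegAA'⟩ := finrank_full_F₁ (k := k) M L hM
  obtain ⟨hfinBC, hdegBC⟩ := finrank_full_F₁_of_eq (k := k) M (L * ℓ) hM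
    (mul_assoc M L ℓ) hleB
  haveI : NeZero (M * L) := ⟨mul_ne_zero (NeZero.ne M) (NeZero.ne L)⟩
  haveI : NeZero (M * L * ℓ) := ⟨mul_ne_zero (NeZero.ne (M * L)) (NeZero.ne ℓ)⟩
  have hfinAB : Module.Finite AA BB := finiteAlong_heckeBetaBar_of_le_complex (k := k) (M * L) ℓ
  have hdegAB : Module.finrank AA BB = if ℓ ∣ M * L then ℓ else ℓ + 1 :=
    finrankAlong_heckeBetaBar (k := k) (M * L) ℓ hℓ
  haveI : Module.Finite AA AA' := hfinAA'
  haveI : Module.Finite BB CC := hfinBC
  haveI : Module.Finite AA BB := hfinAB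
  haveI hfinAC : Module.Finite AA CC := Module.Finite.trans BB CC
  haveI hfinA'C : Module.Finite AA' CC := Module.Finite.of_restrictScalars_finite AA AA' CC
  refine ⟨hfinA'C, ?_⟩
  have h1 := Module.finrank_mul_finrank AA AA' CC
  have h2 := Module.finrank_mul_finrank AA BB CC
  have hpos : 0 < Fintype.card (DiaGrp M) := Fintype.card_pos
  have h3 : Module.finrank AA AA' * Module.finrank AA' CC =
      Module.finrank AA BB * Module.finrank BB CC := by
    rw [h1, h2]
  rw [hdegAA', hdegAB, hdegBC, mul_comm (if ℓ ∣ M * L then ℓ else ℓ + 1)] at h3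
  exact Nat.eq_of_mul_eq_mul_left hpos h3

end

end Fermat.Agent.W1
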