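/-
W1 = [GRΓ1] (S48), package [ANORM1] (helper9), part 1: **`[k·F₁ M L : k·F₀(M L)] = |(ℤ/M)ˣ/±1|`**
(every `L`), from the generation by `φ_1`, the descent of `∏ (X - φ_d)` and the diamond
automorphisms ([DEG1] part 4).
-/
import Mathlib
import Fermat.Agent.W1.DEG1_helper9_Galois

set_option autoImplicit false
set_option linter.unusedSectionVars false
set_option linter.style.haveILetI false

open Polynomial IntermediateField
open scoped MatrixGroups

namespace Fermat.Agent.W1

open ModularCurve Fermat.Agent.X0N

noncomputable section

variable {k : Type*} [Field k] [Algebra ℚ k] [Algebra k ℂ] [IsScalarTower ℚ k ℂ]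
  (M L : ℕ) [NeZero M] [NeZero L]

attribute [local instance] fullAlgebra

/-- **the degree of the function field of level `Gpm M L` over that of level `Γ₀(M L)`.** -/
theorem finrank_full_F₁ (hM : M ≠ 1) :
    Module.Finite ↥(laurentBaseChange k (modularFunctionFieldFull (M * L)))
        ↥(laurentBaseChange k (F₁ M L)) ∧
      Module.finrank ↥(laurentBaseChange k (modularFunctionFieldFull (M * L)))
        ↥(laurentBaseChange k (F₁ M L)) = Fintype.card (DiaGrp M) := by
  set E₀ := ↥(laurentBaseChange k (modularFunctionFieldFull (M * L))) with hE₀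
  set E := ↥(laurentBaseChange k (F₁ M L)) with hE
  set θ : E := phiQ (k := k) M L 1 with hθ
  obtain ⟨P, hP⟩ := exists_phiPoly_eq_map_algebraMap (k := k) M L
  have hprodmonic : (∏ i : DiaGrp M, (X - C (phiQ (k := k) M L i))).Monic :=
    monic_prod_of_monic _ _ fun i _ => monic_X_sub_C _
  have hPmonic : P.Monic := by
    have h1 : (P.map (algebraMap E₀ E)).Monic := by rw [hP]; exact hprodmonic
    exact Polynomial.monic_of_injective (algebraMap E₀ E).injective h1
  have hdegP : P.natDegree = Fintype.card (DiaGrp M) := by
    have h1 : (P.map (algebraMap E₀ E)).natDegree = P.natDegree :=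
      Polynomial.natDegree_map_eq_of_injective (algebraMap E₀ E).injective P
    rw [← h1, hP, Polynomial.natDegree_prod_of_monic _ _ fun i _ => monic_X_sub_C _]
    simp
  have hroot : Polynomial.aeval θ P = 0 := by
    rw [Polynomial.aeval_def, Polynomial.eval₂_eq_eval_map, hP, Polynomial.eval_prod]
    apply Finset.prod_eq_zero (Finset.mem_univ (1 : DiaGrp M))
    simp [hθ]
  have hint : IsIntegral E₀ θ := ⟨P, hPmonic, hroot⟩
  -- generation
  have htop : E₀⟮θ⟯ = ⊤ := by
    apply IntermediateField.toSubalgebra_injective
    rw [IntermediateField.adjoin_simple_toSubalgebra_of_isAlgebraic hint.isAlgebraic, adjoin_phiQ_one_eq_top M L hM,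
      IntermediateField.top_toSubalgebra]
  have hfin : Module.Finite E₀ E := by
    have h1 : Module.Finite E₀ ↥(E₀⟮θ⟯) := IntermediateField.adjoin.finiteDimensional hint
    rw [htop] at h1
    exact Module.Finite.equiv (IntermediateField.topEquiv (F := E₀) (E := E)).toLinearEquiv
  have hrank : Module.finrank E₀ E = (minpoly E₀ θ).natDegree := by
    rw [← IntermediateField.adjoin.finrank hint, htop, IntermediateField.finrank_top']
  refine ⟨hfin, ?_⟩
  rw [hrank]
  apply le_antisymm
  · rw [← hdegP]
    exact Polynomial.natDegree_le_of_dvd (minpoly.dvd E₀ θ hroot) hPmonic.ne_zero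
  · -- all the conjugates `phiQ i` are roots of the minimal polynomial
    set Q : E[X] := (minpoly E₀ θ).map (algebraMap E₀ E) with hQ
    have hQ0 : Q ≠ 0 := Polynomial.map_ne_zero (minpoly.ne_zero hint)
    have hQdeg : Q.natDegree = (minpoly E₀ θ).natDegree :=
      Polynomial.natDegree_map_eq_of_injective (algebraMap E₀ E).injective _
    have hrootQ : ∀ i : DiaGrp M, Q.IsRoot (phiQ (k := k) M L i) := by
      intro i
      rw [Polynomial.IsRoot.def, hQ, Polynomial.eval_map, ← Polynomial.aeval_def,
        ← diaQ_phiQ_one (k := k) M L i, Polynomial.aeval_algEquiv, AlgHom.comp_apply,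
        minpoly.aeval, map_zero]
    have hinj := phiQ_injective (k := k) M L hM
    classical
    let Z : Finset E := Finset.univ.image (phiQ (k := k) M L)
    have hZcard : Z.card = Fintype.card (DiaGrp M) := by
      rw [Finset.card_image_of_injective _ hinj, Finset.card_univ]
    have hZsub : Z.val ⊆ Q.roots := by
      intro x hx
      rw [Finset.mem_val, Finset.mem_image] at hx
      obtain ⟨i, -, rfl⟩ := hx
      exact (Polynomial.mem_roots hQ0).mpr (hrootQ i)
    have := Polynomial.card_le_degree_of_subset_roots hZsub
    rw [hZcard, hQdeg] at this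
    exact this

end

end Fermat.Agent.W1
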