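/-
W1 = [GRΓ1] (S48), package [ANORM1] (helper9), part 3 (port of `JA/ES1_helper2_{Dilate,AL}`):
the realisation of the degeneracy maps, `realML (α x) = realML x`,
`realML (β x) = (realML x)(ℓ τ)`, and the Atkin–Lehner type operator at `ℓ ∤ M L` for `Γ₁(M)`:
`(T f)(τ) = f(γ₁ ℓ τ)`, `γ₁ = (x −y; M L  ℓ)`, with `T (g(ℓ ·)) = g ∘ γ₂`, `γ₂ = (ℓx −y; M L  1)
∈ Γ₁(M) ∩ Γ₀(M L)`.
-/
import Mathlib
import Fermat.Agent.W1.ANORM1_helper9_Degree

set_option autoImplicit false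
set_option linter.unusedSectionVars false
set_option linter.style.haveILetI false

namespace Fermat.Agent.W1

open UpperHalfPlane Complex Filter Topology ModularCurve IntermediateField ModularForm
open Fermat.Agent.RatStr AlgebraicCurve Fermat.Agent.GR Fermat.Agent.X0N CongruenceSubgroup
open scoped MatrixGroups Manifold

/-! ### dilations of the generators -/

theorem jdHol_congr {d d' : ℕ} [NeZero d] [NeZero d'] (h : d = d') : jdHol d = jdHol d' := by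
  subst h
  rfl

theorem phiHolE_congr (M : ℕ) (a : ZMod M) {e e' : ℕ} [NeZero e] [NeZero e'] (h : e = e') :
    phiHolE M a e = phiHolE M a e' := by
  subst h
  rfl

theorem HolH.dilateHom_phiHolE (M : ℕ) (a : ZMod M) (e m : ℕ) [NeZero e] [NeZero m]
    [NeZero (m * e)] : HolH.dilateHom m (phiHolE M a e) = phiHolE M a (m * e) := by
  ext τ
  simp only [HolH.dilateHom_apply, phiHolE_apply, phiFunE, dilate_apply]
  refine congrArg _ (UpperHalfPlane.ext ?_)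
  rw [coe_heckeDiagMatrix_smul (NeZero.ne e), coe_heckeDiagMatrix_smul (NeZero.ne m),
    coe_heckeDiagMatrix_smul (NeZero.ne (m * e))]
  push_cast
  ring

section Real

variable {k : Type*} [Field k] [Algebra ℚ k] [Algebra k ℂ] [IsScalarTower ℚ k ℂ]
  (M L ℓ : ℕ) [NeZero M] [NeZero L] [NeZero ℓ]

/-- the realisation of `α x` (the same series at level `L ℓ`) is the realisation of `x`. -/
theorem realML_heckeAlphaBar (x : ↥(laurentBaseChange k (F₁ M L))) :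
    realML (algebraMap k ℂ) M (L * ℓ) (heckeAlphaBar k M L ℓ x) =
      realML (algebraMap k ℂ) M L x := by
  induction x using F₁_induction with
  | hconst c =>
    rw [AlgHom.commutes, realML_algebraMap, realML_algebraMap]
  | hj d hd =>
    rw [heckeAlphaBar_jdBarML, realML_jdBarML, realML_jdBarML]
  | hphi e he a ha =>
    rw [heckeAlphaBar_phiBarML, realML_phiBarML, realML_phiBarML]
  | hadd x y h1 h2 => rw [map_add, map_add, map_add, h1, h2]
  | hmul x y h1 h2 => rw [map_mul, map_mul, map_mul, h1, h2]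
  | hinv x h1 => rw [map_inv₀, map_inv₀, map_inv₀, h1]

/-- the realisation of `β x = x(q^ℓ)` is the dilation of the realisation of `x`. -/
theorem realML_heckeBetaBar (x : ↥(laurentBaseChange k (F₁ M L))) :
    realML (algebraMap k ℂ) M (L * ℓ) (heckeBetaBar k M L ℓ x) =
      MerH.dilate ℓ (realML (algebraMap k ℂ) M L x) := by
  induction x using F₁_induction with
  | hconst c =>
    rw [AlgHom.commutes, realML_algebraMap, realML_algebraMap, MerH.dilate_const]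
  | hj d hd =>
    haveI : NeZero (d * ℓ) := ⟨mul_ne_zero (NeZero.ne d) (NeZero.ne ℓ)⟩
    rw [heckeBetaBar_jdBarML, realML_jdBarML, realML_jdBarML, MerH.dilate_ofHol,
      HolH.dilateHom_jdHol, jdHol_congr (mul_comm ℓ d)]
  | hphi e he a ha =>
    rw [heckeBetaBar_phiBarML, realML_phiBarML, realML_phiBarML, MerH.dilate_ofHol,
      HolH.dilateHom_phiHolE]
  | hadd x y h1 h2 => rw [map_add, map_add, map_add, map_add, h1, h2]
  | hmul x y h1 h2 => rw [map_mul, map_mul, map_mul, map_mul, h1, h2]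
  | hinv x h1 => rw [map_inv₀, map_inv₀, map_inv₀, map_inv₀, h1]

end Real

/-! ### the Atkin–Lehner type operator for `Γ₁(M)` -/

section Matrices

variable (N ℓ : ℕ) (x y : ℤ)

/-- `γ₁ = (x −y; N ℓ)` (upper left entry `x ≡ ℓ⁻¹`). -/
def alG1 (h : (ℓ : ℤ) * x + N * y = 1) : SL(2, ℤ) :=
  ⟨!![x, -y; (N : ℤ), ℓ], by rw [Matrix.det_fin_two_of]; linear_combination h⟩

/-- `γ₂ = (ℓx −y; N 1)`. -/
def alG2 (h : (ℓ : ℤ) * x + N * y = 1) : SL(2, ℤ) :=
  ⟨!![(ℓ : ℤ) * x, -y; (N : ℤ), 1], by rw [Matrix.det_fin_two_of]; linear_combination h⟩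

variable {N ℓ x y}

theorem alG1_mem (h : (ℓ : ℤ) * x + N * y = 1) : alG1 N ℓ x y h ∈ Gamma0 N := by
  rw [Gamma0_mem]
  show (((N : ℤ) : ℤ) : ZMod N) = 0
  simp

theorem alG2_mem_Gamma0 (h : (ℓ : ℤ) * x + N * y = 1) : alG2 N ℓ x y h ∈ Gamma0 N := by
  rw [Gamma0_mem]
  show (((N : ℤ) : ℤ) : ZMod N) = 0
  simp

theorem alG1_entry (h : (ℓ : ℤ) * x + N * y = 1) : alG1 N ℓ x y h 0 0 = x := rfl

/-- `γ₂ ∈ Γ₁(M) ∩ Γ₀(M L)` for `N = M L`. -/
theorem alG2_mem_GammaML {M L : ℕ} (h : (ℓ : ℤ) * x + ((M * L : ℕ) : ℤ) * y = 1) :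
    alG2 (M * L) ℓ x y h ∈ GammaML M L := by
  rw [mem_GammaML]
  refine ⟨?_, alG2_mem_Gamma0 h⟩
  rw [Gamma1_mem]
  refine ⟨?_, ?_, ?_⟩
  · show ((((ℓ : ℤ) * x : ℤ)) : ZMod M) = 1
    have h1 : (ℓ : ℤ) * x = 1 - ((M * L : ℕ) : ℤ) * y := by linear_combination h
    rw [h1]
    push_cast
    simp
  · show (((1 : ℤ)) : ZMod M) = 1
    simp
  · show ((((M * L : ℕ) : ℤ)) : ZMod M) = 0
    push_cast
    simp

/-- the key identity `diag(ℓ,1) γ₁ diag(ℓ,1) = ℓ · γ₂`, as an identity of Möbius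
transformations. -/
theorem heckeDiagMatrix_smul_alG1_smul (hN : N ≠ 0) (hℓ : ℓ ≠ 0)
    (h : (ℓ : ℤ) * x + N * y = 1) (τ : ℍ) :
    heckeDiagMatrix ℓ • (alG1 N ℓ x y h • (heckeDiagMatrix ℓ • τ)) =
      alG2 N ℓ x y h • τ := by
  apply UpperHalfPlane.ext
  rw [coe_heckeDiagMatrix_smul hℓ, coe_specialLinearGroup_apply, coe_heckeDiagMatrix_smul hℓ,
    coe_specialLinearGroup_apply]
  have e1 : ∀ i j, ((algebraMap ℤ ℝ (alG1 N ℓ x y h i j) : ℝ) : ℂ) =
      ((alG1 N ℓ x y h i j : ℤ) : ℂ) := fun i j => by simp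
  have e2 : ∀ i j, ((algebraMap ℤ ℝ (alG2 N ℓ x y h i j) : ℝ) : ℂ) =
      ((alG2 N ℓ x y h i j : ℤ) : ℂ) := fun i j => by simp
  rw [e1, e1, e1, e1, e2, e2, e2, e2]
  have a00 : alG1 N ℓ x y h 0 0 = x := rfl
  have a01 : alG1 N ℓ x y h 0 1 = -y := rfl
  have a10 : alG1 N ℓ x y h 1 0 = N := rfl
  have a11 : alG1 N ℓ x y h 1 1 = ℓ := rfl
  have b00 : alG2 N ℓ x y h 0 0 = ℓ * x := rfl
  have b01 : alG2 N ℓ x y h 0 1 = -y := rfl
  have b10 : alG2 N ℓ x y h 1 0 = N := rfl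
  have b11 : alG2 N ℓ x y h 1 1 = 1 := rfl
  rw [a00, a01, a10, a11, b00, b01, b10, b11]
  push_cast
  have hℓ' : (ℓ : ℂ) ≠ 0 := by exact_mod_cast hℓ
  have hden : (N : ℂ) * (τ : ℂ) + 1 ≠ 0 := by
    intro h0
    have him := congrArg Complex.im h0
    simp only [add_im, mul_im, natCast_re, natCast_im, coe_im, zero_mul, add_zero, one_im,
      zero_im] at him
    have hN' : (N : ℝ) ≠ 0 := by exact_mod_cast hN
    exact (mul_ne_zero hN' τ.im_ne_zero) him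
  have hden' : (N : ℂ) * ((ℓ : ℂ) * (τ : ℂ)) + (ℓ : ℂ) ≠ 0 := by
    have : (N : ℂ) * ((ℓ : ℂ) * (τ : ℂ)) + (ℓ : ℂ) =
        (ℓ : ℂ) * ((N : ℂ) * (τ : ℂ) + 1) := by ring
    rw [this]
    exact mul_ne_zero hℓ' hden
  rw [← mul_div_assoc, div_eq_div_iff hden' hden]
  ring

end Matrices

section Operator

variable {N ℓ : ℕ} {x y : ℤ} (h : (ℓ : ℤ) * x + N * y = 1)

/-- the operator `f ↦ f ∘ γ₁ ∘ (ℓ ·)` on `MerH`. -/
noncomputable def MerH.alOp : MerH →+* MerH :=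
  (MerH.dilate ℓ).comp (MerH.comp (alG1 N ℓ x y h)).toRingHom

theorem MerH.alOp_apply (f : MerH) :
    MerH.alOp h f = MerH.dilate ℓ (MerH.comp (alG1 N ℓ x y h) f) := rfl

theorem MerH.alOp_const (c : ℂ) : MerH.alOp h (MerH.const c) = MerH.const c := by
  rw [MerH.alOp_apply, MerH.comp_const, MerH.dilate_const]

/-- `T (f(ℓ ·)) = f ∘ γ₂`. -/
theorem MerH.alOp_dilate (hN : N ≠ 0) (hℓ : ℓ ≠ 0) (f : MerH) :
    MerH.alOp h (MerH.dilate ℓ f) = MerH.comp (alG2 N ℓ x y h) f := by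
  obtain ⟨a, b, hb, rfl⟩ := MerH.exists_div f
  rw [MerH.alOp_apply]
  simp only [map_div₀, MerH.dilate_ofHol]
  have key : ∀ g : HolH, MerH.dilate ℓ (MerH.comp (alG1 N ℓ x y h)
      (MerH.ofHol (HolH.dilateHom ℓ g))) = MerH.comp (alG2 N ℓ x y h) (MerH.ofHol g) := by
    intro g
    have h1 : ∀ (γ : SL(2, ℤ)) (g : HolH), MerH.comp γ (MerH.ofHol g) =
        MerH.ofHol (HolH.comp γ g) := fun γ g => MerH.comp_algebraMap γ g
    rw [h1, h1, MerH.dilate_ofHol]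
    congr 1
    ext τ
    simp only [HolH.dilateHom_apply, HolH.comp_apply]
    rw [heckeDiagMatrix_smul_alG1_smul hN hℓ h τ]
  rw [key, key]

end Operator

end Fermat.Agent.W1
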