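/-
W1 = [GRΓ1] (S48), package [ANORM1] (helper9), part 4 (port of `GR/ANORM_helper5_Main`):
**the analytic norm formula** for the level `Gpm M L`.  For every prime `ℓ`, every field `k ⊆ ℂ`
and `f ∈ k·F₁ M L`:
`realML (N_{F₁ M (Lℓ) / β F₁ M L} (α f)) (τ) = ∏_{b < ℓ} (realML f)((τ + b)/ℓ) · [ℓ ∤ M L] (realML f ∘ γ)(ℓ τ)`
for any `γ ∈ Γ₀(M L)` whose upper left entry is `ℓ⁻¹` modulo `M` (so: `⟨ℓ⟩ f` in the lower right
convention, `diaAlg M L d f` with `d ℓ = 1`).
-/
import Mathlib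
import Fermat.Agent.W1.ANORM1_helper9_Real
import Fermat.Agent.W1.CHAR1_helper9_Cusp

set_option autoImplicit false
set_option linter.unusedSectionVars false
set_option linter.style.haveILetI false

namespace Fermat.Agent.W1

open UpperHalfPlane Complex Filter Topology ModularCurve IntermediateField ModularForm
open Fermat.Agent.RatStr AlgebraicCurve Fermat.Agent.GR Fermat.Agent.X0N CongruenceSubgroup
open scoped MatrixGroups Manifold

theorem T_zpow_mem_Gpm (M L : ℕ) (n : ℤ) : ModularGroup.T ^ n ∈ Gpm M L :=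
  (Gpm M L).zpow_mem (T_mem_Gpm M L) n

section Embeddings

variable {k : Type*} [Field k] [Algebra ℚ k] [Algebra k ℂ] [IsScalarTower ℚ k ℂ]
  (M L ℓ : ℕ) [NeZero M] [NeZero L] [NeZero ℓ]

/-- the conjugate embedding `z ↦ z((τ + b)/ℓ)` of `F₁ M (L ℓ)` over `β (F₁ M L)`. -/
noncomputable def sigmaBML (b : ℕ) : ↥(laurentBaseChange k (F₁ M (L * ℓ))) →+* MerH :=
  (MerH.compGL (heckeMatrix ℓ b) (det_heckeMatrix_pos ℓ b)).comp
    (realML (algebraMap k ℂ) M (L * ℓ))

theorem sigmaBML_apply (b : ℕ) (z : ↥(laurentBaseChange k (F₁ M (L * ℓ)))) :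
    sigmaBML M L ℓ b z = MerH.compGL (heckeMatrix ℓ b) (det_heckeMatrix_pos ℓ b)
      (realML (algebraMap k ℂ) M (L * ℓ) z) := rfl

theorem sigmaBML_beta (b : ℕ) (r : ↥(laurentBaseChange k (F₁ M L))) :
    sigmaBML M L ℓ b (heckeBetaBar k M L ℓ r) = realML (algebraMap k ℂ) M L r := by
  rw [sigmaBML_apply, realML_heckeBetaBar]
  exact MerH.compGL_heckeMatrix_dilate (NeZero.ne ℓ) b _
    (comp_realML_of_mem_Gpm (algebraMap k ℂ) (T_zpow_mem_Gpm M L b) r)

theorem sigmaBML_alpha (b : ℕ) (f : ↥(laurentBaseChange k (F₁ M L))) :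
    sigmaBML M L ℓ b (heckeAlphaBar k M L ℓ f) =
      MerH.compGL (heckeMatrix ℓ b) (det_heckeMatrix_pos ℓ b)
        (realML (algebraMap k ℂ) M L f) := by
  rw [sigmaBML_apply, realML_heckeAlphaBar]

theorem sigmaBML_jK (b : ℕ) :
    sigmaBML M L ℓ b (heckeAlphaBar k M L ℓ (jK k M L)) =
      MerH.ofHol (HolH.compGLHom (heckeMatrix ℓ b) (det_heckeMatrix_pos ℓ b) jHol) := by
  rw [sigmaBML_alpha, realML_jK_eq_ofHol, MerH.compGL_ofHol]

theorem sigmaBML_injective :
    Function.Injective (fun b : Fin ℓ => sigmaBML (k := k) M L ℓ (b : ℕ)) := by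
  intro b b' h
  by_contra hne
  have hne' : (b : ℕ) ≠ (b' : ℕ) := fun h' => hne (Fin.ext h')
  obtain ⟨τ, hτ⟩ := exists_jFun_heckeMatrix_ne (NeZero.ne ℓ) b.2 b'.2 hne'
  apply hτ
  have h1 := congrArg (fun σ : ↥(laurentBaseChange k (F₁ M (L * ℓ))) →+* MerH =>
    σ (heckeAlphaBar k M L ℓ (jK k M L))) h
  simp only [sigmaBML_jK] at h1
  have h2 := MerH.ofHol_injective h1
  have h3 := congrFun (congrArg Subtype.val h2) τ
  exact h3

variable {M L ℓ} {x y : ℤ} (h : (ℓ : ℤ) * x + ((M * L : ℕ) : ℤ) * y = 1)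

/-- the conjugate embedding at infinity `z ↦ z(γ₁ ℓ τ)` of `F₁ M (L ℓ)` over `β (F₁ M L)`
(`ℓ ∤ M L`). -/
noncomputable def sigmaInftyML : ↥(laurentBaseChange k (F₁ M (L * ℓ))) →+* MerH :=
  (MerH.alOp h).comp (realML (algebraMap k ℂ) M (L * ℓ))

theorem sigmaInftyML_apply (z : ↥(laurentBaseChange k (F₁ M (L * ℓ)))) :
    sigmaInftyML (k := k) h z = MerH.alOp h (realML (algebraMap k ℂ) M (L * ℓ) z) := rfl

theorem sigmaInftyML_beta (r : ↥(laurentBaseChange k (F₁ M L))) :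
    sigmaInftyML (k := k) h (heckeBetaBar k M L ℓ r) = realML (algebraMap k ℂ) M L r := by
  rw [sigmaInftyML_apply, realML_heckeBetaBar,
    MerH.alOp_dilate h (mul_ne_zero (NeZero.ne M) (NeZero.ne L)) (NeZero.ne ℓ)]
  exact comp_realML_of_mem_Gpm (algebraMap k ℂ) (GammaML_le_Gpm M L (alG2_mem_GammaML h)) r

theorem sigmaInftyML_alpha (f : ↥(laurentBaseChange k (F₁ M L))) :
    sigmaInftyML (k := k) h (heckeAlphaBar k M L ℓ f) =
      MerH.dilate ℓ (MerH.comp (alG1 (M * L) ℓ x y h) (realML (algebraMap k ℂ) M L f)) := by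
  rw [sigmaInftyML_apply, realML_heckeAlphaBar, MerH.alOp_apply]

theorem sigmaInftyML_jK :
    sigmaInftyML (k := k) h (heckeAlphaBar k M L ℓ (jK k M L)) =
      MerH.ofHol (HolH.compGLHom (heckeDiagMatrix ℓ) (det_heckeDiagMatrix_pos ℓ) jHol) := by
  rw [sigmaInftyML_alpha, realML_jK, comp_jM, ← MerH.compGL_heckeDiagMatrix]
  show MerH.compGL (heckeDiagMatrix ℓ) (det_heckeDiagMatrix_pos ℓ) (MerH.ofHol jHol) = _
  rw [MerH.compGL_ofHol]

end Embeddings

section NormFormula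

variable {k : Type*} [Field k] [Algebra ℚ k] [Algebra k ℂ] [IsScalarTower ℚ k ℂ]
  (M L ℓ : ℕ) [NeZero M] [NeZero L] [NeZero ℓ]

set_option maxHeartbeats 1600000 in
set_option synthInstance.maxHeartbeats 400000 in
/-- **the analytic norm formula, `ℓ ∣ M L`**: for `z ∈ F₁ M (L ℓ)`,
`(N_{F₁ M (Lℓ)/βF₁ M L} z)(τ) = ∏_{b < ℓ} z((τ + b)/ℓ)`. -/
theorem realML_norm_heckeBetaBar_of_dvd (hM : M ≠ 1) (hℓ : ℓ.Prime) (hℓN : ℓ ∣ M * L)
    (z : ↥(laurentBaseChange k (F₁ M (L * ℓ)))) :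
    letI := algebraAlong (heckeBetaBar k M L ℓ)
    realML (algebraMap k ℂ) M L
        (Algebra.norm ↥(laurentBaseChange k (F₁ M L)) z) =
      ∏ b : Fin ℓ, MerH.compGL (heckeMatrix ℓ b) (det_heckeMatrix_pos ℓ b)
        (realML (algebraMap k ℂ) M (L * ℓ) z) := by
  letI := algebraAlong (heckeBetaBar k M L ℓ)
  obtain ⟨hfin0, hdeg0⟩ := finrankAlong_heckeBetaBar_ML (k := k) M L ℓ hM hℓ
  haveI hfin : FiniteDimensional ↥(laurentBaseChange k (F₁ M L))
      ↥(laurentBaseChange k (F₁ M (L * ℓ))) := hfin0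
  haveI : CharZero k := algebraRat.charZero k
  haveI : CharZero ↥(laurentBaseChange k (F₁ M L)) :=
    charZero_of_injective_algebraMap
      (algebraMap k ↥(laurentBaseChange k (F₁ M L))).injective
  haveI : Algebra.IsSeparable ↥(laurentBaseChange k (F₁ M L))
      ↥(laurentBaseChange k (F₁ M (L * ℓ))) :=
    Algebra.IsAlgebraic.isSeparable_of_perfectField
  have hdeg : Module.finrank ↥(laurentBaseChange k (F₁ M L))
      ↥(laurentBaseChange k (F₁ M (L * ℓ))) = ℓ := by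
    have := hdeg0
    rw [if_pos hℓN] at this
    exact this
  exact norm_eq_prod_of_card_eq (realML (algebraMap k ℂ) M L)
    (fun b : Fin ℓ => sigmaBML (k := k) M L ℓ (b : ℕ)) (fun b r => sigmaBML_beta M L ℓ b r)
    (sigmaBML_injective M L ℓ) (by rw [Fintype.card_fin]; exact hdeg.symm) z

set_option maxHeartbeats 1600000 in
set_option synthInstance.maxHeartbeats 400000 in
/-- **the analytic norm formula, `ℓ ∤ M L`**: for `z ∈ F₁ M (L ℓ)`,
`(N_{F₁ M (Lℓ)/βF₁ M L} z)(τ) = ∏_{b < ℓ} z((τ + b)/ℓ) · (T z)(τ)`. -/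
theorem realML_norm_heckeBetaBar_of_not_dvd (hM : M ≠ 1) (hℓ : ℓ.Prime) (hℓN : ¬ ℓ ∣ M * L)
    {x y : ℤ} (h : (ℓ : ℤ) * x + ((M * L : ℕ) : ℤ) * y = 1)
    (z : ↥(laurentBaseChange k (F₁ M (L * ℓ)))) :
    letI := algebraAlong (heckeBetaBar k M L ℓ)
    realML (algebraMap k ℂ) M L
        (Algebra.norm ↥(laurentBaseChange k (F₁ M L)) z) =
      (∏ b : Fin ℓ, MerH.compGL (heckeMatrix ℓ b) (det_heckeMatrix_pos ℓ b)
        (realML (algebraMap k ℂ) M (L * ℓ) z)) *
        MerH.alOp h (realML (algebraMap k ℂ) M (L * ℓ) z) := by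
  letI := algebraAlong (heckeBetaBar k M L ℓ)
  obtain ⟨hfin0, hdeg0⟩ := finrankAlong_heckeBetaBar_ML (k := k) M L ℓ hM hℓ
  haveI hfin : FiniteDimensional ↥(laurentBaseChange k (F₁ M L))
      ↥(laurentBaseChange k (F₁ M (L * ℓ))) := hfin0
  haveI : CharZero k := algebraRat.charZero k
  haveI : CharZero ↥(laurentBaseChange k (F₁ M L)) :=
    charZero_of_injective_algebraMap
      (algebraMap k ↥(laurentBaseChange k (F₁ M L))).injective
  haveI : Algebra.IsSeparable ↥(laurentBaseChange k (F₁ M L))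
      ↥(laurentBaseChange k (F₁ M (L * ℓ))) :=
    Algebra.IsAlgebraic.isSeparable_of_perfectField
  have hdeg : Module.finrank ↥(laurentBaseChange k (F₁ M L))
      ↥(laurentBaseChange k (F₁ M (L * ℓ))) = ℓ + 1 := by
    have := hdeg0
    rw [if_neg hℓN] at this
    exact this
  let σ : Option (Fin ℓ) → (↥(laurentBaseChange k (F₁ M (L * ℓ))) →+* MerH) :=
    fun o => o.elim (sigmaInftyML (k := k) h) (fun b => sigmaBML (k := k) M L ℓ (b : ℕ))
  have hσβ : ∀ o r, σ o (algebraMap _ _ r) = realML (algebraMap k ℂ) M L r := by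
    intro o r
    cases o with
    | none => exact sigmaInftyML_beta h r
    | some b => exact sigmaBML_beta M L ℓ b r
  have hσinj : Function.Injective σ := by
    intro o o' hoo'
    cases o with
    | none =>
      cases o' with
      | none => rfl
      | some b' =>
        exfalso
        obtain ⟨τ, hτ⟩ := exists_jFun_heckeMatrix_ne_heckeDiagMatrix hℓ.two_le (b' : ℕ)
        apply hτ
        have h1 := congrArg (fun φ : ↥(laurentBaseChange k (F₁ M (L * ℓ))) →+*
          MerH => φ (heckeAlphaBar k M L ℓ (jK k M L))) hoo'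
        have h1' : sigmaInftyML (k := k) h (heckeAlphaBar k M L ℓ (jK k M L)) =
            sigmaBML (k := k) M L ℓ (b' : ℕ) (heckeAlphaBar k M L ℓ (jK k M L)) := h1
        rw [sigmaInftyML_jK, sigmaBML_jK] at h1'
        have h2 := MerH.ofHol_injective h1'
        exact (congrFun (congrArg Subtype.val h2) τ).symm
    | some b =>
      cases o' with
      | none =>
        exfalso
        obtain ⟨τ, hτ⟩ := exists_jFun_heckeMatrix_ne_heckeDiagMatrix hℓ.two_le (b : ℕ)
        apply hτ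
        have h1 := congrArg (fun φ : ↥(laurentBaseChange k (F₁ M (L * ℓ))) →+*
          MerH => φ (heckeAlphaBar k M L ℓ (jK k M L))) hoo'
        have h1' : sigmaBML (k := k) M L ℓ (b : ℕ) (heckeAlphaBar k M L ℓ (jK k M L)) =
            sigmaInftyML (k := k) h (heckeAlphaBar k M L ℓ (jK k M L)) := h1
        rw [sigmaInftyML_jK, sigmaBML_jK] at h1'
        have h2 := MerH.ofHol_injective h1'
        exact congrFun (congrArg Subtype.val h2) τ
      | some b' =>
        have h1 : (fun b : Fin ℓ => sigmaBML (k := k) M L ℓ (b : ℕ)) b =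
            (fun b : Fin ℓ => sigmaBML (k := k) M L ℓ (b : ℕ)) b' := hoo'
        exact congrArg some (sigmaBML_injective M L ℓ h1)
  have hmain := norm_eq_prod_of_card_eq (realML (algebraMap k ℂ) M L) σ hσβ hσinj
    (by rw [Fintype.card_option, Fintype.card_fin]; exact hdeg.symm) z
  rw [hmain, Fintype.prod_option, mul_comm]
  rfl

end NormFormula

end Fermat.Agent.W1
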