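/-
W1 = [GRΓ1] (S48), package [CHAR1] (helper9), part 2 (port of `GR/CHAR_helper8_Kappa`):
Kummer roots on the function field of level `Gpm M L` over `ℂ`.
For a degree zero divisor `D` with `n D = div f`, the function `realMLC f` on `ℍ` has an `n`-th
root `u ∈ MerH`, and `u ∘ γ = exp(2πi ψ(γ)/n) u` for `γ ∈ Gpm M L`; `ψ` only depends on the class
of `D`, is additive in `D`, and kills parabolic elements.
(`merH_comp_neg`, `merH_comp_eq_of_comp_inv_eq` of `GR/CHAR_helper8_Kappa` and the generic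
`GR/CHAR_helper8_Kummer` are used as they are.)
-/
import Mathlib
import Fermat.Agent.GR.CHAR_helper8_Kappa
import Fermat.Agent.W1.CHAR1_helper9_Cusp

set_option autoImplicit false
set_option linter.style.haveILetI false
set_option linter.unusedSectionVars false

open UpperHalfPlane hiding I
open Complex ModularGroup ModularCurve CongruenceSubgroup AlgebraicCurve
open scoped MatrixGroups

namespace Fermat.Agent.W1

open Fermat.Agent.X0N Fermat.Agent.GR

variable (M L : ℕ) [NeZero M] [NeZero L] (n : ℕ) [NeZero n]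

/-- `u` is an `n`-th root of (the realisation on `ℍ` of) a function with divisor `n • D`. -/
def IsKummerRoot (D : Divisor ℂ ↥(laurentBaseChange ℂ (F₁ M L)))
    (u : MerH) : Prop :=
  ∃ f : ↥(laurentBaseChange ℂ (F₁ M L)), f ≠ 0 ∧
    (∀ v : Place ℂ ↥(laurentBaseChange ℂ (F₁ M L)),
      (n : ℤ) * D v = v.ord f) ∧ u ^ n = realMLC M L f

variable {M L n}

theorem realMLC_ne_zero {f : ↥(laurentBaseChange ℂ (F₁ M L))} (hf : f ≠ 0) :
    realMLC M L f ≠ 0 := by
  rwa [Ne, map_eq_zero_iff _ (realMLC_injective M L)]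

theorem comp_realMLC_of_mem {γ : SL(2, ℤ)} (hγ : γ ∈ Gpm M L)
    (f : ↥(laurentBaseChange ℂ (F₁ M L))) :
    MerH.comp γ (realMLC M L f) = realMLC M L f :=
  comp_realML_of_mem_Gpm (RingHom.id ℂ) hγ f

theorem IsKummerRoot.ne_zero {D : Divisor ℂ ↥(laurentBaseChange ℂ (F₁ M L))}
    {u : MerH} (hu : IsKummerRoot M L n D u) : u ≠ 0 := by
  obtain ⟨f, hf, -, hpow⟩ := hu
  intro h0
  rw [h0, zero_pow (NeZero.ne n)] at hpow
  exact realMLC_ne_zero hf hpow.symm

theorem IsKummerRoot.isKummerElt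
    {D : Divisor ℂ ↥(laurentBaseChange ℂ (F₁ M L))} {u : MerH}
    (hu : IsKummerRoot M L n D u) : IsKummerElt (Gpm M L) n u := by
  refine ⟨hu.ne_zero, fun γ hγ => ?_⟩
  obtain ⟨f, -, -, hpow⟩ := hu
  rw [hpow, comp_realMLC_of_mem hγ]

/-- **existence of Kummer roots** (K1 ROOT + the order dictionary at the points of `ℍ`). -/
theorem exists_isKummerRoot (D : Divisor ℂ ↥(laurentBaseChange ℂ (F₁ M L)))
    (f : ↥(laurentBaseChange ℂ (F₁ M L))) (hf : f ≠ 0)
    (hD : ∀ v : Place ℂ ↥(laurentBaseChange ℂ (F₁ M L)),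
      (n : ℤ) * D v = v.ord f) : ∃ u : MerH, IsKummerRoot M L n D u := by
  have hdiv : ∀ τ : ℍ, (n : ℤ) ∣ MerH.ordAt τ (realMLC M L f) := by
    intro τ
    exact char_dvd_ordAt_realML (RingHom.id ℂ) M L τ (jFun τ) rfl (n : ℤ) hf
      (fun v => ⟨D v, (hD v).symm⟩)
  obtain ⟨u, hu⟩ := exists_root_merH n (NeZero.ne n) (realMLC M L f) (realMLC_ne_zero hf) hdiv
  exact ⟨u, f, hf, hD, hu⟩

theorem IsKummerRoot.mul {D D' : Divisor ℂ ↥(laurentBaseChange ℂ (F₁ M L))}
    {u u' : MerH} (hu : IsKummerRoot M L n D u) (hu' : IsKummerRoot M L n D' u') :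
    IsKummerRoot M L n (D + D') (u * u') := by
  obtain ⟨f, hf, hD, hpow⟩ := hu
  obtain ⟨f', hf', hD', hpow'⟩ := hu'
  refine ⟨f * f', mul_ne_zero hf hf', fun v => ?_, ?_⟩
  · rw [Finsupp.add_apply, mul_add, hD v, hD' v, v.ord_mul hf hf']
  · rw [mul_pow, hpow, hpow', map_mul]

set_option synthInstance.maxHeartbeats 400000 in
/-- a function without zeros and poles is constant. -/
theorem exists_eq_algebraMap_of_forall_ord_eq_zero (hM : M ≠ 1)
    (g : ↥(laurentBaseChange ℂ (F₁ M L))) (hg : g ≠ 0)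
    (h : ∀ v : Place ℂ ↥(laurentBaseChange ℂ (F₁ M L)), v.ord g = 0) :
    ∃ c : ℂ, g = algebraMap ℂ _ c := by
  haveI := (jCoordC M L hM).fin
  exact Fermat.Agent.JA.const_of_forall_ord_eq_zero (jCoordC M L hM).x (jCoordC M L hM).trans g hg h

/-- **independence of the representative**: linearly equivalent divisors have the same Kummer
character. -/
theorem IsKummerRoot.kummerChar_eq (hM : M ≠ 1)
    {D D' : Divisor ℂ ↥(laurentBaseChange ℂ (F₁ M L))} {u u' : MerH}
    (hu : IsKummerRoot M L n D u) (hu' : IsKummerRoot M L n D' u')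
    (g : ↥(laurentBaseChange ℂ (F₁ M L))) (hg : g ≠ 0)
    (hDD' : ∀ v : Place ℂ ↥(laurentBaseChange ℂ (F₁ M L)),
      D' v - D v = v.ord g) :
    kummerChar (Gpm M L) n u' = kummerChar (Gpm M L) n u := by
  have hKu := hu.isKummerElt
  obtain ⟨f, hf, hD, hpow⟩ := hu
  obtain ⟨f', hf', hD', hpow'⟩ := hu'
  -- `f' = c f g^n`
  have hfg : f * g ^ n ≠ 0 := mul_ne_zero hf (pow_ne_zero n hg)
  have hq0 : f' / (f * g ^ n) ≠ 0 := div_ne_zero hf' hfg
  obtain ⟨c, hc⟩ := exists_eq_algebraMap_of_forall_ord_eq_zero hM (f' / (f * g ^ n)) hq0 (by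
    intro v
    rw [div_eq_mul_inv, v.ord_mul hf' (inv_ne_zero hfg), v.ord_inv,
      v.ord_mul hf (pow_ne_zero n hg), ← zpow_natCast, v.ord_zpow, ← hD' v, ← hD v, ← hDD' v]
    ring)
  have hc0 : c ≠ 0 := by
    rintro rfl
    rw [map_zero] at hc
    exact hq0 hc
  have hf'eq : f' = algebraMap ℂ _ c * (f * g ^ n) := by
    rw [← hc, div_mul_cancel₀ _ hfg]
  obtain ⟨c₁, hc₁⟩ := IsAlgClosed.exists_pow_nat_eq c (Nat.pos_of_ne_zero (NeZero.ne n))
  have hc₁0 : c₁ ≠ 0 := by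
    rintro rfl
    rw [zero_pow (NeZero.ne n)] at hc₁
    exact hc0 hc₁.symm
  -- the comparison root
  set w : MerH := u * (MerH.const c₁ * realMLC M L g) with hw
  have hwpow : u' ^ n = w ^ n := by
    rw [hpow', hf'eq, hw, mul_pow, mul_pow, hpow, ← map_pow, hc₁, map_mul, map_mul, map_pow,
      AlgHom.commutes, MerH.algebraMap_eq_const]
    ring
  have hv0 : MerH.const c₁ * realMLC M L g ≠ 0 :=
    mul_ne_zero (by rwa [Ne, map_eq_zero_iff _ MerH.const_injective]) (realMLC_ne_zero hg)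
  have hvinv : ∀ γ ∈ Gpm M L, MerH.comp γ (MerH.const c₁ * realMLC M L g) =
      MerH.const c₁ * realMLC M L g := by
    intro γ hγ
    rw [map_mul, MerH.comp_const, comp_realMLC_of_mem hγ]
  have hKw : IsKummerElt (Gpm M L) n w := hKu.mul (isKummerElt_of_invariant hv0 hvinv)
  rw [kummerChar_eq_of_pow_eq hKw hwpow, hw, kummerChar_mul_invariant hKu hv0 hvinv]

/-- **Kummer roots are invariant under parabolic elements of `Γ₀(N)`.** -/
theorem IsKummerRoot.comp_eq_of_parabolic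
    {D : Divisor ℂ ↥(laurentBaseChange ℂ (F₁ M L))} {u : MerH}
    (hu : IsKummerRoot M L n D u) {γ : SL(2, ℤ)} (hγ : γ ∈ Gpm M L)
    (htr : (γ : Matrix (Fin 2) (Fin 2) ℤ).trace ^ 2 = 4) : MerH.comp γ u = u := by
  obtain ⟨f, hf, hD, hpow⟩ := hu
  obtain ⟨δ, k, hk⟩ := exists_conj_eq_T_zpow γ htr
  -- `s = δ T^k δ⁻¹ = ± γ`
  set s : SL(2, ℤ) := δ * T ^ k * δ⁻¹ with hs
  have hsγ : s = γ ∨ s = -γ := by
    rcases hk with h | h
    · left
      rw [hs, ← h]; group
    · right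
      have : T ^ k = -(δ⁻¹ * γ * δ) := by rw [h, neg_neg]
      rw [hs, this]
      simp only [mul_neg, neg_mul, neg_inj]
      group
  have hsΓ : s ∈ Gpm M L := by
    rcases hsγ with h | h
    · rw [h]; exact hγ
    · rw [h]; exact neg_mem_Gpm hγ
  have hcomp : MerH.comp s u = MerH.comp γ u := by
    rcases hsγ with h | h
    · rw [h]
    · rw [h, merH_comp_neg]
  rw [← hcomp]
  by_cases hk0 : k = 0
  · have : s = 1 := by rw [hs, hk0, zpow_zero, mul_one, mul_inv_cancel]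
    rw [this, MerH.comp_one]
  -- the width
  set h : ℕ := k.natAbs with hh
  haveI : NeZero h := ⟨Int.natAbs_ne_zero.mpr hk0⟩
  have hTh : δ * T ^ h * δ⁻¹ = s ∨ δ * T ^ h * δ⁻¹ = s⁻¹ := by
    rcases Int.natAbs_eq k with h1 | h1
    · left
      rw [hs]
      conv_rhs => rw [h1, zpow_natCast]
    · right
      have e : T ^ k = (T ^ h)⁻¹ := by
        conv_lhs => rw [h1]
        rw [zpow_neg, zpow_natCast]
      rw [hs, e]
      group
  have hδ : δ * T ^ h * δ⁻¹ ∈ Gpm M L := by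
    rcases hTh with h1 | h1
    · rw [h1]; exact hsΓ
    · rw [h1]; exact (Gpm M L).inv_mem hsΓ
  -- periodicity of the root at the cusp `δ∞`
  have hper : MerH.comp (T ^ h) (MerH.comp δ u) = MerH.comp δ u := by
    apply comp_T_pow_eq_of_pow_eq (NeZero.ne n) (x := MerH.comp δ (realMLC M L f))
      (isMerInf_comp_realML (RingHom.id ℂ) M L δ hδ f)
      (comp_realML_ne_zero (RingHom.id ℂ) M L δ hf)
      (char_dvd_ordInf_comp_realML (RingHom.id ℂ) M L δ h hδ (n : ℤ) hf (fun v => ⟨D v, (hD v).symm⟩))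
    rw [← map_pow, hpow]
  have hconj : MerH.comp (δ * T ^ h * δ⁻¹) u = u := by
    rw [MerH.comp_mul, MerH.comp_mul, hper, ← MerH.comp_mul, mul_inv_cancel, MerH.comp_one]
  rcases hTh with h1 | h1
  · rwa [h1] at hconj
  · rw [h1] at hconj
    exact merH_comp_eq_of_comp_inv_eq hconj

end Fermat.Agent.W1
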