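/-
W1 = [GRΓ1] (S48), package [ES1] (helper9), final part: **Eichler–Shimura at the level `Gpm M L`,
unconditionally** (`M ≠ 1`), from the two deliverables (D1) (Riemann–Hurwitz: the genus of the
function field of level `Gpm M L` over `ℚ̄` is a genus of `Gpm M L`) and (D2) (regular differentials
are cusp forms) of the places dictionary [DICT1] (helper3):
`dim S₂(Γ) = g`, `dim Hom_par(Γ, ℂ) = 2 g`, `S₂(Γ) × S₂(Γ) ≃ Hom_par(Γ, ℂ)`.
-/
import Mathlib
import Fermat.Agent.W1.DICT1_helper3_Genus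
import Fermat.Agent.W1.ES1_helper9_Bridge

set_option autoImplicit false
set_option linter.unusedSectionVars false
set_option linter.style.haveILetI false

namespace Fermat.Agent.W1.ES

open CongruenceSubgroup ModularCurve ModularCurve.Period UpperHalfPlane ModularForm AlgebraicCurve
open Fermat.Agent.RatStr
open scoped MatrixGroups ModularForm Manifold

variable (M L : ℕ) [NeZero M] [NeZero L]

/-- **`dim S₂(Gpm M L)` is the genus of `Gpm M L`**: `2 g - 2 = μ - e₂ - e₃ - e_∞`. -/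
theorem isGenusOf_finrank_cuspForm_Gpm (hM : M ≠ 1) :
    IsGenusOf (Gpm M L) (Module.finrank ℂ (CuspForm (Gpm M L) 2)) := by
  haveI := hasCanonicalDivisor_F₁Bar M L hM
  have hg := isGenusOf_genus_F₁Bar M L hM
  have hle := genus_F₁Bar_le_finrank_cuspForm M L hM
  rw [(eichlerShimura_Gpm M L hg hle).1]
  exact hg

/-- `dim S₂(Gpm M L)` is the genus of the function field of level `Gpm M L` over `ℚ̄`. -/
theorem finrank_cuspForm_Gpm_eq_genus_F₁Bar (hM : M ≠ 1)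
    [HasCanonicalDivisor (K := AlgebraicClosure ℚ) (F := ↥(F₁Bar M L))] :
    Module.finrank ℂ (CuspForm (Gpm M L) 2) = genus (AlgebraicClosure ℚ) ↥(F₁Bar M L) :=
  (eichlerShimura_Gpm M L (isGenusOf_genus_F₁Bar M L hM)
    (genus_F₁Bar_le_finrank_cuspForm M L hM)).1

/-- **Eichler–Shimura at the level `Gpm M L`**, unconditionally. -/
theorem eichlerShimura_Gpm_finrank (hM : M ≠ 1) :
    Module.finrank ℂ ↥(parabolicHoms ℂ (Gpm M L) ℂ) =
        2 * Module.finrank ℂ (CuspForm (Gpm M L) 2)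
      ∧ Function.Injective (periodHomPairΓ (Gpm M L))
      ∧ LinearMap.range (periodHomPairΓ (Gpm M L)) = parabolicHoms ℂ (Gpm M L) ℂ :=
  (eichlerShimura_Gpm M L (isGenusOf_finrank_cuspForm_Gpm M L hM) le_rfl).2

/-- the Eichler–Shimura isomorphism `S₂(Γ) × S₂(Γ) ≃ Hom_par(Γ, ℂ)`, `Γ = Gpm M L`,
unconditionally. -/
noncomputable def esEquivGpmU (hM : M ≠ 1) :
    (CuspForm (Gpm M L) 2 × CuspForm (Gpm M L) 2) ≃ₗ[ℂ] ↥(parabolicHoms ℂ (Gpm M L) ℂ) :=
  esEquivGpm M L (isGenusOf_finrank_cuspForm_Gpm M L hM) le_rfl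

theorem coe_esEquivGpmU (hM : M ≠ 1) (x : CuspForm (Gpm M L) 2 × CuspForm (Gpm M L) 2) :
    ((esEquivGpmU M L hM x : ↥(parabolicHoms ℂ (Gpm M L) ℂ)) : Additive ↥(Gpm M L) →+ ℂ)
      = periodHomPairΓ (Gpm M L) x := rfl

/-- `dim S₂(Γ₁(M))` is the genus of `±Γ₁(M)`. -/
theorem isGenusOf_finrank_cuspForm_Gamma1 (hM : M ≠ 1) :
    IsGenusOf (Gpm M 1) (Module.finrank ℂ (CuspForm (Gamma1 M) 2)) := by
  rw [finrank_cuspForm_Gamma1_eq]
  exact isGenusOf_finrank_cuspForm_Gpm M 1 hM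

/-- `dim Hom_par(±Γ₁(M), ℂ) = 2 dim S₂(Γ₁(M))`. -/
theorem finrank_parabolicHoms_Gpm_one (hM : M ≠ 1) :
    Module.finrank ℂ ↥(parabolicHoms ℂ (Gpm M 1) ℂ) =
      2 * Module.finrank ℂ (CuspForm (Gamma1 M) 2) := by
  rw [finrank_cuspForm_Gamma1_eq]
  exact (eichlerShimura_Gpm_finrank M 1 hM).1

/-- `dim S₂(Γ₁(M))` is the genus of the function field of level `±Γ₁(M)` over `ℚ̄`. -/
theorem finrank_cuspForm_Gamma1_eq_genus_F₁Bar (hM : M ≠ 1)
    [HasCanonicalDivisor (K := AlgebraicClosure ℚ) (F := ↥(F₁Bar M 1))] :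
    Module.finrank ℂ (CuspForm (Gamma1 M) 2) = genus (AlgebraicClosure ℚ) ↥(F₁Bar M 1) := by
  rw [finrank_cuspForm_Gamma1_eq]
  exact finrank_cuspForm_Gpm_eq_genus_F₁Bar M 1 hM

end Fermat.Agent.W1.ES
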