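/-
W1 = [GRΓ1] (S48), package [A5] (Eichler–Shimura chain, helper4), the `Pic⁰` step — helper6.
Port of `JA/S37Asm_helper7_ESPlace` with a diamond operator: the Eichler–Shimura congruence on
`Pic⁰` from its place-level form
`r_*(T'_ℓ P) = [Φ (r P)] + ℓ [Φ⁻¹ (r (δ P))]`   (`T'_ℓ = β_* α^*`, `δ` a semilinear
automorphism of the characteristic-zero field: the diamond operator `⟨ℓ⟩^{-1}`).
-/
import Mathlib
import Fermat.Agent.W1.HECKEF_helper4_Swap
import Fermat.Agent.W1.S37Asm_helper7_Red
import Fermat.Agent.W1.A0_helper7_RedDefs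

set_option autoImplicit false
set_option linter.style.haveILetI false
set_option linter.unusedSectionVars false

open HahnSeries IntermediateField AlgebraicCurve

open Fermat.Agent.JA

namespace Fermat.Agent.W1

open ModularCurve

set_option synthInstance.maxHeartbeats 400000
set_option maxHeartbeats 1600000

section Abstract

variable {K F K' F' : Type*} [Field K] [Field F] [Algebra K F] [Field K'] [Field F']
  [Algebra K' F']

/-- divisor-level Eichler–Shimura with a diamond from its values on single places. -/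
theorem mapDomain_correspondence_eq_dia (r : Place K F → Place K' F')
    (T : Divisor K F →+ Divisor K F) (Φ : SemilinearAut K' F') (δ : SemilinearAut K F) (ℓ : ℕ)
    (h : ∀ P : Place K F, Finsupp.mapDomain r (T (Finsupp.single P 1))
      = Finsupp.single (Φ • r P) 1 + Finsupp.single (Φ⁻¹ • r (δ • P)) (ℓ : ℤ))
    (D : Divisor K F) :
    Finsupp.mapDomain r (T D)
      = Φ • Finsupp.mapDomain r D + ℓ • (Φ⁻¹ • Finsupp.mapDomain r (δ • D)) := by
  induction D using Finsupp.induction_linear with
  | zero => simp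
  | add D E hD hE =>
    rw [map_add, Finsupp.mapDomain_add, hD, hE, Finsupp.mapDomain_add, smul_add, smul_add,
      Finsupp.mapDomain_add, smul_add, smul_add]
    abel
  | single P n =>
    have e : (Finsupp.single P n : Divisor K F) = n • Finsupp.single P (1 : ℤ) := by
      rw [Finsupp.smul_single, smul_eq_mul, mul_one]
    have e1 : Finsupp.mapDomain r (T (Finsupp.single P n))
        = n • Finsupp.mapDomain r (T (Finsupp.single P 1)) := by
      rw [e, map_zsmul, Finsupp.mapDomain_smul]
    rw [e1, h P, SemilinearAut.smul_single, Finsupp.mapDomain_single, Finsupp.mapDomain_single,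
      SemilinearAut.smul_single, SemilinearAut.smul_single,
      smul_add, Finsupp.smul_single, Finsupp.smul_single, Finsupp.smul_single]
    simp only [smul_eq_mul, mul_one, nsmul_eq_mul]
    rw [mul_comm]

end Abstract

section Concrete

variable {A : ValuationSubring (AlgebraicClosure ℚ)} {M : ℕ} [NeZero M]
variable {r : Place (AlgebraicClosure ℚ) ↥(F₁Bar M 1) →
      Place (IsLocalRing.ResidueField A) ↥(F₁C (IsLocalRing.ResidueField A) M 1)}

/-- **Eichler–Shimura with a diamond on `Pic⁰` from its place-level form.** -/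
theorem es_pic_of_es_place_dia
    (hr : IsPlaceReductionModL A (F₁ M 1) (F₁C (IsLocalRing.ResidueField A) M 1) r)
    (hgen : PrincipalGeneratedByIntegral A (IsLocalRing.residue A) (F₁ M 1)
      (F₁C (IsLocalRing.ResidueField A) M 1))
    (hM : M ≠ 1) {ℓ : ℕ} [NeZero ℓ]
    (Φ : SemilinearAut (IsLocalRing.ResidueField A)
      ↥(F₁C (IsLocalRing.ResidueField A) M 1))
    (δ : SemilinearAut (AlgebraicClosure ℚ) ↥(F₁Bar M 1))
    (h : ∀ P : Place (AlgebraicClosure ℚ) ↥(F₁Bar M 1),
      Finsupp.mapDomain r (heckeSwapDivBar M 1 ℓ hM (Finsupp.single P 1))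
        = Finsupp.single (Φ • r P) 1 + Finsupp.single (Φ⁻¹ • r (δ • P)) (ℓ : ℤ))
    (x : J₁ M) :
    reductionPic0Along r hr hgen (heckeSwapBar M 1 ℓ hM x)
      = Φ • reductionPic0Along r hr hgen x
        + ℓ • (Φ⁻¹ • reductionPic0Along r hr hgen (δ • x)) := by
  obtain ⟨D, rfl⟩ := Pic0.mk_surjective x
  rw [heckeSwapBar_mk, SemilinearAut.pic0_smul_mk, reductionPic0Along_mk, reductionPic0Along_mk,
    reductionPic0Along_mk, SemilinearAut.pic0_smul_mk, SemilinearAut.pic0_smul_mk]
  have e3 : ∀ X Y : Divisor.degZero (K := IsLocalRing.ResidueField A)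
      (F := ↥(F₁C (IsLocalRing.ResidueField A) M 1)),
      Pic0.mk X + ℓ • Pic0.mk Y = Pic0.mk (X + ℓ • Y) := fun X Y => rfl
  rw [e3]
  refine congrArg Pic0.mk (Subtype.ext ?_)
  exact mapDomain_correspondence_eq_dia r (heckeSwapDivBar M 1 ℓ hM) Φ δ ℓ h
    (D : Divisor (AlgebraicClosure ℚ) ↥(F₁Bar M 1))

end Concrete

end Fermat.Agent.W1
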