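/-
W1 — helper8 — [INST1] **THE INSTANCE `W1Api M` for every `M ≠ 1`**: helper2's étale step
`unr_hostImage_F₁_baseRing_of_isGaussAt` (`W1/INST_helper2_Unr`) is helper9's `Inst1.UnrHyp M`;
all other class fields are discharged in `Inst1.w1Api_of_unr` (`W1/INST1_helper8_Final`).  (Crossed with
helper9's `W1/INST1_helper9_Instance` = `w1Api_of_ne_one` in ns `Fermat.Agent.W1`, built on his own backup
of (Unr); the names here live in ns `Fermat.Agent.W1.Inst1` and do not clash with his.)
-/
import Mathlib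
import Fermat.Agent.W1.INST1_helper8_Final
import Fermat.Agent.W1.INST_helper2_Unr

set_option autoImplicit false
set_option linter.unusedSectionVars false
set_option linter.style.haveILetI false

open HahnSeries IntermediateField AlgebraicCurve ModularCurve Fermat.Agent.Igusa Polynomial

open Fermat.Agent.JA

namespace Fermat.Agent.W1

open scoped Fermat.Agent.JA.Host

namespace Inst1

/-- helper2's étale step is (Unr). -/
theorem unrHyp_of_etale_h2 (M : ℕ) [NeZero M] (hM : M ≠ 1) : UnrHyp M :=
  fun hA hℓM w _ _ hK₁ _ _ _ hπ 𝒢 h𝒢 =>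
    Inst.unr_hostImage_F₁_baseRing_of_isGaussAt hA M w hM hℓM hK₁ hπ 𝒢 h𝒢

/-- the preliminary interface holds for every `M ≠ 1`. -/
theorem w1Pre_of_ne_one (M : ℕ) [NeZero M] (hM : M ≠ 1) : W1Pre M :=
  w1Pre_of_unr M hM (unrHyp_of_etale_h2 M hM)

/-- **the interface class `W1Api M` holds for every `M ≠ 1`** (use as
`haveI : W1Api M := Inst1.w1Api_of_ne_one M hM`). -/
theorem w1Api_of_ne_one (M : ℕ) [NeZero M] (hM : M ≠ 1) : W1Api M :=
  w1Api_of_unr M hM (unrHyp_of_etale_h2 M hM)

end Inst1

end Fermat.Agent.W1
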