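/-
W1 — helper9 — [INST1] part 9 (BACKUP of the tower step (1)): **unramifiedness of the Gauss place in
`k · F₁(M)` from unramifiedness in `k · F₀(M)`**, in the abstract framework of
`JA/G1_helper5_Unr` (an abstract copy `K₀` of `k(j)` mapping to the function field).

Inputs: helper7's étale step `W1/ETALE_helper7_Step` with `ι := DiaGrp M`, `r := phiQ`,
`σ := diaQ`, `P` = the descent of `∏ (X - φ_d)` (`W1/DEG1_helper9_Galois`); the conjugates `φ_d`
and the inverses of their differences are Gauss-integral (`W1/SER_helper7_Phi`), the product of the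
differences is fixed by the diamond operators, hence lies in `k · F₀(M)`
(`W1/DEG1_helper9_Fixed`).
-/
import Mathlib
import Fermat.Agent.W1.DEG1_helper9_Galois
import Fermat.Agent.W1.ETALE_helper7_Step
import Fermat.Agent.W1.BASE_helper7_Field

set_option autoImplicit false
set_option linter.unusedSectionVars false
set_option linter.style.haveILetI false

open HahnSeries IntermediateField ModularCurve Fermat.Agent.Igusa Polynomial CongruenceSubgroup

open scoped MatrixGroups

open Fermat.Agent.JA

namespace Fermat.Agent.W1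

namespace Inst1

noncomputable section

/-! ### generalities -/

/-- a root of a monic polynomial with integral coefficients is integral. -/
theorem isIntegral_of_root_of_isIntegral_coeff {A B : Type*} [CommRing A] [CommRing B]
    [Nontrivial B] [Algebra A B] (Q : B[X]) (hQ : Q.Monic) (hc : ∀ n, IsIntegral A (Q.coeff n)) {x : B}
    (hx : Q.eval x = 0) : IsIntegral A x := by
  have hl : Q ∈ Polynomial.lifts (algebraMap ↥(integralClosure A B) B) := by
    rw [Polynomial.lifts_iff_coeff_lifts]
    intro n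
    exact ⟨⟨Q.coeff n, hc n⟩, rfl⟩
  obtain ⟨Q', hQ', -, hQ'm⟩ := Polynomial.lifts_and_degree_eq_and_monic hl hQ
  have h1 : IsIntegral ↥(integralClosure A B) x :=
    ⟨Q', hQ'm, by rw [← eval_map, hQ', hx]⟩
  exact isIntegral_trans x h1

section DiffProd

variable {F : Type*} [Field F] {ι : Type*} [Fintype ι] [DecidableEq ι]

/-- the product of the differences, as a product over all pairs. -/
def diffProd' (r : ι → F) : F := ∏ a, ∏ b, (if b = a then 1 else r a - r b)

theorem diffProd_eq_diffProd' (r : ι → F) : diffProd r = diffProd' r := by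
  unfold diffProd diffProd'
  refine Finset.prod_congr rfl fun a _ => ?_
  rw [← Finset.prod_erase (Finset.univ : Finset ι) (a := a)
    (f := fun b => if b = a then 1 else r a - r b) (by simp)]
  refine Finset.prod_congr rfl fun b hb => ?_
  rw [if_neg (Finset.ne_of_mem_erase hb)]

theorem map_diffProd' {F' : Type*} [Field F'] (f : F →+* F') (r : ι → F) :
    f (diffProd' r) = diffProd' (fun i => f (r i)) := by
  unfold diffProd'
  rw [map_prod]
  refine Finset.prod_congr rfl fun a _ => ?_
  rw [map_prod]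
  refine Finset.prod_congr rfl fun b _ => ?_
  split_ifs
  · rw [map_one]
  · rw [map_sub]

theorem diffProd'_comp_equiv (r : ι → F) (e : ι ≃ ι) :
    diffProd' (fun i => r (e i)) = diffProd' r := by
  unfold diffProd'
  rw [← Equiv.prod_comp e (fun a => ∏ b, (if b = a then 1 else r a - r b))]
  refine Finset.prod_congr rfl fun a _ => ?_
  rw [← Equiv.prod_comp e (fun b => if b = e a then 1 else r (e a) - r b)]
  refine Finset.prod_congr rfl fun b _ => ?_
  simp only [e.apply_eq_iff_eq]

end DiffProd

/-! ### the conjugates `φ_d` are Gauss-integral, with Gauss-unit differences -/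

section Gauss

variable {R : Type*} [CommRing R] [IsDomain R] [IsDiscreteValuationRing R]
  {k : Type*} [Field k] [Algebra R k] [IsFractionRing R k] [Algebra ℚ k]
  (M : ℕ) [NeZero M]

theorem coe_phiQ_mk_ser (hM : M ≠ 1) (u : (ZMod M)ˣ) :
    ((phiQ (k := k) M 1 (QuotientGroup.mk u : DiaGrp M) : ↥(laurentBaseChange k (F₁ M 1))) :
      LaurentSeries k) = phiGen k M (u : ZMod M) := by
  haveI : Nontrivial (ZMod M) := ZMod.nontrivial_iff.mpr hM
  rw [phiQ_mk, coe_phiBarA_of_ne M 1 (Units.ne_zero u), coeffEmb_qExpand_phiGen,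
    qExpand_one_apply]

theorem coe_phiQ_mem_gaussInt (hM : M ≠ 1) (i : DiaGrp M) :
    ((phiQ (k := k) M 1 i : ↥(laurentBaseChange k (F₁ M 1))) : LaurentSeries k) ∈
      gaussInt R k := by
  induction i using QuotientGroup.induction_on with
  | H u =>
    rw [coe_phiQ_mk_ser M hM u]
    exact phiGen_mem_gaussInt R k M _

theorem inv_coe_phiQ_sub_mem_gaussInt (hM : M ≠ 1) {i j : DiaGrp M} (hij : i ≠ j) :
    (((phiQ (k := k) M 1 i : ↥(laurentBaseChange k (F₁ M 1))) : LaurentSeries k) -
      ((phiQ (k := k) M 1 j : ↥(laurentBaseChange k (F₁ M 1))) : LaurentSeries k))⁻¹ ∈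
      gaussInt R k := by
  haveI : Nontrivial (ZMod M) := ZMod.nontrivial_iff.mpr hM
  induction i using QuotientGroup.induction_on with
  | H u =>
    induction j using QuotientGroup.induction_on with
    | H v =>
      rw [coe_phiQ_mk_ser M hM u, coe_phiQ_mk_ser M hM v]
      have huv : ¬ (u = v ∨ u = -v) := fun h => hij ((diaGrp_mk_eq_iff u v).mpr h)
      rw [not_or] at huv
      refine inv_phiGen_sub_mem_gaussInt R k M (Units.ne_zero u) (Units.ne_zero v)
        (fun h => huv.1 (Units.ext h)) (fun h => huv.2 (Units.ext ?_))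
      rw [h, Units.val_neg]

end Gauss

/-! ### the étale step for `k · F₀(M) ⊂ k · F₁(M)` -/

section Main

variable {R : Type*} [CommRing R] [IsDomain R] [IsDiscreteValuationRing R]
  {k : Type*} [Field k] [Algebra R k] [IsFractionRing R k] [Algebra ℚ k] [Algebra k ℂ]
  [IsScalarTower ℚ k ℂ] (M : ℕ) [NeZero M]

attribute [local instance] fullAlgebra

/-- the product of the differences of the conjugates is fixed by the diamond operators. -/
theorem diaHom_diffProd_phiQ {σ : SL(2, ℤ)} (hσ : σ ∈ Gamma0 (M * 1)) :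
    diaHom (algebraMap k ℂ) hσ (diffProd (phiQ (k := k) M 1)) =
      diffProd (phiQ (k := k) M 1) := by
  rw [diffProd_eq_diffProd', map_diffProd']
  simp only [diaHom_phiQ]
  exact diffProd'_comp_equiv (phiQ (k := k) M 1)
    (Equiv.mulRight (QuotientGroup.mk (unitOf (mem_Gamma0_of_mem_Gamma0_mul hσ)) : DiaGrp M))

/-- the product of the differences of the conjugates lies in `k · F₀(M)`. -/
theorem exists_algebraMap_eq_diffProd_phiQ :
    ∃ D₀ : ↥(laurentBaseChange k (modularFunctionFieldFull (M * 1))),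
      algebraMap ↥(laurentBaseChange k (modularFunctionFieldFull (M * 1)))
        ↥(laurentBaseChange k (F₁ M 1)) D₀ = diffProd (phiQ (k := k) M 1) :=
  exists_fullIncl_eq_of_fixed M 1 _ (fun _ hσ => diaHom_diffProd_phiQ M hσ)

theorem diffProd_phiQ_ne_zero (hM : M ≠ 1) : diffProd (phiQ (k := k) M 1) ≠ 0 := by
  unfold diffProd
  refine Finset.prod_ne_zero_iff.mpr fun i _ => Finset.prod_ne_zero_iff.mpr fun j hj => ?_
  exact sub_ne_zero.mpr fun h => (Finset.ne_of_mem_erase hj) ((phiQ_injective M 1 hM h).symm)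

/-- the inverse of the product of the differences is Gauss-integral. -/
theorem inv_coe_diffProd_phiQ_mem_gaussInt (hM : M ≠ 1) :
    ((diffProd (phiQ (k := k) M 1) : ↥(laurentBaseChange k (F₁ M 1))) : LaurentSeries k)⁻¹ ∈
      gaussInt R k := by
  have h1 : ((diffProd (phiQ (k := k) M 1) : ↥(laurentBaseChange k (F₁ M 1))) :
      LaurentSeries k) = diffProd' (fun i : DiaGrp M =>
        ((phiQ (k := k) M 1 i : ↥(laurentBaseChange k (F₁ M 1))) : LaurentSeries k)) := by
    rw [diffProd_eq_diffProd']
    exact map_diffProd' (algebraMap ↥(laurentBaseChange k (F₁ M 1)) (LaurentSeries k)) _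
  rw [h1]
  unfold diffProd'
  rw [← Finset.prod_inv_distrib]
  refine Subring.prod_mem _ fun a _ => ?_
  rw [← Finset.prod_inv_distrib]
  refine Subring.prod_mem _ fun b _ => ?_
  split_ifs with hba
  · rw [inv_one]; exact Subring.one_mem _
  · exact inv_coe_phiQ_sub_mem_gaussInt M hM (fun h => hba h.symm)

/-- **the étale step for `k · F₀(M) ⊂ k · F₁(M)`**: if the Gauss-integral elements of `k · F₀(M)` are
integral over the valuation subring `𝒢` of (an abstract copy of) `k(j)` and `𝒢` is unramified in
`k · F₀(M)`, then `𝒢` is unramified in `k · F₁(M)`. -/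
theorem unr_F₁_of_unr_full (hM : M ≠ 1) {K₀ : Type*} [Field K₀]
    [Algebra K₀ ↥(laurentBaseChange k (modularFunctionFieldFull (M * 1)))]
    (𝒢 : ValuationSubring K₀)
    (hint : ∀ z : ↥(laurentBaseChange k (modularFunctionFieldFull (M * 1))),
      (z : LaurentSeries k) ∈ gaussInt R k → IsIntegral ↥𝒢 z)
    (h₀ : Unr 𝒢 ↥(laurentBaseChange k (modularFunctionFieldFull (M * 1)))) :
    letI : Algebra K₀ ↥(laurentBaseChange k (F₁ M 1)) :=
      ((algebraMap ↥(laurentBaseChange k (modularFunctionFieldFull (M * 1)))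
        ↥(laurentBaseChange k (F₁ M 1))).comp
          (algebraMap K₀ ↥(laurentBaseChange k (modularFunctionFieldFull (M * 1))))).toAlgebra
    Unr 𝒢 ↥(laurentBaseChange k (F₁ M 1)) := by
  letI : Algebra K₀ ↥(laurentBaseChange k (F₁ M 1)) :=
    ((algebraMap ↥(laurentBaseChange k (modularFunctionFieldFull (M * 1)))
      ↥(laurentBaseChange k (F₁ M 1))).comp
        (algebraMap K₀ ↥(laurentBaseChange k (modularFunctionFieldFull (M * 1))))).toAlgebra
  haveI : IsScalarTower K₀ ↥(laurentBaseChange k (modularFunctionFieldFull (M * 1)))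
      ↥(laurentBaseChange k (F₁ M 1)) := IsScalarTower.of_algebraMap_eq fun _ => rfl
  obtain ⟨P, hP⟩ := exists_phiPoly_eq_map_algebraMap (k := k) M 1
  have hint₁ : ∀ z : ↥(laurentBaseChange k (modularFunctionFieldFull (M * 1))),
      (z : LaurentSeries k) ∈ gaussInt R k →
      IsIntegral ↥𝒢 (algebraMap ↥(laurentBaseChange k (modularFunctionFieldFull (M * 1)))
        ↥(laurentBaseChange k (F₁ M 1)) z) := fun z hz =>
    (hint z hz).map (IsScalarTower.toAlgHom ↥𝒢
      ↥(laurentBaseChange k (modularFunctionFieldFull (M * 1))) ↥(laurentBaseChange k (F₁ M 1)))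
  -- the Gauss-integral elements of `k · F₁(M)`
  set S : Subring ↥(laurentBaseChange k (F₁ M 1)) :=
    (gaussInt R k).comap (algebraMap ↥(laurentBaseChange k (F₁ M 1)) (LaurentSeries k)) with hS
  have hQm : (∏ i : DiaGrp M, (X - Polynomial.C (phiQ (k := k) M 1 i))).Monic :=
    monic_prod_of_monic _ _ fun i _ => monic_X_sub_C _
  have hcoef : ∀ n, IsIntegral ↥𝒢
      ((∏ i : DiaGrp M, (X - Polynomial.C (phiQ (k := k) M 1 i))).coeff n) := by
    intro n
    have h2 : CoeffIn S (∏ i : DiaGrp M, (X - Polynomial.C (phiQ (k := k) M 1 i))) :=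
      CoeffIn.prod Finset.univ _ fun i _ =>
        CoeffIn.X.sub (CoeffIn.C (S := S) (coe_phiQ_mem_gaussInt M hM i))
    have h3 := h2 n
    rw [← hP, coeff_map] at h3 ⊢
    refine hint₁ _ ?_
    have h4 : ((algebraMap ↥(laurentBaseChange k (modularFunctionFieldFull (M * 1)))
        ↥(laurentBaseChange k (F₁ M 1)) (P.coeff n) : ↥(laurentBaseChange k (F₁ M 1))) :
        LaurentSeries k) ∈ gaussInt R k := h3
    rwa [algebraMap_full_eq, coe_fullIncl] at h4
  have hr : ∀ i, IsIntegral ↥𝒢 (phiQ (k := k) M 1 i) := by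
    intro i
    refine isIntegral_of_root_of_isIntegral_coeff _ hQm hcoef ?_
    rw [eval_prod]
    exact Finset.prod_eq_zero (Finset.mem_univ i) (by rw [eval_sub, eval_X, eval_C, sub_self])
  have hD0 := diffProd_phiQ_ne_zero (k := k) M hM
  have hDinv : IsIntegral ↥𝒢 (diffProd (phiQ (k := k) M 1))⁻¹ := by
    obtain ⟨D₀, hD₀⟩ := exists_algebraMap_eq_diffProd_phiQ (k := k) M
    have h5 := inv_coe_diffProd_phiQ_mem_gaussInt (R := R) (k := k) M hM
    rw [← hD₀, algebraMap_full_eq, coe_fullIncl] at h5
    rw [← hD₀, ← map_inv₀]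
    exact hint₁ _ h5
  exact unr_of_unr_of_conjugates (𝒱 := 𝒢) (r := phiQ (k := k) M 1) 1 (diaQ (k := k) M 1) P h₀ hr
    hD0 hDinv (fun i => diaQ_phiQ_one M 1 i) hP (adjoin_phiQ_one_eq_top M 1 hM)

end Main

end

end Inst1

end Fermat.Agent.W1
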