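/-
W1 — helper9 — [INST1] part 10 (BACKUP of the tower step (1)): **the class field
`unr_hostImage_baseRing_of_isGaussAt` of `W1Api M`** (`Inst1.UnrHyp M`): the Gauss place of
`K₁(j(x^w))` is unramified in the host image of `K₁ · F₁(M)`, from the `Γ₀(M)`-statement
`JA/G1_helper5_UnrHost` and the étale step `W1/INST1_helper9_UnrCore`.
-/
import Mathlib
import Fermat.Agent.W1.INST1_helper9_UnrCore
import Fermat.Agent.W1.INST1_helper9_Assemble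
import Fermat.Agent.JA.G1_helper5_UnrHost
import Fermat.Agent.JA.KEYBASE_helper8_Int
import Fermat.Agent.JA.GEOBASE_helper8_Base
import Fermat.Agent.JA.O1_helper6_BaseInst

set_option autoImplicit false
set_option linter.unusedSectionVars false
set_option linter.style.haveILetI false
set_option synthInstance.maxHeartbeats 200000

open HahnSeries IntermediateField AlgebraicCurve ModularCurve Fermat.Agent.Igusa Polynomial

open Fermat.Agent.JA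

namespace Fermat.Agent.W1

open scoped Fermat.Agent.JA.Host

/-- `Ω = AlgebraicClosure ℚ`. -/
local notation "Ω" => AlgebraicClosure ℚ

namespace Inst1

noncomputable section

section Host

variable {K₁ : Type} [Field K₁] [Algebra ℚ K₁] [Algebra K₁ ℂ] [IsScalarTower ℚ K₁ ℂ]
  (R : ValuationSubring K₁) [IsDiscreteValuationRing ↥R] (M w : ℕ) [NeZero M] [NeZero w]

attribute [local instance] fullAlgebra

set_option maxHeartbeats 1600000 in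
/-- **the étale step in the host**. -/
theorem unr_hostImage_F₁_of_full (hM : M ≠ 1)
    [Fact (K₁⟮jqNModC K₁ w⟯ ≤
      hostImage K₁ w (laurentBaseChange K₁ (modularFunctionFieldFull (M * 1))))]
    [Fact (K₁⟮jqNModC K₁ w⟯ ≤ hostImage K₁ w (keyFq K₁ M))]
    (𝒢 : ValuationSubring ↥K₁⟮jqNModC K₁ w⟯)
    (hint : ∀ z : ↥(laurentBaseChange K₁ (modularFunctionFieldFull (M * 1))),
      (z : LaurentSeries K₁) ∈ gaussInt ↥R K₁ →
      IsIntegral ↥𝒢 (hostImageEquiv K₁ w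
        (laurentBaseChange K₁ (modularFunctionFieldFull (M * 1))) z))
    (h₀ : Unr 𝒢 ↥(hostImage K₁ w (laurentBaseChange K₁ (modularFunctionFieldFull (M * 1))))) :
    Unr 𝒢 ↥(hostImage K₁ w (keyFq K₁ M)) := by
  set Fq₀ : IntermediateField K₁ (LaurentSeries K₁) :=
    laurentBaseChange K₁ (modularFunctionFieldFull (M * 1)) with hFq₀
  set e₀ : ↥Fq₀ ≃ₐ[K₁] ↥(hostImage K₁ w Fq₀) := hostImageEquiv K₁ w Fq₀ with he₀
  -- the twisted algebra structure `K₁(j_w) → K₁ · F₀(M)`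
  let ρ₀ : ↥K₁⟮jqNModC K₁ w⟯ →+* ↥Fq₀ :=
    (e₀.symm : ↥(hostImage K₁ w Fq₀) →+* ↥Fq₀).comp
      (algebraMap ↥K₁⟮jqNModC K₁ w⟯ ↥(hostImage K₁ w Fq₀))
  letI algρ₀ : Algebra ↥K₁⟮jqNModC K₁ w⟯ ↥Fq₀ := ρ₀.toAlgebra
  let eK₀ : ↥Fq₀ ≃ₐ[↥K₁⟮jqNModC K₁ w⟯] ↥(hostImage K₁ w Fq₀) :=
    { (e₀ : ↥Fq₀ ≃+* ↥(hostImage K₁ w Fq₀)) with commutes' := fun r => e₀.apply_symm_apply _ }
  have h₀' : Unr 𝒢 ↥Fq₀ := unr_of_algEquiv 𝒢 eK₀.symm h₀
  have hint' : ∀ z : ↥Fq₀, (z : LaurentSeries K₁) ∈ gaussInt ↥R K₁ → IsIntegral ↥𝒢 z := by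
    intro z hz
    have h1 := hint z hz
    have h2 := IsIntegral.map_of_comp_eq (RingHom.id ↥𝒢)
      (e₀.symm : ↥(hostImage K₁ w Fq₀) →+* ↥Fq₀) (RingHom.ext fun r => rfl) h1
    have h3 : (e₀.symm : ↥(hostImage K₁ w Fq₀) →+* ↥Fq₀) (e₀ z) = z := e₀.symm_apply_apply z
    rwa [h3] at h2
  have h₁ := unr_F₁_of_unr_full (R := ↥R) (k := K₁) M hM 𝒢 hint' h₀'
  -- transport to the host
  letI algF₁ : Algebra ↥K₁⟮jqNModC K₁ w⟯ ↥(laurentBaseChange K₁ (F₁ M 1)) :=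
    ((algebraMap ↥(laurentBaseChange K₁ (modularFunctionFieldFull (M * 1)))
      ↥(laurentBaseChange K₁ (F₁ M 1))).comp
        (algebraMap ↥K₁⟮jqNModC K₁ w⟯
          ↥(laurentBaseChange K₁ (modularFunctionFieldFull (M * 1))))).toAlgebra
  set e₁ : ↥(keyFq K₁ M) ≃ₐ[K₁] ↥(hostImage K₁ w (keyFq K₁ M)) :=
    hostImageEquiv K₁ w (keyFq K₁ M) with he₁
  let eK₁ : ↥(keyFq K₁ M) ≃ₐ[↥K₁⟮jqNModC K₁ w⟯] ↥(hostImage K₁ w (keyFq K₁ M)) :=
    { (e₁ : ↥(keyFq K₁ M) ≃+* ↥(hostImage K₁ w (keyFq K₁ M))) with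
      commutes' := fun r => by
        apply Subtype.ext
        show ((e₁ (fullIncl M 1 (e₀.symm (algebraMap ↥K₁⟮jqNModC K₁ w⟯
          ↥(hostImage K₁ w Fq₀) r))) : ↥(hostImage K₁ w (keyFq K₁ M))) : LaurentSeries K₁) = _
        rw [he₁, coe_hostImageEquiv, coe_fullIncl, ← coe_hostImageEquiv (w := w) Fq₀, ← he₀,
          e₀.apply_symm_apply, Host.coe_algebraMap, Host.coe_algebraMap] }
  exact unr_of_algEquiv 𝒢 eK₁ h₁

end Host

set_option maxHeartbeats 1600000 in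
/-- **the class field `unr_hostImage_baseRing_of_isGaussAt` of `W1Api M`**, `M ≠ 1`. -/
theorem unrHyp_of_ne_one (M : ℕ) [NeZero M] (hM : M ≠ 1) : UnrHyp M := by
  intro ℓ _ A hA hℓM w _ K₁ hK₁ _ _ π hπ 𝒢 h𝒢
  letI : Algebra ↥K₁ ℂ :=
    (((IsAlgClosed.lift : Ω →ₐ[ℚ] ℂ) : Ω →+* ℂ).comp (algebraMap ↥K₁ Ω)).toAlgebra
  haveI : IsScalarTower ℚ ↥K₁ ℂ := IsScalarTower.of_algebraMap_eq' (Subsingleton.elim _ _)
  have hℓM1 : ¬ ℓ ∣ M * 1 := by rwa [mul_one]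
  haveI : Module.Finite ↥(↥K₁)⟮jqNModC ↥K₁ w⟯ ↥(Fermat.Agent.JA.keyFw ↥K₁ (M * 1) w) :=
    finite_keyFw_base hA (M * 1) w
  have h₀ := Fermat.Agent.JA.unr_hostImage_baseRing_of_isGaussAt hA (M * 1) w hℓM1
    hK₁.flatBase_le hπ 𝒢 h𝒢
  refine unr_hostImage_F₁_of_full (baseRing A K₁) M w hM 𝒢 ?_ h₀
  intro z hz
  exact Fermat.Agent.JA.isIntegral_hostImageEquiv_of_mem_gaussInt (baseRing A K₁) (M * 1) w hπ
    (Fermat.Agent.JA.hFq_baseRing (M * 1))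
    (Fermat.Agent.JA.hmemW_baseRing hA (M * 1) hℓM1 hK₁) 𝒢 h𝒢 z hz

end

end Inst1

end Fermat.Agent.W1
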