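/-
W1 — helper9 — [INST1] part 11: **THE INTERFACE CLASS `W1Api M` HOLDS for every `M ≠ 1`**
(unconditionally): the preliminary interface `W1Pre M` from (Unr) (`W1/INST1_helper9_Unr`), then
helper8's assembly `Inst1.w1Api_of_pre` ((DEC) + the other fields).
-/
import Mathlib
import Fermat.Agent.W1.INST1_helper9_Unr
import Fermat.Agent.W1.INST1_helper8_Api

set_option autoImplicit false

namespace Fermat.Agent.W1

/-- **the preliminary interface holds.** -/
theorem w1Pre_of_ne_one (M : ℕ) [NeZero M] (hM : M ≠ 1) : W1Pre M :=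
  w1Pre_of_unr M hM (Inst1.unrHyp_of_ne_one M hM)

/-- **the interface class `W1Api M` holds**, `M ≠ 1`.  Use as
`haveI : W1Api M := w1Api_of_ne_one M hM`. -/
theorem w1Api_of_ne_one (M : ℕ) [NeZero M] (hM : M ≠ 1) : W1Api M :=
  Inst1.w1Api_of_pre M hM (w1Pre_of_ne_one M hM)

end Fermat.Agent.W1
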