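/-
W1 — helper9 — [INST1] part 3: **uniqueness of the extension of the Gauss valuation from the GEO
hypotheses** (generic in the function field `F_q ⊂ K₁⸨q⸩`): if the tower field
`E = K₁(t) · F_w ⊂ K₁⸨x⸩` (`q = x ^ w`) satisfies lead's `GeoHyps`, then every valuation subring
`W` of `F_q` inducing the Gauss valuation on `K₁(j)` contains all Gauss-integral elements of `F_q`
(the statement `hmemW` of the J-A chain).

Proof: the integral closure `C` of the Gauss ring `𝒢t ⊂ K₁(t)` in `E` is a valuation ring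
(`closureValSub`, local by `GeoHyps.isLocalRing`) and the coefficientwise Gauss ring `V_E` of `E`
is another extension of `𝒢t`, so `C = V_E` (`GeoHyps.valuationSubring_unique`).  A Gauss-integral
`z ∈ F_q` gives `ẑ ∈ V_E = C`, integral over `𝒢t`, hence over `𝒢j = 𝒢t ∩ K₁(j_w)` (LINE.3); pulled
back to `F_q` it is integral over the image of `𝒢j`, which lies in `W`; `W` is integrally closed.
-/
import Mathlib
import Fermat.Agent.JA.O1_helper6_BasePkg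
import Fermat.Agent.SS.HART_helper4
import Fermat.Agent.SS.VAL2_helper7_HostGauss
import Fermat.Agent.SS.HOSTINT_helper6_Main
import Fermat.Agent.SS.VAL2_helper7_LegInt

set_option autoImplicit false
set_option linter.unusedSectionVars false
set_option linter.style.haveILetI false
set_option synthInstance.maxHeartbeats 200000

open HahnSeries IntermediateField AlgebraicCurve ModularCurve Fermat.Agent.Igusa Polynomial

open Fermat.Agent.JA Fermat.Agent.SS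

namespace Fermat.Agent.W1

namespace Inst1

open scoped Fermat.Agent.JA.Host

open Host

section Generic

variable {K₁ : Type*} [Field K₁] [Algebra ℚ K₁] (R : ValuationSubring K₁)
  [IsDiscreteValuationRing ↥R]
  (Fq : IntermediateField K₁ (LaurentSeries K₁)) (hFq : Fq ≤ gaussField ↥R K₁)
  (w : ℕ) [NeZero w] (t : LaurentSeries K₁)
  [Fact (K₁⟮jqNModC K₁ w⟯ ≤ hostImage K₁ w Fq)] [Fact (K₁⟮jqNModC K₁ w⟯ ≤ K₁⟮t⟯)]

include hFq in
/-- the host image of a field of Gauss-bounded series consists of Gauss-bounded series. -/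
theorem hostImage_le_gaussField : hostImage K₁ w Fq ≤ gaussField ↥R K₁ := by
  rintro x ⟨y, hy, rfl⟩
  exact (gaussHomQExpand ↥R K₁ w).map_mem_gaussField (hFq hy)

include hFq in
/-- the tower field `E = K₁(t) · F_w` consists of Gauss-bounded series, `t` Gauss-integral. -/
theorem Etu_le_gaussField (ht : t ∈ gaussInt ↥R K₁) :
    Etu (hostImage K₁ w Fq) t 1 ≤ gaussField ↥R K₁ := by
  unfold Etu Fu
  refine sup_le ?_ (sup_le (hostImage_le_gaussField R Fq hFq w) ?_)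
  · rw [IntermediateField.adjoin_simple_le_iff]
    exact gaussInt_le_gaussField ht
  · rw [IntermediateField.adjoin_simple_le_iff]
    exact (gaussField ↥R K₁).one_mem

/-- the twisted structure map `K₁(j_w) → F_q`, `j(x ^ w) ↦ j(q)`. -/
noncomputable def rhoJ : ↥K₁⟮jqNModC K₁ w⟯ →+* ↥Fq :=
  ((hostImageEquiv K₁ w Fq).symm : ↥(hostImage K₁ w Fq) →+* ↥Fq).comp
    (algebraMap ↥K₁⟮jqNModC K₁ w⟯ ↥(hostImage K₁ w Fq))

theorem hostImageEquiv_rhoJ (s : ↥K₁⟮jqNModC K₁ w⟯) :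
    hostImageEquiv K₁ w Fq (rhoJ Fq w s) =
      algebraMap ↥K₁⟮jqNModC K₁ w⟯ ↥(hostImage K₁ w Fq) s :=
  (hostImageEquiv K₁ w Fq).apply_symm_apply _

theorem qExpand_coe_rhoJ (s : ↥K₁⟮jqNModC K₁ w⟯) :
    qExpand K₁ w ((rhoJ Fq w s : ↥Fq) : LaurentSeries K₁) = (s : LaurentSeries K₁) := by
  have h := congrArg (fun y : ↥(hostImage K₁ w Fq) => (y : LaurentSeries K₁))
    (hostImageEquiv_rhoJ Fq w s)
  simpa only [coe_hostImageEquiv, Host.coe_algebraMap] using h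

theorem rhoJ_algebraMap (c : K₁) :
    rhoJ Fq w (algebraMap K₁ ↥K₁⟮jqNModC K₁ w⟯ c) = algebraMap K₁ ↥Fq c := by
  show (hostImageEquiv K₁ w Fq).symm
    (algebraMap ↥K₁⟮jqNModC K₁ w⟯ ↥(hostImage K₁ w Fq) (algebraMap K₁ ↥K₁⟮jqNModC K₁ w⟯ c)) = _
  rw [← IsScalarTower.algebraMap_apply K₁ ↥K₁⟮jqNModC K₁ w⟯ ↥(hostImage K₁ w Fq),
    (hostImageEquiv K₁ w Fq).symm.commutes]

theorem coe_rhoJ_gen :
    ((rhoJ Fq w (AdjoinSimple.gen K₁ (jqNModC K₁ w)) : ↥Fq) : LaurentSeries K₁) = jqModC K₁ := by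
  apply qExpand_injective (R := K₁) (N := w)
  rw [qExpand_coe_rhoJ, AdjoinSimple.coe_gen]
  rfl

end Generic

section Main

variable {K₁ : Type*} [Field K₁] [Algebra ℚ K₁] (R : ValuationSubring K₁)
  [IsDiscreteValuationRing ↥R]
  (Fq : IntermediateField K₁ (LaurentSeries K₁)) (hFq : Fq ≤ gaussField ↥R K₁)
  (w : ℕ) [NeZero w] (t : LaurentSeries K₁)
  [Fact (K₁⟮jqNModC K₁ w⟯ ≤ hostImage K₁ w Fq)] [Fact (K₁⟮jqNModC K₁ w⟯ ≤ K₁⟮t⟯)]
  {ϖ : ↥R} (hϖ : Irreducible ϖ)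

/-- the Gauss valuation subring `V ⊆ F_q`. -/
noncomputable abbrev gV : ValuationSubring ↥Fq := gaussValSub ↥R K₁ Fq hFq

include hϖ in
/-- `V ∩ K₁(j_w)` (along `ρ`) is the Gauss valuation subring of `K₁(j_w)`. -/
theorem isGaussAt_comap_gV :
    IsGaussAt ↥R ϖ (AdjoinSimple.gen K₁ (jqNModC K₁ w)) ((gV R Fq hFq).comap (rhoJ Fq w)) := by
  have hT := isPrimeSeries_jqNModC ↥R K₁ 1
  rw [jqNModC_one] at hT
  have hs : ((rhoJ Fq w (AdjoinSimple.gen K₁ (jqNModC K₁ w)) : ↥Fq) : LaurentSeries K₁) ∈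
      gaussInt ↥R K₁ := by
    rw [coe_rhoJ_gen]; exact hT.mem_gaussInt
  refine isGaussAt_comap_gaussValSub' Fq hFq (rhoJ Fq w) (fun r => ?_) hϖ
    (AdjoinSimple.gen K₁ (jqNModC K₁ w)) hs ?_
  · rw [IsScalarTower.algebraMap_apply ↥R K₁ ↥K₁⟮jqNModC K₁ w⟯, rhoJ_algebraMap,
      IntermediateField.coe_algebraMap_apply, algebraMap_laurentSeries_eq_single,
      ← HahnSeries.C_apply]
  · have h2 : (⟨_, hs⟩ : gaussInt ↥R K₁) = ⟨jqModC K₁, hT.mem_gaussInt⟩ :=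
      Subtype.ext (coe_rhoJ_gen Fq w)
    rw [h2]
    exact hT.transcendental_gaussRed _

/-- `ρ` maps `K₁(j_w)` into `K₁(j)`. -/
theorem coe_rhoJ_mem (s : ↥K₁⟮jqNModC K₁ w⟯) :
    ((rhoJ Fq w s : ↥Fq) : LaurentSeries K₁) ∈ K₁⟮jqModC K₁⟯ := by
  obtain ⟨x, hx⟩ := s
  induction hx using IntermediateField.adjoin_induction with
  | mem y hy =>
    rw [Set.mem_singleton_iff] at hy
    subst hy
    have h := coe_rhoJ_gen Fq w
    have e : (⟨jqNModC K₁ w, IntermediateField.subset_adjoin K₁ _ rfl⟩ : ↥K₁⟮jqNModC K₁ w⟯) =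
        AdjoinSimple.gen K₁ (jqNModC K₁ w) := rfl
    rw [e, h]
    exact IntermediateField.mem_adjoin_simple_self K₁ _
  | algebraMap c =>
    have e : (⟨algebraMap K₁ (LaurentSeries K₁) c,
        IntermediateField.algebraMap_mem _ c⟩ : ↥K₁⟮jqNModC K₁ w⟯) =
        algebraMap K₁ ↥K₁⟮jqNModC K₁ w⟯ c := rfl
    rw [e, rhoJ_algebraMap]
    exact IntermediateField.algebraMap_mem _ c
  | add a b ha hb iha ihb =>
    have e : (⟨a + b, add_mem ha hb⟩ : ↥K₁⟮jqNModC K₁ w⟯) = ⟨a, ha⟩ + ⟨b, hb⟩ := rfl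
    rw [e, map_add]
    exact add_mem iha ihb
  | mul a b ha hb iha ihb =>
    have e : (⟨a * b, mul_mem ha hb⟩ : ↥K₁⟮jqNModC K₁ w⟯) = ⟨a, ha⟩ * ⟨b, hb⟩ := rfl
    rw [e, map_mul]
    exact mul_mem iha ihb
  | inv a ha iha =>
    have e : (⟨a⁻¹, inv_mem ha⟩ : ↥K₁⟮jqNModC K₁ w⟯) = (⟨a, ha⟩ : ↥K₁⟮jqNModC K₁ w⟯)⁻¹ := rfl
    rw [e, map_inv₀]
    exact inv_mem iha

/-- a valuation subring of `F_q` which agrees with the Gauss ring on `K₁(j)` restricts to the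
same subring of `K₁(j_w)` as the Gauss ring. -/
theorem comap_rhoJ_eq (W : ValuationSubring ↥Fq)
    (hW : ∀ c : ↥Fq, (c : LaurentSeries K₁) ∈ K₁⟮emb ↥R K₁ (jqModC ↥R)⟯ →
      (c ∈ W ↔ (c : LaurentSeries K₁) ∈ gaussInt ↥R K₁)) :
    W.comap (rhoJ Fq w) = (gV R Fq hFq).comap (rhoJ Fq w) := by
  have hemb : emb ↥R K₁ (jqModC ↥R) = jqModC K₁ := by
    show coeffMap (algebraMap ↥R K₁) (jqModC ↥R) = jqModC K₁
    rw [coeffMap_jqModC]
  ext s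
  rw [ValuationSubring.mem_comap, ValuationSubring.mem_comap]
  exact hW _ (by rw [hemb]; exact coe_rhoJ_mem Fq w s)

variable {n : ℕ} {S : Finset ↥R}
  (hgeo : GeoHyps K₁ (K := ↥K₁⟮t⟯) ϖ (AdjoinSimple.gen K₁ t) ↥(Etu (hostImage K₁ w Fq) t 1) n S)
  (ht : t ∈ gaussInt ↥R K₁)
  (htt : Transcendental (IsLocalRing.ResidueField ↥R) (gaussRed ↥R K₁ ⟨t, ht⟩))
  (𝒢t : ValuationSubring ↥K₁⟮t⟯) (h𝒢t : IsGaussAt ↥R ϖ (AdjoinSimple.gen K₁ t) 𝒢t)
  (h𝒢j : IsGaussAt ↥R ϖ (AdjoinSimple.gen K₁ (jqNModC K₁ w))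
    (𝒢t.comap (algebraMap ↥K₁⟮jqNModC K₁ w⟯ ↥K₁⟮t⟯)))
  (hintj : ∀ x ∈ 𝒢t, IsIntegral ↥(𝒢t.comap (algebraMap ↥K₁⟮jqNModC K₁ w⟯ ↥K₁⟮t⟯)) x)

set_option maxHeartbeats 1600000 in
include hFq hϖ hgeo htt h𝒢t in
/-- **Gauss-integral elements of `E` are integral over the Gauss ring of `K₁(t)`** (the integral
closure is the coefficientwise Gauss ring). -/
theorem isIntegral_of_mem_gaussInt_Etu (x : ↥(Etu (hostImage K₁ w Fq) t 1))
    (hx : (x : LaurentSeries K₁) ∈ gaussInt ↥R K₁) : IsIntegral ↥𝒢t x := by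
  classical
  haveI : CharZero ↥R := charZero_valuationSubring_of_algebraRat R
  haveI hfinE : FiniteDimensional ↥K₁⟮t⟯ ↥(Etu (hostImage K₁ w Fq) t 1) := hgeo.finite
  haveI : IsDiscreteValuationRing ↥𝒢t :=
    isDiscreteValuationRing_of_isGaussAt ϖ hϖ _ hgeo.transcendental hgeo.adjoin_eq_top h𝒢t
  haveI hloc : IsLocalRing ↥(integralClosure ↥𝒢t ↥(Etu (hostImage K₁ w Fq) t 1)) :=
    hgeo.isLocalRing 𝒢t h𝒢t
  haveI hK0 : CharZero ↥K₁⟮t⟯ := algebraRat.charZero _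
  have hE : Etu (hostImage K₁ w Fq) t 1 ≤ gaussField ↥R K₁ := Etu_le_gaussField R Fq hFq w t ht
  have hcomap : (closureValSub (E := ↥(Etu (hostImage K₁ w Fq) t 1)) 𝒢t).comap
      (algebraMap ↥K₁⟮t⟯ ↥(Etu (hostImage K₁ w Fq) t 1)) = 𝒢t := by
    ext y
    rw [ValuationSubring.mem_comap, mem_closureValSub_iff,
      isIntegral_algebraMap_iff (algebraMap ↥K₁⟮t⟯ ↥(Etu (hostImage K₁ w Fq) t 1)).injective]
    constructor
    · intro hy
      obtain ⟨z, hz⟩ := IsIntegrallyClosed.isIntegral_iff.mp hy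
      rw [← hz]
      exact z.2
    · intro hy
      have : y = algebraMap ↥𝒢t ↥K₁⟮t⟯ ⟨y, hy⟩ := rfl
      rw [this]
      exact isIntegral_algebraMap
  have hG : IsGaussAt ↥R ϖ (AdjoinSimple.gen K₁ t)
      ((closureValSub (E := ↥(Etu (hostImage K₁ w Fq) t 1)) 𝒢t).comap
        (algebraMap ↥K₁⟮t⟯ ↥(Etu (hostImage K₁ w Fq) t 1))) := by
    rw [hcomap]; exact h𝒢t
  have hG' : IsGaussAt ↥R ϖ (AdjoinSimple.gen K₁ t)
      ((gaussValSub ↥R K₁ (Etu (hostImage K₁ w Fq) t 1) hE).comap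
        (algebraMap ↥K₁⟮t⟯ ↥(Etu (hostImage K₁ w Fq) t 1))) :=
    isGaussAt_comap_gaussValSub' (Etu (hostImage K₁ w Fq) t 1) hE
      (algebraMap ↥K₁⟮t⟯ ↥(Etu (hostImage K₁ w Fq) t 1))
      (fun r => by
        rw [Host.coe_algebraMap, IsScalarTower.algebraMap_apply ↥R K₁ ↥K₁⟮t⟯,
          IntermediateField.coe_algebraMap_apply,
          algebraMap_laurentSeries_eq_single, ← HahnSeries.C_apply]) hϖ
      (AdjoinSimple.gen K₁ t) ht htt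
  haveI : IsScalarTower ↥R ↥K₁⟮t⟯ ↥(Etu (hostImage K₁ w Fq) t 1) :=
    IsScalarTower.of_algebraMap_eq (fun r => rfl)
  have heq := GeoHyps.valuationSubring_unique hgeo hG hG'
  rw [← mem_closureValSub_iff (E := ↥(Etu (hostImage K₁ w Fq) t 1)) 𝒢t x, heq]
  exact hx

set_option maxHeartbeats 1600000 in
include hFq hϖ hgeo htt h𝒢t h𝒢j hintj in
/-- **(hmemW) from GEO**: every valuation subring of `F_q` which induces the Gauss valuation on
`K₁(j)` contains the Gauss-integral elements of `F_q`. -/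
theorem mem_of_mem_gaussInt_of_geo (W : ValuationSubring ↥Fq)
    (hW : ∀ c : ↥Fq, (c : LaurentSeries K₁) ∈ K₁⟮emb ↥R K₁ (jqModC ↥R)⟯ →
      (c ∈ W ↔ (c : LaurentSeries K₁) ∈ gaussInt ↥R K₁))
    (z : ↥Fq) (hz : (z : LaurentSeries K₁) ∈ gaussInt ↥R K₁) : z ∈ W := by
  classical
  haveI : CharZero ↥R := charZero_valuationSubring_of_algebraRat R
  have htrj : Transcendental K₁ (AdjoinSimple.gen K₁ (jqNModC K₁ w)) :=
    Host.transcendental_gen (transcendental_jqNModC w)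
  have hKj : IntermediateField.adjoin K₁ {AdjoinSimple.gen K₁ (jqNModC K₁ w)} = ⊤ :=
    Host.adjoin_gen_eq_top _
  -- `W ∩ K₁(j_w) = 𝒢j`
  have hW𝒢 : W.comap (rhoJ Fq w) = 𝒢t.comap (algebraMap ↥K₁⟮jqNModC K₁ w⟯ ↥K₁⟮t⟯) :=
    (comap_rhoJ_eq R Fq hFq w W hW).trans
      (isGaussAt_unique ϖ hϖ _ htrj hKj (isGaussAt_comap_gV R Fq hFq w hϖ) h𝒢j)
  -- the image of `z` in `E`
  set zE : ↥(Etu (hostImage K₁ w Fq) t 1) :=
    algebraMap ↥(hostImage K₁ w Fq) ↥(Etu (hostImage K₁ w Fq) t 1)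
      (hostImageEquiv K₁ w Fq z) with hzE
  have hzEi : (zE : LaurentSeries K₁) ∈ gaussInt ↥R K₁ := by
    show qExpand K₁ w (z : LaurentSeries K₁) ∈ gaussInt ↥R K₁
    exact (gaussHomQExpand ↥R K₁ w).map_mem_gaussInt hz
  have hzint : IsIntegral ↥𝒢t zE :=
    isIntegral_of_mem_gaussInt_Etu R Fq hFq w t hϖ hgeo ht htt 𝒢t h𝒢t zE hzEi
  -- integral over `𝒢j`
  have h1 : IsIntegral ↥(𝒢t.comap (algebraMap ↥K₁⟮jqNModC K₁ w⟯ ↥K₁⟮t⟯)) zE := by
    refine isIntegral_of_isIntegral_of_forall_isIntegral (S₁ := ↥𝒢t)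
      (S₂ := ↥(𝒢t.comap (algebraMap ↥K₁⟮jqNModC K₁ w⟯ ↥K₁⟮t⟯))) ?_ hzint
    intro s
    have h2 : IsIntegral ↥(𝒢t.comap (algebraMap ↥K₁⟮jqNModC K₁ w⟯ ↥K₁⟮t⟯)) (s : ↥K₁⟮t⟯) :=
      hintj s s.2
    refine IsIntegral.map_of_comp_eq
      (RingHom.id ↥(𝒢t.comap (algebraMap ↥K₁⟮jqNModC K₁ w⟯ ↥K₁⟮t⟯)))
      (algebraMap ↥K₁⟮t⟯ ↥(Etu (hostImage K₁ w Fq) t 1)) ?_ h2
    refine RingHom.ext fun r => ?_
    rfl
  -- pull back to `F_q`
  let ι : ↥Fq →+* ↥(Etu (hostImage K₁ w Fq) t 1) :=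
    (algebraMap ↥(hostImage K₁ w Fq) ↥(Etu (hostImage K₁ w Fq) t 1)).comp
      ((hostImageEquiv K₁ w Fq : ↥Fq ≃ₐ[K₁] ↥(hostImage K₁ w Fq)) :
        ↥Fq →+* ↥(hostImage K₁ w Fq))
  have hι : Function.Injective ι := ι.injective
  let ρW : ↥(𝒢t.comap (algebraMap ↥K₁⟮jqNModC K₁ w⟯ ↥K₁⟮t⟯)) →+* ↥W :=
    { toFun := fun s => ⟨rhoJ Fq w (s : ↥K₁⟮jqNModC K₁ w⟯),
        (SetLike.ext_iff.mp hW𝒢 (s : ↥K₁⟮jqNModC K₁ w⟯)).mpr s.2⟩
      map_one' := Subtype.ext (by simp)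
      map_mul' := fun a b => Subtype.ext (by simp)
      map_zero' := Subtype.ext (by simp)
      map_add' := fun a b => Subtype.ext (by simp) }
  have hcomp : ι.comp ((algebraMap ↥W ↥Fq).comp ρW) =
      algebraMap ↥(𝒢t.comap (algebraMap ↥K₁⟮jqNModC K₁ w⟯ ↥K₁⟮t⟯))
        ↥(Etu (hostImage K₁ w Fq) t 1) := by
    refine RingHom.ext fun s => ?_
    show algebraMap ↥(hostImage K₁ w Fq) ↥(Etu (hostImage K₁ w Fq) t 1)
      (hostImageEquiv K₁ w Fq (rhoJ Fq w (s : ↥K₁⟮jqNModC K₁ w⟯))) = _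
    rw [hostImageEquiv_rhoJ]
    rfl
  obtain ⟨p, hpm, hp⟩ := h1
  have hzW : IsIntegral ↥W z := by
    refine ⟨p.map ρW, hpm.map ρW, ?_⟩
    rw [Polynomial.eval₂_map]
    apply hι
    rw [Polynomial.hom_eval₂, hcomp, map_zero]
    exact hp
  obtain ⟨y, hy⟩ := IsIntegrallyClosed.isIntegral_iff.mp hzW
  rw [← hy]
  exact y.2

end Main


end Inst1

end Fermat.Agent.W1
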