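/-
W1 — helper3 — [INST] part 1: the field `finite_keyFq` of the interface class `W1Api M` for an
ARBITRARY field `K ⊇ ℚ` (no embedding into `ℂ`).

* `finite_of_isLinDisjHom` : abstract upward transfer of finiteness over `k(x)` along a linearly
  disjoint base change `φ : E₀ → E` with `E = L(φ E₀)`.
* `bcEmb K₀ K F₀ : K₀·F₀ → K·F₀`, `isLinDisjHom_bcEmb`, `adjoin_range_bcEmb`.
* `finite_laurentBaseChange_of_finite` : `K₀·F₀ / K₀(x)` finite ⇒ `K·F₀ / K(x)` finite.
* `w1_finite_keyFq M hM K : Module.Finite ↥K⟮jGen K M⟯ ↥(keyFq K M)` (from helper9's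
  `finrank_F₁_baseChange_eq M 1 ℚ hM`).
-/
import Mathlib
import Fermat.Agent.X0N.LD_helper1_Laurent
import Fermat.Agent.W1.API_helper7_Class
import Fermat.Agent.W1.DEG1_helper9_Transfer

set_option autoImplicit false
set_option linter.unusedSectionVars false

namespace Fermat.Agent.W1

open ModularCurve HahnSeries IntermediateField Fermat.Agent.X0N

section Abstract

variable {k L E₀ E : Type*} [Field k] [Field L] [Algebra k L] [Field E₀] [Field E]
  [Algebra k E₀] [Algebra L E] {φ : E₀ →+* E}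

/-- **Upward finiteness transfer** (abstract form): if `E₀` is finite over `k(x)` and `E` is
generated over `L` by the image of `E₀`, then `E` is finite over `L(φ x)`. -/
theorem finite_of_isLinDisjHom (hφ : IsLinDisjHom k L φ) (x : E₀)
    (hfin : Module.Finite k⟮x⟯ E₀) (htop : adjoin L (Set.range φ) = ⊤) :
    Module.Finite L⟮φ x⟯ E := by
  classical
  have : IsNoetherian k⟮x⟯ E₀ := IsNoetherian.iff_fg.mpr hfin
  obtain ⟨t, ht⟩ := IntermediateField.fg_of_noetherian (⊤ : IntermediateField k⟮x⟯ E₀)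
  have h1 : adjoin k ({x} ∪ (t : Set E₀)) = ⊤ := by
    rw [← adjoin_adjoin_left, ht, restrictScalars_top]
  have h2 : adjoin L ({φ x} ∪ φ '' (t : Set E₀)) = ⊤ := by
    rw [← htop, ← Set.image_univ, ← IntermediateField.coe_top (F := k), ← h1,
      hφ.adjoin_image_adjoin, Set.image_union, Set.image_singleton]
  have h3 : adjoin L⟮φ x⟯ (φ '' (t : Set E₀)) = ⊤ := by
    apply restrictScalars_injective L
    rw [adjoin_adjoin_left, h2, restrictScalars_top]
  -- the base map `k(x) → L(φ x)`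
  have hmem : ∀ r : k⟮x⟯, φ (r : E₀) ∈ L⟮φ x⟯ := by
    intro r
    have := hφ.map_mem_adjoin {x} r.2
    simpa using this
  let g : k⟮x⟯ →+* L⟮φ x⟯ :=
    RingHom.codRestrict (φ.comp (algebraMap k⟮x⟯ E₀)) L⟮φ x⟯ hmem
  have hcomp : (algebraMap L⟮φ x⟯ E).comp g = φ.comp (algebraMap k⟮x⟯ E₀) := by
    apply RingHom.ext
    intro r
    rfl
  have hint : ∀ z ∈ φ '' (t : Set E₀), IsIntegral L⟮φ x⟯ z := by
    rintro _ ⟨τ, -, rfl⟩
    have h4 : IsIntegral k⟮x⟯ τ := Algebra.IsIntegral.isIntegral τ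
    exact IsIntegral.map_of_comp_eq g φ hcomp h4
  have : Finite (φ '' (t : Set E₀)) := (t.finite_toSet.image φ).to_subtype
  have h5 : FiniteDimensional L⟮φ x⟯ (adjoin L⟮φ x⟯ (φ '' (t : Set E₀))) :=
    finiteDimensional_adjoin hint
  rw [h3] at h5
  exact Module.Finite.equiv (topEquiv (F := L⟮φ x⟯) (E := E)).toLinearEquiv

end Abstract

section Laurent

variable (K₀ K : Type*) [Field K₀] [Field K] [Algebra ℚ K₀] [Algebra ℚ K] [Algebra K₀ K]
  [IsScalarTower ℚ K₀ K] (F₀ : IntermediateField ℚ (LaurentSeries ℚ))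

/-- the coefficientwise base change `K₀·F₀ → K·F₀`. -/
noncomputable def bcEmb : ↥(laurentBaseChange K₀ F₀) →+* ↥(laurentBaseChange K F₀) :=
  RingHom.codRestrict ((iota K₀ K).comp (algebraMap ↥(laurentBaseChange K₀ F₀) (LaurentSeries K₀)))
    (laurentBaseChange K F₀) (fun z => iota_mem_laurentBaseChange F₀ z.2)

@[simp] theorem coe_bcEmb (z : ↥(laurentBaseChange K₀ F₀)) :
    ((bcEmb K₀ K F₀ z : ↥(laurentBaseChange K F₀)) : LaurentSeries K) =
      iota K₀ K (z : LaurentSeries K₀) :=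
  rfl

theorem isLinDisjHom_bcEmb : IsLinDisjHom K₀ K (bcEmb K₀ K F₀) where
  map_algebraMap a := by
    apply Subtype.ext
    exact (isLinDisjHom_iota (k := K₀) (L := K)).map_algebraMap a
  linIndep {ι f} hf := by
    have h1 : LinIndep K₀
        (fun i => ((f i : ↥(laurentBaseChange K₀ F₀)) : LaurentSeries K₀)) :=
      @LinearIndependent.map' ι K₀ ↥(laurentBaseChange K₀ F₀) (LaurentSeries K₀) f _ _ _ _
        Algebra.toModule hf (laurentBaseChange K₀ F₀).val.toLinearMap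
        ((Submodule.eq_bot_iff _).mpr (fun z hz => Subtype.ext hz))
    have h2 : LinIndep K (fun i => iota K₀ K ((f i : ↥(laurentBaseChange K₀ F₀)) : LaurentSeries K₀)) :=
      linIndep_iota h1
    exact @LinearIndependent.of_comp ι K ↥(laurentBaseChange K F₀) (LaurentSeries K)
      (fun i => bcEmb K₀ K F₀ (f i)) _ _ _ _ Algebra.toModule
      (laurentBaseChange K F₀).val.toLinearMap h2

theorem adjoin_range_bcEmb : adjoin K (Set.range (bcEmb K₀ K F₀)) = ⊤ := by
  apply IntermediateField.lift_injective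
  rw [lift_adjoin, lift_top]
  have e : (Subtype.val '' Set.range (bcEmb K₀ K F₀) : Set (LaurentSeries K)) =
      iota K₀ K '' ((laurentBaseChange K₀ F₀ : IntermediateField K₀ (LaurentSeries K₀)) :
        Set (LaurentSeries K₀)) := by
    ext z
    constructor
    · rintro ⟨_, ⟨w, rfl⟩, rfl⟩
      exact ⟨w, w.2, rfl⟩
    · rintro ⟨w, hw, rfl⟩
      exact ⟨bcEmb K₀ K F₀ ⟨w, hw⟩, ⟨⟨w, hw⟩, rfl⟩, rfl⟩
  rw [e]
  change adjoin K (iota K₀ K '' ((adjoin K₀ (coeffEmb K₀ '' (F₀ : Set (LaurentSeries ℚ))) :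
    IntermediateField K₀ (LaurentSeries K₀)) : Set (LaurentSeries K₀))) =
      adjoin K (coeffEmb K '' (F₀ : Set (LaurentSeries ℚ)))
  rw [(isLinDisjHom_iota (k := K₀) (L := K)).adjoin_image_adjoin, Set.image_image]
  congr 1
  ext z
  simp only [Set.mem_image, iota_coeffEmb]

/-- **Upward finiteness transfer**: if `K₀·F₀` is finite over `K₀(x)`, then `K·F₀` is finite over
`K(x)`, for EVERY field `K ⊇ K₀` (no embedding into `ℂ` needed). -/
theorem finite_laurentBaseChange_of_finite {x : LaurentSeries ℚ} (hx : x ∈ F₀)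
    (hfin : Module.Finite
      K₀⟮(⟨coeffEmb K₀ x, coeffEmb_mem_laurentBaseChange K₀ hx⟩ : ↥(laurentBaseChange K₀ F₀))⟯
      ↥(laurentBaseChange K₀ F₀)) :
    Module.Finite
      K⟮(⟨coeffEmb K x, coeffEmb_mem_laurentBaseChange K hx⟩ : ↥(laurentBaseChange K F₀))⟯
      ↥(laurentBaseChange K F₀) := by
  have h := finite_of_isLinDisjHom (isLinDisjHom_bcEmb K₀ K F₀) _ hfin (adjoin_range_bcEmb K₀ K F₀)
  have e : bcEmb K₀ K F₀ ⟨coeffEmb K₀ x, coeffEmb_mem_laurentBaseChange K₀ hx⟩ =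
      ⟨coeffEmb K x, coeffEmb_mem_laurentBaseChange K hx⟩ :=
    Subtype.ext (iota_coeffEmb x)
  rw [e] at h
  exact h

end Laurent

/-- **`W1Api.finite_keyFq`**: `K · F₁(M)` is finite over `K(j)` for every field `K ⊇ ℚ`. -/
theorem w1_finite_keyFq (M : ℕ) [NeZero M] (hM : M ≠ 1) (K : Type) [Field K] [Algebra ℚ K] :
    Module.Finite ↥K⟮jGen K M⟯ ↥(keyFq K M) := by
  have : IsScalarTower ℚ ℚ ℂ := IsScalarTower.of_algebraMap_eq' (Subsingleton.elim _ _)
  have : IsScalarTower ℚ ℚ K := IsScalarTower.of_algebraMap_eq' (Subsingleton.elim _ _)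
  have h := (finrank_F₁_baseChange_eq M 1 ℚ hM).1
  exact finite_laurentBaseChange_of_finite ℚ K (F₁ M 1) (jq_mem_F₁ M 1) h

end Fermat.Agent.W1
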