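/-
W1 — helper7 — PORT of `JA/KEYBASE_helper8_Kum` to the field `F₁ M 1` of `X₁(M)` (against `[W1Api M]`);
only the field-specific declarations are restated, the generic ones are imported from the original.
Original header:
-/
/-
J-A — helper8 — (KEY) at a base, part 5: the `j`-line hypotheses for the Kummer extension
`F_w(u)`, `u ^ m = g`, from those for `F_w` (helper4's `jLineHyp_kummer_of_dvd_ord`), fed with
the divisibility of the divisor of `g` (transported along `F_q ≃ F_w`) and the integrality of the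
Gauss unit `g` over the Gauss valuation subrings.
-/
import Mathlib
import Fermat.Agent.W1.KEYBASE_helper7_Int
import Fermat.Agent.JA.KEYBASE_helper8_Int
import Fermat.Agent.JA.DICT_helper4_Main
import Fermat.Agent.JA.LINE_helper2_DVR
import Fermat.Agent.FF.Gal_helper7_Restrict
import Fermat.Agent.W1.API_helper7_Lemmas
import Fermat.Agent.JA.KEYBASE_helper8_Kum

set_option autoImplicit false
set_option linter.unusedSectionVars false
set_option linter.style.haveILetI false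
set_option synthInstance.maxHeartbeats 200000

open HahnSeries IntermediateField AlgebraicCurve ModularCurve Fermat.Agent.Igusa

open Fermat.Agent.JA

namespace Fermat.Agent.W1

open scoped Fermat.Agent.JA.Host

section PlaceTransport

open Fermat.Agent.FF.Gal

variable {K F F' : Type*} [Field K] [Field F] [Field F'] [Algebra K F] [Algebra K F']

end PlaceTransport

section Kum

variable {K₁ : Type*} [Field K₁] [Algebra ℚ K₁] (R : ValuationSubring K₁)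
  [IsDiscreteValuationRing ↥R] (M w m : ℕ) [NeZero M] [W1Api M] [NeZero w]

/-- **the `j`-line hypotheses for `F_w(u)`** from those for `F_w`. -/
theorem jLineHyp_Fu_of_jLineHyp [CharZero ↥R] {ϖ : ↥R} (hϖ : Irreducible ϖ)
    (hmR : ((m : K₁))⁻¹ ∈ R) (hmK : (m : K₁) ≠ 0)
    (hFq : keyFq K₁ M ≤ gaussField ↥R K₁)
    (hmemW : ∀ W : ValuationSubring ↥(keyFq K₁ M),
      (∀ c : ↥(keyFq K₁ M), (c : LaurentSeries K₁) ∈ K₁⟮emb ↥R K₁ (jqModC ↥R)⟯ →
        (c ∈ W ↔ (c : LaurentSeries K₁) ∈ gaussInt ↥R K₁)) →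
      ∀ z : ↥(keyFq K₁ M), (z : LaurentSeries K₁) ∈ gaussInt ↥R K₁ → z ∈ W)
    [Fact (K₁⟮jqNModC K₁ w⟯ ≤ keyFw K₁ M w)]
    [Module.Finite ↥K₁⟮jqNModC K₁ w⟯ ↥(keyFw K₁ M w)]
    (hJ : JLineHyp (K₁ := K₁) ϖ (AdjoinSimple.gen K₁ (jqNModC K₁ w)) ↥(keyFw K₁ M w) M)
    (g : ↥(keyFq K₁ M)) (hg0 : g ≠ 0) (hg : (g : LaurentSeries K₁) ∈ gaussInt ↥R K₁)
    (hginv : (g : LaurentSeries K₁)⁻¹ ∈ gaussInt ↥R K₁)
    (hdiv : ∀ P : Place K₁ ↥(keyFq K₁ M), (m : ℤ) ∣ P.ord g)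
    (u : LaurentSeries K₁) (hu : u ^ m = qExpand K₁ w (g : LaurentSeries K₁)) :
    JLineHyp (K₁ := K₁) ϖ (AdjoinSimple.gen K₁ (jqNModC K₁ w))
      ↥(Host.Fu (keyFw K₁ M w) u) M := by
  classical
  have hm0 : m ≠ 0 := by
    rintro rfl
    exact hmK Nat.cast_zero
  have htrj : Transcendental K₁ (AdjoinSimple.gen K₁ (jqNModC K₁ w)) :=
    Host.transcendental_gen (transcendental_jqNModC w)
  have hKj : IntermediateField.adjoin K₁ {AdjoinSimple.gen K₁ (jqNModC K₁ w)} = ⊤ :=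
    Host.adjoin_gen_eq_top _
  -- `m` is a unit of `R`
  have hmunit : IsUnit ((m : ℕ) : ↥R) := by
    refine IsUnit.of_mul_eq_one (⟨(m : K₁)⁻¹, hmR⟩ : ↥R) (Subtype.ext ?_)
    rw [Subring.coe_mul, Subring.coe_natCast, Subring.coe_one]
    exact mul_inv_cancel₀ hmK
  -- the element `g_w` of `F_w` and the root `u`
  have hgw0 : hostImageEquiv K₁ w (keyFq K₁ M) g ≠ 0 :=
    (map_ne_zero (hostImageEquiv K₁ w (keyFq K₁ M))).mpr hg0
  have hu' : (⟨u, Host.mem_Fu_self (keyFw K₁ M w) u⟩ : ↥(Host.Fu (keyFw K₁ M w) u)) ^ m =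
      algebraMap ↥(keyFw K₁ M w) ↥(Host.Fu (keyFw K₁ M w) u)
        (hostImageEquiv K₁ w (keyFq K₁ M) g) := Subtype.ext hu
  have huint : IsIntegral ↥(keyFw K₁ M w)
      (⟨u, Host.mem_Fu_self (keyFw K₁ M w) u⟩ : ↥(Host.Fu (keyFw K₁ M w) u)) := by
    refine IsIntegral.of_pow (Nat.pos_of_ne_zero hm0) ?_
    rw [hu']
    exact isIntegral_algebraMap
  have hgen : Algebra.adjoin ↥(keyFw K₁ M w)
      {(⟨u, Host.mem_Fu_self (keyFw K₁ M w) u⟩ : ↥(Host.Fu (keyFw K₁ M w) u))} = ⊤ := by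
    rw [← IntermediateField.adjoin_simple_toSubalgebra_of_isAlgebraic huint.isAlgebraic,
      Host.adjoin_u_eq_top]
    rfl
  refine jLineHyp_kummer_of_dvd_ord (K₁ := K₁) ϖ (AdjoinSimple.gen K₁ (jqNModC K₁ w)) M m hmunit
    (hostImageEquiv K₁ w (keyFq K₁ M) g) hgw0
    (⟨u, Host.mem_Fu_self (keyFw K₁ M w) u⟩ : ↥(Host.Fu (keyFw K₁ M w) u)) hu' hgen ?_ ?_ ?_ ?_ hJ
  · intro 𝒱₀ hne h𝒱₀
    exact isDiscreteValuationRing_of_adjoin_eq_top 𝒱₀ h𝒱₀ hne hKj
  · intro 𝒢 h𝒢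
    exact isDiscreteValuationRing_of_isGaussAt ϖ hϖ _ htrj hKj h𝒢
  · intro P'
    obtain ⟨P, hP⟩ := exists_place_ord_algEquiv (hostImageEquiv K₁ w (keyFq K₁ M)) P'
    rw [← hP g hg0]
    exact hdiv P
  · intro 𝒢 h𝒢
    refine ⟨isIntegral_hostImageEquiv_of_mem_gaussInt R M w hϖ hFq hmemW 𝒢 h𝒢 g hg, ?_⟩
    rw [← map_inv₀]
    exact isIntegral_hostImageEquiv_of_mem_gaussInt R M w hϖ hFq hmemW 𝒢 h𝒢 g⁻¹
      (by rw [IntermediateField.coe_inv]; exact hginv)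

end Kum

end Fermat.Agent.W1
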