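/-
W1 = [GRΓ1] (S48), package [KHECKE1] (helper4), part 2 (port of `GR/KBC_helper4_Main`):
**`κ ∘ bc` on the torsion of `Pic⁰(F_k)`, `k ⊆ ℂ` algebraically closed**, at level `Gpm M L`.

* `realMLC_bcHom` : the realisation over `ℂ` of the base change of `f ∈ F_k` is
  `realML (algebraMap k ℂ) M L f`;
* `kappa_eq_kummerChar_of_bcPic0` : `κ (bc [D])` is the Kummer character of any `n`-th root of
  (the realisation of) any `f ∈ F_k` with `div f = n D`;
* `exists_rep_of_mem_torsion` : existence of such `D`, `f`, `u` for every torsion class over `k`;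
* `kappa_bcPic0_heckeSwapOf` : **(hecke)** `κ (bc (T'_ℓ x)) = T^grp_ℓ (κ (bc x))`, every prime `ℓ`;
* `kappa_bcPic0_diaPic0` : **(diamond)** `κ (bc (⟨d⟩ x)) = ⟨d⁻¹⟩^grp (κ (bc x))`.
-/
import Mathlib
import Fermat.Agent.W1.KHECKE1_helper4_Main
import Fermat.Agent.W1.CONJ1_helper9_Kappa
import Fermat.Agent.GR.DESC_helper3_Main

set_option autoImplicit false
set_option maxHeartbeats 400000
set_option linter.style.haveILetI false
set_option linter.unusedSectionVars false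

open UpperHalfPlane hiding I
open Complex ModularGroup ModularCurve CongruenceSubgroup AlgebraicCurve ModularForm
open scoped MatrixGroups

namespace Fermat.Agent.W1

open Fermat.Agent.X0N Fermat.Agent.JA Fermat.Agent.FF Fermat.Agent.GR

/-! ### `κ ∘ bc` -/

section Bridge

variable {k : Type*} [Field k] [Algebra ℚ k] [Algebra k ℂ] [IsScalarTower ℚ k ℂ]
  (M L : ℕ) [NeZero M] [NeZero L]

/-- **(bridge)** the realisation over `ℂ` of the base change of `f ∈ F_k` is the realisation of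
`f` along `k → ℂ`. -/
theorem realMLC_bcHom (f : ↥(laurentBaseChange k (F₁ M L))) :
    realMLC M L (bcHom (L := ℂ) (F₁ M L) f) = realML (algebraMap k ℂ) M L f := by
  rw [realMLC_apply]
  exact realML_bcHom (RingHom.id ℂ) M L f

end Bridge

section Rep

variable {k : Type*} [Field k] [Algebra ℚ k] [IsAlgClosed k] [Algebra k ℂ] [IsScalarTower ℚ k ℂ]
  {M L n : ℕ} [NeZero M] [NeZero L] [NeZero n]
  (cK : Coord k ↥(laurentBaseChange k (F₁ M L)))
  (cL : Coord ℂ ↥(laurentBaseChange ℂ (F₁ M L)))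

/-- **(rep)** `κ` of the base change of the class of a `k`-divisor `D` with `n D = div f` is the
Kummer character of any `n`-th root of the realisation of `f`. -/
theorem kappa_eq_kummerChar_of_bcPic0 (hM : M ≠ 1)
    (y : ↥(Pic0.torsion ℂ ↥(laurentBaseChange ℂ (F₁ M L)) n))
    (D : ↥(Divisor.degZero (K := k) (F := ↥(laurentBaseChange k (F₁ M L)))))
    (hy : (y : Pic0 ℂ ↥(laurentBaseChange ℂ (F₁ M L))) = bcPic0 (F₁ M L) cK cL (Pic0.mk D))
    {f : ↥(laurentBaseChange k (F₁ M L))} (hf : f ≠ 0)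
    (hfD : ∀ v : Place k ↥(laurentBaseChange k (F₁ M L)),
      (n : ℤ) * (D : Divisor k _) v = v.ord f)
    {u : MerH} (hu : u ^ n = realML (algebraMap k ℂ) M L f) :
    kappa M L n hM y = kummerChar (Gpm M L) n u := by
  refine kappa_eq_kummerChar hM y
    ⟨bcConorm (L := ℂ) (F₁ M L) cK (D : Divisor k _),
      bcConorm_mem_degZero (F₁ M L) cK cL D.2⟩ ?_ ?_
  · rw [hy, bcPic0_mk]
  · exact ⟨bcHom (L := ℂ) (F₁ M L) f, (map_ne_zero _).mpr hf,
      fun v => bcConorm_apply_of_ord (L := ℂ) (F₁ M L) cK _ f hfD v,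
      by rw [realMLC_bcHom]; exact hu⟩

/-- a divisor whose class is `n`-torsion is `n`-divisible up to a principal divisor (any base
field). -/
theorem exists_fun_of_mk_mem_torsion_of_field
    (D : ↥(Divisor.degZero (K := k) (F := ↥(laurentBaseChange k (F₁ M L)))))
    (hD : Pic0.mk D ∈ Pic0.torsion k ↥(laurentBaseChange k (F₁ M L)) n) :
    ∃ f : ↥(laurentBaseChange k (F₁ M L)), f ≠ 0 ∧
      ∀ v : Place k ↥(laurentBaseChange k (F₁ M L)),
        (n : ℤ) * (D : Divisor k _) v = v.ord f := by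
  rw [Pic0.mem_torsion] at hD
  have h1 : Pic0.mk ((n : ℤ) • D) = 0 := hD
  have h2 : ((n : ℤ) • D) ∈ (Divisor.principal (K := k)
      (F := ↥(laurentBaseChange k (F₁ M L)))).addSubgroupOf
        Divisor.degZero := (QuotientAddGroup.eq_zero_iff _).mp h1
  rw [AddSubgroup.mem_addSubgroupOf] at h2
  obtain ⟨f, hf, hfD⟩ := h2
  refine ⟨f, hf, fun v => ?_⟩
  rw [← hfD v]
  simp

include cK cL in
/-- **existence of representatives with roots** for torsion classes over `k`. -/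
theorem exists_rep_of_mem_torsion
    (x : Pic0 k ↥(laurentBaseChange k (F₁ M L)))
    (hx : x ∈ Pic0.torsion k ↥(laurentBaseChange k (F₁ M L)) n) :
    ∃ (D : ↥(Divisor.degZero (K := k) (F := ↥(laurentBaseChange k (F₁ M L)))))
      (f : ↥(laurentBaseChange k (F₁ M L))) (u : MerH),
      Pic0.mk D = x ∧ f ≠ 0 ∧
      (∀ v : Place k ↥(laurentBaseChange k (F₁ M L)),
        (n : ℤ) * (D : Divisor k _) v = v.ord f) ∧
      u ^ n = realML (algebraMap k ℂ) M L f := by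
  obtain ⟨D, rfl⟩ := Pic0.mk_surjective x
  obtain ⟨f, hf, hfD⟩ := exists_fun_of_mk_mem_torsion_of_field D hx
  have hf' : bcHom (L := ℂ) (F₁ M L) f ≠ 0 := (map_ne_zero _).mpr hf
  have hdiv : ∀ τ : ℍ, (n : ℤ) ∣ MerH.ordAt τ (realMLC M L (bcHom (L := ℂ) (F₁ M L) f)) := by
    intro τ
    exact char_dvd_ordAt_realML (RingHom.id ℂ) M L τ (jFun τ) rfl (n : ℤ) hf'
      (fun v => ⟨bcConorm (L := ℂ) (F₁ M L) cK (D : Divisor k _) v,
        (bcConorm_apply_of_ord (L := ℂ) (F₁ M L) cK _ f hfD v).symm⟩)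
  obtain ⟨u, hu⟩ := exists_root_merH n (NeZero.ne n)
    (realMLC M L (bcHom (L := ℂ) (F₁ M L) f)) (realMLC_ne_zero hf') hdiv
  exact ⟨D, f, u, rfl, hf, hfD, by rw [hu, realMLC_bcHom]⟩

end Rep

section HeckeBC

variable {k : Type*} [Field k] [Algebra ℚ k] [CharZero k] [IsAlgClosed k] [Algebra k ℂ]
  [IsScalarTower ℚ k ℂ] {M n : ℕ} [NeZero M] [NeZero n]
  (cK : Coord k ↥(laurentBaseChange k (F₁ M 1)))
  (cL : Coord ℂ ↥(laurentBaseChange ℂ (F₁ M 1)))

/-- **(hecke) for `κ ∘ bc`**: `κ (bc (T'_ℓ x)) = T^grp_ℓ (κ (bc x))` for every `n`-torsion class `x`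
over `k` and every prime `ℓ`. -/
theorem kappa_bcPic0_heckeSwapOf (hM : M ≠ 1) (ℓ : Nat.Primes)
    (c : Coord k ↥(laurentBaseChange k (F₁ M 1)))
    (c' : Coord k ↥(laurentBaseChange k (F₁ M (1 * ℓ))))
    (x : Pic0 k ↥(laurentBaseChange k (F₁ M 1)))
    (hx : x ∈ Pic0.torsion k ↥(laurentBaseChange k (F₁ M 1)) n)
    (y y' : ↥(Pic0.torsion ℂ ↥(laurentBaseChange ℂ (F₁ M 1)) n))
    (hy : (y : Pic0 ℂ ↥(laurentBaseChange ℂ (F₁ M 1))) = bcPic0 (F₁ M 1) cK cL x)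
    (hy' : haveI : NeZero (ℓ : ℕ) := ⟨ℓ.2.ne_zero⟩
      (y' : Pic0 ℂ ↥(laurentBaseChange ℂ (F₁ M 1)))
        = bcPic0 (F₁ M 1) cK cL (heckeSwapOf k M 1 ℓ c c' x)) :
    kappa M 1 n hM y' = heckeGrpP M ℓ (ZMod n) (kappa M 1 n hM y) := by
  haveI : NeZero (ℓ : ℕ) := ⟨ℓ.2.ne_zero⟩
  obtain ⟨D, f, u, rfl, hf, hfD, hu⟩ := exists_rep_of_mem_torsion cK cL x hx
  have hfin : FiniteAlong k (heckeBetaBar k M 1 ℓ) := finiteAlong_of_coord c c' _
  have hg : normAlong (heckeBetaBar k M 1 ℓ) (heckeAlphaBar k M 1 ℓ f) ≠ 0 :=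
    normAlong_ne_zero _ hfin ((map_ne_zero _).mpr hf)
  have h1 : kappa M 1 n hM y = kummerChar (Gpm M 1) n u :=
    kappa_eq_kummerChar_of_bcPic0 cK cL hM y D hy hf hfD hu
  set D' : ↥(Divisor.degZero (K := k) (F := ↥(laurentBaseChange k (F₁ M 1)))) :=
    ⟨heckeSwapDivOf k M 1 ℓ c c' (D : Divisor k _), heckeSwapDivOf_mem_degZero k M 1 ℓ c c' D.2⟩
    with hD'
  have hy'' : (y' : Pic0 ℂ ↥(laurentBaseChange ℂ (F₁ M 1)))
      = bcPic0 (F₁ M 1) cK cL (Pic0.mk D') := by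
    rw [hy', heckeSwapOf_mk]
  have h3 : heckeProdP M ℓ u ^ n = realML (algebraMap k ℂ) M 1
      (normAlong (heckeBetaBar k M 1 ℓ) (heckeAlphaBar k M 1 ℓ f)) := heckeProdP_pow_eq M ℓ hM hu
  have h4 : ∀ v : Place k ↥(laurentBaseChange k (F₁ M 1)),
      (n : ℤ) * (D' : Divisor k _) v
        = v.ord (normAlong (heckeBetaBar k M 1 ℓ) (heckeAlphaBar k M 1 ℓ f)) :=
    fun v => heckeSwapDivOf_nsmul_apply_of_ord k M 1 ℓ c c' hf hfD v
  have h2 : kappa M 1 n hM y' = kummerChar (Gpm M 1) n (heckeProdP M ℓ u) :=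
    kappa_eq_kummerChar_of_bcPic0 cK cL hM y' D' hy'' hg h4 h3
  rw [h1, h2]
  exact kummerChar_heckeProdP M ℓ (isKummerElt_of_pow_eq_realML M 1 hf hu)

/-- **(diamond) for `κ ∘ bc`**: `κ (bc (⟨d⟩ x)) = ⟨d⁻¹⟩^grp (κ (bc x))` for every `n`-torsion
class `x` over `k`. -/
theorem kappa_bcPic0_diaPic0 (hM : M ≠ 1) (d : (ZMod M)ˣ)
    (x : Pic0 k ↥(laurentBaseChange k (F₁ M 1)))
    (hx : x ∈ Pic0.torsion k ↥(laurentBaseChange k (F₁ M 1)) n)
    (y y' : ↥(Pic0.torsion ℂ ↥(laurentBaseChange ℂ (F₁ M 1)) n))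
    (hy : (y : Pic0 ℂ ↥(laurentBaseChange ℂ (F₁ M 1))) = bcPic0 (F₁ M 1) cK cL x)
    (hy' : (y' : Pic0 ℂ ↥(laurentBaseChange ℂ (F₁ M 1)))
        = bcPic0 (F₁ M 1) cK cL (diaPic0 (k := k) M 1 d x)) :
    kappa M 1 n hM y' = diamondGrp M (ZMod n) d⁻¹ (kappa M 1 n hM y) := by
  obtain ⟨D, f, u, rfl, hf, hfD, hu⟩ := exists_rep_of_mem_torsion cK cL x hx
  have h1 : kappa M 1 n hM y = kummerChar (Gpm M 1) n u :=
    kappa_eq_kummerChar_of_bcPic0 cK cL hM y D hy hf hfD hu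
  have hy'' : (y' : Pic0 ℂ ↥(laurentBaseChange ℂ (F₁ M 1)))
      = bcPic0 (F₁ M 1) cK cL
        (Pic0.mk (SemilinearAut.degZeroSMulHom (diaSL (k := k) M 1 d) D)) := by
    rw [hy', diaPic0_mk]
  have h2 : kappa M 1 n hM y' = kummerChar (Gpm M 1) n (MerH.comp (sigmaU M 1 d) u) :=
    kappa_eq_kummerChar_of_bcPic0 cK cL hM y' _ hy'' (diaAlg_ne_zero M 1 d hf)
      (fun v => diaSL_smul_nsmul_apply_of_ord M 1 d hfD v) (comp_sigmaU_pow_eq M 1 d hu)
  rw [h1, h2]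
  exact kummerChar_comp_sigmaU M d (isKummerElt_of_pow_eq_realML M 1 hf hu)

end HeckeBC

end Fermat.Agent.W1
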