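/-
W1 — helper7 — PORT of `JA/O1_helper2_Compat` to the field `F₁ M 1` of `X₁(M)` (against `[W1Api M]`);
only the field-specific declarations are restated, the generic ones are imported from the original.
Original header:
-/
/-
J-A third wave, (O1)-(P6) (helper2): compatibility of the embeddings `F_K → E_K` (`legE`, `hesE`)
with the coefficientwise base change `K₁ → Ω`, and the degree clause of `IsPlaceReductionAlong`
(all places on both sides have degree one).
-/
import Mathlib
import Fermat.Agent.W1.BCD_helper7_HostRat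
import Fermat.Agent.JA.BCD_helper9_HostRat
import Fermat.Agent.W1.UP_helper7_Emb
import Fermat.Agent.JA.UP_helper7_Emb
import Fermat.Agent.W1.SEP_helper7_Omega
import Fermat.Agent.JA.SEP_helper6_Omega
import Fermat.Agent.JA.DEGK_helper8
import Fermat.Agent.X0N.S24_helper7_Wiring
import Fermat.Agent.W1.API_helper7_Lemmas
import Fermat.Agent.JA.O1_helper2_Compat

set_option autoImplicit false
set_option linter.unusedSectionVars false
set_option linter.style.haveILetI false
set_option synthInstance.maxHeartbeats 200000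

open HahnSeries IntermediateField AlgebraicCurve ModularCurve Polynomial

open Fermat.Agent.JA

namespace Fermat.Agent.W1

/-- `Ω = AlgebraicClosure ℚ`. -/
local notation "Ω" => AlgebraicClosure ℚ

section Compat

variable (M : ℕ) [NeZero M] [W1Api M] (K₁ : IntermediateField ℚ Ω)

/-- **(P6)** `F_{K₁} → E_{K₁} → E_Ω` equals `F_{K₁} → F_Ω → E_Ω` (Legendre tower). -/
theorem legBC_fullToLegE (x : ↥(keyFq ↥K₁ M)) :
    legBC M K₁ (fullToLegE ↥K₁ M x) = fullToLegE Ω M (baseToBar M K₁ x) := by
  apply Subtype.ext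
  rw [coe_legBC]
  exact coeffMap_fullToLegE M (algebraMap ↥K₁ Ω) x

/-- **(P6)** `F_{K₁} → E_{K₁} → E_Ω` equals `F_{K₁} → F_Ω → E_Ω` (Hesse tower). -/
theorem hesBC_fullToHesE (x : ↥(keyFq ↥K₁ M)) :
    hesBC M K₁ (fullToHesE ↥K₁ M x) = fullToHesE Ω M (baseToBar M K₁ x) := by
  apply Subtype.ext
  rw [coe_hesBC]
  exact coeffMap_fullToHesE M (algebraMap ↥K₁ Ω) x

/-- `baseToBar` is helper9's `keyFqBC`. -/
theorem baseToBar_eq_keyFqBC (x : ↥(keyFq ↥K₁ M)) : baseToBar M K₁ x = keyFqBC M K₁ x := rfl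

end Compat

section Degree

variable {ℓ : ℕ} [Fact ℓ.Prime] {A : ValuationSubring Ω}

/-- every place of `F_Ω` has degree one. -/
theorem deg_eq_one_bar (M : ℕ) [NeZero M] [W1Api M] (P : Place Ω ↥(F₁Bar M 1)) :
    P.deg = 1 :=
  (jCoordBar M).deg_eq_one P

/-- **(P6)** the degree clause of `IsPlaceReductionAlong`: every map of places `r` from `F_Ω` to
`F̃` preserves degrees (both are `1`). -/
theorem deg_eq_of_residue (hA : A.LiesOverPrime ℓ) (M : ℕ) [NeZero M] [W1Api M] (hℓM : ¬ ℓ ∣ M)
    (r : Place Ω ↥(F₁Bar M 1) →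
      Place (IsLocalRing.ResidueField ↥A)
        ↥(F₁C (IsLocalRing.ResidueField ↥A) M 1))
    (P : Place Ω ↥(F₁Bar M 1)) : (r P).deg = P.deg := by
  rw [deg_eq_one_fullC_residue hA M hℓM (r P), deg_eq_one_bar M P]

end Degree

end Fermat.Agent.W1
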