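/-
W1 = [GRΓ1] (S48), package [REAL1] (helper9), part 1: **level raising inside the family `Gpm M L`**:
for a modular form `F` of weight `k` for `Gpm M 1 = ± Γ₁(M)` and `e ∣ L`, the function
`F ∣[k] diag(e, 1)` (a multiple of `F(e τ)`) is a modular form for `Gpm M L = ± (Γ₁(M) ∩ Γ₀(M L))`.
Consequence: the generators `φ_a(e τ)` are modular functions (`IsModFun`) for `Gpm M L`.
-/
import Fermat.Agent.W1.WEB4_helper9_Phi
import Fermat.Agent.X0N.SYM_helper2_Dilate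

set_option autoImplicit false

open UpperHalfPlane hiding I
open ModularForm Complex Filter Matrix ModularGroup Topology CongruenceSubgroup
open scoped MatrixGroups Manifold Real

namespace Fermat.Agent.W1

open Fermat.Agent.GR Fermat.Agent.RatStr Fermat.Agent.X0N ModularCurve

noncomputable section

local notation "Δ" => ModularForm.discriminant

theorem Gamma1_le_GammaML_one (M : ℕ) : Gamma1 M ≤ GammaML M 1 := by
  intro δ hδ
  refine mem_GammaML.mpr ⟨hδ, ?_⟩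
  rw [Gamma1_mem] at hδ
  rw [Gamma0_mem, ZMod.intCast_zmod_eq_zero_iff_dvd, mul_one,
    ← ZMod.intCast_zmod_eq_zero_iff_dvd]
  exact hδ.2.2

theorem Gamma1_le_Gpm_one (M : ℕ) : Gamma1 M ≤ Gpm M 1 :=
  (Gamma1_le_GammaML_one M).trans (GammaML_le_Gpm M 1)

/-- for `γ ∈ Γ₁(M) ∩ Γ₀(M L)` and `e ∣ L`: `diag(e,1) γ = δ diag(e,1)` with `δ ∈ Γ₁(M)`. -/
theorem exists_alphaN_mul_eq_Gamma1 {M L : ℕ} (e : ℕ) [NeZero e] (he : e ∣ L) {γ : SL(2, ℤ)}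
    (hγ : γ ∈ GammaML M L) :
    ∃ δ : SL(2, ℤ), δ ∈ Gamma1 M ∧
      alphaN e * (γ : GL (Fin 2) ℝ) = (δ : GL (Fin 2) ℝ) * alphaN e := by
  obtain ⟨h1, h0⟩ := mem_GammaML.mp hγ
  have hγe : γ ∈ Gamma0 e :=
    Gamma0_le_of_dvd (he.trans (Dvd.intro_left M rfl)) h0
  have hγe' := hγe
  rw [Gamma0_mem, ZMod.intCast_zmod_eq_zero_iff_dvd] at hγe'
  obtain ⟨c, hc⟩ := hγe'
  have hdet : γ 0 0 * γ 1 1 - γ 0 1 * γ 1 0 = 1 := by
    have := γ.det_coe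
    rwa [Matrix.det_fin_two] at this
  let δ : SL(2, ℤ) := ⟨!![γ 0 0, e * γ 0 1; c, γ 1 1], by
    rw [Matrix.det_fin_two_of]; rw [hc] at hdet; linarith⟩
  refine ⟨δ, ?_, ?_⟩
  · rw [Gamma1_mem] at h1 ⊢
    refine ⟨h1.1, h1.2.1, ?_⟩
    show ((c : ℤ) : ZMod M) = 0
    rw [Gamma0_mem, ZMod.intCast_zmod_eq_zero_iff_dvd] at h0
    rw [ZMod.intCast_zmod_eq_zero_iff_dvd]
    obtain ⟨f, rfl⟩ := he
    rw [hc] at h0
    have he' : (e : ℤ) ≠ 0 := by exact_mod_cast NeZero.ne e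
    have h2 : ((e : ℤ) * (M : ℤ)) ∣ (e : ℤ) * c := by
      refine dvd_trans ?_ h0
      push_cast
      exact ⟨f, by ring⟩
    exact (mul_dvd_mul_iff_left he').mp h2
  · apply Units.ext
    rw [Units.val_mul, Units.val_mul]
    have e1 : ((γ : GL (Fin 2) ℝ) : Matrix (Fin 2) (Fin 2) ℝ) =
        (γ : Matrix (Fin 2) (Fin 2) ℤ).map (algebraMap ℤ ℝ) :=
      Matrix.SpecialLinearGroup.mapGL_coe_matrix γ
    have e2 : ((δ : GL (Fin 2) ℝ) : Matrix (Fin 2) (Fin 2) ℝ) =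
        (δ : Matrix (Fin 2) (Fin 2) ℤ).map (algebraMap ℤ ℝ) :=
      Matrix.SpecialLinearGroup.mapGL_coe_matrix δ
    rw [e1, e2]
    unfold alphaN
    rw [val_utGL]
    have hc' : (γ 1 0 : ℝ) = (e : ℝ) * c := by exact_mod_cast hc
    ext i j
    fin_cases i <;> fin_cases j <;>
      simp [Matrix.mul_apply, Fin.sum_univ_two, δ, hc', mul_comm]

theorem alphaN_mul_neg_one (e : ℕ) [NeZero e] :
    alphaN e * ((-1 : SL(2, ℤ)) : GL (Fin 2) ℝ) = ((-1 : SL(2, ℤ)) : GL (Fin 2) ℝ) * alphaN e := by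
  apply Units.ext
  rw [Units.val_mul, Units.val_mul]
  have e1 : (((-1 : SL(2, ℤ)) : GL (Fin 2) ℝ) : Matrix (Fin 2) (Fin 2) ℝ) =
      ((-1 : SL(2, ℤ)) : Matrix (Fin 2) (Fin 2) ℤ).map (algebraMap ℤ ℝ) :=
    Matrix.SpecialLinearGroup.mapGL_coe_matrix (-1)
  rw [e1]
  unfold alphaN
  rw [val_utGL]
  ext i j
  fin_cases i <;> fin_cases j <;> simp [Matrix.mul_apply, Fin.sum_univ_two]

variable {k : ℤ} {F : ℍ → ℂ}

/-- **Level raising in the family `Gpm M L`.** -/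
theorem isMF_slash_alphaN_Gpm {M L : ℕ} (e : ℕ) [NeZero e] (he : e ∣ L)
    (hF : IsMF (Gpm M 1) k F) : IsMF (Gpm M L) k (F ∣[k] alphaN e) := by
  have hinv1 : ∀ γ ∈ GammaML M L, (F ∣[k] alphaN e) ∣[k] γ = F ∣[k] alphaN e := by
    intro γ hγ
    obtain ⟨δ, hδ, h⟩ := exists_alphaN_mul_eq_Gamma1 e he hγ
    have hδ' : δ ∈ Gpm M 1 := Gamma1_le_Gpm_one M hδ
    rw [SL_slash, ← SlashAction.slash_mul, h, SlashAction.slash_mul, ← SL_slash, hF.inv δ hδ']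
  have hneg : (F ∣[k] alphaN e) ∣[k] (-1 : SL(2, ℤ)) = F ∣[k] alphaN e := by
    rw [SL_slash, ← SlashAction.slash_mul, alphaN_mul_neg_one, SlashAction.slash_mul, ← SL_slash,
      hF.inv (-1) (neg_one_mem_Gpm M 1)]
  refine ⟨hF.holo.slash k _, fun γ hγ => ?_, fun γ => ?_⟩
  · rcases hγ with h | h
    · exact hinv1 γ h
    · have h2 : γ = (-1 : SL(2, ℤ)) * (-γ) := by rw [neg_mul, one_mul, neg_neg]
      rw [h2, SlashAction.slash_mul, hneg, hinv1 _ h]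
  · obtain ⟨δ, a, b, d, ha, hd, -, -, -, -, hmat⟩ :=
      exists_decomp_GL e (Nat.pos_of_ne_zero (NeZero.ne e)) γ
    have hmat' : alphaN e * (γ : GL (Fin 2) ℝ) = (δ : GL (Fin 2) ℝ) * utGL a b d ha hd := hmat
    have h0 : (F ∣[k] alphaN e) ∣[k] γ = (F ∣[k] δ) ∣[k] utGL (a : ℝ) b d ha hd := by
      rw [SL_slash, ← SlashAction.slash_mul, hmat', SlashAction.slash_mul, ← SL_slash]
    rw [h0]
    have h1 : IsBoundedAtImInfty (fun τ : ℍ => (F ∣[k] δ) (utGL (a : ℝ) b d ha hd • τ)) :=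
      (hF.bdd δ).comp_tendsto (tendsto_utGL_smul_atImInfty ha hd)
    have h2 : (F ∣[k] δ) ∣[k] utGL (a : ℝ) b d ha hd =
        fun τ : ℍ => (F ∣[k] δ) (utGL (a : ℝ) b d ha hd • τ) *
          ((((a : ℝ) * d : ℝ) : ℂ) ^ (k - 1) * ((d : ℝ) : ℂ) ^ (-k)) := by
      funext τ
      rw [slash_utGL_apply]
      ring
    rw [h2]
    exact h1.mul (Asymptotics.isBigO_const_const _ one_ne_zero _)

/-- `E₄² · gFun M a`, of weight `12`. -/
theorem isMF_E4sq_mul_gFun (M : ℕ) (a : ZMod M) :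
    IsMF (Gpm M 1) 12 ((E₄ : ℍ → ℂ) ^ 2 * gFun M a) := by
  have h4 : IsMF (Gpm M 1) 4 (E₄ : ℍ → ℂ) := isMF_E4.mono le_top
  exact (((h4.pow 2).mul (isMF_gFun M 1 a))).weight_cast (by norm_num)

/-- **`φ_a(e τ)` is a modular function for `Gpm M L`, `e ∣ L`.** -/
theorem isModFun_phiHolE {M L : ℕ} (e : ℕ) [NeZero e] (he : e ∣ L) (a : ZMod M) :
    IsModFun (Gpm M L) (MerH.ofHol (phiHolE M a e)) := by
  have hg0 : IsMF (Gpm M L) 12 (((E₄ : ℍ → ℂ) ^ 2 * gFun M a) ∣[(12 : ℤ)] alphaN e) :=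
    isMF_slash_alphaN_Gpm e he (isMF_E4sq_mul_gFun M a)
  have h12 : IsMF (Gpm M L) 12 ((Δ : ℍ → ℂ) ∣[(12 : ℤ)] alphaN e) :=
    (isMF_slash_alphaN e isMF_discriminant).mono (Gpm_le_Gamma0 M L |>.trans
      (Gamma0_le_of_dvd (he.trans (Dvd.intro_left M rfl))))
  have hg : IsMF (Gpm M L) 12 (c4⁻¹ • (((E₄ : ℍ → ℂ) ^ 2 * gFun M a) ∣[(12 : ℤ)] alphaN e)) :=
    hg0.smul _
  have hne : ∀ z, ((Δ : ℍ → ℂ) ∣[(12 : ℤ)] alphaN e) z ≠ 0 := fun z => DN_ne_zero e z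
  have hne' : (⟨_, h12.holo⟩ : HolH) ≠ 0 := by
    intro h0
    exact hne UpperHalfPlane.I (congrFun (congrArg Subtype.val h0) UpperHalfPlane.I)
  refine ⟨12, ⟨_, hg.holo⟩, ⟨_, h12.holo⟩, hg, h12, hne', ?_⟩
  rw [eq_div_iff (MerH.ofHol_ne_zero hne'), ← map_mul]
  congr 1
  ext z
  simp only [Subring.coe_mul, Pi.mul_apply, phiHolE_apply, Pi.smul_apply, smul_eq_mul]
  rw [slash_alphaN_apply, slash_alphaN_apply]
  have hD : dilate e (Δ : ℍ → ℂ) z ≠ 0 := by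
    rw [dilate_apply]; exact discriminant_ne_zero _
  have h3 := c4_ne_zero
  have : phiFunE M a e z = dilate e (E₄ : ℍ → ℂ) z ^ 2 / dilate e (Δ : ℍ → ℂ) z *
      (dilate e (gFun M a) z / c4) := rfl
  rw [this]
  have e3 : dilate e ((E₄ : ℍ → ℂ) ^ 2 * gFun M a) z =
      dilate e (E₄ : ℍ → ℂ) z ^ 2 * dilate e (gFun M a) z := rfl
  rw [e3]
  field_simp

end

end Fermat.Agent.W1
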