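/-
W1 — helper7 — PORT of `JA/RED_helper7_Omega` to the field `F₁ M 1` of `X₁(M)` (against `[W1Api M]`);
only the field-specific declarations are restated, the generic ones are imported from the original.
Original header:
-/
/-
J-A programme, package RED (helper7), part 7: the reduction map of places for a valuation subring
`A` of `ℚ̄`, with (EVAL) for two charts, its characterisation, and **(EQUIV)** for the
decomposition group of `A`.
-/
import Mathlib
import Fermat.Agent.W1.RED_helper7_Equiv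
import Fermat.Agent.JA.RED_helper7_Equiv
import Fermat.Agent.W1.S37Asm_helper7_Red
import Fermat.Agent.JA.S37Asm_helper7_Red
import Fermat.Agent.X0N.S24_helper7_Wiring
import Fermat.Agent.W1.API_helper7_Lemmas
import Fermat.Agent.JA.RED_helper7_Omega

set_option autoImplicit false
set_option linter.unusedSectionVars false
set_option linter.style.haveILetI false

open AlgebraicCurve ModularCurve IntermediateField

open Fermat.Agent.JA

namespace Fermat.Agent.W1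

noncomputable section

set_option synthInstance.maxHeartbeats 400000
set_option maxHeartbeats 1600000

variable {A : ValuationSubring (AlgebraicClosure ℚ)} {M : ℕ} [NeZero M] [W1Api M]

/-- **(EQUIV) over `ℚ̄`** for a reduction map characterised by (EVAL) in two charts. -/
theorem reduction_smul_decomposition (h : GaussRes A M (IsLocalRing.residue ↥A))
    (z₁ z₂ : ↥(F₁Bar M 1))
    (hz₁ : ∀ σ : AlgebraicClosure ℚ ≃ₐ[ℚ] AlgebraicClosure ℚ,
      arithmeticGalois (F₁ M 1) σ • z₁ = z₁)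
    (hz₂ : ∀ σ : AlgebraicClosure ℚ ≃ₐ[ℚ] AlgebraicClosure ℚ,
      arithmeticGalois (F₁ M 1) σ • z₂ = z₂)
    (r : Place (AlgebraicClosure ℚ) ↥(F₁Bar M 1) →
      Place (IsLocalRing.ResidueField ↥A)
        ↥(F₁C (IsLocalRing.ResidueField ↥A) M 1))
    (hr₁ : ChartEval h z₁ r) (hr₂ : ChartEval h z₂ r)
    (hu₁ : ∀ P Q, GoodAt A M z₁ P → EvalAt h z₁ P Q → r P = Q)
    (hu₂ : ∀ P Q, GoodAt A M z₂ P → EvalAt h z₂ P Q → r P = Q)
    (hcover : ∀ P, GoodAt A M z₁ P ∨ GoodAt A M z₂ P)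
    (σ : A.decompositionSubgroup ℚ)
    (P : Place (AlgebraicClosure ℚ) ↥(F₁Bar M 1)) :
    r (arithmeticGalois (F₁ M 1) σ.1 • P)
      = coeffAutC (IsLocalRing.ResidueField ↥A) M (resAut A σ) • r P :=
  reduction_smul h σ.1 (decomposition_apply_mem σ) (decomposition_symm_apply_mem σ)
    (resAut A σ) (residue_restrictA_decomposition σ) z₁ z₂ (hz₁ σ.1) (hz₂ σ.1) r hr₁ hr₂ hu₁ hu₂
    hcover P

/-- **the place reduction over `ℚ̄` from two charts**, with (EVAL), its characterisation and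
(EQUIV). -/
theorem exists_placeReduction_of_charts (h : GaussRes A M (IsLocalRing.residue ↥A))
    (z₁ z₂ : ↥(F₁Bar M 1))
    (hz₁ : ∀ σ : AlgebraicClosure ℚ ≃ₐ[ℚ] AlgebraicClosure ℚ,
      arithmeticGalois (F₁ M 1) σ • z₁ = z₁)
    (hz₂ : ∀ σ : AlgebraicClosure ℚ ≃ₐ[ℚ] AlgebraicClosure ℚ,
      arithmeticGalois (F₁ M 1) σ • z₂ = z₂)
    (yz₁ yz₂ : ↥(gaussRing A M)) (hyz₁ : gaussι A M yz₁ = z₁) (hyz₂ : gaussι A M yz₂ = z₂)
    (b : ↥A) (hrel : yz₂ * (yz₁ - gaussC A M b) = 1)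
    (hsat₁ : ChartSat (π := IsLocalRing.residue ↥A) z₁)
    (hsat₂ : ChartSat (π := IsLocalRing.residue ↥A) z₂)
    (ht₁ : Transcendental (IsLocalRing.ResidueField ↥A) (gaussρF h yz₁))
    (ht₂ : Transcendental (IsLocalRing.ResidueField ↥A) (gaussρF h yz₂))
    [FiniteDimensional (IsLocalRing.ResidueField ↥A)⟮gaussρF h yz₁⟯
      ↥(F₁C (IsLocalRing.ResidueField ↥A) M 1)]
    [Algebra.IsSeparable (IsLocalRing.ResidueField ↥A)⟮gaussρF h yz₁⟯
      ↥(F₁C (IsLocalRing.ResidueField ↥A) M 1)]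
    [FiniteDimensional (IsLocalRing.ResidueField ↥A)⟮gaussρF h yz₂⟯
      ↥(F₁C (IsLocalRing.ResidueField ↥A) M 1)]
    [Algebra.IsSeparable (IsLocalRing.ResidueField ↥A)⟮gaussρF h yz₂⟯
      ↥(F₁C (IsLocalRing.ResidueField ↥A) M 1)]
    (hsep₁ : ChartSep h z₁ (fun Q => gaussρF h yz₁ ∈ Q.toValuationSubring))
    (hsep₂ : ChartSep h z₂ (fun Q => gaussρF h yz₂ ∈ Q.toValuationSubring)) :
    ∃ r : Place (AlgebraicClosure ℚ) ↥(F₁Bar M 1) →
        Place (IsLocalRing.ResidueField ↥A)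
          ↥(F₁C (IsLocalRing.ResidueField ↥A) M 1),
      ChartEval h z₁ r ∧ ChartEval h z₂ r ∧
      (∀ P Q, GoodAt A M z₁ P → EvalAt h z₁ P Q → r P = Q) ∧
      (∀ P Q, GoodAt A M z₂ P → EvalAt h z₂ P Q → r P = Q) ∧
      (∀ P, GoodAt A M z₁ P ∨ GoodAt A M z₂ P) ∧
      ∀ (σ : A.decompositionSubgroup ℚ)
        (P : Place (AlgebraicClosure ℚ) ↥(F₁Bar M 1)),
        r (arithmeticGalois (F₁ M 1) σ.1 • P)
          = coeffAutC (IsLocalRing.ResidueField ↥A) M (resAut A σ) • r P := by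
  have hdegL : ∀ P : Place (AlgebraicClosure ℚ) ↥(F₁Bar M 1), P.deg = 1 :=
    fun P => (jCoordBar M).deg_eq_one P
  have hcover : ∀ P, GoodAt A M z₁ P ∨ GoodAt A M z₂ P := fun P =>
    goodAt_or_goodAt z₁ z₂ yz₁ yz₂ hyz₁ hyz₂ b hrel P (hdegL P)
  obtain ⟨r, hr₁, hr₂, hu₁, hu₂⟩ := exists_chartReduction IsLocalRing.residue_surjective h hdegL
    z₁ z₂ yz₁ yz₂ hyz₁ hyz₂ b hrel hsat₁ hsat₂ ht₁ ht₂ hsep₁ hsep₂
  exact ⟨r, hr₁, hr₂, hu₁, hu₂, hcover, fun σ P =>
    reduction_smul_decomposition h z₁ z₂ hz₁ hz₂ r hr₁ hr₂ hu₁ hu₂ hcover σ P⟩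

end

end Fermat.Agent.W1
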