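/-
W1 — helper7 — PORT of `JA/RED_helper7_Chart2` to the field `F₁ M 1` of `X₁(M)` (against `[W1Api M]`);
only the field-specific declarations are restated, the generic ones are imported from the original.
Original header:
-/
/-
J-A programme, package RED (helper7), part 8: the second chart `z₂ = (z₁ - b)⁻¹` inherits
transcendence, finiteness, separability and Galois-invariance from the first one.
-/
import Mathlib
import Fermat.Agent.W1.RED_helper7_Omega
import Fermat.Agent.JA.RED_helper7_Omega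
import Fermat.Agent.W1.API_helper7_Lemmas
import Fermat.Agent.JA.RED_helper7_Chart2

set_option autoImplicit false
set_option linter.unusedSectionVars false
set_option linter.style.haveILetI false

open AlgebraicCurve ModularCurve IntermediateField

open Fermat.Agent.JA

namespace Fermat.Agent.W1

noncomputable section

section Abstract

variable {k F : Type*} [Field k] [Field F] [Algebra k F]

end Abstract

section Gauss

variable {L : Type} [Field L] [Algebra ℚ L] {A : ValuationSubring L} {M : ℕ}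
variable {k : Type*} [Field k] {π : ↥A →+* k}

theorem gaussρF_rel (h : GaussRes A M π) (yz₁ yz₂ : ↥(gaussRing A M)) (b : ↥A)
    (hrel : yz₂ * (yz₁ - gaussC A M b) = 1) :
    gaussρF h yz₂ *
      (gaussρF h yz₁ - algebraMap k ↥(F₁C k M 1) (π b)) = 1 := by
  have e := congrArg (gaussρF h) hrel
  rw [map_mul, map_sub, map_one] at e
  have e2 : gaussρF h (gaussC A M b) = algebraMap k ↥(F₁C k M 1) (π b) := by
    apply Subtype.ext
    rw [coe_gaussρF]
    exact gaussρ_gaussC A M π b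
  rw [e2] at e
  exact e

end Gauss

section Omega

set_option synthInstance.maxHeartbeats 400000
set_option maxHeartbeats 1600000

variable {A : ValuationSubring (AlgebraicClosure ℚ)} {M : ℕ} [NeZero M] [W1Api M]

/-- the second chart coordinate is Galois-invariant if the first one and `b` are. -/
theorem smul_chart2_eq (z₁ z₂ : ↥(F₁Bar M 1)) (b : AlgebraicClosure ℚ)
    (hrel : z₂ * (z₁ - algebraMap (AlgebraicClosure ℚ) ↥(F₁Bar M 1) b) = 1)
    (σ : AlgebraicClosure ℚ ≃ₐ[ℚ] AlgebraicClosure ℚ) (hb : σ b = b)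
    (hz₁ : arithmeticGalois (F₁ M 1) σ • z₁ = z₁) :
    arithmeticGalois (F₁ M 1) σ • z₂ = z₂ := by
  have e := congrArg (fun x => arithmeticGalois (F₁ M 1) σ • x) hrel
  simp only [smul_mul', smul_sub, smul_one, hz₁, SemilinearAut.smul_algebraMap,
    baseAut_arithmeticGalois] at e
  have e2 : (σ.toRingEquiv : AlgebraicClosure ℚ ≃+* AlgebraicClosure ℚ) b = b := hb
  rw [e2] at e
  exact (eq_inv_of_mul_eq_one_left e).trans (eq_inv_of_mul_eq_one_left hrel).symm

/-- **the place reduction over `ℚ̄` from two charts**, all field-theoretic inputs on the first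
chart only. -/
theorem exists_placeReduction_of_charts' (h : GaussRes A M (IsLocalRing.residue ↥A))
    (z₁ z₂ : ↥(F₁Bar M 1))
    (hz₁ : ∀ σ : AlgebraicClosure ℚ ≃ₐ[ℚ] AlgebraicClosure ℚ,
      arithmeticGalois (F₁ M 1) σ • z₁ = z₁)
    (yz₁ yz₂ : ↥(gaussRing A M)) (hyz₁ : gaussι A M yz₁ = z₁) (hyz₂ : gaussι A M yz₂ = z₂)
    (b : ↥A) (hb : ∀ σ : AlgebraicClosure ℚ ≃ₐ[ℚ] AlgebraicClosure ℚ,
      σ (b : AlgebraicClosure ℚ) = b)
    (hrel : yz₂ * (yz₁ - gaussC A M b) = 1)
    (hsat₁ : ChartSat (π := IsLocalRing.residue ↥A) z₁)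
    (hsat₂ : ChartSat (π := IsLocalRing.residue ↥A) z₂)
    (ht₁ : Transcendental (IsLocalRing.ResidueField ↥A) (gaussρF h yz₁))
    [FiniteDimensional (IsLocalRing.ResidueField ↥A)⟮gaussρF h yz₁⟯
      ↥(F₁C (IsLocalRing.ResidueField ↥A) M 1)]
    [Algebra.IsSeparable (IsLocalRing.ResidueField ↥A)⟮gaussρF h yz₁⟯
      ↥(F₁C (IsLocalRing.ResidueField ↥A) M 1)]
    (hsep₁ : ChartSep h z₁ (fun Q => gaussρF h yz₁ ∈ Q.toValuationSubring))
    (hsep₂ : ChartSep h z₂ (fun Q => gaussρF h yz₂ ∈ Q.toValuationSubring)) :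
    ∃ r : Place (AlgebraicClosure ℚ) ↥(F₁Bar M 1) →
        Place (IsLocalRing.ResidueField ↥A)
          ↥(F₁C (IsLocalRing.ResidueField ↥A) M 1),
      ChartEval h z₁ r ∧ ChartEval h z₂ r ∧
      (∀ P Q, GoodAt A M z₁ P → EvalAt h z₁ P Q → r P = Q) ∧
      (∀ P Q, GoodAt A M z₂ P → EvalAt h z₂ P Q → r P = Q) ∧
      (∀ P, GoodAt A M z₁ P ∨ GoodAt A M z₂ P) ∧
      ∀ (σ : A.decompositionSubgroup ℚ)
        (P : Place (AlgebraicClosure ℚ) ↥(F₁Bar M 1)),
        r (arithmeticGalois (F₁ M 1) σ.1 • P)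
          = coeffAutC (IsLocalRing.ResidueField ↥A) M (resAut A σ) • r P := by
  have hρrel := gaussρF_rel h yz₁ yz₂ b hrel
  have hK := adjoin_simple_eq_of_mul_sub_eq_one hρrel
  haveI := finiteDimensional_of_intermediateField_eq hK.symm
  haveI := isSeparable_of_intermediateField_eq hK.symm
  have hz₂ : ∀ σ : AlgebraicClosure ℚ ≃ₐ[ℚ] AlgebraicClosure ℚ,
      arithmeticGalois (F₁ M 1) σ • z₂ = z₂ := fun σ =>
    smul_chart2_eq z₁ z₂ (b : AlgebraicClosure ℚ)
      (chart_rel z₁ z₂ yz₁ yz₂ hyz₁ hyz₂ b hrel) σ (hb σ) (hz₁ σ)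
  exact exists_placeReduction_of_charts h z₁ z₂ hz₁ hz₂ yz₁ yz₂ hyz₁ hyz₂ b hrel hsat₁ hsat₂ ht₁
    (transcendental_of_mul_sub_eq_one hρrel ht₁) hsep₁ hsep₂

end Omega

end

end Fermat.Agent.W1
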