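/-
W1 — helper7 — PORT of `JA/RED_helper7_Integral` to the field `F₁ M 1` of `X₁(M)` (against `[W1Api M]`);
only the field-specific declarations are restated, the generic ones are imported from the original.
Original header:
-/
/-
J-A programme, package RED (helper7), part 3: **integrality descends to reductions**.

If `z = ι y_z` is the function of a Gauss-integral series `y_z`, then for every Gauss-integral
series `y` whose function is integral over `A[z]`, the reduction `ρ y` is integral over `k[ρ y_z]`.
-/
import Mathlib
import Fermat.Agent.W1.RED_helper7_Defs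
import Fermat.Agent.JA.RED_helper7_Defs
import Fermat.Agent.W1.API_helper7_Lemmas
import Fermat.Agent.JA.RED_helper7_Integral

set_option autoImplicit false
set_option linter.unusedSectionVars false

open AlgebraicCurve ModularCurve Polynomial

open Fermat.Agent.JA

namespace Fermat.Agent.W1

noncomputable section

section Abstract

variable {B B' : Type*} [CommRing B] [CommRing B'] [Nontrivial B']

end Abstract

section Modular

variable {L : Type} [Field L] [Algebra ℚ L] (A : ValuationSubring L) (M : ℕ)
variable {k : Type*} [Field k] (π : ↥A →+* k)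

/-- the subring `A[y_z]` of the ring of Gauss-integral series. -/
def coeffLift (yz : ↥(gaussRing A M)) : Subring ↥(gaussRing A M) :=
  Subring.closure (Set.range (gaussC A M) ∪ {yz})

theorem coeffSubring_le_map (yz : ↥(gaussRing A M)) :
    coeffSubring A M (gaussι A M yz) ≤ (coeffLift A M yz).map (gaussι A M) := by
  rw [coeffSubring, Subring.closure_le]
  rintro x (⟨a, rfl⟩ | hx)
  · refine Subring.mem_map.mpr ⟨gaussC A M a, Subring.subset_closure (Or.inl ⟨a, rfl⟩), ?_⟩
    exact gaussι_gaussC A M a
  · rw [Set.mem_singleton_iff] at hx
    rw [hx]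
    exact Subring.mem_map.mpr ⟨yz, Subring.subset_closure (Or.inr rfl), rfl⟩

variable {A M π}

theorem gaussρF_mem_adjoin (h : GaussRes A M π) (yz : ↥(gaussRing A M)) {γ : ↥(gaussRing A M)}
    (hγ : γ ∈ coeffLift A M yz) : gaussρF h γ ∈ Algebra.adjoin k {gaussρF h yz} := by
  induction hγ using Subring.closure_induction with
  | mem x hx =>
    rcases hx with ⟨a, rfl⟩ | hx
    · have h1 : gaussρF h (gaussC A M a) =
          algebraMap k ↥(F₁C k M 1) (π a) := by
        apply Subtype.ext
        rw [coe_gaussρF]
        exact gaussρ_gaussC A M π a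
      rw [h1]
      exact Subalgebra.algebraMap_mem _ _
    · rw [Set.mem_singleton_iff] at hx
      rw [hx]
      exact Algebra.subset_adjoin rfl
  | zero => rw [map_zero]; exact Subalgebra.zero_mem _
  | one => rw [map_one]; exact Subalgebra.one_mem _
  | add x y _ _ hx hy => rw [map_add]; exact Subalgebra.add_mem _ hx hy
  | neg x _ hx => rw [map_neg]; exact Subalgebra.neg_mem _ hx
  | mul x y _ _ hx hy => rw [map_mul]; exact Subalgebra.mul_mem _ hx hy

/-- **integrality descends to reductions** (Gauss-ring form). -/
theorem isIntegral_gaussρF (h : GaussRes A M π) (yz y : ↥(gaussRing A M))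
    (hy : IsIntegral ↥(coeffSubring A M (gaussι A M yz)) (gaussι A M y)) :
    IsIntegral ↥(Algebra.adjoin k {gaussρF h yz}) (gaussρF h y) := by
  have h1 : IsIntegral ↥(coeffLift A M yz) y :=
    isIntegral_of_injective_of_le_map (gaussι A M) (gaussι_injective A M) _ _
      (coeffSubring_le_map A M yz) hy
  let θ : ↥(coeffLift A M yz) →+* ↥(Algebra.adjoin k {gaussρF h yz}) :=
    ((gaussρF h).comp (coeffLift A M yz).subtype).codRestrict _
      (fun γ => gaussρF_mem_adjoin h yz γ.2)
  exact IsIntegral.map_of_comp_eq θ (gaussρF h) rfl h1

/-- **integrality descends to reductions** (chart form). -/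
theorem isIntegral_chartρF (h : GaussRes A M π)
    (z : ↥(laurentBaseChange L (F₁ M 1))) (yz : ↥(gaussRing A M))
    (hyz : gaussι A M yz = z) (y : ↥(chartRing A M z)) :
    IsIntegral ↥(Algebra.adjoin k {gaussρF h yz}) (chartρF h z y) := by
  subst hyz
  exact isIntegral_gaussρF h yz _ (isIntegral_chartι _ y)

end Modular

end

end Fermat.Agent.W1
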