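/-
W1 — helper7 — PORT of `JA/RED_helper7_R1` to the field `F₁ M 1` of `X₁(M)` (against `[W1Api M]`);
only the field-specific declarations are restated, the generic ones are imported from the original.
Original header:
-/
/-
J-A programme, package RED (helper7), part 4 (**R1**): existence of the reduction of a place in
the chart of `z`.

For a place `P` of `F_L` of degree one in the domain of the chart of `z` (`z` regular at `P` with
value in `A`), there is a place `Q` of `F̃` such that every chart function `y` has a value `a ∈ A`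
at `P` and its reduction has the value `π a` at `Q`.  Inputs: (RES), (SAT) for the chart, and the
fact that `F̃` is finite separable over `k(z̃)`.
-/
import Mathlib
import Fermat.Agent.W1.RED_helper7_Integral
import Fermat.Agent.JA.RED_helper7_Integral
import Fermat.Agent.JA.RED_helper7_CompVal
import Fermat.Agent.JA.RED_helper7_Exist
import Fermat.Agent.W1.API_helper7_Lemmas
import Fermat.Agent.JA.RED_helper7_R1

set_option autoImplicit false
set_option linter.unusedSectionVars false
set_option linter.style.haveILetI false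

open AlgebraicCurve ModularCurve IntermediateField

open Fermat.Agent.JA

namespace Fermat.Agent.W1

noncomputable section

variable {L : Type} [Field L] [Algebra ℚ L] {A : ValuationSubring L} {M : ℕ}
variable {k : Type*} [Field k] {π : ↥A →+* k}

section Values

/-- the elements of `A[z]` have values in `A` at a place in the domain of the chart. -/
theorem exists_hasValueAt_of_mem_coeffSubring
    (z : ↥(laurentBaseChange L (F₁ M 1)))
    (P : Place L ↥(laurentBaseChange L (F₁ M 1)))
    (hP : GoodAt A M z P) {s : ↥(laurentBaseChange L (F₁ M 1))}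
    (hs : s ∈ coeffSubring A M z) : ∃ a : ↥A, HasValueAt P s (a : L) := by
  induction hs using Subring.closure_induction with
  | mem x hx =>
    rcases hx with ⟨a, rfl⟩ | hx
    · exact ⟨a, HasValueAt.algebraMap' P _⟩
    · rw [Set.mem_singleton_iff] at hx
      rw [hx]; exact hP
  | zero => exact ⟨0, HasValueAt.zero' P⟩
  | one => exact ⟨1, HasValueAt.one' P⟩
  | add x y _ _ hx hy =>
    obtain ⟨a, ha⟩ := hx
    obtain ⟨b, hb⟩ := hy
    exact ⟨a + b, ha.add hb⟩
  | neg x _ hx =>
    obtain ⟨a, ha⟩ := hx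
    exact ⟨-a, ha.neg⟩
  | mul x y _ _ hx hy =>
    obtain ⟨a, ha⟩ := hx
    obtain ⟨b, hb⟩ := hy
    exact ⟨a * b, ha.mul hb⟩

/-- chart functions have values in `A` at a place in the domain of the chart. -/
theorem exists_hasValueAt_chartι (z : ↥(laurentBaseChange L (F₁ M 1)))
    (P : Place L ↥(laurentBaseChange L (F₁ M 1))) (hdeg : P.deg = 1)
    (hP : GoodAt A M z P) (y : ↥(chartRing A M z)) :
    ∃ a : ↥A, HasValueAt P (chartι A M z y) (a : L) :=
  exists_hasValueAt_of_isIntegral A P hdeg (coeffSubring A M z)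
    (fun _ hs => exists_hasValueAt_of_mem_coeffSubring z P hP hs) (isIntegral_chartι z y)

/-- the value of a chart function at `P`, as an element of `A`. -/
def chartValue (z : ↥(laurentBaseChange L (F₁ M 1)))
    (P : Place L ↥(laurentBaseChange L (F₁ M 1))) (hdeg : P.deg = 1)
    (hP : GoodAt A M z P) (y : ↥(chartRing A M z)) : ↥A :=
  (exists_hasValueAt_chartι z P hdeg hP y).choose

theorem hasValueAt_chartValue (z : ↥(laurentBaseChange L (F₁ M 1)))
    (P : Place L ↥(laurentBaseChange L (F₁ M 1))) (hdeg : P.deg = 1)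
    (hP : GoodAt A M z P) (y : ↥(chartRing A M z)) :
    HasValueAt P (chartι A M z y) (chartValue z P hdeg hP y : L) :=
  (exists_hasValueAt_chartι z P hdeg hP y).choose_spec

theorem chartValue_eq (z : ↥(laurentBaseChange L (F₁ M 1)))
    (P : Place L ↥(laurentBaseChange L (F₁ M 1))) (hdeg : P.deg = 1)
    (hP : GoodAt A M z P) (y : ↥(chartRing A M z)) {a : ↥A}
    (ha : HasValueAt P (chartι A M z y) (a : L)) : chartValue z P hdeg hP y = a :=
  Subtype.ext ((hasValueAt_chartValue z P hdeg hP y).unique ha)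

/-- evaluation at `P`, as a ring hom from the chart ring to `A`. -/
def chartEval (z : ↥(laurentBaseChange L (F₁ M 1)))
    (P : Place L ↥(laurentBaseChange L (F₁ M 1))) (hdeg : P.deg = 1)
    (hP : GoodAt A M z P) : ↥(chartRing A M z) →+* ↥A where
  toFun := chartValue z P hdeg hP
  map_one' := chartValue_eq z P hdeg hP 1 (by rw [map_one]; exact HasValueAt.one' P)
  map_mul' x y := chartValue_eq z P hdeg hP (x * y) (by
    rw [map_mul]
    exact (hasValueAt_chartValue z P hdeg hP x).mul (hasValueAt_chartValue z P hdeg hP y))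
  map_zero' := chartValue_eq z P hdeg hP 0 (by rw [map_zero]; exact HasValueAt.zero' P)
  map_add' x y := chartValue_eq z P hdeg hP (x + y) (by
    rw [map_add]
    exact (hasValueAt_chartValue z P hdeg hP x).add (hasValueAt_chartValue z P hdeg hP y))

theorem hasValueAt_chartEval (z : ↥(laurentBaseChange L (F₁ M 1)))
    (P : Place L ↥(laurentBaseChange L (F₁ M 1))) (hdeg : P.deg = 1)
    (hP : GoodAt A M z P) (y : ↥(chartRing A M z)) :
    HasValueAt P (chartι A M z y) (chartEval z P hdeg hP y : L) :=
  hasValueAt_chartValue z P hdeg hP y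

end Values

section Exist

theorem gaussC_mem_chartRing (z : ↥(laurentBaseChange L (F₁ M 1))) (a : ↥A) :
    ((gaussC A M a : ↥(gaussRing A M)) : LaurentSeries ↥A) ∈ chartRing A M z := by
  refine ⟨(gaussC A M a).2, ?_⟩
  have h1 : gaussι A M ⟨((gaussC A M a : ↥(gaussRing A M)) : LaurentSeries ↥A), (gaussC A M a).2⟩ =
      algebraMap ↥(coeffSubring A M z) ↥(laurentBaseChange L (F₁ M 1))
        ⟨_, algebraMap_mem_coeffSubring z a⟩ := gaussι_gaussC A M a
  rw [h1]
  exact isIntegral_algebraMap

theorem mem_chartRing_of_gaussι_eq (z : ↥(laurentBaseChange L (F₁ M 1)))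
    (yz : ↥(gaussRing A M)) (hyz : gaussι A M yz = z) :
    (yz : LaurentSeries ↥A) ∈ chartRing A M z := by
  refine ⟨yz.2, ?_⟩
  have h1 : gaussι A M ⟨(yz : LaurentSeries ↥A), yz.2⟩ =
      algebraMap ↥(coeffSubring A M z) ↥(laurentBaseChange L (F₁ M 1))
        ⟨z, self_mem_coeffSubring z⟩ := hyz
  rw [h1]
  exact isIntegral_algebraMap

/-- the constants of `A` in the chart ring. -/
def chartC (z : ↥(laurentBaseChange L (F₁ M 1))) :
    ↥A →+* ↥(chartRing A M z) where
  toFun a := ⟨((gaussC A M a : ↥(gaussRing A M)) : LaurentSeries ↥A), gaussC_mem_chartRing z a⟩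
  map_one' := Subtype.ext (show ((gaussC A M 1 : ↥(gaussRing A M)) : LaurentSeries ↥A) = 1 by
    rw [map_one]; rfl)
  map_mul' a b := Subtype.ext (show ((gaussC A M (a * b) : ↥(gaussRing A M)) : LaurentSeries ↥A) =
      ((gaussC A M a : ↥(gaussRing A M)) : LaurentSeries ↥A) *
        ((gaussC A M b : ↥(gaussRing A M)) : LaurentSeries ↥A) by
    rw [map_mul]; rfl)
  map_zero' := Subtype.ext (show ((gaussC A M 0 : ↥(gaussRing A M)) : LaurentSeries ↥A) = 0 by
    rw [map_zero]; rfl)
  map_add' a b := Subtype.ext (show ((gaussC A M (a + b) : ↥(gaussRing A M)) : LaurentSeries ↥A) =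
      ((gaussC A M a : ↥(gaussRing A M)) : LaurentSeries ↥A) +
        ((gaussC A M b : ↥(gaussRing A M)) : LaurentSeries ↥A) by
    rw [map_add]; rfl)

theorem chartι_chartC (z : ↥(laurentBaseChange L (F₁ M 1))) (a : ↥A) :
    chartι A M z (chartC z a) =
      algebraMap L ↥(laurentBaseChange L (F₁ M 1)) (a : L) :=
  gaussι_gaussC A M a

theorem chartρF_chartC (h : GaussRes A M π)
    (z : ↥(laurentBaseChange L (F₁ M 1))) (a : ↥A) :
    chartρF h z (chartC z a) = algebraMap k ↥(F₁C k M 1) (π a) := by
  apply Subtype.ext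
  rw [coe_chartρF]
  exact gaussρ_gaussC A M π a

theorem chartEval_chartC (z : ↥(laurentBaseChange L (F₁ M 1)))
    (P : Place L ↥(laurentBaseChange L (F₁ M 1))) (hdeg : P.deg = 1)
    (hP : GoodAt A M z P) (a : ↥A) : chartEval z P hdeg hP (chartC z a) = a :=
  chartValue_eq z P hdeg hP _ (by rw [chartι_chartC]; exact HasValueAt.algebraMap' P _)

/-- **(R1), existence**: the reduction of a place in the domain of the chart of `z`. -/
theorem exists_place_chartEval (hπ : Function.Surjective π) (h : GaussRes A M π)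
    (z : ↥(laurentBaseChange L (F₁ M 1)))
    (yz : ↥(gaussRing A M)) (hyz : gaussι A M yz = z) (hsat : ChartSat (π := π) z)
    (ht : Transcendental k (gaussρF h yz))
    [FiniteDimensional k⟮gaussρF h yz⟯ ↥(F₁C k M 1)]
    [Algebra.IsSeparable k⟮gaussρF h yz⟯ ↥(F₁C k M 1)]
    (P : Place L ↥(laurentBaseChange L (F₁ M 1))) (hdeg : P.deg = 1)
    (hP : GoodAt A M z P) :
    ∃ Q : Place k ↥(F₁C k M 1), ∀ y : ↥(chartRing A M z),
      HasValueAt Q (chartρF h z y) (π (chartEval z P hdeg hP y)) := by
  classical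
  set ρ := chartρF h z with hρ
  set ev : ↥(chartRing A M z) →+* k := π.comp (chartEval z P hdeg hP) with hev
  -- the kernel of the reduction is killed by the evaluation
  have hker : RingHom.ker ρ.rangeRestrict ≤ RingHom.ker ev := by
    intro y hy
    rw [RingHom.mem_ker] at hy ⊢
    have hy0 : chartρ A M π z y = 0 := by
      have h1 : (ρ y : LaurentSeries k) = 0 := by
        have := congrArg (fun b : ↥ρ.range => ((b : ↥(F₁C k M 1)) :
          LaurentSeries k)) hy
        simpa using this
      rw [chartρ_apply]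
      rw [hρ, coe_chartρF] at h1
      exact h1
    obtain ⟨ϖ, y', hϖ, hyy'⟩ := hsat y hy0
    have h2 : y = chartC z ϖ * y' := Subtype.ext hyy'
    rw [h2, map_mul, hev, RingHom.comp_apply, chartEval_chartC, hϖ, zero_mul]
  let χ : ↥ρ.range →+* k :=
    RingHom.liftOfSurjective ρ.rangeRestrict ρ.rangeRestrict_surjective ⟨ev, hker⟩
  have hχ : ∀ y, χ (ρ.rangeRestrict y) = ev y := fun y =>
    RingHom.liftOfRightInverse_comp_apply _ _ _ ⟨ev, hker⟩ y
  -- the element `y_z` of the chart
  set yz' : ↥(chartRing A M z) := ⟨(yz : LaurentSeries ↥A), mem_chartRing_of_gaussι_eq z yz hyz⟩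
    with hyz'
  have hρyz : ρ yz' = gaussρF h yz := rfl
  have hconst : ∀ c : k, algebraMap k ↥(F₁C k M 1) c ∈ ρ.range := by
    intro c
    obtain ⟨a, rfl⟩ := hπ c
    exact ⟨chartC z a, chartρF_chartC h z a⟩
  obtain ⟨Q, hQ⟩ := exists_place_hasValueAt (gaussρF h yz) ht ρ.range
    ⟨yz', hρyz⟩ hconst
    (by
      rintro b ⟨y, rfl⟩
      exact isIntegral_chartρF h z yz hyz y)
    χ
    (by
      intro c
      obtain ⟨a, rfl⟩ := hπ c
      have h1 : (⟨algebraMap k ↥(F₁C k M 1) (π a), hconst (π a)⟩ : ↥ρ.range) =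
          ρ.rangeRestrict (chartC z a) := Subtype.ext (chartρF_chartC h z a).symm
      rw [h1, hχ, hev, RingHom.comp_apply, chartEval_chartC])
  refine ⟨Q, fun y => ?_⟩
  have h1 := hQ (ρ.rangeRestrict y)
  rw [hχ] at h1
  exact h1

end Exist

end

end Fermat.Agent.W1
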