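/-
W1 — helper7 — PORT of `JA/RED_helper7_Equiv` to the field `F₁ M 1` of `X₁(M)` (against `[W1Api M]`);
only the field-specific declarations are restated, the generic ones are imported from the original.
Original header:
-/
/-
J-A programme, package RED (helper7), part 6 (**(EQUIV)**): the reduction of places is
equivariant for the automorphisms of `L` preserving `A`.

Let `σ : L ≃ₐ[ℚ] L` preserve `A` and induce `τ` on `k` (`π ∘ σ = τ ∘ π`), and let `z` be fixed by
the coefficientwise action of `σ`.  If `Q` is a reduction of `P` in the chart of `z`, then `τ • Q`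
is a reduction of `σ • P` in the chart of `z`.
-/
import Mathlib
import Fermat.Agent.W1.RED_helper7_R1b
import Fermat.Agent.JA.RED_helper7_R1b
import Fermat.Agent.W1.S37Asm_helper7_CoeffAut
import Fermat.Agent.JA.S37Asm_helper7_CoeffAut
import Fermat.Agent.W1.API_helper7_Lemmas
import Fermat.Agent.JA.RED_helper7_Equiv

set_option autoImplicit false
set_option linter.unusedSectionVars false
set_option linter.style.haveILetI false

open AlgebraicCurve ModularCurve IntermediateField

open Fermat.Agent.JA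

namespace Fermat.Agent.W1

noncomputable section

variable {L : Type} [Field L] [Algebra ℚ L] {A : ValuationSubring L} {M : ℕ}
variable {k : Type*} [Field k] {π : ↥A →+* k}

section Restrict

end Restrict

section Chart

variable (σ : L ≃ₐ[ℚ] L) (hσ : ∀ a : L, a ∈ A → σ a ∈ A)

theorem coeffMap_restrictA_mem_gaussRing {y : LaurentSeries ↥A} (hy : y ∈ gaussRing A M) :
    coeffMap (restrictA σ hσ) y ∈ gaussRing A M := by
  rw [mem_gaussRing_iff, coeffMap_subtype_coeffMap_restrictA]
  exact coeffMap_mem_laurentBaseChange σ hy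

theorem gaussι_coeffMap_restrictA {y : LaurentSeries ↥A} (hy : y ∈ gaussRing A M) :
    gaussι A M ⟨coeffMap (restrictA σ hσ) y, coeffMap_restrictA_mem_gaussRing σ hσ hy⟩ =
      arithmeticGalois (F₁ M 1) σ • gaussι A M ⟨y, hy⟩ := by
  apply Subtype.ext
  rw [coe_arithmeticGalois_smul]
  exact coeffMap_subtype_coeffMap_restrictA σ hσ y

variable (z : ↥(laurentBaseChange L (F₁ M 1)))
  (hz : arithmeticGalois (F₁ M 1) σ • z = z)

include hσ hz in
theorem smul_mem_coeffSubring {s : ↥(laurentBaseChange L (F₁ M 1))}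
    (hs : s ∈ coeffSubring A M z) :
    arithmeticGalois (F₁ M 1) σ • s ∈ coeffSubring A M z := by
  induction hs using Subring.closure_induction with
  | mem x hx =>
    rcases hx with ⟨a, rfl⟩ | hx
    · rw [SemilinearAut.smul_algebraMap]
      exact algebraMap_mem_coeffSubring z ⟨σ (a : L), hσ _ a.2⟩
    · rw [Set.mem_singleton_iff] at hx
      rw [hx, hz]
      exact self_mem_coeffSubring z
  | zero => rw [smul_zero]; exact Subring.zero_mem _
  | one => rw [smul_one]; exact Subring.one_mem _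
  | add x y _ _ hx hy => rw [smul_add]; exact Subring.add_mem _ hx hy
  | neg x _ hx => rw [smul_neg]; exact Subring.neg_mem _ hx
  | mul x y _ _ hx hy => rw [smul_mul']; exact Subring.mul_mem _ hx hy

include hσ hz in
theorem isIntegral_smul_coeffSubring {x : ↥(laurentBaseChange L (F₁ M 1))}
    (hx : IsIntegral ↥(coeffSubring A M z) x) :
    IsIntegral ↥(coeffSubring A M z) (arithmeticGalois (F₁ M 1) σ • x) := by
  let ψ : ↥(laurentBaseChange L (F₁ M 1)) →+*
      ↥(laurentBaseChange L (F₁ M 1)) :=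
    (SemilinearAut.toRingAut (arithmeticGalois (F₁ M 1) σ)).toRingHom
  let θ : ↥(coeffSubring A M z) →+* ↥(coeffSubring A M z) :=
    (ψ.comp (coeffSubring A M z).subtype).codRestrict (coeffSubring A M z)
      (fun s => smul_mem_coeffSubring σ hσ z hz s.2)
  exact IsIntegral.map_of_comp_eq θ ψ rfl hx

include hz in
theorem coeffMap_restrictA_mem_chartRing {y : LaurentSeries ↥A} (hy : y ∈ chartRing A M z) :
    coeffMap (restrictA σ hσ) y ∈ chartRing A M z := by
  obtain ⟨hy1, hy2⟩ := hy
  refine ⟨coeffMap_restrictA_mem_gaussRing σ hσ hy1, ?_⟩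
  rw [gaussι_coeffMap_restrictA σ hσ hy1]
  exact isIntegral_smul_coeffSubring σ hσ z hz hy2

end Chart

section Equiv

variable (h : GaussRes A M π)
variable (σ : L ≃ₐ[ℚ] L) (hσ : ∀ a : L, a ∈ A → σ a ∈ A) (hσ' : ∀ a : L, a ∈ A → σ.symm a ∈ A)
  (τ : RingAut k) (hτ : ∀ a : ↥A, π (restrictA σ hσ a) = τ (π a))
  (z : ↥(laurentBaseChange L (F₁ M 1)))
  (hz : arithmeticGalois (F₁ M 1) σ • z = z)

include hσ hz in
/-- the domain of the chart of `z` is stable. -/
theorem GoodAt.smul {P : Place L ↥(laurentBaseChange L (F₁ M 1))}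
    (hP : GoodAt A M z P) :
    GoodAt A M z (arithmeticGalois (F₁ M 1) σ • P) := by
  obtain ⟨a, ha⟩ := hP
  refine ⟨⟨σ (a : L), hσ _ a.2⟩, ?_⟩
  have := ha.smul (arithmeticGalois (F₁ M 1) σ)
  rw [hz] at this
  exact this

include hσ' hτ hz in
/-- **(EQUIV), chart form**: reductions are transported by `(σ, τ)`. -/
theorem EvalAt.smul {P : Place L ↥(laurentBaseChange L (F₁ M 1))}
    {Q : Place k ↥(F₁C k M 1)} (hE : EvalAt h z P Q) :
    EvalAt h z (arithmeticGalois (F₁ M 1) σ • P) (coeffAutC k M τ • Q) := by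
  intro y
  have hz' : arithmeticGalois (F₁ M 1) σ.symm • z = z := by
    have e : arithmeticGalois (F₁ M 1) σ.symm =
        (arithmeticGalois (F₁ M 1) σ)⁻¹ := map_inv _ σ
    rw [e, inv_smul_eq_iff, hz]
  -- the preimage of `y`
  set y' : ↥(chartRing A M z) := ⟨coeffMap (restrictA σ.symm hσ') (y : LaurentSeries ↥A),
    coeffMap_restrictA_mem_chartRing σ.symm hσ' z hz' y.2⟩ with hy'
  have hyy' : coeffMap (restrictA σ hσ) (y' : LaurentSeries ↥A) = (y : LaurentSeries ↥A) :=
    coeffMap_restrictA_symm σ hσ hσ' _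
  obtain ⟨a', haP, haQ⟩ := hE y'
  refine ⟨restrictA σ hσ a', ?_, ?_⟩
  · have h1 := haP.smul (arithmeticGalois (F₁ M 1) σ)
    have e : arithmeticGalois (F₁ M 1) σ • chartι A M z y' =
        chartι A M z y := by
      apply Subtype.ext
      rw [coe_arithmeticGalois_smul, coe_chartι, coe_chartι,
        ← coeffMap_subtype_coeffMap_restrictA σ hσ, hyy']
    rw [e] at h1
    exact h1
  · have h1 := haQ.smul (coeffAutC k M τ)
    have e : coeffAutC k M τ • chartρF h z y' = chartρF h z y := by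
      apply Subtype.ext
      rw [coe_coeffAutC_smul, coe_chartρF, coe_chartρF, coeffMap_coeffMap]
      have e2 : (τ : k →+* k).comp π = π.comp (restrictA σ hσ) := by
        ext a
        exact (hτ a).symm
      rw [e2, ← coeffMap_coeffMap, hyy']
    rw [e, baseAut_coeffAutC, ← hτ] at h1
    exact h1

include hσ hσ' hτ in
/-- **(EQUIV)** for a reduction map characterised by (EVAL) in two charts covering all places. -/
theorem reduction_smul (z₁ z₂ : ↥(laurentBaseChange L (F₁ M 1)))
    (hz₁ : arithmeticGalois (F₁ M 1) σ • z₁ = z₁)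
    (hz₂ : arithmeticGalois (F₁ M 1) σ • z₂ = z₂)
    (r : Place L ↥(laurentBaseChange L (F₁ M 1)) →
      Place k ↥(F₁C k M 1))
    (hr₁ : ChartEval h z₁ r) (hr₂ : ChartEval h z₂ r)
    (hu₁ : ∀ P Q, GoodAt A M z₁ P → EvalAt h z₁ P Q → r P = Q)
    (hu₂ : ∀ P Q, GoodAt A M z₂ P → EvalAt h z₂ P Q → r P = Q)
    (hcover : ∀ P, GoodAt A M z₁ P ∨ GoodAt A M z₂ P)
    (P : Place L ↥(laurentBaseChange L (F₁ M 1))) :
    r (arithmeticGalois (F₁ M 1) σ • P) = coeffAutC k M τ • r P := by
  rcases hcover P with h1 | h2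
  · exact hu₁ _ _ (h1.smul σ hσ z₁ hz₁) (EvalAt.smul h σ hσ hσ' τ hτ z₁ hz₁ (hr₁ P h1))
  · exact hu₂ _ _ (h2.smul σ hσ z₂ hz₂) (EvalAt.smul h σ hσ hσ' τ hτ z₂ hz₂ (hr₂ P h2))

end Equiv

end

end Fermat.Agent.W1
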