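/-
W1 = [GRΓ1] (S48), package [SER] (helper7), part 1: the formal `q`-series of the `x`-coordinates of
the torsion points of the Tate curve, `Γ₁(M)`-normalisation at `∞`.

For `a : ZMod M`, `xPart R M a = ∑_{m > 0, m ≡ ± a (M)} ∑_{k ≥ 1} k q^{k m}` (the class `-a` counted
separately, so `a = -a` is counted twice), i.e. the coefficient of `q^n` is
`∑_{m ∣ n, m ≡ a} n / m + ∑_{m ∣ n, m ≡ -a} n / m`.  With Tate's
`X(u; q) = ∑_{n ∈ ℤ} q^n u / (1 - q^n u)² - 2 ∑_{n ≥ 1} q^n / (1 - q^n)²` (`= ℘ / (2πi)² - 1/12`):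
`X(q^a; q^M) = xPart a - xPart 0` for `0 < a < M`.

Main result (`eq_zero_of_sum_xPart_eq_zero`): a linear relation `∑_b w b • xPart b = 0` over ANY
commutative ring forces `w a + w (-a) = 0` for all `a` — the series `xPart a`, `a ∈ (ℤ/M)/±`, are
as independent as they can be, in every characteristic.  Consequence
(`xPart_sub_xPart_ne`): for units `d ≠ ± d'` of `ZMod M`, `6 ≤ M`, the differences
`xPart d - xPart (2d)` and `xPart d' - xPart (2d')` are different over every nontrivial ring: the
reductions modulo any prime of the conjugates `⟨d⟩ g`, `g = x(P) - x(2P)`, are pairwise distinct.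
-/
import Mathlib

set_option autoImplicit false

namespace Fermat.Agent.W1

open PowerSeries

section Defs

variable (M : ℕ)

/-- `∑_{m ∣ n, m ≡ a (M)} n / m`. -/
def xCoefHalf (a : ZMod M) (n : ℕ) : ℕ :=
  (n.divisors.filter fun m : ℕ => (m : ZMod M) = a).sum fun m => n / m

/-- the coefficient of `q^n` in `xPart a`. -/
def xCoef (a : ZMod M) (n : ℕ) : ℕ := xCoefHalf M a n + xCoefHalf M (-a) n

theorem xCoef_neg (a : ZMod M) (n : ℕ) : xCoef M (-a) n = xCoef M a n := by
  rw [xCoef, xCoef, neg_neg, add_comm]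

theorem xCoefHalf_zero (a : ZMod M) : xCoefHalf M a 0 = 0 := by
  simp [xCoefHalf]

theorem xCoef_zero (a : ZMod M) : xCoef M a 0 = 0 := by
  simp [xCoef, xCoefHalf_zero]

variable (R : Type*) [CommRing R]

/-- the series `∑_{m ≡ ± a} ∑_k k q^{km}` over `R`. -/
def xPart (a : ZMod M) : PowerSeries R := PowerSeries.mk fun n => (xCoef M a n : R)

@[simp] theorem coeff_xPart (a : ZMod M) (n : ℕ) :
    coeff n (xPart M R a) = (xCoef M a n : R) := coeff_mk _ _

theorem xPart_neg (a : ZMod M) : xPart M R (-a) = xPart M R a := by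
  ext n
  rw [coeff_xPart, coeff_xPart, xCoef_neg]

theorem constantCoeff_xPart (a : ZMod M) : constantCoeff (xPart M R a) = 0 := by
  rw [← coeff_zero_eq_constantCoeff_apply, coeff_xPart, xCoef_zero, Nat.cast_zero]

variable {R} {S : Type*} [CommRing S]

theorem map_xPart (φ : R →+* S) (a : ZMod M) :
    PowerSeries.map φ (xPart M R a) = xPart M S a := by
  ext n
  rw [coeff_map, coeff_xPart, coeff_xPart, map_natCast]

end Defs

section Independence

variable {M : ℕ} [NeZero M] {R : Type*} [CommRing R]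

/-- the coefficient of `q^n` in a linear combination of the `xPart b` only sees the symmetrised
weights at the divisors of `n`. -/
theorem coeff_sum_xPart (w : ZMod M → R) (n : ℕ) :
    coeff n (∑ b : ZMod M, C (w b) * xPart M R b) =
      ∑ m ∈ n.divisors, (w (m : ZMod M) + w (-(m : ZMod M))) * ((n / m : ℕ) : R) := by
  classical
  rw [map_sum]
  have h1 : ∀ b : ZMod M, coeff n (C (w b) * xPart M R b) =
      w b * ∑ m ∈ n.divisors, (if (m : ZMod M) = b then ((n / m : ℕ) : R) else 0) +
      w b * ∑ m ∈ n.divisors, (if (m : ZMod M) = -b then ((n / m : ℕ) : R) else 0) := by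
    intro b
    rw [coeff_C_mul, coeff_xPart, xCoef, xCoefHalf, xCoefHalf, Nat.cast_add, Nat.cast_sum,
      Nat.cast_sum, Finset.sum_filter, Finset.sum_filter, mul_add]
  simp_rw [h1]
  rw [Finset.sum_add_distrib]
  simp_rw [Finset.mul_sum]
  rw [Finset.sum_comm, Finset.sum_comm (s := (Finset.univ : Finset (ZMod M)))]
  rw [← Finset.sum_add_distrib]
  refine Finset.sum_congr rfl fun m _ => ?_
  have e1 : ∑ b : ZMod M, w b * (if (m : ZMod M) = b then ((n / m : ℕ) : R) else 0) =
      w (m : ZMod M) * ((n / m : ℕ) : R) := by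
    rw [Finset.sum_eq_single (m : ZMod M)]
    · rw [if_pos rfl]
    · intro b _ hb
      rw [if_neg (fun h => hb h.symm), mul_zero]
    · intro h
      exact absurd (Finset.mem_univ _) h
  have e2 : ∑ b : ZMod M, w b * (if (m : ZMod M) = -b then ((n / m : ℕ) : R) else 0) =
      w (-(m : ZMod M)) * ((n / m : ℕ) : R) := by
    rw [Finset.sum_eq_single (-(m : ZMod M))]
    · rw [if_pos (neg_neg _).symm]
    · intro b _ hb
      rw [if_neg (fun h => hb (by rw [h, neg_neg])), mul_zero]
    · intro h
      exact absurd (Finset.mem_univ _) h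
  rw [e1, e2, add_mul]

/-- **independence of the series `xPart a` modulo `a ↦ -a`, in every characteristic.** -/
theorem eq_zero_of_sum_xPart_eq_zero (w : ZMod M → R)
    (h : ∑ b : ZMod M, C (w b) * xPart M R b = 0) (a : ZMod M) : w a + w (-a) = 0 := by
  have key : ∀ v : ℕ, 0 < v → w (v : ZMod M) + w (-(v : ZMod M)) = 0 := by
    intro v
    induction v using Nat.strong_induction_on with
    | _ v ih =>
      intro hv
      have hc := coeff_sum_xPart w v
      rw [h, map_zero] at hc
      have hmem : v ∈ v.divisors := Nat.mem_divisors_self v hv.ne'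
      rw [← Finset.add_sum_erase _ _ hmem, Nat.div_self hv, Nat.cast_one, mul_one] at hc
      have hrest : ∑ m ∈ v.divisors.erase v,
          (w (m : ZMod M) + w (-(m : ZMod M))) * ((v / m : ℕ) : R) = 0 := by
        refine Finset.sum_eq_zero fun m hm => ?_
        rw [Finset.mem_erase] at hm
        have hmv : m ∣ v := Nat.dvd_of_mem_divisors hm.2
        have hm0 : 0 < m := Nat.pos_of_dvd_of_pos hmv hv
        have hlt : m < v := lt_of_le_of_ne (Nat.le_of_dvd hv hmv) hm.1
        rw [ih m hlt hm0, zero_mul]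
      rw [hrest, add_zero] at hc
      exact hc.symm
  -- every class is the class of a positive integer
  have hM : 0 < M := Nat.pos_of_ne_zero (NeZero.ne M)
  have h1 := key (a.val + M) (by omega)
  have e : ((a.val + M : ℕ) : ZMod M) = a := by
    rw [Nat.cast_add, ZMod.natCast_self, add_zero, ZMod.natCast_zmod_val]
  rwa [e] at h1

end Independence

section Application

variable {M : ℕ} [NeZero M] {R : Type*} [CommRing R]

/-- four-term combinations `xPart a - xPart b - xPart c + xPart e`. -/
theorem xPart_four_eq_sum (a b c e : ZMod M) :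
    xPart M R a - xPart M R b - xPart M R c + xPart M R e =
      ∑ x : ZMod M, C ((Pi.single a (1 : R) - Pi.single b 1 - Pi.single c 1 + Pi.single e 1 :
        ZMod M → R) x) * xPart M R x := by
  classical
  simp only [Pi.add_apply, Pi.sub_apply, map_add, map_sub, add_mul, sub_mul,
    Finset.sum_add_distrib, Finset.sum_sub_distrib]
  have hs : ∀ y : ZMod M, ∑ x : ZMod M, C ((Pi.single y (1 : R) : ZMod M → R) x) * xPart M R x =
      xPart M R y := by
    intro y
    rw [Finset.sum_eq_single y]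
    · rw [Pi.single_eq_same, map_one, one_mul]
    · intro x _ hx
      rw [Pi.single_eq_of_ne hx, map_zero, zero_mul]
    · intro h
      exact absurd (Finset.mem_univ _) h
  rw [hs, hs, hs, hs]

/-- **distinct reductions of the conjugates of `x(P) - x(2P)`**: for `d, d'` with
`d ≠ ± d'`, `2 d, 3 d, 2 d', 3 d' ≠ 0` and not both `2d = ± d'` and `2d' = ± d`, the
series `xPart d - xPart (2d)` and `xPart d' - xPart (2d')` are different. -/
theorem xPart_sub_xPart_ne_of [Nontrivial R] {d d' : ZMod M} (h1 : d ≠ d') (h2 : d ≠ -d')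
    (h2d : (2 : ZMod M) * d ≠ 0) (h2d' : (2 : ZMod M) * d' ≠ 0)
    (h3d : (3 : ZMod M) * d ≠ 0) (h3d' : (3 : ZMod M) * d' ≠ 0)
    (hAB : ¬ ((2 * d = d' ∨ 2 * d = -d') ∧ (2 * d' = d ∨ 2 * d' = -d))) :
    xPart M R d - xPart M R (2 * d) ≠ xPart M R d' - xPart M R (2 * d') := by
  classical
  intro heq
  have h0 : xPart M R d - xPart M R (2 * d) - xPart M R d' + xPart M R (2 * d') = 0 := by
    rw [heq]; ring
  rw [xPart_four_eq_sum] at h0
  have key := eq_zero_of_sum_xPart_eq_zero _ h0
  have hd : d ≠ 0 := fun h => h2d (by rw [h, mul_zero])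
  have hd' : d' ≠ 0 := fun h => h2d' (by rw [h, mul_zero])
  by_cases hA : 2 * d = d' ∨ 2 * d = -d'
  · -- then not B: look at the class of `d`
    have hB : ¬ (2 * d' = d ∨ 2 * d' = -d) := fun hB => hAB ⟨hA, hB⟩
    have k := key d
    simp only [Pi.add_apply, Pi.sub_apply, Pi.single_apply] at k
    have e1 : ¬ (d = 2 * d) := fun h => hd (by linear_combination (-1 : ZMod M) * h)
    have e2 : ¬ (d = d') := h1
    have e3 : ¬ (d = 2 * d') := fun h => hB (Or.inl h.symm)
    have e4 : ¬ (-d = d) := fun h => h2d (by linear_combination (-1 : ZMod M) * h)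
    have e5 : ¬ (-d = 2 * d) := fun h => h3d (by linear_combination (-1 : ZMod M) * h)
    have e6 : ¬ (-d = d') := fun h => h2 (by rw [← h, neg_neg])
    have e7 : ¬ (-d = 2 * d') := fun h => hB (Or.inr h.symm)
    simp [e1, e2, e3, e4, e5, e6, e7] at k
  · -- look at the class of `d'`
    have k := key d'
    simp only [Pi.add_apply, Pi.sub_apply, Pi.single_apply] at k
    have e1 : ¬ (d' = d) := fun h => h1 h.symm
    have e2 : ¬ (d' = 2 * d) := fun h => hA (Or.inl h.symm)
    have e3 : ¬ (d' = 2 * d') := fun h => hd' (by linear_combination (-1 : ZMod M) * h)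
    have e4 : ¬ (-d' = d) := fun h => h2 h.symm
    have e5 : ¬ (-d' = 2 * d) := fun h => hA (Or.inr h.symm)
    have e6 : ¬ (-d' = d') := fun h => h2d' (by linear_combination (-1 : ZMod M) * h)
    have e7 : ¬ (-d' = 2 * d') := fun h => h3d' (by linear_combination (-1 : ZMod M) * h)
    simp [e1, e2, e3, e4, e5, e6, e7] at k

/-- **distinct reductions of the conjugates `⟨d⟩ (x(P) - x(2P))`, `d ∈ (ℤ/M)ˣ/±1`, `6 ≤ M`.** -/
theorem xPart_sub_xPart_ne [Nontrivial R] (hM : 6 ≤ M) {d d' : ZMod M} (hd : IsUnit d) (hd' : IsUnit d')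
    (h1 : d ≠ d') (h2 : d ≠ -d') :
    xPart M R d - xPart M R (2 * d) ≠ xPart M R d' - xPart M R (2 * d') := by
  have hnat : ∀ k : ℕ, 0 < k → k < 6 → (k : ZMod M) ≠ 0 := by
    intro k hk hk6 h
    rw [ZMod.natCast_eq_zero_iff] at h
    have := Nat.le_of_dvd hk h
    omega
  have : Fact (1 < M) := ⟨by omega⟩
  have hu0 : ∀ {x : ZMod M}, IsUnit x → x ≠ 0 := fun hx => hx.ne_zero
  have hmul : ∀ {x : ZMod M} (k : ZMod M), IsUnit x → k * x = 0 → k = 0 := by
    intro x k hx h
    exact (hx.mul_left_eq_zero).mp h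
  have h3 : (3 : ZMod M) ≠ 0 := by
    have := hnat 3 (by norm_num) (by norm_num)
    exact_mod_cast this
  have h5 : (5 : ZMod M) ≠ 0 := by
    have := hnat 5 (by norm_num) (by norm_num)
    exact_mod_cast this
  have h2' : (2 : ZMod M) ≠ 0 := by
    have := hnat 2 (by norm_num) (by norm_num)
    exact_mod_cast this
  refine xPart_sub_xPart_ne_of h1 h2 (fun h => h2' (hmul 2 hd h)) (fun h => h2' (hmul 2 hd' h))
    (fun h => h3 (hmul 3 hd h)) (fun h => h3 (hmul 3 hd' h)) ?_
  rintro ⟨hA, hB⟩
  -- `d' = ± 2 d`, `d = ± 2 d'` ⇒ `(4 ∓ 1) d = 0`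
  rcases hA with hA | hA <;> rcases hB with hB | hB
  · exact h3 (hmul 3 hd (by rw [← hA] at hB; linear_combination hB))
  · exact h5 (hmul 5 hd (by rw [← hA] at hB; linear_combination hB))
  · have hd'' : d' = -(2 * d) := by rw [hA, neg_neg]
    exact h5 (hmul 5 hd (by rw [hd''] at hB; linear_combination (-1 : ZMod M) * hB))
  · have hd'' : d' = -(2 * d) := by rw [hA, neg_neg]
    exact h3 (hmul 3 hd (by rw [hd''] at hB; linear_combination (-1 : ZMod M) * hB))

end Application

end Fermat.Agent.W1
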