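/-
W1 = [GRΓ1] (S48), package [SER] (helper7), part 2: the formal Weber-type generators of the function
field of `X₁(M)` (normalisation with RATIONAL `q`-expansions at `∞`: the pair
`(𝔾_m / q^{Mℤ}, q)`), over an arbitrary commutative ring `R`.

* `weberMult R = E₄ E₆ / Δ ∈ q⁻¹ (1 + q R⟦q⟧)` (weight `-2`, a unit of `R((q))`),
  `weberMultM R M = (E₄ E₆ / Δ)(q^M)`;
* `gSer R M a a' = (E₄ E₆ / Δ)(q^M) · (X(q^a; q^M) - X(q^{a'}; q^M))`, `a a' : ZMod M`, where
  `X(q^a; q^M) - X(q^{a'}; q^M) = xPart a - xPart a'` (part 1) — coefficients in the prime ring;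
* `fSer R M a = (E₄ E₆ / Δ)(q^M) · (X(q^a; q^M) + 1/12)` for a `ℚ`-algebra `R`
  (`= (E₄ E₆ / Δ)(Mτ) ℘(aτ; ⟨1, Mτ⟩) / (2πi)²`), meant for `a ≠ 0`;
* functoriality in `R` (`coeffMap`), the diamond action is the action of `(ZMod M)ˣ` on the
  indices, and `gSer_ne_gSer`: the conjugates `gSer R M d (2d)`, `d ∈ (ZMod M)ˣ / ±1`, are
  pairwise distinct over EVERY nontrivial ring (`6 ≤ M`).
-/
import Fermat.Agent.W1.SER_helper7_XPart
import Fermat.Agent.S16.L1_helper1_Int
import Fermat.Agent.Igusa.A_helper2_Twist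

set_option autoImplicit false

noncomputable section

namespace Fermat.Agent.W1

open ModularCurve HahnSeries

section Mult

variable (R : Type*) [CommRing R] {S : Type*} [CommRing S]

/-- `E₄ E₆` over `ℤ`. -/
def e46Z : PowerSeries ℤ := Fermat.Agent.S16.E4Z * Fermat.Agent.S16.E6Z

theorem constantCoeff_e46Z : PowerSeries.constantCoeff e46Z = 1 := by
  rw [e46Z, map_mul, Fermat.Agent.S16.constantCoeff_E4Z, Fermat.Agent.S16.constantCoeff_E6Z,
    mul_one]

/-- `(E₄ E₆)⁻¹` over `ℤ`. -/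
def e46ZInv : PowerSeries ℤ := e46Z.invOfUnit 1

theorem e46Z_mul_inv : e46Z * e46ZInv = 1 :=
  PowerSeries.mul_invOfUnit _ _ (by rw [constantCoeff_e46Z]; rfl)

/-- `E₄ E₆` over `R`. -/
def e46Ser : LaurentSeries R := HahnSeries.ofPowerSeries ℤ R (e46Z.map (Int.castRingHom R))

/-- `(E₄ E₆)⁻¹` over `R`. -/
def e46InvSer : LaurentSeries R := HahnSeries.ofPowerSeries ℤ R (e46ZInv.map (Int.castRingHom R))

theorem e46Ser_mul_e46InvSer : e46Ser R * e46InvSer R = 1 := by
  rw [e46Ser, e46InvSer, ← map_mul, ← map_mul, e46Z_mul_inv, map_one, map_one]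

variable {R} in
theorem coeffMap_e46Ser (φ : R →+* S) : coeffMap φ (e46Ser R) = e46Ser S := by
  rw [e46Ser, coeffMap_ofPowerSeries,
    ← RingHom.comp_apply (PowerSeries.map φ) (PowerSeries.map (Int.castRingHom R)),
    ← PowerSeries.map_comp, RingHom.ext_int (φ.comp (Int.castRingHom R)) (Int.castRingHom S)]
  rfl

variable {R} in
theorem coeffMap_e46InvSer (φ : R →+* S) : coeffMap φ (e46InvSer R) = e46InvSer S := by
  rw [e46InvSer, coeffMap_ofPowerSeries,
    ← RingHom.comp_apply (PowerSeries.map φ) (PowerSeries.map (Int.castRingHom R)),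
    ← PowerSeries.map_comp, RingHom.ext_int (φ.comp (Int.castRingHom R)) (Int.castRingHom S)]
  rfl

/-- the formal `E₄ E₆ / Δ = q⁻¹ + …` over `R` (weight `-2`). -/
def weberMult : LaurentSeries R := e46Ser R * Igusa.deltaInvSer R

/-- the formal `Δ / (E₄ E₆)` over `R`. -/
def weberMultInv : LaurentSeries R := e46InvSer R * Igusa.deltaSer R

theorem weberMult_mul_weberMultInv : weberMult R * weberMultInv R = 1 := by
  rw [weberMult, weberMultInv, mul_mul_mul_comm, e46Ser_mul_e46InvSer, one_mul,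
    mul_comm, Igusa.deltaSer_mul_deltaInvSer]

theorem isUnit_weberMult : IsUnit (weberMult R) :=
  IsUnit.of_mul_eq_one _ (weberMult_mul_weberMultInv R)

variable {R} in
theorem coeffMap_weberMult (φ : R →+* S) : coeffMap φ (weberMult R) = weberMult S := by
  rw [weberMult, map_mul, coeffMap_e46Ser, Igusa.coeffMap_deltaInvSer, weberMult]

variable {R} in
theorem coeffMap_weberMultInv (φ : R →+* S) : coeffMap φ (weberMultInv R) = weberMultInv S := by
  rw [weberMultInv, map_mul, coeffMap_e46InvSer, Igusa.coeffMap_deltaSer, weberMultInv]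

/-- `single 1 1 * weberMult` is a one-unit: `E₄ E₆ / Δ = q⁻¹ (1 + …)`. -/
theorem isOneUnit_single_mul_weberMult :
    Igusa.IsOneUnit (HahnSeries.single (1 : ℤ) (1 : R) * weberMult R) := by
  have h1 : Igusa.IsOneUnit (e46Ser R) := by
    apply Igusa.isOneUnit_ofPowerSeries
    rw [← PowerSeries.coeff_zero_eq_constantCoeff, PowerSeries.coeff_map,
      PowerSeries.coeff_zero_eq_constantCoeff, constantCoeff_e46Z]
    simp
  have h2 : HahnSeries.single (1 : ℤ) (1 : R) * weberMult R =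
      e46Ser R * Igusa.etaUnitInvSer R := by
    rw [weberMult, Igusa.deltaInvSer, mul_left_comm, ← mul_assoc (HahnSeries.single (1 : ℤ) (1 : R)),
      HahnSeries.single_mul_single]
    simp
  rw [h2]
  exact h1.mul (Igusa.isOneUnit_etaUnitInvSer R)

variable (M : ℕ) [NeZero M]

/-- `(E₄ E₆ / Δ)(q^M)`. -/
def weberMultM : LaurentSeries R := qExpand R M (weberMult R)

theorem isUnit_weberMultM : IsUnit (weberMultM R M) := (isUnit_weberMult R).map (qExpand R M)

variable {R} in
theorem coeffMap_weberMultM (φ : R →+* S) : coeffMap φ (weberMultM R M) = weberMultM S M := by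
  rw [weberMultM, coeffMap_qExpand, coeffMap_weberMult, weberMultM]

end Mult

section Gen

variable (R : Type*) [CommRing R] {S : Type*} [CommRing S] (M : ℕ) [NeZero M]

/-- the formal series of
`(E₄ E₆ / Δ)(Mτ) · (℘(aτ; ⟨1, Mτ⟩) - ℘(a'τ; ⟨1, Mτ⟩)) / (2πi)²`: coefficients in the prime ring,
pole of order `< M` at `q = 0`. -/
def gSer (a a' : ZMod M) : LaurentSeries R :=
  weberMultM R M * HahnSeries.ofPowerSeries ℤ R (xPart M R a - xPart M R a')

variable {R} in
theorem coeffMap_gSer (φ : R →+* S) (a a' : ZMod M) :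
    coeffMap φ (gSer R M a a') = gSer S M a a' := by
  rw [gSer, map_mul, coeffMap_weberMultM, coeffMap_ofPowerSeries, map_sub, map_xPart, map_xPart,
    gSer]

theorem gSer_neg_left (a a' : ZMod M) : gSer R M (-a) a' = gSer R M a a' := by
  rw [gSer, gSer, xPart_neg]

theorem gSer_neg_right (a a' : ZMod M) : gSer R M a (-a') = gSer R M a a' := by
  rw [gSer, gSer, xPart_neg]

theorem gSer_self (a : ZMod M) : gSer R M a a = 0 := by
  rw [gSer, sub_self, map_zero, mul_zero]

theorem gSer_swap (a a' : ZMod M) : gSer R M a' a = -gSer R M a a' := by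
  rw [gSer, gSer, ← mul_neg, ← map_neg, neg_sub]

theorem gSer_add_gSer (a b c : ZMod M) : gSer R M a b + gSer R M b c = gSer R M a c := by
  rw [gSer, gSer, gSer, ← mul_add, ← map_add, sub_add_sub_cancel]

/-- **the conjugates `⟨d⟩ g`, `g = g_{1,2}`, are pairwise distinct over every nontrivial ring**
(in particular modulo every prime), `6 ≤ M`. -/
theorem gSer_ne_gSer [Nontrivial R] (hM : 6 ≤ M) {d d' : ZMod M} (hd : IsUnit d)
    (hd' : IsUnit d') (h1 : d ≠ d') (h2 : d ≠ -d') :
    gSer R M d (2 * d) ≠ gSer R M d' (2 * d') := by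
  intro h
  rw [gSer, gSer] at h
  have h3 := (isUnit_weberMultM R M).mul_right_injective h
  exact xPart_sub_xPart_ne hM hd hd' h1 h2 (HahnSeries.ofPowerSeries_injective h3)

theorem gSer_ne_zero [Nontrivial R] (hM : 6 ≤ M) {d : ZMod M} (hd : IsUnit d) :
    gSer R M d (2 * d) ≠ 0 := by
  intro h
  rw [gSer] at h
  have h3 : HahnSeries.ofPowerSeries ℤ R (xPart M R d - xPart M R (2 * d)) = 0 :=
    (isUnit_weberMultM R M).mul_right_injective
      (by show weberMultM R M * _ = weberMultM R M * 0; rw [h, mul_zero])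
  rw [map_eq_zero_iff _ HahnSeries.ofPowerSeries_injective] at h3
  -- `xPart d = xPart (2 d)`: compare with the relation `[d] - [2d] = 0`
  classical
  have h0 : xPart M R d - xPart M R (2 * d) - xPart M R 0 + xPart M R 0 = 0 := by
    rw [h3]; ring
  rw [xPart_four_eq_sum] at h0
  have key := eq_zero_of_sum_xPart_eq_zero _ h0 d
  have : Fact (1 < M) := ⟨by omega⟩
  have hnat : ∀ k : ℕ, 0 < k → k < 6 → (k : ZMod M) ≠ 0 := by
    intro k hk hk6 h
    rw [ZMod.natCast_eq_zero_iff] at h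
    have := Nat.le_of_dvd hk h
    omega
  have hmul : ∀ (k : ZMod M), k * d = 0 → k = 0 := fun k h => (hd.mul_left_eq_zero).mp h
  have h2' : (2 : ZMod M) ≠ 0 := by
    have := hnat 2 (by norm_num) (by norm_num)
    exact_mod_cast this
  have h3' : (3 : ZMod M) ≠ 0 := by
    have := hnat 3 (by norm_num) (by norm_num)
    exact_mod_cast this
  have hd0 : d ≠ 0 := hd.ne_zero
  have e1 : ¬ (d = 2 * d) := fun h => hd0 (by linear_combination (-1 : ZMod M) * h)
  have e2 : ¬ (d = 0) := hd0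
  have e4 : ¬ (-d = d) := fun h => h2' (hmul 2 (by linear_combination (-1 : ZMod M) * h))
  have e5 : ¬ (-d = 2 * d) := fun h => h3' (hmul 3 (by linear_combination (-1 : ZMod M) * h))
  have e6 : ¬ (-d = 0) := fun h => hd0 (neg_eq_zero.mp h)
  simp [e1, e2, e4, e5, e6] at key

end Gen

section FSer

variable (R : Type*) [CommRing R] [Algebra ℚ R] {S : Type*} [CommRing S] [Algebra ℚ S]
  (M : ℕ) [NeZero M]

/-- the formal series of `(E₄ E₆ / Δ)(Mτ) · ℘(aτ; ⟨1, Mτ⟩) / (2πi)²`
(`= (E₄E₆/Δ)(q^M) (X(q^a; q^M) + 1/12)`), meant for `a ≠ 0`. -/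
def fSer (a : ZMod M) : LaurentSeries R :=
  weberMultM R M * (HahnSeries.ofPowerSeries ℤ R (xPart M R a - xPart M R 0) +
    HahnSeries.C (algebraMap ℚ R (1 / 12)))

theorem fSer_sub_fSer (a a' : ZMod M) : fSer R M a - fSer R M a' = gSer R M a a' := by
  rw [fSer, fSer, gSer, ← mul_sub, add_sub_add_right_eq_sub, ← map_sub, sub_sub_sub_cancel_right]

theorem fSer_neg (a : ZMod M) : fSer R M (-a) = fSer R M a := by
  rw [fSer, fSer, xPart_neg]

variable {R} in
theorem coeffMap_fSer (φ : R →+* S) (hφ : ∀ c : ℚ, φ (algebraMap ℚ R c) = algebraMap ℚ S c)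
    (a : ZMod M) : coeffMap φ (fSer R M a) = fSer S M a := by
  have hC : coeffMap φ (HahnSeries.C (algebraMap ℚ R (1 / 12))) =
      HahnSeries.C (algebraMap ℚ S (1 / 12)) := by
    rw [Igusa.coeffMap_C, hφ]
  rw [fSer, map_mul, coeffMap_weberMultM, map_add, coeffMap_ofPowerSeries, map_sub, map_xPart,
    map_xPart, hC, fSer]

end FSer

end Fermat.Agent.W1
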