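/-
W1 = [GRΓ1] (S48), package [TOP1] (helper9), part 2 (port of `GR/TOP_lead_System`): from the
stage-(I) data on `J = J₁ M` (the structure `StageIData₁`) the Galois representation on
`P = parabolicHoms ℤ_[p] (±Γ₁(M)) ℤ_[p]`: it commutes with all the Hecke operators `heckeParI M i`,
complex conjugation acts by `-ι`, it is continuous, unramified outside `M p`, and
`ρ(Frob_q)² − T_q ρ(Frob_q) + q ⟨q⟩ = 0` for ALL Frobenius elements at `q ∤ M p`.
-/
import Fermat.Agent.W1.MULT1_helper2_Field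
import Fermat.Agent.GR.TATE_lead_Gal
import Fermat.Agent.GR.TOP_lead_System
import Fermat.Agent.DS48.HECKE1_lead_Forms

set_option autoImplicit false
set_option linter.unusedSectionVars false
set_option linter.unusedVariables false
set_option linter.style.haveILetI false

namespace Fermat.Agent.W1

open CongruenceSubgroup ModularCurve ModularCurve.Period Polynomial Fermat.Agent.GR
  Fermat.Agent.W1.ES

open scoped MatrixGroups

local notation "Ω" => AlgebraicClosure ℚ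
local notation "GQ" => (AlgebraicClosure ℚ ≃ₐ[ℚ] AlgebraicClosure ℚ)

/-- the quadratic relation with an additional operator in the constant term: if
`σ² x − T (σ x) + q S x = 0` on `p`-power torsion then `ρ(σ)² − T^P ρ(σ) + q S^P = 0` on `P`. -/
theorem KapData.rho_quadratic_dia {J : Type*} [AddCommGroup J] {Γ : Subgroup SL(2, ℤ)} {p : ℕ}
    [hp : Fact p.Prime] {G : Type*} [Group G] [DistribMulAction G J] (D : KapData J Γ p)
    (σ : G) (T S : AddMonoid.End J) (q : ℕ)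
    (h : ∀ x : J, (∃ n : ℕ, p ^ n • x = 0) → σ • σ • x - T (σ • x) + q • S x = 0) :
    D.rho σ * D.rho σ - D.transport T * D.rho σ +
      (q : Module.End ℤ_[p] _) * D.transport S = 0 := by
  have h1 : D.rho σ * D.rho σ - D.transport T * D.rho σ +
      (q : Module.End ℤ_[p] _) * D.transport S =
      D.transport (DistribMulAction.toAddMonoidEnd G J σ * DistribMulAction.toAddMonoidEnd G J σ -
        T * DistribMulAction.toAddMonoidEnd G J σ + (q : AddMonoid.End J) * S) := by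
    rw [map_add, map_sub, map_mul D.transport, map_mul D.transport, map_mul D.transport,
      map_natCast]
    rfl
  rw [h1]
  apply D.transport_eq_zero
  intro x hx
  have := h x hx
  show (DistribMulAction.toAddMonoidEnd G J σ) ((DistribMulAction.toAddMonoidEnd G J σ) x) -
    T ((DistribMulAction.toAddMonoidEnd G J σ) x) + (q : AddMonoid.End J) (S x) = 0
  rw [AddMonoid.End.natCast_apply]
  exact this

/-- **the stage-(I) data** on `J = J₁ M` at the prime `p`: the Kummer pairing data, the operators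
`Op i` on `J` (`i = inl ℓ`: the swapped Hecke correspondence `T'_ℓ = β_* α^*`; `i = inr d`: the
diamond operator matching `diamondGrp d`), complex conjugation, and the Eichler–Shimura congruence
`Frob² − T'_ℓ Frob + ℓ ⟨ℓ⟩ = 0`. -/
structure StageIData₁ (M : ℕ) [NeZero M] (p : ℕ) [Fact p.Prime] where
  /-- the Kummer pairing data (inj), (par), (sur), (compat) -/
  D : KapData (J₁ M) (Gpm M 1) p
  /-- the Hecke correspondences and the diamond operators on `J` -/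
  Op : HIdx M → (J₁ M →+ J₁ M)
  /-- (hecke) -/
  hecke : ∀ (i : HIdx M) (k : ℕ) (x : ↥(torsionNat (J₁ M) (p ^ k))),
    D.kap k (torsionNat.map (p ^ k) (Op i) x) = heckeGrpI M i (ZMod (p ^ k)) (D.kap k x)
  /-- (gal) -/
  gal : ∀ (i : HIdx M) (σ : GQ) (x : J₁ M), Op i (σ • x) = σ • Op i x
  /-- (conj) -/
  c0 : GQ
  conj : ∀ (k : ℕ) (x : ↥(torsionNat (J₁ M) (p ^ k))),
    D.kap k (torsionNat.map (p ^ k) (DistribMulAction.toAddMonoidEnd GQ (J₁ M) c0) x) =
      -charInvolutionΓ (Gpm M 1) ℤ (ZMod (p ^ k)) (D.kap k x)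
  /-- every point is defined over a finite extension -/
  fix : ∀ x : J₁ M, ∃ L : IntermediateField ℚ Ω, FiniteDimensional ℚ L ∧
      ∀ σ : GQ, (∀ a ∈ L, σ a = a) → σ • x = x
  /-- the Eichler–Shimura clauses -/
  clause : ∀ ℓ : ℕ, (hℓ : ℓ.Prime) → (hℓMp : ¬ ℓ ∣ M * p) →
      ∀ A : ValuationSubring Ω, A.LiesOverPrime ℓ →
        ∃ (Mod : Type) (_ : AddCommGroup Mod) (red : J₁ M →+ Mod) (Fr : Mod →+ Mod) (σ₀ : GQ),
          A.IsFrobeniusAt σ₀ ℓ ∧
          (∀ σ ∈ A.inertiaSubgroupIn ℚ, ∀ x : J₁ M, red (σ • x) = red x) ∧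
          (∀ σ : GQ, A.IsFrobeniusAt σ ℓ → ∀ x : J₁ M, red (σ • x) = Fr (red x)) ∧
          (∀ x : J₁ M,
            red (σ₀ • σ₀ • x - Op (Sum.inl ⟨ℓ, hℓ⟩) (σ₀ • x) +
              ℓ • Op (Sum.inr (DS48.primeUnit M hℓ
                (fun h => hℓMp (Dvd.dvd.mul_right h p)))) x) = 0) ∧
          (∀ x : J₁ M, (∃ n : ℕ, p ^ n • x = 0) → red x = 0 → x = 0)

namespace StageIData₁

variable {M : ℕ} [NeZero M] {p : ℕ} [hp : Fact p.Prime] (I : StageIData₁ M p)

include I in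
/-- inertia at `q ∤ Mp` acts trivially on `p`-power torsion -/
theorem inertia_smul_eq {q : ℕ} (hq : q.Prime) (hqMp : ¬ q ∣ M * p) {A : ValuationSubring Ω}
    (hA : A.LiesOverPrime q) {σ : GQ} (hσ : σ ∈ A.inertiaSubgroupIn ℚ) {x : J₁ M}
    (hx : ∃ n : ℕ, p ^ n • x = 0) : σ • x = x := by
  obtain ⟨Mod, _, red, Fr, σ₀, hσ₀, hE1, hE2, hE3, hE4⟩ := I.clause q hq hqMp A hA
  rw [← sub_eq_zero]
  apply hE4
  · rw [sub_eq_add_neg]
    exact isTorsion_add (isTorsion_smul σ hx) (isTorsion_neg hx)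
  · rw [map_sub, hE1 σ hσ x, sub_self]

/-- Frobenius elements at `q ∤ Mp` satisfy the Eichler–Shimura relation on `p`-power torsion -/
theorem frobenius_quadratic {q : ℕ} (hq : q.Prime) (hqMp : ¬ q ∣ M * p)
    {A : ValuationSubring Ω} (hA : A.LiesOverPrime q) {σ : GQ} (hσ : A.IsFrobeniusAt σ q)
    {x : J₁ M} (hx : ∃ n : ℕ, p ^ n • x = 0) :
    σ • σ • x - I.Op (Sum.inl ⟨q, hq⟩) (σ • x) +
      q • I.Op (Sum.inr (DS48.primeUnit M hq (fun h => hqMp (Dvd.dvd.mul_right h p)))) x = 0 := by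
  obtain ⟨Mod, _, red, Fr, σ₀, hσ₀, hE1, hE2, hE3, hE4⟩ := I.clause q hq hqMp A hA
  apply hE4
  · refine isTorsion_add ?_ (isTorsion_nsmul q (isTorsion_map _ hx))
    rw [sub_eq_add_neg]
    exact isTorsion_add (isTorsion_smul σ (isTorsion_smul σ hx))
      (isTorsion_neg (isTorsion_map _ (isTorsion_smul σ hx)))
  · have h3 := hE3 x
    rw [map_add, map_sub, hE2 σ₀ hσ₀, hE2 σ₀ hσ₀, map_nsmul] at h3
    rw [map_add, map_sub, hE2 σ hσ, hE2 σ hσ, map_nsmul]
    have h4 : red (I.Op (Sum.inl ⟨q, hq⟩) (σ • x)) = red (I.Op (Sum.inl ⟨q, hq⟩) (σ₀ • x)) := by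
      rw [I.gal _ σ x, I.gal _ σ₀ x, hE2 σ hσ, hE2 σ₀ hσ₀]
    rw [h4]
    exact h3

/-- the representation on `P` -/
noncomputable def rhoP : GQ →* Module.End ℤ_[p] ↥(parabolicHoms ℤ_[p] (Gpm M 1) ℤ_[p]) :=
  I.D.rho

theorem transport_Op (i : HIdx M) :
    I.D.transport (I.Op i) = heckeParI M i ℤ_[p] ℤ_[p] := by
  apply LinearMap.ext
  intro ψ
  apply Subtype.ext
  exact I.D.transport_eq_of_intertwine (I.Op i)
    (fun k => heckeGrpI M i (ZMod (p ^ k))) (heckeGrpI M i ℤ_[p])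
    (fun k x => I.hecke i k x)
    (fun k ψ => (heckeGrpI_comp M i _ ψ).symm) ψ

theorem rhoP_comm (σ : GQ) (i : HIdx M) :
    I.rhoP σ * heckeParI M i ℤ_[p] ℤ_[p] = heckeParI M i ℤ_[p] ℤ_[p] * I.rhoP σ := by
  rw [← I.transport_Op i]
  exact (I.D.transport_comm_rho (I.Op i) σ (fun x => I.gal i σ x)).symm

/-- complex conjugation acts by `-ι` on `P`. -/
theorem rhoP_c0_apply (ψ : ↥(parabolicHoms ℤ_[p] (Gpm M 1) ℤ_[p])) :
    (I.rhoP I.c0 ψ).1 = -charInvolutionΓ (Gpm M 1) ℤ_[p] ℤ_[p] ψ.1 := by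
  have h := I.D.transport_eq_of_intertwine (DistribMulAction.toAddMonoidEnd GQ (J₁ M) I.c0)
    (fun k ψ => -charInvolutionΓ (Gpm M 1) ℤ (ZMod (p ^ k)) ψ)
    (fun ψ => -charInvolutionΓ (Gpm M 1) ℤ ℤ_[p] ψ)
    (fun k x => I.conj k x) (fun k ψ => by
      refine AddMonoidHom.ext fun γ => ?_
      show PadicInt.toZModPow k (-(ψ (Additive.ofMul (jConjΓ (Gpm M 1) (Additive.toMul γ))))) =
        -(PadicInt.toZModPow k (ψ (Additive.ofMul (jConjΓ (Gpm M 1) (Additive.toMul γ)))))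
      exact map_neg _ _) ψ
  show (I.D.rho I.c0 ψ).1 = -charInvolutionΓ (Gpm M 1) ℤ_[p] ℤ_[p] ψ.1
  rw [KapData.rho_eq_transport, h]
  rfl

theorem rhoP_continuous (k : ℕ) :
    ∃ L : IntermediateField ℚ Ω, FiniteDimensional ℚ L ∧
      ∀ σ : GQ, (∀ x ∈ L, σ x = x) →
        ∀ ψ : ↥(parabolicHoms ℤ_[p] (Gpm M 1) ℤ_[p]),
          ∃ ψ' : ↥(parabolicHoms ℤ_[p] (Gpm M 1) ℤ_[p]),
            I.rhoP σ ψ - ψ = (p : ℤ_[p]) ^ k • ψ' :=
  I.D.rho_continuous I.fix k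

theorem rhoP_inertia {q : ℕ} (hq : q.Prime) (hqMp : ¬ q ∣ M * p) {A : ValuationSubring Ω}
    (hA : A.LiesOverPrime q) {σ : GQ} (hσ : σ ∈ A.inertiaSubgroupIn ℚ) : I.rhoP σ = 1 :=
  I.D.rho_eq_one σ (fun x hx => I.inertia_smul_eq hq hqMp hA hσ hx)

theorem rhoP_quadratic {q : ℕ} (hq : q.Prime) (hqMp : ¬ q ∣ M * p)
    {A : ValuationSubring Ω} (hA : A.LiesOverPrime q) {σ : GQ} (hσ : A.IsFrobeniusAt σ q) :
    I.rhoP σ * I.rhoP σ - heckeParI M (Sum.inl ⟨q, hq⟩) ℤ_[p] ℤ_[p] * I.rhoP σ +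
      (q : Module.End ℤ_[p] ↥(parabolicHoms ℤ_[p] (Gpm M 1) ℤ_[p])) *
        heckeParI M (Sum.inr (DS48.primeUnit M hq (fun h => hqMp (Dvd.dvd.mul_right h p))))
          ℤ_[p] ℤ_[p] = 0 := by
  rw [← I.transport_Op (Sum.inl ⟨q, hq⟩), ← I.transport_Op (Sum.inr _)]
  exact KapData.rho_quadratic_dia I.D σ (I.Op (Sum.inl ⟨q, hq⟩)) (I.Op (Sum.inr _)) q
    (fun x hx => I.frobenius_quadratic hq hqMp hA hσ hx)

end StageIData₁

end Fermat.Agent.W1
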