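/-
W1 = [GRΓ1] (S48), package [WEB4] (helper9), part 1: the weight-4 Eisenstein-type series
`gFun M a τ = ∑_{(c,d) ∈ ℤ², c ≡ a (M)} (cτ + d)⁻⁴` (`= ℘''`-values at the torsion points
`aτ` of `ℂ/⟨1, Mτ⟩`, up to a constant).  It is the weighted series `eisW` of
`GR/EIS_helper9_Weighted` for the indicator weight of the class `a`, hence holomorphic, with
`gFun M a ∣[4] σ = gFun M (a · σ₀₀)` for `σ ∈ Γ₀(M)`, bounded at every cusp:
a modular form of weight `4` for `Γ₁(M)` (and for `± Γ₁(M)`).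
-/
import Fermat.Agent.W1.Defs_helper9
import Fermat.Agent.GR.EIS_helper9_Weighted
import Fermat.Agent.RatStr.Laurent_helper1

set_option autoImplicit false

open UpperHalfPlane EisensteinSeries ModularForm Complex Filter Matrix ModularGroup Topology
  CongruenceSubgroup
open scoped MatrixGroups Manifold

namespace Fermat.Agent.W1

open Fermat.Agent.GR Fermat.Agent.RatStr

noncomputable section

/-- the indicator weight of the class `v 0 ≡ a (M)`. -/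
def wA (M : ℕ) (a : ZMod M) (v : Fin 2 → ℤ) : ℂ :=
  if ((v 0 : ℤ) : ZMod M) = a then 1 else 0

theorem norm_wA_le (M : ℕ) (a : ZMod M) (v : Fin 2 → ℤ) : ‖wA M a v‖ ≤ 1 := by
  unfold wA
  split_ifs <;> simp

/-- `∑_{(c,d), c ≡ a (M)} (cτ + d)⁻⁴`. -/
def gFun (M : ℕ) (a : ZMod M) : ℍ → ℂ := eisW (wA M a) 4

theorem mdiff_gFun (M : ℕ) (a : ZMod M) : MDiff (gFun M a) :=
  mdiff_eisW (norm_wA_le M a) (by norm_num)

/-- the first coordinate of `v · σ⁻¹` modulo `M`, for `σ ∈ Γ₀(M)`. -/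
theorem vecMul_inv_zero_cast {M : ℕ} {σ : SL(2, ℤ)} (hσ : σ ∈ Gamma0 M) (v : Fin 2 → ℤ) :
    (((v ᵥ* ((σ⁻¹ : SL(2, ℤ)) : Matrix (Fin 2) (Fin 2) ℤ)) 0 : ℤ) : ZMod M) =
      ((v 0 : ℤ) : ZMod M) * ((σ 1 1 : ℤ) : ZMod M) := by
  rw [Gamma0_mem] at hσ
  rw [Matrix.SpecialLinearGroup.SL2_inv_expl σ]
  simp only [vecMul, dotProduct, Fin.sum_univ_two, Matrix.cons_val', Matrix.cons_val_zero,
    Matrix.cons_val_one, Matrix.cons_val_fin_one]
  push_cast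
  rw [hσ]
  ring

theorem diag_mul_cast {M : ℕ} {σ : SL(2, ℤ)} (hσ : σ ∈ Gamma0 M) :
    ((σ 0 0 : ℤ) : ZMod M) * ((σ 1 1 : ℤ) : ZMod M) = 1 := by
  rw [Gamma0_mem] at hσ
  have hdet : σ 0 0 * σ 1 1 - σ 0 1 * σ 1 0 = 1 := by
    have := σ.det_coe
    rw [Matrix.det_fin_two] at this
    exact this
  have := congrArg (Int.cast : ℤ → ZMod M) hdet
  push_cast at this
  rw [hσ, mul_zero, sub_zero] at this
  exact this

/-- **the slash formula**: `σ ∈ Γ₀(M)` permutes the `gFun M a` by `a ↦ a · σ₀₀`. -/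
theorem gFun_slash {M : ℕ} (a : ZMod M) {σ : SL(2, ℤ)} (hσ : σ ∈ Gamma0 M) :
    gFun M a ∣[(4 : ℤ)] σ = gFun M (a * ((σ 0 0 : ℤ) : ZMod M)) := by
  rw [gFun, eisW_slash, gFun]
  congr 1
  funext v
  unfold wA
  rw [vecMul_inv_zero_cast hσ]
  have h1 := diag_mul_cast hσ
  have hiff : ((v 0 : ℤ) : ZMod M) * ((σ 1 1 : ℤ) : ZMod M) = a ↔
      ((v 0 : ℤ) : ZMod M) = a * ((σ 0 0 : ℤ) : ZMod M) := by
    constructor
    · intro h
      rw [← h, mul_assoc, mul_comm ((σ 1 1 : ℤ) : ZMod M), h1, mul_one]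
    · intro h
      rw [h, mul_assoc, h1, mul_one]
  exact if_congr hiff rfl rfl

theorem gFun_slash_of_mem_Gamma1 {M : ℕ} (a : ZMod M) {σ : SL(2, ℤ)} (hσ : σ ∈ Gamma1 M) :
    gFun M a ∣[(4 : ℤ)] σ = gFun M a := by
  have h0 : σ ∈ Gamma0 M := by
    rw [Gamma1_mem] at hσ
    rw [Gamma0_mem]
    exact hσ.2.2
  rw [gFun_slash a h0]
  rw [Gamma1_mem] at hσ
  rw [hσ.1, mul_one]

/-- `gFun M (-a) = gFun M a` (the weight is even). -/
theorem gFun_neg (M : ℕ) (a : ZMod M) : gFun M (-a) = gFun M a := by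
  funext z
  rw [gFun, gFun, eisW, eisW, ← (Equiv.neg (Fin 2 → ℤ)).tsum_eq]
  refine tsum_congr fun v => ?_
  have h1 : wA M (-a) ((Equiv.neg (Fin 2 → ℤ)) v) = wA M a v := by
    unfold wA
    have : (((Equiv.neg (Fin 2 → ℤ)) v 0 : ℤ) : ZMod M) = -((v 0 : ℤ) : ZMod M) := by
      simp
    rw [this]
    exact if_congr neg_inj rfl rfl
  have h2 : eisSummand 4 ((Equiv.neg (Fin 2 → ℤ)) v) z = eisSummand 4 v z := by
    simp only [eisSummand, Equiv.neg_apply, Pi.neg_apply, Int.cast_neg]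
    have : -((v 0 : ℤ) : ℂ) * (z : ℂ) + -((v 1 : ℤ) : ℂ) = -(((v 0 : ℤ) : ℂ) * (z : ℂ) + ((v 1 : ℤ) : ℂ)) := by
      ring
    rw [this]
    have h4 : Even (-4 : ℤ) := ⟨-2, by norm_num⟩
    exact h4.neg_zpow _
  rw [h1, h2]

theorem slash_neg_one_even {k : ℤ} (hk : Even k) (F : ℍ → ℂ) :
    F ∣[k] (-1 : SL(2, ℤ)) = F := by
  funext z
  rw [SL_slash_apply]
  have h1 : ((-1 : SL(2, ℤ)) • z : ℍ) = z := by
    have : (-1 : SL(2, ℤ)) • z = (1 : SL(2, ℤ)) • z := ModularGroup.SL_neg_smul 1 z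
    rw [this, one_smul]
  have h2 : denom ((-1 : SL(2, ℤ)) : GL (Fin 2) ℝ) z = -1 := by
    rw [denom_apply (-1 : SL(2, ℤ)) z]
    simp
  rw [h1, h2]
  have : ((-1 : ℂ)) ^ (-k) = 1 := (hk.neg).neg_one_zpow
  rw [this, mul_one]

/-- invariance under `± Γ₁(M)`. -/
theorem gFun_slash_of_mem_Gpm {M L : ℕ} (a : ZMod M) {σ : SL(2, ℤ)} (hσ : σ ∈ Gpm M L) :
    gFun M a ∣[(4 : ℤ)] σ = gFun M a := by
  rcases hσ with h | h
  · exact gFun_slash_of_mem_Gamma1 a (mem_GammaML.mp h).1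
  · have h1 := gFun_slash_of_mem_Gamma1 a (mem_GammaML.mp h).1
    have h2 : σ = (-1 : SL(2, ℤ)) * (-σ) := by
      rw [neg_mul, one_mul, neg_neg]
    rw [h2, SlashAction.slash_mul, slash_neg_one_even ⟨2, by norm_num⟩, h1]

/-- boundedness at every cusp. -/
theorem isBoundedAtImInfty_gFun_slash (M : ℕ) (a : ZMod M) (σ : SL(2, ℤ)) :
    IsBoundedAtImInfty (gFun M a ∣[(4 : ℤ)] σ) := by
  rw [gFun, eisW_slash]
  exact isBoundedAtImInfty_eisW (fun v => norm_wA_le M a _) (by norm_num)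

/-- **`gFun M a` is a modular form of weight `4` for `± (Γ₁(M) ∩ Γ₀(M L))`.** -/
theorem isMF_gFun (M L : ℕ) (a : ZMod M) : IsMF (Gpm M L) 4 (gFun M a) where
  holo := mdiff_gFun M a
  inv := fun _ hγ => gFun_slash_of_mem_Gpm a hγ
  bdd := isBoundedAtImInfty_gFun_slash M a

/-- `gFun M a` is holomorphic, `1`-periodic and bounded at `i∞`. -/
theorem isHolBdd_gFun (M : ℕ) (a : ZMod M) : IsHolBdd 1 (gFun M a) where
  per := by
    apply periodic_comp_ofComplex_of_vadd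
    intro τ
    have h := congrFun (gFun_slash_of_mem_Gpm (L := 1) a (T_mem_Gpm M 1)) τ
    rw [SL_slash_apply] at h
    have hd : denom (T : GL (Fin 2) ℝ) τ = 1 := by
      rw [denom_apply T τ]
      simp [ModularGroup.T]
    rw [hd, _root_.one_zpow, mul_one] at h
    rw [← h, UpperHalfPlane.modular_T_smul]
  hol := mdiff_gFun M a
  bdd := isBoundedAtImInfty_eisW (norm_wA_le M a) (by norm_num)

end

end Fermat.Agent.W1
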